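import Mathlib
import Fermat.Prelude.Def_ModularCurve_ModularUnit
import Fermat.Prelude.Thm_ModularCurve_coeffMap_qExpand
import Fermat.Agent.S24.RepHom
import Fermat.Agent.S24.LevelRaise
import Fermat.Agent.S24.LmapJ
import Fermat.Agent.S24.QRep
import Fermat.Agent.S30.Hecke.BetaAnalytic
import Fermat.Agent.S30.Analytic.RepFieldEq
import Fermat.Agent.S30.Descent.Cap

/-!
# PROJECT U (S34): the modular unit `u = Δ(z) / Δ(q z)` as an element of the function field
(helper11)

The Prelude has the SERIES `ModularCurve.modularUnitSeries q : LaurentSeries ℚ`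
(`= deltaSeries * (qExpand q deltaSeries)⁻¹`, monic of order `1 - q`).  Here, for every level
`M * q` (`q ≥ 1` any integer):

* `isRepOf_unit` (U1) : `coeffEmb ℂ (modularUnitSeries q)` is represented by the pair of weight `12`
  forms `(Δ, Δ(q ·))` at level `M * q`;
* **`modularUnitSeries_mem`** (U2) : `modularUnitSeries q ∈ modularFunctionFieldFull (M * q)`,
  over `ℚ` (`RepFieldEq.mem_repField_iff` + `Cap.mem_of_coeffMap_mem_adjoin`);
  `modularUnitSeries_mem_of_dvd` : the same at any level `N` with `q ∣ N`;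
* `uFull`, `uBar` : the elements of `modularFunctionFieldFull N`, `modularFunctionFieldBar N`.
-/

set_option autoImplicit false
set_option linter.unusedSectionVars false

noncomputable section

namespace Fermat.Agent.S34.ModularUnit

open UpperHalfPlane CongruenceSubgroup ModularForm ModularCurve
open Fermat.Agent.S20 Fermat.Agent.S24.RepHom Fermat.Agent.S24.LevelRaise Fermat.Agent.S23.QRing
open Fermat.Agent.S24.QRep (dil ofPowerSeries_qExpansion_dil)
open Fermat.Agent.S30.Hecke.BetaAnalytic
open scoped MatrixGroups ModularForm Manifold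

local notation "Kb" => AlgebraicClosure ℚ

/-! ### the `q`-expansion of `Δ` -/

theorem map_map_int (p : PowerSeries ℤ) :
    (p.map (Int.castRingHom ℚ)).map (algebraMap ℚ ℂ) = p.map (Int.castRingHom ℂ) := by
  ext n
  simp

/-- `ofPS (qExp Δ) = coeffEmb ℂ deltaSeries` -/
theorem ofPS_qx_DeltaMF :
    ofPS (qx (⇑DeltaMF)) = coeffEmb ℂ deltaSeries := by
  show HahnSeries.ofPowerSeries ℤ ℂ (qExpansion 1 DeltaMF) = coeffEmb ℂ deltaSeries
  have h1 : coeffEmb ℂ deltaSeries = HahnSeries.single (1 : ℤ) (1 : ℂ) *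
      HahnSeries.ofPowerSeries ℤ ℂ (dedekindEtaUnit.map (Int.castRingHom ℂ)) := by
    rw [deltaSeries, coeffEmb, map_mul, coeffMap_single, map_one, coeffMap_ofPowerSeries,
      dedekindEtaUnitQ, map_map_int]
  rw [h1, qExpansion_DeltaMF, map_mul, HahnSeries.ofPowerSeries_X]

variable (M q : ℕ) [NeZero M] [NeZero q]

instance neZero_mul : NeZero (M * q) := ⟨Nat.mul_ne_zero (NeZero.ne M) (NeZero.ne q)⟩

/-- `Δ` as a form of level `M` -/
theorem isMF_Delta : IsMF (G0 M) 12 (⇑DeltaMF) := (IsMF.coe DeltaMF).ofLevelOne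

/-- **(U1)** the modular unit is the quotient `Δ(z) / Δ(q z)` of two forms of weight `12` and
level `M q`. -/
theorem isRepOf_unit :
    IsRepOf (M * q) (coeffEmb ℂ (modularUnitSeries q)) 12 (⇑DeltaMF) (dil q (⇑DeltaMF)) where
  ha := (IsMF.coe DeltaMF).ofLevelOne
  hb := isMF_dil M q (isMF_Delta M)
  hb0 := dil_ne_zero q Fermat.Agent.S24.LmapJ.DeltaMF_ne_zero
  eq := by
    have h1 : ofPS (qx (dil q (⇑DeltaMF))) = qExpand ℂ q (ofPS (qx (⇑DeltaMF))) :=
      ofPowerSeries_qExpansion_dil (isQ_qrep (isMF_Delta M)) q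
    rw [h1, ofPS_qx_DeltaMF, coeffEmb, ← coeffMap_qExpand, ← map_mul]
    congr 1
    exact (modularUnitSeries_mul_deltaSeriesN q).symm

/-- the complex modular unit lies in `repField (M q)` -/
theorem coeffEmb_unit_mem_repField : coeffEmb ℂ (modularUnitSeries q) ∈ repField (M * q) :=
  ⟨12, _, _, isRepOf_unit M q⟩

/-- **(U2)** the modular unit lies in the function field of level `M q`, over `ℚ`. -/
theorem modularUnitSeries_mem : modularUnitSeries q ∈ modularFunctionFieldFull (M * q) := by
  have h := (Fermat.Agent.S30.Analytic.RepFieldEq.mem_repField_iff (M * q)).mp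
    (coeffEmb_unit_mem_repField M q)
  exact Fermat.Agent.S30.Descent.Cap.mem_of_coeffMap_mem_adjoin (K := ℚ) (K' := ℂ)
    (modularFunctionFieldFull (M * q)) h

/-- **(U2)** at any level divisible by `q` -/
theorem modularUnitSeries_mem_of_dvd (N : ℕ) [NeZero N] (hq : q ∣ N) :
    modularUnitSeries q ∈ modularFunctionFieldFull N := by
  obtain ⟨M', hM'⟩ := hq
  rw [mul_comm] at hM'
  subst hM'
  have : NeZero M' := ⟨fun h0 => NeZero.ne (M' * q) (by rw [h0, zero_mul])⟩
  exact modularUnitSeries_mem M' q

/-! ### the elements of the function fields -/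

section Elements

variable (N : ℕ) [NeZero N]
variable {q}

/-- the modular unit as an element of the function field over `ℚ` -/
def uFull (hq : q ∣ N) : modularFunctionFieldFull N :=
  ⟨modularUnitSeries q, modularUnitSeries_mem_of_dvd q N hq⟩

@[simp] theorem coe_uFull (hq : q ∣ N) :
    ((uFull N hq : modularFunctionFieldFull N) : LaurentSeries ℚ) = modularUnitSeries q := rfl

theorem uFull_ne_zero (hq : q ∣ N) : uFull N hq ≠ 0 := fun h =>
  ModularCurve.modularUnitSeries_ne_zero q (by simpa using congrArg Subtype.val h)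

/-- the modular unit as an element of the function field over `ℚ̄` -/
def uBar (hq : q ∣ N) : modularFunctionFieldBar N :=
  ⟨coeffEmb Kb (modularUnitSeries q),
    coeffEmb_mem_laurentBaseChange Kb (modularUnitSeries_mem_of_dvd q N hq)⟩

@[simp] theorem coe_uBar (hq : q ∣ N) :
    ((uBar N hq : modularFunctionFieldBar N) : LaurentSeries Kb) =
      coeffEmb Kb (modularUnitSeries q) := rfl

theorem uBar_ne_zero (hq : q ∣ N) : uBar N hq ≠ 0 := fun h => by
  have h1 : coeffEmb Kb (modularUnitSeries q) = 0 := by simpa using congrArg Subtype.val h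
  exact ModularCurve.modularUnitSeries_ne_zero q ((map_eq_zero (coeffEmb Kb)).mp h1)

/-- `u · Δ(q ·) = Δ` over `ℚ̄` (the defining relation, base-changed) -/
theorem coe_uBar_mul (hq : q ∣ N) :
    ((uBar N hq : modularFunctionFieldBar N) : LaurentSeries Kb) * coeffEmb Kb (deltaSeriesN q) =
      coeffEmb Kb deltaSeries := by
  rw [coe_uBar, ← map_mul, modularUnitSeries_mul_deltaSeriesN]

end Elements

end Fermat.Agent.S34.ModularUnit
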