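import Mathlib
import Fermat.Agent.S18.B.GenusIneqX0
import Fermat.Agent.S18.A.Hurwitz
import Fermat.Agent.S18.A.DiffLower
import Fermat.Agent.S24.GenusNat
import Fermat.Agent.S24.OrbitsPtAlt
import Fermat.Agent.S24.OrbitsCuspAlt

/-!
# PROJECT U (S34): the RIEMANN genus of `ℚ̄(X₀(N))` is the classical genus formula

`S24` proves `AlgebraicCurve.genus = genusFormula N` under `[HasCanonicalDivisor]`.  The function
field toolkit of S18/S37/S34 works with the Riemann genus `g` of
`S18.NonSpecial.RiemannHyp Kb (modularFunctionFieldBar N) g`.  Here we link the two: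

* `hurwitz_eq_of_charZero` : in characteristic zero the Hurwitz formula of `S18/A` reads
  `2g - 2 + 2n = ∑_{a ∈ T} (n - #fibre a) + (n - #poles)` as soon as the fibres off `T` have
  `n` points;
* `riemann_genus_eq_formula` : `RiemannHyp Kb (modularFunctionFieldBar N) g → g = genusFormula N`.
-/

set_option autoImplicit false

namespace Fermat.Agent.S34.GenusRiemann

open AlgebraicCurve IntermediateField ModularCurve Fermat.Agent.S24.FF
open Fermat.Agent.S18.A Fermat.Agent.S18.B
open Fermat.Agent.S24.DegreeAlg (jgen)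

universe u w

section Abstract

variable {K : Type w} {F : Type u} [Field K] [Field F] [Algebra K F] [IsAlgClosed K] [CharZero K]
  {x : F}

/-- **Hurwitz in characteristic zero, with fibre cardinalities.** -/
theorem hurwitz_eq_of_charZero (hx : IsFF K x) (hsep : Algebra.IsSeparable K⟮x⟯ F) {g : ℕ}
    (hH : Defs.HurwitzFormula hx hsep g) (T : Finset K)
    (hT : ∀ c : K, c ∉ T → (FibreSep.zeros hx hsep c).card = Module.finrank K⟮x⟯ F) :
    2 * (g : ℤ) - 2 + 2 * (Module.finrank K⟮x⟯ F : ℤ)
      = ∑ a ∈ T, ((Module.finrank K⟮x⟯ F : ℤ) - ((FibreSep.zeros hx hsep a).card : ℤ))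
        + ((Module.finrank K⟮x⟯ F : ℤ) - ((FibreSep.poles hx hsep).card : ℤ)) := by
  refine le_antisymm ?_ ?_
  · exact GenusIneq.hurwitz_le_of_tame hx hsep hH
      (fun P c hP => (DiffLower.diffExp_eq_of_charZero_zero hx hsep c hP).le)
      (fun P hP => (DiffLower.diffExp_eq_of_charZero_pole hx hsep hP).le) T hT
  · refine le_trans (le_of_eq ?_) (GenusIneq.sum_fibres_le_hurwitz hx hsep hH T)
    congr 1
    · refine Finset.sum_congr rfl fun a _ => ?_
      rw [← GenusIneq.sum_zeros_sub_one hx hsep a]
      refine Finset.sum_congr rfl fun Q hQ => ?_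
      exact (DiffLower.diffExp_eq_of_charZero_zero hx hsep a
        ((FibreSep.mem_zeros hx hsep a Q).mp hQ)).symm
    · rw [← GenusIneq.sum_poles_sub_one hx hsep]
      refine Finset.sum_congr rfl fun Q hQ => ?_
      exact (DiffLower.diffExp_eq_of_charZero_pole hx hsep
        ((FibreSep.mem_poles hx hsep Q).mp hQ)).symm

end Abstract

local notation "Kb" => AlgebraicClosure ℚ

variable (N : ℕ) [NeZero N]

/-- **The Riemann genus of `ℚ̄(X₀(N))` is `genusFormula N`.** -/
theorem riemann_genus_eq_formula {g : ℕ}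
    (hR : Fermat.Agent.S18.NonSpecial.RiemannHyp Kb ↥(modularFunctionFieldBar N) g) :
    (g : ℚ) = genusFormula N := by
  classical
  have hx := Instances.isFF_jgen N
  have hsep := Instances.isSeparable_jgen N
  have hH := Hurwitz.hurwitzFormula hx hsep hR
  have h17280 : (1728 : Kb) ≠ 0 := by norm_num
  have key := hurwitz_eq_of_charZero hx hsep hH ({1728, 0} : Finset Kb) (fun c hc => by
    rw [Finset.mem_insert, Finset.mem_singleton, not_or] at hc
    exact GenusIneqX0.card_zeros_jgen N c hc.1 hc.2)
  rw [Finset.sum_pair h17280, ← FibreSep.card_zeros, ← FibreSep.card_zeros, ← FibreSep.card_poles,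
    Fermat.Agent.S24.OrbitsPtAlt.card_1728 N, Fermat.Agent.S24.OrbitsPtAlt.card_zero N,
    Fermat.Agent.S24.OrbitsCuspAlt.card_poles N, Instances.finrank_jgen] at key
  obtain ⟨g', hg', h'⟩ := Fermat.Agent.S24.GenusNat.exists_nat_genus_hurwitz N
  have hgg : (g : ℤ) = (g' : ℤ) := by linarith
  rw [← hg']
  exact_mod_cast hgg

/-- two Riemann genera of `ℚ̄(X₀(N))` agree -/
theorem riemann_genus_unique {g g' : ℕ}
    (hR : Fermat.Agent.S18.NonSpecial.RiemannHyp Kb ↥(modularFunctionFieldBar N) g)
    (hR' : Fermat.Agent.S18.NonSpecial.RiemannHyp Kb ↥(modularFunctionFieldBar N) g') : g = g' := by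
  have h1 := riemann_genus_eq_formula N hR
  have h2 := riemann_genus_eq_formula N hR'
  exact_mod_cast h1.trans h2.symm

end Fermat.Agent.S34.GenusRiemann
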