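/-
PROJECT U glue (helper18): from the two function-level statements (Z1) and (Core-Z) to
`(s - 1)^2 = 0` on the torsion of `Pic0`, for an arbitrary function field and an arbitrary
semilinear automorphism.  Prelude-only.
-/
import Fermat.Prelude.Def_AlgebraicCurve_BaseChangeGalois
import Fermat.Prelude.Def_ModularCurve_ArithmeticGalois
import Fermat.Prelude.Def_FLTPrelim_Ramification

set_option autoImplicit false

noncomputable section

namespace Fermat.Agent.S34.KummerZ

open AlgebraicCurve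

variable {K F : Type*} [Field K] [Field F] [Algebra K F]

/-! ### Orders of constants -/

/-- A nonzero constant has order `0` at every place. -/
theorem ord_algebraMap (v : Place K F) {c : K} (hc : c ≠ 0) :
    v.ord (algebraMap K F c) = 0 := by
  have hmem : algebraMap K F c ∈ v.toValuationSubring := v.algebraMap_mem' c
  have hmem' : algebraMap K F c⁻¹ ∈ v.toValuationSubring := v.algebraMap_mem' c⁻¹
  have h1 : algebraMap K F c * algebraMap K F c⁻¹ = 1 := by
    rw [← map_mul, mul_inv_cancel₀ hc, map_one]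
  have h2 : algebraMap K F c⁻¹ * algebraMap K F c = 1 := by
    rw [mul_comm]; exact h1
  let u : v.toValuationSubringˣ :=
    ⟨⟨_, hmem⟩, ⟨_, hmem'⟩, Subtype.ext h1, Subtype.ext h2⟩
  exact v.ord_coe_unit u

theorem ord_pow (v : Place K F) (f : F) (n : ℕ) : v.ord (f ^ n) = n * v.ord f := by
  have := v.ord_zpow f (n : ℤ)
  rwa [zpow_natCast] at this

/-- Transport of orders: `ord_w (g • f) = ord_{g⁻¹ w} f`. -/
theorem ord_smul_eq (g : SemilinearAut K F) (w : Place K F) (f : F) :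
    w.ord (g • f) = (g⁻¹ • w).ord f := by
  have h := SemilinearAut.ord_smul g (g⁻¹ • w) f
  rwa [smul_inv_smul] at h

/-! ### `D` is the divisor of `f` -/

/-- `IsDivOf D f`: the divisor `D` is the divisor of the function `f`. -/
def IsDivOf (D : Divisor K F) (f : F) : Prop := ∀ w : Place K F, D w = w.ord f

theorem IsDivOf.smul {D : Divisor K F} {f : F} (h : IsDivOf D f) (g : SemilinearAut K F) :
    IsDivOf (g • D) (g • f) := fun w => by
  rw [SemilinearAut.divisor_smul_apply, h (g⁻¹ • w), ord_smul_eq]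

theorem isPrincipal_of_isDivOf {D : Divisor K F} {f : F} (hf : f ≠ 0) (h : IsDivOf D f) :
    D ∈ Divisor.principal (K := K) (F := F) := ⟨f, hf, h⟩

/-- Divisors are torsion free. -/
theorem divisor_eq_of_nsmul_eq {n : ℕ} (hn : n ≠ 0) {D E : Divisor K F}
    (h : (n : ℤ) • D = (n : ℤ) • E) : D = E := by
  ext w
  have hw := DFunLike.congr_fun h w
  rw [Finsupp.smul_apply, Finsupp.smul_apply, smul_eq_mul, smul_eq_mul] at hw
  exact mul_left_cancel₀ (Int.natCast_ne_zero.mpr hn) hw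

/-! ### Torsion classes are Kummer classes -/

/-- A class killed by `n` is the class of a degree-zero divisor `D` with `n • D = div f`. -/
theorem exists_mk_of_zsmul_eq_zero {n : ℤ} {y : Pic0 K F} (hy : n • y = 0) :
    ∃ (D : Divisor.degZero (K := K) (F := F)) (f : F), y = Pic0.mk D ∧ f ≠ 0 ∧
      ∀ w : Place K F, w.ord f = n * (D : Divisor K F) w := by
  obtain ⟨D, rfl⟩ := Pic0.mk_surjective y
  have h1 : Pic0.mk (n • D) = 0 := hy
  have h2 : n • D ∈ (Divisor.principal (K := K) (F := F)).addSubgroupOf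
      (Divisor.degZero (K := K) (F := F)) :=
    (QuotientAddGroup.eq_zero_iff _).mp h1
  rw [AddSubgroup.mem_addSubgroupOf] at h2
  obtain ⟨f, hf, hD⟩ := h2
  refine ⟨D, f, rfl, hf, fun w => ?_⟩
  rw [← hD w]
  simp

/-- A degree-zero divisor which is the divisor of a nonzero function has trivial class. -/
theorem mk_eq_zero_of_isDivOf {D : Divisor.degZero (K := K) (F := F)} {f : F} (hf : f ≠ 0)
    (h : IsDivOf (D : Divisor K F) f) : Pic0.mk D = 0 := by
  refine (QuotientAddGroup.eq_zero_iff _).mpr ?_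
  rw [AddSubgroup.mem_addSubgroupOf]
  exact ⟨f, hf, h⟩

/-! ### The main abstract statement -/

/-- `Hn n f`: `f` is a nonzero function whose divisor is divisible by `n`
(pointwise form; no finiteness is needed). -/
def Hn (n : ℕ) (f : F) : Prop := f ≠ 0 ∧ ∀ w : Place K F, (n : ℤ) ∣ w.ord f

/-- With a divisor witness. -/
theorem Hn.of_divisor {n : ℕ} {f : F} (hf : f ≠ 0) (D : Divisor K F)
    (h : ∀ w : Place K F, w.ord f = n * D w) : Hn (K := K) n f :=
  ⟨hf, fun w => ⟨D w, h w⟩⟩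

/-- If `F` has principal divisors, `Hn` gives a genuine divisor `D` with `div f = n D`. -/
theorem Hn.exists_divisor [HasPrincipalDivisors K F] {n : ℕ} (hn : n ≠ 0) {f : F}
    (h : Hn (K := K) n f) :
    ∃ D : Divisor K F, (∀ w : Place K F, w.ord f = n * D w) ∧ Divisor.degree D = 0 := by
  classical
  obtain ⟨E, hE, hdeg⟩ := HasPrincipalDivisors.exists_divisor (K := K) f h.1
  have hn' : (n : ℤ) ≠ 0 := Int.natCast_ne_zero.mpr hn
  let D : Divisor K F := E.mapRange (fun m : ℤ => m / n) (by simp)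
  have hD : ∀ w : Place K F, w.ord f = n * D w := fun w => by
    show w.ord f = n * (E.mapRange (fun m : ℤ => m / n) (by simp)) w
    rw [Finsupp.mapRange_apply, hE w]
    exact (Int.mul_ediv_cancel' (h.2 w)).symm
  refine ⟨D, hD, ?_⟩
  have hnD : (n : ℤ) • D = E := by
    ext w
    rw [Finsupp.smul_apply, smul_eq_mul, ← hD w, hE w]
  have : (n : ℤ) * Divisor.degree D = 0 := by
    rw [← smul_eq_mul, ← map_zsmul, hnD, hdeg]
  exact (mul_eq_zero.mp this).resolve_left hn'

/-- **Kummer glue.**  If (Z1) `g f / f ∈ K^× · F^{×n} · Z` for all `f ∈ H_n`, and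
(Core-Z) `g u / u ∈ K^× · F^{×n}` for all `u ∈ H_n ∩ Z`, then `(g - 1)^2` kills `Pic0[n]`. -/
theorem sq_eq_zero_of_kummer (g : SemilinearAut K F) (n : ℕ) (hn : n ≠ 0) (P : F → Prop)
    (h1 : ∀ f : F, Hn (K := K) n f → ∃ (c : K) (h u : F), c ≠ 0 ∧ h ≠ 0 ∧ u ≠ 0 ∧ P u ∧
      g • f = algebraMap K F c * h ^ n * u * f)
    (h2 : ∀ u : F, Hn (K := K) n u → P u → ∃ (c : K) (h : F), c ≠ 0 ∧ h ≠ 0 ∧
      g • u = algebraMap K F c * h ^ n * u)
    (y : Pic0 K F) (hy : (n : ℤ) • y = 0) :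
    g • (g • y) + y = 2 • (g • y) := by
  have hn' : (n : ℤ) ≠ 0 := Int.natCast_ne_zero.mpr hn
  obtain ⟨D, f, rfl, hf, hD⟩ := exists_mk_of_zsmul_eq_zero hy
  have hHf : Hn (K := K) n f := ⟨hf, fun w => ⟨_, hD w⟩⟩
  obtain ⟨c, h, u, hc, hh, hu, hPu, hgf⟩ := h1 f hHf
  have hcF : algebraMap K F c ≠ 0 := (map_ne_zero _).mpr hc
  have hgf0 : g • f ≠ 0 := by
    rw [hgf]
    exact mul_ne_zero (mul_ne_zero (mul_ne_zero hcF (pow_ne_zero _ hh)) hu) hf
  -- `u ∈ H_n`
  have hHu : Hn (K := K) n u := by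
    refine ⟨hu, fun w => ?_⟩
    have e1 : w.ord (g • f) = w.ord (algebraMap K F c * h ^ n * u * f) := by rw [hgf]
    rw [w.ord_mul (mul_ne_zero (mul_ne_zero hcF (pow_ne_zero _ hh)) hu) hf,
      w.ord_mul (mul_ne_zero hcF (pow_ne_zero _ hh)) hu,
      w.ord_mul hcF (pow_ne_zero _ hh), ord_algebraMap w hc, ord_pow, ord_smul_eq, hD, hD] at e1
    refine ⟨(D : Divisor K F) (g⁻¹ • w) - w.ord h - (D : Divisor K F) w, ?_⟩
    linarith
  obtain ⟨c', h', hc', hh', hgu⟩ := h2 u hHu hPu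
  have hc'F : algebraMap K F c' ≠ 0 := (map_ne_zero _).mpr hc'
  have hgh : g • h ≠ 0 := by
    rw [SemilinearAut.smul_def]
    exact (map_ne_zero _).mpr hh
  have hgc : SemilinearAut.baseAut g c ≠ 0 := (map_ne_zero _).mpr hc
  have hgcF : algebraMap K F (SemilinearAut.baseAut g c) ≠ 0 := (map_ne_zero _).mpr hgc
  -- the key identity `g²f · f · c = gc · c' · (g h · h' / h)^n · (g f)²`
  set H : F := g • h * h' * h⁻¹ with hH
  have hH0 : H ≠ 0 := mul_ne_zero (mul_ne_zero hgh hh') (inv_ne_zero hh)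
  have key : g • (g • f) * f * algebraMap K F c
      = algebraMap K F (SemilinearAut.baseAut g c) * algebraMap K F c' * H ^ n
        * ((g • f) * (g • f)) := by
    have e2 : g • (g • f) = algebraMap K F (SemilinearAut.baseAut g c) * (g • h) ^ n
        * (g • u) * (g • f) := by
      conv_lhs => rw [hgf]
      rw [smul_mul', smul_mul', smul_mul', smul_pow', SemilinearAut.smul_algebraMap]
    rw [e2, hgu, hH, mul_pow, mul_pow, inv_pow]
    field_simp
    rw [hgf]
    ring
  -- take orders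
  have hord : ∀ w : Place K F,
      (D : Divisor K F) (g⁻¹ • (g⁻¹ • w)) + (D : Divisor K F) w
        - 2 * (D : Divisor K F) (g⁻¹ • w) = w.ord H := by
    intro w
    have e3 := congrArg w.ord key
    have hggf0 : g • (g • f) ≠ 0 := by
      rw [SemilinearAut.smul_def]
      exact (map_ne_zero _).mpr hgf0
    rw [w.ord_mul (mul_ne_zero hggf0 hf) hcF, w.ord_mul hggf0 hf, ord_algebraMap w hc,
      w.ord_mul (mul_ne_zero (mul_ne_zero hgcF hc'F) (pow_ne_zero _ hH0))
        (mul_ne_zero hgf0 hgf0),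
      w.ord_mul (mul_ne_zero hgcF hc'F) (pow_ne_zero _ hH0), w.ord_mul hgcF hc'F,
      ord_algebraMap w hgc, ord_algebraMap w hc', w.ord_mul hgf0 hgf0, ord_pow,
      ord_smul_eq g w (g • f), ord_smul_eq g (g⁻¹ • w) f, ord_smul_eq g w f, hD, hD, hD] at e3
    have e4 : (n : ℤ) * ((D : Divisor K F) (g⁻¹ • (g⁻¹ • w)) + (D : Divisor K F) w
        - 2 * (D : Divisor K F) (g⁻¹ • w)) = (n : ℤ) * w.ord H := by linarith
    exact mul_left_cancel₀ hn' e4
  -- conclude in `Pic0`
  rw [SemilinearAut.pic0_smul_mk, SemilinearAut.pic0_smul_mk, ← sub_eq_zero, two_smul,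
    ← Pic0.mk_add, ← Pic0.mk_add]
  have hsub : Pic0.mk (SemilinearAut.degZeroSMulHom g (SemilinearAut.degZeroSMulHom g D) + D)
      - Pic0.mk (SemilinearAut.degZeroSMulHom g D + SemilinearAut.degZeroSMulHom g D)
      = Pic0.mk (SemilinearAut.degZeroSMulHom g (SemilinearAut.degZeroSMulHom g D) + D
        - (SemilinearAut.degZeroSMulHom g D + SemilinearAut.degZeroSMulHom g D)) := rfl
  rw [hsub]
  refine mk_eq_zero_of_isDivOf hH0 (fun w => ?_)
  rw [← hord w]
  simp only [AddSubgroup.coe_sub, AddSubgroup.coe_add, SemilinearAut.coe_degZeroSMulHom,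
    Finsupp.sub_apply, Finsupp.add_apply, SemilinearAut.divisor_smul_apply]
  ring

/-- The same statement for a natural-number torsion hypothesis. -/
theorem sq_eq_zero_of_kummer_nsmul (g : SemilinearAut K F) (n : ℕ) (hn : n ≠ 0) (P : F → Prop)
    (h1 : ∀ f : F, Hn (K := K) n f → ∃ (c : K) (h u : F), c ≠ 0 ∧ h ≠ 0 ∧ u ≠ 0 ∧ P u ∧
      g • f = algebraMap K F c * h ^ n * u * f)
    (h2 : ∀ u : F, Hn (K := K) n u → P u → ∃ (c : K) (h : F), c ≠ 0 ∧ h ≠ 0 ∧
      g • u = algebraMap K F c * h ^ n * u)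
    (y : Pic0 K F) (hy : n • y = 0) :
    g • (g • y) + y = 2 • (g • y) :=
  sq_eq_zero_of_kummer g n hn P h1 h2 y (by rw [natCast_zsmul]; exact hy)

/-! ### The modular instance: the shape of `(U)` -/

open ModularCurve

/-- The Galois version at level `N`, for one Galois element `s` and one exponent `n`. -/
theorem galois_sq_eq_zero (N : ℕ) (s : AlgebraicClosure ℚ ≃ₐ[ℚ] AlgebraicClosure ℚ)
    (n : ℕ) (hn : n ≠ 0) (P : modularFunctionFieldBar N → Prop)
    (h1 : ∀ f : modularFunctionFieldBar N, Hn (K := AlgebraicClosure ℚ) n f →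
      ∃ (c : AlgebraicClosure ℚ) (h u : modularFunctionFieldBar N),
        c ≠ 0 ∧ h ≠ 0 ∧ u ≠ 0 ∧ P u ∧
        arithmeticGalois (modularFunctionFieldFull N) s • f
          = algebraMap (AlgebraicClosure ℚ) (modularFunctionFieldBar N) c * h ^ n * u * f)
    (h2 : ∀ u : modularFunctionFieldBar N, Hn (K := AlgebraicClosure ℚ) n u → P u →
      ∃ (c : AlgebraicClosure ℚ) (h : modularFunctionFieldBar N), c ≠ 0 ∧ h ≠ 0 ∧
        arithmeticGalois (modularFunctionFieldFull N) s • u
          = algebraMap (AlgebraicClosure ℚ) (modularFunctionFieldBar N) c * h ^ n * u)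
    (y : JZero N) (hy : n • y = 0) :
    s • (s • y) + y = 2 • (s • y) := by
  rw [galois_smul_pic0_def, galois_smul_pic0_def]
  exact sq_eq_zero_of_kummer_nsmul _ n hn P h1 h2 y hy

/-- **The deliverable `(U)` of PROJECT U from (Z1) and (Core-Z)**, in the shape
`(s - 1)^2 = 0` on `J_0(N)[p^∞]` for all inertia elements `s` at all valuation rings of `Q̄`
above `q`.  The predicate `P A` is "`u ≡ 1` modulo the two Gauss valuations above `A`". -/
theorem uHyp_of_kummer (N p q : ℕ) (hp : p ≠ 0)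
    (P : ValuationSubring (AlgebraicClosure ℚ) → modularFunctionFieldBar N → Prop)
    (h1 : ∀ A : ValuationSubring (AlgebraicClosure ℚ), A.LiesOverPrime q →
      ∀ s ∈ A.inertiaSubgroupIn ℚ, ∀ k : ℕ, ∀ f : modularFunctionFieldBar N,
      Hn (K := AlgebraicClosure ℚ) (p ^ k) f →
      ∃ (c : AlgebraicClosure ℚ) (h u : modularFunctionFieldBar N),
        c ≠ 0 ∧ h ≠ 0 ∧ u ≠ 0 ∧ P A u ∧
        arithmeticGalois (modularFunctionFieldFull N) s • f
          = algebraMap (AlgebraicClosure ℚ) (modularFunctionFieldBar N) c * h ^ (p ^ k) * u * f)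
    (h2 : ∀ A : ValuationSubring (AlgebraicClosure ℚ), A.LiesOverPrime q →
      ∀ s ∈ A.inertiaSubgroupIn ℚ, ∀ k : ℕ, ∀ u : modularFunctionFieldBar N,
      Hn (K := AlgebraicClosure ℚ) (p ^ k) u → P A u →
      ∃ (c : AlgebraicClosure ℚ) (h : modularFunctionFieldBar N), c ≠ 0 ∧ h ≠ 0 ∧
        arithmeticGalois (modularFunctionFieldFull N) s • u
          = algebraMap (AlgebraicClosure ℚ) (modularFunctionFieldBar N) c * h ^ (p ^ k) * u) :
    ∀ A : ValuationSubring (AlgebraicClosure ℚ), A.LiesOverPrime q →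
      ∀ s ∈ A.inertiaSubgroupIn ℚ, ∀ y : JZero N, (∃ k : ℕ, p ^ k • y = 0) →
        s • (s • y) + y = 2 • (s • y) := by
  rintro A hA s hs y ⟨k, hk⟩
  exact galois_sq_eq_zero N s (p ^ k) (pow_ne_zero k hp) (P A)
    (h1 A hA s hs k) (h2 A hA s hs k) y hk

end Fermat.Agent.S34.KummerZ

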