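/-
PROJECT U (S34), ROUTE G, integration bridge, part 1 (helper6):
FROM DIVISOR LANGUAGE TO FUNCTION LANGUAGE.

`UOfCoreZ.CoreZHyp` (the last open input of (U)) is stated on FUNCTIONS:
`σ u = c · h ^ n · u` for `u ∈ H_n` which is a one-unit of both Gauss valuation rings.
The nodal core (`S34/NodalCore`) concludes on DIVISORS: `σ D - D` is principal, where `n D = div u`.
This file is the (Prelude-only) dictionary between the two:

* `eq_const_mul_pow_mul_of_principal` : if `div u = n D` and `g • D - D = div h`, then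
  `g • u = c · h ^ n · u` for a constant `c ≠ 0`  (needs only: a function without zeros and poles
  is a constant);
* `coreZ_of_principal` : the same with `KummerZ.Hn n u` as input and the principal-ness statement
  quantified over the divisor witnesses, in the exact output shape of `CoreZHyp`;
* `smul_divisor_sub_degree` : `g • D - D` has degree `0` as soon as `g` preserves degrees of places
  (true when all places have degree one).
-/
import Fermat.Agent.S34.KummerZ

set_option autoImplicit false

noncomputable section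

namespace Fermat.Agent.S34.CoreZOfPrincipal

open AlgebraicCurve Fermat.Agent.S34.KummerZ

variable {K F : Type*} [Field K] [Field F] [Algebra K F]

/-- the order of a quotient -/
theorem ord_div' (w : Place K F) {a b : F} (ha : a ≠ 0) (hb : b ≠ 0) :
    w.ord (a / b) = w.ord a - w.ord b := by
  rw [div_eq_mul_inv, w.ord_mul ha (inv_ne_zero hb), w.ord_inv]
  ring

/-- **Dictionary.**  If `div u = n D` and `g • D - D` is the divisor of `h`, then
`g • u = c · h ^ n · u` with `c` a nonzero constant. -/
theorem eq_const_mul_pow_mul_of_principal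
    (hconst : ∀ f : F, f ≠ 0 → (∀ w : Place K F, w.ord f = 0) →
      ∃ c : K, c ≠ 0 ∧ f = algebraMap K F c)
    (g : SemilinearAut K F) (n : ℕ) {u : F} (hu : u ≠ 0) {D : Divisor K F}
    (hD : ∀ w : Place K F, w.ord u = n * D w)
    {h : F} (hh : h ≠ 0) (hdiv : ∀ w : Place K F, (g • D - D) w = w.ord h) :
    ∃ c : K, c ≠ 0 ∧ g • u = algebraMap K F c * h ^ n * u := by
  have hgu : g • u ≠ 0 := by
    intro h0
    apply hu
    have := congrArg (fun x => g⁻¹ • x) h0
    simpa using this
  have hden : h ^ n * u ≠ 0 := mul_ne_zero (pow_ne_zero n hh) hu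
  have hq : g • u / (h ^ n * u) ≠ 0 := div_ne_zero hgu hden
  obtain ⟨c, hc, hcq⟩ := hconst (g • u / (h ^ n * u)) hq (fun w => by
    rw [ord_div' w hgu hden, w.ord_mul (pow_ne_zero n hh) hu, KummerZ.ord_pow, ← hdiv w,
      ord_smul_eq, hD, hD, Finsupp.sub_apply, SemilinearAut.divisor_smul_apply]
    ring)
  refine ⟨c, hc, ?_⟩
  rw [mul_assoc, ← hcq, div_mul_cancel₀ _ hden]

/-- **(Core-Z) in function language from principal-ness of `g • D - D`.**  Output shape =
`UOfCoreZ.CoreZHyp`. -/
theorem coreZ_of_principal [HasPrincipalDivisors K F]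
    (hconst : ∀ f : F, f ≠ 0 → (∀ w : Place K F, w.ord f = 0) →
      ∃ c : K, c ≠ 0 ∧ f = algebraMap K F c)
    (g : SemilinearAut K F) (n : ℕ) (hn : n ≠ 0) {u : F} (hu : Hn (K := K) n u)
    (hprin : ∀ D : Divisor K F, Divisor.degree D = 0 → (∀ w : Place K F, w.ord u = n * D w) →
      g • D - D ∈ Divisor.principal (K := K) (F := F)) :
    ∃ (c : K) (h : F), c ≠ 0 ∧ h ≠ 0 ∧ g • u = algebraMap K F c * h ^ n * u := by
  obtain ⟨D, hD, hdeg⟩ := hu.exists_divisor hn
  obtain ⟨h, hh, hdiv⟩ := hprin D hdeg hD
  obtain ⟨c, hc, he⟩ := eq_const_mul_pow_mul_of_principal hconst g n hu.1 hD hh hdiv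
  exact ⟨c, h, hc, hh, he⟩

end Fermat.Agent.S34.CoreZOfPrincipal
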