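import Mathlib
import Fermat.Prelude.Def_AlgebraicCurve_DivisorClassGroup
import Fermat.Prelude.Def_AlgebraicCurve_Repartitions
import Fermat.Agent.S18.CoreDefs
import Fermat.Agent.S18.CoreOrd

/-!
# PROJECT U (S34), slice (Z5-inj): interface of the abstract NODAL core (Route G)

The analogue of `Fermat.Agent.S18.CoreDefs` for a function field `FL` over a valued field
`(L, A)` whose reduction has TWO components meeting in ordinary double points.

* `Branch A π FL Fk` : a "Gauss" valuation ring `O` of `FL` with reduction `red : O →+* Fk`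
  (the fields of `S18.CoreDefs.RedDatum` without the place map and its compatibility);
* `SmoothRed A π FL Fk` : a branch together with a PARTIAL specialisation map
  `r : Place L FL → Option (Place k Fk)` and a set `good` of places of `Fk` at which the
  compatibility `r_* div(u) = div(red u)` holds (the generic points of the component);
* `GNodalDatum A π FL F1 F2 ι` : two such components, the nodes `e1 e`, `e2 e`, admissible pairs
  of finite sets of generic places, and pole control + gluing (`pcg`);
* `GlueG N D` : the gluing hypothesis for a divisor `D` ("`ζ_e = 1` for all nodes `e`");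
* `NodalRigid` : generic rigid divisors on the two components (Step 0 of the proof).
-/

set_option autoImplicit false

namespace Fermat.Agent.S34.NodalDefs

open AlgebraicCurve

variable {L : Type*} [Field L] {k : Type*} [Field k]

/-- One component of the reduction: a Gauss valuation ring `O` of `FL` and its reduction
homomorphism to the function field `Fk` of the component. -/
structure Branch (A : ValuationSubring L) (π : A →+* k) (FL : Type*) [Field FL] [Algebra L FL]
    (Fk : Type*) [Field Fk] [Algebra k Fk] where
  /-- the Gauss valuation ring of `FL` -/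
  O : ValuationSubring FL
  /-- the reduction homomorphism -/
  red : O →+* Fk
  /-- constants of `A` are Gauss-integral -/
  algebraMap_mem : ∀ a : A, algebraMap L FL (a : L) ∈ O
  /-- `red` restricted to constants is `π` -/
  red_algebraMap : ∀ a : A, red ⟨algebraMap L FL (a : L), algebraMap_mem a⟩ = algebraMap k Fk (π a)
  /-- the kernel of `red` is the maximal ideal of `O` -/
  red_eq_zero_iff : ∀ u : O, red u = 0 ↔ ¬ IsUnit u
  /-- the value group of `O` is that of `A` -/
  exists_const_mul_unit : ∀ f : FL, f ≠ 0 →
    ∃ c : L, c ≠ 0 ∧ ∃ u : Oˣ, f = algebraMap L FL c * ((u : O) : FL)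
  /-- `O ∩ L = A` -/
  mem_of_algebraMap_mem : ∀ c : L, algebraMap L FL c ∈ O → c ∈ A

/-- A branch with a partial specialisation map onto its smooth points. -/
structure SmoothRed (A : ValuationSubring L) (π : A →+* k) (FL : Type*) [Field FL] [Algebra L FL]
    (Fk : Type*) [Field Fk] [Algebra k Fk] extends Branch A π FL Fk where
  /-- the partial specialisation map -/
  r : Place L FL → Option (Place k Fk)
  /-- the places of the component at which the compatibility holds -/
  good : Set (Place k Fk)
  /-- compatibility of the place map with divisors of Gauss units, at the good places -/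
  compat : ∀ (u : Oˣ) (D : Divisor L FL), (∀ P : Place L FL, D P = P.ord ((u : O) : FL)) →
    ∀ Q : Place k Fk, Q ∈ good → Finsupp.mapDomain r D (some Q) = Q.ord (red (u : O))

/-- `φ` takes the value `γ` at `Q` (with the convention `ord 0 = 0` the case `φ = γ` is
separate); in particular `φ` is regular at `Q`. -/
def HasValue {Fk : Type*} [Field Fk] [Algebra k Fk] (Q : Place k Fk) (φ : Fk) (γ : k) : Prop :=
  φ = algebraMap k Fk γ ∨ 0 < Q.ord (φ - algebraMap k Fk γ)

/-- **The nodal reduction datum, global form (Route G).**  Two components `R1`, `R2` with partial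
specialisation maps onto their GENERIC places (`good`), the nodes `e1 e`, `e2 e` (not generic),
admissible pairs of finite sets of generic places, and POLE CONTROL: a function of `O₁ ∩ O₂` all
of whose poles lie in the residue discs over an admissible pair `(S1, S2)` has reductions which
are regular off `S1`, `S2` and glued at the nodes. -/
structure GNodalDatum (A : ValuationSubring L) (π : A →+* k) (FL : Type*) [Field FL]
    [Algebra L FL] (F1 : Type*) [Field F1] [Algebra k F1] (F2 : Type*) [Field F2] [Algebra k F2]
    (ι : Type*) where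
  /-- the first component -/
  R1 : SmoothRed A π FL F1
  /-- the second component -/
  R2 : SmoothRed A π FL F2
  /-- the nodes, on the first component -/
  e1 : ι → Place k F1
  /-- the nodes, on the second component -/
  e2 : ι → Place k F2
  e1_not_good : ∀ e, e1 e ∉ R1.good
  e2_not_good : ∀ e, e2 e ∉ R2.good
  /-- all but finitely many places are generic -/
  finite_compl_good1 : (R1.good)ᶜ.Finite
  finite_compl_good2 : (R2.good)ᶜ.Finite
  /-- a place of `FL` lies in at most one kind of generic residue disc -/
  excl : ∀ (P : Place L FL) (Q1 : Place k F1) (Q2 : Place k F2),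
    R1.r P = some Q1 → R2.r P = some Q2 → False
  /-- the admissible pairs of sets of generic places (Frobenius-stable finite sets) -/
  Adm : Set (Place k F1) → Set (Place k F2) → Prop
  adm_subset_good : ∀ S1 S2, Adm S1 S2 → S1 ⊆ R1.good ∧ S2 ⊆ R2.good
  /-- every pair of finite sets of generic places lies in an admissible pair -/
  exists_adm : ∀ (T1 : Set (Place k F1)) (T2 : Set (Place k F2)), T1.Finite → T2.Finite →
    T1 ⊆ R1.good → T2 ⊆ R2.good → ∃ S1 S2, Adm S1 S2 ∧ T1 ⊆ S1 ∧ T2 ⊆ S2
  /-- **pole control and gluing** ((G2) + (G3)) -/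
  pcg : ∀ S1 S2, Adm S1 S2 → ∀ (h1 : R1.O) (h2 : R2.O), ((h1 : R1.O) : FL) = ((h2 : R2.O) : FL) →
    (∀ P : Place L FL, P.ord ((h1 : R1.O) : FL) < 0 →
      (∃ Q ∈ S1, R1.r P = some Q) ∨ (∃ Q ∈ S2, R2.r P = some Q)) →
    (∀ Q : Place k F1, Q ∉ S1 → 0 ≤ Q.ord (R1.red h1)) ∧
      (∀ Q : Place k F2, Q ∉ S2 → 0 ≤ Q.ord (R2.red h2)) ∧
      ∀ e, ∃ γ : k, HasValue (e1 e) (R1.red h1) γ ∧ HasValue (e2 e) (R2.red h2) γ

/-- **The gluing hypothesis (Route G form)** for a divisor `D`: every `y ∈ O₁ ∩ O₂` such that
`div y + D` is effective outside the residue discs over an admissible pair has reductions glued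
at every node. -/
def GlueG {A : ValuationSubring L} {π : A →+* k} {FL : Type*} [Field FL] [Algebra L FL]
    {F1 : Type*} [Field F1] [Algebra k F1] {F2 : Type*} [Field F2] [Algebra k F2] {ι : Type*}
    (N : GNodalDatum A π FL F1 F2 ι) (D : Divisor L FL) : Prop :=
  ∀ S1 S2, N.Adm S1 S2 → ∀ (y1 : N.R1.O) (y2 : N.R2.O),
    ((y1 : N.R1.O) : FL) = ((y2 : N.R2.O) : FL) → ((y1 : N.R1.O) : FL) ≠ 0 →
    (∀ P : Place L FL, P.ord ((y1 : N.R1.O) : FL) + D P < 0 →
      (∃ Q ∈ S1, N.R1.r P = some Q) ∨ (∃ Q ∈ S2, N.R2.r P = some Q)) →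
    ∀ e, ∃ γ : k, HasValue (N.e1 e) (N.R1.red y1) γ ∧ HasValue (N.e2 e) (N.R2.red y2) γ

/-- **Generic rigid divisors on the two components**: outside any finite sets there are `g1`
distinct places `Q1` of `F1` with `L(∑ Q1) = k` and `m2` distinct places `Q2` of `F2` such that
no nonzero element of `L(∑ Q2)` vanishes at all the nodes `e2 e`. -/
def NodalRigid (k F1 F2 : Type*) [Field k] [Field F1] [Algebra k F1] [Field F2] [Algebra k F2]
    {ι : Type*} (e2 : ι → Place k F2) (g1 m2 : ℕ) : Prop :=
  ∀ Bad1 : Set (Place k F1), Bad1.Finite → ∀ Bad2 : Set (Place k F2), Bad2.Finite →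
    ∃ (Q1 : Fin g1 → Place k F1) (Q2 : Fin m2 → Place k F2),
      Function.Injective Q1 ∧ Function.Injective Q2 ∧ (∀ i, Q1 i ∉ Bad1) ∧ (∀ i, Q2 i ∉ Bad2) ∧
      (∀ y : F1, y ∈ riemannRochSpace (∑ i, Finsupp.single (Q1 i) (1 : ℤ)) →
        ∃ c : k, y = algebraMap k F1 c) ∧
      (∀ y : F2, y ∈ riemannRochSpace (∑ i, Finsupp.single (Q2 i) (1 : ℤ)) →
        (∀ e, y = 0 ∨ 0 < (e2 e).ord y) → y = 0)

end Fermat.Agent.S34.NodalDefs
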