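import Mathlib
import Fermat.Agent.S34.NodalDefs

/-!
# PROJECT U (S34), slice (Z5-inj): evaluation on residue discs and the local form, for a
`SmoothRed`

Port of `Fermat/Agent/S18/Disc/{Datum,Eval,Local,LocalForm}.lean` from `S18.CoreDefs.RedDatum` to
`NodalDefs.SmoothRed`: the specialisation map is partial (`r P = some Q`) and the compatibility
`r_* div(u) = div(red u)` is only available at the places `Q ∈ R.good`.  The proofs are those of
S18 (they only use the compatibility at the place `Q` under consideration).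

Main results: `value_mem`, `exists_unique_zero`, `le_ord_red`, `ord_red_nonneg'`,
`local_form`.
-/

set_option autoImplicit false
set_option linter.unusedSectionVars false
set_option linter.unusedVariables false

namespace Fermat.Agent.S34.NodalDisc

open AlgebraicCurve Fermat.Agent.S24.Ord Fermat.Agent.S34.NodalDefs
open Fermat.Agent.S18.CoreOrd hiding coe_unit_ne_zero red_unit_ne_zero unitOfRed coe_unitOfRed constO
  coe_constO red_constO isUnit_iff_red_ne_zero exists_div_unit ord_red_nonneg le_ord_red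
  ord_red_eq_zero exists_unique_zero

variable {L : Type*} [Field L] {FL : Type*} [Field FL] [Algebra L FL]
variable {k : Type*} [Field k] {Fk : Type*} [Field Fk] [Algebra k Fk]
variable {A : ValuationSubring L} {π : A →+* k}

section BranchAPI

variable (R : Branch A π FL Fk)

/-- the constants `A → O` -/
def constHom : A →+* R.O where
  toFun a := ⟨algebraMap L FL (a : L), R.algebraMap_mem a⟩
  map_one' := Subtype.ext (by simp)
  map_mul' a b := Subtype.ext (by simp)
  map_zero' := Subtype.ext (by simp)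
  map_add' a b := Subtype.ext (by simp)

@[simp] theorem coe_constHom (a : A) : ((constHom R a : R.O) : FL) = algebraMap L FL (a : L) := rfl

theorem red_constHom (a : A) : R.red (constHom R a) = algebraMap k Fk (π a) := R.red_algebraMap a

theorem red_ne_zero_iff_isUnit (u : R.O) : R.red u ≠ 0 ↔ IsUnit u := by
  rw [Ne, R.red_eq_zero_iff, not_not]

theorem coe_ne_zero_of_red_ne_zero {u : R.O} (hu : R.red u ≠ 0) : (u : FL) ≠ 0 := by
  intro h
  apply hu
  have : u = 0 := Subtype.ext h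
  rw [this, map_zero]

theorem isUnit_constHom_iff (a : A) : IsUnit (constHom R a) ↔ IsUnit a := by
  constructor
  · rintro ⟨⟨u, v, huv, hvu⟩, hu⟩
    have hu' : (u : FL) = algebraMap L FL (a : L) := by
      have := congrArg (fun x : R.O => (x : FL)) hu
      simpa using this
    have h1 : algebraMap L FL (a : L) * (v : FL) = 1 := by
      have := congrArg (Subtype.val) huv
      simpa [hu'] using this
    have ha0 : (a : L) ≠ 0 := by
      rintro h0
      rw [h0, map_zero, zero_mul] at h1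
      exact zero_ne_one h1
    have hv : (v : FL) = algebraMap L FL (a : L)⁻¹ := by
      rw [map_inv₀]
      exact eq_inv_of_mul_eq_one_right h1
    have hmem : (a : L)⁻¹ ∈ A := R.mem_of_algebraMap_mem _ (hv ▸ v.2)
    exact ⟨⟨a, ⟨(a : L)⁻¹, hmem⟩, Subtype.ext (mul_inv_cancel₀ ha0),
      Subtype.ext (inv_mul_cancel₀ ha0)⟩, rfl⟩
  · exact fun h => h.map (constHom R)

include R in
/-- `π` kills exactly the non-units of `A`. -/
theorem pi_eq_zero_iff (a : A) : π a = 0 ↔ a ∈ IsLocalRing.maximalIdeal A := by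
  have h1 : π a = 0 ↔ R.red (constHom R a) = 0 := by
    rw [red_constHom, map_eq_zero_iff _ (algebraMap k Fk).injective]
  rw [h1, R.red_eq_zero_iff, IsLocalRing.mem_maximalIdeal, mem_nonunits_iff,
    isUnit_constHom_iff]

/-- an element `c ∉ A` of `L` has `c⁻¹ ∈ 𝔪_A` -/
theorem inv_mem_maximalIdeal_of_not_mem {c : L} (hcA : c ∉ A) :
    ∃ hinv : c⁻¹ ∈ A, (⟨c⁻¹, hinv⟩ : A) ∈ IsLocalRing.maximalIdeal A := by
  have hinv : c⁻¹ ∈ A := (A.mem_or_inv_mem c).resolve_left hcA
  refine ⟨hinv, ?_⟩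
  rw [IsLocalRing.mem_maximalIdeal, mem_nonunits_iff]
  rintro ⟨⟨u, v, huv, hvu⟩, hu⟩
  apply hcA
  have hu' : (u : L) = c⁻¹ := by
    have := congrArg (fun x : A => (x : L)) hu
    simpa using this
  have h1 : c⁻¹ * (v : L) = 1 := by
    have := congrArg (fun x : A => (x : L)) huv
    simpa [hu'] using this
  have hv : (v : L) = c := by
    have := eq_inv_of_mul_eq_one_right h1
    rwa [inv_inv] at this
  exact hv ▸ v.2


theorem red_unit_ne_zero (u : R.Oˣ) : R.red (u : R.O) ≠ 0 :=
  (red_ne_zero_iff_isUnit R _).mpr u.isUnit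

theorem coe_unit_ne_zero (u : R.Oˣ) : ((u : R.O) : FL) ≠ 0 :=
  coe_ne_zero_of_red_ne_zero R (red_unit_ne_zero R u)

/-- the Gauss unit attached to an element with nonzero reduction -/
noncomputable def unitOfRed (u : R.O) (h : R.red u ≠ 0) : R.Oˣ :=
  ((red_ne_zero_iff_isUnit R u).mp h).unit

@[simp]
theorem coe_unitOfRed (u : R.O) (h : R.red u ≠ 0) : ((unitOfRed R u h : R.Oˣ) : R.O) = u :=
  IsUnit.unit_spec _

theorem coe_inv_unit (u : R.Oˣ) :
    (((u⁻¹ : R.Oˣ) : R.O) : FL) = (((u : R.O) : FL))⁻¹ := by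
  have h : (((u⁻¹ : R.Oˣ) : R.O) : FL) * (((u : R.O) : FL)) = 1 := by
    have h1 : ((u⁻¹ : R.Oˣ) : R.O) * (u : R.O) = 1 := Units.inv_mul u
    rw [← MulMemClass.coe_mul, h1]
    rfl
  exact eq_inv_of_mul_eq_one_left h

theorem red_inv_unit (u : R.Oˣ) :
    R.red ((u⁻¹ : R.Oˣ) : R.O) = (R.red (u : R.O))⁻¹ := by
  have h : R.red ((u⁻¹ : R.Oˣ) : R.O) * R.red (u : R.O) = 1 := by
    rw [← map_mul]
    simp
  exact eq_inv_of_mul_eq_one_left h

/-- dividing a Gauss unit by a constant of `A` with nonzero residue -/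
theorem exists_div_const (u : R.Oˣ) (a : A) (ha : π a ≠ 0) :
    ∃ f : R.Oˣ, (((f : R.O) : FL)) = (((u : R.O) : FL)) * (algebraMap L FL (a : L))⁻¹ ∧
      R.red (f : R.O) = R.red (u : R.O) * (algebraMap k Fk (π a))⁻¹ := by
  have hne : R.red (constHom R a) ≠ 0 := by
    rw [red_constHom]
    exact (map_ne_zero_iff _ (algebraMap k Fk).injective).mpr ha
  refine ⟨u * (unitOfRed R (constHom R a) hne)⁻¹, ?_, ?_⟩
  · rw [Units.val_mul, MulMemClass.coe_mul, coe_inv_unit, coe_unitOfRed, coe_constHom]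
  · rw [Units.val_mul, map_mul, red_inv_unit, coe_unitOfRed, red_constHom]

theorem coe_ne_zero_of_pi_ne_zero {a : A} (ha : π a ≠ 0) : (a : L) ≠ 0 := by
  intro h
  apply ha
  have : a = 0 := Subtype.ext h
  rw [this, map_zero]

end BranchAPI

section SmoothAPI

variable (R : SmoothRed A π FL Fk)

/-- the compatibility for elements of `O` with non-zero reduction -/
theorem r_div (u : R.O) (hu : R.red u ≠ 0) (D : Divisor L FL)
    (hD : ∀ P, D P = P.ord (u : FL)) (Q : Place k Fk) (hQ : Q ∈ R.good) :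
    Finsupp.mapDomain R.r D (some Q) = Q.ord (R.red u) := by
  obtain ⟨u', rfl⟩ := (red_ne_zero_iff_isUnit R.toBranch u).mp hu
  exact R.compat u' D hD Q hQ

end SmoothAPI

section RegOnGeneric

variable {r : Place L FL → Option (Place k Fk)}

/-- `y` is regular at every place of the residue disc of `Q`. -/
def RegOn (r : Place L FL → Option (Place k Fk)) (y : FL) (Q : Place k Fk) : Prop :=
  ∀ P : Place L FL, r P = some Q → P.adicValuation y ≤ 1

theorem RegOn.add {y z : FL} {Q : Place k Fk} (hy : RegOn r y Q) (hz : RegOn r z Q) :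
    RegOn r (y + z) Q := fun P hP => Valuation.map_add_le _ (hy P hP) (hz P hP)

theorem RegOn.sub {y z : FL} {Q : Place k Fk} (hy : RegOn r y Q) (hz : RegOn r z Q) :
    RegOn r (y - z) Q := fun P hP => Valuation.map_sub_le _ (hy P hP) (hz P hP)

theorem RegOn.sub_left {y z : FL} {Q : Place k Fk} (hz : RegOn r z Q) (hy : RegOn r y Q) :
    RegOn r (y - z) Q := hy.sub hz

theorem RegOn.mul {y z : FL} {Q : Place k Fk} (hy : RegOn r y Q) (hz : RegOn r z Q) :
    RegOn r (y * z) Q := fun P hP => by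
  rw [map_mul]
  exact mul_le_one' (hy P hP) (hz P hP)

theorem RegOn.neg {y : FL} {Q : Place k Fk} (hy : RegOn r y Q) : RegOn r (-y) Q :=
  fun P hP => by rw [Valuation.map_neg]; exact hy P hP

theorem regOn_const (r : Place L FL → Option (Place k Fk)) (c : L) (Q : Place k Fk) : RegOn r (algebraMap L FL c) Q :=
  fun P _ => (mem_iff P _).mp (P.algebraMap_mem' c)

theorem regOn_one (r : Place L FL → Option (Place k Fk)) (Q : Place k Fk) : RegOn r (1 : FL) Q := fun P _ => by simp

theorem RegOn.pow {y : FL} {Q : Place k Fk} (hy : RegOn r y Q) (n : ℕ) : RegOn r (y ^ n) Q :=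
  fun P hP => by
    rw [map_pow]
    exact pow_le_one' (hy P hP) n


end RegOnGeneric

section ZeroCount

variable [HasPrincipalDivisors L FL] (R : SmoothRed A π FL Fk)

open Classical in
/-- Zero counting: `ord_Q (red u)` is the sum of the orders of `u` over a finite part of the
residue disc of `Q` containing all its zeros and poles there. -/
theorem exists_ord_red_eq_sum (u : R.O) (hu : R.red u ≠ 0) (Q : Place k Fk)
    (hQ : Q ∈ R.good) :
    ∃ s : Finset (Place L FL), (∀ P ∈ s, R.r P = some Q) ∧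
      (∀ P, R.r P = some Q → P.ord (u : FL) ≠ 0 → P ∈ s) ∧
      Q.ord (R.red u) = ∑ P ∈ s, P.ord (u : FL) := by
  obtain ⟨D, hD, -⟩ := HasPrincipalDivisors.exists_divisor (K := L) (u : FL)
    (coe_ne_zero_of_red_ne_zero R.toBranch hu)
  refine ⟨D.support.filter fun P => R.r P = some Q, ?_, ?_, ?_⟩
  · intro P hP
    exact (Finset.mem_filter.mp hP).2
  · intro P hP hne
    rw [Finset.mem_filter, Finsupp.mem_support_iff, hD]
    exact ⟨hne, hP⟩
  · rw [← r_div R u hu D hD Q hQ, mapDomain_apply_eq_sum]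
    exact Finset.sum_congr rfl fun P _ => hD P

theorem ord_red_nonneg (u : R.O) (hu : R.red u ≠ 0) (Q : Place k Fk) (hQ : Q ∈ R.good)
    (hreg : RegOn R.r (u : FL) Q) : 0 ≤ Q.ord (R.red u) := by
  obtain ⟨s, hs, -, hsum⟩ := exists_ord_red_eq_sum R u hu Q hQ
  rw [hsum]
  refine Finset.sum_nonneg fun P hP => ?_
  exact (ord_nonneg_iff P (coe_ne_zero_of_red_ne_zero R.toBranch hu)).mpr (hreg P (hs P hP))

theorem ord_le_ord_red (u : R.O) (hu : R.red u ≠ 0) (Q : Place k Fk) (hQ : Q ∈ R.good)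
    (hreg : RegOn R.r (u : FL) Q) (P : Place L FL) (hP : R.r P = some Q) :
    P.ord (u : FL) ≤ Q.ord (R.red u) := by
  have hu0 := coe_ne_zero_of_red_ne_zero R.toBranch hu
  obtain ⟨s, hs, hs', hsum⟩ := exists_ord_red_eq_sum R u hu Q hQ
  by_cases h0 : P.ord (u : FL) = 0
  · rw [h0]; exact ord_red_nonneg R u hu Q hQ hreg
  · rw [hsum]
    exact Finset.single_le_sum (f := fun P : Place L FL => P.ord (u : FL))
      (fun P' hP' => (ord_nonneg_iff P' hu0).mpr (hreg P' (hs P' hP'))) (hs' P hP h0)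

theorem ord_red_pos (u : R.O) (hu : R.red u ≠ 0) (Q : Place k Fk) (hQ : Q ∈ R.good)
    (hreg : RegOn R.r (u : FL) Q) (P : Place L FL) (hP : R.r P = some Q)
    (hpos : P.adicValuation (u : FL) < 1) : 0 < Q.ord (R.red u) :=
  lt_of_lt_of_le ((ord_pos_iff P (coe_ne_zero_of_red_ne_zero R.toBranch hu)).mpr hpos)
    (ord_le_ord_red R u hu Q hQ hreg P hP)

/-- If `ord_Q (red u) = 1` and `u` is regular on the disc, `u` has exactly one zero on the
disc, and it is simple. -/
theorem exists_unique_zero_of_ord_red_eq_one (u : R.O) (Q : Place k Fk) (hQ : Q ∈ R.good)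
    (h1 : Q.ord (R.red u) = 1) (hreg : RegOn R.r (u : FL) Q) :
    ∃ P : Place L FL, R.r P = some Q ∧ P.ord (u : FL) = 1 ∧
      ∀ P' : Place L FL, R.r P' = some Q → P' ≠ P → P'.ord (u : FL) = 0 := by
  classical
  have hu : R.red u ≠ 0 := by
    intro h0
    rw [h0, Place.ord_zero] at h1
    exact zero_ne_one h1
  have hu0 := coe_ne_zero_of_red_ne_zero R.toBranch hu
  obtain ⟨s, hs, hs', hsum⟩ := exists_ord_red_eq_sum R u hu Q hQ
  rw [h1] at hsum
  have hnn : ∀ P ∈ s, 0 ≤ P.ord (u : FL) := fun P hP =>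
    (ord_nonneg_iff P hu0).mpr (hreg P (hs P hP))
  -- some term is positive
  obtain ⟨P, hPs, hPpos⟩ : ∃ P ∈ s, 0 < P.ord (u : FL) := by
    by_contra hcon
    push Not at hcon
    have : ∑ P ∈ s, P.ord (u : FL) ≤ 0 := Finset.sum_nonpos hcon
    omega
  have hsplit := Finset.add_sum_erase s (fun P : Place L FL => P.ord (u : FL)) hPs
  have hrest : 0 ≤ ∑ P' ∈ s.erase P, P'.ord (u : FL) :=
    Finset.sum_nonneg fun P' hP' => hnn P' (Finset.mem_of_mem_erase hP')
  have hP1 : P.ord (u : FL) = 1 := by omega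
  have hrest0 : ∑ P' ∈ s.erase P, P'.ord (u : FL) = 0 := by omega
  refine ⟨P, hs P hPs, hP1, fun P' hP' hne => ?_⟩
  by_contra h0
  have hmem : P' ∈ s.erase P := Finset.mem_erase.mpr ⟨hne, hs' P' hP' h0⟩
  have := (Finset.sum_eq_zero_iff_of_nonneg
    (fun P'' hP'' => hnn P'' (Finset.mem_of_mem_erase hP''))).mp hrest0 P' hmem
  exact h0 this

/-- (E2') The reduction of a function regular on the disc is regular at `Q`. -/
theorem red_regular (y : R.O) (Q : Place k Fk) (hQ : Q ∈ R.good) (hreg : RegOn R.r (y : FL) Q) :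
    Q.adicValuation (R.red y) ≤ 1 := by
  by_cases hy : R.red y = 0
  · rw [hy, map_zero]; exact zero_le_one
  · exact (ord_nonneg_iff Q hy).mp (ord_red_nonneg R y hy Q hQ hreg)

/-- (E1) A function of `Ov`, regular on the residue disc of `Q`, takes its values there in `A`. -/
theorem value_mem' (y : R.O) (Q : Place k Fk) (hQ : Q ∈ R.good) (hreg : RegOn R.r (y : FL) Q)
    (P : Place L FL) (hP : R.r P = some Q) (c : L)
    (hc : P.adicValuation ((y : FL) - algebraMap L FL c) < 1) : c ∈ A := by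
  by_contra hcA
  have hc0 : c ≠ 0 := fun h => hcA (h ▸ A.zero_mem)
  have hinv : c⁻¹ ∈ A := (A.mem_or_inv_mem c).resolve_left hcA
  -- `c⁻¹` is a non-unit of `A`
  have hnu : (⟨c⁻¹, hinv⟩ : A) ∈ IsLocalRing.maximalIdeal A := by
    rw [IsLocalRing.mem_maximalIdeal, mem_nonunits_iff]
    rintro ⟨⟨u, v, huv, hvu⟩, hu⟩
    apply hcA
    have hu' : (u : L) = c⁻¹ := by
      have := congrArg (fun x : A => (x : L)) hu
      simpa using this
    have h1 : c⁻¹ * (v : L) = 1 := by
      have := congrArg (fun x : A => (x : L)) huv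
      simpa [hu'] using this
    have hv : (v : L) = c := by
      have := eq_inv_of_mul_eq_one_right h1
      rwa [inv_inv] at this
    exact hv ▸ v.2
  have hpi : π ⟨c⁻¹, hinv⟩ = 0 := (pi_eq_zero_iff R.toBranch _).mpr hnu
  set u : R.O := 1 - constHom R.toBranch ⟨c⁻¹, hinv⟩ * y with hu
  have hred : R.red u = 1 := by
    rw [hu, map_sub, map_one, map_mul, red_constHom R.toBranch, hpi, map_zero, zero_mul, sub_zero]
  have hred0 : R.red u ≠ 0 := by rw [hred]; exact one_ne_zero
  have hcoe : (u : FL) = -(algebraMap L FL c⁻¹) * ((y : FL) - algebraMap L FL c) := by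
    have h1 : algebraMap L FL c⁻¹ * algebraMap L FL c = 1 := by
      rw [← map_mul, inv_mul_cancel₀ hc0, map_one]
    have h2 : (u : FL) = 1 - algebraMap L FL c⁻¹ * (y : FL) := by
      rw [hu]; push_cast; simp
    rw [h2]
    linear_combination -h1
  have hval : ∀ P' : Place L FL, P'.adicValuation (u : FL) =
      P'.adicValuation ((y : FL) - algebraMap L FL c) := by
    intro P'
    rw [hcoe, map_mul, Valuation.map_neg, adicValuation_algebraMap P' (inv_ne_zero hc0), one_mul]
  have hregu : RegOn R.r (u : FL) Q := fun P' hP' => by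
    rw [hval]
    exact ((regOn_const R.r c Q).sub_left hreg) P' hP'
  have hpos := ord_red_pos R u hred0 Q hQ hregu P hP (by rw [hval]; exact hc)
  rw [hred, Place.ord_one] at hpos
  exact lt_irrefl _ hpos

/-- (E2) The reduction of the value is the value of the reduction. -/
theorem red_value (y : R.O) (Q : Place k Fk) (hQ : Q ∈ R.good) (hreg : RegOn R.r (y : FL) Q)
    (P : Place L FL) (hP : R.r P = some Q) (c : A)
    (hc : P.adicValuation ((y : FL) - algebraMap L FL (c : L)) < 1) :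
    Q.adicValuation (R.red y - algebraMap k Fk (π c)) < 1 := by
  set u : R.O := y - constHom R.toBranch c with hu
  have hred : R.red u = R.red y - algebraMap k Fk (π c) := by
    rw [hu, map_sub, red_constHom R.toBranch]
  rw [← hred]
  by_cases h0 : R.red u = 0
  · rw [h0, map_zero]; exact zero_lt_one
  · have hcoe : (u : FL) = (y : FL) - algebraMap L FL (c : L) := by rw [hu]; push_cast; simp
    have hregu : RegOn R.r (u : FL) Q := by
      rw [hcoe]; exact hreg.sub (regOn_const R.r _ Q)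
    exact (ord_pos_iff Q h0).mp (ord_red_pos R u h0 Q hQ hregu P hP (by rw [hcoe]; exact hc))

/-- (E3) A *good parameter* on the residue disc of `Q`: regular on the disc, and its
reduction is a uniformiser at `Q`. -/
structure IsGoodParam (T : R.O) (Q : Place k Fk) : Prop where
  good : Q ∈ R.good
  reg : RegOn R.r (T : FL) Q
  ord_one : Q.ord (R.red T) = 1

variable {R} in
theorem IsGoodParam.red_ne_zero {T : R.O} {Q : Place k Fk} (hT : IsGoodParam R T Q) :
    R.red T ≠ 0 := by
  intro h0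
  have := hT.ord_one
  rw [h0, Place.ord_zero] at this
  exact zero_ne_one this

variable {R} in
theorem IsGoodParam.red_sub_const {T : R.O} {δ : A}
    (hδ : δ ∈ IsLocalRing.maximalIdeal A) : R.red (T - constHom R.toBranch δ) = R.red T := by
  rw [map_sub, red_constHom R.toBranch, (pi_eq_zero_iff R.toBranch δ).mpr hδ, map_zero, sub_zero]

variable {R} in
/-- `T - δ` is again a good parameter for `δ ∈ 𝔪_A`. -/
theorem IsGoodParam.sub_const {T : R.O} {Q : Place k Fk} (hT : IsGoodParam R T Q) {δ : A}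
    (hδ : δ ∈ IsLocalRing.maximalIdeal A) : IsGoodParam R (T - constHom R.toBranch δ) Q where
  good := hT.good
  reg := by
    have : ((T - constHom R.toBranch δ : R.O) : FL) = (T : FL) - algebraMap L FL (δ : L) := by
      push_cast; simp
    rw [this]
    exact hT.reg.sub (regOn_const R.r _ Q)
  ord_one := by rw [IsGoodParam.red_sub_const hδ]; exact hT.ord_one

variable {R} in
/-- (E3) a good parameter has exactly one zero on the disc, and it is simple. -/
theorem IsGoodParam.exists_unique_zero {T : R.O} {Q : Place k Fk} (hT : IsGoodParam R T Q) :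
    ∃ P : Place L FL, R.r P = some Q ∧ P.ord (T : FL) = 1 ∧
      ∀ P' : Place L FL, R.r P' = some Q → P' ≠ P → P'.ord (T : FL) = 0 :=
  exists_unique_zero_of_ord_red_eq_one R T Q hT.good hT.ord_one hT.reg

variable {R} in
theorem IsGoodParam.coe_ne_zero {T : R.O} {Q : Place k Fk} (hT : IsGoodParam R T Q) :
    (T : FL) ≠ 0 := coe_ne_zero_of_red_ne_zero R.toBranch hT.red_ne_zero

variable {R} in
/-- the orders of a good parameter on its disc, given its zero -/
theorem IsGoodParam.ord_eq_ite {T : R.O} {Q : Place k Fk} (hT : IsGoodParam R T Q)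
    {P : Place L FL} (hP : R.r P = some Q) (hz : P.adicValuation (T : FL) < 1)
    (P' : Place L FL) (hP' : R.r P' = some Q) [Decidable (P' = P)] :
    P'.ord (T : FL) = if P' = P then 1 else 0 := by
  obtain ⟨P₁, hP₁, h1, hother⟩ := hT.exists_unique_zero
  have hPP₁ : P = P₁ := by
    by_contra hne
    have h0 := hother P hP hne
    have hpos := (ord_pos_iff P hT.coe_ne_zero).mpr hz
    omega
  subst hPP₁
  split_ifs with h
  · rw [h]; exact h1
  · exact hother P' hP' h

variable {R} in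
/-- (E3) the value of a good parameter at a point of the disc lies in `𝔪_A`. -/
theorem IsGoodParam.value_mem {T : R.O} {Q : Place k Fk} (hT : IsGoodParam R T Q)
    (P : Place L FL) (hP : R.r P = some Q) (c : L)
    (hc : P.adicValuation ((T : FL) - algebraMap L FL c) < 1) :
    ∃ hcA : c ∈ A, (⟨c, hcA⟩ : A) ∈ IsLocalRing.maximalIdeal A := by
  have hcA : c ∈ A := value_mem' R T Q hT.good hT.reg P hP c hc
  refine ⟨hcA, ?_⟩
  rw [← pi_eq_zero_iff R.toBranch]
  by_contra hne
  have h1 := red_value R T Q hT.good hT.reg P hP ⟨c, hcA⟩ hc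
  have h2 : Q.adicValuation (R.red T) < 1 :=
    (ord_pos_iff Q hT.red_ne_zero).mp (by rw [hT.ord_one]; exact one_pos)
  have h3 : Q.adicValuation (R.red T - (R.red T - algebraMap k Fk (π ⟨c, hcA⟩))) < 1 :=
    Valuation.map_sub_lt _ h2 h1
  rw [sub_sub_cancel, adicValuation_algebraMap Q hne] at h3
  exact lt_irrefl _ h3

theorem regOn_of_ord_nonneg {r : Place L FL → Option (Place k Fk)} {y : FL} {Q : Place k Fk}
    (hreg : ∀ P : Place L FL, r P = some Q → 0 ≤ P.ord y) : RegOn r y Q := fun P hP => by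
  rcases eq_or_ne y 0 with rfl | hy
  · rw [map_zero]; exact zero_le_one
  · exact (ord_nonneg_iff P hy).mp (hreg P hP)

theorem RegOn.ord_nonneg {r : Place L FL → Option (Place k Fk)} {y : FL} {Q : Place k Fk}
    (hreg : RegOn r y Q) (P : Place L FL) (hP : r P = some Q) : 0 ≤ P.ord y := by
  rcases eq_or_ne y 0 with rfl | hy
  · rw [Place.ord_zero]
  · exact (ord_nonneg_iff P hy).mpr (hreg P hP)

theorem adicValuation_lt_one_of_ord_pos {K F : Type*} [Field K] [Field F] [Algebra K F]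
    (P : Place K F) {y : F} (h : 0 < P.ord y) : P.adicValuation y < 1 := by
  have hy : y ≠ 0 := by
    rintro rfl
    rw [Place.ord_zero] at h
    exact lt_irrefl _ h
  exact (ord_pos_iff P hy).mp h

end ZeroCount

section T1

variable [HasPrincipalDivisors L FL] [HasPrincipalDivisors k Fk]

/-- **(T1)** the evaluation lemma in the form consumed by `Fermat/Agent/S18/Core.lean`:
a Gauss-integral function which is regular on the residue disc of `Q` takes its values there
in `A`, and the reduction of the value is the value of the reduction. -/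
theorem value_mem (_hpi : Function.Surjective π) (R : SmoothRed A π FL Fk) (y : R.O) (Q : Place k Fk)
    (hQ : Q ∈ R.good)
    (hreg : ∀ P : Place L FL, R.r P = some Q → 0 ≤ P.ord (y : FL)) (P : Place L FL) (hP : R.r P = some Q)
    (c : L) (hc : 0 < P.ord ((y : FL) - algebraMap L FL c)) :
    ∃ hcA : c ∈ A, R.red y - algebraMap k Fk (π ⟨c, hcA⟩) = 0 ∨
      0 < Q.ord (R.red y - algebraMap k Fk (π ⟨c, hcA⟩)) := by
  have hreg' : RegOn R.r (y : FL) Q := regOn_of_ord_nonneg hreg
  have hc' := adicValuation_lt_one_of_ord_pos P hc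
  have hcA : c ∈ A := value_mem' R y Q hQ hreg' P hP c hc'
  refine ⟨hcA, ?_⟩
  by_cases h0 : R.red y - algebraMap k Fk (π ⟨c, hcA⟩) = 0
  · exact Or.inl h0
  · exact Or.inr ((ord_pos_iff Q h0).mpr (red_value R y Q hQ hreg' P hP ⟨c, hcA⟩ hc'))

end T1


/-- `(1 - s)^p - 1 + p s` is divisible by `s²`. -/
theorem exists_binom_rem {S : Type*} [CommRing S] (s : S) (p : ℕ) :
    ∃ G : S, (1 - s) ^ p - 1 + p * s = s ^ 2 * G := by
  induction p with
  | zero => exact ⟨0, by simp⟩
  | succ p ih =>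
    obtain ⟨G, hG⟩ := ih
    refine ⟨(1 - s) * G + p, ?_⟩
    push_cast
    linear_combination (1 - s) * hG


section Aux

variable [HasPrincipalDivisors L FL] (R : SmoothRed A π FL Fk)

/-- the value of a good parameter at a point of its disc -/
theorem IsGoodParam.exists_value {T : R.O} {Q : Place k Fk} (hT : IsGoodParam R T Q)
    (P : Place L FL) (hdeg : P.deg = 1) (hP : R.r P = some Q) :
    ∃ δ : A, δ ∈ IsLocalRing.maximalIdeal A ∧
      P.adicValuation ((T : FL) - algebraMap L FL (δ : L)) < 1 := by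
  obtain ⟨c, hc | hc⟩ := Fermat.Agent.S18.CoreOrd.exists_value P hdeg (hT.reg.ord_nonneg P hP)
  · -- `T` constant: impossible
    exfalso
    have hcA : c ∈ A := R.mem_of_algebraMap_mem c (hc ▸ T.2)
    have hTc : T = constHom R.toBranch ⟨c, hcA⟩ := Subtype.ext hc
    have h1 := hT.ord_one
    rw [hTc, red_constHom, ord_algebraMap] at h1
    exact zero_ne_one h1
  · have hc' := adicValuation_lt_one_of_ord_pos P hc
    obtain ⟨hcA, hm⟩ := hT.value_mem P hP c hc'
    exact ⟨⟨c, hcA⟩, hm, hc'⟩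

end Aux

section Core

variable [HasPrincipalDivisors L FL] (R : SmoothRed A π FL Fk)

theorem coe_units_inv (u : R.Oˣ) : (((u⁻¹ : R.Oˣ) : R.O) : FL) = (((u : R.O) : FL))⁻¹ := by
  have h : ((u : R.O) : FL) * (((u⁻¹ : R.Oˣ) : R.O) : FL) = 1 := by
    rw [← MulMemClass.coe_mul, Units.mul_inv, OneMemClass.coe_one]
  exact eq_inv_of_mul_eq_one_right h

theorem natCast_red_ne_zero {p : ℕ} (hpk : (p : k) ≠ 0) : (p : Fk) ≠ 0 := by
  have : (p : Fk) = algebraMap k Fk (p : k) := (map_natCast (algebraMap k Fk) p).symm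
  rw [this]
  exact (map_ne_zero_iff _ (algebraMap k Fk).injective).mpr hpk

theorem adicValuation_natCast {p : ℕ} (hpk : (p : k) ≠ 0) (Q : Place k Fk) :
    Q.adicValuation (p : Fk) = 1 := by
  have : (p : Fk) = algebraMap k Fk (p : k) := (map_natCast (algebraMap k Fk) p).symm
  rw [this]
  exact adicValuation_algebraMap Q hpk

/-- The local form with the centre `δ = T(P1)` made explicit. -/
theorem local_core (p : ℕ) (hpk : (p : k) ≠ 0)
    (Q : Place k Fk) (T : R.O) (hT : IsGoodParam R T Q)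
    (δ : A) (hδ : δ ∈ IsLocalRing.maximalIdeal A)
    (P0 P1 : Place L FL) (hP0 : R.r P0 = some Q) (hP1 : R.r P1 = some Q)
    (hT0 : P0.adicValuation (T : FL) < 1)
    (hT1 : P1.adicValuation ((T : FL) - algebraMap L FL (δ : L)) < 1)
    (f : R.Oˣ) (hf1 : R.red f = 1)
    (hford : ∀ P : Place L FL, R.r P = some Q → ∀ [Decidable (P = P1)] [Decidable (P = P0)],
      P.ord ((f : R.O) : FL) = (if P = P1 then (p : ℤ) else 0) - (if P = P0 then (p : ℤ) else 0))
    (c0 : L) (hc0 : c0 ≠ 0) (w : R.O)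
    (hw : ((f : R.O) : FL) - 1 = algebraMap L FL c0 * (w : FL)) :
    ∃ κ : A, (κ : L) = c0⁻¹ * (δ : L) ∧
      Q.adicValuation (R.red w + (p : Fk) * algebraMap k Fk (π κ) * (R.red T)⁻¹) ≤ 1 := by
  classical
  have hTδ : IsGoodParam R (T - constHom R.toBranch δ) Q := hT.sub_const hδ
  have hTu : IsUnit T := (red_ne_zero_iff_isUnit R.toBranch T).mp hT.red_ne_zero
  have hDu : IsUnit (T - constHom R.toBranch δ) := (red_ne_zero_iff_isUnit R.toBranch _).mp hTδ.red_ne_zero
  obtain ⟨Tu, rfl⟩ := hTu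
  obtain ⟨Du, hDu⟩ := hDu
  have hredD : R.red (Du : R.O) = R.red (Tu : R.O) := by
    rw [hDu]; exact IsGoodParam.red_sub_const hδ
  have hredT0 : R.red (Tu : R.O) ≠ 0 := hT.red_ne_zero
  -- the elements `s`, `ε`
  obtain ⟨s, hs⟩ : ∃ s : R.O, s = constHom R.toBranch δ * ((Tu⁻¹ : R.Oˣ) : R.O) := ⟨_, rfl⟩
  obtain ⟨εu, hε⟩ : ∃ εu : R.Oˣ, εu = f * (Tu * Du⁻¹) ^ p := ⟨_, rfl⟩
  have hreds : R.red s = 0 := by
    rw [hs, map_mul, red_constHom, (pi_eq_zero_iff R.toBranch δ).mpr hδ, map_zero, zero_mul]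
  have hredε : R.red (εu : R.O) = 1 := by
    rw [hε, Units.val_mul, Units.val_pow_eq_pow_val, Units.val_mul, map_mul, map_pow, map_mul,
      hf1, map_units_inv, hredD, mul_inv_cancel₀ hredT0, one_pow, one_mul]
  have h1s : 1 - s = (Du : R.O) * ((Tu⁻¹ : R.Oˣ) : R.O) := by
    rw [hs, hDu, sub_mul, Tu.mul_inv]
  have hfε : (f : R.O) = (1 - s) ^ p * (εu : R.O) := by
    have hU : (Du * Tu⁻¹ * (Tu * Du⁻¹) : R.Oˣ) = 1 := by group
    have hU' : ((Du : R.O) * ((Tu⁻¹ : R.Oˣ) : R.O)) * ((Tu : R.O) * ((Du⁻¹ : R.Oˣ) : R.O)) = 1 := by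
      rw [← Units.val_mul, ← Units.val_mul, ← Units.val_mul, hU, Units.val_one]
    rw [h1s, hε, Units.val_mul, Units.val_pow_eq_pow_val, Units.val_mul,
      mul_left_comm, ← mul_pow, hU', one_pow, mul_one]
  obtain ⟨G, hG⟩ := exists_binom_rem s p
  have hcoreO : (f : R.O) - 1 = (-(p : R.O) * s + s ^ 2 * G) * (εu : R.O) + ((εu : R.O) - 1) := by
    linear_combination hfε + (εu : R.O) * hG
  -- `ε` has neither zeros nor poles on the disc
  have hT1' : P1.adicValuation (((Tu : R.O) - constHom R.toBranch δ : R.O) : FL) < 1 := hT1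
  have hf0 : ((f : R.O) : FL) ≠ 0 := coe_unit_ne_zero R.toBranch f
  have hTu0 : ((Tu : R.O) : FL) ≠ 0 := coe_unit_ne_zero R.toBranch Tu
  have hDu0 : ((Du : R.O) : FL) ≠ 0 := coe_unit_ne_zero R.toBranch Du
  have hεcoe : ((εu : R.O) : FL) =
      ((f : R.O) : FL) * (((Tu : R.O) : FL) * (((Du : R.O) : FL))⁻¹) ^ p := by
    rw [hε, Units.val_mul, Units.val_pow_eq_pow_val, Units.val_mul, MulMemClass.coe_mul,
      SubmonoidClass.coe_pow, MulMemClass.coe_mul, coe_units_inv]
  have hεord : ∀ P' : Place L FL, R.r P' = some Q → P'.ord ((εu : R.O) : FL) = 0 := by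
    intro P' hP'
    have h1 := hT.ord_eq_ite hP0 hT0 P' hP'
    have h2 := hTδ.ord_eq_ite hP1 hT1' P' hP'
    have h3 := hford P' hP'
    rw [← hDu] at h2
    rw [hεcoe, Place.ord_mul _ hf0 (pow_ne_zero _ (mul_ne_zero hTu0 (inv_ne_zero hDu0))),
      Fermat.Agent.S18.CoreOrd.ord_pow, Place.ord_mul _ hTu0 (inv_ne_zero hDu0), Place.ord_inv, h3, h1, h2]
    split_ifs <;> ring
  have hεreg : RegOn R.r ((εu : R.O) : FL) Q :=
    regOn_of_ord_nonneg fun P' hP' => (hεord P' hP').ge
  have hε1reg : RegOn R.r (((εu : R.O) : FL) - 1) Q := hεreg.sub (regOn_one R.r Q)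
  -- the identity in `FL`
  have hcore : ((f : R.O) : FL) - 1 =
      (-(p : FL) * (s : FL) + (s : FL) ^ 2 * (G : FL)) * ((εu : R.O) : FL)
        + (((εu : R.O) : FL) - 1) := by
    have := congrArg (fun x : R.O => (x : FL)) hcoreO
    simpa using this
  have hscoe : (s : FL) = algebraMap L FL (δ : L) * (((Tu⁻¹ : R.Oˣ) : R.O) : FL) := by
    rw [hs]; rfl
  obtain ⟨Ti, hTi⟩ : ∃ Ti : R.O, Ti = ((Tu⁻¹ : R.Oˣ) : R.O) := ⟨_, rfl⟩
  rw [← hTi] at hs hscoe
  have hredTi : R.red Ti = (R.red (Tu : R.O))⁻¹ := by rw [hTi, map_units_inv]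
  by_cases hκ : c0⁻¹ * (δ : L) ∈ A
  · -- Case 1: `κ = δ / c0 ∈ A`
    obtain ⟨κ, hκdef⟩ : ∃ κ : A, κ = ⟨_, hκ⟩ := ⟨_, rfl⟩
    have hκL : (κ : L) = c0⁻¹ * (δ : L) := by rw [hκdef]
    refine ⟨κ, hκL, ?_⟩
    obtain ⟨e', he'⟩ : ∃ e' : R.O, e' = w - (-(p : R.O) * constHom R.toBranch κ * Ti
        + constHom R.toBranch κ * Ti * s * G) * (εu : R.O) := ⟨_, rfl⟩
    have hs' : (s : FL) = algebraMap L FL c0 * algebraMap L FL (κ : L) * (Ti : FL) := by
      rw [hscoe, ← map_mul, hκL, mul_inv_cancel_left₀ hc0]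
    have he'coe : (e' : FL) = (w : FL) - (-(p : FL) * algebraMap L FL (κ : L) * (Ti : FL)
        + algebraMap L FL (κ : L) * (Ti : FL) * (s : FL) * (G : FL)) * ((εu : R.O) : FL) := by
      rw [he']; simp
    have hmul : algebraMap L FL c0 * (e' : FL) = ((εu : R.O) : FL) - 1 := by
      rw [he'coe]
      linear_combination hcore - hw + (-(p : FL) + (s : FL) * (G : FL)) * ((εu : R.O) : FL) * hs'
    have he'eq : (e' : FL) = algebraMap L FL c0⁻¹ * (((εu : R.O) : FL) - 1) := by
      rw [← hmul, ← mul_assoc, ← map_mul, inv_mul_cancel₀ hc0, map_one, one_mul]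
    have he'reg : RegOn R.r (e' : FL) Q := by
      rw [he'eq]; exact (regOn_const R.r _ Q).mul hε1reg
    have hval := red_regular R e' Q hT.good he'reg
    have hrede' : R.red e' =
        R.red w + (p : Fk) * algebraMap k Fk (π κ) * (R.red (Tu : R.O))⁻¹ := by
      rw [he']
      simp only [map_sub, map_mul, map_add, map_neg, map_natCast, red_constHom, hreds, hredε,
        hredTi]
      ring
    rwa [hrede'] at hval
  · -- Case 2: `δ / c0 ∉ A` is impossible
    exfalso
    obtain ⟨hμA, hμm⟩ := inv_mem_maximalIdeal_of_not_mem hκ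
    obtain ⟨μ, hμdef⟩ : ∃ μ : A, μ = ⟨_, hμA⟩ := ⟨_, rfl⟩
    have hμL : (μ : L) = (c0⁻¹ * (δ : L))⁻¹ := by rw [hμdef]
    rw [← hμdef] at hμm
    have hδ0 : (δ : L) ≠ 0 := by
      intro h0; apply hκ; rw [h0, mul_zero]; exact zero_mem _
    obtain ⟨e', he'⟩ : ∃ e' : R.O, e' = constHom R.toBranch μ * w - (-(p : R.O) * Ti
        + Ti * s * G) * (εu : R.O) := ⟨_, rfl⟩
    have ha0 : algebraMap L FL c0 = algebraMap L FL (δ : L) * algebraMap L FL (μ : L) := by
      rw [← map_mul, hμL]; congr 1; field_simp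
    have he'coe : (e' : FL) = algebraMap L FL (μ : L) * (w : FL) - (-(p : FL) * (Ti : FL)
        + (Ti : FL) * (s : FL) * (G : FL)) * ((εu : R.O) : FL) := by
      rw [he']; simp
    have hmul : algebraMap L FL (δ : L) * (e' : FL) = ((εu : R.O) : FL) - 1 := by
      rw [he'coe]
      linear_combination hcore - hw - (w : FL) * ha0
        + (-(p : FL) + (s : FL) * (G : FL)) * ((εu : R.O) : FL) * hscoe
    have he'eq : (e' : FL) = algebraMap L FL (δ : L)⁻¹ * (((εu : R.O) : FL) - 1) := by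
      rw [← hmul, ← mul_assoc, ← map_mul, inv_mul_cancel₀ hδ0, map_one, one_mul]
    have he'reg : RegOn R.r (e' : FL) Q := by
      rw [he'eq]; exact (regOn_const R.r _ Q).mul hε1reg
    have hval := red_regular R e' Q hT.good he'reg
    have hrede' : R.red e' = (p : Fk) * (R.red (Tu : R.O))⁻¹ := by
      rw [he']
      simp only [map_sub, map_mul, map_add, map_neg, map_natCast, red_constHom, hreds, hredε,
        hredTi, (pi_eq_zero_iff R.toBranch μ).mpr hμm]
      simp
    rw [hrede', map_mul, adicValuation_natCast hpk, one_mul, map_inv₀] at hval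
    have hlt : Q.adicValuation (R.red (Tu : R.O)) < 1 :=
      (ord_pos_iff Q hredT0).mp (by rw [hT.ord_one]; exact one_pos)
    have hne : Q.adicValuation (R.red (Tu : R.O)) ≠ 0 :=
      (Valuation.ne_zero_iff _).mpr hredT0
    exact absurd ((one_lt_inv₀ (zero_lt_iff.mpr hne)).mpr hlt) (not_lt.mpr hval)

end Core

section T2

/-- **(T2)** the local form, in the shape consumed by `Fermat/Agent/S18/Core.lean`
(`Fermat.Agent.S18.Core.LocalForm`). -/
theorem local_form [HasPrincipalDivisors L FL] [HasPrincipalDivisors k Fk]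
    (hdegL : ∀ P : Place L FL, P.deg = 1) (_hpi : Function.Surjective π) (R : SmoothRed A π FL Fk)
    (p : ℕ) (hpk : (p : k) ≠ 0) (Q : Place k Fk) (hQ : Q ∈ R.good) (T : R.O)
    (hTQ : Q.ord (R.red T) = 1)
    (hTreg : ∀ P : Place L FL, R.r P = some Q → 0 ≤ P.ord (T : FL)) (P0 P1 : Place L FL)
    (hP0 : R.r P0 = some Q) (hP1 : R.r P1 = some Q) (hT0 : 0 < P0.ord (T : FL)) (f : R.Oˣ)
    (hf1 : R.red (f : R.O) = 1)
    (hford : ∀ P : Place L FL, R.r P = some Q → P.ord ((f : R.O) : FL) =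
      (Finsupp.single P1 (p : ℤ) - Finsupp.single P0 (p : ℤ) : Place L FL →₀ ℤ) P)
    (c0 : L) (hc0 : c0 ≠ 0) (w : R.Oˣ)
    (hw : ((f : R.O) : FL) - 1 = algebraMap L FL c0 * ((w : R.O) : FL)) :
    -1 ≤ Q.ord (R.red (w : R.O)) := by
  classical
  have hT : IsGoodParam R T Q := ⟨hQ, regOn_of_ord_nonneg hTreg, hTQ⟩
  obtain ⟨δ, hδ, hδ1⟩ := hT.exists_value R P1 (hdegL P1) hP1
  have hT0' : P0.adicValuation (T : FL) < 1 := adicValuation_lt_one_of_ord_pos P0 hT0
  have hford' : ∀ P : Place L FL, R.r P = some Q → ∀ [Decidable (P = P1)] [Decidable (P = P0)],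
      P.ord ((f : R.O) : FL) =
        (if P = P1 then (p : ℤ) else 0) - (if P = P0 then (p : ℤ) else 0) := by
    intro P hP _ _
    rw [hford P hP, Finsupp.sub_apply, Finsupp.single_apply, Finsupp.single_apply]
    have e1 : (if P1 = P then (p : ℤ) else 0) = if P = P1 then (p : ℤ) else 0 := by
      by_cases h1 : P = P1
      · rw [if_pos h1, if_pos h1.symm]
      · rw [if_neg h1, if_neg (Ne.symm h1)]
    have e0 : (if P0 = P then (p : ℤ) else 0) = if P = P0 then (p : ℤ) else 0 := by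
      by_cases h0 : P = P0
      · rw [if_pos h0, if_pos h0.symm]
      · rw [if_neg h0, if_neg (Ne.symm h0)]
    rw [e1, e0]
  obtain ⟨κ, -, hval⟩ := local_core R p hpk Q T hT δ hδ P0 P1 hP0 hP1 hT0' hδ1 f hf1 hford'
    c0 hc0 (w : R.O) hw
  obtain ⟨X, hX⟩ : ∃ X : Fk, X = R.red (w : R.O)
      + (p : Fk) * algebraMap k Fk (π κ) * (R.red T)⁻¹ := ⟨_, rfl⟩
  obtain ⟨Y, hY⟩ : ∃ Y : Fk, Y = (p : Fk) * algebraMap k Fk (π κ) * (R.red T)⁻¹ := ⟨_, rfl⟩
  rw [← hX] at hval
  have hwXY : R.red (w : R.O) = X - Y := by rw [hX, hY]; ring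
  have hw0 : R.red (w : R.O) ≠ 0 := red_unit_ne_zero R.toBranch w
  have hXord : 0 ≤ Q.ord X := by
    rcases eq_or_ne X 0 with h | h
    · rw [h, Place.ord_zero]
    · exact (ord_nonneg_iff Q h).mpr hval
  have hYord : -1 ≤ Q.ord Y := by
    rcases eq_or_ne Y 0 with h | h
    · rw [h, Place.ord_zero]; norm_num
    · have hc : (p : k) * π κ ≠ 0 := by
        intro h0
        apply h
        rw [hY, ← map_natCast (algebraMap k Fk), ← map_mul, h0, map_zero, zero_mul]
      have : Y = algebraMap k Fk ((p : k) * π κ) * (R.red T)⁻¹ := by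
        rw [hY, map_mul, map_natCast]
      rw [this, ord_const_mul Q hc, Place.ord_inv, hTQ]
  rw [hwXY] at hw0 ⊢
  exact le_trans (le_min (by linarith) hYord) (min_le_ord_sub Q hw0)

end T2


end Fermat.Agent.S34.NodalDisc
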