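import Mathlib
import Fermat.Agent.S34.NodalDefs
import Fermat.Agent.S34.NodalDisc
import Fermat.Agent.S18.Core

/-!
# PROJECT U (S34), slice (Z5-inj): the abstract NODAL core

`nodal_core`: for a nodal reduction datum `N : NodalDatum A π FL F1 F2 ι` (two components meeting
in the nodes `e : ι`), with Riemann's inequality on the generic side at the arithmetic genus
`g1 + m2` (`m2 = g2 + #ι - 1`) and generic rigid divisors on the two components (`NodalRigid`),
a divisor `D` of degree zero with `p • D = div f` (`p` prime to the residue characteristic), where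
`f` reduces to `1` on both components and satisfies the gluing hypothesis `Glue N e D` at every
node, is principal.

This is the analogue of `Fermat.Agent.S18.Core.core` for the toric part.
-/

set_option autoImplicit false
set_option linter.unusedSectionVars false
set_option linter.unusedVariables false

namespace Fermat.Agent.S34.NodalCore

open AlgebraicCurve Fermat.Agent.S24.Ord Fermat.Agent.S34.NodalDefs Fermat.Agent.S34.NodalDisc
open Fermat.Agent.S18.CoreDefs (RiemannGe)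
open Fermat.Agent.S18.CoreOrd hiding coe_unit_ne_zero red_unit_ne_zero unitOfRed coe_unitOfRed constO
  coe_constO red_constO isUnit_iff_red_ne_zero exists_div_unit ord_red_nonneg le_ord_red
  ord_red_eq_zero exists_unique_zero

/-! ### ordered groups with zero -/

section Ordered

variable {Γ : Type*} [LinearOrderedCommGroupWithZero Γ]

theorem zpow_nonneg_of_mul_le {x1 x2 t : Γ} (hx1 : x1 ≠ 0) (ht0 : t ≠ 0) (ht : t < 1) {n : ℤ}
    (h : x1 * t ^ n ≤ x2) (hle : x2 ≤ x1) : 0 ≤ n := by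
  have h1 : x1 * t ^ n ≤ x1 * 1 := by rw [mul_one]; exact h.trans hle
  have h2 : t ^ n ≤ 1 := le_of_mul_le_mul_left h1 (zero_lt_iff.mpr hx1)
  exact (zpow_le_one_iff_right_of_lt_one₀ (zero_lt_iff.mpr ht0) ht).mp h2

theorem zpow_pos_of_mul_le {x1 x2 t : Γ} (hx1 : x1 ≠ 0) (ht0 : t ≠ 0) (ht : t < 1) {n : ℤ}
    (h : x1 * t ^ n ≤ x2) (hlt : x2 < x1) : 0 < n := by
  have h1 : x1 * t ^ n < x1 * 1 := by rw [mul_one]; exact lt_of_le_of_lt h hlt
  have h2 : t ^ n < 1 := lt_of_mul_lt_mul_left' h1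
  exact (zpow_lt_one_iff_right_of_lt_one₀ (zero_lt_iff.mpr ht0) ht).mp h2

theorem zpow_pos_of_mul_lt {x1 x2 t : Γ} (hx1 : x1 ≠ 0) (ht0 : t ≠ 0) (ht : t < 1) {n : ℤ}
    (h : x1 * t ^ n < x2) (hle : x2 ≤ x1) : 0 < n := by
  have h1 : x1 * t ^ n < x1 * 1 := by rw [mul_one]; exact lt_of_lt_of_le h hle
  have h2 : t ^ n < 1 := lt_of_mul_lt_mul_left' h1
  exact (zpow_lt_one_iff_right_of_lt_one₀ (zero_lt_iff.mpr ht0) ht).mp h2

end Ordered

/-! ### finitely supported functions -/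

section Comb

variable {α β κ : Type*} [Fintype κ]

theorem sum_single_apply_of_injective' (Qs : κ → β) (hQs : Function.Injective Qs) (i : κ) :
    (∑ j, Finsupp.single (Qs j) (1 : ℤ)) (Qs i) = 1 := by
  classical
  rw [Finsupp.finsetSum_apply]
  rw [Finset.sum_eq_single i]
  · exact Finsupp.single_eq_same
  · intro j _ hji
    exact Finsupp.single_eq_of_ne (fun h => hji (hQs h).symm)
  · intro h; exact absurd (Finset.mem_univ i) h

theorem sum_single_apply_of_notMem' (Qs : κ → β) (Q : β) (hQ : ∀ i, Qs i ≠ Q) :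
    (∑ j, Finsupp.single (Qs j) (1 : ℤ)) Q = 0 := by
  classical
  rw [Finsupp.finsetSum_apply]
  exact Finset.sum_eq_zero fun j _ => Finsupp.single_eq_of_ne (fun h => hQ j h.symm)

theorem sum_single_nonneg' (Qs : κ → β) (Q : β) :
    0 ≤ (∑ j, Finsupp.single (Qs j) (1 : ℤ)) Q := by
  classical
  rw [Finsupp.finsetSum_apply]
  refine Finset.sum_nonneg fun j _ => ?_
  rw [Finsupp.single_apply]
  split_ifs <;> norm_num

theorem exists_lift_of_mapDomain_eq' (r : α → β) (E : α →₀ ℤ) (hE : ∀ P, 0 ≤ E P)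
    (Qs : κ → β) (hQs : Function.Injective Qs)
    (h : Finsupp.mapDomain r E = ∑ i, Finsupp.single (Qs i) (1 : ℤ)) :
    ∃ Ps : κ → α, (∀ i, r (Ps i) = Qs i) ∧ E = ∑ i, Finsupp.single (Ps i) (1 : ℤ) := by
  classical
  have h1 : ∀ i, ∃ P0, r P0 = Qs i ∧ E P0 = 1 ∧ ∀ P, r P = Qs i → P ≠ P0 → E P = 0 := by
    intro i
    refine exists_unique_of_mapDomain_eq_one r E (Qs i) (fun P _ => hE P) ?_
    rw [h, sum_single_apply_of_injective' Qs hQs]
  choose Ps hPs1 hPs2 hPs3 using h1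
  have hPsinj : Function.Injective Ps := by
    intro i j hij
    apply hQs
    rw [← hPs1 i, ← hPs1 j, hij]
  refine ⟨Ps, hPs1, ?_⟩
  ext P
  by_cases hP : ∃ i, Ps i = P
  · obtain ⟨i, rfl⟩ := hP
    rw [hPs2, sum_single_apply_of_injective' Ps hPsinj]
  · push Not at hP
    rw [sum_single_apply_of_notMem' Ps P hP]
    by_cases hrP : ∃ i, Qs i = r P
    · obtain ⟨i, hi⟩ := hrP
      exact hPs3 i P hi.symm (fun h => hP i h.symm)
    · push Not at hrP
      have hle := le_mapDomain r E (r P) (fun P' _ => hE P') P rfl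
      rw [h, sum_single_apply_of_notMem' Qs (r P) hrP] at hle
      exact le_antisymm hle (hE P)

end Comb

/-! ### one branch -/

section Smooth

variable {L : Type*} [Field L] {FL : Type*} [Field FL] [Algebra L FL]
variable {k : Type*} [Field k] {Fk : Type*} [Field Fk] [Algebra k Fk]
variable {A : ValuationSubring L} {π : A →+* k}
variable [HasPrincipalDivisors L FL] (R : SmoothRed A π FL Fk)

/-- a parameter at a good place `Q` and the unique lift of `Q` where it vanishes -/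
theorem exists_param (hπ : Function.Surjective π) (x : R.O) (Q : Place k Fk) (hQ : Q ∈ R.good)
    (hQ1 : ∃ γ : k, Q.ord (R.red x - algebraMap k Fk γ) = 1)
    (hQ2 : ∀ P : Place L FL, R.r P = some Q → 0 ≤ P.ord ((x : R.O) : FL)) :
    ∃ (T : R.O) (P0 : Place L FL), Q.ord (R.red T) = 1 ∧
      (∀ P : Place L FL, R.r P = some Q → 0 ≤ P.ord ((T : R.O) : FL)) ∧ R.r P0 = some Q ∧
      0 < P0.ord ((T : R.O) : FL) := by
  obtain ⟨γ, hγ⟩ := hQ1
  obtain ⟨c, rfl⟩ := hπ γ
  set T : R.O := x - constHom R.toBranch c with hT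
  have hredT : R.red T = R.red x - algebraMap k Fk (π c) := by
    rw [hT, map_sub, red_constHom]
  have hTcoe : ((T : R.O) : FL) = ((x : R.O) : FL) - algebraMap L FL (c : L) := rfl
  have hT1 : Q.ord (R.red T) = 1 := by rw [hredT]; exact hγ
  have hreg : ∀ P : Place L FL, R.r P = some Q → 0 ≤ P.ord ((T : R.O) : FL) := by
    intro P hP
    rw [hTcoe]
    exact ord_sub_nonneg P (hQ2 P hP) (by rw [ord_algebraMap])
  obtain ⟨P0, hP0, hP01, -⟩ := exists_unique_zero_of_ord_red_eq_one R T Q hQ hT1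
    (regOn_of_ord_nonneg hreg)
  exact ⟨T, P0, hT1, hreg, hP0, by rw [hP01]; exact one_pos⟩

/-- the order of the reduction at a good place, from the divisor on the residue disc -/
theorem smooth_ord (p : ℕ) (hp0 : (p : ℤ) ≠ 0) (u f : R.Oˣ) (hf : R.red (f : R.O) = 1)
    (Dt : Divisor L FL)
    (hDt : ∀ P : Place L FL, p * P.ord ((u : R.O) : FL) + P.ord ((f : R.O) : FL) = p * Dt P)
    (Q : Place k Fk) (hQ : Q ∈ R.good) :
    Q.ord (R.red (u : R.O)) = Finsupp.mapDomain R.r Dt (some Q) := by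
  have hu0 : ((u : R.O) : FL) ≠ 0 := coe_unit_ne_zero R.toBranch u
  have hf0 : ((f : R.O) : FL) ≠ 0 := coe_unit_ne_zero R.toBranch f
  have hw : ∀ P : Place L FL, ((p : ℤ) • Dt) P = P.ord (((u ^ p * f : R.Oˣ) : R.O) : FL) := by
    intro P
    rw [Units.val_mul, Units.val_pow_eq_pow_val, MulMemClass.coe_mul, SubmonoidClass.coe_pow,
      P.ord_mul (pow_ne_zero _ hu0) hf0, ord_pow, Finsupp.smul_apply, smul_eq_mul, hDt P]
  have h := R.compat (u ^ p * f) ((p : ℤ) • Dt) hw Q hQ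
  rw [Finsupp.mapDomain_smul, Finsupp.smul_apply, smul_eq_mul, Units.val_mul,
    Units.val_pow_eq_pow_val, map_mul, map_pow, hf, mul_one, ord_pow] at h
  exact (mul_left_cancel₀ hp0 h).symm

/-- the set of poles of a function is finite -/
theorem finite_poles (x : FL) : {P : Place L FL | P.ord x < 0}.Finite := by
  rcases eq_or_ne x 0 with rfl | hx
  · simp
  obtain ⟨Dx, hDx, -⟩ := HasPrincipalDivisors.exists_divisor (K := L) x hx
  refine Dx.support.finite_toSet.subset fun P hP => ?_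
  rw [Finset.mem_coe, Finsupp.mem_support_iff, hDx]
  exact ne_of_lt hP

/-- the images of the poles of a function under a partial map form a finite set -/
theorem finite_image_poles (x : FL) :
    {Q : Place k Fk | ∃ P : Place L FL, P.ord x < 0 ∧ R.r P = some Q}.Finite := by
  classical
  have h := (finite_poles (L := L) x).image R.r
  refine (h.preimage (Option.some_injective _).injOn).subset ?_
  rintro Q ⟨P, hP, hPQ⟩
  exact ⟨P, hP, hPQ⟩

end Smooth

/-! ### the nodal datum -/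

section Main

variable {L : Type*} [Field L] {FL : Type*} [Field FL] [Algebra L FL]
variable {k : Type*} [Field k] {F1 : Type*} [Field F1] [Algebra k F1]
  {F2 : Type*} [Field F2] [Algebra k F2]
variable {A : ValuationSubring L} {π : A →+* k} {ι : Type*}

theorem hasValue_const {Fk : Type*} [Field Fk] [Algebra k Fk] (Q : Place k Fk) {γ γ' : k}
    (h : HasValue Q (algebraMap k Fk γ) γ') : γ' = γ := by
  rcases h with h | h
  · exact ((algebraMap k Fk).injective h).symm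
  · rw [← map_sub, ord_algebraMap] at h
    exact absurd h (lt_irrefl _)

theorem hasValue_zero {Fk : Type*} [Field Fk] [Algebra k Fk] (Q : Place k Fk) {γ' : k}
    (h : HasValue Q (0 : Fk) γ') : γ' = 0 := by
  have h' : HasValue Q (algebraMap k Fk 0) γ' := by rwa [map_zero]
  exact hasValue_const Q h'

theorem degree_eq_sum (E : Divisor L FL) :
    Divisor.degree E = ∑ P ∈ E.support, E P * (P.deg : ℤ) := by
  simp [Divisor.degree, Finsupp.liftAddHom_apply, Finsupp.sum]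

/-- an effective divisor of degree zero is zero -/
theorem eq_zero_of_nonneg_of_degree_eq_zero (hdegL : ∀ P : Place L FL, P.deg = 1)
    (E : Divisor L FL) (hE : ∀ P, 0 ≤ E P) (h0 : Divisor.degree E = 0) : E = 0 := by
  rw [degree_eq_sum] at h0
  have h := (Finset.sum_eq_zero_iff_of_nonneg (fun P _ => by
    rw [hdegL P]; simpa using hE P)).mp h0
  ext P
  by_contra hP
  have hmem : P ∈ E.support := Finsupp.mem_support_iff.mpr hP
  have h1 := h P hmem
  rw [hdegL P] at h1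
  apply hP
  simpa using h1

/-- an effective divisor of degree `#κ` which is `≥ 1` at `#κ` distinct places is their sum -/
theorem eq_sum_single_of_degree {κ : Type*} [Fintype κ] (hdegL : ∀ P : Place L FL, P.deg = 1)
    (E : Divisor L FL) (hE : ∀ P, 0 ≤ E P) (Ps : κ → Place L FL) (hPs : Function.Injective Ps)
    (h1 : ∀ x, 1 ≤ E (Ps x)) (hdeg : Divisor.degree E = (Fintype.card κ : ℤ)) :
    E = ∑ x, Finsupp.single (Ps x) (1 : ℤ) := by
  classical
  have hdegS : Divisor.degree (∑ x, Finsupp.single (Ps x) (1 : ℤ)) = (Fintype.card κ : ℤ) := by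
    rw [map_sum]
    simp [Divisor.degree_single, hdegL]
  have h0 : E - ∑ x, Finsupp.single (Ps x) (1 : ℤ) = 0 := by
    refine eq_zero_of_nonneg_of_degree_eq_zero hdegL _ (fun P => ?_) ?_
    · rw [Finsupp.sub_apply]
      by_cases hP : ∃ x, Ps x = P
      · obtain ⟨x, rfl⟩ := hP
        rw [sum_single_apply_of_injective' Ps hPs]
        have := h1 x
        omega
      · push Not at hP
        rw [sum_single_apply_of_notMem' Ps P hP, sub_zero]
        exact hE P
    · rw [map_sub, hdeg, hdegS, sub_self]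
  exact sub_eq_zero.mp h0

/-- membership in `L(∑ Q)` from a bound at the good places and regularity elsewhere -/
theorem mem_L_of_bounds {Fk : Type*} [Field Fk] [Algebra k Fk] {g : ℕ} (Qs : Fin g → Place k Fk)
    (good : Set (Place k Fk)) (φ : Fk)
    (h1 : ∀ Q ∈ good, -(∑ i, Finsupp.single (Qs i) (1 : ℤ)) Q ≤ Q.ord φ)
    (h2 : ∀ Q ∉ good, 0 ≤ Q.ord φ) :
    φ ∈ riemannRochSpace (∑ i, Finsupp.single (Qs i) (1 : ℤ)) := by
  rw [mem_riemannRochSpace_iff]
  intro Q
  right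
  by_cases hQ : Q ∈ good
  · exact h1 Q hQ
  · have := sum_single_nonneg' Qs Q
    have := h2 Q hQ
    omega

/-- comparison of two constants: the quotient is integral -/
theorem div_mem_of_valuation_le {a1 a2 : L} (ha1 : a1 ≠ 0)
    (h : A.valuation a2 ≤ A.valuation a1) : a2 / a1 ∈ A := by
  rw [← A.valuation_le_one_iff, map_div₀]
  exact div_le_one_of_le₀ h zero_le

theorem pi_div_eq_zero {Fk : Type*} [Field Fk] [Algebra k Fk] (R : Branch A π FL Fk) {a1 a2 : L} (ha1 : a1 ≠ 0)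
    (h : A.valuation a2 < A.valuation a1) (hmem : a2 / a1 ∈ A) : π ⟨a2 / a1, hmem⟩ = 0 := by
  rw [pi_eq_zero_iff R, A.valuation_lt_one_iff]
  show A.valuation (a2 / a1) < 1
  rw [map_div₀]
  exact (div_lt_one₀ (zero_lt_iff.mpr ((A.valuation).ne_zero_iff.mpr ha1))).mpr h

theorem pi_div_ne_zero {Fk : Type*} [Field Fk] [Algebra k Fk] (R : Branch A π FL Fk) {a1 a2 : L} (ha1 : a1 ≠ 0)
    (h : A.valuation a2 = A.valuation a1) (hmem : a2 / a1 ∈ A) : π ⟨a2 / a1, hmem⟩ ≠ 0 := by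
  rw [Ne, pi_eq_zero_iff R, A.valuation_lt_one_iff]
  show ¬ A.valuation (a2 / a1) < 1
  rw [map_div₀, h, div_self ((A.valuation).ne_zero_iff.mpr ha1)]
  exact lt_irrefl _

/-- the push-forward of `∑ P01 + ∑ P02` to the first component -/
theorem mapDomain_base1 (N : GNodalDatum A π FL F1 F2 ι) {g1 m2 : ℕ}
    (Q1 : Fin g1 → Place k F1) (Q2 : Fin m2 → Place k F2)
    (P01 : Fin g1 → Place L FL) (P02 : Fin m2 → Place L FL)
    (hP01 : ∀ i, N.R1.r (P01 i) = some (Q1 i)) (hP02 : ∀ j, N.R2.r (P02 j) = some (Q2 j))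
    (Q : Place k F1) :
    Finsupp.mapDomain N.R1.r ((∑ i, Finsupp.single (P01 i) (1 : ℤ)) +
        ∑ j, Finsupp.single (P02 j) (1 : ℤ)) (some Q) =
      (∑ i, Finsupp.single (Q1 i) (1 : ℤ)) Q := by
  classical
  rw [Finsupp.mapDomain_add, Finsupp.mapDomain_finsetSum, Finsupp.mapDomain_finsetSum,
    Finsupp.add_apply, Finsupp.finsetSum_apply, Finsupp.finsetSum_apply, Finsupp.finsetSum_apply]
  have h2 : ∑ j : Fin m2, (Finsupp.mapDomain N.R1.r (Finsupp.single (P02 j) (1 : ℤ))) (some Q)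
      = 0 := by
    refine Finset.sum_eq_zero fun j _ => ?_
    rw [Finsupp.mapDomain_single]
    refine Finsupp.single_eq_of_ne fun h => ?_
    exact N.excl (P02 j) Q (Q2 j) h.symm (hP02 j)
  rw [h2, add_zero]
  refine Finset.sum_congr rfl fun i _ => ?_
  rw [Finsupp.mapDomain_single, hP01 i]
  simp only [Finsupp.single_apply, Option.some.injEq]

/-- the push-forward of `∑ P01 + ∑ P02` to the second component -/
theorem mapDomain_base2 (N : GNodalDatum A π FL F1 F2 ι) {g1 m2 : ℕ}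
    (Q1 : Fin g1 → Place k F1) (Q2 : Fin m2 → Place k F2)
    (P01 : Fin g1 → Place L FL) (P02 : Fin m2 → Place L FL)
    (hP01 : ∀ i, N.R1.r (P01 i) = some (Q1 i)) (hP02 : ∀ j, N.R2.r (P02 j) = some (Q2 j))
    (Q : Place k F2) :
    Finsupp.mapDomain N.R2.r ((∑ i, Finsupp.single (P01 i) (1 : ℤ)) +
        ∑ j, Finsupp.single (P02 j) (1 : ℤ)) (some Q) =
      (∑ j, Finsupp.single (Q2 j) (1 : ℤ)) Q := by
  classical
  rw [Finsupp.mapDomain_add, Finsupp.mapDomain_finsetSum, Finsupp.mapDomain_finsetSum,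
    Finsupp.add_apply, Finsupp.finsetSum_apply, Finsupp.finsetSum_apply, Finsupp.finsetSum_apply]
  have h1 : ∑ i : Fin g1, (Finsupp.mapDomain N.R2.r (Finsupp.single (P01 i) (1 : ℤ))) (some Q)
      = 0 := by
    refine Finset.sum_eq_zero fun i _ => ?_
    rw [Finsupp.mapDomain_single]
    refine Finsupp.single_eq_of_ne fun h => ?_
    exact N.excl (P01 i) (Q1 i) Q (hP01 i) h.symm
  rw [h1, zero_add]
  refine Finset.sum_congr rfl fun j _ => ?_
  rw [Finsupp.mapDomain_single, hP02 j]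
  simp only [Finsupp.single_apply, Option.some.injEq]

/-- **Steps 1-3**: Riemann on `FL`, rigidity on the two components and the gluing hypothesis:
the class of `D` contains `∑ Ps - ∑ P0s` with `Ps` in the residue disc of `P0s`, via a function
which is a unit of both Gauss rings with the same constant reduction on both components. -/
theorem effective_liftG [HasPrincipalDivisors L FL] [Fintype ι] [Nonempty ι]
    (N : GNodalDatum A π FL F1 F2 ι) (hdegL : ∀ P : Place L FL, P.deg = 1)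
    (p : ℕ) (hp : p ≠ 0) {g1 m2 : ℕ} (hR : RiemannGe L FL (g1 + m2))
    (Q1 : Fin g1 → Place k F1) (Q2 : Fin m2 → Place k F2)
    (hQ1 : Function.Injective Q1) (hQ2 : Function.Injective Q2)
    (hQ1g : ∀ i, Q1 i ∈ N.R1.good) (hQ2g : ∀ j, Q2 j ∈ N.R2.good)
    (hrig1 : ∀ y : F1, y ∈ riemannRochSpace (∑ i, Finsupp.single (Q1 i) (1 : ℤ)) →
      ∃ c : k, y = algebraMap k F1 c)
    (hrig2 : ∀ y : F2, y ∈ riemannRochSpace (∑ i, Finsupp.single (Q2 i) (1 : ℤ)) →
      (∀ e, y = 0 ∨ 0 < (N.e2 e).ord y) → y = 0)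
    (P01 : Fin g1 → Place L FL) (P02 : Fin m2 → Place L FL)
    (hP01 : ∀ i, N.R1.r (P01 i) = some (Q1 i)) (hP02 : ∀ j, N.R2.r (P02 j) = some (Q2 j))
    (D : Divisor L FL) (hD0 : Divisor.degree D = 0)
    (f1 : N.R1.Oˣ) (f2 : N.R2.Oˣ) (hf12 : ((f1 : N.R1.O) : FL) = ((f2 : N.R2.O) : FL))
    (hred1 : N.R1.red (f1 : N.R1.O) = 1) (hred2 : N.R2.red (f2 : N.R2.O) = 1)
    (hfD : ∀ P : Place L FL, P.ord ((f1 : N.R1.O) : FL) = p * D P)
    (hglue : GlueG N D) :
    ∃ (Ps1 : Fin g1 → Place L FL) (Ps2 : Fin m2 → Place L FL) (u1 : N.R1.Oˣ) (u2 : N.R2.Oˣ)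
      (γ : k), γ ≠ 0 ∧ ((u1 : N.R1.O) : FL) = ((u2 : N.R2.O) : FL) ∧
      N.R1.red (u1 : N.R1.O) = algebraMap k F1 γ ∧ N.R2.red (u2 : N.R2.O) = algebraMap k F2 γ ∧
      (∀ i, N.R1.r (Ps1 i) = some (Q1 i)) ∧ (∀ j, N.R2.r (Ps2 j) = some (Q2 j)) ∧
      ∀ P : Place L FL, P.ord ((u1 : N.R1.O) : FL) + D P =
        (∑ i, Finsupp.single (Ps1 i) (1 : ℤ)) P + (∑ j, Finsupp.single (Ps2 j) (1 : ℤ)) P
          - (∑ i, Finsupp.single (P01 i) (1 : ℤ)) P - (∑ j, Finsupp.single (P02 j) (1 : ℤ)) P := by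
  classical
  have hp0 : (p : ℤ) ≠ 0 := by exact_mod_cast hp
  have hppos : (0 : ℤ) < p := by exact_mod_cast Nat.pos_of_ne_zero hp
  set B : Divisor L FL := (∑ i, Finsupp.single (P01 i) (1 : ℤ)) +
    ∑ j, Finsupp.single (P02 j) (1 : ℤ) with hB
  have hdegB : Divisor.degree B = ((g1 + m2 : ℕ) : ℤ) := by
    rw [hB, map_add, Fermat.Agent.S18.Core.degree_sum_single hdegL,
      Fermat.Agent.S18.Core.degree_sum_single hdegL]
    push_cast
    ring
  obtain ⟨y, hy, hyL⟩ := hR (D + B) (by rw [map_add, hD0, hdegB, zero_add])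
  obtain ⟨Dy, hDy, hDydeg⟩ := HasPrincipalDivisors.exists_divisor (K := L) y hy
  set E : Divisor L FL := Dy + D + B with hE
  have hEnonneg : ∀ P : Place L FL, 0 ≤ E P := by
    intro P
    rcases (mem_riemannRochSpace_iff.mp hyL) P with h | h
    · exact absurd h hy
    · rw [hE, Finsupp.add_apply, Finsupp.add_apply, hDy]
      rw [Finsupp.add_apply] at h
      omega
  have hdegE : Divisor.degree E = ((g1 + m2 : ℕ) : ℤ) := by
    rw [hE, map_add, map_add, hDydeg, hD0, hdegB]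
    ring
  obtain ⟨a1, ha1, u1, hyu1⟩ := N.R1.exists_const_mul_unit y hy
  obtain ⟨a2, ha2, u2, hyu2⟩ := N.R2.exists_const_mul_unit y hy
  have hordu1 : ∀ P : Place L FL, P.ord ((u1 : N.R1.O) : FL) = Dy P := by
    intro P
    rw [hDy, hyu1, ord_const_mul P ha1]
  have hordu2 : ∀ P : Place L FL, P.ord ((u2 : N.R2.O) : FL) = Dy P := by
    intro P
    rw [hDy, hyu2, ord_const_mul P ha2]
  have hDt1 : ∀ P : Place L FL,
      p * P.ord ((u1 : N.R1.O) : FL) + P.ord ((f1 : N.R1.O) : FL) = p * (E - B) P := by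
    intro P
    rw [hordu1, hfD, hE, Finsupp.sub_apply, Finsupp.add_apply, Finsupp.add_apply]
    ring
  have hDt2 : ∀ P : Place L FL,
      p * P.ord ((u2 : N.R2.O) : FL) + P.ord ((f2 : N.R2.O) : FL) = p * (E - B) P := by
    intro P
    rw [hordu2, ← hf12, hfD, hE, Finsupp.sub_apply, Finsupp.add_apply, Finsupp.add_apply]
    ring
  have hB1 : ∀ Q : Place k F1, Finsupp.mapDomain N.R1.r B (some Q) =
      (∑ i, Finsupp.single (Q1 i) (1 : ℤ)) Q :=
    fun Q => mapDomain_base1 N Q1 Q2 P01 P02 hP01 hP02 Q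
  have hB2 : ∀ Q : Place k F2, Finsupp.mapDomain N.R2.r B (some Q) =
      (∑ j, Finsupp.single (Q2 j) (1 : ℤ)) Q :=
    fun Q => mapDomain_base2 N Q1 Q2 P01 P02 hP01 hP02 Q
  have hy1 : ∀ Q ∈ N.R1.good, Q.ord (N.R1.red (u1 : N.R1.O)) =
      Finsupp.mapDomain N.R1.r E (some Q) - (∑ i, Finsupp.single (Q1 i) (1 : ℤ)) Q := by
    intro Q hQ
    rw [smooth_ord N.R1 p hp0 u1 f1 hred1 (E - B) hDt1 Q hQ, Finsupp.mapDomain_sub,
      Finsupp.sub_apply, hB1]
  have hy2 : ∀ Q ∈ N.R2.good, Q.ord (N.R2.red (u2 : N.R2.O)) =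
      Finsupp.mapDomain N.R2.r E (some Q) - (∑ j, Finsupp.single (Q2 j) (1 : ℤ)) Q := by
    intro Q hQ
    rw [smooth_ord N.R2 p hp0 u2 f2 hred2 (E - B) hDt2 Q hQ, Finsupp.mapDomain_sub,
      Finsupp.sub_apply, hB2]
  have hEr1 : ∀ Q : Place k F1, 0 ≤ Finsupp.mapDomain N.R1.r E (some Q) :=
    fun Q => mapDomain_nonneg _ E _ (fun P _ => hEnonneg P)
  have hEr2 : ∀ Q : Place k F2, 0 ≤ Finsupp.mapDomain N.R2.r E (some Q) :=
    fun Q => mapDomain_nonneg _ E _ (fun P _ => hEnonneg P)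
  -- the admissible pair
  obtain ⟨S1, S2, hadm, hT1, hT2⟩ := N.exists_adm (Set.range Q1) (Set.range Q2)
    (Set.finite_range _) (Set.finite_range _) (by rintro _ ⟨i, rfl⟩; exact hQ1g i)
    (by rintro _ ⟨j, rfl⟩; exact hQ2g j)
  obtain ⟨hS1g, hS2g⟩ := N.adm_subset_good S1 S2 hadm
  have hpole : ∀ P : Place L FL, (E - B) P < 0 →
      (∃ Q ∈ S1, N.R1.r P = some Q) ∨ (∃ Q ∈ S2, N.R2.r P = some Q) := by
    intro P hP
    have hBP : 0 < B P := by
      have := hEnonneg P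
      rw [Finsupp.sub_apply] at hP
      omega
    rw [hB, Finsupp.add_apply] at hBP
    by_cases h1 : ∃ i, P01 i = P
    · obtain ⟨i, rfl⟩ := h1
      exact Or.inl ⟨Q1 i, hT1 ⟨i, rfl⟩, hP01 i⟩
    · by_cases h2 : ∃ j, P02 j = P
      · obtain ⟨j, rfl⟩ := h2
        exact Or.inr ⟨Q2 j, hT2 ⟨j, rfl⟩, hP02 j⟩
      · push Not at h1 h2
        rw [sum_single_apply_of_notMem' P01 P h1, sum_single_apply_of_notMem' P02 P h2] at hBP
        omega
  have hu10 : ((u1 : N.R1.O) : FL) ≠ 0 := coe_unit_ne_zero N.R1.toBranch u1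
  have hu20 : ((u2 : N.R2.O) : FL) ≠ 0 := coe_unit_ne_zero N.R2.toBranch u2
  have hf10 : ((f1 : N.R1.O) : FL) ≠ 0 := coe_unit_ne_zero N.R1.toBranch f1
  -- the orders of `u1 ^ p * f1`
  have hordG : ∀ P : Place L FL,
      P.ord (((u1 : N.R1.O) : FL) ^ p * ((f1 : N.R1.O) : FL)) = p * (E - B) P := by
    intro P
    rw [P.ord_mul (pow_ne_zero _ hu10) hf10, ord_pow, hDt1 P]
  have hyy : algebraMap L FL a1 * ((u1 : N.R1.O) : FL) = algebraMap L FL a2 * ((u2 : N.R2.O) : FL) := by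
    rw [← hyu1, ← hyu2]
  have hAa1 : algebraMap L FL a1 ≠ 0 := (map_ne_zero_iff _ (algebraMap L FL).injective).mpr ha1
  have hAa2 : algebraMap L FL a2 ≠ 0 := (map_ne_zero_iff _ (algebraMap L FL).injective).mpr ha2
  have hpoleG : ∀ P : Place L FL,
      P.ord (((u1 : N.R1.O) : FL) ^ p * ((f1 : N.R1.O) : FL)) < 0 →
      (∃ Q ∈ S1, N.R1.r P = some Q) ∨ (∃ Q ∈ S2, N.R2.r P = some Q) := by
    intro P hP
    rw [hordG] at hP
    exact hpole P (by by_contra hcon; rw [not_lt] at hcon; nlinarith)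
  -- the reductions
  have hu1red0 : N.R1.red (u1 : N.R1.O) ≠ 0 := red_unit_ne_zero N.R1.toBranch u1
  have hu2red0 : N.R2.red (u2 : N.R2.O) ≠ 0 := red_unit_ne_zero N.R2.toBranch u2
  have hordpow1 : ∀ Q : Place k F1, Q.ord (N.R1.red (u1 : N.R1.O) ^ p) =
      p * Q.ord (N.R1.red (u1 : N.R1.O)) := fun Q => ord_pow Q _ p
  have hordpow2 : ∀ Q : Place k F2, Q.ord (N.R2.red (u2 : N.R2.O) ^ p) =
      p * Q.ord (N.R2.red (u2 : N.R2.O)) := fun Q => ord_pow Q _ p
  -- trichotomy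
  rcases lt_trichotomy (A.valuation a2) (A.valuation a1) with hlt | heq | hgt
  · -- `v₂(y) > v₁(y)`: impossible
    exfalso
    have hτA : a2 / a1 ∈ A := div_mem_of_valuation_le ha1 hlt.le
    have hπτ := pi_div_eq_zero N.R2.toBranch ha1 hlt hτA
    set h1 : N.R1.O := ((u1 ^ p * f1 : N.R1.Oˣ) : N.R1.O) with hh1
    set h2 : N.R2.O := constHom N.R2.toBranch ⟨a2 / a1, hτA⟩ ^ p *
      ((u2 ^ p * f2 : N.R2.Oˣ) : N.R2.O) with hh2
    have hh1coe : ((h1 : N.R1.O) : FL) = ((u1 : N.R1.O) : FL) ^ p * ((f1 : N.R1.O) : FL) := by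
      rw [hh1, Units.val_mul, Units.val_pow_eq_pow_val, MulMemClass.coe_mul,
        SubmonoidClass.coe_pow]
    have hh12 : ((h1 : N.R1.O) : FL) = ((h2 : N.R2.O) : FL) := by
      rw [hh1coe, hh2, Units.val_mul, Units.val_pow_eq_pow_val, MulMemClass.coe_mul,
        MulMemClass.coe_mul, SubmonoidClass.coe_pow, SubmonoidClass.coe_pow, coe_constHom,
        ← hf12]
      have : ((u1 : N.R1.O) : FL) = algebraMap L FL (a2 / a1) * ((u2 : N.R2.O) : FL) := by
        rw [map_div₀]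
        field_simp
        linear_combination hyy
      rw [this, mul_pow]
      ring
    have hred2h : N.R2.red h2 = 0 := by
      rw [hh2, map_mul, map_pow, red_constHom, hπτ, map_zero, zero_pow hp, zero_mul]
    have hred1h : N.R1.red h1 = N.R1.red (u1 : N.R1.O) ^ p := by
      rw [hh1, Units.val_mul, Units.val_pow_eq_pow_val, map_mul, map_pow, hred1, mul_one]
    obtain ⟨hreg1, -, hgl⟩ := N.pcg S1 S2 hadm h1 h2 hh12 (by rw [hh1coe]; exact hpoleG)
    have hmem : N.R1.red (u1 : N.R1.O) ∈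
        riemannRochSpace (∑ i, Finsupp.single (Q1 i) (1 : ℤ)) := by
      refine mem_L_of_bounds Q1 N.R1.good _ (fun Q hQ => ?_) (fun Q hQ => ?_)
      · rw [hy1 Q hQ]
        have := hEr1 Q
        omega
      · have h := hreg1 Q (fun hQS => hQ (hS1g hQS))
        rw [hred1h, hordpow1] at h
        exact le_of_mul_le_mul_left (by simpa using h) hppos
    obtain ⟨c, hc⟩ := hrig1 _ hmem
    obtain ⟨e⟩ := ‹Nonempty ι›
    obtain ⟨γ, hγ1, hγ2⟩ := hgl e
    rw [hred2h] at hγ2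
    have hγ0 : γ = 0 := hasValue_zero _ hγ2
    rw [hγ0, hred1h, hc, ← map_pow] at hγ1
    have := hasValue_const _ hγ1
    have hc0 : c = 0 := by
      have h0 : c ^ p = 0 := this.symm
      exact pow_eq_zero_iff hp |>.mp h0
    apply hu1red0
    rw [hc, hc0, map_zero]
  · -- the main case `v₁(y) = v₂(y)`
    have hτA : a2 / a1 ∈ A := div_mem_of_valuation_le ha1 heq.le
    have hπτ := pi_div_ne_zero N.R2.toBranch ha1 heq hτA
    -- the unit of `O₂` equal to `u1`
    set z : N.R2.O := constHom N.R2.toBranch ⟨a2 / a1, hτA⟩ * (u2 : N.R2.O) with hz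
    have hzred : N.R2.red z = algebraMap k F2 (π ⟨a2 / a1, hτA⟩) * N.R2.red (u2 : N.R2.O) := by
      rw [hz, map_mul, red_constHom]
    have hzred0 : N.R2.red z ≠ 0 := by
      rw [hzred]
      exact mul_ne_zero ((map_ne_zero_iff _ (algebraMap k F2).injective).mpr hπτ) hu2red0
    set u2' : N.R2.Oˣ := unitOfRed N.R2.toBranch z hzred0 with hu2'
    have hu2'val : ((u2' : N.R2.Oˣ) : N.R2.O) = z := coe_unitOfRed N.R2.toBranch z hzred0
    have hu12 : ((u1 : N.R1.O) : FL) = ((u2' : N.R2.O) : FL) := by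
      rw [hu2'val, hz, MulMemClass.coe_mul, coe_constHom]
      show ((u1 : N.R1.O) : FL) = algebraMap L FL (a2 / a1) * ((u2 : N.R2.O) : FL)
      rw [map_div₀]
      field_simp
      linear_combination hyy
    have hordz : ∀ Q : Place k F2, Q.ord (N.R2.red z) = Q.ord (N.R2.red (u2 : N.R2.O)) := by
      intro Q
      rw [hzred, ord_const_mul Q hπτ]
    -- pole control for `u1 ^ p * f1 = u2' ^ p * f2`
    set h1 : N.R1.O := ((u1 ^ p * f1 : N.R1.Oˣ) : N.R1.O) with hh1
    set h2 : N.R2.O := ((u2' ^ p * f2 : N.R2.Oˣ) : N.R2.O) with hh2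
    have hh1coe : ((h1 : N.R1.O) : FL) = ((u1 : N.R1.O) : FL) ^ p * ((f1 : N.R1.O) : FL) := by
      rw [hh1, Units.val_mul, Units.val_pow_eq_pow_val, MulMemClass.coe_mul,
        SubmonoidClass.coe_pow]
    have hh12 : ((h1 : N.R1.O) : FL) = ((h2 : N.R2.O) : FL) := by
      rw [hh1coe, hh2, Units.val_mul, Units.val_pow_eq_pow_val, MulMemClass.coe_mul,
        SubmonoidClass.coe_pow, ← hf12, ← hu12]
    have hred1h : N.R1.red h1 = N.R1.red (u1 : N.R1.O) ^ p := by
      rw [hh1, Units.val_mul, Units.val_pow_eq_pow_val, map_mul, map_pow, hred1, mul_one]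
    have hred2h : N.R2.red h2 = N.R2.red z ^ p := by
      rw [hh2, Units.val_mul, Units.val_pow_eq_pow_val, map_mul, map_pow, hred2, mul_one,
        hu2'val]
    obtain ⟨hreg1, hreg2, -⟩ := N.pcg S1 S2 hadm h1 h2 hh12 (by rw [hh1coe]; exact hpoleG)
    have hmem1 : N.R1.red (u1 : N.R1.O) ∈
        riemannRochSpace (∑ i, Finsupp.single (Q1 i) (1 : ℤ)) := by
      refine mem_L_of_bounds Q1 N.R1.good _ (fun Q hQ => ?_) (fun Q hQ => ?_)
      · rw [hy1 Q hQ]
        have := hEr1 Q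
        omega
      · have h := hreg1 Q (fun hQS => hQ (hS1g hQS))
        rw [hred1h, hordpow1] at h
        exact le_of_mul_le_mul_left (by simpa using h) hppos
    obtain ⟨γ, hγ⟩ := hrig1 _ hmem1
    have hγ0 : γ ≠ 0 := by
      rintro rfl
      rw [map_zero] at hγ
      exact hu1red0 hγ
    -- the gluing hypothesis
    have hgl := hglue S1 S2 hadm (u1 : N.R1.O) (u2' : N.R2.O) hu12 hu10 (fun P hP => by
      refine hpole P ?_
      rw [hordu1] at hP
      rw [hE, Finsupp.sub_apply, Finsupp.add_apply, Finsupp.add_apply]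
      omega)
    have hval2 : ∀ e, HasValue (N.e2 e) (N.R2.red z) γ := by
      intro e
      obtain ⟨γ', h1', h2'⟩ := hgl e
      rw [hγ] at h1'
      rw [hasValue_const _ h1', hu2'val] at h2'
      exact h2'
    -- `red z - γ` lies in `L(∑ Q2)` and vanishes at the nodes
    have hz2 : N.R2.red z - algebraMap k F2 γ = 0 := by
      refine hrig2 _ ?_ (fun e => hval2 e |>.imp (fun h => by rw [h, sub_self]) id)
      by_cases hzero : N.R2.red z - algebraMap k F2 γ = 0
      · rw [hzero]; exact Submodule.zero_mem _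
      refine mem_L_of_bounds Q2 N.R2.good _ (fun Q hQ => ?_) (fun Q hQ => ?_)
      · have h1 : -(∑ j, Finsupp.single (Q2 j) (1 : ℤ)) Q ≤ Q.ord (N.R2.red z) := by
          rw [hordz, hy2 Q hQ]
          have := hEr2 Q
          omega
        have h2 : -(∑ j, Finsupp.single (Q2 j) (1 : ℤ)) Q ≤ Q.ord (algebraMap k F2 γ) := by
          rw [ord_algebraMap]
          have := sum_single_nonneg' Q2 Q
          omega
        exact (le_min h1 h2).trans (min_le_ord_sub Q hzero)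
      · have h := hreg2 Q (fun hQS => hQ (hS2g hQS))
        rw [hred2h, ord_pow] at h
        have h1 : 0 ≤ Q.ord (N.R2.red z) := le_of_mul_le_mul_left (by simpa using h) hppos
        have h2 : 0 ≤ Q.ord (algebraMap k F2 γ) := by rw [ord_algebraMap]
        exact (le_min h1 h2).trans (min_le_ord_sub Q hzero)
    have hzγ : N.R2.red z = algebraMap k F2 γ := sub_eq_zero.mp hz2
    -- the counting
    have hE1 : ∀ i, Finsupp.mapDomain N.R1.r E (some (Q1 i)) = 1 := by
      intro i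
      have h := hy1 (Q1 i) (hQ1g i)
      rw [hγ, ord_algebraMap, sum_single_apply_of_injective' Q1 hQ1] at h
      omega
    have hE2 : ∀ j, Finsupp.mapDomain N.R2.r E (some (Q2 j)) = 1 := by
      intro j
      have h := hy2 (Q2 j) (hQ2g j)
      rw [← hordz, hzγ, ord_algebraMap, sum_single_apply_of_injective' Q2 hQ2] at h
      omega
    have hex1 : ∀ i, ∃ P, N.R1.r P = some (Q1 i) ∧ E P = 1 := by
      intro i
      obtain ⟨P, hP, hP1, -⟩ := exists_unique_of_mapDomain_eq_one N.R1.r E (some (Q1 i))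
        (fun P _ => hEnonneg P) (hE1 i)
      exact ⟨P, hP, hP1⟩
    have hex2 : ∀ j, ∃ P, N.R2.r P = some (Q2 j) ∧ E P = 1 := by
      intro j
      obtain ⟨P, hP, hP1, -⟩ := exists_unique_of_mapDomain_eq_one N.R2.r E (some (Q2 j))
        (fun P _ => hEnonneg P) (hE2 j)
      exact ⟨P, hP, hP1⟩
    choose Ps1 hPs1 hPs1E using hex1
    choose Ps2 hPs2 hPs2E using hex2
    have hinj : Function.Injective (Sum.elim Ps1 Ps2) := by
      rintro (i | j) (i' | j') h
      · simp only [Sum.elim_inl] at h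
        have := (hPs1 i).symm.trans (h ▸ hPs1 i')
        rw [hQ1 (Option.some_injective _ this)]
      · simp only [Sum.elim_inl, Sum.elim_inr] at h
        exact (N.excl _ _ _ (hPs1 i) (h ▸ hPs2 j')).elim
      · simp only [Sum.elim_inl, Sum.elim_inr] at h
        exact (N.excl _ _ _ (h ▸ hPs1 i') (hPs2 j)).elim
      · simp only [Sum.elim_inr] at h
        have := (hPs2 j).symm.trans (h ▸ hPs2 j')
        rw [hQ2 (Option.some_injective _ this)]
    have hEsum : E = ∑ x : Fin g1 ⊕ Fin m2, Finsupp.single (Sum.elim Ps1 Ps2 x) (1 : ℤ) := by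
      refine eq_sum_single_of_degree hdegL E hEnonneg _ hinj ?_ ?_
      · rintro (i | j)
        · simp only [Sum.elim_inl]; rw [hPs1E]
        · simp only [Sum.elim_inr]; rw [hPs2E]
      · rw [hdegE]
        simp
    refine ⟨Ps1, Ps2, u1, u2', γ, hγ0, hu12, hγ, by rw [hu2'val]; exact hzγ, hPs1, hPs2,
      fun P => ?_⟩
    have hEP : E P = (∑ i, Finsupp.single (Ps1 i) (1 : ℤ)) P +
        (∑ j, Finsupp.single (Ps2 j) (1 : ℤ)) P := by
      conv_lhs => rw [hEsum]
      rw [Fintype.sum_sum_type, Finsupp.add_apply]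
      simp only [Sum.elim_inl, Sum.elim_inr]
    rw [← hEP, hordu1, hE, hB, Finsupp.add_apply, Finsupp.add_apply, Finsupp.add_apply]
    ring
  · -- `v₁(y) > v₂(y)`: impossible
    exfalso
    have hτA : a1 / a2 ∈ A := div_mem_of_valuation_le ha2 hgt.le
    have hπτ := pi_div_eq_zero N.R1.toBranch ha2 hgt hτA
    set h2 : N.R2.O := ((u2 ^ p * f2 : N.R2.Oˣ) : N.R2.O) with hh2
    set h1 : N.R1.O := constHom N.R1.toBranch ⟨a1 / a2, hτA⟩ ^ p *
      ((u1 ^ p * f1 : N.R1.Oˣ) : N.R1.O) with hh1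
    have hh2coe : ((h2 : N.R2.O) : FL) = ((u2 : N.R2.O) : FL) ^ p * ((f2 : N.R2.O) : FL) := by
      rw [hh2, Units.val_mul, Units.val_pow_eq_pow_val, MulMemClass.coe_mul,
        SubmonoidClass.coe_pow]
    have hu21 : ((u2 : N.R2.O) : FL) = algebraMap L FL (a1 / a2) * ((u1 : N.R1.O) : FL) := by
      rw [map_div₀]
      field_simp
      linear_combination -hyy
    have hh12 : ((h1 : N.R1.O) : FL) = ((h2 : N.R2.O) : FL) := by
      rw [hh2coe, hh1, Units.val_mul, Units.val_pow_eq_pow_val, MulMemClass.coe_mul,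
        MulMemClass.coe_mul, SubmonoidClass.coe_pow, SubmonoidClass.coe_pow, coe_constHom,
        ← hf12, hu21, mul_pow]
      ring
    have hred1h : N.R1.red h1 = 0 := by
      rw [hh1, map_mul, map_pow, red_constHom, hπτ, map_zero, zero_pow hp, zero_mul]
    have hred2h : N.R2.red h2 = N.R2.red (u2 : N.R2.O) ^ p := by
      rw [hh2, Units.val_mul, Units.val_pow_eq_pow_val, map_mul, map_pow, hred2, mul_one]
    have hAτ : algebraMap L FL (a1 / a2) ≠ 0 :=
      (map_ne_zero_iff _ (algebraMap L FL).injective).mpr (div_ne_zero ha1 ha2)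
    obtain ⟨-, hreg2, hgl⟩ := N.pcg S1 S2 hadm h1 h2 hh12 (fun P hP => by
      refine hpoleG P ?_
      rw [hh12, hh2coe, hu21, ← hf12, mul_pow, mul_assoc, ← map_pow,
        ord_const_mul P (pow_ne_zero _ (div_ne_zero ha1 ha2))] at hP
      exact hP)
    have hmem : N.R2.red (u2 : N.R2.O) ∈
        riemannRochSpace (∑ j, Finsupp.single (Q2 j) (1 : ℤ)) := by
      refine mem_L_of_bounds Q2 N.R2.good _ (fun Q hQ => ?_) (fun Q hQ => ?_)
      · rw [hy2 Q hQ]
        have := hEr2 Q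
        omega
      · have h := hreg2 Q (fun hQS => hQ (hS2g hQS))
        rw [hred2h, hordpow2] at h
        exact le_of_mul_le_mul_left (by simpa using h) hppos
    apply hu2red0
    refine hrig2 _ hmem (fun e => ?_)
    obtain ⟨γ, hγ1, hγ2⟩ := hgl e
    rw [hred1h] at hγ1
    have hγ0 : γ = 0 := hasValue_zero _ hγ1
    rw [hγ0, hred2h] at hγ2
    right
    rcases hγ2 with h | h
    · rw [map_zero] at h
      exact absurd h (pow_ne_zero _ hu2red0)
    · rw [map_zero, sub_zero, hordpow2] at h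
      exact (mul_pos_iff_of_pos_left hppos).mp h

/-- on the residue disc of `Qs i` only the `i`-th summand of `∑ single (Ps j) 1` is visible -/
theorem sum_single_apply_disc' {Fk : Type*} [Field Fk] [Algebra k Fk]
    (r : Place L FL → Option (Place k Fk)) {g : ℕ} (Qs : Fin g → Place k Fk)
    (hQs : Function.Injective Qs) (Ps : Fin g → Place L FL) (hPs : ∀ i, r (Ps i) = some (Qs i))
    (i : Fin g) (P : Place L FL) (hP : r P = some (Qs i)) :
    (∑ j, Finsupp.single (Ps j) (1 : ℤ)) P = (Finsupp.single (Ps i) (1 : ℤ)) P := by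
  classical
  rw [Finsupp.finsetSum_apply]
  rw [Finset.sum_eq_single i]
  · intro j _ hji
    refine Finsupp.single_eq_of_ne (fun h => hji ?_)
    apply hQs
    apply Option.some_injective
    rw [← hPs j, ← h, hP]
  · intro h; exact absurd (Finset.mem_univ i) h

/-- off the residue discs of the `Qs i` the divisor `∑ single (Ps j) 1` vanishes -/
theorem sum_single_apply_off' {Fk : Type*} [Field Fk] [Algebra k Fk]
    (r : Place L FL → Option (Place k Fk)) {g : ℕ} (Qs : Fin g → Place k Fk)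
    (Ps : Fin g → Place L FL) (hPs : ∀ i, r (Ps i) = some (Qs i))
    (P : Place L FL) (hP : ∀ i, r P ≠ some (Qs i)) :
    (∑ j, Finsupp.single (Ps j) (1 : ℤ)) P = 0 :=
  sum_single_apply_of_notMem' Ps P fun i h => hP i (by rw [← h, hPs i])

/-- **Step 4a**: normalisation: reduction `1` on both components, value `1` at `Pstar` -/
theorem normalizeG [HasPrincipalDivisors L FL] [HasPrincipalDivisors k F1]
    (N : GNodalDatum A π FL F1 F2 ι) (hdegL : ∀ P : Place L FL, P.deg = 1)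
    (hπ : Function.Surjective π) (p : ℕ) (D' : Divisor L FL)
    (w1 : N.R1.Oˣ) (w2 : N.R2.Oˣ) (hw12 : ((w1 : N.R1.O) : FL) = ((w2 : N.R2.O) : FL))
    (c : k) (hc : c ≠ 0) (hw1 : N.R1.red (w1 : N.R1.O) = algebraMap k F1 c)
    (hw2 : N.R2.red (w2 : N.R2.O) = algebraMap k F2 c)
    (hwD : ∀ P : Place L FL, P.ord ((w1 : N.R1.O) : FL) = p * D' P)
    (Pstar : Place L FL) (Qstar : Place k F1) (hQstar : Qstar ∈ N.R1.good)
    (hstar : N.R1.r Pstar = some Qstar)
    (hstar' : ∀ P : Place L FL, N.R1.r P = some Qstar → D' P = 0) :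
    ∃ (G1 : N.R1.Oˣ) (G2 : N.R2.Oˣ), ((G1 : N.R1.O) : FL) = ((G2 : N.R2.O) : FL) ∧
      N.R1.red (G1 : N.R1.O) = 1 ∧ N.R2.red (G2 : N.R2.O) = 1 ∧
      (∀ P : Place L FL, P.ord ((G1 : N.R1.O) : FL) = p * D' P) ∧
      (((G1 : N.R1.O) : FL) = 1 ∨ 0 < Pstar.ord (((G1 : N.R1.O) : FL) - 1)) := by
  obtain ⟨a, rfl⟩ := hπ c
  have ha0 : (a : L) ≠ 0 := coe_ne_zero_of_pi_ne_zero (π := π) hc
  obtain ⟨G1, hG1coe, hG1red⟩ := exists_div_const N.R1.toBranch w1 a hc
  obtain ⟨G2, hG2coe, hG2red⟩ := exists_div_const N.R2.toBranch w2 a hc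
  have hG12 : ((G1 : N.R1.O) : FL) = ((G2 : N.R2.O) : FL) := by rw [hG1coe, hG2coe, hw12]
  have hG1red' : N.R1.red (G1 : N.R1.O) = 1 := by
    rw [hG1red, hw1]
    exact mul_inv_cancel₀ ((map_ne_zero_iff _ (algebraMap k F1).injective).mpr hc)
  have hG2red' : N.R2.red (G2 : N.R2.O) = 1 := by
    rw [hG2red, hw2]
    exact mul_inv_cancel₀ ((map_ne_zero_iff _ (algebraMap k F2).injective).mpr hc)
  have hordG1 : ∀ P : Place L FL, P.ord ((G1 : N.R1.O) : FL) = p * D' P := by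
    intro P
    rw [hG1coe, ← map_inv₀, ord_mul_const P (inv_ne_zero ha0), hwD]
  have hreg : ∀ P : Place L FL, N.R1.r P = some Qstar → 0 ≤ P.ord ((G1 : N.R1.O) : FL) := by
    intro P hP
    rw [hordG1, hstar' P hP, mul_zero]
  obtain ⟨κ, hκ | hκ⟩ := exists_value Pstar (hdegL Pstar) (hreg Pstar hstar)
  · -- `G1` is a constant: all orders vanish
    refine ⟨1, 1, rfl, by simp, by simp, fun P => ?_, Or.inl (by simp)⟩
    rw [← hordG1 P, hκ, ord_algebraMap]
    simp
  · obtain ⟨hκA, hκ1⟩ := value_mem hπ N.R1 (G1 : N.R1.O) Qstar hQstar hreg Pstar hstar κ hκ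
    have hπκ : π ⟨κ, hκA⟩ = 1 := by
      rw [hG1red', ← map_one (algebraMap k F1), ← map_sub] at hκ1
      rcases hκ1 with h | h
      · have := (map_eq_zero_iff _ (algebraMap k F1).injective).mp h
        exact (sub_eq_zero.mp this).symm
      · rw [ord_algebraMap] at h
        exact absurd h (lt_irrefl _)
    have hπκ0 : π ⟨κ, hκA⟩ ≠ 0 := by rw [hπκ]; exact one_ne_zero
    have hκ0 : κ ≠ 0 := coe_ne_zero_of_pi_ne_zero (π := π) hπκ0
    obtain ⟨H1, hH1coe, hH1red⟩ := exists_div_const N.R1.toBranch G1 ⟨κ, hκA⟩ hπκ0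
    obtain ⟨H2, hH2coe, hH2red⟩ := exists_div_const N.R2.toBranch G2 ⟨κ, hκA⟩ hπκ0
    refine ⟨H1, H2, by rw [hH1coe, hH2coe, hG12], ?_, ?_, fun P => ?_, Or.inr ?_⟩
    · rw [hH1red, hG1red', hπκ, map_one, inv_one, mul_one]
    · rw [hH2red, hG2red', hπκ, map_one, inv_one, mul_one]
    · rw [hH1coe, ← map_inv₀, ord_mul_const P (inv_ne_zero hκ0), hordG1]
    · have hAκ : algebraMap L FL κ ≠ 0 :=
        (map_ne_zero_iff _ (algebraMap L FL).injective).mpr hκ0
      have : (((H1 : N.R1.O) : FL)) - 1 =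
          ((((G1 : N.R1.O) : FL)) - algebraMap L FL κ) * algebraMap L FL κ⁻¹ := by
        rw [hH1coe, map_inv₀]
        show ((G1 : N.R1.O) : FL) * (algebraMap L FL κ)⁻¹ - 1 = _
        field_simp
      rw [this, ord_mul_const Pstar (inv_ne_zero hκ0)]
      exact hκ

/-- **Step 4b**: the function `G` of `normalizeG` cannot be different from `1` -/
theorem no_nontrivialG [HasPrincipalDivisors L FL] [HasPrincipalDivisors k F1]
    [HasPrincipalDivisors k F2]
    (N : GNodalDatum A π FL F1 F2 ι) (hdegL : ∀ P : Place L FL, P.deg = 1)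
    (hπ : Function.Surjective π) (p : ℕ) (hpk : (p : k) ≠ 0) {g1 m2 : ℕ}
    (Q1 : Fin g1 → Place k F1) (Q2 : Fin m2 → Place k F2)
    (hQ1 : Function.Injective Q1) (hQ2 : Function.Injective Q2)
    (hQ1g : ∀ i, Q1 i ∈ N.R1.good) (hQ2g : ∀ j, Q2 j ∈ N.R2.good)
    (hrig1 : ∀ y : F1, y ∈ riemannRochSpace (∑ i, Finsupp.single (Q1 i) (1 : ℤ)) →
      ∃ c : k, y = algebraMap k F1 c)
    (hrig2 : ∀ y : F2, y ∈ riemannRochSpace (∑ i, Finsupp.single (Q2 i) (1 : ℤ)) →
      (∀ e, y = 0 ∨ 0 < (N.e2 e).ord y) → y = 0)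
    (T1 : Fin g1 → N.R1.O) (hT1Q : ∀ i, (Q1 i).ord (N.R1.red (T1 i)) = 1)
    (hT1reg : ∀ i, ∀ P : Place L FL, N.R1.r P = some (Q1 i) → 0 ≤ P.ord ((T1 i : N.R1.O) : FL))
    (T2 : Fin m2 → N.R2.O) (hT2Q : ∀ j, (Q2 j).ord (N.R2.red (T2 j)) = 1)
    (hT2reg : ∀ j, ∀ P : Place L FL, N.R2.r P = some (Q2 j) → 0 ≤ P.ord ((T2 j : N.R2.O) : FL))
    (P01 Ps1 : Fin g1 → Place L FL) (P02 Ps2 : Fin m2 → Place L FL)
    (hP01 : ∀ i, N.R1.r (P01 i) = some (Q1 i)) (hPs1 : ∀ i, N.R1.r (Ps1 i) = some (Q1 i))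
    (hP02 : ∀ j, N.R2.r (P02 j) = some (Q2 j)) (hPs2 : ∀ j, N.R2.r (Ps2 j) = some (Q2 j))
    (hT10 : ∀ i, 0 < (P01 i).ord ((T1 i : N.R1.O) : FL))
    (hT20 : ∀ j, 0 < (P02 j).ord ((T2 j : N.R2.O) : FL))
    (G1 : N.R1.Oˣ) (G2 : N.R2.Oˣ) (hG12 : ((G1 : N.R1.O) : FL) = ((G2 : N.R2.O) : FL))
    (hG1red : N.R1.red (G1 : N.R1.O) = 1) (hG2red : N.R2.red (G2 : N.R2.O) = 1)
    (hGord : ∀ P : Place L FL, P.ord ((G1 : N.R1.O) : FL) =
      p * ((∑ i, Finsupp.single (Ps1 i) (1 : ℤ)) P + (∑ j, Finsupp.single (Ps2 j) (1 : ℤ)) P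
        - (∑ i, Finsupp.single (P01 i) (1 : ℤ)) P - (∑ j, Finsupp.single (P02 j) (1 : ℤ)) P))
    (Pstar : Place L FL) (Qstar : Place k F1) (hQstar : Qstar ∈ N.R1.good)
    (hstar : N.R1.r Pstar = some Qstar) (hQstar' : ∀ i, Q1 i ≠ Qstar)
    (hGstar : 0 < Pstar.ord ((((G1 : N.R1.O) : FL)) - 1)) : False := by
  classical
  have hp : p ≠ 0 := by
    rintro rfl
    exact hpk (by simp)
  have hppos : (0 : ℤ) < p := by exact_mod_cast Nat.pos_of_ne_zero hp
  have hne : (((G1 : N.R1.O) : FL)) - 1 ≠ 0 := by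
    intro h0
    rw [h0, Place.ord_zero] at hGstar
    exact lt_irrefl _ hGstar
  obtain ⟨c1, hc1, w1, hw1⟩ := N.R1.exists_const_mul_unit _ hne
  obtain ⟨c2, hc2, w2, hw2⟩ := N.R2.exists_const_mul_unit _ hne
  have hordw1 : ∀ P : Place L FL,
      P.ord ((w1 : N.R1.O) : FL) = P.ord ((((G1 : N.R1.O) : FL)) - 1) := by
    intro P
    rw [hw1, ord_const_mul P hc1]
  have hordw2 : ∀ P : Place L FL,
      P.ord ((w2 : N.R2.O) : FL) = P.ord ((((G1 : N.R1.O) : FL)) - 1) := by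
    intro P
    rw [hw2, ord_const_mul P hc2]
  have hw1red0 : N.R1.red (w1 : N.R1.O) ≠ 0 := red_unit_ne_zero N.R1.toBranch w1
  have hw2red0 : N.R2.red (w2 : N.R2.O) ≠ 0 := red_unit_ne_zero N.R2.toBranch w2
  -- vanishing of the four sums on discs of the other kind
  have hz12 : ∀ (P : Place L FL) (Q : Place k F1), N.R1.r P = some Q →
      (∑ j, Finsupp.single (Ps2 j) (1 : ℤ)) P = 0 ∧ (∑ j, Finsupp.single (P02 j) (1 : ℤ)) P = 0 :=
    fun P Q hP => ⟨sum_single_apply_of_notMem' Ps2 P fun j h => N.excl P Q (Q2 j) hP (h ▸ hPs2 j),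
      sum_single_apply_of_notMem' P02 P fun j h => N.excl P Q (Q2 j) hP (h ▸ hP02 j)⟩
  have hz21 : ∀ (P : Place L FL) (Q : Place k F2), N.R2.r P = some Q →
      (∑ i, Finsupp.single (Ps1 i) (1 : ℤ)) P = 0 ∧ (∑ i, Finsupp.single (P01 i) (1 : ℤ)) P = 0 :=
    fun P Q hP => ⟨sum_single_apply_of_notMem' Ps1 P fun i h => N.excl P (Q1 i) Q (h ▸ hPs1 i) hP,
      sum_single_apply_of_notMem' P01 P fun i h => N.excl P (Q1 i) Q (h ▸ hP01 i) hP⟩
  -- off the discs of the `Q1 i`, `Q2 j` the function `G - 1` is regular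
  have hregoff1 : ∀ Q : Place k F1, (∀ i, Q1 i ≠ Q) → ∀ P : Place L FL, N.R1.r P = some Q →
      0 ≤ P.ord ((w1 : N.R1.O) : FL) := by
    intro Q hQ P hP
    rw [hordw1]
    refine ord_sub_nonneg P ?_ (by rw [Place.ord_one])
    rw [hGord, (hz12 P Q hP).1, (hz12 P Q hP).2,
      sum_single_apply_off' N.R1.r Q1 Ps1 hPs1 P (fun i h => hQ i (Option.some_injective _
        (h.symm.trans hP).symm ▸ rfl)),
      sum_single_apply_off' N.R1.r Q1 P01 hP01 P (fun i h => hQ i (Option.some_injective _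
        (h.symm.trans hP).symm ▸ rfl))]
    simp
  have hregoff2 : ∀ Q : Place k F2, (∀ j, Q2 j ≠ Q) → ∀ P : Place L FL, N.R2.r P = some Q →
      0 ≤ P.ord ((w2 : N.R2.O) : FL) := by
    intro Q hQ P hP
    rw [hordw2]
    refine ord_sub_nonneg P ?_ (by rw [Place.ord_one])
    rw [hGord, (hz21 P Q hP).1, (hz21 P Q hP).2,
      sum_single_apply_off' N.R2.r Q2 Ps2 hPs2 P (fun j h => hQ j (Option.some_injective _
        (h.symm.trans hP).symm ▸ rfl)),
      sum_single_apply_off' N.R2.r Q2 P02 hP02 P (fun j h => hQ j (Option.some_injective _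
        (h.symm.trans hP).symm ▸ rfl))]
    simp
  -- the admissible pair
  obtain ⟨S1, S2, hadm, hT1, hT2⟩ := N.exists_adm (Set.range Q1) (Set.range Q2)
    (Set.finite_range _) (Set.finite_range _) (by rintro _ ⟨i, rfl⟩; exact hQ1g i)
    (by rintro _ ⟨j, rfl⟩; exact hQ2g j)
  obtain ⟨hS1g, hS2g⟩ := N.adm_subset_good S1 S2 hadm
  have hpoleh : ∀ P : Place L FL, P.ord ((((G1 : N.R1.O) : FL)) - 1) < 0 →
      (∃ Q ∈ S1, N.R1.r P = some Q) ∨ (∃ Q ∈ S2, N.R2.r P = some Q) := by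
    intro P hP
    have hG : P.ord ((G1 : N.R1.O) : FL) < 0 := by
      by_contra hcon
      rw [not_lt] at hcon
      have := ord_sub_nonneg P hcon (by rw [Place.ord_one] : (0 : ℤ) ≤ P.ord (1 : FL))
      omega
    rw [hGord] at hG
    have h1 := sum_single_nonneg' Ps1 P
    have h2 := sum_single_nonneg' Ps2 P
    by_cases h01 : ∃ i, P01 i = P
    · obtain ⟨i, rfl⟩ := h01
      exact Or.inl ⟨Q1 i, hT1 ⟨i, rfl⟩, hP01 i⟩
    · by_cases h02 : ∃ j, P02 j = P
      · obtain ⟨j, rfl⟩ := h02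
        exact Or.inr ⟨Q2 j, hT2 ⟨j, rfl⟩, hP02 j⟩
      · push Not at h01 h02
        rw [sum_single_apply_of_notMem' P01 P h01, sum_single_apply_of_notMem' P02 P h02] at hG
        nlinarith
  -- the local forms
  have hloc1 : ∀ i, -1 ≤ (Q1 i).ord (N.R1.red (w1 : N.R1.O)) := by
    intro i
    refine local_form hdegL hπ N.R1 p hpk (Q1 i) (hQ1g i) (T1 i) (hT1Q i) (hT1reg i) (P01 i)
      (Ps1 i) (hP01 i) (hPs1 i) (hT10 i) G1 hG1red (fun P hP => ?_) c1 hc1 w1 hw1
    rw [hGord, (hz12 P _ hP).1, (hz12 P _ hP).2,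
      sum_single_apply_disc' N.R1.r Q1 hQ1 Ps1 hPs1 i P hP,
      sum_single_apply_disc' N.R1.r Q1 hQ1 P01 hP01 i P hP, Finsupp.sub_apply]
    simp only [Finsupp.single_apply]
    split_ifs <;> simp
  have hloc2 : ∀ j, -1 ≤ (Q2 j).ord (N.R2.red (w2 : N.R2.O)) := by
    intro j
    refine local_form hdegL hπ N.R2 p hpk (Q2 j) (hQ2g j) (T2 j) (hT2Q j) (hT2reg j) (P02 j)
      (Ps2 j) (hP02 j) (hPs2 j) (hT20 j) G2 hG2red (fun P hP => ?_) c2 hc2 w2
      (by rw [← hG12]; exact hw2)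
    rw [← hG12, hGord, (hz21 P _ hP).1, (hz21 P _ hP).2,
      sum_single_apply_disc' N.R2.r Q2 hQ2 Ps2 hPs2 j P hP,
      sum_single_apply_disc' N.R2.r Q2 hQ2 P02 hP02 j P hP, Finsupp.sub_apply]
    simp only [Finsupp.single_apply]
    split_ifs <;> simp
  have hgood1 : ∀ Q ∈ N.R1.good,
      -(∑ i, Finsupp.single (Q1 i) (1 : ℤ)) Q ≤ Q.ord (N.R1.red (w1 : N.R1.O)) := by
    intro Q hQ
    by_cases hex : ∃ i, Q1 i = Q
    · obtain ⟨i, rfl⟩ := hex
      rw [sum_single_apply_of_injective' Q1 hQ1]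
      exact hloc1 i
    · push Not at hex
      rw [sum_single_apply_of_notMem' Q1 Q hex, neg_zero]
      exact ord_red_nonneg N.R1 (w1 : N.R1.O) hw1red0 Q hQ
        (regOn_of_ord_nonneg (hregoff1 Q hex))
  have hgood2 : ∀ Q ∈ N.R2.good,
      -(∑ j, Finsupp.single (Q2 j) (1 : ℤ)) Q ≤ Q.ord (N.R2.red (w2 : N.R2.O)) := by
    intro Q hQ
    by_cases hex : ∃ j, Q2 j = Q
    · obtain ⟨j, rfl⟩ := hex
      rw [sum_single_apply_of_injective' Q2 hQ2]
      exact hloc2 j
    · push Not at hex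
      rw [sum_single_apply_of_notMem' Q2 Q hex, neg_zero]
      exact ord_red_nonneg N.R2 (w2 : N.R2.O) hw2red0 Q hQ
        (regOn_of_ord_nonneg (hregoff2 Q hex))
  have hcw : algebraMap L FL c1 * ((w1 : N.R1.O) : FL) = algebraMap L FL c2 * ((w2 : N.R2.O) : FL) := by
    rw [← hw1, ← hw2]
  have hAc1 : algebraMap L FL c1 ≠ 0 := (map_ne_zero_iff _ (algebraMap L FL).injective).mpr hc1
  have hAc2 : algebraMap L FL c2 ≠ 0 := (map_ne_zero_iff _ (algebraMap L FL).injective).mpr hc2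
  rcases le_or_gt (A.valuation c2) (A.valuation c1) with hle | hlt
  · -- `v₁(G - 1) ≤ v₂(G - 1)`: use the first component and `Pstar`
    have hτA : c2 / c1 ∈ A := div_mem_of_valuation_le hc1 hle
    set h2 : N.R2.O := constHom N.R2.toBranch ⟨c2 / c1, hτA⟩ * (w2 : N.R2.O) with hh2
    have hh12 : (((w1 : N.R1.O)) : FL) = ((h2 : N.R2.O) : FL) := by
      rw [hh2, MulMemClass.coe_mul, coe_constHom]
      show ((w1 : N.R1.O) : FL) = algebraMap L FL (c2 / c1) * ((w2 : N.R2.O) : FL)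
      rw [map_div₀]
      field_simp
      linear_combination hcw
    obtain ⟨hreg1, -, -⟩ := N.pcg S1 S2 hadm (w1 : N.R1.O) h2 hh12 (fun P hP => by
      rw [hordw1] at hP
      exact hpoleh P hP)
    have hmem := mem_L_of_bounds Q1 N.R1.good _ hgood1
      (fun Q hQ => hreg1 Q (fun hQS => hQ (hS1g hQS)))
    obtain ⟨δ, hδ⟩ := hrig1 _ hmem
    have h1 := ord_le_ord_red N.R1 (w1 : N.R1.O) hw1red0 Qstar hQstar
      (regOn_of_ord_nonneg (hregoff1 Qstar hQstar')) Pstar hstar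
    rw [hδ, ord_algebraMap, hordw1] at h1
    omega
  · -- `v₂(G - 1) < v₁(G - 1)`: use the second component and the nodes
    have hτA : c1 / c2 ∈ A := div_mem_of_valuation_le hc2 hlt.le
    have hπτ := pi_div_eq_zero N.R1.toBranch hc2 hlt hτA
    set h1 : N.R1.O := constHom N.R1.toBranch ⟨c1 / c2, hτA⟩ * (w1 : N.R1.O) with hh1
    have hw21 : ((w2 : N.R2.O) : FL) = algebraMap L FL (c1 / c2) * ((w1 : N.R1.O) : FL) := by
      rw [map_div₀]
      field_simp
      linear_combination -hcw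
    have hh12 : ((h1 : N.R1.O) : FL) = (((w2 : N.R2.O)) : FL) := by
      rw [hh1, MulMemClass.coe_mul, coe_constHom]
      exact hw21.symm
    have hred1h : N.R1.red h1 = 0 := by
      rw [hh1, map_mul, red_constHom, hπτ, map_zero, zero_mul]
    obtain ⟨-, hreg2, hgl⟩ := N.pcg S1 S2 hadm h1 (w2 : N.R2.O) hh12 (fun P hP => by
      rw [hh12, hordw2] at hP
      exact hpoleh P hP)
    have hmem := mem_L_of_bounds Q2 N.R2.good _ hgood2
      (fun Q hQ => hreg2 Q (fun hQS => hQ (hS2g hQS)))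
    apply hw2red0
    refine hrig2 _ hmem (fun e => ?_)
    obtain ⟨γ, hγ1, hγ2⟩ := hgl e
    rw [hred1h] at hγ1
    have hγ0 : γ = 0 := hasValue_zero _ hγ1
    rw [hγ0] at hγ2
    rcases hγ2 with h | h
    · left; rw [h, map_zero]
    · right; rwa [map_zero, sub_zero] at h

/-- **The abstract nodal core (Route G).**  Let `N` be a nodal reduction datum (two components
meeting in the nodes `e : ι`), with Riemann's inequality on the generic side at the arithmetic
genus `g1 + m2` and generic rigid divisors on the two components.  A divisor `D` of degree zero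
with `p • D = div f` (`p` prime to the residue characteristic), where `f` is a unit of both Gauss
rings reducing to `1` on both components, and which satisfies the gluing hypothesis `GlueG N D`,
is principal. -/
theorem nodal_core [HasPrincipalDivisors L FL] [HasPrincipalDivisors k F1]
    [HasPrincipalDivisors k F2] [Fintype ι] [Nonempty ι]
    (N : GNodalDatum A π FL F1 F2 ι) (hdegL : ∀ P : Place L FL, P.deg = 1)
    (hπ : Function.Surjective π) (p : ℕ) (hpk : (p : k) ≠ 0)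
    (x1 : N.R1.O)
    (hunram1 : {Q : Place k F1 | ¬ ∃ γ : k, Q.ord (N.R1.red x1 - algebraMap k F1 γ) = 1}.Finite)
    (x2 : N.R2.O)
    (hunram2 : {Q : Place k F2 | ¬ ∃ γ : k, Q.ord (N.R2.red x2 - algebraMap k F2 γ) = 1}.Finite)
    {g1 m2 : ℕ} (hR : RiemannGe L FL (g1 + m2)) (hG : NodalRigid k F1 F2 N.e2 g1 m2)
    (Pstar : Place L FL) (Qstar : Place k F1) (hQstar : Qstar ∈ N.R1.good)
    (hstar : N.R1.r Pstar = some Qstar)
    (D : Divisor L FL) (hD0 : Divisor.degree D = 0)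
    (f1 : N.R1.Oˣ) (f2 : N.R2.Oˣ) (hf12 : ((f1 : N.R1.O) : FL) = ((f2 : N.R2.O) : FL))
    (hred1 : N.R1.red (f1 : N.R1.O) = 1) (hred2 : N.R2.red (f2 : N.R2.O) = 1)
    (hfD : ∀ P : Place L FL, P.ord ((f1 : N.R1.O) : FL) = p * D P)
    (hglue : GlueG N D) :
    D ∈ Divisor.principal (K := L) (F := FL) := by
  classical
  have hp : p ≠ 0 := by
    rintro rfl
    exact hpk (by simp)
  have hp0 : (p : ℤ) ≠ 0 := by exact_mod_cast hp
  -- the bad sets
  set Bad1 : Set (Place k F1) :=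
    {Q : Place k F1 | ¬ ∃ γ : k, Q.ord (N.R1.red x1 - algebraMap k F1 γ) = 1} ∪
      {Q : Place k F1 | ∃ P : Place L FL, P.ord ((x1 : N.R1.O) : FL) < 0 ∧ N.R1.r P = some Q} ∪
      {Qstar} ∪ (N.R1.good)ᶜ with hBad1
  set Bad2 : Set (Place k F2) :=
    {Q : Place k F2 | ¬ ∃ γ : k, Q.ord (N.R2.red x2 - algebraMap k F2 γ) = 1} ∪
      {Q : Place k F2 | ∃ P : Place L FL, P.ord ((x2 : N.R2.O) : FL) < 0 ∧ N.R2.r P = some Q} ∪
      (N.R2.good)ᶜ with hBad2
  have hBad1fin : Bad1.Finite :=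
    ((hunram1.union (finite_image_poles N.R1 _)).union (Set.finite_singleton _)).union
      N.finite_compl_good1
  have hBad2fin : Bad2.Finite :=
    (hunram2.union (finite_image_poles N.R2 _)).union N.finite_compl_good2
  obtain ⟨Q1, Q2, hQ1, hQ2, hQ1Bad, hQ2Bad, hrig1, hrig2⟩ := hG Bad1 hBad1fin Bad2 hBad2fin
  have hQ1g : ∀ i, Q1 i ∈ N.R1.good := by
    intro i
    by_contra hcon
    exact hQ1Bad i (Or.inr hcon)
  have hQ2g : ∀ j, Q2 j ∈ N.R2.good := by
    intro j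
    by_contra hcon
    exact hQ2Bad j (Or.inr hcon)
  have hQstar' : ∀ i, Q1 i ≠ Qstar := by
    intro i h
    exact hQ1Bad i (Or.inl (Or.inr (by rw [h]; exact Set.mem_singleton _)))
  -- parameters and base points
  have hpar1 : ∀ i, ∃ (T : N.R1.O) (P0 : Place L FL), (Q1 i).ord (N.R1.red T) = 1 ∧
      (∀ P : Place L FL, N.R1.r P = some (Q1 i) → 0 ≤ P.ord ((T : N.R1.O) : FL)) ∧
      N.R1.r P0 = some (Q1 i) ∧ 0 < P0.ord ((T : N.R1.O) : FL) := by
    intro i
    refine exists_param N.R1 hπ x1 (Q1 i) (hQ1g i) ?_ ?_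
    · by_contra hcon
      exact hQ1Bad i (Or.inl (Or.inl (Or.inl hcon)))
    · intro P hP
      by_contra hcon
      rw [not_le] at hcon
      exact hQ1Bad i (Or.inl (Or.inl (Or.inr ⟨P, hcon, hP⟩)))
  have hpar2 : ∀ j, ∃ (T : N.R2.O) (P0 : Place L FL), (Q2 j).ord (N.R2.red T) = 1 ∧
      (∀ P : Place L FL, N.R2.r P = some (Q2 j) → 0 ≤ P.ord ((T : N.R2.O) : FL)) ∧
      N.R2.r P0 = some (Q2 j) ∧ 0 < P0.ord ((T : N.R2.O) : FL) := by
    intro j
    refine exists_param N.R2 hπ x2 (Q2 j) (hQ2g j) ?_ ?_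
    · by_contra hcon
      exact hQ2Bad j (Or.inl (Or.inl hcon))
    · intro P hP
      by_contra hcon
      rw [not_le] at hcon
      exact hQ2Bad j (Or.inl (Or.inr ⟨P, hcon, hP⟩))
  choose T1 P01 hT1Q hT1reg hP01 hT10 using hpar1
  choose T2 P02 hT2Q hT2reg hP02 hT20 using hpar2
  -- Riemann + rigidity + gluing
  obtain ⟨Ps1, Ps2, u1, u2, γ, hγ, hu12, hu1red, hu2red, hPs1, hPs2, huD⟩ :=
    effective_liftG N hdegL p hp hR Q1 Q2 hQ1 hQ2 hQ1g hQ2g hrig1 hrig2 P01 P02 hP01 hP02 D hD0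
      f1 f2 hf12 hred1 hred2 hfD hglue
  set D' : Divisor L FL :=
    (∑ i, Finsupp.single (Ps1 i) (1 : ℤ)) + (∑ j, Finsupp.single (Ps2 j) (1 : ℤ))
      - (∑ i, Finsupp.single (P01 i) (1 : ℤ)) - (∑ j, Finsupp.single (P02 j) (1 : ℤ)) with hD'
  have hD'apply : ∀ P : Place L FL, D' P =
      (∑ i, Finsupp.single (Ps1 i) (1 : ℤ)) P + (∑ j, Finsupp.single (Ps2 j) (1 : ℤ)) P
        - (∑ i, Finsupp.single (P01 i) (1 : ℤ)) P - (∑ j, Finsupp.single (P02 j) (1 : ℤ)) P := by
    intro P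
    rw [hD', Finsupp.sub_apply, Finsupp.sub_apply, Finsupp.add_apply]
  -- the function with divisor `p • D'`
  have hu10 : ((u1 : N.R1.O) : FL) ≠ 0 := coe_unit_ne_zero N.R1.toBranch u1
  have hf10 : ((f1 : N.R1.O) : FL) ≠ 0 := coe_unit_ne_zero N.R1.toBranch f1
  have hw12 : (((u1 ^ p * f1 : N.R1.Oˣ) : N.R1.O) : FL) =
      (((u2 ^ p * f2 : N.R2.Oˣ) : N.R2.O) : FL) := by
    rw [Units.val_mul, Units.val_pow_eq_pow_val, MulMemClass.coe_mul, SubmonoidClass.coe_pow,
      Units.val_mul, Units.val_pow_eq_pow_val, MulMemClass.coe_mul, SubmonoidClass.coe_pow,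
      hu12, hf12]
  have hw1red : N.R1.red ((u1 ^ p * f1 : N.R1.Oˣ) : N.R1.O) = algebraMap k F1 (γ ^ p) := by
    rw [Units.val_mul, Units.val_pow_eq_pow_val, map_mul, map_pow, hred1, mul_one, hu1red,
      map_pow]
  have hw2red : N.R2.red ((u2 ^ p * f2 : N.R2.Oˣ) : N.R2.O) = algebraMap k F2 (γ ^ p) := by
    rw [Units.val_mul, Units.val_pow_eq_pow_val, map_mul, map_pow, hred2, mul_one, hu2red,
      map_pow]
  have hwD : ∀ P : Place L FL, P.ord (((u1 ^ p * f1 : N.R1.Oˣ) : N.R1.O) : FL) = p * D' P := by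
    intro P
    rw [Units.val_mul, Units.val_pow_eq_pow_val, MulMemClass.coe_mul, SubmonoidClass.coe_pow,
      P.ord_mul (pow_ne_zero _ hu10) hf10, ord_pow, hfD, hD'apply, ← huD P]
    ring
  have hstar' : ∀ P : Place L FL, N.R1.r P = some Qstar → D' P = 0 := by
    intro P hP
    have h1 : ∀ i, N.R1.r P ≠ some (Q1 i) := by
      intro i h
      rw [hP] at h
      exact hQstar' i (Option.some_injective _ h).symm
    have h2 : ∀ (Ps : Fin m2 → Place L FL), (∀ j, N.R2.r (Ps j) = some (Q2 j)) →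
        (∑ j, Finsupp.single (Ps j) (1 : ℤ)) P = 0 := by
      intro Ps hPs
      refine sum_single_apply_of_notMem' Ps P fun j h => ?_
      exact N.excl P Qstar (Q2 j) hP (by rw [← h]; exact hPs j)
    rw [hD'apply, sum_single_apply_off' N.R1.r Q1 Ps1 hPs1 P h1,
      sum_single_apply_off' N.R1.r Q1 P01 hP01 P h1, h2 Ps2 hPs2, h2 P02 hP02]
    ring
  obtain ⟨G1, G2, hG12, hG1red, hG2red, hGord, hGstar⟩ :=
    normalizeG N hdegL hπ p D' (u1 ^ p * f1) (u2 ^ p * f2) hw12 (γ ^ p) (pow_ne_zero _ hγ)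
      hw1red hw2red hwD Pstar Qstar hQstar hstar hstar'
  rcases hGstar with hG1 | hG1
  · -- `G = 1`: then `D' = 0` and `D = -div u1`
    have hD'0 : ∀ P : Place L FL, D' P = 0 := by
      intro P
      have h := hGord P
      rw [hG1, Place.ord_one] at h
      rcases mul_eq_zero.mp h.symm with h | h
      · exact absurd h hp0
      · exact h
    refine Divisor.mem_principal.mpr ⟨(((u1 : N.R1.O) : FL))⁻¹, inv_ne_zero hu10, fun P => ?_⟩
    have h := huD P
    rw [← hD'apply, hD'0 P] at h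
    rw [P.ord_inv]
    omega
  · exact (no_nontrivialG N hdegL hπ p hpk Q1 Q2 hQ1 hQ2 hQ1g hQ2g hrig1 hrig2 T1 hT1Q hT1reg
      T2 hT2Q hT2reg P01 Ps1 P02 Ps2 hP01 hPs1 hP02 hPs2 hT10 hT20 G1 G2 hG12 hG1red hG2red
      (fun P => by rw [hGord P, hD'apply]) Pstar Qstar hQstar hstar hQstar' hG1).elim

end Main

end Fermat.Agent.S34.NodalCore
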