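/-
PROJECT U (S34), ROUTE G, integration bridge, part 2 (helper6):
THE NODAL CORE APPLIED TO `f' = g u / u`, `D' = g D - D`.

Setting of `S34/NodalDefs` / `S34/NodalCore`: `N : GNodalDatum A π FL F1 F2 ι`.  Let `g` be a
semilinear automorphism of `FL / L` which preserves the two Gauss rings and acts trivially on the
two residue function fields (an inertia element).  Let `u ∈ FL` be a one-unit of both Gauss rings
(`red₁ u = 1 = red₂ u`) with `div u = n D`, `deg D = 0`, `n` invertible in `k`.  Then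
`f' := g u / u` is again a one-unit of both rings with `div f' = n (g D - D)`, and the nodal core
gives: **if `GlueG N (g D - D)` holds then `g D - D` is principal.**

`GlueG N (g D - D)` is the output of `S34/GlueGNodal` (helper2, = `GlueG.eval_eq_of_localGenerator`
at every node).  Together with `S34/CoreZOfPrincipal` this is (Core-Z) in function language.
-/
import Fermat.Agent.S34.NodalCore
import Fermat.Agent.S34.CoreZOfPrincipal

set_option autoImplicit false
set_option linter.unusedSectionVars false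

noncomputable section

namespace Fermat.Agent.S34.CoreZOfNodal

open AlgebraicCurve Fermat.Agent.S34.NodalDefs Fermat.Agent.S34.NodalCore
open Fermat.Agent.S18.CoreDefs (RiemannGe)
open Fermat.Agent.S34.KummerZ Fermat.Agent.S34.CoreZOfPrincipal

variable {L : Type*} [Field L] {k : Type*} [Field k]
variable {A : ValuationSubring L} {π : A →+* k}
variable {FL : Type*} [Field FL] [Algebra L FL]
variable {Fk : Type*} [Field Fk] [Algebra k Fk]

/-- an element of a branch whose reduction is `1` is a unit -/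
theorem isUnit_of_red_eq_one (R : Branch A π FL Fk) (y : R.O) (hy : R.red y = 1) : IsUnit y := by
  by_contra h
  have := (R.red_eq_zero_iff y).mpr h
  rw [hy] at this
  exact one_ne_zero this

/-- `g • D - D` has degree `0`. -/
theorem degree_smul_sub (g : SemilinearAut L FL) (D : Divisor L FL) :
    Divisor.degree (g • D - D) = 0 := by
  rw [map_sub, SemilinearAut.degree_smul, sub_self]

/-- **The quotient `g u / u` as a one-unit of a branch.** -/
theorem exists_unit_quotient (R : Branch A π FL Fk) (g : SemilinearAut L FL)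
    (hg : ∀ y : R.O, ∃ h : g • ((y : R.O) : FL) ∈ R.O, R.red ⟨_, h⟩ = R.red y)
    {u : FL} (hu : u ∈ R.O) (hred : R.red ⟨u, hu⟩ = 1) :
    ∃ f : R.Oˣ, ((f : R.O) : FL) = g • u / u ∧ R.red (f : R.O) = 1 := by
  obtain ⟨hgu, hgred⟩ := hg ⟨u, hu⟩
  rw [hred] at hgred
  have h1 : IsUnit (⟨u, hu⟩ : R.O) := isUnit_of_red_eq_one R _ hred
  have h2 : IsUnit (⟨g • u, hgu⟩ : R.O) := isUnit_of_red_eq_one R _ hgred
  obtain ⟨v1, hv1⟩ := h1
  obtain ⟨v2, hv2⟩ := h2
  refine ⟨v2 * v1⁻¹, ?_, ?_⟩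
  · have e1 : ((v1 : R.O) : FL) = u := by rw [hv1]
    have e2 : ((v2 : R.O) : FL) = g • u := by rw [hv2]
    have hu0 : u ≠ 0 := by
      rintro rfl
      have hz : (⟨0, hu⟩ : R.O) = 0 := rfl
      rw [hz, map_zero] at hred
      exact zero_ne_one hred
    have hinv : ((↑(v1⁻¹) : R.O) : FL) = u⁻¹ := by
      have hm : ((v1 : R.O) : FL) * ((↑(v1⁻¹) : R.O) : FL) = 1 := by
        have h0 : ((v1 : R.O) * (↑(v1⁻¹) : R.O) : R.O) = 1 := Units.mul_inv v1
        have h1 := congrArg (fun z : R.O => (z : FL)) h0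
        exact h1
      rw [e1] at hm
      exact eq_inv_of_mul_eq_one_right hm
    rw [Units.val_mul, div_eq_mul_inv]
    show ((v2 : R.O) : FL) * ((↑(v1⁻¹) : R.O) : FL) = g • u * u⁻¹
    rw [e2, hinv]
  · rw [Units.val_mul, map_mul, hv2, hgred, one_mul]
    have hm : R.red (v1 : R.O) * R.red (↑(v1⁻¹) : R.O) = 1 := by
      rw [← map_mul, Units.mul_inv, map_one]
    rw [hv1, hred, one_mul] at hm
    exact hm

variable {F1 : Type*} [Field F1] [Algebra k F1] {F2 : Type*} [Field F2] [Algebra k F2]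
variable {ι : Type*}

/-- **Principal-ness of `g D - D` from the nodal core.** -/
theorem principal_of_nodal [HasPrincipalDivisors L FL] [HasPrincipalDivisors k F1]
    [HasPrincipalDivisors k F2] [Fintype ι] [Nonempty ι]
    (N : GNodalDatum A π FL F1 F2 ι) (hdegL : ∀ P : Place L FL, P.deg = 1)
    (hπ : Function.Surjective π) (n : ℕ) (hnk : (n : k) ≠ 0)
    (x1 : N.R1.O)
    (hunram1 : {Q : Place k F1 | ¬ ∃ γ : k, Q.ord (N.R1.red x1 - algebraMap k F1 γ) = 1}.Finite)
    (x2 : N.R2.O)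
    (hunram2 : {Q : Place k F2 | ¬ ∃ γ : k, Q.ord (N.R2.red x2 - algebraMap k F2 γ) = 1}.Finite)
    {g1 m2 : ℕ} (hR : RiemannGe L FL (g1 + m2)) (hG : NodalRigid k F1 F2 N.e2 g1 m2)
    (Pstar : Place L FL) (Qstar : Place k F1) (hQstar : Qstar ∈ N.R1.good)
    (hstar : N.R1.r Pstar = some Qstar)
    (g : SemilinearAut L FL)
    (hg1 : ∀ y : N.R1.O, ∃ h : g • ((y : N.R1.O) : FL) ∈ N.R1.O, N.R1.red ⟨_, h⟩ = N.R1.red y)
    (hg2 : ∀ y : N.R2.O, ∃ h : g • ((y : N.R2.O) : FL) ∈ N.R2.O, N.R2.red ⟨_, h⟩ = N.R2.red y)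
    {u : FL} (hu1 : u ∈ N.R1.O) (hu2 : u ∈ N.R2.O)
    (hred1 : N.R1.red ⟨u, hu1⟩ = 1) (hred2 : N.R2.red ⟨u, hu2⟩ = 1)
    (D : Divisor L FL) (hD : ∀ P : Place L FL, P.ord u = n * D P)
    (hglue : GlueG N (g • D - D)) :
    g • D - D ∈ Divisor.principal (K := L) (F := FL) := by
  obtain ⟨f1, hf1, hf1red⟩ := exists_unit_quotient N.R1.toBranch g hg1 hu1 hred1
  obtain ⟨f2, hf2, hf2red⟩ := exists_unit_quotient N.R2.toBranch g hg2 hu2 hred2
  have hu0 : u ≠ 0 := by
    rintro rfl
    have hz : (⟨0, hu1⟩ : N.R1.O) = 0 := rfl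
    rw [hz, map_zero] at hred1
    exact zero_ne_one hred1
  have hgu : g • u ≠ 0 := by
    intro h0
    apply hu0
    have := congrArg (fun x => g⁻¹ • x) h0
    simpa using this
  refine nodal_core N hdegL hπ n hnk x1 hunram1 x2 hunram2 hR hG Pstar Qstar hQstar hstar
    (g • D - D) (degree_smul_sub g D) f1 f2 (hf1.trans hf2.symm) hf1red hf2red (fun P => ?_) hglue
  show P.ord ((f1 : N.R1.O) : FL) = n * (g • D - D) P
  rw [hf1, ord_div' P hgu hu0, ord_smul_eq, hD, hD, Finsupp.sub_apply,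
    SemilinearAut.divisor_smul_apply]
  ring

end Fermat.Agent.S34.CoreZOfNodal
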