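/-
PROJECT U (S34), ROUTE G, slice (Z5') (helper2): THE GLUING OF `s f / f` AT THE NODES, ABSTRACTLY.

Mathlib-only.  Vocabulary:

* `F` a field (the function field of `X₀(qM)` over `Q̄`), `k` a field (the residue field);
* a *node* is seen from `F` through two subrings `V₁ V₂ ≤ F` ("functions whose reduction on the
  first / second component is regular at the node") with evaluation maps `e₁ : V₁ →+* k`,
  `e₂ : V₂ →+* k` (in the application `Vᵢ` is the composite valuation ring `redᵢ⁻¹(local ring)`);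
* `B ≤ F` is the ring of *admissible* functions: every element of `B` is regular at the node on
  both sides and takes THE SAME VALUE there (`NodeSetup.glue`; this is pole control (G2) + the
  sandwich (G3));
* `Lam f` is the lattice attached to `f` (`y ∈ Lam f` iff `yⁿ f` is admissible, see `lam`);
* `s : F ≃+* F` is an inertia element: it preserves `Vᵢ`, the evaluations and the lattices.

Main results:

* `mul_eq_mul_of_pow_eq`     : the line lemma (`xⁿ = zⁿ` on a subspace of `k²` forces a line);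
* `NodeSetup.eval_eq_of_localGenerator` : if `f` evaluates to `1` on both sides and `Lam f` has a
  *local generator* at the node (some `y₁ ∈ Lam f` with `e₁ y₁ ≠ 0`), then every `y ∈ Lam (s f / f)`
  is regular at the node on both sides and `e₁ y = e₂ y`   [= GlueG(s f / f)];
* `lam`, `ringB`, `nodeSetup_lam` : the concrete lattices `{y | ∀ Q ∈ 𝒬, yⁿ f ∈ Q}` for a set `𝒬`
  of valuation subrings of `F` (the two Gauss extensions and the non-admissible places);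
* `exists_evx_ne_zero_of_finrank_le` : the COUNT that produces local generators (pure linear
  algebra): if `V → k^ι × k^ι` is onto, `W ≤ V` satisfies `xⁿ = zⁿ` at every node and
  `dim V ≤ dim W + #ι`, then every node has a `w ∈ W` with non-zero first coordinate.
-/
import Mathlib

set_option autoImplicit false

noncomputable section

namespace Fermat.Agent.S34.GlueG

/-! ### The line lemma -/

section Line

variable {k : Type*} [Field k]

/-- **Line lemma.** If `(x + t x₀)ⁿ = (z + t z₀)ⁿ` for all `t` and `x₀ ≠ 0`, then `(x, z)` is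
proportional to `(x₀, z₀)`. -/
theorem mul_eq_mul_of_pow_eq {n : ℕ} (hn : n ≠ 0) {x₀ z₀ x z : k} (hx₀ : x₀ ≠ 0)
    (h : ∀ t : k, (x + t * x₀) ^ n = (z + t * z₀) ^ n) : z * x₀ = x * z₀ := by
  have h1 := h (-x / x₀)
  have h2 : x + -x / x₀ * x₀ = 0 := by field_simp; ring
  rw [h2, zero_pow hn] at h1
  have h3 : z + -x / x₀ * z₀ = 0 := (pow_eq_zero_iff hn).mp h1.symm
  field_simp at h3
  linear_combination h3

end Line

/-! ### Partial evaluation -/

section Ev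

variable {F : Type*} [Field F] {k : Type*} [Field k]

open Classical in
/-- evaluation `e : V →+* k` extended by zero to all of `F` -/
def ev (V : Subring F) (e : V →+* k) (y : F) : k :=
  if h : y ∈ V then e ⟨y, h⟩ else 0

variable {V : Subring F} {e : V →+* k}

theorem ev_of_mem {y : F} (h : y ∈ V) : ev V e y = e ⟨y, h⟩ := by
  unfold ev
  rw [dif_pos h]

theorem ev_one : ev V e 1 = 1 := by
  rw [ev_of_mem V.one_mem]
  exact map_one e

theorem ev_zero : ev V e 0 = 0 := by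
  rw [ev_of_mem V.zero_mem]
  exact map_zero e

theorem ev_mul {x y : F} (hx : x ∈ V) (hy : y ∈ V) : ev V e (x * y) = ev V e x * ev V e y := by
  rw [ev_of_mem hx, ev_of_mem hy, ev_of_mem (V.mul_mem hx hy), ← map_mul]
  rfl

theorem ev_add {x y : F} (hx : x ∈ V) (hy : y ∈ V) : ev V e (x + y) = ev V e x + ev V e y := by
  rw [ev_of_mem hx, ev_of_mem hy, ev_of_mem (V.add_mem hx hy), ← map_add]
  rfl

theorem ev_pow {x : F} (hx : x ∈ V) (n : ℕ) : ev V e (x ^ n) = ev V e x ^ n := by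
  rw [ev_of_mem hx, ev_of_mem (V.pow_mem hx n), ← map_pow]
  rfl

end Ev

/-! ### The abstract gluing theorem at one node -/

section Node

variable {F : Type*} [Field F] {k : Type*} [Field k]

/-- The data of one node, seen from `F`, together with the admissible ring `B` and the lattices
`Lam f`.  All fields are hypotheses (Props). -/
structure NodeSetup (n : ℕ) (V₁ V₂ : Subring F) (e₁ : V₁ →+* k) (e₂ : V₂ →+* k) (B : Subring F)
    (Lam : F → AddSubgroup F) : Prop where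
  /-- `Vᵢ` is closed under `n`-th roots (valuation rings are) -/
  root₁ : ∀ z : F, z ^ n ∈ V₁ → z ∈ V₁
  root₂ : ∀ z : F, z ^ n ∈ V₂ → z ∈ V₂
  /-- `eᵢ` is local -/
  loc₁ : ∀ x : F, x ∈ V₁ → ev V₁ e₁ x ≠ 0 → x⁻¹ ∈ V₁
  loc₂ : ∀ x : F, x ∈ V₂ → ev V₂ e₂ x ≠ 0 → x⁻¹ ∈ V₂
  /-- (G2)+(G3): admissible functions are regular at the node on both sides, with equal values -/
  glue : ∀ h ∈ B, h ∈ V₁ ∧ h ∈ V₂ ∧ ev V₁ e₁ h = ev V₂ e₂ h
  /-- the values of admissible functions at the node exhaust `k` (constants are admissible) -/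
  chi : ∀ t : k, ∃ h ∈ B, ev V₁ e₁ h = t
  /-- `y ∈ Lam f ⟹ yⁿ f` admissible -/
  pow_mul_mem : ∀ f y, y ∈ Lam f → y ^ n * f ∈ B
  mul_mem : ∀ f f' y y', y ∈ Lam f → y' ∈ Lam f' → y * y' ∈ Lam (f * f')
  smul_mem : ∀ f h y, h ∈ B → y ∈ Lam f → h * y ∈ Lam f

namespace NodeSetup

variable {n : ℕ} {V₁ V₂ : Subring F} {e₁ : V₁ →+* k} {e₂ : V₂ →+* k} {B : Subring F}
  {Lam : F → AddSubgroup F}

/-- elements of `Lam f` are regular at the node on both sides, and `xⁿ = zⁿ` for their values -/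
theorem mem_and_pow_eq (S : NodeSetup n V₁ V₂ e₁ e₂ B Lam) {f : F}
    (hf₁ : f ∈ V₁) (hf₂ : f ∈ V₂) (hf1 : ev V₁ e₁ f = 1) (hf2 : ev V₂ e₂ f = 1)
    {y : F} (hy : y ∈ Lam f) :
    y ∈ V₁ ∧ y ∈ V₂ ∧ ev V₁ e₁ y ^ n = ev V₂ e₂ y ^ n := by
  obtain ⟨hY₁, hY₂, hY⟩ := S.glue _ (S.pow_mul_mem f y hy)
  have hf0 : f ≠ 0 := by
    rintro rfl
    rw [ev_zero] at hf1
    exact zero_ne_one hf1
  have hfi₁ : f⁻¹ ∈ V₁ := S.loc₁ f hf₁ (by rw [hf1]; exact one_ne_zero)
  have hfi₂ : f⁻¹ ∈ V₂ := S.loc₂ f hf₂ (by rw [hf2]; exact one_ne_zero)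
  have hyn : y ^ n = y ^ n * f * f⁻¹ := by field_simp
  have hy₁ : y ∈ V₁ := S.root₁ y (by rw [hyn]; exact V₁.mul_mem hY₁ hfi₁)
  have hy₂ : y ∈ V₂ := S.root₂ y (by rw [hyn]; exact V₂.mul_mem hY₂ hfi₂)
  refine ⟨hy₁, hy₂, ?_⟩
  have e1 : ev V₁ e₁ (y ^ n * f) = ev V₁ e₁ y ^ n := by
    rw [ev_mul (V₁.pow_mem hy₁ n) hf₁, ev_pow hy₁, hf1, mul_one]
  have e2 : ev V₂ e₂ (y ^ n * f) = ev V₂ e₂ y ^ n := by
    rw [ev_mul (V₂.pow_mem hy₂ n) hf₂, ev_pow hy₂, hf2, mul_one]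
  rw [← e1, ← e2, hY]

/-- the image of `Lam f` in `k²` lies on a line: two elements of `Lam f`, the first with non-zero
value on side 1, have proportional values -/
theorem mul_eq_mul (S : NodeSetup n V₁ V₂ e₁ e₂ B Lam) (hn : n ≠ 0) {f : F}
    (hf₁ : f ∈ V₁) (hf₂ : f ∈ V₂) (hf1 : ev V₁ e₁ f = 1) (hf2 : ev V₂ e₂ f = 1)
    {y₀ y : F} (hy₀ : y₀ ∈ Lam f) (hy : y ∈ Lam f) (hne : ev V₁ e₁ y₀ ≠ 0) :
    ev V₂ e₂ y * ev V₁ e₁ y₀ = ev V₁ e₁ y * ev V₂ e₂ y₀ := by
  obtain ⟨a₁, a₂, -⟩ := S.mem_and_pow_eq hf₁ hf₂ hf1 hf2 hy₀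
  obtain ⟨b₁, b₂, -⟩ := S.mem_and_pow_eq hf₁ hf₂ hf1 hf2 hy
  refine mul_eq_mul_of_pow_eq hn hne fun t => ?_
  obtain ⟨h, hB, ht⟩ := S.chi t
  obtain ⟨c₁, c₂, hc⟩ := S.glue h hB
  have hmem : y + h * y₀ ∈ Lam f := (Lam f).add_mem hy (S.smul_mem f h y₀ hB hy₀)
  obtain ⟨-, -, hp⟩ := S.mem_and_pow_eq hf₁ hf₂ hf1 hf2 hmem
  rw [ev_add b₁ (V₁.mul_mem c₁ a₁), ev_mul c₁ a₁, ev_add b₂ (V₂.mul_mem c₂ a₂), ev_mul c₂ a₂,
    ← hc, ht] at hp
  exact hp

/-- **GlueG(s f / f).**  Let `s` be a ring automorphism of `F` preserving `V₁`, `V₂`, the two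
evaluations and the lattices.  If `f` has value `1` at the node on both sides and `Lam f` has a
local generator at the node, then every `y ∈ Lam (s f / f)` is regular at the node on both sides
and takes the same value there. -/
theorem eval_eq_of_localGenerator (S : NodeSetup n V₁ V₂ e₁ e₂ B Lam) (hn : n ≠ 0)
    (s : F ≃+* F)
    (hs₁ : ∀ y ∈ V₁, s y ∈ V₁ ∧ ev V₁ e₁ (s y) = ev V₁ e₁ y)
    (hs₂ : ∀ y ∈ V₂, s y ∈ V₂ ∧ ev V₂ e₂ (s y) = ev V₂ e₂ y)
    (hsL : ∀ f y, y ∈ Lam f → s y ∈ Lam (s f))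
    {f : F} (hf₁ : f ∈ V₁) (hf₂ : f ∈ V₂) (hf1 : ev V₁ e₁ f = 1) (hf2 : ev V₂ e₂ f = 1)
    (hgen : ∃ y₁ ∈ Lam f, ev V₁ e₁ y₁ ≠ 0)
    {y : F} (hy : y ∈ Lam (s f / f)) :
    y ∈ V₁ ∧ y ∈ V₂ ∧ ev V₁ e₁ y = ev V₂ e₂ y := by
  obtain ⟨y₁, hy₁, hne⟩ := hgen
  have hf0 : f ≠ 0 := by
    rintro rfl
    rw [ev_zero] at hf1
    exact zero_ne_one hf1
  -- `s f` has value one on both sides
  obtain ⟨hsf₁, hsf1⟩ := hs₁ f hf₁
  obtain ⟨hsf₂, hsf2⟩ := hs₂ f hf₂
  rw [hf1] at hsf1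
  rw [hf2] at hsf2
  -- `f' = s f / f` has value one on both sides
  have hfi₁ : f⁻¹ ∈ V₁ := S.loc₁ f hf₁ (by rw [hf1]; exact one_ne_zero)
  have hfi₂ : f⁻¹ ∈ V₂ := S.loc₂ f hf₂ (by rw [hf2]; exact one_ne_zero)
  have hi1 : ev V₁ e₁ f⁻¹ = 1 := by
    have := ev_mul (e := e₁) hf₁ hfi₁
    rw [mul_inv_cancel₀ hf0, ev_one, hf1, one_mul] at this
    exact this.symm
  have hi2 : ev V₂ e₂ f⁻¹ = 1 := by
    have := ev_mul (e := e₂) hf₂ hfi₂
    rw [mul_inv_cancel₀ hf0, ev_one, hf2, one_mul] at this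
    exact this.symm
  have hq₁ : s f / f ∈ V₁ := by rw [div_eq_mul_inv]; exact V₁.mul_mem hsf₁ hfi₁
  have hq₂ : s f / f ∈ V₂ := by rw [div_eq_mul_inv]; exact V₂.mul_mem hsf₂ hfi₂
  have hq1 : ev V₁ e₁ (s f / f) = 1 := by
    rw [div_eq_mul_inv, ev_mul hsf₁ hfi₁, hsf1, hi1, mul_one]
  have hq2 : ev V₂ e₂ (s f / f) = 1 := by
    rw [div_eq_mul_inv, ev_mul hsf₂ hfi₂, hsf2, hi2, mul_one]
  obtain ⟨b₁, b₂, -⟩ := S.mem_and_pow_eq hq₁ hq₂ hq1 hq2 hy
  refine ⟨b₁, b₂, ?_⟩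
  -- the local generator and its values
  obtain ⟨a₁, a₂, hpow⟩ := S.mem_and_pow_eq hf₁ hf₂ hf1 hf2 hy₁
  have hne₂ : ev V₂ e₂ y₁ ≠ 0 := by
    intro h0
    rw [h0, zero_pow hn] at hpow
    exact hne ((pow_eq_zero_iff hn).mp hpow)
  -- two elements of `Lam (s f)`
  have hA : s y₁ ∈ Lam (s f) := hsL f y₁ hy₁
  have hB' : y * y₁ ∈ Lam (s f) := by
    have := S.mul_mem _ _ _ _ hy hy₁
    rwa [div_mul_cancel₀ _ hf0] at this
  have hne' : ev V₁ e₁ (s y₁) ≠ 0 := by rw [(hs₁ y₁ a₁).2]; exact hne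
  have key := S.mul_eq_mul hn hsf₁ hsf₂ hsf1 hsf2 hA hB' hne'
  rw [(hs₁ y₁ a₁).2, (hs₂ y₁ a₂).2, ev_mul b₁ a₁, ev_mul b₂ a₂] at key
  -- `z z₁ x₁ = x x₁ z₁`
  have h3 : (ev V₂ e₂ y - ev V₁ e₁ y) * (ev V₁ e₁ y₁ * ev V₂ e₂ y₁) = 0 := by
    linear_combination key
  rcases mul_eq_zero.mp h3 with h4 | h4
  · exact (sub_eq_zero.mp h4).symm
  · exact absurd h4 (mul_ne_zero hne hne₂)

end NodeSetup

end Node

/-! ### The concrete lattices attached to a set of valuation subrings -/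

section Lam

variable {F : Type*} [Field F]

/-- the ring of admissible functions: the intersection of the valuation subrings in `𝒬` (the two
Gauss extensions `O₁`, `O₂` and all non-admissible places of `F`) -/
def ringB (𝒬 : Set (ValuationSubring F)) : Subring F where
  carrier := {h | ∀ Q ∈ 𝒬, h ∈ Q}
  mul_mem' := fun ha hb Q hQ => Q.mul_mem _ _ (ha Q hQ) (hb Q hQ)
  one_mem' := fun Q _ => Q.one_mem
  add_mem' := fun ha hb Q hQ => Q.add_mem _ _ (ha Q hQ) (hb Q hQ)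
  zero_mem' := fun Q _ => Q.zero_mem
  neg_mem' := fun ha Q hQ => Q.neg_mem _ (ha Q hQ)

theorem mem_ringB {𝒬 : Set (ValuationSubring F)} {h : F} : h ∈ ringB 𝒬 ↔ ∀ Q ∈ 𝒬, h ∈ Q :=
  Iff.rfl

theorem pow_mul_mem_of_add {Q : ValuationSubring F} {n : ℕ} {f y y' : F}
    (hy : y ^ n * f ∈ Q) (hy' : y' ^ n * f ∈ Q) : (y + y') ^ n * f ∈ Q := by
  rw [← ValuationSubring.valuation_le_one_iff] at hy hy' ⊢
  rw [map_mul, map_pow] at hy hy' ⊢
  rcases le_max_iff.mp (Valuation.map_add Q.valuation y y') with h | h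
  · exact le_trans (mul_le_mul_left (pow_le_pow_left₀ zero_le h n) _) hy
  · exact le_trans (mul_le_mul_left (pow_le_pow_left₀ zero_le h n) _) hy'

/-- the lattice of `f`: all `y` with `yⁿ f` admissible.  For `f` a unit of `O₁` and `O₂` and
`n D = div f` this is `⋃_E L(D + E) ∩ O₁ ∩ O₂`, `E` running over the admissible effective
divisors. -/
def lam (𝒬 : Set (ValuationSubring F)) (n : ℕ) [NeZero n] (f : F) : AddSubgroup F where
  carrier := {y | ∀ Q ∈ 𝒬, y ^ n * f ∈ Q}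
  add_mem' := fun ha hb Q hQ => pow_mul_mem_of_add (ha Q hQ) (hb Q hQ)
  zero_mem' := fun Q _ => by
    rw [zero_pow (NeZero.ne n), zero_mul]
    exact Q.zero_mem
  neg_mem' := fun {y} ha Q hQ => by
    have : (-y) ^ n * f = (-1) ^ n * (y ^ n * f) := by rw [neg_pow y n, mul_assoc]
    rw [this]
    exact Q.mul_mem _ _ (Q.pow_mem (Q.neg_mem _ Q.one_mem) n) (ha Q hQ)

theorem mem_lam {𝒬 : Set (ValuationSubring F)} {n : ℕ} [NeZero n] {f y : F} :
    y ∈ lam 𝒬 n f ↔ ∀ Q ∈ 𝒬, y ^ n * f ∈ Q :=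
  Iff.rfl

theorem pow_mul_mem_ringB {𝒬 : Set (ValuationSubring F)} {n : ℕ} [NeZero n] {f y : F}
    (hy : y ∈ lam 𝒬 n f) : y ^ n * f ∈ ringB 𝒬 :=
  hy

theorem mul_mem_lam {𝒬 : Set (ValuationSubring F)} {n : ℕ} [NeZero n] {f f' y y' : F}
    (hy : y ∈ lam 𝒬 n f) (hy' : y' ∈ lam 𝒬 n f') : y * y' ∈ lam 𝒬 n (f * f') := fun Q hQ => by
  have : (y * y') ^ n * (f * f') = y ^ n * f * (y' ^ n * f') := by ring
  rw [this]
  exact Q.mul_mem _ _ (hy Q hQ) (hy' Q hQ)

theorem smul_mem_lam {𝒬 : Set (ValuationSubring F)} {n : ℕ} [NeZero n] {f h y : F}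
    (hh : h ∈ ringB 𝒬) (hy : y ∈ lam 𝒬 n f) : h * y ∈ lam 𝒬 n f := fun Q hQ => by
  have : (h * y) ^ n * f = h ^ n * (y ^ n * f) := by ring
  rw [this]
  exact Q.mul_mem _ _ (Q.pow_mem (hh Q hQ) n) (hy Q hQ)

/-- an automorphism permuting `𝒬` maps `lam f` into `lam (s f)` -/
theorem map_mem_lam {𝒬 : Set (ValuationSubring F)} {n : ℕ} [NeZero n] (s : F ≃+* F)
    (hs : ∀ Q ∈ 𝒬, Q.comap (s : F →+* F) ∈ 𝒬) {f y : F} (hy : y ∈ lam 𝒬 n f) :
    s y ∈ lam 𝒬 n (s f) := fun Q hQ => by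
  have h1 : y ^ n * f ∈ Q.comap (s : F →+* F) := hy _ (hs Q hQ)
  rw [ValuationSubring.mem_comap] at h1
  have : s y ^ n * s f = (s : F →+* F) (y ^ n * f) := by simp
  rw [this]
  exact h1

theorem map_mem_ringB {𝒬 : Set (ValuationSubring F)} (s : F ≃+* F)
    (hs : ∀ Q ∈ 𝒬, Q.comap (s : F →+* F) ∈ 𝒬) {h : F} (hh : h ∈ ringB 𝒬) :
    s h ∈ ringB 𝒬 := fun Q hQ => by
  have h1 : h ∈ Q.comap (s : F →+* F) := hh _ (hs Q hQ)
  rwa [ValuationSubring.mem_comap] at h1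

/-- if `f` is a unit of `O ∈ 𝒬` then the elements of `lam f` lie in `O` -/
theorem mem_of_mem_lam {𝒬 : Set (ValuationSubring F)} {n : ℕ} [NeZero n] {f y : F}
    {O : ValuationSubring F} (hO : O ∈ 𝒬) (hf : O.valuation f = 1) (hy : y ∈ lam 𝒬 n f) :
    y ∈ O := by
  have h := hy O hO
  rw [← ValuationSubring.valuation_le_one_iff, map_mul, map_pow, hf, mul_one] at h
  rw [← ValuationSubring.valuation_le_one_iff]
  exact (pow_le_one_iff_of_nonneg zero_le (NeZero.ne n)).mp h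

variable {k : Type*} [Field k]

/-- The `NodeSetup` of the concrete lattices: for `V₁ V₂` VALUATION subrings (the composite
places at the node) with local evaluations, only (G2)+(G3) (`glue`) and `chi` remain. -/
theorem nodeSetup_lam (𝒬 : Set (ValuationSubring F)) (n : ℕ) [NeZero n]
    (V₁ V₂ : ValuationSubring F) (e₁ : V₁.toSubring →+* k) (e₂ : V₂.toSubring →+* k)
    (hloc₁ : ∀ x : F, x ∈ V₁ → ev V₁.toSubring e₁ x ≠ 0 → x⁻¹ ∈ V₁)
    (hloc₂ : ∀ x : F, x ∈ V₂ → ev V₂.toSubring e₂ x ≠ 0 → x⁻¹ ∈ V₂)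
    (hglue : ∀ h ∈ ringB 𝒬, h ∈ V₁ ∧ h ∈ V₂ ∧ ev V₁.toSubring e₁ h = ev V₂.toSubring e₂ h)
    (hchi : ∀ t : k, ∃ h ∈ ringB 𝒬, ev V₁.toSubring e₁ h = t) :
    NodeSetup n V₁.toSubring V₂.toSubring e₁ e₂ (ringB 𝒬) (lam 𝒬 n) where
  root₁ := fun z hz => by
    have hz' : z ^ n ∈ V₁ := hz
    rw [← ValuationSubring.valuation_le_one_iff, map_pow] at hz'
    have : z ∈ V₁ := by
      rw [← ValuationSubring.valuation_le_one_iff]
      exact (pow_le_one_iff_of_nonneg zero_le (NeZero.ne n)).mp hz'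
    exact this
  root₂ := fun z hz => by
    have hz' : z ^ n ∈ V₂ := hz
    rw [← ValuationSubring.valuation_le_one_iff, map_pow] at hz'
    have : z ∈ V₂ := by
      rw [← ValuationSubring.valuation_le_one_iff]
      exact (pow_le_one_iff_of_nonneg zero_le (NeZero.ne n)).mp hz'
    exact this
  loc₁ := hloc₁
  loc₂ := hloc₂
  glue := hglue
  chi := hchi
  pow_mul_mem := fun _ _ hy => pow_mul_mem_ringB hy
  mul_mem := fun _ _ _ _ hy hy' => mul_mem_lam hy hy'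
  smul_mem := fun _ _ _ hh hy => smul_mem_lam hh hy

end Lam

/-! ### The count that produces local generators -/

section Count

variable {k : Type*} [Field k] {V : Type*} [AddCommGroup V] [Module k V]
  {ι : Type*}

/-- at every node the image of `W` in `k²` is killed by a non-zero linear form `p z - q x` -/
theorem exists_form {n : ℕ} (hn : n ≠ 0) (evx evz : V →ₗ[k] k) (W : Submodule k V)
    (hpow : ∀ w ∈ W, evx w ^ n = evz w ^ n) :
    ∃ p q : k, (p ≠ 0 ∨ q ≠ 0) ∧ ∀ w ∈ W, p * evz w - q * evx w = 0 := by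
  by_cases h : ∃ w₀ ∈ W, evx w₀ ≠ 0
  · obtain ⟨w₀, hw₀, hx₀⟩ := h
    refine ⟨evx w₀, evz w₀, Or.inl hx₀, fun w hw => ?_⟩
    have := mul_eq_mul_of_pow_eq hn (x₀ := evx w₀) (z₀ := evz w₀) (x := evx w) (z := evz w) hx₀
      (fun t => by
        have h1 := hpow (w + t • w₀) (W.add_mem hw (W.smul_mem t hw₀))
        simpa using h1)
    linear_combination this
  · push Not at h
    exact ⟨0, -1, Or.inr (by simp), fun w hw => by simp [h w hw]⟩

/-- **The count.**  `V` finite-dimensional (`= L(Ē₁) × L(Ē₂)`), evaluation at the nodes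
`V → k^ι × k^ι` onto, `W ≤ V` (the reduction of the lattice) with `xⁿ = zⁿ` at every node, and
`dim V ≤ dim W + #ι`.  Then at EVERY node some element of `W` has a non-zero first coordinate. -/
theorem exists_evx_ne_zero_of_finrank_le [FiniteDimensional k V] [Fintype ι] {n : ℕ} (hn : n ≠ 0)
    (evx evz : ι → V →ₗ[k] k)
    (hsurj : ∀ tx tz : ι → k, ∃ v : V, (∀ a, evx a v = tx a) ∧ (∀ a, evz a v = tz a))
    (W : Submodule k V) (hpow : ∀ w ∈ W, ∀ a, evx a w ^ n = evz a w ^ n)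
    (hdim : Module.finrank k V ≤ Module.finrank k W + Fintype.card ι) (a₀ : ι) :
    ∃ w ∈ W, evx a₀ w ≠ 0 := by
  classical
  by_contra hcon
  push Not at hcon
  have hz₀ : ∀ w ∈ W, evz a₀ w = 0 := fun w hw => by
    have := hpow w hw a₀
    rw [hcon w hw, zero_pow hn] at this
    exact (pow_eq_zero_iff hn).mp this.symm
  choose p q hpq hform using fun a => exists_form hn (evx a) (evz a) W (fun w hw => hpow w hw a)
  -- the `#ι + 1` independent forms vanishing on `W`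
  let Φ : V →ₗ[k] (ι → k) × k :=
    LinearMap.prod
      (LinearMap.pi fun a => if a = a₀ then evx a₀ else p a • evz a - q a • evx a) (evz a₀)
  have hΦ : ∀ v a, (Φ v).1 a = if a = a₀ then evx a₀ v else p a * evz a v - q a * evx a v := by
    intro v a
    by_cases h : a = a₀
    · simp [Φ, h]
    · simp [Φ, h]
  have hΦ2 : ∀ v, (Φ v).2 = evz a₀ v := fun v => rfl
  have hker : W ≤ LinearMap.ker Φ := by
    intro w hw
    rw [LinearMap.mem_ker]
    refine Prod.ext (funext fun a => ?_) ?_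
    · rw [hΦ]
      by_cases h : a = a₀
      · simp [h, hcon w hw]
      · simp [h, hform a w hw]
    · rw [hΦ2]
      exact hz₀ w hw
  have hsurjΦ : Function.Surjective Φ := by
    rintro ⟨c, d⟩
    -- targets for the evaluations
    obtain ⟨v, hvx, hvz⟩ := hsurj
      (fun a => if a = a₀ then c a₀ else if p a ≠ 0 then 0 else - c a / q a)
      (fun a => if a = a₀ then d else if p a ≠ 0 then c a / p a else 0)
    refine ⟨v, Prod.ext (funext fun a => ?_) ?_⟩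
    · rw [hΦ]
      by_cases h : a = a₀
      · subst h
        simp [hvx]
      · rw [if_neg h, hvx, hvz, if_neg h, if_neg h]
        by_cases hp : p a ≠ 0
        · rw [if_pos hp, if_pos hp]
          field_simp
          ring
        · rw [if_neg hp, if_neg hp]
          have hq : q a ≠ 0 := (hpq a).resolve_left hp
          push Not at hp
          rw [hp]
          field_simp
          ring
    · rw [hΦ2, hvz, if_pos rfl]
  have h1 := LinearMap.finrank_range_add_finrank_ker Φ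
  have h2 : Module.finrank k (LinearMap.range Φ) = Fintype.card ι + 1 := by
    rw [LinearMap.range_eq_top.mpr hsurjΦ, finrank_top, Module.finrank_prod, Module.finrank_pi,
      Module.finrank_self]
  have h3 : Module.finrank k W ≤ Module.finrank k (LinearMap.ker Φ) :=
    Submodule.finrank_mono hker
  omega

end Count

end Fermat.Agent.S34.GlueG
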