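/-
PROJECT U (S34), ROUTE G, slice (Z5') in the vocabulary of `S34/NodalDefs.lean` (helper2).

* `exists_localGenerator` : Steps 1-2 of the nodal core WITHOUT the gluing hypothesis (helper6's
  count-free local generator, #2140 (1)): for `f ≡ 1` on both components with `div f = p D`, and
  rigid generic places `Q1`, `Q2` with lifts `P01`, `P02`, there is a function `u` which is a unit of
  BOTH Gauss rings, whose reduction on the first component is a non-zero CONSTANT, and with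
  `div u + D + ∑ P01 + ∑ P02 ≥ 0`.  (Proof: the trichotomy of `NodalCore.effective_liftG`, which
  uses the gluing hypothesis only after this point.)
* `glueG_of_inertia` : **GlueG N D'** for `D' = div(s f / f) / p`, `s` an automorphism of `FL`
  preserving both Gauss rings, acting trivially on both reductions, and compatible with the
  partial specialisation maps (an inertia element).  This is the hypothesis `hglue` of
  `NodalCore.nodal_core` for the divisor `s D - D`.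
-/
import Mathlib
import Fermat.Agent.S34.NodalCore
import Fermat.Agent.S34.GlueG
import Fermat.Agent.S34.GlueG.ValueAt

set_option autoImplicit false
set_option linter.unusedSectionVars false
set_option linter.unusedVariables false

namespace Fermat.Agent.S34.GlueGNodal

open AlgebraicCurve Fermat.Agent.S24.Ord Fermat.Agent.S34.NodalDefs Fermat.Agent.S34.NodalDisc
  Fermat.Agent.S34.NodalCore
open Fermat.Agent.S18.CoreDefs (RiemannGe)
open Fermat.Agent.S18.CoreOrd hiding coe_unit_ne_zero red_unit_ne_zero unitOfRed coe_unitOfRed constO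
  coe_constO red_constO isUnit_iff_red_ne_zero exists_div_unit ord_red_nonneg le_ord_red
  ord_red_eq_zero exists_unique_zero

variable {L : Type*} [Field L] {FL : Type*} [Field FL] [Algebra L FL]
variable {k : Type*} [Field k] {F1 : Type*} [Field F1] [Algebra k F1]
  {F2 : Type*} [Field F2] [Algebra k F2]
variable {A : ValuationSubring L} {π : A →+* k} {ι : Type*}

/-- **The local generator, without any count and without the gluing hypothesis.** -/
theorem exists_localGenerator [HasPrincipalDivisors L FL] [Fintype ι] [Nonempty ι]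
    (N : GNodalDatum A π FL F1 F2 ι) (hdegL : ∀ P : Place L FL, P.deg = 1)
    (p : ℕ) (hp : p ≠ 0) {g1 m2 : ℕ} (hR : RiemannGe L FL (g1 + m2))
    (Q1 : Fin g1 → Place k F1) (Q2 : Fin m2 → Place k F2)
    (hQ1g : ∀ i, Q1 i ∈ N.R1.good) (hQ2g : ∀ j, Q2 j ∈ N.R2.good)
    (hrig1 : ∀ y : F1, y ∈ riemannRochSpace (∑ i, Finsupp.single (Q1 i) (1 : ℤ)) →
      ∃ c : k, y = algebraMap k F1 c)
    (hrig2 : ∀ y : F2, y ∈ riemannRochSpace (∑ i, Finsupp.single (Q2 i) (1 : ℤ)) →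
      (∀ e, y = 0 ∨ 0 < (N.e2 e).ord y) → y = 0)
    (P01 : Fin g1 → Place L FL) (P02 : Fin m2 → Place L FL)
    (hP01 : ∀ i, N.R1.r (P01 i) = some (Q1 i)) (hP02 : ∀ j, N.R2.r (P02 j) = some (Q2 j))
    (D : Divisor L FL) (hD0 : Divisor.degree D = 0)
    (f1 : N.R1.Oˣ) (f2 : N.R2.Oˣ) (hf12 : ((f1 : N.R1.O) : FL) = ((f2 : N.R2.O) : FL))
    (hred1 : N.R1.red (f1 : N.R1.O) = 1) (hred2 : N.R2.red (f2 : N.R2.O) = 1)
    (hfD : ∀ P : Place L FL, P.ord ((f1 : N.R1.O) : FL) = p * D P) :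
    ∃ (u1 : N.R1.Oˣ) (u2 : N.R2.Oˣ) (γ : k), γ ≠ 0 ∧
      ((u1 : N.R1.O) : FL) = ((u2 : N.R2.O) : FL) ∧
      N.R1.red (u1 : N.R1.O) = algebraMap k F1 γ ∧
      ∀ P : Place L FL, 0 ≤ P.ord ((u1 : N.R1.O) : FL) + D P +
        ((∑ i, Finsupp.single (P01 i) (1 : ℤ)) + ∑ j, Finsupp.single (P02 j) (1 : ℤ)) P := by
  classical
  have hp0 : (p : ℤ) ≠ 0 := by exact_mod_cast hp
  have hppos : (0 : ℤ) < p := by exact_mod_cast Nat.pos_of_ne_zero hp
  set B : Divisor L FL := (∑ i, Finsupp.single (P01 i) (1 : ℤ)) +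
    ∑ j, Finsupp.single (P02 j) (1 : ℤ) with hB
  have hdegB : Divisor.degree B = ((g1 + m2 : ℕ) : ℤ) := by
    rw [hB, map_add, Fermat.Agent.S18.Core.degree_sum_single hdegL,
      Fermat.Agent.S18.Core.degree_sum_single hdegL]
    push_cast
    ring
  obtain ⟨y, hy, hyL⟩ := hR (D + B) (by rw [map_add, hD0, hdegB, zero_add])
  obtain ⟨Dy, hDy, hDydeg⟩ := HasPrincipalDivisors.exists_divisor (K := L) y hy
  set E : Divisor L FL := Dy + D + B with hE
  have hEnonneg : ∀ P : Place L FL, 0 ≤ E P := by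
    intro P
    rcases (mem_riemannRochSpace_iff.mp hyL) P with h | h
    · exact absurd h hy
    · rw [hE, Finsupp.add_apply, Finsupp.add_apply, hDy]
      rw [Finsupp.add_apply] at h
      omega
  have hdegE : Divisor.degree E = ((g1 + m2 : ℕ) : ℤ) := by
    rw [hE, map_add, map_add, hDydeg, hD0, hdegB]
    ring
  obtain ⟨a1, ha1, u1, hyu1⟩ := N.R1.exists_const_mul_unit y hy
  obtain ⟨a2, ha2, u2, hyu2⟩ := N.R2.exists_const_mul_unit y hy
  have hordu1 : ∀ P : Place L FL, P.ord ((u1 : N.R1.O) : FL) = Dy P := by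
    intro P
    rw [hDy, hyu1, ord_const_mul P ha1]
  have hordu2 : ∀ P : Place L FL, P.ord ((u2 : N.R2.O) : FL) = Dy P := by
    intro P
    rw [hDy, hyu2, ord_const_mul P ha2]
  have hDt1 : ∀ P : Place L FL,
      p * P.ord ((u1 : N.R1.O) : FL) + P.ord ((f1 : N.R1.O) : FL) = p * (E - B) P := by
    intro P
    rw [hordu1, hfD, hE, Finsupp.sub_apply, Finsupp.add_apply, Finsupp.add_apply]
    ring
  have hDt2 : ∀ P : Place L FL,
      p * P.ord ((u2 : N.R2.O) : FL) + P.ord ((f2 : N.R2.O) : FL) = p * (E - B) P := by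
    intro P
    rw [hordu2, ← hf12, hfD, hE, Finsupp.sub_apply, Finsupp.add_apply, Finsupp.add_apply]
    ring
  have hB1 : ∀ Q : Place k F1, Finsupp.mapDomain N.R1.r B (some Q) =
      (∑ i, Finsupp.single (Q1 i) (1 : ℤ)) Q :=
    fun Q => mapDomain_base1 N Q1 Q2 P01 P02 hP01 hP02 Q
  have hB2 : ∀ Q : Place k F2, Finsupp.mapDomain N.R2.r B (some Q) =
      (∑ j, Finsupp.single (Q2 j) (1 : ℤ)) Q :=
    fun Q => mapDomain_base2 N Q1 Q2 P01 P02 hP01 hP02 Q
  have hy1 : ∀ Q ∈ N.R1.good, Q.ord (N.R1.red (u1 : N.R1.O)) =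
      Finsupp.mapDomain N.R1.r E (some Q) - (∑ i, Finsupp.single (Q1 i) (1 : ℤ)) Q := by
    intro Q hQ
    rw [smooth_ord N.R1 p hp0 u1 f1 hred1 (E - B) hDt1 Q hQ, Finsupp.mapDomain_sub,
      Finsupp.sub_apply, hB1]
  have hy2 : ∀ Q ∈ N.R2.good, Q.ord (N.R2.red (u2 : N.R2.O)) =
      Finsupp.mapDomain N.R2.r E (some Q) - (∑ j, Finsupp.single (Q2 j) (1 : ℤ)) Q := by
    intro Q hQ
    rw [smooth_ord N.R2 p hp0 u2 f2 hred2 (E - B) hDt2 Q hQ, Finsupp.mapDomain_sub,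
      Finsupp.sub_apply, hB2]
  have hEr1 : ∀ Q : Place k F1, 0 ≤ Finsupp.mapDomain N.R1.r E (some Q) :=
    fun Q => mapDomain_nonneg _ E _ (fun P _ => hEnonneg P)
  have hEr2 : ∀ Q : Place k F2, 0 ≤ Finsupp.mapDomain N.R2.r E (some Q) :=
    fun Q => mapDomain_nonneg _ E _ (fun P _ => hEnonneg P)
  -- the admissible pair
  obtain ⟨S1, S2, hadm, hT1, hT2⟩ := N.exists_adm (Set.range Q1) (Set.range Q2)
    (Set.finite_range _) (Set.finite_range _) (by rintro _ ⟨i, rfl⟩; exact hQ1g i)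
    (by rintro _ ⟨j, rfl⟩; exact hQ2g j)
  obtain ⟨hS1g, hS2g⟩ := N.adm_subset_good S1 S2 hadm
  have hpole : ∀ P : Place L FL, (E - B) P < 0 →
      (∃ Q ∈ S1, N.R1.r P = some Q) ∨ (∃ Q ∈ S2, N.R2.r P = some Q) := by
    intro P hP
    have hBP : 0 < B P := by
      have := hEnonneg P
      rw [Finsupp.sub_apply] at hP
      omega
    rw [hB, Finsupp.add_apply] at hBP
    by_cases h1 : ∃ i, P01 i = P
    · obtain ⟨i, rfl⟩ := h1
      exact Or.inl ⟨Q1 i, hT1 ⟨i, rfl⟩, hP01 i⟩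
    · by_cases h2 : ∃ j, P02 j = P
      · obtain ⟨j, rfl⟩ := h2
        exact Or.inr ⟨Q2 j, hT2 ⟨j, rfl⟩, hP02 j⟩
      · push Not at h1 h2
        rw [sum_single_apply_of_notMem' P01 P h1, sum_single_apply_of_notMem' P02 P h2] at hBP
        omega
  have hu10 : ((u1 : N.R1.O) : FL) ≠ 0 := coe_unit_ne_zero N.R1.toBranch u1
  have hu20 : ((u2 : N.R2.O) : FL) ≠ 0 := coe_unit_ne_zero N.R2.toBranch u2
  have hf10 : ((f1 : N.R1.O) : FL) ≠ 0 := coe_unit_ne_zero N.R1.toBranch f1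
  -- the orders of `u1 ^ p * f1`
  have hordG : ∀ P : Place L FL,
      P.ord (((u1 : N.R1.O) : FL) ^ p * ((f1 : N.R1.O) : FL)) = p * (E - B) P := by
    intro P
    rw [P.ord_mul (pow_ne_zero _ hu10) hf10, ord_pow, hDt1 P]
  have hyy : algebraMap L FL a1 * ((u1 : N.R1.O) : FL) = algebraMap L FL a2 * ((u2 : N.R2.O) : FL) := by
    rw [← hyu1, ← hyu2]
  have hAa1 : algebraMap L FL a1 ≠ 0 := (map_ne_zero_iff _ (algebraMap L FL).injective).mpr ha1
  have hAa2 : algebraMap L FL a2 ≠ 0 := (map_ne_zero_iff _ (algebraMap L FL).injective).mpr ha2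
  have hpoleG : ∀ P : Place L FL,
      P.ord (((u1 : N.R1.O) : FL) ^ p * ((f1 : N.R1.O) : FL)) < 0 →
      (∃ Q ∈ S1, N.R1.r P = some Q) ∨ (∃ Q ∈ S2, N.R2.r P = some Q) := by
    intro P hP
    rw [hordG] at hP
    exact hpole P (by by_contra hcon; rw [not_lt] at hcon; nlinarith)
  -- the reductions
  have hu1red0 : N.R1.red (u1 : N.R1.O) ≠ 0 := red_unit_ne_zero N.R1.toBranch u1
  have hu2red0 : N.R2.red (u2 : N.R2.O) ≠ 0 := red_unit_ne_zero N.R2.toBranch u2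
  have hordpow1 : ∀ Q : Place k F1, Q.ord (N.R1.red (u1 : N.R1.O) ^ p) =
      p * Q.ord (N.R1.red (u1 : N.R1.O)) := fun Q => ord_pow Q _ p
  have hordpow2 : ∀ Q : Place k F2, Q.ord (N.R2.red (u2 : N.R2.O) ^ p) =
      p * Q.ord (N.R2.red (u2 : N.R2.O)) := fun Q => ord_pow Q _ p
  -- trichotomy
  rcases lt_trichotomy (A.valuation a2) (A.valuation a1) with hlt | heq | hgt
  · -- `v₂(y) > v₁(y)`: impossible
    exfalso
    have hτA : a2 / a1 ∈ A := div_mem_of_valuation_le ha1 hlt.le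
    have hπτ := pi_div_eq_zero N.R2.toBranch ha1 hlt hτA
    set h1 : N.R1.O := ((u1 ^ p * f1 : N.R1.Oˣ) : N.R1.O) with hh1
    set h2 : N.R2.O := constHom N.R2.toBranch ⟨a2 / a1, hτA⟩ ^ p *
      ((u2 ^ p * f2 : N.R2.Oˣ) : N.R2.O) with hh2
    have hh1coe : ((h1 : N.R1.O) : FL) = ((u1 : N.R1.O) : FL) ^ p * ((f1 : N.R1.O) : FL) := by
      rw [hh1, Units.val_mul, Units.val_pow_eq_pow_val, MulMemClass.coe_mul,
        SubmonoidClass.coe_pow]
    have hh12 : ((h1 : N.R1.O) : FL) = ((h2 : N.R2.O) : FL) := by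
      rw [hh1coe, hh2, Units.val_mul, Units.val_pow_eq_pow_val, MulMemClass.coe_mul,
        MulMemClass.coe_mul, SubmonoidClass.coe_pow, SubmonoidClass.coe_pow, coe_constHom,
        ← hf12]
      have : ((u1 : N.R1.O) : FL) = algebraMap L FL (a2 / a1) * ((u2 : N.R2.O) : FL) := by
        rw [map_div₀]
        field_simp
        linear_combination hyy
      rw [this, mul_pow]
      ring
    have hred2h : N.R2.red h2 = 0 := by
      rw [hh2, map_mul, map_pow, red_constHom, hπτ, map_zero, zero_pow hp, zero_mul]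
    have hred1h : N.R1.red h1 = N.R1.red (u1 : N.R1.O) ^ p := by
      rw [hh1, Units.val_mul, Units.val_pow_eq_pow_val, map_mul, map_pow, hred1, mul_one]
    obtain ⟨hreg1, -, hgl⟩ := N.pcg S1 S2 hadm h1 h2 hh12 (by rw [hh1coe]; exact hpoleG)
    have hmem : N.R1.red (u1 : N.R1.O) ∈
        riemannRochSpace (∑ i, Finsupp.single (Q1 i) (1 : ℤ)) := by
      refine mem_L_of_bounds Q1 N.R1.good _ (fun Q hQ => ?_) (fun Q hQ => ?_)
      · rw [hy1 Q hQ]
        have := hEr1 Q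
        omega
      · have h := hreg1 Q (fun hQS => hQ (hS1g hQS))
        rw [hred1h, hordpow1] at h
        exact le_of_mul_le_mul_left (by simpa using h) hppos
    obtain ⟨c, hc⟩ := hrig1 _ hmem
    obtain ⟨e⟩ := ‹Nonempty ι›
    obtain ⟨γ, hγ1, hγ2⟩ := hgl e
    rw [hred2h] at hγ2
    have hγ0 : γ = 0 := hasValue_zero _ hγ2
    rw [hγ0, hred1h, hc, ← map_pow] at hγ1
    have := hasValue_const _ hγ1
    have hc0 : c = 0 := by
      have h0 : c ^ p = 0 := this.symm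
      exact pow_eq_zero_iff hp |>.mp h0
    apply hu1red0
    rw [hc, hc0, map_zero]
  · -- the main case `v₁(y) = v₂(y)`
    have hτA : a2 / a1 ∈ A := div_mem_of_valuation_le ha1 heq.le
    have hπτ := pi_div_ne_zero N.R2.toBranch ha1 heq hτA
    -- the unit of `O₂` equal to `u1`
    set z : N.R2.O := constHom N.R2.toBranch ⟨a2 / a1, hτA⟩ * (u2 : N.R2.O) with hz
    have hzred : N.R2.red z = algebraMap k F2 (π ⟨a2 / a1, hτA⟩) * N.R2.red (u2 : N.R2.O) := by
      rw [hz, map_mul, red_constHom]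
    have hzred0 : N.R2.red z ≠ 0 := by
      rw [hzred]
      exact mul_ne_zero ((map_ne_zero_iff _ (algebraMap k F2).injective).mpr hπτ) hu2red0
    set u2' : N.R2.Oˣ := unitOfRed N.R2.toBranch z hzred0 with hu2'
    have hu2'val : ((u2' : N.R2.Oˣ) : N.R2.O) = z := coe_unitOfRed N.R2.toBranch z hzred0
    have hu12 : ((u1 : N.R1.O) : FL) = ((u2' : N.R2.O) : FL) := by
      rw [hu2'val, hz, MulMemClass.coe_mul, coe_constHom]
      show ((u1 : N.R1.O) : FL) = algebraMap L FL (a2 / a1) * ((u2 : N.R2.O) : FL)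
      rw [map_div₀]
      field_simp
      linear_combination hyy
    have hordz : ∀ Q : Place k F2, Q.ord (N.R2.red z) = Q.ord (N.R2.red (u2 : N.R2.O)) := by
      intro Q
      rw [hzred, ord_const_mul Q hπτ]
    -- pole control for `u1 ^ p * f1 = u2' ^ p * f2`
    set h1 : N.R1.O := ((u1 ^ p * f1 : N.R1.Oˣ) : N.R1.O) with hh1
    set h2 : N.R2.O := ((u2' ^ p * f2 : N.R2.Oˣ) : N.R2.O) with hh2
    have hh1coe : ((h1 : N.R1.O) : FL) = ((u1 : N.R1.O) : FL) ^ p * ((f1 : N.R1.O) : FL) := by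
      rw [hh1, Units.val_mul, Units.val_pow_eq_pow_val, MulMemClass.coe_mul,
        SubmonoidClass.coe_pow]
    have hh12 : ((h1 : N.R1.O) : FL) = ((h2 : N.R2.O) : FL) := by
      rw [hh1coe, hh2, Units.val_mul, Units.val_pow_eq_pow_val, MulMemClass.coe_mul,
        SubmonoidClass.coe_pow, ← hf12, ← hu12]
    have hred1h : N.R1.red h1 = N.R1.red (u1 : N.R1.O) ^ p := by
      rw [hh1, Units.val_mul, Units.val_pow_eq_pow_val, map_mul, map_pow, hred1, mul_one]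
    have hred2h : N.R2.red h2 = N.R2.red z ^ p := by
      rw [hh2, Units.val_mul, Units.val_pow_eq_pow_val, map_mul, map_pow, hred2, mul_one,
        hu2'val]
    obtain ⟨hreg1, hreg2, -⟩ := N.pcg S1 S2 hadm h1 h2 hh12 (by rw [hh1coe]; exact hpoleG)
    have hmem1 : N.R1.red (u1 : N.R1.O) ∈
        riemannRochSpace (∑ i, Finsupp.single (Q1 i) (1 : ℤ)) := by
      refine mem_L_of_bounds Q1 N.R1.good _ (fun Q hQ => ?_) (fun Q hQ => ?_)
      · rw [hy1 Q hQ]
        have := hEr1 Q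
        omega
      · have h := hreg1 Q (fun hQS => hQ (hS1g hQS))
        rw [hred1h, hordpow1] at h
        exact le_of_mul_le_mul_left (by simpa using h) hppos
    obtain ⟨γ, hγ⟩ := hrig1 _ hmem1
    have hγ0 : γ ≠ 0 := by
      rintro rfl
      rw [map_zero] at hγ
      exact hu1red0 hγ
    refine ⟨u1, u2', γ, hγ0, hu12, hγ, fun P => ?_⟩
    have := hEnonneg P
    rw [hE, Finsupp.add_apply, Finsupp.add_apply] at this
    rw [hordu1]
    exact this
  · -- `v₁(y) > v₂(y)`: impossible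
    exfalso
    have hτA : a1 / a2 ∈ A := div_mem_of_valuation_le ha2 hgt.le
    have hπτ := pi_div_eq_zero N.R1.toBranch ha2 hgt hτA
    set h2 : N.R2.O := ((u2 ^ p * f2 : N.R2.Oˣ) : N.R2.O) with hh2
    set h1 : N.R1.O := constHom N.R1.toBranch ⟨a1 / a2, hτA⟩ ^ p *
      ((u1 ^ p * f1 : N.R1.Oˣ) : N.R1.O) with hh1
    have hh2coe : ((h2 : N.R2.O) : FL) = ((u2 : N.R2.O) : FL) ^ p * ((f2 : N.R2.O) : FL) := by
      rw [hh2, Units.val_mul, Units.val_pow_eq_pow_val, MulMemClass.coe_mul,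
        SubmonoidClass.coe_pow]
    have hu21 : ((u2 : N.R2.O) : FL) = algebraMap L FL (a1 / a2) * ((u1 : N.R1.O) : FL) := by
      rw [map_div₀]
      field_simp
      linear_combination -hyy
    have hh12 : ((h1 : N.R1.O) : FL) = ((h2 : N.R2.O) : FL) := by
      rw [hh2coe, hh1, Units.val_mul, Units.val_pow_eq_pow_val, MulMemClass.coe_mul,
        MulMemClass.coe_mul, SubmonoidClass.coe_pow, SubmonoidClass.coe_pow, coe_constHom,
        ← hf12, hu21, mul_pow]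
      ring
    have hred1h : N.R1.red h1 = 0 := by
      rw [hh1, map_mul, map_pow, red_constHom, hπτ, map_zero, zero_pow hp, zero_mul]
    have hred2h : N.R2.red h2 = N.R2.red (u2 : N.R2.O) ^ p := by
      rw [hh2, Units.val_mul, Units.val_pow_eq_pow_val, map_mul, map_pow, hred2, mul_one]
    have hAτ : algebraMap L FL (a1 / a2) ≠ 0 :=
      (map_ne_zero_iff _ (algebraMap L FL).injective).mpr (div_ne_zero ha1 ha2)
    obtain ⟨-, hreg2, hgl⟩ := N.pcg S1 S2 hadm h1 h2 hh12 (fun P hP => by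
      refine hpoleG P ?_
      rw [hh12, hh2coe, hu21, ← hf12, mul_pow, mul_assoc, ← map_pow,
        ord_const_mul P (pow_ne_zero _ (div_ne_zero ha1 ha2))] at hP
      exact hP)
    have hmem : N.R2.red (u2 : N.R2.O) ∈
        riemannRochSpace (∑ j, Finsupp.single (Q2 j) (1 : ℤ)) := by
      refine mem_L_of_bounds Q2 N.R2.good _ (fun Q hQ => ?_) (fun Q hQ => ?_)
      · rw [hy2 Q hQ]
        have := hEr2 Q
        omega
      · have h := hreg2 Q (fun hQS => hQ (hS2g hQS))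
        rw [hred2h, hordpow2] at h
        exact le_of_mul_le_mul_left (by simpa using h) hppos
    apply hu2red0
    refine hrig2 _ hmem (fun e => ?_)
    obtain ⟨γ, hγ1, hγ2⟩ := hgl e
    rw [hred1h] at hγ1
    have hγ0 : γ = 0 := hasValue_zero _ hγ1
    rw [hγ0, hred2h] at hγ2
    right
    rcases hγ2 with h | h
    · rw [map_zero] at h
      exact absurd h (pow_ne_zero _ hu2red0)
    · rw [map_zero, sub_zero, hordpow2] at h
      exact (mul_pos_iff_of_pos_left hppos).mp h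

open Fermat.Agent.S34.GlueG Fermat.Agent.S34.GlueG.ValueAt in
/-- **GlueG for `s f / f`** (Route G, (Z5')).  `s` is an automorphism of `FL` which preserves both
Gauss rings, acts trivially on both reductions, and whose action `τ = s⁻¹` on places is compatible
with the two partial specialisation maps (an inertia element).  If `f ≡ 1` on both components and
`div f = p D` with `deg D = 0`, then the divisor `D'` of `(s f / f)^(1/p)` satisfies the gluing
hypothesis of the nodal core. -/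
theorem glueG_of_inertia [HasPrincipalDivisors L FL] [Fintype ι] [Nonempty ι]
    (N : GNodalDatum A π FL F1 F2 ι) (hdegL : ∀ P : Place L FL, P.deg = 1)
    (hdeg1 : ∀ e, (N.e1 e).deg = 1) (hdeg2 : ∀ e, (N.e2 e).deg = 1)
    (hadmfin : ∀ S1 S2, N.Adm S1 S2 → S1.Finite ∧ S2.Finite)
    (hπ : Function.Surjective π) (p : ℕ) (hp : p ≠ 0)
    (x1 : N.R1.O)
    (hunram1 : {Q : Place k F1 | ¬ ∃ γ : k, Q.ord (N.R1.red x1 - algebraMap k F1 γ) = 1}.Finite)
    (x2 : N.R2.O)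
    (hunram2 : {Q : Place k F2 | ¬ ∃ γ : k, Q.ord (N.R2.red x2 - algebraMap k F2 γ) = 1}.Finite)
    {g1 m2 : ℕ} (hR : RiemannGe L FL (g1 + m2)) (hG : NodalRigid k F1 F2 N.e2 g1 m2)
    (s : FL ≃+* FL) (τ : Place L FL → Place L FL)
    (hτ : ∀ (P : Place L FL) (y : FL),
      y ∈ (τ P).toValuationSubring ↔ s y ∈ P.toValuationSubring)
    (hs1 : ∀ (y : FL) (h : y ∈ N.R1.O), ∃ h' : s y ∈ N.R1.O,
      N.R1.red ⟨s y, h'⟩ = N.R1.red ⟨y, h⟩)
    (hs1' : ∀ y : FL, s y ∈ N.R1.O → y ∈ N.R1.O)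
    (hs2 : ∀ (y : FL) (h : y ∈ N.R2.O), ∃ h' : s y ∈ N.R2.O,
      N.R2.red ⟨s y, h'⟩ = N.R2.red ⟨y, h⟩)
    (hs2' : ∀ y : FL, s y ∈ N.R2.O → y ∈ N.R2.O)
    (hr1 : ∀ P : Place L FL, N.R1.r (τ P) = N.R1.r P)
    (hr2 : ∀ P : Place L FL, N.R2.r (τ P) = N.R2.r P)
    (D : Divisor L FL) (hD0 : Divisor.degree D = 0)
    (f1 : N.R1.Oˣ) (f2 : N.R2.Oˣ) (hf12 : ((f1 : N.R1.O) : FL) = ((f2 : N.R2.O) : FL))
    (hred1 : N.R1.red (f1 : N.R1.O) = 1) (hred2 : N.R2.red (f2 : N.R2.O) = 1)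
    (hfD : ∀ P : Place L FL, P.ord ((f1 : N.R1.O) : FL) = p * D P)
    (D' : Divisor L FL)
    (hD' : ∀ P : Place L FL,
      P.ord (s ((f1 : N.R1.O) : FL) / ((f1 : N.R1.O) : FL)) = p * D' P) :
    GlueG N D' := by
  classical
  have : NeZero p := ⟨hp⟩
  have hppos : (0 : ℤ) < p := by exact_mod_cast Nat.pos_of_ne_zero hp
  -- Step 0: rigid generic places and their lifts, as in `nodal_core`
  set Bad1 : Set (Place k F1) :=
    {Q : Place k F1 | ¬ ∃ γ : k, Q.ord (N.R1.red x1 - algebraMap k F1 γ) = 1} ∪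
      {Q : Place k F1 | ∃ P : Place L FL, P.ord ((x1 : N.R1.O) : FL) < 0 ∧ N.R1.r P = some Q} ∪
      (N.R1.good)ᶜ with hBad1
  set Bad2 : Set (Place k F2) :=
    {Q : Place k F2 | ¬ ∃ γ : k, Q.ord (N.R2.red x2 - algebraMap k F2 γ) = 1} ∪
      {Q : Place k F2 | ∃ P : Place L FL, P.ord ((x2 : N.R2.O) : FL) < 0 ∧ N.R2.r P = some Q} ∪
      (N.R2.good)ᶜ with hBad2
  have hBad1fin : Bad1.Finite :=
    (hunram1.union (finite_image_poles N.R1 _)).union N.finite_compl_good1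
  have hBad2fin : Bad2.Finite :=
    (hunram2.union (finite_image_poles N.R2 _)).union N.finite_compl_good2
  obtain ⟨Q1, Q2, hQ1, hQ2, hQ1Bad, hQ2Bad, hrig1, hrig2⟩ := hG Bad1 hBad1fin Bad2 hBad2fin
  have hQ1g : ∀ i, Q1 i ∈ N.R1.good := by
    intro i
    by_contra hcon
    exact hQ1Bad i (Or.inr hcon)
  have hQ2g : ∀ j, Q2 j ∈ N.R2.good := by
    intro j
    by_contra hcon
    exact hQ2Bad j (Or.inr hcon)
  have hpar1 : ∀ i, ∃ (T : N.R1.O) (P0 : Place L FL), (Q1 i).ord (N.R1.red T) = 1 ∧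
      (∀ P : Place L FL, N.R1.r P = some (Q1 i) → 0 ≤ P.ord ((T : N.R1.O) : FL)) ∧
      N.R1.r P0 = some (Q1 i) ∧ 0 < P0.ord ((T : N.R1.O) : FL) := by
    intro i
    refine exists_param N.R1 hπ x1 (Q1 i) (hQ1g i) ?_ ?_
    · by_contra hcon
      exact hQ1Bad i (Or.inl (Or.inl hcon))
    · intro P hP
      by_contra hcon
      rw [not_le] at hcon
      exact hQ1Bad i (Or.inl (Or.inr ⟨P, hcon, hP⟩))
  have hpar2 : ∀ j, ∃ (T : N.R2.O) (P0 : Place L FL), (Q2 j).ord (N.R2.red T) = 1 ∧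
      (∀ P : Place L FL, N.R2.r P = some (Q2 j) → 0 ≤ P.ord ((T : N.R2.O) : FL)) ∧
      N.R2.r P0 = some (Q2 j) ∧ 0 < P0.ord ((T : N.R2.O) : FL) := by
    intro j
    refine exists_param N.R2 hπ x2 (Q2 j) (hQ2g j) ?_ ?_
    · by_contra hcon
      exact hQ2Bad j (Or.inl (Or.inl hcon))
    · intro P hP
      by_contra hcon
      rw [not_le] at hcon
      exact hQ2Bad j (Or.inl (Or.inr ⟨P, hcon, hP⟩))
  choose T1 P01 hT1Q hT1reg hP01 hT10 using hpar1
  choose T2 P02 hT2Q hT2reg hP02 hT20 using hpar2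
  -- Step 1: the local generator
  obtain ⟨u1, u2, γ, hγ, hu12, hu1red, huD⟩ :=
    exists_localGenerator N hdegL p hp hR Q1 Q2 hQ1g hQ2g hrig1 hrig2 P01 P02 hP01 hP02 D hD0
      f1 f2 hf12 hred1 hred2 hfD
  -- Step 2: the data of `GlueG`
  intro S1 S2 hadm y1 y2 hy12 hy0 hpole e
  obtain ⟨hS1fin, hS2fin⟩ := hadmfin S1 S2 hadm
  obtain ⟨hS1g, hS2g⟩ := N.adm_subset_good S1 S2 hadm
  obtain ⟨T1', T2', hadm', hT1', hT2'⟩ := N.exists_adm (S1 ∪ Set.range Q1) (S2 ∪ Set.range Q2)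
    (hS1fin.union (Set.finite_range _)) (hS2fin.union (Set.finite_range _))
    (Set.union_subset hS1g (by rintro _ ⟨i, rfl⟩; exact hQ1g i))
    (Set.union_subset hS2g (by rintro _ ⟨j, rfl⟩; exact hQ2g j))
  -- the non-admissible places
  set isOver : Place L FL → Prop := fun P =>
    (∃ Q ∈ T1', N.R1.r P = some Q) ∨ (∃ Q ∈ T2', N.R2.r P = some Q) with hisOver
  set 𝒬 : Set (ValuationSubring FL) :=
    {V | V = N.R1.O ∨ V = N.R2.O ∨ ∃ P : Place L FL, ¬ isOver P ∧ V = P.toValuationSubring} with h𝒬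
  have hO1 : N.R1.O ∈ 𝒬 := Or.inl rfl
  have hO2 : N.R2.O ∈ 𝒬 := Or.inr (Or.inl rfl)
  have hPl : ∀ P : Place L FL, ¬ isOver P → P.toValuationSubring ∈ 𝒬 :=
    fun P hP => Or.inr (Or.inr ⟨P, hP, rfl⟩)
  -- membership in a place from the order
  have hmemP : ∀ (P : Place L FL) (z : FL), z ≠ 0 → 0 ≤ P.ord z → z ∈ P.toValuationSubring :=
    fun P z hz h => (mem_iff P z).mpr ((ord_nonneg_iff P hz).mp h)
  -- the node
  set V1 := compVal N.R1.O N.R1.red N.R1.red_eq_zero_iff (N.e1 e) with hV1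
  set V2 := compVal N.R2.O N.R2.red N.R2.red_eq_zero_iff (N.e2 e) with hV2
  set E1 := compEval N.R1.O N.R1.red N.R1.red_eq_zero_iff (N.e1 e) (hdeg1 e) with hE1
  set E2 := compEval N.R2.O N.R2.red N.R2.red_eq_zero_iff (N.e2 e) (hdeg2 e) with hE2
  have dict1 : ∀ (y : FL) (hy : y ∈ N.R1.O) (c : k),
      (y ∈ V1 ∧ ev V1.toSubring E1 y = c) ↔ HasValue (N.e1 e) (N.R1.red ⟨y, hy⟩) c :=
    fun y hy c => mem_and_ev_eq_iff N.R1.O N.R1.red N.R1.red_eq_zero_iff (N.e1 e) (hdeg1 e) hy c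
  have dict2 : ∀ (y : FL) (hy : y ∈ N.R2.O) (c : k),
      (y ∈ V2 ∧ ev V2.toSubring E2 y = c) ↔ HasValue (N.e2 e) (N.R2.red ⟨y, hy⟩) c :=
    fun y hy c => mem_and_ev_eq_iff N.R2.O N.R2.red N.R2.red_eq_zero_iff (N.e2 e) (hdeg2 e) hy c
  -- (G2) + (G3) at the node
  have hglue : ∀ h ∈ ringB 𝒬, h ∈ V1 ∧ h ∈ V2 ∧ ev V1.toSubring E1 h = ev V2.toSubring E2 h := by
    intro h hh
    have h1 : h ∈ N.R1.O := hh _ hO1
    have h2 : h ∈ N.R2.O := hh _ hO2
    have hpoles : ∀ P : Place L FL, P.ord ((⟨h, h1⟩ : N.R1.O) : FL) < 0 → isOver P := by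
      intro P hP
      by_contra hcon
      have hm : h ∈ P.toValuationSubring := hh _ (hPl P hcon)
      have h0 : h ≠ 0 := by
        rintro rfl
        simp at hP
      have := (ord_nonneg_iff P h0).mpr ((mem_iff P h).mp hm)
      exact absurd hP (not_lt.mpr this)
    obtain ⟨-, -, hgl⟩ := N.pcg T1' T2' hadm' ⟨h, h1⟩ ⟨h, h2⟩ rfl hpoles
    obtain ⟨c, hc1, hc2⟩ := hgl e
    obtain ⟨m1, v1⟩ := (dict1 h h1 c).mpr hc1
    obtain ⟨m2, v2⟩ := (dict2 h h2 c).mpr hc2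
    exact ⟨m1, m2, v1.trans v2.symm⟩
  have hchi : ∀ t : k, ∃ h ∈ ringB 𝒬, ev V1.toSubring E1 h = t := by
    intro t
    obtain ⟨a, rfl⟩ := hπ t
    refine ⟨algebraMap L FL (a : L), ?_, ?_⟩
    · rintro Q (rfl | rfl | ⟨P, -, rfl⟩)
      · exact N.R1.algebraMap_mem a
      · exact N.R2.algebraMap_mem a
      · exact P.algebraMap_mem' _
    · exact ((dict1 _ (N.R1.algebraMap_mem a) (π a)).mpr (Or.inl (N.R1.red_algebraMap a))).2
  have S : NodeSetup p V1.toSubring V2.toSubring E1 E2 (ringB 𝒬) (lam 𝒬 p) :=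
    nodeSetup_lam 𝒬 p V1 V2 E1 E2
      (inv_mem_of_ev_ne_zero N.R1.O N.R1.red N.R1.red_eq_zero_iff (N.e1 e) (hdeg1 e))
      (inv_mem_of_ev_ne_zero N.R2.O N.R2.red N.R2.red_eq_zero_iff (N.e2 e) (hdeg2 e))
      hglue hchi
  -- the automorphism
  have hs𝒬 : ∀ Q ∈ 𝒬, Q.comap (s : FL →+* FL) ∈ 𝒬 := by
    rintro Q (rfl | rfl | ⟨P, hP, rfl⟩)
    · have : N.R1.O.comap (s : FL →+* FL) = N.R1.O := by
        ext y
        rw [ValuationSubring.mem_comap]
        exact ⟨fun h => hs1' y h, fun h => (hs1 y h).1⟩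
      rw [this]
      exact hO1
    · have : N.R2.O.comap (s : FL →+* FL) = N.R2.O := by
        ext y
        rw [ValuationSubring.mem_comap]
        exact ⟨fun h => hs2' y h, fun h => (hs2 y h).1⟩
      rw [this]
      exact hO2
    · have : P.toValuationSubring.comap (s : FL →+* FL) = (τ P).toValuationSubring := by
        ext y
        rw [ValuationSubring.mem_comap]
        exact (hτ P y).symm
      rw [this]
      refine hPl (τ P) ?_
      rw [hisOver]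
      simp only [hr1, hr2]
      exact hP
  have hsV1 : ∀ y ∈ V1.toSubring, s y ∈ V1.toSubring ∧
      ev V1.toSubring E1 (s y) = ev V1.toSubring E1 y := fun y hy =>
    map_mem_and_ev_eq N.R1.O N.R1.red N.R1.red_eq_zero_iff (N.e1 e) (hdeg1 e) s hs1 y hy
  have hsV2 : ∀ y ∈ V2.toSubring, s y ∈ V2.toSubring ∧
      ev V2.toSubring E2 (s y) = ev V2.toSubring E2 y := fun y hy =>
    map_mem_and_ev_eq N.R2.O N.R2.red N.R2.red_eq_zero_iff (N.e2 e) (hdeg2 e) s hs2 y hy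
  have hsL : ∀ f y, y ∈ lam 𝒬 p f → s y ∈ lam 𝒬 p (s f) := fun f y hy =>
    map_mem_lam s hs𝒬 hy
  -- the function `f`
  set f : FL := ((f1 : N.R1.O) : FL) with hf
  have hf1mem : f ∈ N.R1.O := (f1 : N.R1.O).2
  have hf2mem : f ∈ N.R2.O := by rw [hf12]; exact (f2 : N.R2.O).2
  have hf0 : f ≠ 0 := coe_unit_ne_zero N.R1.toBranch f1
  have hfV1 : f ∈ V1 ∧ ev V1.toSubring E1 f = 1 := by
    refine (dict1 f hf1mem 1).mpr (Or.inl ?_)
    rw [map_one]
    exact hred1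
  have hfV2 : f ∈ V2 ∧ ev V2.toSubring E2 f = 1 := by
    refine (dict2 f hf2mem 1).mpr (Or.inl ?_)
    rw [map_one]
    have : (⟨f, hf2mem⟩ : N.R2.O) = (f2 : N.R2.O) := Subtype.ext hf12
    rw [this]
    exact hred2
  -- `B = ∑ P01 + ∑ P02` vanishes at the non-admissible places
  have hBzero : ∀ P : Place L FL, ¬ isOver P →
      ((∑ i, Finsupp.single (P01 i) (1 : ℤ)) + ∑ j, Finsupp.single (P02 j) (1 : ℤ)) P = 0 := by
    intro P hP
    rw [Finsupp.add_apply, sum_single_apply_of_notMem' P01 P, sum_single_apply_of_notMem' P02 P,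
      add_zero]
    · intro j hj
      exact hP (Or.inr ⟨Q2 j, hT2' (Or.inr ⟨j, rfl⟩), by rw [← hj]; exact hP02 j⟩)
    · intro i hi
      exact hP (Or.inl ⟨Q1 i, hT1' (Or.inr ⟨i, rfl⟩), by rw [← hi]; exact hP01 i⟩)
  -- the local generator lies in `lam f`
  set w : FL := ((u1 : N.R1.O) : FL) with hw
  have hw0 : w ≠ 0 := coe_unit_ne_zero N.R1.toBranch u1
  have hw1mem : w ∈ N.R1.O := (u1 : N.R1.O).2
  have hw2mem : w ∈ N.R2.O := by rw [hu12]; exact (u2 : N.R2.O).2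
  have hwlam : w ∈ lam 𝒬 p f := by
    rintro Q (rfl | rfl | ⟨P, hP, rfl⟩)
    · exact N.R1.O.mul_mem _ _ (N.R1.O.pow_mem hw1mem p) hf1mem
    · exact N.R2.O.mul_mem _ _ (N.R2.O.pow_mem hw2mem p) hf2mem
    · refine hmemP P _ (mul_ne_zero (pow_ne_zero _ hw0) hf0) ?_
      rw [P.ord_mul (pow_ne_zero _ hw0) hf0, ord_pow, hfD]
      have h1 := huD P
      rw [hBzero P hP, add_zero] at h1
      nlinarith
  have hgen : ∃ y₁ ∈ lam 𝒬 p f, ev V1.toSubring E1 y₁ ≠ 0 := by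
    refine ⟨w, hwlam, ?_⟩
    rw [((dict1 w hw1mem γ).mpr (Or.inl hu1red)).2]
    exact hγ
  -- the given function lies in `lam (s f / f)`
  set y : FL := ((y1 : N.R1.O) : FL) with hy
  have hy1mem : y ∈ N.R1.O := y1.2
  have hy2mem : y ∈ N.R2.O := by rw [hy12]; exact y2.2
  have hsf0 : s f ≠ 0 := (map_ne_zero_iff s s.injective).mpr hf0
  have hfinv1 : f⁻¹ ∈ N.R1.O := by
    rw [hf, ← coe_inv_unit N.R1.toBranch f1]
    exact ((f1⁻¹ : N.R1.Oˣ) : N.R1.O).2
  have hfinv2 : f⁻¹ ∈ N.R2.O := by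
    rw [hf12, ← coe_inv_unit N.R2.toBranch f2]
    exact ((f2⁻¹ : N.R2.Oˣ) : N.R2.O).2
  have hylam : y ∈ lam 𝒬 p (s f / f) := by
    rintro Q (rfl | rfl | ⟨P, hP, rfl⟩)
    · rw [div_eq_mul_inv]
      exact N.R1.O.mul_mem _ _ (N.R1.O.pow_mem hy1mem p)
        (N.R1.O.mul_mem _ _ (hs1 f hf1mem).1 hfinv1)
    · rw [div_eq_mul_inv]
      exact N.R2.O.mul_mem _ _ (N.R2.O.pow_mem hy2mem p)
        (N.R2.O.mul_mem _ _ (hs2 f hf2mem).1 hfinv2)
    · have hq0 : s f / f ≠ 0 := div_ne_zero hsf0 hf0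
      refine hmemP P _ (mul_ne_zero (pow_ne_zero _ hy0) hq0) ?_
      rw [P.ord_mul (pow_ne_zero _ hy0) hq0, ord_pow, hD']
      have h1 : ¬ (P.ord y + D' P < 0) := by
        intro hcon
        rcases hpole P hcon with ⟨Q, hQ, hQr⟩ | ⟨Q, hQ, hQr⟩
        · exact hP (Or.inl ⟨Q, hT1' (Or.inl hQ), hQr⟩)
        · exact hP (Or.inr ⟨Q, hT2' (Or.inl hQ), hQr⟩)
      rw [not_lt] at h1
      nlinarith
  -- conclusion
  obtain ⟨m1, m2, hval⟩ := S.eval_eq_of_localGenerator hp s hsV1 hsV2 hsL hfV1.1 hfV2.1 hfV1.2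
    hfV2.2 hgen hylam
  refine ⟨ev V1.toSubring E1 y, ?_, ?_⟩
  · exact (dict1 y hy1mem _).mp ⟨m1, rfl⟩
  · have h2 := (dict2 y hy2mem _).mp ⟨m2, hval.symm⟩
    have : (⟨y, hy2mem⟩ : N.R2.O) = y2 := Subtype.ext hy12
    rw [this] at h2
    exact h2

end Fermat.Agent.S34.GlueGNodal
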