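/-
PROJECT U (S34), ROUTE G, integration bridge, part 3 (helper6):
(Core-Z) IN DIVISOR LANGUAGE FOR AN ABSTRACT NODAL DATUM AND AN INERTIA ELEMENT.

`principal_of_inertia` = `GlueGNodal.glueG_of_inertia` (helper2: the gluing hypothesis for
`D' = g D - D`) fed into `CoreZOfNodal.principal_of_nodal` (= `NodalCore.nodal_core` of helper9
applied to `f' = g u / u`), for a semilinear automorphism `g` of `FL / L` which

* preserves the two Gauss rings and acts trivially on the two reductions (`hg1`, `hg2`, `hg1'`,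
  `hg2'`),
* is compatible with the two partial specialisation maps (`hr1`, `hr2`).

Conclusion: for `u` a one-unit of both Gauss rings with `div u = n D`, `deg D = 0`, `n` invertible
in `k`: `g • D - D` is principal.  No gluing hypothesis is left.
-/
import Fermat.Agent.S34.CoreZOfNodal
import Fermat.Agent.S34.GlueGNodal

set_option autoImplicit false
set_option linter.unusedSectionVars false

noncomputable section

namespace Fermat.Agent.S34.CoreZOfInertia

open AlgebraicCurve Fermat.Agent.S34.NodalDefs Fermat.Agent.S34.NodalCore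
open Fermat.Agent.S18.CoreDefs (RiemannGe)
open Fermat.Agent.S34.KummerZ Fermat.Agent.S34.CoreZOfPrincipal Fermat.Agent.S34.CoreZOfNodal

variable {L : Type*} [Field L] {k : Type*} [Field k]
variable {A : ValuationSubring L} {π : A →+* k}
variable {FL : Type*} [Field FL] [Algebra L FL]
variable {F1 : Type*} [Field F1] [Algebra k F1] {F2 : Type*} [Field F2] [Algebra k F2]
variable {ι : Type*}

/-- membership in the valuation ring of `g⁻¹ • P` -/
theorem mem_inv_smul_place_iff (g : SemilinearAut L FL) (P : Place L FL) (y : FL) :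
    y ∈ (g⁻¹ • P).toValuationSubring ↔ g • y ∈ P.toValuationSubring := by
  rw [SemilinearAut.smul_toValuationSubring]
  exact ValuationSubring.mem_inv_pointwise_smul_iff

/-- **(Core-Z) in divisor language, abstract form.** -/
theorem principal_of_inertia [HasPrincipalDivisors L FL] [HasPrincipalDivisors k F1]
    [HasPrincipalDivisors k F2] [Fintype ι] [Nonempty ι]
    (N : GNodalDatum A π FL F1 F2 ι) (hdegL : ∀ P : Place L FL, P.deg = 1)
    (hdeg1 : ∀ e, (N.e1 e).deg = 1) (hdeg2 : ∀ e, (N.e2 e).deg = 1)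
    (hadmfin : ∀ S1 S2, N.Adm S1 S2 → S1.Finite ∧ S2.Finite)
    (hπ : Function.Surjective π) (n : ℕ) (hnk : (n : k) ≠ 0)
    (x1 : N.R1.O)
    (hunram1 : {Q : Place k F1 | ¬ ∃ γ : k, Q.ord (N.R1.red x1 - algebraMap k F1 γ) = 1}.Finite)
    (x2 : N.R2.O)
    (hunram2 : {Q : Place k F2 | ¬ ∃ γ : k, Q.ord (N.R2.red x2 - algebraMap k F2 γ) = 1}.Finite)
    {g1 m2 : ℕ} (hR : RiemannGe L FL (g1 + m2)) (hG : NodalRigid k F1 F2 N.e2 g1 m2)
    (Pstar : Place L FL) (Qstar : Place k F1) (hQstar : Qstar ∈ N.R1.good)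
    (hstar : N.R1.r Pstar = some Qstar)
    (g : SemilinearAut L FL)
    (hg1 : ∀ y : N.R1.O, ∃ h : g • ((y : N.R1.O) : FL) ∈ N.R1.O, N.R1.red ⟨_, h⟩ = N.R1.red y)
    (hg1' : ∀ y : FL, g • y ∈ N.R1.O → y ∈ N.R1.O)
    (hg2 : ∀ y : N.R2.O, ∃ h : g • ((y : N.R2.O) : FL) ∈ N.R2.O, N.R2.red ⟨_, h⟩ = N.R2.red y)
    (hg2' : ∀ y : FL, g • y ∈ N.R2.O → y ∈ N.R2.O)
    (hr1 : ∀ P : Place L FL, N.R1.r (g • P) = N.R1.r P)
    (hr2 : ∀ P : Place L FL, N.R2.r (g • P) = N.R2.r P)
    {u : FL} (hu1 : u ∈ N.R1.O) (hu2 : u ∈ N.R2.O)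
    (hred1 : N.R1.red ⟨u, hu1⟩ = 1) (hred2 : N.R2.red ⟨u, hu2⟩ = 1)
    (D : Divisor L FL) (hD0 : Divisor.degree D = 0) (hD : ∀ P : Place L FL, P.ord u = n * D P) :
    g • D - D ∈ Divisor.principal (K := L) (F := FL) := by
  have hn : n ≠ 0 := by
    rintro rfl
    exact hnk (by simp)
  have hu0 : u ≠ 0 := by
    rintro rfl
    have hz : (⟨0, hu1⟩ : N.R1.O) = 0 := rfl
    rw [hz, map_zero] at hred1
    exact zero_ne_one hred1
  have hgu : g • u ≠ 0 := by
    intro h0
    apply hu0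
    have := congrArg (fun x => g⁻¹ • x) h0
    simpa using this
  -- `u` as a unit of both branches
  obtain ⟨v1, hv1⟩ := isUnit_of_red_eq_one N.R1.toBranch ⟨u, hu1⟩ hred1
  obtain ⟨v2, hv2⟩ := isUnit_of_red_eq_one N.R2.toBranch ⟨u, hu2⟩ hred2
  have e1 : ((v1 : N.R1.O) : FL) = u := by rw [hv1]
  have e2 : ((v2 : N.R2.O) : FL) = u := by rw [hv2]
  refine principal_of_nodal N hdegL hπ n hnk x1 hunram1 x2 hunram2 hR hG Pstar Qstar hQstar hstar
    g hg1 hg2 hu1 hu2 hred1 hred2 D hD ?_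
  refine Fermat.Agent.S34.GlueGNodal.glueG_of_inertia N hdegL hdeg1 hdeg2 hadmfin hπ n hn
    x1 hunram1 x2 hunram2 hR hG (SemilinearAut.toRingAut g) (fun P => g⁻¹ • P)
    (fun P y => mem_inv_smul_place_iff g P y)
    (fun y h => hg1 ⟨y, h⟩) hg1' (fun y h => hg2 ⟨y, h⟩) hg2'
    (fun P => by
      have := hr1 (g⁻¹ • P)
      rw [smul_inv_smul] at this
      exact this.symm)
    (fun P => by
      have := hr2 (g⁻¹ • P)
      rw [smul_inv_smul] at this
      exact this.symm)
    D hD0 v1 v2 (e1.trans e2.symm) (by rw [hv1]; exact hred1) (by rw [hv2]; exact hred2)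
    (fun P => by rw [e1]; exact hD P) (g • D - D) (fun P => ?_)
  rw [e1]
  show P.ord (g • u / u) = n * (g • D - D) P
  rw [ord_div' P hgu hu0, ord_smul_eq, hD, hD, Finsupp.sub_apply,
    SemilinearAut.divisor_smul_apply]
  ring

end Fermat.Agent.S34.CoreZOfInertia
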