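import Fermat.Prelude.Def_ModularCurve_ArithmeticGalois
import Fermat.Prelude.Def_FLTPrelim_Ramification

/-!
# PROJECT U (S34): the exact shape of the deliverable (U)

`UHyp N p q` : every element `s` of an inertia group at `q` satisfies `(s - 1)² = 0` on the
`p`-power torsion of `J₀(N)` (`= ModularCurve.JZero N` with the arithmetic Galois action of the
Prelude).  It is a theorem (to be proved by the geometric slices of PROJECT U) for
`q ∣ N`, `q² ∤ N`, `q ≠ p`.

`Fermat/Agent/S34/Top.lean` deduces the conclusion of the frozen statement S34 from `UHyp N p q`.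
-/

set_option autoImplicit false
set_option linter.dupNamespace false

namespace Fermat.Agent.S34.UHyp

open ModularCurve

/-- **(U)**: the inertia groups at `q` act on `J₀(N)[p^∞]` through unipotent elements of level
two: `s (s y) + y = 2 (s y)`, i.e. `(s - 1)² y = 0`. -/
def UHyp (N p q : ℕ) : Prop :=
  ∀ P : ValuationSubring (AlgebraicClosure ℚ), P.LiesOverPrime q →
    ∀ s ∈ P.inertiaSubgroupIn ℚ, ∀ y : JZero N, (∃ k : ℕ, p ^ k • y = 0) →
      s • (s • y) + y = 2 • (s • y)

/-- `(U)` holds trivially wherever the inertia groups act trivially (for instance at the primes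
`q ∤ N p`). -/
theorem uHyp_of_trivial {N p q : ℕ}
    (h : ∀ P : ValuationSubring (AlgebraicClosure ℚ), P.LiesOverPrime q →
      ∀ s ∈ P.inertiaSubgroupIn ℚ, ∀ y : JZero N, (∃ k : ℕ, p ^ k • y = 0) → s • y = y) :
    UHyp N p q := by
  intro P hP s hs y hy
  rw [h P hP s hs y hy, h P hP s hs y hy, two_nsmul]

/-- The equivalent difference form: `(s - 1) ((s - 1) y) = 0`. -/
theorem uHyp_iff {N p q : ℕ} :
    UHyp N p q ↔ ∀ P : ValuationSubring (AlgebraicClosure ℚ), P.LiesOverPrime q →
      ∀ s ∈ P.inertiaSubgroupIn ℚ, ∀ y : JZero N, (∃ k : ℕ, p ^ k • y = 0) →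
        s • (s • y - y) - (s • y - y) = 0 := by
  refine forall_congr' fun P => forall_congr' fun _ => forall_congr' fun s =>
    forall_congr' fun _ => forall_congr' fun y => forall_congr' fun _ => ?_
  rw [smul_sub, two_nsmul]
  constructor
  · intro h
    rw [eq_sub_of_add_eq h]
    abel
  · intro h
    rw [← sub_eq_zero, ← h]
    abel

end Fermat.Agent.S34.UHyp
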