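import Mathlib

/-!
# PROJECT U (S34), slice Z1: weak approximation for finitely many rank-one valuation rings

`K` a field, `O : ι → ValuationSubring K` a finite family of pairwise incomparable valuation rings,
each of them archimedean (`Arch`: for `c ≠ 0` in the maximal ideal every `a * c ^ k` is eventually
integral; this is "rank one" stated elementwise).

* `Arch.le_of_le` : an archimedean valuation ring is maximal among the proper subrings containing it
  (so for archimedean rings "pairwise incomparable" is "pairwise distinct and none is `⊤`").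
* `exists_mem_nonunits_not_mem` : two incomparable valuation rings: some `c ∈ 𝔪₂` is not in `O₁`
  (no archimedean hypothesis).
* `exists_sep` : for every `i` some `z ∉ O i` lies in all `𝔪 j`, `j ∈ s`, `i ∉ s`.
* `exists_one_sub` : for every `i` and finitely many `b` some `x` with `x - 1 ∈ 𝔪 i` and
  `x ∈ 𝔪 j`, `x * b ∈ 𝔪 j` for all `j ≠ i`.
* `exists_approx` : `⋂ O i → ∏ κ i` is onto: for `a i ∈ O i` there is `y` with `y - a i ∈ 𝔪 i`
  for all `i`.
-/

set_option autoImplicit false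

namespace Fermat.Agent.S34.WeakApprox

variable {K : Type*} [Field K]

/-- the archimedean property ("rank one"), stated elementwise -/
def Arch (A : ValuationSubring K) : Prop :=
  ∀ (a c : K), c ∈ A.nonunits → c ≠ 0 → ∃ k : ℕ, a * c ^ k ∈ A

theorem mul_mem_nonunits {A : ValuationSubring K} {a c : K} (ha : a ∈ A) (hc : c ∈ A.nonunits) :
    a * c ∈ A.nonunits := by
  rw [A.mem_nonunits_iff, map_mul]
  have h3 : A.valuation a ≤ 1 := (A.valuation_le_one_iff _).mpr ha
  have h4 : A.valuation c < 1 := A.mem_nonunits_iff.mp hc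
  calc A.valuation a * A.valuation c ≤ 1 * A.valuation c := mul_le_mul' h3 le_rfl
    _ < 1 := by rwa [one_mul]

theorem valuation_gt_one_iff (A : ValuationSubring K) {x : K} : 1 < A.valuation x ↔ x ∉ A := by
  rw [← not_le, A.valuation_le_one_iff]

theorem Arch.exists_mem_nonunits {A : ValuationSubring K} (h : Arch A) (a : K) {c : K}
    (hc : c ∈ A.nonunits) (hc0 : c ≠ 0) : ∃ k : ℕ, ∀ k' : ℕ, k ≤ k' → a * c ^ k' ∈ A.nonunits := by
  obtain ⟨k, hk⟩ := h a c hc hc0
  refine ⟨k + 1, fun k' hk' => ?_⟩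
  obtain ⟨d, rfl⟩ := Nat.exists_eq_add_of_le hk'
  have h1 : a * c ^ (k + 1 + d) = ((a * c ^ k) * c ^ d) * c := by ring
  rw [h1]
  exact mul_mem_nonunits (mul_mem hk (pow_mem (A.nonunits_subset hc) d)) hc

/-- an archimedean valuation ring is a maximal proper subring -/
theorem Arch.le_of_le {A B : ValuationSubring K} (hA : Arch A) (hAB : A ≤ B) (hB : B ≠ ⊤) :
    B ≤ A := by
  intro b hb
  by_contra hbA
  obtain ⟨x, hx⟩ : ∃ x, x ∉ B := by
    by_contra h
    push Not at h
    exact hB (eq_top_iff.mpr fun x _ => h x)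
  have hb0 : b ≠ 0 := fun h => hbA (h ▸ A.zero_mem)
  have hbinv : b⁻¹ ∈ A.nonunits := by
    rw [A.mem_nonunits_iff, map_inv₀]
    exact inv_lt_one_of_one_lt₀ ((valuation_gt_one_iff A).mpr hbA)
  obtain ⟨k, hk⟩ := hA x b⁻¹ hbinv (inv_ne_zero hb0)
  have h1 : x = (x * b⁻¹ ^ k) * b ^ k := by
    rw [mul_assoc, ← mul_pow, inv_mul_cancel₀ hb0, one_pow, mul_one]
  exact hx (h1 ▸ mul_mem (hAB hk) (pow_mem hb k))

/-- two incomparable valuation rings: some element of `𝔪₂` is not in `O₁` -/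
theorem exists_mem_nonunits_not_mem {O₁ O₂ : ValuationSubring K} (h12 : ¬ O₁ ≤ O₂)
    (h21 : ¬ O₂ ≤ O₁) : ∃ c : K, c ∈ O₂.nonunits ∧ c ∉ O₁ := by
  by_contra hcon
  push Not at hcon
  -- `𝔪₂ ⊆ O₁`; take `a ∈ O₂ \ O₁`
  obtain ⟨a, ha2, ha1⟩ := SetLike.not_le_iff_exists.mp h21
  have hau : a ∉ O₂.nonunits := fun h => ha1 (hcon a h)
  have hva : O₂.valuation a = 1 := by
    rcases lt_or_eq_of_le ((O₂.valuation_le_one_iff a).mpr ha2) with h | h
    · exact absurd (O₂.mem_nonunits_iff.mpr h) hau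
    · exact h
  have hv1a : 1 < O₁.valuation a := (valuation_gt_one_iff O₁).mpr ha1
  -- `𝔪₂ ⊆ 𝔪₁`
  have hsub : O₂.nonunits ≤ O₁.nonunits := by
    intro c hc
    have hac : a * c ∈ O₂.nonunits := by
      rw [O₂.mem_nonunits_iff, map_mul, hva, one_mul]
      exact O₂.mem_nonunits_iff.mp hc
    have h1 := (O₁.valuation_le_one_iff _).mpr (hcon _ hac)
    rw [map_mul] at h1
    rw [O₁.mem_nonunits_iff]
    by_contra h2
    push Not at h2
    have h3 : O₁.valuation a * 1 ≤ O₁.valuation a * O₁.valuation c := mul_le_mul' le_rfl h2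
    rw [mul_one] at h3
    exact absurd (hv1a.trans_le h3) (not_lt.mpr h1)
  exact h12 (ValuationSubring.nonunits_le_nonunits.mp hsub)

/-! ### the function `t ↦ t / (1 + t)` -/

theorem valuation_one_add_of_gt (A : ValuationSubring K) {t : K} (ht : 1 < A.valuation t) :
    A.valuation (1 + t) = A.valuation t :=
  A.valuation.map_add_eq_of_lt_right (by rwa [map_one])

theorem one_add_ne_zero_of_gt (A : ValuationSubring K) {t : K} (ht : 1 < A.valuation t) :
    1 + t ≠ 0 := by
  intro h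
  have h1 := valuation_one_add_of_gt A ht
  rw [h, map_zero] at h1
  rw [← h1] at ht
  exact absurd ht (not_lt.mpr zero_le)

theorem valuation_div_one_add_of_gt (A : ValuationSubring K) {t : K} (ht : 1 < A.valuation t) :
    A.valuation (t / (1 + t)) = 1 := by
  rw [map_div₀, valuation_one_add_of_gt A ht]
  exact div_self (ne_of_gt (lt_trans zero_lt_one ht))

theorem valuation_div_one_add_of_lt (A : ValuationSubring K) {t : K} (ht : A.valuation t < 1) :
    A.valuation (t / (1 + t)) = A.valuation t := by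
  rw [map_div₀, A.valuation.map_one_add_of_lt ht, div_one]

theorem div_one_add_sub_one_mem (A : ValuationSubring K) {t : K} (ht : 1 < A.valuation t) :
    t / (1 + t) - 1 ∈ A.nonunits := by
  have h0 := one_add_ne_zero_of_gt A ht
  have h1 : t / (1 + t) - 1 = -(1 + t)⁻¹ := by
    field_simp
    ring
  rw [h1, A.mem_nonunits_iff, Valuation.map_neg, map_inv₀, valuation_one_add_of_gt A ht]
  exact inv_lt_one_of_one_lt₀ ht

theorem one_lt_valuation_pow (A : ValuationSubring K) {z : K} (hz : z ∉ A) {k : ℕ} (hk : k ≠ 0) :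
    1 < A.valuation (z ^ k) := by
  rw [map_pow]
  exact one_lt_pow₀ ((valuation_gt_one_iff A).mpr hz) hk

theorem valuation_pow_lt_one (A : ValuationSubring K) {z : K} (hz : z ∈ A.nonunits) {k : ℕ}
    (hk : k ≠ 0) : A.valuation (z ^ k) < 1 := by
  rw [map_pow]
  exact pow_lt_one₀ zero_le (A.mem_nonunits_iff.mp hz) hk

/-! ### separation -/

variable {ι : Type*} (O : ι → ValuationSubring K)

theorem exists_ne_top_not_mem {A : ValuationSubring K} (hA : A ≠ ⊤) : ∃ x : K, x ∉ A := by
  by_contra h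
  push Not at h
  exact hA (eq_top_iff.mpr fun x _ => h x)

/-- for `i ∉ s` some `z ∉ O i` lies in all the maximal ideals `𝔪 j`, `j ∈ s` -/
theorem exists_sep (hA : ∀ i, Arch (O i)) (hinc : ∀ i j, i ≠ j → ¬ O i ≤ O j) (i : ι)
    (hi : O i ≠ ⊤) (s : Finset ι) (his : i ∉ s) :
    ∃ z : K, z ∉ O i ∧ ∀ j ∈ s, z ∈ (O j).nonunits := by
  classical
  induction s using Finset.induction_on with
  | empty =>
    obtain ⟨x, hx⟩ := exists_ne_top_not_mem hi
    exact ⟨x, hx, by simp⟩
  | insert n s hn ih =>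
    have hin : i ≠ n := fun h => his (h ▸ Finset.mem_insert_self _ _)
    have his' : i ∉ s := fun h => his (Finset.mem_insert_of_mem h)
    obtain ⟨y, hyi, hys⟩ := ih his'
    obtain ⟨z, hzn, hzi⟩ := exists_mem_nonunits_not_mem (hinc i n hin) (hinc n i hin.symm)
    have hy0 : y ≠ 0 := fun h => hyi (h ▸ (O i).zero_mem)
    -- `k` large for all `j ∈ s`: `z * y ^ k ∈ 𝔪 j`
    have hk : ∃ k : ℕ, k ≠ 0 ∧ ∀ j ∈ s, z * y ^ k ∈ (O j).nonunits := by
      have h1 : ∀ j, j ∈ s → ∃ k : ℕ, ∀ k' : ℕ, k ≤ k' → z * y ^ k' ∈ (O j).nonunits :=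
        fun j hj => (hA j).exists_mem_nonunits z (hys j hj) hy0
      choose! kk hkk using h1
      refine ⟨s.sup kk + 1, Nat.succ_ne_zero _, fun j hj => hkk j hj _ ?_⟩
      exact (Finset.le_sup hj).trans (Nat.le_succ _)
    obtain ⟨k, hk0, hk⟩ := hk
    have hzi' : 1 < (O i).valuation z := (valuation_gt_one_iff (O i)).mpr hzi
    by_cases hyn : y ∈ O n
    · refine ⟨z * y ^ k, ?_, ?_⟩
      · rw [← valuation_gt_one_iff, map_mul]
        have h2 := one_lt_valuation_pow (O i) hyi hk0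
        exact lt_of_lt_of_le hzi' (le_mul_of_one_le_right zero_le h2.le)
      · intro j hj
        rcases Finset.mem_insert.mp hj with rfl | hj
        · rw [mul_comm]
          exact mul_mem_nonunits (pow_mem hyn k) hzn
        · exact hk j hj
    · -- `v_n(y) > 1`: use `u = y^k/(1+y^k)`
      have hi1 := one_lt_valuation_pow (O i) hyi hk0
      have hn1 := one_lt_valuation_pow (O n) hyn hk0
      refine ⟨z * (y ^ k / (1 + y ^ k)), ?_, ?_⟩
      · rw [← valuation_gt_one_iff, map_mul, valuation_div_one_add_of_gt (O i) hi1, mul_one]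
        exact hzi'
      · intro j hj
        rcases Finset.mem_insert.mp hj with rfl | hj
        · rw [(O j).mem_nonunits_iff, map_mul, valuation_div_one_add_of_gt (O j) hn1, mul_one]
          exact (O j).mem_nonunits_iff.mp hzn
        · have h3 := valuation_pow_lt_one (O j) (hys j hj) hk0
          rw [(O j).mem_nonunits_iff, map_mul, valuation_div_one_add_of_lt (O j) h3, ← map_mul]
          exact (O j).mem_nonunits_iff.mp (hk j hj)

/-- for every `i` and finitely many `b` some `x` is `≡ 1` at `i` and, even after multiplication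
with any of the `b`, in the maximal ideal at all `j ≠ i` -/
theorem exists_one_sub [Finite ι] (hA : ∀ i, Arch (O i)) (hinc : ∀ i j, i ≠ j → ¬ O i ≤ O j)
    (i : ι) (bs : Finset K) :
    ∃ x : K, x - 1 ∈ (O i).nonunits ∧
      ∀ j, j ≠ i → x ∈ (O j).nonunits ∧ ∀ b ∈ bs, x * b ∈ (O j).nonunits := by
  classical
  have := Fintype.ofFinite ι
  by_cases hex : ∃ j₀, j₀ ≠ i
  · obtain ⟨j₀, hj₀⟩ := hex
    have hi : O i ≠ ⊤ := fun h => hinc j₀ i hj₀ (h ▸ le_top)
    obtain ⟨z, hzi, hzs⟩ := exists_sep O hA hinc i hi (Finset.univ.erase i)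
      (Finset.notMem_erase i _)
    have hz0 : z ≠ 0 := fun h => hzi (h ▸ (O i).zero_mem)
    have hzj : ∀ j, j ≠ i → z ∈ (O j).nonunits := fun j hj =>
      hzs j (Finset.mem_erase.mpr ⟨hj, Finset.mem_univ _⟩)
    -- `k` large for all `j ≠ i` and all `b`
    have hk : ∃ k : ℕ, k ≠ 0 ∧ ∀ j, j ≠ i → ∀ b ∈ insert 1 bs, b * z ^ k ∈ (O j).nonunits := by
      have h1 : ∀ p : ι × K, p.1 ≠ i → ∃ k : ℕ, ∀ k' : ℕ, k ≤ k' →
          p.2 * z ^ k' ∈ (O p.1).nonunits :=
        fun p hp => (hA p.1).exists_mem_nonunits p.2 (hzj p.1 hp) hz0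
      choose! kk hkk using h1
      refine ⟨((Finset.univ.erase i) ×ˢ (insert 1 bs)).sup kk + 1, Nat.succ_ne_zero _,
        fun j hj b hb => hkk (j, b) hj _ ?_⟩
      have hmem : (j, b) ∈ (Finset.univ.erase i) ×ˢ (insert 1 bs) :=
        Finset.mem_product.mpr ⟨Finset.mem_erase.mpr ⟨hj, Finset.mem_univ _⟩, hb⟩
      exact (Finset.le_sup (f := kk) hmem).trans (Nat.le_succ _)
    obtain ⟨k, hk0, hk⟩ := hk
    refine ⟨z ^ k / (1 + z ^ k), div_one_add_sub_one_mem (O i) (one_lt_valuation_pow (O i) hzi hk0),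
      fun j hj => ?_⟩
    have h3 := valuation_pow_lt_one (O j) (hzj j hj) hk0
    constructor
    · rw [(O j).mem_nonunits_iff, valuation_div_one_add_of_lt (O j) h3]
      exact h3
    · intro b hb
      rw [(O j).mem_nonunits_iff, map_mul, valuation_div_one_add_of_lt (O j) h3, ← map_mul,
        mul_comm]
      exact (O j).mem_nonunits_iff.mp (hk j hj b (Finset.mem_insert_of_mem hb))
  · push Not at hex
    refine ⟨1, ?_, fun j hj => absurd (hex j) hj⟩
    rw [sub_self]
    exact (O i).nonunits.zero_mem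

/-- **weak approximation**: `⋂ O i → ∏ κ i` is onto -/
theorem exists_approx [Finite ι] (hA : ∀ i, Arch (O i)) (hinc : ∀ i j, i ≠ j → ¬ O i ≤ O j)
    (a : ι → K) (ha : ∀ i, a i ∈ O i) :
    ∃ y : K, ∀ i, y - a i ∈ (O i).nonunits := by
  classical
  have := Fintype.ofFinite ι
  have h1 : ∀ i, ∃ x : K, x - 1 ∈ (O i).nonunits ∧
      ∀ j, j ≠ i → x ∈ (O j).nonunits ∧ ∀ b ∈ ({a i} : Finset K), x * b ∈ (O j).nonunits :=
    fun i => exists_one_sub O hA hinc i {a i}
  choose x hx1 hx2 using h1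
  refine ⟨∑ i, x i * a i, fun i₀ => ?_⟩
  have h2 : ∑ i, x i * a i - a i₀
      = (x i₀ - 1) * a i₀ + ∑ i ∈ Finset.univ.erase i₀, x i * a i := by
    rw [← Finset.add_sum_erase _ _ (Finset.mem_univ i₀)]
    ring
  rw [h2]
  refine (O i₀).nonunits.add_mem ?_ (sum_mem fun i hi => ?_)
  · rw [mul_comm]
    exact mul_mem_nonunits (ha i₀) (hx1 i₀)
  · exact (hx2 i i₀ (Finset.ne_of_mem_erase hi).symm).2 (a i) (Finset.mem_singleton_self _)

end Fermat.Agent.S34.WeakApprox
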