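import Mathlib
import Fermat.Agent.S34.WeakApprox
import Fermat.Agent.S05.LocalVal

/-!
# PROJECT U (S34), slice Z1: the archimedean property passes to algebraic extensions

`Arch` (from `WeakApprox`) is the hypothesis of weak approximation.  Here we provide it.

* `exists_max_of_distinct` : the ultrametric principle: a finite sum whose nonzero terms have
  pairwise distinct valuations has the valuation of its largest term.
* `exists_pow_valuation_eq` : `y ≠ 0` algebraic over `F`: some power `y ^ e`, `e ≠ 0`, has the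
  valuation of an element of `F` (the value group of an algebraic extension is torsion over the
  value group of the base).
* `mem_comap_nonunits_iff` : the maximal ideal of `A'.comap φ` is the preimage of the maximal ideal.
* `arch_of_comap` : `F'/F` algebraic, `A' ∩ F` archimedean ⟹ `A'` archimedean.
* `arch_of_valuation_eq` : the same when every value of `A'` is the value of an element of `F`.
* `arch_rat` : a valuation ring of `ℚ` in which a prime `ℓ` is not a unit is archimedean.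
* `arch_of_liesOverPrime` : a valuation ring of an algebraic extension of `ℚ` lying over a prime
  is archimedean.
-/

set_option autoImplicit false

namespace Fermat.Agent.S34.ArchComap

open Fermat.Agent.S34.WeakApprox

/-! ### the ultrametric principle -/

section Ultrametric

variable {R Γ₀ : Type*} [Ring R] [LinearOrderedCommMonoidWithZero Γ₀] (v : Valuation R Γ₀)

theorem exists_max_of_distinct {L : Type*} (s : Finset L) (hs : s.Nonempty) (t : L → R)
    (hd : ∀ l ∈ s, ∀ l' ∈ s, l ≠ l' → v (t l) ≠ 0 → v (t l) ≠ v (t l')) :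
    ∃ l ∈ s, v (∑ l ∈ s, t l) = v (t l) ∧ ∀ l' ∈ s, v (t l') ≤ v (t l) := by
  classical
  obtain ⟨l, hl, hmax⟩ := s.exists_max_image (fun l => v (t l)) hs
  refine ⟨l, hl, ?_, hmax⟩
  by_cases h0 : v (t l) = 0
  · rw [h0]
    refine le_antisymm ?_ zero_le
    exact v.map_sum_le fun i hi => (h0 ▸ hmax i hi)
  · rw [← Finset.add_sum_erase s t hl]
    refine v.map_add_eq_of_lt_left (v.map_sum_lt h0 fun i hi => ?_)
    have hi' := Finset.mem_erase.mp hi
    exact lt_of_le_of_ne (hmax i hi'.2) (fun h => hd l hl i hi'.2 hi'.1.symm h0 h.symm)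

end Ultrametric

variable {F F' : Type*} [Field F] [Field F']

/-! ### the maximal ideal of a restriction -/

theorem mem_nonunits_iff_inv_notMem (B : ValuationSubring F) {x : F} (hx : x ≠ 0) :
    x ∈ B.nonunits ↔ x⁻¹ ∉ B := by
  rw [B.mem_nonunits_iff, ← valuation_gt_one_iff, map_inv₀]
  exact (one_lt_inv₀ (lt_of_le_of_ne zero_le (Ne.symm ((Valuation.ne_zero_iff _).mpr hx)))).symm

theorem mem_comap_nonunits_iff (A' : ValuationSubring F') (φ : F →+* F') (f : F) :
    f ∈ (A'.comap φ).nonunits ↔ φ f ∈ A'.nonunits := by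
  by_cases hf : f = 0
  · subst hf
    rw [map_zero]
    exact ⟨fun _ => A'.nonunits.zero_mem, fun _ => (A'.comap φ).nonunits.zero_mem⟩
  · rw [mem_nonunits_iff_inv_notMem _ hf, mem_nonunits_iff_inv_notMem _ ((map_ne_zero φ).mpr hf),
      ValuationSubring.mem_comap, map_inv₀]

variable [Algebra F F']

/-! ### the value group of an algebraic extension is torsion over the base -/

theorem exists_pow_valuation_eq (A' : ValuationSubring F') {y : F'} (hy : y ≠ 0)
    (halg : IsAlgebraic F y) :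
    ∃ e : ℕ, e ≠ 0 ∧ ∃ f : F, f ≠ 0 ∧
      A'.valuation (y ^ e) = A'.valuation (algebraMap F F' f) := by
  obtain ⟨p, hp0, hp⟩ := halg
  have hsum : ∑ m ∈ p.support, algebraMap F F' (p.coeff m) * y ^ m = 0 := by
    rw [← hp, Polynomial.aeval_def, Polynomial.eval₂_eq_sum, Polynomial.sum_def]
  have hne : p.support.Nonempty := Polynomial.support_nonempty.mpr hp0
  have hcoeff : ∀ m ∈ p.support, A'.valuation (algebraMap F F' (p.coeff m)) ≠ 0 := fun m hm =>
    (Valuation.ne_zero_iff _).mpr ((map_ne_zero _).mpr (Polynomial.mem_support_iff.mp hm))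
  have hpow : ∀ m : ℕ, A'.valuation (y ^ m) ≠ 0 := fun m =>
    (Valuation.ne_zero_iff _).mpr (pow_ne_zero _ hy)
  have ht0 : ∀ m ∈ p.support, A'.valuation (algebraMap F F' (p.coeff m) * y ^ m) ≠ 0 := by
    intro m hm
    rw [map_mul]
    exact mul_ne_zero (hcoeff m hm) (hpow m)
  -- two terms have the same valuation
  have hex : ∃ m ∈ p.support, ∃ m' ∈ p.support, m < m' ∧
      A'.valuation (algebraMap F F' (p.coeff m) * y ^ m)
        = A'.valuation (algebraMap F F' (p.coeff m') * y ^ m') := by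
    by_contra hcon
    push Not at hcon
    obtain ⟨l, hl, h1, -⟩ := exists_max_of_distinct A'.valuation p.support hne
      (fun m => algebraMap F F' (p.coeff m) * y ^ m) (fun m hm m' hm' hmm' _ h => by
        rcases lt_or_gt_of_ne hmm' with h2 | h2
        · exact hcon m hm m' hm' h2 h
        · exact hcon m' hm' m hm h2 h.symm)
    rw [hsum, map_zero] at h1
    exact ht0 l hl h1.symm
  obtain ⟨m, hm, m', hm', hlt, heq⟩ := hex
  refine ⟨m' - m, (Nat.sub_pos_of_lt hlt).ne', p.coeff m / p.coeff m',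
    div_ne_zero (Polynomial.mem_support_iff.mp hm) (Polynomial.mem_support_iff.mp hm'), ?_⟩
  have h1 : y ^ m' = y ^ (m' - m) * y ^ m := by rw [← pow_add, Nat.sub_add_cancel hlt.le]
  rw [h1, map_mul, map_mul, map_mul, ← mul_assoc] at heq
  have h2 := mul_right_cancel₀ (hpow m) heq
  rw [map_div₀, map_div₀, h2, mul_div_cancel_left₀ _ (hcoeff m' hm')]

/-! ### `Arch` for extensions -/

/-- an algebraic extension of an archimedean valuation ring is archimedean -/
theorem arch_of_comap [Algebra.IsAlgebraic F F'] (A' : ValuationSubring F')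
    (hA : Arch (A'.comap (algebraMap F F'))) : Arch A' := by
  intro a c hc hc0
  by_cases ha0 : a = 0
  · exact ⟨0, by rw [ha0, zero_mul]; exact A'.zero_mem⟩
  obtain ⟨e, he, f, hf0, hf⟩ :=
    exists_pow_valuation_eq (F := F) A' hc0 (Algebra.IsAlgebraic.isAlgebraic c)
  obtain ⟨e', he', g, -, hg⟩ :=
    exists_pow_valuation_eq (F := F) A' ha0 (Algebra.IsAlgebraic.isAlgebraic a)
  have hce : A'.valuation (c ^ e) < 1 := valuation_pow_lt_one A' hc he
  have hfm : f ∈ (A'.comap (algebraMap F F')).nonunits := by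
    rw [mem_comap_nonunits_iff, A'.mem_nonunits_iff, ← hf]
    exact hce
  obtain ⟨k, hk⟩ := hA g f hfm hf0
  refine ⟨e * k, ?_⟩
  rw [← A'.valuation_le_one_iff]
  have h2 : A'.valuation (algebraMap F F' (g * f ^ k)) ≤ 1 :=
    (A'.valuation_le_one_iff _).mpr (ValuationSubring.mem_comap.mp hk)
  rw [map_mul, map_pow, map_mul, map_pow, ← hg, ← hf] at h2
  obtain ⟨d, rfl⟩ := Nat.exists_eq_succ_of_ne_zero he'
  have h3 : (a * c ^ (e * k)) ^ (d + 1) = (a ^ (d + 1) * (c ^ e) ^ k) * ((c ^ e) ^ k) ^ d := by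
    ring
  have h1 : A'.valuation (a * c ^ (e * k)) ^ (d + 1) ≤ 1 := by
    rw [← map_pow, h3, map_mul, map_mul, map_pow (A'.valuation) ((c ^ e) ^ k) d,
      map_pow (A'.valuation) (c ^ e) k]
    calc A'.valuation (a ^ (d + 1)) * A'.valuation (c ^ e) ^ k * (A'.valuation (c ^ e) ^ k) ^ d
        ≤ 1 * 1 := mul_le_mul' h2 (pow_le_one₀ zero_le (pow_le_one₀ zero_le hce.le))
      _ = 1 := one_mul 1
  by_contra h4
  push Not at h4
  exact absurd h1 (not_le.mpr (one_lt_pow₀ h4 (Nat.succ_ne_zero d)))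

/-- an extension with the same value group as an archimedean valuation ring is archimedean -/
theorem arch_of_valuation_eq (A' : ValuationSubring F')
    (hA : Arch (A'.comap (algebraMap F F')))
    (hval : ∀ x : F', x ≠ 0 → ∃ c : F, A'.valuation x = A'.valuation (algebraMap F F' c)) :
    Arch A' := by
  intro a c hc hc0
  by_cases ha0 : a = 0
  · exact ⟨0, by rw [ha0, zero_mul]; exact A'.zero_mem⟩
  obtain ⟨γ, hγ⟩ := hval c hc0
  obtain ⟨α, hα⟩ := hval a ha0
  have hγ0 : γ ≠ 0 := by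
    rintro rfl
    rw [map_zero, map_zero] at hγ
    exact hc0 ((Valuation.zero_iff _).mp hγ)
  have hγm : γ ∈ (A'.comap (algebraMap F F')).nonunits := by
    rw [mem_comap_nonunits_iff, A'.mem_nonunits_iff, ← hγ]
    exact A'.mem_nonunits_iff.mp hc
  obtain ⟨k, hk⟩ := hA α γ hγm hγ0
  refine ⟨k, ?_⟩
  have h2 : A'.valuation (algebraMap F F' (α * γ ^ k)) ≤ 1 :=
    (A'.valuation_le_one_iff _).mpr (ValuationSubring.mem_comap.mp hk)
  rw [map_mul, map_pow, map_mul, map_pow, ← hα, ← hγ] at h2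
  rw [← A'.valuation_le_one_iff, map_mul, map_pow]
  exact h2

/-! ### the base case `ℚ` -/

section Rat

variable {ℓ : ℕ} (B : ValuationSubring ℚ)

theorem valuation_natCast_eq_pow (hℓ : ℓ.Prime) (hB : B.LiesOverPrime ℓ) {n : ℕ} (hn : n ≠ 0) :
    ∃ a : ℕ, B.valuation (n : ℚ) = B.valuation (ℓ : ℚ) ^ a := by
  obtain ⟨a, r, hr, rfl⟩ := Nat.exists_eq_pow_mul_and_not_dvd hn ℓ hℓ.ne_one
  refine ⟨a, ?_⟩
  have h1 : ¬ (ℓ : ℤ) ∣ (r : ℤ) := fun h => hr (Int.natCast_dvd_natCast.mp h)
  have h2 := S05.LocalVal.intCast_valuation_eq_one (A := B) hℓ hB h1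
  rw [Int.cast_natCast] at h2
  rw [Nat.cast_mul, Nat.cast_pow, map_mul, map_pow, h2, mul_one]

theorem valuation_mul_pow_eq_pow (hℓ : ℓ.Prime) (hB : B.LiesOverPrime ℓ) {x : ℚ} (hx : x ≠ 0) :
    ∃ a b : ℕ, B.valuation x * B.valuation (ℓ : ℚ) ^ b = B.valuation (ℓ : ℚ) ^ a := by
  have hnum : x.num.natAbs ≠ 0 := Int.natAbs_ne_zero.mpr (Rat.num_ne_zero.mpr hx)
  obtain ⟨a, ha⟩ := valuation_natCast_eq_pow B hℓ hB hnum
  obtain ⟨b, hb⟩ := valuation_natCast_eq_pow B hℓ hB x.den_ne_zero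
  refine ⟨a, b, ?_⟩
  have h1 : B.valuation (x.num : ℚ) = B.valuation (x.num.natAbs : ℚ) := by
    rcases Int.natAbs_eq x.num with h | h
    · conv_lhs => rw [h, Int.cast_natCast]
    · conv_lhs => rw [h, Int.cast_neg, Int.cast_natCast, Valuation.map_neg]
  have h2 : B.valuation x * B.valuation (x.den : ℚ) = B.valuation (x.num : ℚ) := by
    rw [← map_mul, Rat.mul_den_eq_num]
  rw [← hb, h2, h1, ha]

/-- a valuation ring of `ℚ` in which the prime `ℓ` is not a unit is archimedean -/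
theorem arch_rat (hℓ : ℓ.Prime) (hB : B.LiesOverPrime ℓ) : Arch B := by
  intro a c hc hc0
  by_cases ha0 : a = 0
  · exact ⟨0, by rw [ha0, zero_mul]; exact B.zero_mem⟩
  have hπ1 : B.valuation (ℓ : ℚ) < 1 := B.mem_nonunits_iff.mp hB
  have hπ0 : 0 < B.valuation (ℓ : ℚ) :=
    lt_of_le_of_ne zero_le
      (Ne.symm ((Valuation.ne_zero_iff _).mpr (Nat.cast_ne_zero.mpr hℓ.ne_zero)))
  obtain ⟨a₁, b₁, h1⟩ := valuation_mul_pow_eq_pow B hℓ hB ha0
  obtain ⟨a₂, b₂, h2⟩ := valuation_mul_pow_eq_pow B hℓ hB hc0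
  have hlt : b₂ < a₂ := by
    by_contra hle
    push Not at hle
    have h3 : B.valuation (ℓ : ℚ) ^ b₂ ≤ B.valuation c * B.valuation (ℓ : ℚ) ^ b₂ := by
      rw [h2]
      exact pow_le_pow_of_le_one zero_le hπ1.le hle
    have h4 : 1 * B.valuation (ℓ : ℚ) ^ b₂ ≤ B.valuation c * B.valuation (ℓ : ℚ) ^ b₂ := by
      rwa [one_mul]
    exact absurd (le_of_mul_le_mul_right h4 (pow_pos hπ0 _))
      (not_le.mpr (B.mem_nonunits_iff.mp hc))
  refine ⟨b₁, ?_⟩
  rw [← B.valuation_le_one_iff]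
  refine le_of_mul_le_mul_right (a := B.valuation (ℓ : ℚ) ^ (b₁ + b₂ * b₁)) ?_ (pow_pos hπ0 _)
  have h5 : B.valuation (a * c ^ b₁) * B.valuation (ℓ : ℚ) ^ (b₁ + b₂ * b₁)
      = B.valuation (ℓ : ℚ) ^ (a₁ + a₂ * b₁) := by
    rw [map_mul, map_pow, pow_add, pow_add, pow_mul, pow_mul, ← h1, ← h2, mul_pow]
    exact mul_mul_mul_comm _ _ _ _
  rw [h5, one_mul]
  refine pow_le_pow_of_le_one zero_le hπ1.le ?_
  calc b₁ + b₂ * b₁ ≤ a₁ + (b₂ + 1) * b₁ := by rw [add_mul, one_mul]; omega
    _ ≤ a₁ + a₂ * b₁ := Nat.add_le_add_left (Nat.mul_le_mul_right _ hlt) _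

end Rat

/-- a valuation ring of an algebraic extension of `ℚ` lying over a prime is archimedean -/
theorem arch_of_liesOverPrime {L : Type*} [Field L] [CharZero L] [Algebra.IsAlgebraic ℚ L]
    {ℓ : ℕ} (hℓ : ℓ.Prime) (A : ValuationSubring L) (hA : A.LiesOverPrime ℓ) : Arch A := by
  refine arch_of_comap (F := ℚ) A (arch_rat _ hℓ ?_)
  show (ℓ : ℚ) ∈ (A.comap (algebraMap ℚ L)).nonunits
  rw [mem_comap_nonunits_iff, map_natCast]
  exact hA

end Fermat.Agent.S34.ArchComap
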