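/-
PROJECT U (S34), safe piece: **Dedekind-Kummer for valuation rings** (two coprime irreducible
factors).  Mathlib only.

`O` a valuation subring of a field `F` (ANY rank, no discreteness), `κ` its residue field,
`F'/F` a field extension, `t ∈ F'`, `Φ ∈ O[X]` monic with `Φ(t) = 0`, such that `1, t, …, t^(n-1)`
(`n = deg Φ`) span `F'` over `F` and `Φ` divides every `p ∈ O[X]` with `p(t) = 0`.  Assume
`Φ ≡ G₁ G₂ (mod 𝔪_O)` with `g_i = G_i mod 𝔪_O` irreducible and coprime in `κ[X]`.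
A valuation subring `V` of `F'` *lies over* `O` if `V ∩ F = O`; it is *of type `i`* if moreover
`G_i(t) ∈ 𝔪_V`.

* `exists_isExt₁`, `exists_isExt₂` : valuation subrings of both types exist (Chevalley);
* `exists_eq_ev_of_mem` : `V₁ ∩ V₂ = O[t]`;
* `mem_iff₁`, `mem_iff₂` : `V_i = { b(t) / s(t) : b, s ∈ O[X], g_i ∤ s mod 𝔪 }`, hence
  `isExt₁_unique`, `isExt₂_unique`, and `eq_or_eq` : `V₁`, `V₂` are the ONLY valuation subrings
  of `F'` over `O`;
* `exists_ev_sub_lt_one₁/₂` : the residue field of `V_i` is generated by `κ` and the class of `t`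
  (so it is `κ[X]/(g_i)`); `exists_const_sub_lt_one` : it is `κ` if `G_i = X - a`;
* `exists_const_mul_unit_of_divisible` : `e = 1` when the value group of `O` is divisible;
* `comap_eq_of_fix₁/₂`, `sub_lt_one_of_fix₁/₂` : a ring automorphism of `F'` inducing on `F` an
  automorphism that preserves `O` and is trivial on `κ`, and fixing `t`, preserves `V_i` and is
  trivial on its residue field.

Application (S34): `F = ℚ̄(X₀(M))`, `O` the Gauss valuation ring above a prime `q ∤ M`,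
`F' = ℚ̄(X₀(qM))`, `t = j(qz)`, `Φ = Φ_q(X, j)`, `G₁ = X - j^q`, `G₂ = X^q - j` (Kronecker).
-/
import Mathlib

set_option autoImplicit false

noncomputable section

namespace Fermat.Agent.S34.TwoExt

open Polynomial IsLocalRing

variable {F : Type*} [Field F] {F' : Type*} [Field F'] [Algebra F F']

/-! ### Valuation subrings lying over `O` -/

section Over

variable {O : ValuationSubring F} {V : ValuationSubring F'}

theorem alg_mem_iff (hV : V.comap (algebraMap F F') = O) (x : F) :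
    algebraMap F F' x ∈ V ↔ x ∈ O := by
  rw [← hV, ValuationSubring.mem_comap]

theorem val_alg_le_one_iff (hV : V.comap (algebraMap F F') = O) (x : F) :
    V.valuation (algebraMap F F' x) ≤ 1 ↔ O.valuation x ≤ 1 := by
  rw [ValuationSubring.valuation_le_one_iff, ValuationSubring.valuation_le_one_iff,
    alg_mem_iff hV]

theorem val_alg_lt_one_iff (hV : V.comap (algebraMap F F') = O) (x : F) :
    V.valuation (algebraMap F F' x) < 1 ↔ O.valuation x < 1 := by
  by_cases hx : x = 0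
  · subst hx
    simp
  have hx' : algebraMap F F' x ≠ 0 := (_root_.map_ne_zero _).mpr hx
  have h1 : V.valuation (algebraMap F F' x) < 1 ↔ ¬ V.valuation (algebraMap F F' x⁻¹) ≤ 1 := by
    rw [map_inv₀, map_inv₀, not_le, one_lt_inv₀ (by
      exact lt_of_le_of_ne zero_le ((Valuation.ne_zero_iff _).mpr hx').symm)]
  have h2 : O.valuation x < 1 ↔ ¬ O.valuation x⁻¹ ≤ 1 := by
    rw [map_inv₀, not_le, one_lt_inv₀ (by
      exact lt_of_le_of_ne zero_le ((Valuation.ne_zero_iff _).mpr hx).symm)]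
  rw [h1, h2, val_alg_le_one_iff hV]

theorem val_alg_eq_one_iff (hV : V.comap (algebraMap F F') = O) (x : F) :
    V.valuation (algebraMap F F' x) = 1 ↔ O.valuation x = 1 := by
  have h1 := val_alg_le_one_iff hV x
  have h2 := val_alg_lt_one_iff hV x
  constructor
  · intro h
    exact le_antisymm (h1.mp h.le) (not_lt.mp fun h' => absurd (h2.mpr h') (by rw [h]; exact lt_irrefl _))
  · intro h
    exact le_antisymm (h1.mpr h.le) (not_lt.mp fun h' => absurd (h2.mp h') (by rw [h]; exact lt_irrefl _))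

end Over

/-! ### The setting -/

/-- The coefficient embedding `O → F'`. -/
def coeffHom (O : ValuationSubring F) (F' : Type*) [Field F'] [Algebra F F'] : ↥O →+* F' :=
  (algebraMap F F').comp O.subtype

@[simp] theorem coeffHom_apply (O : ValuationSubring F) (c : ↥O) :
    coeffHom O F' c = algebraMap F F' (c : F) := rfl

/-- reduction of polynomials mod `𝔪_O` -/
def red (O : ValuationSubring F) : (↥O)[X] →+* (ResidueField ↥O)[X] := mapRingHom (residue ↥O)

theorem red_apply (O : ValuationSubring F) (p : (↥O)[X]) : red O p = p.map (residue ↥O) := rfl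

theorem red_surjective (O : ValuationSubring F) : Function.Surjective (red O) :=
  map_surjective _ residue_surjective

theorem red_eq_zero_iff (O : ValuationSubring F) (p : (↥O)[X]) :
    red O p = 0 ↔ ∀ i, p.coeff i ∈ maximalIdeal ↥O := by
  rw [red_apply, Polynomial.ext_iff]
  refine forall_congr' fun i => ?_
  rw [coeff_map, coeff_zero, residue_eq_zero_iff]

@[simp] theorem red_C (O : ValuationSubring F) (c : ↥O) : red O (C c) = C (residue ↥O c) := by
  rw [red_apply, map_C]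

/-- The data of the Dedekind-Kummer setting with two coprime irreducible factors. -/
structure Setup (O : ValuationSubring F) (F' : Type*) [Field F'] [Algebra F F'] where
  /-- the primitive element -/
  t : F'
  /-- its (integral, monic) minimal polynomial -/
  Φ : (↥O)[X]
  /-- a lift of the first factor of `Φ mod 𝔪` -/
  G₁ : (↥O)[X]
  /-- a lift of the second factor of `Φ mod 𝔪` -/
  G₂ : (↥O)[X]
  monic : Φ.Monic
  root : Φ.eval₂ (coeffHom O F') t = 0
  span : ∀ x : F', ∃ P : F[X], P.natDegree < Φ.natDegree ∧ aeval t P = x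
  dvd_of_root : ∀ p : (↥O)[X], p.eval₂ (coeffHom O F') t = 0 → Φ ∣ p
  factor : red O Φ = red O G₁ * red O G₂
  irr₁ : Irreducible (red O G₁)
  irr₂ : Irreducible (red O G₂)
  coprime : IsCoprime (red O G₁) (red O G₂)

namespace Setup

variable {O : ValuationSubring F} (S : Setup O F')

/-- evaluation at `t` : `O[X] → F'` -/
def ev : (↥O)[X] →+* F' := eval₂RingHom (coeffHom O F') S.t

theorem ev_apply (p : (↥O)[X]) : S.ev p = p.eval₂ (coeffHom O F') S.t := rfl

@[simp] theorem ev_C (c : ↥O) : S.ev (C c) = algebraMap F F' (c : F) := by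
  rw [ev_apply, eval₂_C, coeffHom_apply]

@[simp] theorem ev_X : S.ev X = S.t := by
  rw [ev_apply, eval₂_X]

theorem ev_Φ : S.ev S.Φ = 0 := S.root

theorem ev_eq_aeval_map (p : (↥O)[X]) :
    S.ev p = aeval S.t (p.map (algebraMap ↥O F)) := by
  rw [ev_apply, aeval_def, eval₂_map]
  rfl

theorem red_Φ : red O S.Φ = red O S.G₁ * red O S.G₂ := S.factor

theorem natDegree_red_Φ : (red O S.Φ).natDegree = S.Φ.natDegree :=
  S.monic.natDegree_map _

/-! ### A valuation subring over `O` contains `O[t]`; the criterion `p(t) ∈ 𝔪_V ↔ g ∣ p mod 𝔪` -/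

section Crit

variable {V : ValuationSubring F'}

/-- the inclusion `O → V` -/
def incl (hV : V.comap (algebraMap F F') = O) : ↥O →+* ↥V :=
  (coeffHom O F').codRestrict V.toSubring fun c => (alg_mem_iff hV _).mpr c.2

theorem coe_incl (hV : V.comap (algebraMap F F') = O) (c : ↥O) :
    ((incl hV c : ↥V) : F') = algebraMap F F' (c : F) := rfl

include S in
theorem t_mem (hV : V.comap (algebraMap F F') = O) : S.t ∈ V := by
  have hint : IsIntegral ↥V S.t := by
    refine ⟨S.Φ.map (incl hV), S.monic.map _, ?_⟩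
    rw [eval₂_map]
    exact S.root
  obtain ⟨y, hy⟩ := IsIntegrallyClosed.isIntegral_iff.mp hint
  rw [← hy]
  exact y.2

/-- evaluation at `t`, with values in `V` -/
def evV (hV : V.comap (algebraMap F F') = O) : (↥O)[X] →+* ↥V :=
  eval₂RingHom (incl hV) ⟨S.t, S.t_mem hV⟩

theorem coe_evV (hV : V.comap (algebraMap F F') = O) (p : (↥O)[X]) :
    ((S.evV hV p : ↥V) : F') = S.ev p := by
  have h : V.subtype.comp (S.evV hV) = S.ev := by
    refine Polynomial.ringHom_ext (fun c => ?_) ?_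
    · rw [RingHom.comp_apply, evV, coe_eval₂RingHom, eval₂_C, ev_C]
      rfl
    · rw [RingHom.comp_apply, evV, coe_eval₂RingHom, eval₂_X, ev_X]
      rfl
  exact congrArg (fun f => f p) h

theorem ev_mem (hV : V.comap (algebraMap F F') = O) (p : (↥O)[X]) : S.ev p ∈ V := by
  rw [← S.coe_evV hV]
  exact (S.evV hV p).2

theorem val_ev_le_one (hV : V.comap (algebraMap F F') = O) (p : (↥O)[X]) :
    V.valuation (S.ev p) ≤ 1 :=
  (V.valuation_le_one_iff _).mpr (S.ev_mem hV p)

/-- the ideal `{p : p(t) ∈ 𝔪_V}` of `O[X]` -/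
def kerV (hV : V.comap (algebraMap F F') = O) : Ideal (↥O)[X] :=
  RingHom.ker ((residue ↥V).comp (S.evV hV))

theorem mem_kerV_iff (hV : V.comap (algebraMap F F') = O) (p : (↥O)[X]) :
    p ∈ S.kerV hV ↔ V.valuation (S.ev p) < 1 := by
  rw [kerV, RingHom.mem_ker, RingHom.comp_apply, residue_eq_zero_iff,
    ValuationSubring.valuation_lt_one_iff, S.coe_evV hV]

theorem kerV_ne_top (hV : V.comap (algebraMap F F') = O) : S.kerV hV ≠ ⊤ :=
  RingHom.ker_ne_top _

theorem ker_red_le_kerV (hV : V.comap (algebraMap F F') = O) :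
    RingHom.ker (red O) ≤ S.kerV hV := by
  intro p hp
  rw [RingHom.mem_ker, red_eq_zero_iff] at hp
  rw [mem_kerV_iff, ev_apply, eval₂_eq_sum_range]
  refine Valuation.map_sum_lt _ one_ne_zero fun i _ => ?_
  rw [map_mul, map_pow, coeffHom_apply]
  have h1 : V.valuation (algebraMap F F' (p.coeff i : F)) < 1 := by
    rw [val_alg_lt_one_iff hV, ← ValuationSubring.valuation_lt_one_iff]
    exact hp i
  have h2 : V.valuation S.t ^ i ≤ 1 :=
    pow_le_one' ((V.valuation_le_one_iff _).mpr (S.t_mem hV)) i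
  exact lt_of_le_of_lt (mul_le_of_le_one_right' h2) h1

/-- **The criterion.** If `G(t) ∈ 𝔪_V` with `G mod 𝔪` irreducible, then `p(t) ∈ 𝔪_V` iff
`G mod 𝔪` divides `p mod 𝔪`. -/
theorem val_lt_one_iff_dvd (hV : V.comap (algebraMap F F') = O) {G : (↥O)[X]}
    (hirr : Irreducible (red O G)) (hG : V.valuation (S.ev G) < 1) (p : (↥O)[X]) :
    V.valuation (S.ev p) < 1 ↔ red O G ∣ red O p := by
  have hsub : ∀ {a b : (↥O)[X]}, a ∈ S.kerV hV → red O a = red O b → b ∈ S.kerV hV := by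
    intro a b ha hab
    have h1 : b - a ∈ S.kerV hV := S.ker_red_le_kerV hV (by
      rw [RingHom.mem_ker, map_sub, hab, sub_self])
    have := add_mem h1 ha
    rwa [sub_add_cancel] at this
  have hJtop : (S.kerV hV).map (red O) ≠ ⊤ := by
    intro h
    have h1 : (1 : (ResidueField ↥O)[X]) ∈ (S.kerV hV).map (red O) := by
      rw [h]; exact Submodule.mem_top
    obtain ⟨a, ha, ha1⟩ := (Ideal.mem_map_iff_of_surjective _ (red_surjective O)).mp h1
    have : (1 : (↥O)[X]) ∈ S.kerV hV := hsub ha (by rw [ha1, map_one])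
    exact S.kerV_ne_top hV ((Ideal.eq_top_iff_one _).mpr this)
  have hle : Ideal.span {red O G} ≤ (S.kerV hV).map (red O) := by
    rw [Ideal.span_singleton_le_iff_mem]
    exact Ideal.mem_map_of_mem _ ((S.mem_kerV_iff hV G).mpr hG)
  have hJ : Ideal.span {red O G} = (S.kerV hV).map (red O) :=
    (PrincipalIdealRing.isMaximal_of_irreducible hirr).eq_of_le hJtop hle
  rw [← mem_kerV_iff, ← Ideal.mem_span_singleton, hJ]
  constructor
  · exact fun h => Ideal.mem_map_of_mem _ h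
  · intro h
    obtain ⟨a, ha, hap⟩ := (Ideal.mem_map_iff_of_surjective _ (red_surjective O)).mp h
    exact hsub ha hap

end Crit

/-! ### The two types; `V₁ ∩ V₂ = O[t]` -/

/-- `V` lies over `O` and `G(t) ∈ 𝔪_V`. -/
structure IsExt (G : (↥O)[X]) (V : ValuationSubring F') : Prop where
  comap : V.comap (algebraMap F F') = O
  lt : V.valuation (S.ev G) < 1

section Inter

variable {V₁ V₂ : ValuationSubring F'}

theorem red_eq_zero_of_lt (h₁ : S.IsExt S.G₁ V₁) (h₂ : S.IsExt S.G₂ V₂) (p : (↥O)[X])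
    (hdeg : p.natDegree < S.Φ.natDegree) (hp₁ : V₁.valuation (S.ev p) < 1)
    (hp₂ : V₂.valuation (S.ev p) < 1) : red O p = 0 := by
  by_contra hne
  have d₁ := (S.val_lt_one_iff_dvd h₁.comap S.irr₁ h₁.lt p).mp hp₁
  have d₂ := (S.val_lt_one_iff_dvd h₂.comap S.irr₂ h₂.lt p).mp hp₂
  have d : red O S.Φ ∣ red O p := by
    rw [S.red_Φ]
    exact S.coprime.mul_dvd d₁ d₂
  have h1 := natDegree_le_of_dvd d hne
  rw [S.natDegree_red_Φ] at h1
  have h2 : (red O p).natDegree ≤ p.natDegree := natDegree_map_le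
  omega

/-- If `P(t) ∈ V₁ ∩ V₂` with `deg P < n`, then `P` has coefficients in `O`. -/
theorem coeff_mem_of_mem (h₁ : S.IsExt S.G₁ V₁) (h₂ : S.IsExt S.G₂ V₂) (P : F[X])
    (hdeg : P.natDegree < S.Φ.natDegree) (hP₁ : aeval S.t P ∈ V₁) (hP₂ : aeval S.t P ∈ V₂)
    (i : ℕ) : P.coeff i ∈ O := by
  by_contra hi
  have hi0 : P.coeff i ≠ 0 := fun h => hi (h ▸ O.zero_mem)
  have hisupp : i ∈ P.support := mem_support_iff.mpr hi0
  obtain ⟨i₀, hi₀, hmax⟩ :=
    Finset.exists_max_image P.support (fun k => O.valuation (P.coeff k)) ⟨i, hisupp⟩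
  set c := P.coeff i₀ with hc
  have hcO : ¬ O.valuation c ≤ 1 := by
    intro h
    exact hi ((O.valuation_le_one_iff _).mp ((hmax i hisupp).trans h))
  have hc0 : c ≠ 0 := mem_support_iff.mp hi₀
  have hcv0 : O.valuation c ≠ 0 := (Valuation.ne_zero_iff _).mpr hc0
  -- the rescaled polynomial has coefficients in `O`
  have hlift : C c⁻¹ * P ∈ lifts (algebraMap ↥O F) := by
    rw [lifts_iff_coeff_lifts]
    intro k
    rw [coeff_C_mul]
    have hk : O.valuation (c⁻¹ * P.coeff k) ≤ 1 := by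
      rw [map_mul, map_inv₀, inv_mul_le_iff₀ (lt_of_le_of_ne zero_le hcv0.symm), mul_one]
      by_cases hk : k ∈ P.support
      · exact hmax k hk
      · rw [notMem_support_iff.mp hk, map_zero]
        exact zero_le
    exact ⟨⟨_, (O.valuation_le_one_iff _).mp hk⟩, rfl⟩
  obtain ⟨p, hp, hpdeg⟩ := exists_degree_eq_of_mem_lifts hlift
  have hpnat : p.natDegree < S.Φ.natDegree := by
    have h1 : p.natDegree = (C c⁻¹ * P).natDegree := natDegree_eq_of_degree_eq hpdeg
    have h2 : (C c⁻¹ * P).natDegree ≤ P.natDegree := natDegree_C_mul_le _ _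
    omega
  have hev : S.ev p = algebraMap F F' c⁻¹ * aeval S.t P := by
    rw [ev_eq_aeval_map, hp, map_mul, aeval_C]
  have hlt : ∀ {V : ValuationSubring F'}, V.comap (algebraMap F F') = O → aeval S.t P ∈ V →
      V.valuation (S.ev p) < 1 := by
    intro V hV hPV
    rw [hev, map_mul]
    have h1 : V.valuation (algebraMap F F' c⁻¹) < 1 := by
      rw [val_alg_lt_one_iff hV, map_inv₀]
      exact inv_lt_one_of_one_lt₀ (not_le.mp hcO)
    exact lt_of_le_of_lt (mul_le_of_le_one_right' ((V.valuation_le_one_iff _).mpr hPV)) h1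
  have hred := S.red_eq_zero_of_lt h₁ h₂ p hpnat (hlt h₁.comap hP₁) (hlt h₂.comap hP₂)
  have hcoeff := (red_eq_zero_iff O p).mp hred i₀
  have h1 : ((p.coeff i₀ : ↥O) : F) = 1 := by
    have := congrArg (fun f => f.coeff i₀) hp
    simp only [coeff_map, coeff_C_mul] at this
    rw [show algebraMap ↥O F (p.coeff i₀) = ((p.coeff i₀ : ↥O) : F) from rfl] at this
    rw [this, ← hc, inv_mul_cancel₀ hc0]
  have h2 : p.coeff i₀ = 1 := Subtype.ext h1
  rw [h2] at hcoeff
  exact (Ideal.ne_top_iff_one _).mp (maximalIdeal.isMaximal ↥O).ne_top hcoeff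

/-- **`V₁ ∩ V₂ = O[t]`.** -/
theorem exists_eq_ev_of_mem (h₁ : S.IsExt S.G₁ V₁) (h₂ : S.IsExt S.G₂ V₂) {x : F'}
    (hx₁ : x ∈ V₁) (hx₂ : x ∈ V₂) :
    ∃ p : (↥O)[X], p.natDegree < S.Φ.natDegree ∧ S.ev p = x := by
  obtain ⟨P, hPdeg, rfl⟩ := S.span x
  have hlift : P ∈ lifts (algebraMap ↥O F) := by
    rw [lifts_iff_coeff_lifts]
    intro k
    exact ⟨⟨_, S.coeff_mem_of_mem h₁ h₂ P hPdeg hx₁ hx₂ k⟩, rfl⟩
  obtain ⟨p, hp, hpdeg⟩ := exists_degree_eq_of_mem_lifts hlift
  refine ⟨p, ?_, ?_⟩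
  · rw [natDegree_eq_of_degree_eq hpdeg]
    exact hPdeg
  · rw [ev_eq_aeval_map, hp]

end Inter

/-! ### `V_i` as a ring of fractions of `O[t]` (Matsumura's trick) -/

section Frac

variable {V W : ValuationSubring F'}

theorem val_ev_eq_one_of_not_dvd {G : (↥O)[X]} (hV : S.IsExt G V) (hirr : Irreducible (red O G))
    {s : (↥O)[X]} (hs : ¬ red O G ∣ red O s) : V.valuation (S.ev s) = 1 :=
  le_antisymm (S.val_ev_le_one hV.comap s)
    (not_lt.mp fun h => hs ((S.val_lt_one_iff_dvd hV.comap hirr hV.lt s).mp h))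

theorem not_dvd_of_val_ev_eq_one {G : (↥O)[X]} (hV : S.IsExt G V) (hirr : Irreducible (red O G))
    {s : (↥O)[X]} (hs : V.valuation (S.ev s) = 1) : ¬ red O G ∣ red O s := fun h => by
  have := (S.val_lt_one_iff_dvd hV.comap hirr hV.lt s).mpr h
  rw [hs] at this
  exact lt_irrefl _ this

theorem mem_of_frac {G : (↥O)[X]} (hV : S.IsExt G V) (hirr : Irreducible (red O G)) {x : F'}
    {b s : (↥O)[X]} (hs : ¬ red O G ∣ red O s) (hx : x * S.ev s = S.ev b) : x ∈ V := by
  rw [← ValuationSubring.valuation_le_one_iff]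
  have h1 := S.val_ev_le_one hV.comap b
  rwa [← hx, map_mul, S.val_ev_eq_one_of_not_dvd hV hirr hs, mul_one] at h1

/-- Matsumura's trick: an element of `V` is a fraction `b(t)/s(t)` with `s(t)` a unit of `V`,
as soon as `V ∩ W ⊆ O[t]` for one more valuation subring `W`. -/
theorem exists_frac_of_mem {G : (↥O)[X]} (hV : S.IsExt G V) (hirr : Irreducible (red O G))
    (hVW : ∀ y : F', y ∈ V → y ∈ W → ∃ p : (↥O)[X], S.ev p = y) {x : F'} (hx : x ∈ V) :
    ∃ b s : (↥O)[X], ¬ red O G ∣ red O s ∧ x * S.ev s = S.ev b := by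
  have h1 : ¬ red O G ∣ red O (1 : (↥O)[X]) := by
    rw [map_one]
    exact fun h => hirr.not_isUnit (isUnit_of_dvd_one h)
  by_cases hxW : x ∈ W
  · obtain ⟨p, hp⟩ := hVW x hx hxW
    exact ⟨p, 1, h1, by rw [map_one, mul_one, hp]⟩
  have hxW' : 1 < W.valuation x := not_le.mp fun h => hxW ((W.valuation_le_one_iff _).mp h)
  have hxV : V.valuation x ≤ 1 := (V.valuation_le_one_iff _).mpr hx
  -- `d = x - lam` is a unit of `V` with `lam ∈ {0, 1}`
  obtain ⟨lam, hlam, hd⟩ : ∃ lam : (↥O)[X], (S.ev lam = 0 ∨ S.ev lam = 1) ∧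
      V.valuation (x - S.ev lam) = 1 := by
    by_cases hlt : V.valuation x < 1
    · refine ⟨1, Or.inr (map_one _), ?_⟩
      rw [map_one, Valuation.map_sub_eq_of_lt_right _ (by rwa [map_one]), map_one]
    · exact ⟨0, Or.inl (map_zero _), by rw [map_zero, sub_zero]; exact le_antisymm hxV (not_lt.mp hlt)⟩
  have hlamW : W.valuation (S.ev lam) ≤ 1 := by
    rcases hlam with h | h <;> rw [h] <;> simp
  have hdW : W.valuation (x - S.ev lam) = W.valuation x :=
    Valuation.map_sub_eq_of_lt_left _ (lt_of_le_of_lt hlamW hxW')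
  have hd0 : x - S.ev lam ≠ 0 := by
    intro h
    rw [h, map_zero] at hd
    exact zero_ne_one hd
  have hyV : V.valuation (x - S.ev lam)⁻¹ = 1 := by rw [map_inv₀, hd, inv_one]
  have hyW : W.valuation (x - S.ev lam)⁻¹ < 1 := by
    rw [map_inv₀, hdW]
    exact inv_lt_one_of_one_lt₀ hxW'
  obtain ⟨s, hs⟩ := hVW _ ((V.valuation_le_one_iff _).mp hyV.le)
    ((W.valuation_le_one_iff _).mp hyW.le)
  refine ⟨1 + lam * s, s, S.not_dvd_of_val_ev_eq_one hV hirr (by rw [hs, hyV]), ?_⟩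
  rw [map_add, map_one, map_mul, hs]
  field_simp
  ring

end Frac

section Unique

variable {V₁ V₁' V₂ V₂' : ValuationSubring F'}

/-- **`V₁ = { b(t)/s(t) : g₁ ∤ s mod 𝔪 }`.** -/
theorem mem_iff₁ (h₁ : S.IsExt S.G₁ V₁) (h₂ : S.IsExt S.G₂ V₂) (x : F') :
    x ∈ V₁ ↔ ∃ b s : (↥O)[X], ¬ red O S.G₁ ∣ red O s ∧ x * S.ev s = S.ev b := by
  constructor
  · intro hx
    refine S.exists_frac_of_mem h₁ S.irr₁ (W := V₂) (fun y hy₁ hy₂ => ?_) hx
    obtain ⟨p, -, hp⟩ := S.exists_eq_ev_of_mem h₁ h₂ hy₁ hy₂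
    exact ⟨p, hp⟩
  · rintro ⟨b, s, hs, hx⟩
    exact S.mem_of_frac h₁ S.irr₁ hs hx

/-- **`V₂ = { b(t)/s(t) : g₂ ∤ s mod 𝔪 }`.** -/
theorem mem_iff₂ (h₁ : S.IsExt S.G₁ V₁) (h₂ : S.IsExt S.G₂ V₂) (x : F') :
    x ∈ V₂ ↔ ∃ b s : (↥O)[X], ¬ red O S.G₂ ∣ red O s ∧ x * S.ev s = S.ev b := by
  constructor
  · intro hx
    refine S.exists_frac_of_mem h₂ S.irr₂ (W := V₁) (fun y hy₂ hy₁ => ?_) hx
    obtain ⟨p, -, hp⟩ := S.exists_eq_ev_of_mem h₁ h₂ hy₁ hy₂
    exact ⟨p, hp⟩
  · rintro ⟨b, s, hs, hx⟩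
    exact S.mem_of_frac h₂ S.irr₂ hs hx

theorem eq_of_isExt₁ (h₁ : S.IsExt S.G₁ V₁) (h₁' : S.IsExt S.G₁ V₁') (h₂ : S.IsExt S.G₂ V₂) :
    V₁ = V₁' :=
  ValuationSubring.ext _ _ fun x => by rw [S.mem_iff₁ h₁ h₂, S.mem_iff₁ h₁' h₂]

theorem eq_of_isExt₂ (h₁ : S.IsExt S.G₁ V₁) (h₂ : S.IsExt S.G₂ V₂) (h₂' : S.IsExt S.G₂ V₂') :
    V₂ = V₂' :=
  ValuationSubring.ext _ _ fun x => by rw [S.mem_iff₂ h₁ h₂, S.mem_iff₂ h₁ h₂']

/-- Every valuation subring over `O` is of type 1 or of type 2. -/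
theorem isExt_or_isExt {V : ValuationSubring F'} (hV : V.comap (algebraMap F F') = O) :
    S.IsExt S.G₁ V ∨ S.IsExt S.G₂ V := by
  have hker : S.G₁ * S.G₂ - S.Φ ∈ S.kerV hV := S.ker_red_le_kerV hV (by
    rw [RingHom.mem_ker, map_sub, map_mul, S.red_Φ, sub_self])
  have hlt : V.valuation (S.ev S.G₁) * V.valuation (S.ev S.G₂) < 1 := by
    have := (S.mem_kerV_iff hV _).mp hker
    rwa [map_sub, S.ev_Φ, sub_zero, map_mul, map_mul] at this
  by_contra hcon
  rw [not_or] at hcon
  have e₁ : 1 ≤ V.valuation (S.ev S.G₁) := not_lt.mp fun h => hcon.1 ⟨hV, h⟩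
  have e₂ : 1 ≤ V.valuation (S.ev S.G₂) := not_lt.mp fun h => hcon.2 ⟨hV, h⟩
  exact absurd hlt (not_lt.mpr (one_le_mul_of_one_le_of_one_le e₁ e₂))

/-- **`V₁` and `V₂` are the only valuation subrings of `F'` over `O`.** -/
theorem eq_or_eq (h₁ : S.IsExt S.G₁ V₁) (h₂ : S.IsExt S.G₂ V₂) {V : ValuationSubring F'}
    (hV : V.comap (algebraMap F F') = O) : V = V₁ ∨ V = V₂ := by
  rcases S.isExt_or_isExt hV with h | h
  · exact Or.inl (S.eq_of_isExt₁ h h₁ h₂)
  · exact Or.inr (S.eq_of_isExt₂ h₁ h h₂)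

end Unique

/-! ### Residue fields -/

section Residue

variable {V : ValuationSubring F'}

/-- The residue field of `V` is generated by (the image of) `O[t]`. -/
theorem exists_ev_sub_lt_one_of_frac {G : (↥O)[X]} (hV : S.IsExt G V)
    (hirr : Irreducible (red O G)) {x : F'} (hx : x ∈ V) {b s : (↥O)[X]}
    (hs : ¬ red O G ∣ red O s) (hxs : x * S.ev s = S.ev b) :
    ∃ r : (↥O)[X], V.valuation (x - S.ev r) < 1 := by
  have hcop : IsCoprime (red O G) (red O s) := (Irreducible.coprime_iff_not_dvd hirr).mpr hs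
  obtain ⟨a, u', hau⟩ := hcop
  obtain ⟨u, rfl⟩ := red_surjective O u'
  refine ⟨b * u, ?_⟩
  have h1 : x - S.ev (b * u) = x * S.ev (1 - s * u) := by
    rw [map_mul, ← hxs, map_sub, map_one, map_mul]
    ring
  have h2 : V.valuation (S.ev (1 - s * u)) < 1 := by
    rw [S.val_lt_one_iff_dvd hV.comap hirr hV.lt]
    refine ⟨a, ?_⟩
    rw [map_sub, map_one, map_mul, ← hau]
    ring
  rw [h1, map_mul]
  exact lt_of_le_of_lt (mul_le_of_le_one_left' ((V.valuation_le_one_iff _).mpr hx)) h2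

/-- ... and representatives can be taken of degree `< deg G` if `G` is monic. -/
theorem exists_ev_sub_lt_one_of_monic {G : (↥O)[X]} (hV : S.IsExt G V)
    (hirr : Irreducible (red O G)) (hG : G.Monic) {x : F'}
    (hx : ∃ r : (↥O)[X], V.valuation (x - S.ev r) < 1) :
    ∃ r : (↥O)[X], r.natDegree < G.natDegree ∧ V.valuation (x - S.ev r) < 1 := by
  obtain ⟨r, hr⟩ := hx
  have hG1 : G ≠ 1 := by
    rintro rfl
    rw [map_one] at hirr
    exact hirr.not_isUnit isUnit_one
  refine ⟨r %ₘ G, natDegree_modByMonic_lt r hG hG1, ?_⟩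
  have h1 : x - S.ev (r %ₘ G) = (x - S.ev r) + S.ev G * S.ev (r /ₘ G) := by
    rw [← map_mul, ← sub_add_sub_cancel x (S.ev r) (S.ev (r %ₘ G)), ← map_sub]
    congr 2
    have := modByMonic_add_div r (q := G)
    rw [sub_eq_iff_eq_add, add_comm]
    exact this.symm
  rw [h1]
  refine Valuation.map_add_lt _ hr ?_
  rw [map_mul]
  exact lt_of_le_of_lt (mul_le_of_le_one_right' (S.val_ev_le_one hV.comap _)) hV.lt

end Residue

section Residue₂

variable {V₁ V₂ : ValuationSubring F'}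

/-- **The residue field of `V₁` is `κ[t̄]`.** -/
theorem exists_ev_sub_lt_one₁ (h₁ : S.IsExt S.G₁ V₁) (h₂ : S.IsExt S.G₂ V₂) {x : F'}
    (hx : x ∈ V₁) : ∃ r : (↥O)[X], V₁.valuation (x - S.ev r) < 1 := by
  obtain ⟨b, s, hs, hxs⟩ := (S.mem_iff₁ h₁ h₂ x).mp hx
  exact S.exists_ev_sub_lt_one_of_frac h₁ S.irr₁ hx hs hxs

/-- **The residue field of `V₂` is `κ[t̄]`.** -/
theorem exists_ev_sub_lt_one₂ (h₁ : S.IsExt S.G₁ V₁) (h₂ : S.IsExt S.G₂ V₂) {x : F'}
    (hx : x ∈ V₂) : ∃ r : (↥O)[X], V₂.valuation (x - S.ev r) < 1 := by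
  obtain ⟨b, s, hs, hxs⟩ := (S.mem_iff₂ h₁ h₂ x).mp hx
  exact S.exists_ev_sub_lt_one_of_frac h₂ S.irr₂ hx hs hxs

/-- **`f(V₁ / O) = 1` if `G₁` is monic of degree one**: every element of `V₁` is congruent to a
constant of `O` modulo `𝔪_{V₁}`. -/
theorem exists_const_sub_lt_one₁ (h₁ : S.IsExt S.G₁ V₁) (h₂ : S.IsExt S.G₂ V₂)
    (hG : S.G₁.Monic) (hdeg : S.G₁.natDegree = 1) {x : F'} (hx : x ∈ V₁) :
    ∃ c : ↥O, V₁.valuation (x - algebraMap F F' (c : F)) < 1 := by
  obtain ⟨r, hrdeg, hr⟩ := S.exists_ev_sub_lt_one_of_monic h₁ S.irr₁ hG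
    (S.exists_ev_sub_lt_one₁ h₁ h₂ hx)
  have hr0 : r.natDegree = 0 := by omega
  rw [eq_C_of_natDegree_eq_zero hr0, ev_C] at hr
  exact ⟨_, hr⟩

end Residue₂

/-! ### Existence (Chevalley) -/

section Exists

theorem exists_isExt {G : (↥O)[X]} (hirr : Irreducible (red O G))
    (hdvd : red O G ∣ red O S.Φ) : ∃ V : ValuationSubring F', S.IsExt G V := by
  set K0 : Ideal (↥O)[X] := Ideal.comap (red O) (Ideal.span {red O G}) with hK0
  have hK0mem : ∀ p : (↥O)[X], p ∈ K0 ↔ red O G ∣ red O p := fun p => by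
    rw [hK0, Ideal.mem_comap, Ideal.mem_span_singleton]
  set I : Ideal S.ev.range := K0.map S.ev.rangeRestrict with hI
  have hItop : I ≠ ⊤ := by
    intro h
    have h1 : (1 : S.ev.range) ∈ I := by rw [h]; exact Submodule.mem_top
    obtain ⟨p, hp, hp1⟩ :=
      (Ideal.mem_map_iff_of_surjective _ S.ev.rangeRestrict_surjective).mp h1
    have hev : S.ev (p - 1) = 0 := by
      have := congrArg (Subtype.val : S.ev.range → F') hp1
      rw [map_sub, map_one, sub_eq_zero]
      exact this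
    have hΦ : S.Φ ∣ p - 1 := S.dvd_of_root _ hev
    have hd1 : red O G ∣ red O p - 1 := by
      have := map_dvd (red O) hΦ
      rw [map_sub, map_one] at this
      exact hdvd.trans this
    have hd2 : red O G ∣ red O p := (hK0mem p).mp hp
    have hd3 : red O G ∣ 1 := by
      have := dvd_sub hd2 hd1
      rwa [sub_sub_cancel] at this
    exact hirr.not_isUnit (isUnit_of_dvd_one hd3)
  obtain ⟨B, hAB, himg⟩ := Ideal.image_subset_nonunits_valuationSubring I hItop
  have hnon : ∀ p : (↥O)[X], p ∈ K0 → B.valuation (S.ev p) < 1 := by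
    intro p hp
    rw [← ValuationSubring.mem_nonunits_iff]
    exact himg ⟨S.ev.rangeRestrict p, Ideal.mem_map_of_mem _ hp, rfl⟩
  refine ⟨B, ?_, hnon G ((hK0mem G).mpr dvd_rfl)⟩
  refine ValuationSubring.ext _ _ fun x => ?_
  rw [ValuationSubring.mem_comap]
  constructor
  · intro hx
    by_contra hxO
    have hx0 : x ≠ 0 := fun h => hxO (h ▸ O.zero_mem)
    have hv : 1 < O.valuation x := not_le.mp fun h => hxO ((O.valuation_le_one_iff _).mp h)
    have hinv : O.valuation x⁻¹ < 1 := by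
      rw [map_inv₀]
      exact inv_lt_one_of_one_lt₀ hv
    set c : ↥O := ⟨x⁻¹, (O.valuation_le_one_iff _).mp hinv.le⟩ with hc
    have hcm : c ∈ maximalIdeal ↥O := (O.valuation_lt_one_iff c).mpr hinv
    have hCc : C c ∈ K0 := by
      rw [hK0mem, red_C, (residue_eq_zero_iff c).mpr hcm, map_zero]
      exact dvd_zero _
    have h1 := hnon _ hCc
    rw [ev_C, hc, map_inv₀, map_inv₀] at h1
    have h2 : B.valuation (algebraMap F F' x) ≤ 1 := (B.valuation_le_one_iff _).mpr hx
    have h3 : B.valuation (algebraMap F F' x) ≠ 0 :=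
      (Valuation.ne_zero_iff _).mpr ((_root_.map_ne_zero _).mpr hx0)
    have h4 : 1 ≤ (B.valuation (algebraMap F F' x))⁻¹ :=
      (one_le_inv₀ (lt_of_le_of_ne zero_le h3.symm)).mpr h2
    exact absurd h1 (not_lt.mpr h4)
  · intro hx
    have : algebraMap F F' x = S.ev (C ⟨x, hx⟩) := by rw [ev_C]
    rw [this]
    exact hAB ⟨_, rfl⟩

/-- **A valuation subring of type 1 exists.** -/
theorem exists_isExt₁ : ∃ V : ValuationSubring F', S.IsExt S.G₁ V :=
  S.exists_isExt S.irr₁ (by rw [S.red_Φ]; exact dvd_mul_right _ _)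

/-- **A valuation subring of type 2 exists.** -/
theorem exists_isExt₂ : ∃ V : ValuationSubring F', S.IsExt S.G₂ V :=
  S.exists_isExt S.irr₂ (by rw [S.red_Φ]; exact dvd_mul_left _ _)

/-- **The valuation subring of type 1 is unique.** -/
theorem isExt₁_unique {V V' : ValuationSubring F'} (h : S.IsExt S.G₁ V)
    (h' : S.IsExt S.G₁ V') : V = V' := by
  obtain ⟨V₂, h₂⟩ := S.exists_isExt₂
  exact S.eq_of_isExt₁ h h' h₂

/-- **The valuation subring of type 2 is unique.** -/
theorem isExt₂_unique {V V' : ValuationSubring F'} (h : S.IsExt S.G₂ V)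
    (h' : S.IsExt S.G₂ V') : V = V' := by
  obtain ⟨V₁, h₁⟩ := S.exists_isExt₁
  exact S.eq_of_isExt₂ h₁ h h'

/-- The two types are different. -/
theorem not_isExt_both {V : ValuationSubring F'} (h₁ : S.IsExt S.G₁ V) (h₂ : S.IsExt S.G₂ V) :
    False := by
  obtain ⟨a, b, hab⟩ := S.coprime
  obtain ⟨a', rfl⟩ := red_surjective O a
  obtain ⟨b', rfl⟩ := red_surjective O b
  have h : V.valuation (S.ev (a' * S.G₁ + b' * S.G₂)) < 1 := by
    rw [map_add, map_mul, map_mul]
    refine Valuation.map_add_lt _ ?_ ?_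
    · rw [map_mul]
      exact lt_of_le_of_lt (mul_le_of_le_one_left' (S.val_ev_le_one h₁.comap _)) h₁.lt
    · rw [map_mul]
      exact lt_of_le_of_lt (mul_le_of_le_one_left' (S.val_ev_le_one h₁.comap _)) h₂.lt
  rw [S.val_lt_one_iff_dvd h₁.comap S.irr₁ h₁.lt, map_add, map_mul, map_mul, hab] at h
  exact S.irr₁.not_isUnit (isUnit_of_dvd_one h)

end Exists

end Setup

/-! ### Constructors -/

namespace Setup

variable {O : ValuationSubring F}

/-- The setting from a power basis of `F'/F` whose generator has minimal polynomial `Φ`. -/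
def ofPowerBasis (pb : PowerBasis F F') (Φ G₁ G₂ : (↥O)[X]) (hΦ : Φ.Monic)
    (hmin : minpoly F pb.gen = Φ.map (algebraMap ↥O F))
    (hfac : red O Φ = red O G₁ * red O G₂) (h₁ : Irreducible (red O G₁))
    (h₂ : Irreducible (red O G₂)) (hcop : IsCoprime (red O G₁) (red O G₂)) : Setup O F' where
  t := pb.gen
  Φ := Φ
  G₁ := G₁
  G₂ := G₂
  monic := hΦ
  root := by
    have h : Φ.eval₂ (coeffHom O F') pb.gen = aeval pb.gen (Φ.map (algebraMap ↥O F)) := by
      rw [aeval_def, eval₂_map]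
      rfl
    rw [h, ← hmin, minpoly.aeval]
  span := fun x => by
    obtain ⟨f, hf, hx⟩ := pb.exists_eq_aeval x
    refine ⟨f, ?_, hx.symm⟩
    have h1 : pb.dim = Φ.natDegree := by
      rw [← pb.natDegree_minpoly, hmin, hΦ.natDegree_map]
    rwa [← h1]
  dvd_of_root := fun p hp => by
    have h : aeval pb.gen (p.map (algebraMap ↥O F)) = 0 := by
      rw [aeval_def, eval₂_map]
      exact hp
    have h1 := minpoly.dvd F pb.gen h
    rw [hmin] at h1
    exact (map_dvd_map _ (FaithfulSMul.algebraMap_injective ↥O F) hΦ).mp h1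
  factor := hfac
  irr₁ := h₁
  irr₂ := h₂
  coprime := hcop

@[simp] theorem ofPowerBasis_t (pb : PowerBasis F F') (Φ G₁ G₂ : (↥O)[X]) (hΦ : Φ.Monic)
    (hmin : minpoly F pb.gen = Φ.map (algebraMap ↥O F))
    (hfac : red O Φ = red O G₁ * red O G₂) (h₁ : Irreducible (red O G₁))
    (h₂ : Irreducible (red O G₂)) (hcop : IsCoprime (red O G₁) (red O G₂)) :
    (ofPowerBasis pb Φ G₁ G₂ hΦ hmin hfac h₁ h₂ hcop).t = pb.gen := rfl

/-- A power basis of `F'/F` with generator `t`, from `F⟮t⟯ = ⊤`. -/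
def powerBasisOfAdjoinEqTop {t : F'} (hint : IsIntegral F t)
    (htop : IntermediateField.adjoin F {t} = ⊤) : PowerBasis F F' :=
  (IntermediateField.adjoin.powerBasis hint).map
    ((IntermediateField.equivOfEq htop).trans IntermediateField.topEquiv)

theorem powerBasisOfAdjoinEqTop_gen {t : F'} (hint : IsIntegral F t)
    (htop : IntermediateField.adjoin F {t} = ⊤) :
    (powerBasisOfAdjoinEqTop hint htop).gen = t := by
  rw [powerBasisOfAdjoinEqTop, PowerBasis.map_gen, IntermediateField.adjoin.powerBasis_gen]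
  rfl

end Setup

/-! ### Automorphisms: stability of `V_i` and trivial action on the residue fields -/

namespace Setup

variable {O : ValuationSubring F} (S : Setup O F')

/-- `σ` is a ring automorphism of `F'` inducing `τ` on `F`, where `τ` preserves `O` and acts
trivially on its residue field, and `σ t = t`.  (Example: the coefficientwise action of an element
of the inertia group on `q`-expansions.) -/
structure IsInertial (σ : F' ≃+* F') (τ : F →+* F) : Prop where
  comm : ∀ x : F, σ (algebraMap F F' x) = algebraMap F F' (τ x)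
  mem_iff : ∀ x : F, τ x ∈ O ↔ x ∈ O
  sub_lt : ∀ x : F, x ∈ O → O.valuation (τ x - x) < 1
  fix_t : σ S.t = S.t

section Auto

variable {σ : F' ≃+* F'} {τ : F →+* F} {V : ValuationSubring F'}

theorem comap_comap (hσ : S.IsInertial σ τ) (hV : V.comap (algebraMap F F') = O) :
    (V.comap (σ : F' →+* F')).comap (algebraMap F F') = O := by
  refine ValuationSubring.ext _ _ fun x => ?_
  rw [ValuationSubring.mem_comap, ValuationSubring.mem_comap, RingHom.coe_coe, hσ.comm,
    alg_mem_iff hV, hσ.mem_iff]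

theorem val_comap_lt_one_iff (σ : F' ≃+* F') (V : ValuationSubring F') (y : F') :
    (V.comap (σ : F' →+* F')).valuation y < 1 ↔ V.valuation (σ y) < 1 := by
  rw [← ValuationSubring.mem_nonunits_iff, ← ValuationSubring.mem_nonunits_iff,
    ValuationSubring.mem_nonunits_iff_or, ValuationSubring.mem_nonunits_iff_or,
    ValuationSubring.mem_comap, RingHom.coe_coe, map_inv₀, EmbeddingLike.map_eq_zero_iff]

theorem val_sigma_ev_sub_lt (hσ : S.IsInertial σ τ) (hV : V.comap (algebraMap F F') = O)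
    (p : (↥O)[X]) : V.valuation (σ (S.ev p) - S.ev p) < 1 := by
  rw [ev_apply, eval₂_eq_sum_range, map_sum, ← Finset.sum_sub_distrib]
  refine Valuation.map_sum_lt _ one_ne_zero fun i _ => ?_
  rw [map_mul, map_pow, hσ.fix_t, coeffHom_apply, hσ.comm, ← sub_mul, ← map_sub, map_mul, map_pow]
  have h1 : V.valuation (algebraMap F F' (τ (p.coeff i : F) - (p.coeff i : F))) < 1 := by
    rw [val_alg_lt_one_iff hV]
    exact hσ.sub_lt _ (p.coeff i).2
  have h2 : V.valuation S.t ^ i ≤ 1 :=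
    pow_le_one' ((V.valuation_le_one_iff _).mpr (S.t_mem hV)) i
  exact lt_of_le_of_lt (mul_le_of_le_one_right' h2) h1

theorem isExt_comap (hσ : S.IsInertial σ τ) {G : (↥O)[X]} (h : S.IsExt G V) :
    S.IsExt G (V.comap (σ : F' →+* F')) := by
  refine ⟨S.comap_comap hσ h.comap, ?_⟩
  rw [val_comap_lt_one_iff]
  have := Valuation.map_add_lt _ (S.val_sigma_ev_sub_lt hσ h.comap G) h.lt
  rwa [sub_add_cancel] at this

/-- **`σ` preserves `V₁`.** -/
theorem comap_eq_of_fix₁ (hσ : S.IsInertial σ τ) (h : S.IsExt S.G₁ V) :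
    V.comap (σ : F' →+* F') = V :=
  S.isExt₁_unique (S.isExt_comap hσ h) h

/-- **`σ` preserves `V₂`.** -/
theorem comap_eq_of_fix₂ (hσ : S.IsInertial σ τ) (h : S.IsExt S.G₂ V) :
    V.comap (σ : F' →+* F') = V :=
  S.isExt₂_unique (S.isExt_comap hσ h) h

theorem val_sigma_lt_one_iff (hmem : V.comap (σ : F' →+* F') = V) (y : F') :
    V.valuation (σ y) < 1 ↔ V.valuation y < 1 := by
  have hm : ∀ x : F', σ x ∈ V ↔ x ∈ V := fun x => by
    conv_rhs => rw [← hmem]
    rw [ValuationSubring.mem_comap, RingHom.coe_coe]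
  rw [← ValuationSubring.mem_nonunits_iff, ← ValuationSubring.mem_nonunits_iff,
    ValuationSubring.mem_nonunits_iff_or, ValuationSubring.mem_nonunits_iff_or, ← map_inv₀, hm,
    EmbeddingLike.map_eq_zero_iff]

theorem sigma_mem_iff₁ (hσ : S.IsInertial σ τ) (h : S.IsExt S.G₁ V) (x : F') :
    σ x ∈ V ↔ x ∈ V := by
  conv_rhs => rw [← S.comap_eq_of_fix₁ hσ h]
  rw [ValuationSubring.mem_comap, RingHom.coe_coe]

theorem sigma_mem_iff₂ (hσ : S.IsInertial σ τ) (h : S.IsExt S.G₂ V) (x : F') :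
    σ x ∈ V ↔ x ∈ V := by
  conv_rhs => rw [← S.comap_eq_of_fix₂ hσ h]
  rw [ValuationSubring.mem_comap, RingHom.coe_coe]

theorem sub_lt_one_of_fix_aux (hσ : S.IsInertial σ τ) (hV : V.comap (algebraMap F F') = O)
    (hmem : V.comap (σ : F' →+* F') = V) {x : F'}
    (hx : ∃ r : (↥O)[X], V.valuation (x - S.ev r) < 1) : V.valuation (σ x - x) < 1 := by
  obtain ⟨r, hr⟩ := hx
  have h1 : V.valuation (σ (x - S.ev r)) < 1 := (val_sigma_lt_one_iff hmem _).mpr hr
  have h2 := S.val_sigma_ev_sub_lt hσ hV r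
  have h3 : σ x - x = σ (x - S.ev r) + (σ (S.ev r) - S.ev r) - (x - S.ev r) := by
    rw [map_sub]; ring
  rw [h3]
  exact Valuation.map_sub_lt _ (Valuation.map_add_lt _ h1 h2) hr

/-- **`σ` acts trivially on the residue field of `V₁`.** -/
theorem sub_lt_one_of_fix₁ (hσ : S.IsInertial σ τ) (h : S.IsExt S.G₁ V) {x : F'} (hx : x ∈ V) :
    V.valuation (σ x - x) < 1 := by
  obtain ⟨V₂, h₂⟩ := S.exists_isExt₂
  exact S.sub_lt_one_of_fix_aux hσ h.comap (S.comap_eq_of_fix₁ hσ h)
    (S.exists_ev_sub_lt_one₁ h h₂ hx)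

/-- **`σ` acts trivially on the residue field of `V₂`.** -/
theorem sub_lt_one_of_fix₂ (hσ : S.IsInertial σ τ) (h : S.IsExt S.G₂ V) {x : F'} (hx : x ∈ V) :
    V.valuation (σ x - x) < 1 := by
  obtain ⟨V₁, h₁⟩ := S.exists_isExt₁
  exact S.sub_lt_one_of_fix_aux hσ h.comap (S.comap_eq_of_fix₂ hσ h)
    (S.exists_ev_sub_lt_one₂ h₁ h hx)

end Auto

end Setup

/-! ### `e = 1` over a divisible value group -/

section Divisible

variable {O : ValuationSubring F} {V : ValuationSubring F'}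

theorem val_alg_eq_val_alg (hV : V.comap (algebraMap F F') = O) {a b : F}
    (hab : O.valuation a = O.valuation b) :
    V.valuation (algebraMap F F' a) = V.valuation (algebraMap F F' b) := by
  by_cases hb : b = 0
  · subst hb
    rw [map_zero, Valuation.zero_iff] at hab
    rw [hab]
  have hb' : O.valuation b ≠ 0 := (Valuation.ne_zero_iff _).mpr hb
  have hb'' : V.valuation (algebraMap F F' b) ≠ 0 :=
    (Valuation.ne_zero_iff _).mpr ((_root_.map_ne_zero _).mpr hb)
  have h1 : O.valuation (a / b) = 1 := by rw [map_div₀, hab, div_self hb']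
  have h2 := (val_alg_eq_one_iff hV (a / b)).mpr h1
  rwa [map_div₀, map_div₀, div_eq_one_iff_eq hb''] at h2

/-- A power of the valuation of an algebraic element is the valuation of an element of `F`. -/
theorem exists_pow_eq_val_alg {Γ : Type*} [LinearOrderedCommGroupWithZero Γ] (w : Valuation F' Γ)
    {x : F'} (hx : x ≠ 0) (halg : IsAlgebraic F x) :
    ∃ n : ℕ, 0 < n ∧ ∃ a : F, a ≠ 0 ∧ w x ^ n = w (algebraMap F F' a) := by
  classical
  obtain ⟨P, hP0, hPx⟩ := halg
  have hwx : w x ≠ 0 := (Valuation.ne_zero_iff _).mpr hx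
  set f : ℕ → F' := fun i => algebraMap F F' (P.coeff i) * x ^ i with hf
  have hsum : ∑ i ∈ P.support, f i = 0 := by
    rw [← hPx, aeval_def, eval₂_eq_sum, Polynomial.sum]
  have hne : P.support.Nonempty := by
    rw [Finset.nonempty_iff_ne_empty, Ne, support_eq_empty]
    exact hP0
  obtain ⟨j, hj, hmax⟩ := Finset.exists_max_image P.support (fun i => w (f i)) hne
  have hfj : w (f j) ≠ 0 := by
    rw [hf, map_mul, map_pow]
    exact mul_ne_zero ((Valuation.ne_zero_iff _).mpr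
      ((_root_.map_ne_zero _).mpr (mem_support_iff.mp hj))) (pow_ne_zero _ hwx)
  -- some other term has the same valuation
  obtain ⟨i, hi, hij, hieq⟩ : ∃ i ∈ P.support, i ≠ j ∧ w (f i) = w (f j) := by
    by_contra hcon
    push Not at hcon
    have := Valuation.map_sum_eq_of_lt w hj (f := f) (fun i hi => by
      rw [Finset.mem_sdiff, Finset.mem_singleton] at hi
      exact lt_of_le_of_ne (hmax i hi.1) (hcon i hi.1 hi.2))
    rw [hsum, map_zero] at this
    exact hfj this.symm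
  have hai : P.coeff i ≠ 0 := mem_support_iff.mp hi
  have haj : P.coeff j ≠ 0 := mem_support_iff.mp hj
  have hwai : w (algebraMap F F' (P.coeff i)) ≠ 0 :=
    (Valuation.ne_zero_iff _).mpr ((_root_.map_ne_zero _).mpr hai)
  have hwaj : w (algebraMap F F' (P.coeff j)) ≠ 0 :=
    (Valuation.ne_zero_iff _).mpr ((_root_.map_ne_zero _).mpr haj)
  simp only [hf, map_mul, map_pow] at hieq
  -- general step: from `A * w^k = B * w^(k+n)` get `w^n = A / B`
  have key : ∀ (k n : ℕ) (a b : F), a ≠ 0 → b ≠ 0 → 0 < n →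
      w (algebraMap F F' a) * w x ^ k = w (algebraMap F F' b) * w x ^ (k + n) →
      ∃ n : ℕ, 0 < n ∧ ∃ a : F, a ≠ 0 ∧ w x ^ n = w (algebraMap F F' a) := by
    intro k n a b ha hb hn h
    refine ⟨n, hn, a / b, div_ne_zero ha hb, ?_⟩
    have hwb : w (algebraMap F F' b) ≠ 0 :=
      (Valuation.ne_zero_iff _).mpr ((_root_.map_ne_zero _).mpr hb)
    rw [map_div₀, map_div₀, eq_div_iff hwb]
    have hk : w x ^ k ≠ 0 := pow_ne_zero _ hwx
    apply mul_right_cancel₀ hk
    rw [h, pow_add]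
    ac_rfl
  rcases Nat.lt_or_gt_of_ne hij with hlt | hgt
  · obtain ⟨n, rfl⟩ := Nat.exists_eq_add_of_lt hlt
    exact key i (n + 1) _ _ hai haj (Nat.succ_pos _) (by rw [hieq]; congr 2)
  · obtain ⟨n, rfl⟩ := Nat.exists_eq_add_of_lt hgt
    exact key j (n + 1) _ _ haj hai (Nat.succ_pos _) (by rw [← hieq]; congr 2)

/-- **`e = 1`**: if the value group of `O` is divisible and `x ∈ F'` is algebraic over `F`, the
valuation of `x` at any valuation subring over `O` is the valuation of a constant of `F`. -/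
theorem exists_val_eq_val_alg_of_divisible (hV : V.comap (algebraMap F F') = O)
    (hdiv : ∀ a : F, a ≠ 0 → ∀ n : ℕ, 0 < n → ∃ c : F, c ≠ 0 ∧ O.valuation (c ^ n) = O.valuation a)
    {x : F'} (hx : x ≠ 0) (halg : IsAlgebraic F x) :
    ∃ c : F, c ≠ 0 ∧ V.valuation x = V.valuation (algebraMap F F' c) := by
  obtain ⟨n, hn, a, ha, hpow⟩ := exists_pow_eq_val_alg V.valuation hx halg
  obtain ⟨c, hc, hca⟩ := hdiv a ha n hn
  refine ⟨c, hc, ?_⟩
  have h1 := val_alg_eq_val_alg hV hca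
  rw [map_pow, map_pow, ← hpow] at h1
  exact ((pow_left_inj₀ zero_le zero_le hn.ne').mp h1).symm

/-- **`e = 1`**, unit form: `x = c · u` with `c ∈ F` and `u` a unit of `V`. -/
theorem exists_const_mul_unit_of_divisible (hV : V.comap (algebraMap F F') = O)
    (hdiv : ∀ a : F, a ≠ 0 → ∀ n : ℕ, 0 < n → ∃ c : F, c ≠ 0 ∧ O.valuation (c ^ n) = O.valuation a)
    {x : F'} (hx : x ≠ 0) (halg : IsAlgebraic F x) :
    ∃ c : F, c ≠ 0 ∧ ∃ u : (↥V)ˣ, x = algebraMap F F' c * ((u : ↥V) : F') := by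
  obtain ⟨c, hc, hval⟩ := exists_val_eq_val_alg_of_divisible hV hdiv hx halg
  have hc' : algebraMap F F' c ≠ 0 := (_root_.map_ne_zero _).mpr hc
  have hwc : V.valuation (algebraMap F F' c) ≠ 0 := (Valuation.ne_zero_iff _).mpr hc'
  have h1 : V.valuation (x / algebraMap F F' c) = 1 := by
    rw [map_div₀, hval, div_self hwc]
  have hmem : x / algebraMap F F' c ∈ V := (V.valuation_le_one_iff _).mp h1.le
  have hunit : IsUnit (⟨x / algebraMap F F' c, hmem⟩ : ↥V) :=
    (V.valuation_eq_one_iff _).mpr h1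
  refine ⟨c, hc, hunit.unit, ?_⟩
  rw [IsUnit.unit_spec]
  field_simp

end Divisible

end Fermat.Agent.S34.TwoExt
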