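import Mathlib
import Fermat.Agent.S34.WeakApprox

/-!
# PROJECT U (S34), slice Z1: weak approximation, multiplicative form

For finitely many pairwise incomparable archimedean valuation rings `O i` of `K` and prescribed
NONZERO elements `a i ∈ K` (not necessarily integral) there is `y ∈ K` with
`v_i (y - a i) < v_i (a i)` for all `i`; equivalently `y / a i ∈ 1 + 𝔪 i`.  In particular the
values `v_i (y)` can be prescribed independently.

* `exists_approx_mul` : the statement above;
* `exists_approx_mul'` : the same as `y = a i * u i`, `u i - 1 ∈ 𝔪 i`;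
* `exists_approx_two` : the two-valuation form `O₁ ≠ O₂`, both `≠ ⊤`.
-/

set_option autoImplicit false

namespace Fermat.Agent.S34.WeakApproxMul

open Fermat.Agent.S34.WeakApprox

variable {K : Type*} [Field K] {ι : Type*} (O : ι → ValuationSubring K)

theorem valuation_mul_lt_of_mem_nonunits (A : ValuationSubring K) {x a : K} (hx : x ∈ A.nonunits)
    (ha : a ≠ 0) : A.valuation (x * a) < A.valuation a := by
  rw [map_mul]
  have h0 : 0 < A.valuation a :=
    lt_of_le_of_ne zero_le (Ne.symm ((Valuation.ne_zero_iff _).mpr ha))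
  calc A.valuation x * A.valuation a < 1 * A.valuation a :=
        (mul_lt_mul_iff_left₀ h0).mpr (A.mem_nonunits_iff.mp hx)
    _ = A.valuation a := one_mul _

/-- **weak approximation, multiplicative form** -/
theorem exists_approx_mul [Finite ι] (hA : ∀ i, Arch (O i)) (hinc : ∀ i j, i ≠ j → ¬ O i ≤ O j)
    (a : ι → K) (ha : ∀ i, a i ≠ 0) :
    ∃ y : K, ∀ i, (O i).valuation (y - a i) < (O i).valuation (a i) := by
  classical
  have := Fintype.ofFinite ι
  have h1 : ∀ i, ∃ x : K, x - 1 ∈ (O i).nonunits ∧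
      ∀ j, j ≠ i → x ∈ (O j).nonunits ∧
        ∀ b ∈ (Finset.univ.image fun j => a i / a j), x * b ∈ (O j).nonunits :=
    fun i => exists_one_sub O hA hinc i _
  choose x hx1 hx2 using h1
  refine ⟨∑ i, x i * a i, fun i₀ => ?_⟩
  have h2 : ∑ i, x i * a i - a i₀
      = (x i₀ - 1) * a i₀ + ∑ i ∈ Finset.univ.erase i₀, x i * a i := by
    rw [← Finset.add_sum_erase _ _ (Finset.mem_univ i₀)]
    ring
  have h0 : (O i₀).valuation (a i₀) ≠ 0 := (Valuation.ne_zero_iff _).mpr (ha i₀)
  rw [h2]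
  refine Valuation.map_add_lt _ (valuation_mul_lt_of_mem_nonunits _ (hx1 i₀) (ha i₀)) ?_
  refine Valuation.map_sum_lt _ h0 fun i hi => ?_
  have hi' : i₀ ≠ i := (Finset.ne_of_mem_erase hi).symm
  have h3 : x i * a i = (x i * (a i / a i₀)) * a i₀ := by
    rw [mul_assoc, div_mul_cancel₀ _ (ha i₀)]
  rw [h3]
  exact valuation_mul_lt_of_mem_nonunits _
    ((hx2 i i₀ hi').2 _ (Finset.mem_image.mpr ⟨i₀, Finset.mem_univ _, rfl⟩)) (ha i₀)

/-- the same, as `y = a i * u i` with `u i ≡ 1` -/
theorem exists_approx_mul' [Finite ι] (hA : ∀ i, Arch (O i))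
    (hinc : ∀ i j, i ≠ j → ¬ O i ≤ O j) (a : ι → K) (ha : ∀ i, a i ≠ 0) :
    ∃ y : K, y ≠ 0 ∧ ∀ i, y / a i - 1 ∈ (O i).nonunits ∧
      (O i).valuation y = (O i).valuation (a i) := by
  obtain ⟨y, hy⟩ := exists_approx_mul O hA hinc a ha
  have hval : ∀ i, (O i).valuation y = (O i).valuation (a i) := by
    intro i
    have h1 : y = a i + (y - a i) := by ring
    conv_lhs => rw [h1]
    exact Valuation.map_add_eq_of_lt_left _ (hy i)
  have hy0 : y ≠ 0 ∨ IsEmpty ι := by
    by_cases hne : Nonempty ι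
    · obtain ⟨i⟩ := hne
      left
      rw [← Valuation.ne_zero_iff (O i).valuation, hval i]
      exact (Valuation.ne_zero_iff _).mpr (ha i)
    · right
      exact not_nonempty_iff.mp hne
  rcases hy0 with hy0 | hemp
  · refine ⟨y, hy0, fun i => ⟨?_, hval i⟩⟩
    have h0 : (O i).valuation (a i) ≠ 0 := (Valuation.ne_zero_iff _).mpr (ha i)
    have h2 : y / a i - 1 = (y - a i) / a i := by
      rw [sub_div, div_self (ha i)]
    rw [h2, (O i).mem_nonunits_iff, map_div₀]
    exact (div_lt_one₀ (lt_of_le_of_ne zero_le (Ne.symm h0))).mpr (hy i)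
  · exact ⟨1, one_ne_zero, fun i => (hemp.false i).elim⟩

/-! ### two valuation rings -/

/-- **two distinct archimedean valuation rings**: prescribe `y` multiplicatively at both -/
theorem exists_approx_two {V₁ V₂ : ValuationSubring K} (h₁ : Arch V₁) (h₂ : Arch V₂)
    (hne : V₁ ≠ V₂) (ht₁ : V₁ ≠ ⊤) (ht₂ : V₂ ≠ ⊤) {a₁ a₂ : K} (ha₁ : a₁ ≠ 0) (ha₂ : a₂ ≠ 0) :
    ∃ y : K, y ≠ 0 ∧ (y / a₁ - 1 ∈ V₁.nonunits ∧ V₁.valuation y = V₁.valuation a₁) ∧
      (y / a₂ - 1 ∈ V₂.nonunits ∧ V₂.valuation y = V₂.valuation a₂) := by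
  let O : Bool → ValuationSubring K := fun b => if b then V₁ else V₂
  have hA : ∀ i, Arch (O i) := by
    intro i
    cases i
    · exact h₂
    · exact h₁
  have hinc : ∀ i j, i ≠ j → ¬ O i ≤ O j := by
    intro i j hij hle
    cases i <;> cases j
    · exact hij rfl
    · exact hne (le_antisymm (h₂.le_of_le hle ht₁) hle)
    · exact hne (le_antisymm hle (h₁.le_of_le hle ht₂))
    · exact hij rfl
  obtain ⟨y, hy0, hy⟩ := exists_approx_mul' O hA hinc (fun b => if b then a₁ else a₂)
    (by intro i; cases i <;> simpa)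
  exact ⟨y, hy0, by simpa [O] using hy true, by simpa [O] using hy false⟩

/-- **two distinct archimedean valuation rings**: additive form -/
theorem exists_approx_two_add {V₁ V₂ : ValuationSubring K} (h₁ : Arch V₁) (h₂ : Arch V₂)
    (hne : V₁ ≠ V₂) (ht₁ : V₁ ≠ ⊤) (ht₂ : V₂ ≠ ⊤) {a₁ a₂ : K} (ha₁ : a₁ ∈ V₁) (ha₂ : a₂ ∈ V₂) :
    ∃ y : K, y - a₁ ∈ V₁.nonunits ∧ y - a₂ ∈ V₂.nonunits := by
  let O : Bool → ValuationSubring K := fun b => if b then V₁ else V₂
  have hA : ∀ i, Arch (O i) := by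
    intro i
    cases i
    · exact h₂
    · exact h₁
  have hinc : ∀ i j, i ≠ j → ¬ O i ≤ O j := by
    intro i j hij hle
    cases i <;> cases j
    · exact hij rfl
    · exact hne (le_antisymm (h₂.le_of_le hle ht₁) hle)
    · exact hne (le_antisymm hle (h₁.le_of_le hle ht₂))
    · exact hij rfl
  obtain ⟨y, hy⟩ := exists_approx O hA hinc (fun b => if b then a₁ else a₂)
    (by intro i; cases i <;> simpa [O])
  exact ⟨y, by simpa [O] using hy true, by simpa [O] using hy false⟩

end Fermat.Agent.S34.WeakApproxMul
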