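import Mathlib
import Fermat.Agent.S34.ArchComap
import Fermat.Agent.S34.WeakApproxMul
import Fermat.Agent.S34.TwoExt
import Fermat.Agent.S37.Gauss.Datum

/-!
# PROJECT U (S34), slice Z1: the Gauss rings are archimedean; approximation for the two extensions

* `comap_O_eq`, `arch_O`, `O_ne_top` : for a Gauss datum `G` over
  `A ⊂ L`: `G.O ∩ L = A`; `Arch A → Arch G.O`; `A ≠ ⊤ → G.O ≠ ⊤`.
* `arch_of_liesOverPrime_Kb`, `ne_top_of_liesOverPrime` : a valuation ring of `ℚ̄` lying over a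
  prime is archimedean and proper.
* `arch_gaussDatum`, `gaussDatum_ne_top` : the Gauss ring of `ℚ̄(X₀(N))` at `A | ℓ`, `ℓ ∤ N`.
* `IsExt.arch`, `IsExt.ne_top`, `ne_of_isExt` : the two extensions `V₁`, `V₂` of `TwoExt` over an
  archimedean proper `O` (with `F'/F` algebraic) are archimedean, proper and distinct.
* `exists_approx_isExt` (multiplicative) / `exists_approx_isExt_add` (additive):
  **weak approximation for `V₁`, `V₂`**.
-/

set_option autoImplicit false

namespace Fermat.Agent.S34.ArchGauss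

open Fermat.Agent.S34.WeakApprox Fermat.Agent.S34.ArchComap Fermat.Agent.S34.WeakApproxMul
open Fermat.Agent.S34.TwoExt
open Fermat.Agent.S37.Deuring.Core

/-! ### Gauss data -/

section Datum

variable {L : Type*} [Field L] {k : Type*} [Field k]
variable {A : ValuationSubring L} {π : A →+* k}
variable {FL : Type*} [Field FL] [Algebra L FL] {Fk : Type*} [Field Fk] [Algebra k Fk]

theorem comap_O_eq (G : GaussDatum A π FL Fk) : G.O.comap (algebraMap L FL) = A := by
  ext c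
  rw [ValuationSubring.mem_comap]
  exact ⟨G.mem_of_algebraMap_mem c, fun hc => G.algebraMap_mem ⟨c, hc⟩⟩

/-- the Gauss ring over an archimedean valuation ring is archimedean -/
theorem arch_O (G : GaussDatum A π FL Fk) (hA : Arch A) : Arch G.O := by
  refine arch_of_valuation_eq (F := L) G.O (by rw [comap_O_eq G]; exact hA) fun x hx => ?_
  obtain ⟨c, -, u, hu⟩ := G.exists_const_mul_unit x hx
  refine ⟨c, ?_⟩
  rw [hu, map_mul, G.O.valuation_unit u, mul_one]

theorem O_ne_top (G : GaussDatum A π FL Fk) (hA : A ≠ ⊤) : G.O ≠ ⊤ := by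
  intro h
  apply hA
  rw [← comap_O_eq G, h]
  ext c
  simp [ValuationSubring.mem_comap]

end Datum

/-! ### valuation rings of `ℚ̄` over a prime -/

section OverPrime

local notation "Kb" => AlgebraicClosure ℚ

theorem ne_top_of_liesOverPrime {L : Type*} [Field L] [CharZero L] {ℓ : ℕ} (hℓ : ℓ.Prime)
    (A : ValuationSubring L) (hA : A.LiesOverPrime ℓ) : A ≠ ⊤ := by
  intro h
  have h1 : ((ℓ : L))⁻¹ ∈ A := h ▸ ValuationSubring.mem_top _
  have h2 : A.valuation (ℓ : L) < 1 := A.mem_nonunits_iff.mp hA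
  have h3 : A.valuation ((ℓ : L))⁻¹ ≤ 1 := (A.valuation_le_one_iff _).mpr h1
  rw [map_inv₀] at h3
  have h0 : A.valuation (ℓ : L) ≠ 0 :=
    (Valuation.ne_zero_iff _).mpr (Nat.cast_ne_zero.mpr hℓ.ne_zero)
  have h4 : 1 < (A.valuation (ℓ : L))⁻¹ :=
    (one_lt_inv₀ (lt_of_le_of_ne zero_le (Ne.symm h0))).mpr h2
  exact absurd h3 (not_le.mpr h4)

theorem arch_of_liesOverPrime_Kb {ℓ : ℕ} (hℓ : ℓ.Prime) (A : ValuationSubring Kb)
    (hA : A.LiesOverPrime ℓ) : Arch A :=
  haveI : Algebra.IsAlgebraic ℚ Kb := AlgebraicClosure.isAlgebraic ℚ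
  arch_of_liesOverPrime hℓ A hA

end OverPrime

/-! ### the Gauss ring of `ℚ̄(X₀(N))` -/

section X0

set_option synthInstance.maxHeartbeats 400000
set_option maxHeartbeats 1000000

local notation "Kb" => AlgebraicClosure ℚ

variable {ℓ : ℕ} [Fact ℓ.Prime] {N : ℕ} [NeZero N] {A : ValuationSubring Kb}

theorem arch_gaussDatum (hA : A.LiesOverPrime ℓ) (hℓN : ¬ ℓ ∣ N) :
    Arch (Fermat.Agent.S37.Gauss.Datum.gaussDatum N A hA hℓN).O :=
  arch_O _ (arch_of_liesOverPrime_Kb (Fact.out : ℓ.Prime) A hA)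

theorem gaussDatum_ne_top (hA : A.LiesOverPrime ℓ) (hℓN : ¬ ℓ ∣ N) :
    (Fermat.Agent.S37.Gauss.Datum.gaussDatum N A hA hℓN).O ≠ ⊤ :=
  O_ne_top _ (ne_top_of_liesOverPrime (Fact.out : ℓ.Prime) A hA)

end X0

/-! ### the two extensions of `TwoExt` -/

section TwoExt

variable {F : Type*} [Field F] {F' : Type*} [Field F'] [Algebra F F']
variable {O : ValuationSubring F}

theorem arch_of_comap_eq [Algebra.IsAlgebraic F F'] {V : ValuationSubring F'}
    (hV : V.comap (algebraMap F F') = O) (hO : Arch O) : Arch V :=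
  arch_of_comap (F := F) V (by rw [hV]; exact hO)

theorem ne_top_of_comap_eq {V : ValuationSubring F'} (hV : V.comap (algebraMap F F') = O)
    (hO : O ≠ ⊤) : V ≠ ⊤ := by
  intro h
  apply hO
  rw [← hV, h]
  ext c
  simp [ValuationSubring.mem_comap]

variable (S : Setup O F') {V₁ V₂ : ValuationSubring F'}

theorem ne_of_isExt (h₁ : S.IsExt S.G₁ V₁) (h₂ : S.IsExt S.G₂ V₂) : V₁ ≠ V₂ := by
  rintro rfl
  exact S.not_isExt_both h₁ h₂

/-- **weak approximation for the two extensions, multiplicative form**: prescribe `y` up to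
`1 + 𝔪` at both `V₁` and `V₂` (the prescribed elements need not be integral). -/
theorem exists_approx_isExt [Algebra.IsAlgebraic F F'] (hO : Arch O) (hOt : O ≠ ⊤)
    (h₁ : S.IsExt S.G₁ V₁) (h₂ : S.IsExt S.G₂ V₂) {a₁ a₂ : F'} (ha₁ : a₁ ≠ 0) (ha₂ : a₂ ≠ 0) :
    ∃ y : F', y ≠ 0 ∧ (y / a₁ - 1 ∈ V₁.nonunits ∧ V₁.valuation y = V₁.valuation a₁) ∧
      (y / a₂ - 1 ∈ V₂.nonunits ∧ V₂.valuation y = V₂.valuation a₂) :=
  exists_approx_two (arch_of_comap_eq h₁.comap hO) (arch_of_comap_eq h₂.comap hO)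
    (ne_of_isExt S h₁ h₂) (ne_top_of_comap_eq h₁.comap hOt) (ne_top_of_comap_eq h₂.comap hOt)
    ha₁ ha₂

/-- **weak approximation for the two extensions, additive form**: `V₁ ∩ V₂ → κ(V₁) × κ(V₂)` is
onto. -/
theorem exists_approx_isExt_add [Algebra.IsAlgebraic F F'] (hO : Arch O) (hOt : O ≠ ⊤)
    (h₁ : S.IsExt S.G₁ V₁) (h₂ : S.IsExt S.G₂ V₂) {a₁ a₂ : F'} (ha₁ : a₁ ∈ V₁) (ha₂ : a₂ ∈ V₂) :
    ∃ y : F', y - a₁ ∈ V₁.nonunits ∧ y - a₂ ∈ V₂.nonunits :=
  exists_approx_two_add (arch_of_comap_eq h₁.comap hO) (arch_of_comap_eq h₂.comap hO)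
    (ne_of_isExt S h₁ h₂) (ne_top_of_comap_eq h₁.comap hOt) (ne_top_of_comap_eq h₂.comap hOt)
    ha₁ ha₂

end TwoExt

end Fermat.Agent.S34.ArchGauss
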