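/-
PROJECT U (S34), safe piece, follow-up of `S34/TwoExt`: **the reduction homomorphisms of the two
extensions** and **weak approximation (CRT) for them**.  Mathlib + `S34/TwoExt` only.

Setting of `TwoExt.Setup`: `O` a valuation subring of `F`, `F' = F(t)`, `Φ ≡ G₁ G₂ (mod 𝔪_O)`,
`V_i` the valuation subring of `F'` over `O` with `G_i(t) ∈ 𝔪_{V_i}`.

* `exists_redHom₁/₂` : for a ring homomorphism `ι : O → k'` to a field with kernel `𝔪_O` and a root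
  `θ ∈ k'` of `ι(G_i)`, there is a ring homomorphism `ρ : V_i → k'` with `ρ(c) = ι(c)` on `O`,
  `ρ(t) = θ`, `ρ(p(t)) = ι(p)(θ)`, and kernel `𝔪_{V_i}`; it is onto as soon as `k' = ι(O)[θ]`.
  (Application: `V₁`: `ι = red_M`, `θ = j̄^q`; `V₂`: `ι = Frob_q ∘ red_M`, `θ = j̄`.)
* `exists_approx₂` : for `a₁ ∈ V₁`, `a₂ ∈ V₂` there is `y ∈ O[t]` with `y ≡ a_i (mod 𝔪_{V_i})`;
  `exists_approx_unit₂` : if the `a_i` are units, so is `y` in both.
-/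
import Mathlib
import Fermat.Agent.S34.TwoExt

set_option autoImplicit false

noncomputable section

namespace Fermat.Agent.S34.TwoExtRed

open Polynomial IsLocalRing Fermat.Agent.S34.TwoExt

variable {F : Type*} [Field F] {F' : Type*} [Field F'] [Algebra F F']
variable {O : ValuationSubring F} (S : Setup O F')

/-! ### The reduction homomorphism -/

section Red

variable {V : ValuationSubring F'} {k' : Type*} [Field k']

/-- `O[X] → κ(V)`, `p ↦ p(t) mod 𝔪_V`. -/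
def psi (hV : V.comap (algebraMap F F') = O) : (↥O)[X] →+* ResidueField ↥V :=
  (residue ↥V).comp (S.evV hV)

theorem ker_psi (hV : V.comap (algebraMap F F') = O) : RingHom.ker (psi S hV) = S.kerV hV := rfl

theorem psi_surjective (hV : V.comap (algebraMap F F') = O)
    (hres : ∀ x : F', x ∈ V → ∃ r : (↥O)[X], V.valuation (x - S.ev r) < 1) :
    Function.Surjective (psi S hV) := by
  intro y
  obtain ⟨x, rfl⟩ := residue_surjective y
  obtain ⟨r, hr⟩ := hres x x.2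
  refine ⟨r, ?_⟩
  rw [psi, RingHom.comp_apply, ← sub_eq_zero, ← map_sub, residue_eq_zero_iff,
    ValuationSubring.valuation_lt_one_iff]
  have h1 : (((S.evV hV r - x : ↥V)) : F') = -(x - S.ev r) := by
    rw [← S.coe_evV hV r]
    push_cast
    ring
  rw [h1, Valuation.map_neg]
  exact hr

/-- the evaluation `O[X] → k'`, `p ↦ ι(p)(θ)` -/
def phi (ι : ↥O →+* k') (θ : k') : (↥O)[X] →+* k' := eval₂RingHom ι θ

theorem phi_eq_zero_of_red_eq_zero (ι : ↥O →+* k') (hι : ∀ c ∈ maximalIdeal ↥O, ι c = 0)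
    (θ : k') {p : (↥O)[X]} (hp : red O p = 0) : phi ι θ p = 0 := by
  rw [red_eq_zero_iff] at hp
  rw [phi, coe_eval₂RingHom, eval₂_eq_sum_range]
  refine Finset.sum_eq_zero fun i _ => ?_
  rw [hι _ (hp i), zero_mul]

theorem kerV_le_ker_phi {G : (↥O)[X]} (hV : S.IsExt G V) (hirr : Irreducible (red O G))
    (ι : ↥O →+* k') (hι : ∀ c ∈ maximalIdeal ↥O, ι c = 0) (θ : k')
    (hθ : G.eval₂ ι θ = 0) : S.kerV hV.comap ≤ RingHom.ker (phi ι θ) := by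
  intro p hp
  rw [S.mem_kerV_iff, S.val_lt_one_iff_dvd hV.comap hirr hV.lt] at hp
  obtain ⟨h, hh⟩ := hp
  obtain ⟨h', rfl⟩ := red_surjective O h
  have h0 : red O (p - G * h') = 0 := by rw [map_sub, map_mul, hh, sub_self]
  have h1 := phi_eq_zero_of_red_eq_zero ι hι θ h0
  rw [map_sub, map_mul, sub_eq_zero] at h1
  rw [RingHom.mem_ker, h1]
  have : phi ι θ G = 0 := hθ
  rw [this, zero_mul]

/-- **The reduction homomorphism `V → k'`** (general form). -/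
theorem exists_redHom {G : (↥O)[X]} (hV : S.IsExt G V) (hirr : Irreducible (red O G))
    (hres : ∀ x : F', x ∈ V → ∃ r : (↥O)[X], V.valuation (x - S.ev r) < 1)
    (ι : ↥O →+* k') (hι : ∀ c ∈ maximalIdeal ↥O, ι c = 0) (θ : k') (hθ : G.eval₂ ι θ = 0) :
    ∃ ρ : ↥V →+* k',
      (∀ p : (↥O)[X], ρ ⟨S.ev p, S.ev_mem hV.comap p⟩ = p.eval₂ ι θ) ∧
      (∀ c : ↥O, ρ (Setup.incl hV.comap c) = ι c) ∧
      ρ ⟨S.t, S.t_mem hV.comap⟩ = θ ∧
      (∀ x : ↥V, ρ x = 0 ↔ x ∈ maximalIdeal ↥V) ∧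
      ((∀ y : k', ∃ p : (↥O)[X], p.eval₂ ι θ = y) → Function.Surjective ρ) := by
  have hsurj := psi_surjective S hV.comap hres
  have hker : RingHom.ker (psi S hV.comap) ≤ RingHom.ker (phi ι θ) := by
    rw [ker_psi]
    exact kerV_le_ker_phi S hV hirr ι hι θ hθ
  set lam : ResidueField ↥V →+* k' :=
    (psi S hV.comap).liftOfSurjective hsurj ⟨phi ι θ, hker⟩ with hlam
  have hlam_psi : ∀ p, lam (psi S hV.comap p) = phi ι θ p := fun p =>
    RingHom.liftOfRightInverse_comp_apply _ _ _ ⟨phi ι θ, hker⟩ p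
  have hev : ∀ p : (↥O)[X], (⟨S.ev p, S.ev_mem hV.comap p⟩ : ↥V) = S.evV hV.comap p := fun p =>
    Subtype.ext (S.coe_evV hV.comap p).symm
  have hρp : ∀ p : (↥O)[X], (lam.comp (residue ↥V)) ⟨S.ev p, S.ev_mem hV.comap p⟩ =
      p.eval₂ ι θ := by
    intro p
    rw [hev, RingHom.comp_apply]
    exact hlam_psi p
  refine ⟨lam.comp (residue ↥V), hρp, fun c => ?_, ?_, fun x => ?_, fun hgen y => ?_⟩
  · have h1 : Setup.incl hV.comap c = ⟨S.ev (C c), S.ev_mem hV.comap _⟩ :=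
      Subtype.ext (by rw [Setup.coe_incl]; exact (S.ev_C c).symm)
    rw [h1, hρp, eval₂_C]
  · have h1 : (⟨S.t, S.t_mem hV.comap⟩ : ↥V) = ⟨S.ev X, S.ev_mem hV.comap _⟩ :=
      Subtype.ext S.ev_X.symm
    rw [h1, hρp, eval₂_X]
  · rw [RingHom.comp_apply, map_eq_zero_iff lam lam.injective, residue_eq_zero_iff]
  · obtain ⟨p, rfl⟩ := hgen y
    exact ⟨_, hρp p⟩

end Red

section Red₂

variable {V₁ V₂ : ValuationSubring F'} {k' : Type*} [Field k']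

/-- **The reduction homomorphism of `V₁`.** -/
theorem exists_redHom₁ (h₁ : S.IsExt S.G₁ V₁)
    (ι : ↥O →+* k') (hι : ∀ c ∈ maximalIdeal ↥O, ι c = 0) (θ : k') (hθ : S.G₁.eval₂ ι θ = 0) :
    ∃ ρ : ↥V₁ →+* k',
      (∀ p : (↥O)[X], ρ ⟨S.ev p, S.ev_mem h₁.comap p⟩ = p.eval₂ ι θ) ∧
      (∀ c : ↥O, ρ (Setup.incl h₁.comap c) = ι c) ∧
      ρ ⟨S.t, S.t_mem h₁.comap⟩ = θ ∧
      (∀ x : ↥V₁, ρ x = 0 ↔ x ∈ maximalIdeal ↥V₁) ∧
      ((∀ y : k', ∃ p : (↥O)[X], p.eval₂ ι θ = y) → Function.Surjective ρ) := by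
  obtain ⟨V₂, h₂⟩ := S.exists_isExt₂
  exact exists_redHom S h₁ S.irr₁ (fun x hx => S.exists_ev_sub_lt_one₁ h₁ h₂ hx) ι hι θ hθ

/-- **The reduction homomorphism of `V₂`.** -/
theorem exists_redHom₂ (h₂ : S.IsExt S.G₂ V₂)
    (ι : ↥O →+* k') (hι : ∀ c ∈ maximalIdeal ↥O, ι c = 0) (θ : k') (hθ : S.G₂.eval₂ ι θ = 0) :
    ∃ ρ : ↥V₂ →+* k',
      (∀ p : (↥O)[X], ρ ⟨S.ev p, S.ev_mem h₂.comap p⟩ = p.eval₂ ι θ) ∧
      (∀ c : ↥O, ρ (Setup.incl h₂.comap c) = ι c) ∧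
      ρ ⟨S.t, S.t_mem h₂.comap⟩ = θ ∧
      (∀ x : ↥V₂, ρ x = 0 ↔ x ∈ maximalIdeal ↥V₂) ∧
      ((∀ y : k', ∃ p : (↥O)[X], p.eval₂ ι θ = y) → Function.Surjective ρ) := by
  obtain ⟨V₁, h₁⟩ := S.exists_isExt₁
  exact exists_redHom S h₂ S.irr₂ (fun x hx => S.exists_ev_sub_lt_one₂ h₁ h₂ hx) ι hι θ hθ

/-! ### Weak approximation (CRT) -/

/-- **Weak approximation for `V₁`, `V₂`**: `O[t] → κ(V₁) × κ(V₂)` is onto. -/
theorem exists_approx₂ (h₁ : S.IsExt S.G₁ V₁) (h₂ : S.IsExt S.G₂ V₂) {a₁ a₂ : F'}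
    (ha₁ : a₁ ∈ V₁) (ha₂ : a₂ ∈ V₂) :
    ∃ r : (↥O)[X], V₁.valuation (S.ev r - a₁) < 1 ∧ V₂.valuation (S.ev r - a₂) < 1 := by
  obtain ⟨r₁, hr₁⟩ := S.exists_ev_sub_lt_one₁ h₁ h₂ ha₁
  obtain ⟨r₂, hr₂⟩ := S.exists_ev_sub_lt_one₂ h₁ h₂ ha₂
  obtain ⟨u, v, huv⟩ := S.coprime
  obtain ⟨u', rfl⟩ := red_surjective O u
  obtain ⟨v', rfl⟩ := red_surjective O v
  refine ⟨r₂ * u' * S.G₁ + r₁ * v' * S.G₂, ?_, ?_⟩
  · have hd : V₁.valuation (S.ev (r₂ * u' * S.G₁ + r₁ * v' * S.G₂ - r₁)) < 1 := by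
      rw [S.val_lt_one_iff_dvd h₁.comap S.irr₁ h₁.lt]
      refine ⟨(red O r₂ - red O r₁) * red O u', ?_⟩
      have : red O r₁ = red O r₁ * (red O u' * red O S.G₁ + red O v' * red O S.G₂) := by
        rw [huv, mul_one]
      simp only [map_sub, map_add, map_mul]
      rw [sub_eq_iff_eq_add]
      nth_rewrite 3 [this]
      ring
    have he : S.ev (r₂ * u' * S.G₁ + r₁ * v' * S.G₂) - a₁ =
        S.ev (r₂ * u' * S.G₁ + r₁ * v' * S.G₂ - r₁) - (a₁ - S.ev r₁) := by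
      rw [map_sub]; ring
    rw [he]
    exact Valuation.map_sub_lt _ hd hr₁
  · have hd : V₂.valuation (S.ev (r₂ * u' * S.G₁ + r₁ * v' * S.G₂ - r₂)) < 1 := by
      rw [S.val_lt_one_iff_dvd h₂.comap S.irr₂ h₂.lt]
      refine ⟨(red O r₁ - red O r₂) * red O v', ?_⟩
      have : red O r₂ = red O r₂ * (red O u' * red O S.G₁ + red O v' * red O S.G₂) := by
        rw [huv, mul_one]
      simp only [map_sub, map_add, map_mul]
      rw [sub_eq_iff_eq_add]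
      nth_rewrite 3 [this]
      ring
    have he : S.ev (r₂ * u' * S.G₁ + r₁ * v' * S.G₂) - a₂ =
        S.ev (r₂ * u' * S.G₁ + r₁ * v' * S.G₂ - r₂) - (a₂ - S.ev r₂) := by
      rw [map_sub]; ring
    rw [he]
    exact Valuation.map_sub_lt _ hd hr₂

/-- **Weak approximation, unit form.** -/
theorem exists_approx_unit₂ (h₁ : S.IsExt S.G₁ V₁) (h₂ : S.IsExt S.G₂ V₂) {a₁ a₂ : F'}
    (ha₁ : V₁.valuation a₁ = 1) (ha₂ : V₂.valuation a₂ = 1) :
    ∃ r : (↥O)[X], V₁.valuation (S.ev r - a₁) < 1 ∧ V₂.valuation (S.ev r - a₂) < 1 ∧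
      V₁.valuation (S.ev r) = 1 ∧ V₂.valuation (S.ev r) = 1 := by
  obtain ⟨r, hr₁, hr₂⟩ := exists_approx₂ S h₁ h₂ ((V₁.valuation_le_one_iff _).mp ha₁.le)
    ((V₂.valuation_le_one_iff _).mp ha₂.le)
  refine ⟨r, hr₁, hr₂, ?_, ?_⟩
  · have := Valuation.map_add_eq_of_lt_right V₁.valuation (x := S.ev r - a₁) (y := a₁)
      (by rw [ha₁]; exact hr₁)
    rwa [sub_add_cancel, ha₁] at this
  · have := Valuation.map_add_eq_of_lt_right V₂.valuation (x := S.ev r - a₂) (y := a₂)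
      (by rw [ha₂]; exact hr₂)
    rwa [sub_add_cancel, ha₂] at this

end Red₂

end Fermat.Agent.S34.TwoExtRed
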