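/-
PROJECT U (S34), bridge from `S34/TwoExt` to slice (Z1): **`e = 1` with constants of `K`**
(`exists_val_eq_val_const` = hypothesis `hval` of `S34/Z1Abstract.exists_kummer_decomposition`) and an
Arch-free variant of (Z1) itself: **`(σ - 1)` maps every function into
`constants · n-th powers · (functions ≡ 1 at both components)`**.  Mathlib + `S34/TwoExt(+Red)` only.

Setting of `TwoExt.Setup` (`O ⊂ F` valuation ring, `F' = F(t)`, `V₁`, `V₂` the two extensions of
`O`), a field of constants `K ⊂ F` such that every element of `F` is (constant)·(unit of `O`) and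
`K` has all `n`-th roots, and an "inertial" pair `(σ, τ)` (`TwoExt.Setup.IsInertial`) which maps
constants to constants isometrically.  Then for every `f ∈ F'ˣ` and `n > 0`

  `σ f = c · h ^ n · u · f`,  `c ∈ Kˣ`, `h ∈ F'ˣ`, `u ≡ 1 (mod 𝔪_{V₁})` and `u ≡ 1 (mod 𝔪_{V₂})`.

This is hypothesis `(h1)` of `S34/KummerZ.sq_eq_zero_of_kummer` with
`P u := V₁.valuation (u - 1) < 1 ∧ V₂.valuation (u - 1) < 1` (it holds for ALL `f`, no condition
on `div f`).
-/
import Mathlib
import Fermat.Agent.S34.TwoExt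
import Fermat.Agent.S34.TwoExtRed

set_option autoImplicit false

noncomputable section

namespace Fermat.Agent.S34.TwoExtConst

open Polynomial IsLocalRing Fermat.Agent.S34.TwoExt Fermat.Agent.S34.TwoExtRed

variable {K : Type*} [Field K] {F : Type*} [Field F] {F' : Type*} [Field F']
variable [Algebra K F] [Algebra F F'] [Algebra K F'] [IsScalarTower K F F']

/-! ### Small valuation lemmas -/

section Val

variable {Γ : Type*} [LinearOrderedCommGroupWithZero Γ] (w : Valuation F' Γ)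

theorem val_pow_sub_pow_lt {x y : F'} (hx : w x ≤ 1) (hy : w y ≤ 1) (hxy : w (x - y) < 1)
    (n : ℕ) : w (x ^ n - y ^ n) < 1 := by
  induction n with
  | zero => simp
  | succ n ih =>
    have h : x ^ (n + 1) - y ^ (n + 1) = x ^ n * (x - y) + (x ^ n - y ^ n) * y := by ring
    rw [h]
    refine Valuation.map_add_lt _ ?_ ?_
    · rw [map_mul, map_pow]
      exact lt_of_le_of_lt (mul_le_of_le_one_left' (pow_le_one' hx n)) hxy
    · rw [map_mul]
      exact lt_of_le_of_lt (mul_le_of_le_one_right' hy) ih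

theorem val_eq_one_of_sub_lt {x y : F'} (hy : w y = 1) (hxy : w (x - y) < 1) : w x = 1 := by
  have := Valuation.map_add_eq_of_lt_right w (x := x - y) (y := y) (by rw [hy]; exact hxy)
  rwa [sub_add_cancel, hy] at this

end Val

/-! ### One valuation ring -/

section One

variable {O : ValuationSubring F} {V : ValuationSubring F'}

/-- divisibility of the value group of `O` from constants with roots -/
theorem divisible_of_const
    (hconst : ∀ x : F, x ≠ 0 → ∃ c : K, c ≠ 0 ∧ O.valuation x = O.valuation (algebraMap K F c))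
    (hroot : ∀ (c : K) (n : ℕ), 0 < n → ∃ d : K, d ^ n = c) :
    ∀ a : F, a ≠ 0 → ∀ n : ℕ, 0 < n → ∃ c : F, c ≠ 0 ∧ O.valuation (c ^ n) = O.valuation a := by
  intro a ha n hn
  obtain ⟨c0, hc0, hval⟩ := hconst a ha
  obtain ⟨d, hd⟩ := hroot c0 n hn
  have hd0 : d ≠ 0 := by
    rintro rfl
    rw [zero_pow hn.ne'] at hd
    exact hc0 hd.symm
  refine ⟨algebraMap K F d, (_root_.map_ne_zero _).mpr hd0, ?_⟩
  rw [← map_pow, hd, hval]

/-- **`e = 1` with constants of `K`.** -/
theorem exists_val_eq_val_const (hV : V.comap (algebraMap F F') = O)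
    (hconst : ∀ x : F, x ≠ 0 → ∃ c : K, c ≠ 0 ∧ O.valuation x = O.valuation (algebraMap K F c))
    (hroot : ∀ (c : K) (n : ℕ), 0 < n → ∃ d : K, d ^ n = c)
    {f : F'} (hf : f ≠ 0) (halg : IsAlgebraic F f) :
    ∃ a : K, a ≠ 0 ∧ V.valuation f = V.valuation (algebraMap K F' a) := by
  obtain ⟨c, hc, hval⟩ := exists_val_eq_val_alg_of_divisible hV
    (divisible_of_const hconst hroot) hf halg
  obtain ⟨a, ha, hca⟩ := hconst c hc
  refine ⟨a, ha, ?_⟩
  rw [hval, val_alg_eq_val_alg hV hca, IsScalarTower.algebraMap_apply K F F']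

/-- For a valuation subring `V` over `O` on whose residue field `σ` acts trivially: `σ f = b · u · f` with `b` a constant of valuation one and `u ≡ 1 (mod 𝔪_V)`. -/
theorem exists_const_mul_one_add (hV : V.comap (algebraMap F F') = O)
    (hconst : ∀ x : F, x ≠ 0 → ∃ c : K, c ≠ 0 ∧ O.valuation x = O.valuation (algebraMap K F c))
    (hroot : ∀ (c : K) (n : ℕ), 0 < n → ∃ d : K, d ^ n = c)
    {σ : F' ≃+* F'} {τ : F →+* F}
    (hcomm : ∀ x : F, σ (algebraMap F F' x) = algebraMap F F' (τ x))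
    (hτK : ∀ c : K, ∃ c' : K, τ (algebraMap K F c) = algebraMap K F c' ∧
      O.valuation (algebraMap K F c') = O.valuation (algebraMap K F c))
    (htriv : ∀ x : F', x ∈ V → V.valuation (σ x - x) < 1)
    {f : F'} (hf : f ≠ 0) (halg : IsAlgebraic F f) :
    ∃ (b : K) (u : F'), b ≠ 0 ∧ O.valuation (algebraMap K F b) = 1 ∧
      V.valuation (u - 1) < 1 ∧ σ f = algebraMap K F' b * u * f := by
  obtain ⟨a, ha, hval⟩ := exists_val_eq_val_const hV hconst hroot hf halg
  obtain ⟨a', ha', hvala'⟩ := hτK a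
  have haF : algebraMap K F a ≠ 0 := (_root_.map_ne_zero _).mpr ha
  have haF' : algebraMap K F' a ≠ 0 := (_root_.map_ne_zero _).mpr ha
  have hwa : V.valuation (algebraMap K F' a) ≠ 0 := (Valuation.ne_zero_iff _).mpr haF'
  have ha'0 : a' ≠ 0 := by
    rintro rfl
    rw [map_zero, map_zero] at hvala'
    exact (Valuation.ne_zero_iff _).mpr haF hvala'.symm
  have ha'F' : algebraMap K F' a' ≠ 0 := (_root_.map_ne_zero _).mpr ha'0
  -- `g = f / a` is a unit of `V`
  obtain ⟨g, hg⟩ : ∃ g : F', g = f / algebraMap K F' a := ⟨_, rfl⟩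
  have hg1 : V.valuation g = 1 := by rw [hg, map_div₀, hval, div_self hwa]
  have hg0 : g ≠ 0 := by
    intro h
    rw [h, map_zero] at hg1
    exact zero_ne_one hg1
  have hgV : g ∈ V := (V.valuation_le_one_iff _).mp hg1.le
  have hσg0 : σ g ≠ 0 := (EmbeddingLike.map_ne_zero_iff).mpr hg0
  have hσa : σ (algebraMap K F' a) = algebraMap K F' a' := by
    rw [IsScalarTower.algebraMap_apply K F F', hcomm, ha', ← IsScalarTower.algebraMap_apply]
  have hfg : f = algebraMap K F' a * g := by rw [hg]; field_simp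
  refine ⟨a' / a, σ g / g, div_ne_zero ha'0 ha, ?_, ?_, ?_⟩
  · rw [map_div₀, map_div₀, hvala', div_self ((Valuation.ne_zero_iff _).mpr haF)]
  · have h1 : σ g / g - 1 = (σ g - g) / g := by field_simp
    rw [h1, map_div₀, hg1, div_one]
    exact htriv g hgV
  · have hgoal : σ (algebraMap K F' a * g) =
        algebraMap K F' (a' / a) * (σ g / g) * (algebraMap K F' a * g) := by
      rw [map_mul, hσa, map_div₀]
      field_simp
    rw [← hfg] at hgoal
    exact hgoal

end One

/-! ### The two valuation rings -/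

section Two

variable {O : ValuationSubring F} (S : Setup O F') {V₁ V₂ : ValuationSubring F'}

/-- **(Z1), abstract form.** -/
theorem exists_kummer_decomp (h₁ : S.IsExt S.G₁ V₁) (h₂ : S.IsExt S.G₂ V₂)
    (hconst : ∀ x : F, x ≠ 0 → ∃ c : K, c ≠ 0 ∧ O.valuation x = O.valuation (algebraMap K F c))
    (hroot : ∀ (c : K) (n : ℕ), 0 < n → ∃ d : K, d ^ n = c)
    {σ : F' ≃+* F'} {τ : F →+* F} (hσ : S.IsInertial σ τ)
    (hτK : ∀ c : K, ∃ c' : K, τ (algebraMap K F c) = algebraMap K F c' ∧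
      O.valuation (algebraMap K F c') = O.valuation (algebraMap K F c))
    {f : F'} (hf : f ≠ 0) (halg : IsAlgebraic F f) {n : ℕ} (hn : 0 < n) :
    ∃ (c : K) (h u : F'), c ≠ 0 ∧ h ≠ 0 ∧ u ≠ 0 ∧
      V₁.valuation (u - 1) < 1 ∧ V₂.valuation (u - 1) < 1 ∧
      σ f = algebraMap K F' c * h ^ n * u * f := by
  obtain ⟨b₁, u₁, hb₁, hb₁v, hu₁, hf₁⟩ := exists_const_mul_one_add (K := K) h₁.comap hconst hroot
    hσ.comm hτK (fun x hx => S.sub_lt_one_of_fix₁ hσ h₁ hx) hf halg
  obtain ⟨b₂, u₂, hb₂, hb₂v, hu₂, hf₂⟩ := exists_const_mul_one_add (K := K) h₂.comap hconst hroot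
    hσ.comm hτK (fun x hx => S.sub_lt_one_of_fix₂ hσ h₂ hx) hf halg
  -- `γ ^ n = b₂ / b₁`
  obtain ⟨γ, hγ⟩ := hroot (b₂ / b₁) n hn
  have hγ0 : γ ≠ 0 := by
    rintro rfl
    rw [zero_pow hn.ne'] at hγ
    exact div_ne_zero hb₂ hb₁ hγ.symm
  have hγv : O.valuation (algebraMap K F γ) = 1 := by
    have h1 : O.valuation (algebraMap K F γ) ^ n = 1 ^ n := by
      rw [← map_pow, ← map_pow, hγ, map_div₀, map_div₀, hb₁v, hb₂v, div_one, one_pow]
    exact (pow_left_inj₀ zero_le zero_le hn.ne').mp h1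
  have hγ₂ : V₂.valuation (algebraMap K F' γ) = 1 := by
    rw [IsScalarTower.algebraMap_apply K F F', val_alg_eq_one_iff h₂.comap]
    exact hγv
  obtain ⟨r, hr₁, hr₂, hr₁u, hr₂u⟩ := exists_approx_unit₂ S h₁ h₂
    (a₁ := 1) (a₂ := algebraMap K F' γ) (map_one _) hγ₂
  obtain ⟨h, hh⟩ : ∃ h : F', h = S.ev r := ⟨_, rfl⟩
  rw [← hh] at hr₁ hr₂ hr₁u hr₂u
  have hγ' : algebraMap K F' γ ^ n = algebraMap K F' (b₂ / b₁) := by rw [← map_pow, hγ]
  have hh0 : h ≠ 0 := by
    intro h0
    rw [h0, map_zero] at hr₁u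
    exact zero_ne_one hr₁u
  have hb₁F' : algebraMap K F' b₁ ≠ 0 := (_root_.map_ne_zero _).mpr hb₁
  -- `u₁ = (b₂ / b₁) u₂`
  have hu₁₂ : u₁ = algebraMap K F' (b₂ / b₁) * u₂ := by
    have h1 : algebraMap K F' b₁ * u₁ * f = algebraMap K F' b₂ * u₂ * f := by rw [← hf₁, ← hf₂]
    have h2 := mul_right_cancel₀ hf h1
    rw [map_div₀]
    field_simp
    rw [mul_comm u₁, h2, mul_comm]
  have hu₁v : V₁.valuation u₁ = 1 :=
    val_eq_one_of_sub_lt V₁.valuation (map_one _) hu₁
  have hu₂v : V₂.valuation u₂ = 1 :=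
    val_eq_one_of_sub_lt V₂.valuation (map_one _) hu₂
  have hu₁0 : u₁ ≠ 0 := by
    intro h0
    rw [h0, map_zero] at hu₁v
    exact zero_ne_one hu₁v
  refine ⟨b₁, h, u₁ / h ^ n, hb₁, hh0, div_ne_zero hu₁0 (pow_ne_zero _ hh0), ?_, ?_, ?_⟩
  · have h1 : u₁ / h ^ n - 1 = ((u₁ - 1) - (h ^ n - 1)) / h ^ n := by
      field_simp
      ring
    have hpow : V₁.valuation (h ^ n - 1) < 1 := by
      simpa using val_pow_sub_pow_lt V₁.valuation hr₁u.le (map_one _).le hr₁ n
    have hden : V₁.valuation (h ^ n) = 1 := by rw [map_pow, hr₁u, one_pow]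
    rw [h1, map_div₀, hden, div_one]
    exact Valuation.map_sub_lt _ hu₁ hpow
  · have h1 : u₁ / h ^ n - 1 =
        (algebraMap K F' (b₂ / b₁) * (u₂ - 1) - (h ^ n - algebraMap K F' γ ^ n)) / h ^ n := by
      rw [hu₁₂, hγ']
      field_simp
      ring
    have hden : V₂.valuation (h ^ n) = 1 := by rw [map_pow, hr₂u, one_pow]
    rw [h1, map_div₀, hden, div_one]
    refine Valuation.map_sub_lt _ ?_ ?_
    · rw [map_mul]
      have hβ : V₂.valuation (algebraMap K F' (b₂ / b₁)) = 1 := by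
        rw [IsScalarTower.algebraMap_apply K F F', val_alg_eq_one_iff h₂.comap, map_div₀,
          map_div₀, hb₁v, hb₂v, div_one]
      rw [hβ, one_mul]
      exact hu₂
    · exact val_pow_sub_pow_lt _ hr₂u.le hγ₂.le hr₂ n
  · rw [hf₁]
    field_simp

end Two

end Fermat.Agent.S34.TwoExtConst
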