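/-
PROJECT U (S34), safe piece: **the Atkin-Lehner involution** `w_ℓ` of `E = ℚ̄(X₀(N ℓ))`, `ℓ` prime,
`ℓ ∤ N` (Prelude order of the level: `modularFunctionFieldBar (N * ℓ)`).

With `F = ℚ̄(X₀(N))`, `α = heckeAlphaBar` (inclusion `F ⊆ E`), `β = heckeBetaBar` (`g ↦ g(t^ℓ)`):

* `exists_wq` : there is a `ℚ̄`-algebra automorphism `w` of `E` with `w (α g) = β g`,
  `w (β g) = α g` (so `w j(t^d) = j(t^(ℓ d))`, `w j(t^(ℓ d)) = j(t^d)` for `d ∣ N`), `w ∘ w = id`,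
  and the Laurent description `(w x)(t^ℓ) = ρ x`, `ρ` the second embedding of `ES/HeckeRho`.
* `fullC_mul_char` : in characteristic `ℓ` the function field of level `N ℓ` collapses:
  `k(j(t^d) : d ∣ N ℓ) = k(j(t^d) : d ∣ N)` inside `k((t))`, because `j(t^(ℓ d)) = j(t^d)^ℓ`.

Use: if `v₁` is the Gauss valuation of `E` (the `t`-expansion), then `v₂ := v₁ ∘ w` is the second
extension of the Gauss valuation of `F`: `(e, f) = (1, 1)` for `v₁`, `(1, ℓ)` (purely inseparable)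
for `v₂`.
-/
import Mathlib
import Fermat.Agent.S37.ES.HeckeRho

set_option autoImplicit false
set_option linter.unusedSectionVars false
set_option linter.style.haveILetI false

noncomputable section

namespace Fermat.Agent.S34.AtkinLehner

open Polynomial ModularCurve AlgebraicCurve IntermediateField
open Fermat.Agent.S28.LaurentRescale Fermat.Agent.S24.DegreeAlg Fermat.Agent.S37.ES.HeckeRho

local notation "Kb" => AlgebraicClosure ℚ

/-! ### Divisors of `N ℓ` -/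

theorem dvd_mul_prime_cases {N ℓ d : ℕ} (hℓ : ℓ.Prime) (hd : d ∣ N * ℓ) :
    d ∣ N ∨ ∃ d', d' ∣ N ∧ d = ℓ * d' := by
  by_cases h : ℓ ∣ d
  · obtain ⟨d', rfl⟩ := h
    refine Or.inr ⟨d', ?_, rfl⟩
    rw [mul_comm N ℓ] at hd
    exact Nat.dvd_of_mul_dvd_mul_left hℓ.pos hd
  · refine Or.inl ?_
    have hcop : Nat.Coprime d ℓ := (Nat.Coprime.symm ((Nat.Prime.coprime_iff_not_dvd hℓ).2 h))
    exact hcop.dvd_of_dvd_mul_right hd

/-! ### Characteristic `ℓ` -/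

section CharL

variable (k : Type*) [Field k] (N : ℕ) [NeZero N] (ℓ : ℕ) [hℓ : Fact ℓ.Prime] [CharP k ℓ]

/-- In characteristic `ℓ`: `j(t^(ℓ d)) = j(t^d)^ℓ`. -/
theorem qExpand_mul_jqModC_char (d : ℕ) [NeZero d] :
    haveI : NeZero (ℓ * d) := ⟨Nat.mul_ne_zero hℓ.out.ne_zero (NeZero.ne d)⟩
    qExpand k (ℓ * d) (jqModC k) = qExpand k d (jqModC k) ^ ℓ := by
  haveI : NeZero ℓ := ⟨hℓ.out.ne_zero⟩
  haveI : NeZero (ℓ * d) := ⟨Nat.mul_ne_zero hℓ.out.ne_zero (NeZero.ne d)⟩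
  rw [Fermat.Agent.S37.ES.KummerPoly.pow_char_eq_qExpand ℓ,
    Fermat.Agent.S28.PrimeCaseForm.coeffMap_qExpand, coeffMap_jqModC, qExpand_qExpand]

/-- **In characteristic `ℓ` the level `N ℓ` function field collapses to level `N`.** -/
theorem fullC_mul_char :
    haveI : NeZero ℓ := ⟨hℓ.out.ne_zero⟩
    modularFunctionFieldFullC k (N * ℓ) = modularFunctionFieldFullC k N := by
  haveI : NeZero ℓ := ⟨hℓ.out.ne_zero⟩
  apply le_antisymm
  · rw [modularFunctionFieldFullC, adjoin_le_iff]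
    rintro x ⟨d, hne, hdvd, rfl⟩
    haveI := hne
    rcases dvd_mul_prime_cases hℓ.out hdvd with h | ⟨d', hd', rfl⟩
    · exact jqModCd_mem_full k N h
    · haveI : NeZero d' := ⟨fun h0 => by
        subst h0
        exact (NeZero.ne (ℓ * 0)) (mul_zero ℓ)⟩
      show qExpand k (ℓ * d') (jqModC k) ∈ modularFunctionFieldFullC k N
      rw [qExpand_mul_jqModC_char k ℓ d']
      exact pow_mem (jqModCd_mem_full k N hd') ℓ
  · exact full_degeneracyC_le k (Dvd.intro ℓ rfl)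

end CharL

/-! ### The involution -/

section Main

variable {N : ℕ} {ℓ : ℕ} [NeZero N] [NeZero ℓ]

/-- Every generator `j(t^d)`, `d ∣ N ℓ`, of `E` is `α` or `β` of a generator of `F`. -/
theorem jdivF_mul_cases (hℓ : ℓ.Prime) (d : {d : ℕ // d ∣ N * ℓ}) :
    (∃ d' : {d : ℕ // d ∣ N}, jdivF (N * ℓ) d = heckeAlphaBar Kb N ℓ (jdivF N d')) ∨
      ∃ d' : {d : ℕ // d ∣ N}, jdivF (N * ℓ) d = heckeBetaBar Kb N ℓ (jdivF N d') := by
  obtain ⟨d, hd⟩ := d
  rcases dvd_mul_prime_cases hℓ hd with h | ⟨d', hd', rfl⟩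
  · refine Or.inl ⟨⟨d, h⟩, Subtype.ext ?_⟩
    rw [coe_heckeAlphaBar, coe_jdivF, coe_jdivF]
  · refine Or.inr ⟨⟨d', hd'⟩, Subtype.ext ?_⟩
    haveI : NeZero d' := neZero_of_dvd hd'
    rw [coe_heckeBetaBar, coe_jdivF, coe_jdivF, qExpand_qExpand]

/-- **The Atkin-Lehner involution** of `ℚ̄(X₀(N ℓ))`, `ℓ` prime, `ℓ ∤ N`. -/
theorem exists_wq (hℓ : ℓ.Prime) (hℓN : ¬ ℓ ∣ N) :
    ∃ w : ↥(modularFunctionFieldBar (N * ℓ)) ≃ₐ[Kb] ↥(modularFunctionFieldBar (N * ℓ)),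
      (∀ g : ↥(modularFunctionFieldBar N),
        w (heckeAlphaBar Kb N ℓ g) = heckeBetaBar Kb N ℓ g) ∧
      (∀ g : ↥(modularFunctionFieldBar N),
        w (heckeBetaBar Kb N ℓ g) = heckeAlphaBar Kb N ℓ g) ∧
      (∀ x, w (w x) = x) ∧
      ∃ ρ : ↥(modularFunctionFieldBar (N * ℓ)) →ₐ[Kb] LaurentSeries Kb,
        (∀ g : ↥(modularFunctionFieldBar N),
          ρ (heckeAlphaBar Kb N ℓ g) = qExpand Kb ℓ (qExpand Kb ℓ (g : LaurentSeries Kb)) ∧
          ρ (heckeBetaBar Kb N ℓ g) = qExpand Kb ℓ (g : LaurentSeries Kb)) ∧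
        ∀ x, qExpand Kb ℓ ((w x : ↥(modularFunctionFieldBar (N * ℓ))) : LaurentSeries Kb) = ρ x := by
  have hℓk : ((ℓ : ℕ) : Kb) ≠ 0 := Nat.cast_ne_zero.mpr hℓ.ne_zero
  obtain ⟨ζ, hζ⟩ := Fermat.Agent.S28.StepDeg.exists_isPrimitiveRoot_units (k := Kb) (p := ℓ) hℓk
  obtain ⟨ρ, hρ, hmem, -⟩ := exists_rho_charpoly_bar (N := N) hℓ hℓN hζ.eq_orderOf.symm
  have hinj : Function.Injective (qExpand Kb ℓ) := qExpand_injective ℓ
  -- `w₀ := V⁻¹ ∘ ρ`
  choose w0 hw0 using hmem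
  let w0hom : ↥(modularFunctionFieldBar (N * ℓ)) →ₐ[Kb] LaurentSeries Kb :=
    { toFun := w0
      map_one' := hinj (by rw [hw0, map_one, map_one])
      map_mul' := fun x y => hinj (by rw [hw0, map_mul, map_mul, hw0, hw0])
      map_zero' := hinj (by rw [hw0, map_zero, map_zero])
      map_add' := fun x y => hinj (by rw [hw0, map_add, map_add, hw0, hw0])
      commutes' := fun c => hinj (by
        rw [hw0, AlgHom.commutes]
        exact ((qExpandAlgHomC Kb ℓ).commutes c).symm) }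
  have hw0hom : ∀ x, w0hom x = w0 x := fun _ => rfl
  have hw0α : ∀ g : ↥(modularFunctionFieldBar N),
      w0hom (heckeAlphaBar Kb N ℓ g) =
        ((heckeBetaBar Kb N ℓ g : ↥(modularFunctionFieldBar (N * ℓ))) : LaurentSeries Kb) := by
    intro g
    apply hinj
    rw [hw0hom, hw0, (hρ g).1, coe_heckeBetaBar]
  have hw0β : ∀ g : ↥(modularFunctionFieldBar N),
      w0hom (heckeBetaBar Kb N ℓ g) =
        ((heckeAlphaBar Kb N ℓ g : ↥(modularFunctionFieldBar (N * ℓ))) : LaurentSeries Kb) := by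
    intro g
    apply hinj
    rw [hw0hom, hw0, (hρ g).2, coe_heckeAlphaBar]
  -- `w₀` maps `E` into `E`
  have hmemE : ∀ x, w0hom x ∈ modularFunctionFieldBar (N * ℓ) := by
    have htop : (⊤ : IntermediateField Kb ↥(modularFunctionFieldBar (N * ℓ))) ≤
        (modularFunctionFieldBar (N * ℓ)).comap w0hom := by
      rw [← adjoin_range_jdivF_eq_top (N * ℓ), adjoin_le_iff]
      rintro _ ⟨d, rfl⟩
      show w0hom (jdivF (N * ℓ) d) ∈ modularFunctionFieldBar (N * ℓ)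
      rcases jdivF_mul_cases hℓ d with ⟨d', h⟩ | ⟨d', h⟩
      · rw [h, hw0α]
        exact (heckeBetaBar Kb N ℓ (jdivF N d')).2
      · rw [h, hw0β]
        exact (heckeAlphaBar Kb N ℓ (jdivF N d')).2
    intro x
    exact htop (IntermediateField.mem_top (x := x))
  let w1 : ↥(modularFunctionFieldBar (N * ℓ)) →ₐ[Kb] ↥(modularFunctionFieldBar (N * ℓ)) :=
    w0hom.codRestrict (modularFunctionFieldBar (N * ℓ)).toSubalgebra hmemE
  have hw1 : ∀ x, ((w1 x : ↥(modularFunctionFieldBar (N * ℓ))) : LaurentSeries Kb) = w0hom x :=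
    fun _ => rfl
  have hw1α : ∀ g : ↥(modularFunctionFieldBar N),
      w1 (heckeAlphaBar Kb N ℓ g) = heckeBetaBar Kb N ℓ g := fun g =>
    Subtype.ext (by rw [hw1, hw0α])
  have hw1β : ∀ g : ↥(modularFunctionFieldBar N),
      w1 (heckeBetaBar Kb N ℓ g) = heckeAlphaBar Kb N ℓ g := fun g =>
    Subtype.ext (by rw [hw1, hw0β])
  have hinv : w1.comp w1 = AlgHom.id Kb ↥(modularFunctionFieldBar (N * ℓ)) := by
    refine algHom_ext_jdivF (N * ℓ) _ _ fun d => ?_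
    rcases jdivF_mul_cases hℓ d with ⟨d', h⟩ | ⟨d', h⟩
    · rw [h, AlgHom.comp_apply, hw1α, hw1β, AlgHom.id_apply]
    · rw [h, AlgHom.comp_apply, hw1β, hw1α, AlgHom.id_apply]
  refine ⟨AlgEquiv.ofAlgHom w1 w1 hinv hinv, hw1α, hw1β, fun x => ?_, ρ, hρ, fun x => ?_⟩
  · exact DFunLike.congr_fun hinv x
  · show qExpand Kb ℓ (w0 x) = ρ x
    exact hw0 x

end Main

end Fermat.Agent.S34.AtkinLehner
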