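/-
PROJECT U (S34), safe piece: **Kronecker's congruence** for the modular polynomial of prime
level `q`:
  `Φ_q(Y, j) ≡ (Y - j^q) (Y^q - j)  (mod q)`.

* Laurent form: in characteristic `q`, `gPoly q k = Y^q - j(t)` and
  `rPoly q k = (Y - j(t)^q) (Y^q - j(t))` (`gPoly`, `rPoly` of `S28/ModPoly`: over any ring,
  `rPoly q R = (Y - j(t^q)) · gPoly q R` is the modular polynomial `Φ_q(Y, j(t))` in factored form).
* Polynomial form `kronecker`: there is `Φ ∈ ℤ[j][Y]`, monic of degree `q + 1`, with
  `Φ(Y, j(t)) = rPoly q ℤ` over `ℤ((t))` and, for every field `k` of characteristic `q`,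
  `Φ mod q = (Y - j^q)(Y^q - j)` in `k[j][Y]`.

Route: over `ℚ̄`, `gPoly(t^q) = ∏_{b<q} (Y - j(ζ^b t))` (`S28/ModPoly.map_qExpand_gPoly`); `ζ` is a unit
of every valuation subring `A` of `ℚ̄`; modulo the maximal ideal of an `A` over `q` the product
becomes `(Y - j(t))^q = Y^q - j(t^q)` (`S37/ES/KummerPoly`); descend from the residue field of `A`
to `𝔽_q` and go up to `k` by injectivity of coefficient maps.
-/
import Mathlib
import Fermat.Agent.S28.ModPolyPrime
import Fermat.Agent.S28.Step.OfDefs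
import Fermat.Agent.S37.ES.KummerPoly
import Fermat.Agent.S37.ES.NormRed
import Fermat.Agent.Lib.FrobeniusExists
import Fermat.Agent.S18.ResidueBasics

set_option autoImplicit false
set_option linter.unusedSectionVars false
set_option linter.style.haveILetI false

noncomputable section

namespace Fermat.Agent.S34.Kronecker

open Polynomial ModularCurve
open Fermat.Agent.S28.ModPoly Fermat.Agent.S28.LaurentRescale
open Fermat.Agent.S37.ES.KummerPoly

local notation "Kb" => AlgebraicClosure ℚ

/-! ### Generalities -/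

section General

variable {R S : Type*} [CommRing R] [CommRing S]

theorem coeffMap_injective {φ : R →+* S} (hφ : Function.Injective φ) :
    Function.Injective (coeffMap φ) := by
  intro x y h
  ext n
  have := congrArg (fun z => z.coeff n) h
  simp only [coeffMap_coeff] at this
  exact hφ this

theorem map_coeffMap_kummerPoly_units (φ : R →+* S) (ℓ : ℕ) (ζ : Rˣ) (y : LaurentSeries R) :
    (kummerPoly ℓ ζ y).map (coeffMap φ) =
      kummerPoly ℓ (Units.map φ.toMonoidHom ζ) (coeffMap φ y) := by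
  rw [kummerPoly, kummerPoly, Polynomial.map_prod]
  refine Finset.prod_congr rfl fun b _ => ?_
  rw [Polynomial.map_sub, map_X, map_C, coeffMap_rescaleU, map_pow]

end General

/-! ### `gPoly` in characteristic `q` -/

section Char

variable (q : ℕ) [hq : Fact q.Prime]

/-- Over a valuation subring `A` of `ℚ̄`: `gPoly(t^q) = ∏_b (Y - j(ζ^b t))` with `ζ ∈ Aˣ`. -/
theorem map_qExpand_gPoly_valuationSubring (A : ValuationSubring Kb) :
    haveI : NeZero q := ⟨hq.out.ne_zero⟩
    ∃ ζA : (↥A)ˣ, ζA ^ q = 1 ∧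
      (gPoly q ↥A).map (qExpand ↥A q) = kummerPoly q ζA (jqModC ↥A) := by
  haveI : NeZero q := ⟨hq.out.ne_zero⟩
  have hqk : ((q : ℕ) : Kb) ≠ 0 := Nat.cast_ne_zero.mpr hq.out.ne_zero
  obtain ⟨ζ, hζ⟩ := Fermat.Agent.S28.StepDeg.exists_isPrimitiveRoot_units (k := Kb) (p := q) hqk
  obtain ⟨ζA, hζA, hord⟩ :=
    Fermat.Agent.S37.ES.NormRed.exists_unit_of_isPrimitiveRoot A hq.out.pos hζ
  refine ⟨ζA, by rw [← hord, pow_orderOf_eq_one], ?_⟩
  have hinj : Function.Injective
      (Polynomial.map (coeffMap (A.subtype : ↥A →+* Kb)) :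
        Polynomial (LaurentSeries ↥A) → Polynomial (LaurentSeries Kb)) :=
    Polynomial.map_injective _ (coeffMap_injective A.subtype_injective)
  apply hinj
  rw [map_coeffMap_kummerPoly_units, hζA, coeffMap_jqModC, Polynomial.map_map]
  have hcomp : (coeffMap (A.subtype : ↥A →+* Kb)).comp (qExpand ↥A q) =
      (qExpand Kb q).comp (coeffMap (A.subtype : ↥A →+* Kb)) := by
    refine RingHom.ext fun x => ?_
    exact Fermat.Agent.S28.PrimeCaseForm.coeffMap_qExpand _ q x
  rw [hcomp, ← Polynomial.map_map, map_gPoly, map_qExpand_gPoly q Kb hζ]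
  rfl

/-- `gPoly q k = Y^q - j` for the residue field of a valuation subring of `ℚ̄` over `q`. -/
theorem gPoly_residueField (A : ValuationSubring Kb) (hA : A.LiesOverPrime q) :
    haveI : NeZero q := ⟨hq.out.ne_zero⟩
    gPoly q (IsLocalRing.ResidueField ↥A) =
      X ^ q - C (jqModC (IsLocalRing.ResidueField ↥A)) := by
  haveI : NeZero q := ⟨hq.out.ne_zero⟩
  haveI := Fermat.Agent.S18.ResidueBasics.charP_residueField A hA
  obtain ⟨ζA, hζ1, hg⟩ := map_qExpand_gPoly_valuationSubring q A
  have hinj : Function.Injective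
      (Polynomial.map (qExpand (IsLocalRing.ResidueField ↥A) q) :
        Polynomial (LaurentSeries (IsLocalRing.ResidueField ↥A)) →
          Polynomial (LaurentSeries (IsLocalRing.ResidueField ↥A))) :=
    Polynomial.map_injective _ (qExpand_injective q)
  apply hinj
  have hcomp : (qExpand (IsLocalRing.ResidueField ↥A) q).comp
        (coeffMap (IsLocalRing.residue ↥A)) =
      (coeffMap (IsLocalRing.residue ↥A)).comp (qExpand ↥A q) := by
    refine RingHom.ext fun x => ?_
    exact (Fermat.Agent.S28.PrimeCaseForm.coeffMap_qExpand _ q x).symm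
  rw [← map_gPoly q ↥A (IsLocalRing.residue ↥A), Polynomial.map_map, hcomp,
    ← Polynomial.map_map, hg,
    map_coeffMap_kummerPoly_char q (IsLocalRing.residue ↥A) hζ1, coeffMap_jqModC, coeffMap_jqModC,
    Polynomial.map_sub, Polynomial.map_pow, map_X, map_C]

/-- `gPoly q 𝔽_q = Y^q - j`. -/
theorem gPoly_zmod :
    haveI : NeZero q := ⟨hq.out.ne_zero⟩
    gPoly q (ZMod q) = X ^ q - C (jqModC (ZMod q)) := by
  haveI : NeZero q := ⟨hq.out.ne_zero⟩
  obtain ⟨A, hA⟩ :=
    Fermat.Agent.Lib.FrobeniusExists.exists_valuationSubring_liesOverPrime (L := Kb) q hq.out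
  haveI := Fermat.Agent.S18.ResidueBasics.charP_residueField A hA
  set φ : ZMod q →+* IsLocalRing.ResidueField ↥A := ZMod.castHom (dvd_refl q) _ with hφ
  have hinj : Function.Injective
      (Polynomial.map (coeffMap φ) :
        Polynomial (LaurentSeries (ZMod q)) →
          Polynomial (LaurentSeries (IsLocalRing.ResidueField ↥A))) :=
    Polynomial.map_injective _ (coeffMap_injective φ.injective)
  apply hinj
  rw [map_gPoly, gPoly_residueField q A hA, Polynomial.map_sub, Polynomial.map_pow, map_X, map_C,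
    coeffMap_jqModC]

/-- **`gPoly` in characteristic `q`**: `gPoly q k = Y^q - j`. -/
theorem gPoly_char (k : Type*) [Field k] [CharP k q] :
    haveI : NeZero q := ⟨hq.out.ne_zero⟩
    gPoly q k = X ^ q - C (jqModC k) := by
  haveI : NeZero q := ⟨hq.out.ne_zero⟩
  rw [← map_gPoly q (ZMod q) (ZMod.castHom (dvd_refl q) k), gPoly_zmod, Polynomial.map_sub,
    Polynomial.map_pow, map_X, map_C, coeffMap_jqModC]

/-- In characteristic `q`: `j(t^q) = j(t)^q`. -/
theorem qExpand_jqModC_char (k : Type*) [Field k] [CharP k q] :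
    haveI : NeZero q := ⟨hq.out.ne_zero⟩
    qExpand k q (jqModC k) = jqModC k ^ q := by
  haveI : NeZero q := ⟨hq.out.ne_zero⟩
  rw [pow_char_eq_qExpand q (jqModC k), coeffMap_jqModC]

/-- **Kronecker's congruence, Laurent form**: `Φ_q(Y, j(t)) = (Y - j(t)^q)(Y^q - j(t))` in
characteristic `q`. -/
theorem rPoly_char (k : Type*) [Field k] [CharP k q] :
    haveI : NeZero q := ⟨hq.out.ne_zero⟩
    rPoly q k = (X - C (jqModC k ^ q)) * (X ^ q - C (jqModC k)) := by
  haveI : NeZero q := ⟨hq.out.ne_zero⟩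
  rw [rPoly, gPoly_char, qExpand_jqModC_char]

/-- **Kronecker's congruence**: the modular polynomial `Φ_q ∈ ℤ[j][Y]` (monic of degree `q + 1`,
`Φ_q(Y, j(t)) = (Y - j(t^q)) ∏_b (Y - j(ζ^b t^{1/q}))` over `ℤ((t))`) reduces to
`(Y - j^q)(Y^q - j)` in every field of characteristic `q`. -/
theorem kronecker :
    haveI : NeZero q := ⟨hq.out.ne_zero⟩
    ∃ Φ : Polynomial (Polynomial ℤ), Φ.Monic ∧ Φ.natDegree = q + 1 ∧
      Φ.map (evalL ℤ (jqModC ℤ)) = rPoly q ℤ ∧
      ∀ (k : Type) [Field k] [CharP k q],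
        Φ.map (Polynomial.mapRingHom (Int.castRingHom k)) =
          (X - C (X ^ q)) * (X ^ q - C X) := by
  haveI : NeZero q := ⟨hq.out.ne_zero⟩
  obtain ⟨Φ, hmonic, hdeg, hΦ⟩ := Fermat.Agent.S28.ModPolyPrime.exists_PhiZ q hq.out
  refine ⟨Φ, hmonic, hdeg, hΦ, ?_⟩
  intro k _ _
  have hinj : Function.Injective
      (Polynomial.map (evalL k (jqModC k)) :
        Polynomial (Polynomial k) → Polynomial (LaurentSeries k)) :=
    Polynomial.map_injective _ (evalL_jq_injective k)
  apply hinj
  rw [map_map_evalL q k Φ hΦ, rPoly_char]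
  simp only [Polynomial.map_mul, Polynomial.map_sub, Polynomial.map_pow, map_X, map_C, map_pow,
    evalL_X]

end Char

end Fermat.Agent.S34.Kronecker
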