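/-
PROJECT U (S34), slice (Z1) consumer side: the extension `F = ℚ̄(X₀(N)) ⊆ E = ℚ̄(X₀(N ℓ))` (via
`α = heckeAlphaBar`), `ℓ` prime, `ℓ ∤ N`, is generated by `j_ℓ := β j = j(t^ℓ)`, whose minimal
polynomial over `F` is the modular polynomial `Φ_ℓ(X, j)`; and the factorisation data of `Φ_ℓ`
in characteristic `ℓ` (Kronecker): `Φ_ℓ(X, j̄) = (X - j̄^ℓ)(X^ℓ - j̄)` with `X^ℓ - j̄` irreducible over
`F_k = k(X₀(N))` and the two factors coprime.

These are exactly the inputs of the abstract "Dedekind-Kummer for valuation rings" (two extensions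
`v₁`, `v₂` of the Gauss valuation of `F` to `E`, with `(e, f) = (1, 1), (1, ℓ)`).
-/
import Mathlib
import Fermat.Agent.S34.Kronecker
import Fermat.Agent.S34.AtkinLehner
import Fermat.Agent.S18.B.FkBasics

set_option autoImplicit false
set_option linter.unusedSectionVars false
set_option linter.style.haveILetI false

noncomputable section

namespace Fermat.Agent.S34.PowerBasisX0

open Polynomial ModularCurve AlgebraicCurve IntermediateField
open Fermat.Agent.S28.LaurentRescale Fermat.Agent.S28.ModPoly Fermat.Agent.S24.DegreeAlg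
open Fermat.Agent.S37.ES.HeckeRho Fermat.Agent.S18.B.FkBasics

local notation "Kb" => AlgebraicClosure ℚ

/-! ### Characteristic `ℓ`: the two factors -/

section CharL

variable (k : Type*) [Field k] (N : ℕ) [NeZero N] (ℓ : ℕ) [hℓ : Fact ℓ.Prime]

theorem order_jqModC : (jqModC k).order = -1 := by
  have hne : jqModC k ≠ 0 := jqModC_ne_zero_of_nontrivial k
  apply le_antisymm
  · exact HahnSeries.order_le_of_coeff_ne_zero (by rw [coeff_jqModC_neg_one]; exact one_ne_zero)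
  · by_contra hlt
    rw [not_le] at hlt
    have h0 := coeff_jqModC_of_lt k hlt
    exact hne (HahnSeries.coeff_order_eq_zero.1 h0)

/-- `j̄` is not an `ℓ`-th power in `k((t))` (its order is `-1`). -/
theorem pow_ne_jqModC (b : LaurentSeries k) : b ^ ℓ ≠ jqModC k := by
  intro h
  have h1 := congrArg HahnSeries.order h
  rw [HahnSeries.order_pow, order_jqModC] at h1
  have h2 : (ℓ : ℤ) ∣ -1 := ⟨b.order, by rw [← h1]; simp⟩
  have h3 : (ℓ : ℤ) ∣ 1 := (dvd_neg).1 h2
  have h4 : ℓ ∣ 1 := by exact_mod_cast h3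
  exact hℓ.out.one_lt.ne' (Nat.dvd_one.1 h4)

/-- `j̄` is not an `ℓ`-th power in `F_k`. -/
theorem pow_ne_jk (b : ↥(modularFunctionFieldFullC k N)) : b ^ ℓ ≠ jk k N := by
  intro h
  exact pow_ne_jqModC k ℓ (b : LaurentSeries k) (by
    have := congrArg Subtype.val h
    simpa using this)

/-- **`X^ℓ - j̄` is irreducible over `F_k`.** -/
theorem irreducible_X_pow_sub_C_jk :
    Irreducible (X ^ ℓ - C (jk k N) : Polynomial ↥(modularFunctionFieldFullC k N)) :=
  (X_pow_sub_C_irreducible_iff_of_prime hℓ.out).2 (pow_ne_jk k N ℓ)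

/-- `j̄^(ℓ²) ≠ j̄`. -/
theorem jk_pow_sq_ne : jk k N ^ (ℓ ^ 2) ≠ jk k N := by
  intro h
  have h0 := congrArg (fun x : ↥(modularFunctionFieldFullC k N) => (x : LaurentSeries k)) h
  simp only [SubmonoidClass.coe_pow, coe_jk] at h0
  have h1 := congrArg HahnSeries.order h0
  rw [HahnSeries.order_pow, order_jqModC] at h1
  have hℓ2 : 2 ≤ ℓ := hℓ.out.two_le
  have : (4 : ℤ) ≤ ((ℓ ^ 2 : ℕ) : ℤ) := by
    have : 4 ≤ ℓ ^ 2 := by nlinarith
    exact_mod_cast this
  simp only [nsmul_eq_mul, mul_neg, mul_one, neg_inj] at h1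
  omega

/-- **The two factors are coprime.** -/
theorem isCoprime_factors :
    IsCoprime (X - C (jk k N ^ ℓ) : Polynomial ↥(modularFunctionFieldFullC k N))
      (X ^ ℓ - C (jk k N)) := by
  rw [(irreducible_X_sub_C (jk k N ^ ℓ)).coprime_iff_not_dvd, dvd_iff_isRoot, IsRoot.def]
  simp only [eval_sub, eval_pow, eval_X, eval_C]
  rw [← pow_mul, sub_eq_zero, ← sq]
  exact jk_pow_sq_ne k N ℓ

/-- The modular polynomial evaluated at `j̄ ∈ F_k` factors (Kronecker). -/
theorem map_aeval_jk_of_kronecker (k : Type) [Field k] (N : ℕ) [NeZero N] (ℓ : ℕ)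
    {Φ : Polynomial (Polynomial ℤ)}
    (hΦ : Φ.map (Polynomial.mapRingHom (Int.castRingHom k)) = (X - C (X ^ ℓ)) * (X ^ ℓ - C X)) :
    Φ.map ((aeval (jk k N) : Polynomial ℤ →ₐ[ℤ] ↥(modularFunctionFieldFullC k N)) :
        Polynomial ℤ →+* ↥(modularFunctionFieldFullC k N)) =
      (X - C (jk k N ^ ℓ)) * (X ^ ℓ - C (jk k N)) := by
  have hcomp : ((aeval (jk k N) : Polynomial ℤ →ₐ[ℤ] ↥(modularFunctionFieldFullC k N)) :
        Polynomial ℤ →+* ↥(modularFunctionFieldFullC k N)) =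
      ((aeval (jk k N) : Polynomial k →ₐ[k] ↥(modularFunctionFieldFullC k N)) :
        Polynomial k →+* ↥(modularFunctionFieldFullC k N)).comp
        (Polynomial.mapRingHom (Int.castRingHom k)) := by
    apply Polynomial.ringHom_ext
    · intro a
      simp
    · simp
  rw [hcomp, ← Polynomial.map_map, hΦ]
  simp

end CharL

/-! ### Characteristic zero: `j(t^ℓ)` generates `E` over `F` -/

section Main

variable {N : ℕ} {ℓ : ℕ} [NeZero N] [NeZero ℓ]

/-- `j_ℓ = β j = j(t^ℓ)` as an element of `E = ℚ̄(X₀(N ℓ))`. -/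
def jl (N ℓ : ℕ) [NeZero N] [NeZero ℓ] : ↥(modularFunctionFieldBar (N * ℓ)) :=
  heckeBetaBar Kb N ℓ (jgen N)

theorem coe_jl : ((jl N ℓ : ↥(modularFunctionFieldBar (N * ℓ))) : LaurentSeries Kb) =
    qExpand Kb ℓ (jqModC Kb) := by
  rw [jl, coe_heckeBetaBar, Fermat.Agent.S18.B.Basic.coe_jgen_eq]

/-- **The minimal polynomial of `j_ℓ` over `F` (along `α`) has degree `ℓ + 1`.** -/
theorem natDegree_minpoly_jl (hℓ : ℓ.Prime) (hℓN : ¬ ℓ ∣ N) :
    letI := algebraAlong (heckeAlphaBar Kb N ℓ)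
    (minpoly ↥(modularFunctionFieldBar N) (jl N ℓ)).natDegree = ℓ + 1 := by
  classical
  letI algFE := algebraAlong (heckeAlphaBar Kb N ℓ)
  have hfr : Module.finrank ↥(modularFunctionFieldBar N) ↥(modularFunctionFieldBar (N * ℓ))
      = ℓ + 1 := Fermat.Agent.S37.ES.DegreeBeta.finrankAlong_alpha N hℓ hℓN
  haveI hfin : Module.Finite ↥(modularFunctionFieldBar N) ↥(modularFunctionFieldBar (N * ℓ)) :=
    FiniteDimensional.of_finrank_pos (by rw [hfr]; omega)
  apply le_antisymm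
  · rw [← hfr]
    exact minpoly.natDegree_le _
  -- the `ℓ + 1` embeddings
  have hℓk : ((ℓ : ℕ) : Kb) ≠ 0 := Nat.cast_ne_zero.mpr hℓ.ne_zero
  obtain ⟨ζ, hζ⟩ := Fermat.Agent.S28.StepDeg.exists_isPrimitiveRoot_units (k := Kb) (p := ℓ) hℓk
  obtain ⟨w, hwα, hwβ, -, ρ, hρ, -⟩ := Fermat.Agent.S34.AtkinLehner.exists_wq (N := N) hℓ hℓN
  set m := minpoly ↥(modularFunctionFieldBar N) (jl N ℓ) with hm
  set ι : ↥(modularFunctionFieldBar N) →+* LaurentSeries Kb :=
    (qExpand Kb ℓ).comp (modularFunctionFieldBar N).val.toRingHom with hι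
  have hιinj : Function.Injective ι :=
    (qExpand_injective ℓ).comp (modularFunctionFieldBar N).val.toRingHom.injective
  have hmdeg : (m.map ι).natDegree = m.natDegree := natDegree_map_eq_of_injective hιinj m
  have hm0 : m.map ι ≠ 0 := by
    rw [Ne, Polynomial.map_eq_zero_iff hιinj]
    exact minpoly.ne_zero (IsIntegral.of_finite _ _)
  -- generic root statement
  have hroot : ∀ τ : ↥(modularFunctionFieldBar (N * ℓ)) →+* LaurentSeries Kb,
      (∀ g : ↥(modularFunctionFieldBar N), τ (heckeAlphaBar Kb N ℓ g) = ι g) →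
        (m.map ι).IsRoot (τ (jl N ℓ)) := by
    intro τ hτ
    have h0 : aeval (jl N ℓ) m = 0 := minpoly.aeval _ _
    have h1 := congrArg τ h0
    rw [map_zero, aeval_def, hom_eval₂] at h1
    have hcomp : τ.comp (algebraMap ↥(modularFunctionFieldBar N)
        ↥(modularFunctionFieldBar (N * ℓ))) = ι := RingHom.ext fun g => hτ g
    rw [hcomp] at h1
    rw [IsRoot.def, eval_map]
    exact h1
  -- `τ₀ = ρ ∘ w`
  have hr0 : (m.map ι).IsRoot (qExpand Kb ℓ (qExpand Kb ℓ (jqModC Kb))) := by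
    have := hroot ((ρ : ↥(modularFunctionFieldBar (N * ℓ)) →+* LaurentSeries Kb).comp
      (w : ↥(modularFunctionFieldBar (N * ℓ)) →+* ↥(modularFunctionFieldBar (N * ℓ))))
      (fun g => by
        show ρ (w (heckeAlphaBar Kb N ℓ g)) = _
        rw [hwα, (hρ g).2]
        rfl)
    have hval : ((ρ : ↥(modularFunctionFieldBar (N * ℓ)) →+* LaurentSeries Kb).comp
      (w : ↥(modularFunctionFieldBar (N * ℓ)) →+* ↥(modularFunctionFieldBar (N * ℓ))))
        (jl N ℓ) = qExpand Kb ℓ (qExpand Kb ℓ (jqModC Kb)) := by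
      show ρ (w (heckeBetaBar Kb N ℓ (jgen N))) = _
      rw [hwβ, (hρ (jgen N)).1, Fermat.Agent.S18.B.Basic.coe_jgen_eq]
    rwa [hval] at this
  -- `τ_b = rescaleU (ζ^b) ∘ val ∘ w`
  have hζℓ : ζ ^ ℓ = 1 := hζ.pow_eq_one
  have hrb : ∀ b : ℕ, (m.map ι).IsRoot (rescaleU (ζ ^ b) (jqModC Kb)) := by
    intro b
    have hpow : (ζ ^ b) ^ ℓ = 1 := by rw [← pow_mul, mul_comm, pow_mul, hζℓ, one_pow]
    have := hroot (((rescaleU (ζ ^ b) : LaurentSeries Kb ≃+* LaurentSeries Kb) :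
        LaurentSeries Kb →+* LaurentSeries Kb).comp
      ((modularFunctionFieldBar (N * ℓ)).val.toRingHom.comp
        (w : ↥(modularFunctionFieldBar (N * ℓ)) →+* ↥(modularFunctionFieldBar (N * ℓ)))))
      (fun g => by
        show rescaleU (ζ ^ b) ((w (heckeAlphaBar Kb N ℓ g) :
          ↥(modularFunctionFieldBar (N * ℓ))) : LaurentSeries Kb) = _
        rw [hwα, coe_heckeBetaBar, rescaleU_qExpand_of_pow_eq_one ℓ hpow]
        rfl)
    have hval : (((rescaleU (ζ ^ b) : LaurentSeries Kb ≃+* LaurentSeries Kb) :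
        LaurentSeries Kb →+* LaurentSeries Kb).comp
      ((modularFunctionFieldBar (N * ℓ)).val.toRingHom.comp
        (w : ↥(modularFunctionFieldBar (N * ℓ)) →+* ↥(modularFunctionFieldBar (N * ℓ)))))
        (jl N ℓ) = rescaleU (ζ ^ b) (jqModC Kb) := by
      show rescaleU (ζ ^ b) ((w (heckeBetaBar Kb N ℓ (jgen N)) :
          ↥(modularFunctionFieldBar (N * ℓ))) : LaurentSeries Kb) = _
      rw [hwβ, coe_heckeAlphaBar, Fermat.Agent.S18.B.Basic.coe_jgen_eq]
    rwa [hval] at this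
  -- the roots are pairwise distinct
  have hℓ1 : ¬ ℓ ∣ 1 := fun h => hℓ.one_lt.ne' (Nat.dvd_one.1 h)
  have hnotmem : ∀ b : ℕ, rescaleU (ζ ^ b) (jqModC Kb) ∉ Set.range (qExpand Kb ℓ) := by
    intro b
    have := qExpand_rescaleU_jqModC_not_mem (k := Kb) (ℓ := ℓ) (d := 1) hℓ1 (ζ ^ b)
    rwa [qExpand_one_apply] at this
  have hinjb : Set.InjOn (fun b : ℕ => rescaleU (ζ ^ b) (jqModC Kb)) (Finset.range ℓ : Set ℕ) := by
    intro b hb b' hb' h
    have h1 : ζ ^ b = ζ ^ b' :=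
      eq_of_rescaleU_eq (by rw [coeff_neg_one_jqModC]; exact one_ne_zero) h
    exact hζ.pow_inj (Finset.mem_range.1 hb) (Finset.mem_range.1 hb') h1
  set S : Finset (LaurentSeries Kb) :=
    insert (qExpand Kb ℓ (qExpand Kb ℓ (jqModC Kb)))
      ((Finset.range ℓ).image fun b : ℕ => rescaleU (ζ ^ b) (jqModC Kb)) with hS
  have hScard : S.card = ℓ + 1 := by
    rw [hS, Finset.card_insert_of_notMem, Finset.card_image_of_injOn hinjb, Finset.card_range]
    intro hmem
    obtain ⟨b, -, hb⟩ := Finset.mem_image.1 hmem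
    exact hnotmem b (hb ▸ ⟨_, rfl⟩)
  have hSroots : S.val ⊆ (m.map ι).roots := by
    intro x hx
    rw [Finset.mem_val, hS, Finset.mem_insert, Finset.mem_image] at hx
    rw [mem_roots hm0]
    rcases hx with rfl | ⟨b, -, rfl⟩
    · exact hr0
    · exact hrb b
  have := card_le_degree_of_subset_roots hSroots
  rw [hScard, hmdeg] at this
  exact this

/-- **`j_ℓ` is a primitive element of `E / F`.** -/
theorem adjoin_jl_eq_top (hℓ : ℓ.Prime) (hℓN : ¬ ℓ ∣ N) :
    letI := algebraAlong (heckeAlphaBar Kb N ℓ)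
    (↥(modularFunctionFieldBar N))⟮jl N ℓ⟯ = ⊤ := by
  letI algFE := algebraAlong (heckeAlphaBar Kb N ℓ)
  have hfr : Module.finrank ↥(modularFunctionFieldBar N) ↥(modularFunctionFieldBar (N * ℓ))
      = ℓ + 1 := Fermat.Agent.S37.ES.DegreeBeta.finrankAlong_alpha N hℓ hℓN
  haveI hfin : Module.Finite ↥(modularFunctionFieldBar N) ↥(modularFunctionFieldBar (N * ℓ)) :=
    FiniteDimensional.of_finrank_pos (by rw [hfr]; omega)
  rw [Field.primitive_element_iff_minpoly_natDegree_eq, hfr]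
  exact natDegree_minpoly_jl hℓ hℓN

/-- The modular polynomial with coefficients in `F`: `Φ_ℓ(X, j)`. -/
def modPolyF (N : ℕ) [NeZero N] (Φ : Polynomial (Polynomial ℤ)) :
    Polynomial ↥(modularFunctionFieldBar N) :=
  Φ.map ((aeval (jgen N) : Polynomial ℤ →ₐ[ℤ] ↥(modularFunctionFieldBar N)) :
    Polynomial ℤ →+* ↥(modularFunctionFieldBar N))

theorem modPolyF_monic {Φ : Polynomial (Polynomial ℤ)} (hΦ : Φ.Monic) : (modPolyF N Φ).Monic :=
  hΦ.map _

theorem natDegree_modPolyF {Φ : Polynomial (Polynomial ℤ)} (hΦ : Φ.Monic) :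
    (modPolyF N Φ).natDegree = Φ.natDegree :=
  hΦ.natDegree_map _

/-- The coefficients of `Φ_ℓ(X, j)` lie in every subring of `F` containing `j`. -/
theorem modPolyF_mem_lifts (Φ : Polynomial (Polynomial ℤ)) (S : Subring ↥(modularFunctionFieldBar N))
    (hS : jgen N ∈ S) : modPolyF N Φ ∈ Polynomial.lifts S.subtype := by
  refine ⟨Φ.map ((aeval (⟨jgen N, hS⟩ : S) : Polynomial ℤ →ₐ[ℤ] S) : Polynomial ℤ →+* S), ?_⟩
  rw [Polynomial.coe_mapRingHom, Polynomial.map_map, modPolyF]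
  congr 1
  apply Polynomial.ringHom_ext
  · intro a
    simp
  · simp

/-- `Φ_ℓ(j_ℓ, j) = 0` in `E`, where `Φ(X, j(t)) = rPoly ℓ ℤ` over `ℤ((t))`. -/
theorem aeval_jl_modPolyF {Φ : Polynomial (Polynomial ℤ)}
    (hΦ : Φ.map (evalL ℤ (jqModC ℤ)) = rPoly ℓ ℤ) :
    letI := algebraAlong (heckeAlphaBar Kb N ℓ)
    aeval (jl N ℓ) (modPolyF N Φ) = 0 := by
  letI algFE := algebraAlong (heckeAlphaBar Kb N ℓ)
  set v : ↥(modularFunctionFieldBar (N * ℓ)) →+* LaurentSeries Kb :=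
    (modularFunctionFieldBar (N * ℓ)).val.toRingHom with hv
  have hinj : Function.Injective v := v.injective
  apply hinj
  rw [map_zero, aeval_def, hom_eval₂, modPolyF, eval₂_map]
  -- the coefficient hom is `P ↦ P(j(t))`
  have hcomp : ((v.comp
      (algebraMap ↥(modularFunctionFieldBar N) ↥(modularFunctionFieldBar (N * ℓ)))).comp
        ((aeval (jgen N) : Polynomial ℤ →ₐ[ℤ] ↥(modularFunctionFieldBar N)) :
          Polynomial ℤ →+* ↥(modularFunctionFieldBar N))) =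
      (coeffMap (Int.castRingHom Kb)).comp (evalL ℤ (jqModC ℤ)) := by
    apply Polynomial.ringHom_ext
    · intro a
      simp only [RingHom.comp_apply, evalL_C]
      rw [show ((aeval (jgen N) : Polynomial ℤ →ₐ[ℤ] ↥(modularFunctionFieldBar N)) :
          Polynomial ℤ →+* ↥(modularFunctionFieldBar N)) (C a) =
          ((a : ℤ) : ↥(modularFunctionFieldBar N)) by simp]
      rw [map_intCast, map_intCast]
      rw [Fermat.Agent.S18.B.Basic.coeffMap_C, eq_intCast]
      simp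
    · simp only [RingHom.comp_apply, evalL_X]
      rw [show ((aeval (jgen N) : Polynomial ℤ →ₐ[ℤ] ↥(modularFunctionFieldBar N)) :
          Polynomial ℤ →+* ↥(modularFunctionFieldBar N)) X = jgen N by simp]
      rw [coeffMap_jqModC]
      show ((heckeAlphaBar Kb N ℓ (jgen N) : ↥(modularFunctionFieldBar (N * ℓ))) :
        LaurentSeries Kb) = _
      rw [coe_heckeAlphaBar, Fermat.Agent.S18.B.Basic.coe_jgen_eq]
  rw [hcomp, ← eval₂_map, hΦ, ← eval_map, map_rPoly]
  show eval ((jl N ℓ : ↥(modularFunctionFieldBar (N * ℓ))) : LaurentSeries Kb) (rPoly ℓ Kb) = 0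
  rw [coe_jl, rPoly, eval_mul, eval_sub, eval_X, eval_C, sub_self, zero_mul]

/-- **The minimal polynomial of `j_ℓ` over `F` is the modular polynomial `Φ_ℓ(X, j)`.** -/
theorem minpoly_jl (hℓ : ℓ.Prime) (hℓN : ¬ ℓ ∣ N) {Φ : Polynomial (Polynomial ℤ)}
    (hmonic : Φ.Monic) (hdeg : Φ.natDegree = ℓ + 1)
    (hΦ : Φ.map (evalL ℤ (jqModC ℤ)) = rPoly ℓ ℤ) :
    letI := algebraAlong (heckeAlphaBar Kb N ℓ)
    minpoly ↥(modularFunctionFieldBar N) (jl N ℓ) = modPolyF N Φ := by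
  letI algFE := algebraAlong (heckeAlphaBar Kb N ℓ)
  have hfr : Module.finrank ↥(modularFunctionFieldBar N) ↥(modularFunctionFieldBar (N * ℓ))
      = ℓ + 1 := Fermat.Agent.S37.ES.DegreeBeta.finrankAlong_alpha N hℓ hℓN
  haveI hfin : Module.Finite ↥(modularFunctionFieldBar N) ↥(modularFunctionFieldBar (N * ℓ)) :=
    FiniteDimensional.of_finrank_pos (by rw [hfr]; omega)
  have hdvd : minpoly ↥(modularFunctionFieldBar N) (jl N ℓ) ∣ modPolyF N Φ :=
    minpoly.dvd _ _ (aeval_jl_modPolyF hΦ)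
  refine (Polynomial.eq_of_monic_of_dvd_of_natDegree_le
    (minpoly.monic (IsIntegral.of_finite _ _)) (modPolyF_monic hmonic) hdvd ?_).symm
  rw [natDegree_modPolyF hmonic, hdeg, natDegree_minpoly_jl hℓ hℓN]

/-- **Summary**: the modular polynomial `Φ = Φ_ℓ ∈ ℤ[j][X]` is monic of degree `ℓ + 1`; `Φ(X, j)` is the
minimal polynomial over `F = ℚ̄(X₀(N))` of the primitive element `j_ℓ = j(t^ℓ)` of `E = ℚ̄(X₀(N ℓ))`;
its coefficients lie in every subring of `F` containing `j`; and in characteristic `ℓ`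
`Φ(X, j̄) = (X - j̄^ℓ)(X^ℓ - j̄)` over `F_k = k(X₀(N))` (two coprime factors, the second one
irreducible: `isCoprime_factors`, `irreducible_X_pow_sub_C_jk`). -/
theorem exists_modPoly (hℓ : ℓ.Prime) (hℓN : ¬ ℓ ∣ N) :
    ∃ Φ : Polynomial (Polynomial ℤ), Φ.Monic ∧ Φ.natDegree = ℓ + 1 ∧
      (letI := algebraAlong (heckeAlphaBar Kb N ℓ);
        minpoly ↥(modularFunctionFieldBar N) (jl N ℓ) = modPolyF N Φ) ∧
      (∀ S : Subring ↥(modularFunctionFieldBar N), jgen N ∈ S →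
        modPolyF N Φ ∈ Polynomial.lifts S.subtype) ∧
      ∀ (k : Type) [Field k] [CharP k ℓ],
        Φ.map ((aeval (jk k N) : Polynomial ℤ →ₐ[ℤ] ↥(modularFunctionFieldFullC k N)) :
            Polynomial ℤ →+* ↥(modularFunctionFieldFullC k N)) =
          (X - C (jk k N ^ ℓ)) * (X ^ ℓ - C (jk k N)) := by
  haveI : Fact ℓ.Prime := ⟨hℓ⟩
  obtain ⟨Φ, hmonic, hdeg, hΦ, hchar⟩ := Fermat.Agent.S34.Kronecker.kronecker ℓ
  refine ⟨Φ, hmonic, hdeg, minpoly_jl hℓ hℓN hmonic hdeg hΦ,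
    fun S hS => modPolyF_mem_lifts Φ S hS, ?_⟩
  intro k _ _
  exact map_aeval_jk_of_kronecker k N ℓ (hchar k)

end Main

end Fermat.Agent.S34.PowerBasisX0
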