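/-
PROJECT U (S34), slice (Z1) consumer side, second file: the data of "Dedekind-Kummer for valuation
rings" over the Gauss valuation ring `O` of `F = ℚ̄(X₀(M))` at a valuation subring `A` of `ℚ̄` over a
prime `q ∤ M`, for the extension `E = ℚ̄(X₀(M q))` of `F` (along `α`):

* `PhiO Φ : O[X]`, the modular polynomial `Φ_q(X, j)` with coefficients in `O`
  (`map_subtype_PhiO : (PhiO Φ).map O.subtype = modPolyF M Φ`);
* `G1O = X - j^q`, `G2O = X^q - j` in `O[X]`, monic;
* `exists_factor_data` : for the modular polynomial `Φ` of `S34/PowerBasisX0.exists_modPoly`: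
  `(PhiO Φ).map O.subtype = minpoly F j_q`, `(PhiO Φ).map red = G1O.map red * G2O.map red`, the two
  factors are irreducible and coprime over `κ(O) = F_k(M)` (`red` = the reduction of the Gauss datum);
* the Galois side: for `σ` in the inertia group of `A`, the coefficientwise action `σ_E` on `E`
  fixes `j_q`, restricts along `α` to the coefficientwise action `σ_F` on `F`, and `σ_F` preserves `O`
  and acts trivially on `κ(O)` (`smul_jl`, `smul_alpha`, `smul_mem_O_of_inertia`,
  `smul_mem_O_of_decomposition`);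
* `resEquiv : κ(O) ≃+* F_k(M)` and the transport of the factor data to `TwoExt.red O`;
* `setupX0 : TwoExt.Setup O E` (with `t = j_q`, `G₁ = G1O`, `G₂ = G2O`), `isInertial`
  (`(setupX0).IsInertial σ_E σ_F` for `σ` in the inertia group), `exists_pow_valuation_eq`
  (the value group of `O` is divisible).
-/
import Mathlib
import Fermat.Agent.S34.PowerBasisX0
import Fermat.Agent.S37.Gauss.Datum
import Fermat.Agent.S37.Equivariance.GaussEquiv
import Fermat.Agent.S37.Equivariance.PlaceEquiv
import Fermat.Agent.S30.Arith.HeckeGalois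
import Fermat.Agent.S34.TwoExt
import Fermat.Agent.S34.TwoExtRed

set_option autoImplicit false
set_option linter.unusedSectionVars false
set_option linter.style.haveILetI false

noncomputable section

namespace Fermat.Agent.S34.TwoGaussX0

open Polynomial ModularCurve AlgebraicCurve IsLocalRing
open Fermat.Agent.S24.DegreeAlg (jgen)
open Fermat.Agent.S18.B.FkBasics (jk)
open Fermat.Agent.S37.Gauss.Datum
open Fermat.Agent.S34.PowerBasisX0

local notation "Kb" => AlgebraicClosure ℚ

variable {q : ℕ} [hq : Fact q.Prime] {M : ℕ} [NeZero M] {A : ValuationSubring Kb}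
variable (hA : A.LiesOverPrime q) (hqM : ¬ q ∣ M)

/-! ### The polynomials over the Gauss ring -/

/-- `j` as an element of the Gauss ring. -/
def jO : ↥(gaussDatum M A hA hqM).O := ⟨jgen M, jgen_mem_O hA hqM⟩

@[simp] theorem coe_jO : ((jO hA hqM : ↥(gaussDatum M A hA hqM).O) : ↥(modularFunctionFieldBar M)) =
    jgen M := rfl

theorem red_jO : (gaussDatum M A hA hqM).red (jO hA hqM) = jk (ResidueField ↥A) M :=
  red_jgen hA hqM

/-- `Φ(X, j)` with coefficients in the Gauss ring `O`. -/
def PhiO (Φ : Polynomial (Polynomial ℤ)) : Polynomial ↥(gaussDatum M A hA hqM).O :=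
  Φ.map ((aeval (jO hA hqM) : Polynomial ℤ →ₐ[ℤ] ↥(gaussDatum M A hA hqM).O) :
    Polynomial ℤ →+* ↥(gaussDatum M A hA hqM).O)

theorem PhiO_monic {Φ : Polynomial (Polynomial ℤ)} (hΦ : Φ.Monic) : (PhiO hA hqM Φ).Monic :=
  hΦ.map _

theorem natDegree_PhiO {Φ : Polynomial (Polynomial ℤ)} (hΦ : Φ.Monic) :
    (PhiO hA hqM Φ).natDegree = Φ.natDegree :=
  hΦ.natDegree_map _

theorem map_subtype_PhiO (Φ : Polynomial (Polynomial ℤ)) :
    (PhiO hA hqM Φ).map (gaussDatum M A hA hqM).O.subtype = modPolyF M Φ := by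
  rw [PhiO, Polynomial.map_map, modPolyF]
  congr 1
  apply Polynomial.ringHom_ext
  · intro a
    simp
  · simp

theorem map_red_PhiO (Φ : Polynomial (Polynomial ℤ)) :
    (PhiO hA hqM Φ).map (gaussDatum M A hA hqM).red =
      Φ.map ((aeval (jk (ResidueField ↥A) M) :
        Polynomial ℤ →ₐ[ℤ] ↥(modularFunctionFieldFullC (ResidueField ↥A) M)) :
          Polynomial ℤ →+* ↥(modularFunctionFieldFullC (ResidueField ↥A) M)) := by
  rw [PhiO, Polynomial.map_map]
  congr 1
  apply Polynomial.ringHom_ext
  · intro a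
    simp
  · simp [red_jO]

/-- the first factor `X - j^q` -/
def G1O : Polynomial ↥(gaussDatum M A hA hqM).O := X - C (jO hA hqM ^ q)

/-- the second factor `X^q - j` -/
def G2O : Polynomial ↥(gaussDatum M A hA hqM).O := X ^ q - C (jO hA hqM)

theorem G1O_monic : (G1O hA hqM).Monic := monic_X_sub_C _

theorem G2O_monic : (G2O hA hqM).Monic :=
  monic_X_pow_sub_C _ hq.out.ne_zero

theorem natDegree_G1O : (G1O hA hqM).natDegree = 1 := natDegree_X_sub_C _

theorem natDegree_G2O : (G2O hA hqM).natDegree = q :=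
  natDegree_X_pow_sub_C

theorem map_red_G1O : (G1O hA hqM).map (gaussDatum M A hA hqM).red =
    X - C (jk (ResidueField ↥A) M ^ q) := by
  simp [G1O, red_jO]

theorem map_red_G2O : (G2O hA hqM).map (gaussDatum M A hA hqM).red =
    X ^ q - C (jk (ResidueField ↥A) M) := by
  simp [G2O, red_jO]

/-! ### The residue field of the Gauss ring is `F_k(M)` -/

section ResEquiv

theorem ker_red : RingHom.ker (gaussDatum M A hA hqM).red =
    maximalIdeal ↥(gaussDatum M A hA hqM).O := by
  ext x
  rw [RingHom.mem_ker, (gaussDatum M A hA hqM).red_eq_zero_iff, mem_maximalIdeal, mem_nonunits_iff]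

/-- `κ(O) ≃ F_k(M)`, induced by the reduction of the Gauss datum -/
def resEquiv : ResidueField ↥(gaussDatum M A hA hqM).O ≃+*
    ↥(modularFunctionFieldFullC (ResidueField ↥A) M) :=
  (Ideal.quotEquivOfEq (ker_red hA hqM).symm).trans
    (RingHom.quotientKerEquivOfSurjective (red_surjective hA hqM))

theorem resEquiv_residue (x : ↥(gaussDatum M A hA hqM).O) :
    resEquiv hA hqM (residue _ x) = (gaussDatum M A hA hqM).red x := rfl

theorem map_resEquiv_red (p : Polynomial ↥(gaussDatum M A hA hqM).O) :
    (TwoExt.red (gaussDatum M A hA hqM).O p).map (resEquiv hA hqM : _ →+* _) =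
      p.map (gaussDatum M A hA hqM).red := by
  rw [TwoExt.red_apply, Polynomial.map_map]
  congr 1

theorem mapEquiv_resEquiv_red (p : Polynomial ↥(gaussDatum M A hA hqM).O) :
    Polynomial.mapEquiv (resEquiv hA hqM) (TwoExt.red (gaussDatum M A hA hqM).O p) =
      p.map (gaussDatum M A hA hqM).red :=
  map_resEquiv_red hA hqM p

theorem red_eq_mul_of_map {p r s : Polynomial ↥(gaussDatum M A hA hqM).O}
    (h : p.map (gaussDatum M A hA hqM).red =
      r.map (gaussDatum M A hA hqM).red * s.map (gaussDatum M A hA hqM).red) :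
    TwoExt.red (gaussDatum M A hA hqM).O p =
      TwoExt.red (gaussDatum M A hA hqM).O r * TwoExt.red (gaussDatum M A hA hqM).O s := by
  apply (Polynomial.mapEquiv (resEquiv hA hqM)).injective
  rw [map_mul, mapEquiv_resEquiv_red, mapEquiv_resEquiv_red, mapEquiv_resEquiv_red, h]

theorem irreducible_red_of_map {p : Polynomial ↥(gaussDatum M A hA hqM).O}
    (h : Irreducible (p.map (gaussDatum M A hA hqM).red)) :
    Irreducible (TwoExt.red (gaussDatum M A hA hqM).O p) := by
  rw [← mapEquiv_resEquiv_red] at h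
  exact (MulEquiv.irreducible_iff (Polynomial.mapEquiv (resEquiv hA hqM))).mp h

theorem isCoprime_red_of_map {p r : Polynomial ↥(gaussDatum M A hA hqM).O}
    (h : IsCoprime (p.map (gaussDatum M A hA hqM).red) (r.map (gaussDatum M A hA hqM).red)) :
    IsCoprime (TwoExt.red (gaussDatum M A hA hqM).O p) (TwoExt.red (gaussDatum M A hA hqM).O r) := by
  rw [← mapEquiv_resEquiv_red, ← mapEquiv_resEquiv_red] at h
  obtain ⟨a, b, hab⟩ := h
  refine ⟨(Polynomial.mapEquiv (resEquiv hA hqM)).symm a,
    (Polynomial.mapEquiv (resEquiv hA hqM)).symm b, ?_⟩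
  apply (Polynomial.mapEquiv (resEquiv hA hqM)).injective
  rw [map_add, map_mul, map_mul, RingEquiv.apply_symm_apply, RingEquiv.apply_symm_apply, map_one]
  exact hab

end ResEquiv

/-! ### The factor data -/

section FactorData

variable [NeZero q]

/-- the modular polynomial `Φ_q ∈ ℤ[j][X]` (a choice from `S34/Kronecker.kronecker`) -/
def modPolyZ (q : ℕ) [Fact q.Prime] : Polynomial (Polynomial ℤ) :=
  Classical.choose (Fermat.Agent.S34.Kronecker.kronecker q)

theorem modPolyZ_monic : (modPolyZ q).Monic :=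
  (Classical.choose_spec (Fermat.Agent.S34.Kronecker.kronecker q)).1

theorem natDegree_modPolyZ : (modPolyZ q).natDegree = q + 1 :=
  (Classical.choose_spec (Fermat.Agent.S34.Kronecker.kronecker q)).2.1

theorem map_evalL_modPolyZ :
    (modPolyZ q).map (Fermat.Agent.S28.ModPoly.evalL ℤ (jqModC ℤ)) =
      Fermat.Agent.S28.ModPoly.rPoly q ℤ :=
  (Classical.choose_spec (Fermat.Agent.S34.Kronecker.kronecker q)).2.2.1

theorem map_modPolyZ_char (k : Type) [Field k] [CharP k q] :
    (modPolyZ q).map (Polynomial.mapRingHom (Int.castRingHom k)) =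
      (X - C (X ^ q)) * (X ^ q - C X) :=
  (Classical.choose_spec (Fermat.Agent.S34.Kronecker.kronecker q)).2.2.2 k

/-- `Φ_q(X, j)`, with coefficients in `O`, is the minimal polynomial of `j_q` over `F` -/
theorem map_subtype_PhiO_modPolyZ :
    letI := algebraAlong (heckeAlphaBar Kb M q)
    (PhiO hA hqM (modPolyZ q)).map (gaussDatum M A hA hqM).O.subtype =
      minpoly ↥(modularFunctionFieldBar M) (jl M q) := by
  rw [map_subtype_PhiO]
  exact (minpoly_jl hq.out hqM modPolyZ_monic natDegree_modPolyZ map_evalL_modPolyZ).symm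

/-- Kronecker's congruence over the residue field of the Gauss ring -/
theorem map_red_PhiO_modPolyZ :
    (PhiO hA hqM (modPolyZ q)).map (gaussDatum M A hA hqM).red =
      (G1O hA hqM).map (gaussDatum M A hA hqM).red *
        (G2O hA hqM).map (gaussDatum M A hA hqM).red := by
  haveI : CharP (ResidueField ↥A) q := Fermat.Agent.S18.ResidueBasics.charP_residueField A hA
  rw [map_red_PhiO, map_red_G1O, map_red_G2O]
  exact map_aeval_jk_of_kronecker (ResidueField ↥A) M q (map_modPolyZ_char (ResidueField ↥A))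

theorem irreducible_map_red_G1O :
    Irreducible ((G1O hA hqM).map (gaussDatum M A hA hqM).red) := by
  rw [map_red_G1O]
  exact irreducible_X_sub_C _

theorem irreducible_map_red_G2O :
    Irreducible ((G2O hA hqM).map (gaussDatum M A hA hqM).red) := by
  rw [map_red_G2O]
  exact irreducible_X_pow_sub_C_jk (ResidueField ↥A) M q

theorem isCoprime_map_red_G1O_G2O :
    IsCoprime ((G1O hA hqM).map (gaussDatum M A hA hqM).red)
      ((G2O hA hqM).map (gaussDatum M A hA hqM).red) := by
  haveI : CharP (ResidueField ↥A) q := Fermat.Agent.S18.ResidueBasics.charP_residueField A hA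
  rw [map_red_G1O, map_red_G2O]
  exact isCoprime_factors (ResidueField ↥A) M q

end FactorData

/-! ### The Dedekind-Kummer setup -/

section Setup

variable [NeZero q]

/-- the algebra structure of `E = ℚ̄(X₀(M q))` over `F = ℚ̄(X₀(M))` along `α` -/
@[reducible] def algFE (M q : ℕ) [NeZero M] [NeZero q] :
    Algebra ↥(modularFunctionFieldBar M) ↥(modularFunctionFieldBar (M * q)) :=
  algebraAlong (heckeAlphaBar Kb M q)

attribute [local instance] algFE

theorem algebraMap_FE (x : ↥(modularFunctionFieldBar M)) :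
    algebraMap ↥(modularFunctionFieldBar M) ↥(modularFunctionFieldBar (M * q)) x =
      heckeAlphaBar Kb M q x := rfl

include hqM in
theorem finrank_FE :
    Module.finrank ↥(modularFunctionFieldBar M) ↥(modularFunctionFieldBar (M * q)) = q + 1 :=
  Fermat.Agent.S37.ES.DegreeBeta.finrankAlong_alpha M hq.out hqM

include hqM in
theorem finite_FE : Module.Finite ↥(modularFunctionFieldBar M) ↥(modularFunctionFieldBar (M * q)) :=
  FiniteDimensional.of_finrank_pos (by rw [finrank_FE hqM]; omega)

include hqM in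
theorem isIntegral_FE (x : ↥(modularFunctionFieldBar (M * q))) :
    IsIntegral ↥(modularFunctionFieldBar M) x :=
  haveI := finite_FE (q := q) hqM
  IsIntegral.of_finite _ _

/-- the power basis `1, j_q, …, j_q^q` of `E / F` -/
def pbX0 : PowerBasis ↥(modularFunctionFieldBar M) ↥(modularFunctionFieldBar (M * q)) :=
  TwoExt.Setup.powerBasisOfAdjoinEqTop (isIntegral_FE hqM (jl M q)) (adjoin_jl_eq_top hq.out hqM)

theorem pbX0_gen : (pbX0 (q := q) hqM).gen = jl M q :=
  TwoExt.Setup.powerBasisOfAdjoinEqTop_gen _ _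

/-- **The Dedekind-Kummer setup for `ℚ̄(X₀(M q)) / ℚ̄(X₀(M))` over the Gauss ring at `q`.** -/
def setupX0 : TwoExt.Setup (gaussDatum M A hA hqM).O ↥(modularFunctionFieldBar (M * q)) :=
  TwoExt.Setup.ofPowerBasis (pbX0 hqM) (PhiO hA hqM (modPolyZ q)) (G1O hA hqM) (G2O hA hqM)
    (PhiO_monic hA hqM modPolyZ_monic)
    (by rw [pbX0_gen]; exact (map_subtype_PhiO_modPolyZ hA hqM).symm)
    (red_eq_mul_of_map hA hqM (map_red_PhiO_modPolyZ hA hqM))
    (irreducible_red_of_map hA hqM (irreducible_map_red_G1O hA hqM))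
    (irreducible_red_of_map hA hqM (irreducible_map_red_G2O hA hqM))
    (isCoprime_red_of_map hA hqM (isCoprime_map_red_G1O_G2O hA hqM))

@[simp] theorem setupX0_t : (setupX0 hA hqM).t = jl M q := pbX0_gen hqM

@[simp] theorem setupX0_G₁ : (setupX0 hA hqM).G₁ = G1O hA hqM := rfl

@[simp] theorem setupX0_G₂ : (setupX0 hA hqM).G₂ = G2O hA hqM := rfl

@[simp] theorem setupX0_Φ : (setupX0 hA hqM).Φ = PhiO hA hqM (modPolyZ q) := rfl

end Setup

/-! ### The Galois side -/

section Galois

variable [NeZero q] (σ : Kb ≃ₐ[ℚ] Kb)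

/-- the coefficientwise Galois action fixes `j_q = j(t^q)` -/
theorem smul_jl :
    arithmeticGalois (modularFunctionFieldFull (M * q)) σ • jl M q = jl M q := by
  rw [jl]
  have h := Fermat.Agent.S30.Arith.HeckeGalois.intertwines_beta (L := Kb) M q σ (jgen M)
  rw [Fermat.Agent.S37.Equivariance.PlaceEquiv.smul_jgen] at h
  exact h

/-- the coefficientwise Galois actions on `E` and `F` are compatible along `α` -/
theorem smul_alpha (x : ↥(modularFunctionFieldBar M)) :
    arithmeticGalois (modularFunctionFieldFull (M * q)) σ • heckeAlphaBar Kb M q x =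
      heckeAlphaBar Kb M q (arithmeticGalois (modularFunctionFieldFull M) σ • x) :=
  Fermat.Agent.S30.Arith.HeckeGalois.intertwines_alpha (L := Kb) M q σ x

/-- inertia preserves the Gauss ring of `F` and acts trivially on its residue field -/
theorem smul_mem_O_of_inertia (hσ : σ ∈ A.inertiaSubgroupIn ℚ)
    (f : ↥(gaussDatum M A hA hqM).O) :
    ∃ hf : arithmeticGalois (modularFunctionFieldFull M) σ • (f : ↥(modularFunctionFieldBar M)) ∈
        (gaussDatum M A hA hqM).O,
      (gaussDatum M A hA hqM).red ⟨_, hf⟩ = (gaussDatum M A hA hqM).red f :=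
  Fermat.Agent.S37.Equivariance.GaussEquiv.redV_smul_inertia A M (hasRep M A hA hqM) hσ f

/-- decomposition group: the Gauss ring of `F` is preserved and the action on its residue field
`F_k(M)` is the coefficientwise action of the induced automorphism of `k` -/
theorem smul_mem_O_of_decomposition (g : A.decompositionSubgroup ℚ)
    (f : ↥(gaussDatum M A hA hqM).O) :
    ∃ hf : arithmeticGalois (modularFunctionFieldFull M) (g : Kb ≃ₐ[ℚ] Kb) •
        (f : ↥(modularFunctionFieldBar M)) ∈ (gaussDatum M A hA hqM).O,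
      (gaussDatum M A hA hqM).red ⟨_, hf⟩ =
        Fermat.Agent.S37.Equivariance.CoeffAut.coeffAut (ResidueField ↥A) M
          (Fermat.Agent.S37.Equivariance.GaussEquiv.resAut A g) • (gaussDatum M A hA hqM).red f :=
  Fermat.Agent.S37.Equivariance.GaussEquiv.redV_smul_decomposition A M (hasRep M A hA hqM) g f

end Galois

/-! ### Inertia, divisibility of the value group, constants -/

section Inertial

variable [NeZero q]

attribute [local instance] algFE

/-- **Inertia at `q` is inertial for the setup**: for `σ` in the inertia group of `A`, the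
coefficientwise action on `E` induces the coefficientwise action on `F`, which preserves the Gauss
ring and is trivial on its residue field, and it fixes `j_q`. -/
theorem isInertial {σ : Kb ≃ₐ[ℚ] Kb} (hσ : σ ∈ A.inertiaSubgroupIn ℚ) :
    (setupX0 hA hqM).IsInertial
      (SemilinearAut.toRingAut (arithmeticGalois (modularFunctionFieldFull (M * q)) σ))
      ((SemilinearAut.toRingAut (arithmeticGalois (modularFunctionFieldFull M) σ)).toRingHom) where
  comm x := smul_alpha σ x
  mem_iff x := by
    constructor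
    · intro h
      have hσ' : σ⁻¹ ∈ A.inertiaSubgroupIn ℚ := inv_mem hσ
      obtain ⟨hf, -⟩ := smul_mem_O_of_inertia hA hqM σ⁻¹ hσ' ⟨_, h⟩
      have h1 : arithmeticGalois (modularFunctionFieldFull M) σ⁻¹ •
          (arithmeticGalois (modularFunctionFieldFull M) σ • x) = x := by
        rw [map_inv, inv_smul_smul]
      rw [← h1]
      exact hf
    · intro h
      exact (smul_mem_O_of_inertia hA hqM σ hσ ⟨x, h⟩).1
  sub_lt x hx := by
    obtain ⟨hf, hred⟩ := smul_mem_O_of_inertia hA hqM σ hσ ⟨x, hx⟩
    have hmem : ((⟨_, hf⟩ : ↥(gaussDatum M A hA hqM).O) - ⟨x, hx⟩) ∈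
        maximalIdeal ↥(gaussDatum M A hA hqM).O := by
      rw [← ker_red hA hqM, RingHom.mem_ker, map_sub, hred, sub_self]
    exact (ValuationSubring.valuation_lt_one_iff _ _).mp hmem
  fix_t := by
    rw [setupX0_t]
    exact smul_jl σ

/-- the value group of the Gauss ring is divisible -/
theorem exists_pow_valuation_eq (a : ↥(modularFunctionFieldBar M)) (ha : a ≠ 0) (n : ℕ)
    (hn : 0 < n) :
    ∃ c : ↥(modularFunctionFieldBar M), c ≠ 0 ∧
      (gaussDatum M A hA hqM).O.valuation (c ^ n) = (gaussDatum M A hA hqM).O.valuation a := by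
  obtain ⟨c0, hc0, u, rfl⟩ := (gaussDatum M A hA hqM).exists_const_mul_unit a ha
  obtain ⟨d, hd⟩ := IsAlgClosed.exists_pow_nat_eq c0 hn
  have hd0 : d ≠ 0 := by
    rintro rfl
    rw [zero_pow hn.ne'] at hd
    exact hc0 hd.symm
  refine ⟨algebraMap Kb _ d, (_root_.map_ne_zero _).mpr hd0, ?_⟩
  rw [← map_pow, hd, map_mul, ValuationSubring.valuation_unit, mul_one]

end Inertial

end Fermat.Agent.S34.TwoGaussX0
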