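/-
PROJECT U (S34), slice (Z1), the INSTANCE at `E = ℚ̄(X₀(M q))` (`q` prime, `q ∤ M`, `A` a valuation
subring of `ℚ̄` over `q`): the two Gauss valuation rings `V₁`, `V₂` of `E` over the Gauss ring `O` of
`F = ℚ̄(X₀(M))` (`S34/TwoGaussX0.setupX0` + `S34/TwoExt`) satisfy all hypotheses of
`S34/Z1Abstract` for the coefficientwise action of an element `σ` of the inertia group of `A`:

* `V1X0`, `V2X0`, `isExt_V1X0`, `isExt_V2X0` : the two valuation rings;
* `arch_V`, `V_ne_top`, `V1X0_ne_V2X0` : archimedean, proper, distinct;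
* `smul_sub_mem_nonunits₁/₂` : inertia acts trivially on both residue fields;
* `exists_valuation_eq_const` : the value groups are attained on the constants `ℚ̄`;
* `exists_kummer_decomposition_X0` : **(Z1)**: `σ f = h ^ n * u * f` with `u ≡ 1` modulo `𝔪₁`, `𝔪₂`;
* `sq_eq_zero_of_coreZ_X0` : **(U) at level `M q` is reduced to (Core-Z)**.
-/
import Mathlib
import Fermat.Agent.S34.TwoGaussX0
import Fermat.Agent.S34.TwoExtConst
import Fermat.Agent.S34.ArchGauss
import Fermat.Agent.S34.Z1Abstract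

set_option autoImplicit false
set_option linter.unusedSectionVars false
set_option linter.style.haveILetI false

noncomputable section

namespace Fermat.Agent.S34.Z1X0

open Polynomial ModularCurve AlgebraicCurve IsLocalRing
open Fermat.Agent.S37.Gauss.Datum
open Fermat.Agent.S34.PowerBasisX0 Fermat.Agent.S34.TwoGaussX0
open Fermat.Agent.S34.WeakApprox Fermat.Agent.S34.Z1Abstract

local notation "Kb" => AlgebraicClosure ℚ

variable {q : ℕ} [hq : Fact q.Prime] {M : ℕ} [NeZero M] {A : ValuationSubring Kb}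
variable (hA : A.LiesOverPrime q) (hqM : ¬ q ∣ M) [NeZero q]

attribute [local instance] algFE

/-! ### Generalities on `E / F` -/

theorem isScalarTower_FE :
    IsScalarTower Kb ↥(modularFunctionFieldBar M) ↥(modularFunctionFieldBar (M * q)) :=
  isScalarTower_along (heckeAlphaBar Kb M q)

include hqM in
theorem isAlgebraic_FE :
    Algebra.IsAlgebraic ↥(modularFunctionFieldBar M) ↥(modularFunctionFieldBar (M * q)) :=
  haveI := finite_FE (q := q) hqM
  Algebra.IsAlgebraic.of_finite _ _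

/-! ### The two valuation rings -/

/-- the first Gauss valuation ring of `E` (`j_q ≡ j^q`) -/
def V1X0 : ValuationSubring ↥(modularFunctionFieldBar (M * q)) :=
  Classical.choose (setupX0 hA hqM).exists_isExt₁

/-- the second Gauss valuation ring of `E` (`j_q^q ≡ j`) -/
def V2X0 : ValuationSubring ↥(modularFunctionFieldBar (M * q)) :=
  Classical.choose (setupX0 hA hqM).exists_isExt₂

theorem isExt_V1X0 : (setupX0 hA hqM).IsExt (setupX0 hA hqM).G₁ (V1X0 hA hqM) :=
  Classical.choose_spec (setupX0 hA hqM).exists_isExt₁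

theorem isExt_V2X0 : (setupX0 hA hqM).IsExt (setupX0 hA hqM).G₂ (V2X0 hA hqM) :=
  Classical.choose_spec (setupX0 hA hqM).exists_isExt₂

theorem V1X0_ne_V2X0 : V1X0 hA hqM ≠ V2X0 hA hqM :=
  Fermat.Agent.S34.ArchGauss.ne_of_isExt _ (isExt_V1X0 hA hqM) (isExt_V2X0 hA hqM)

section Over

variable {V : ValuationSubring ↥(modularFunctionFieldBar (M * q))}
  (hV : V.comap (algebraMap ↥(modularFunctionFieldBar M) ↥(modularFunctionFieldBar (M * q))) =
    (gaussDatum M A hA hqM).O)

include hV in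
/-- every valuation ring of `E` over the Gauss ring is archimedean -/
theorem arch_V : Arch V :=
  haveI := isAlgebraic_FE (q := q) hqM
  Fermat.Agent.S34.ArchGauss.arch_of_comap_eq hV (Fermat.Agent.S34.ArchGauss.arch_gaussDatum hA hqM)

include hV in
theorem V_ne_top : V ≠ ⊤ :=
  Fermat.Agent.S34.ArchGauss.ne_top_of_comap_eq hV
    (Fermat.Agent.S34.ArchGauss.gaussDatum_ne_top hA hqM)

include hV in
/-- the value group of `V` is attained on the constants -/
theorem exists_valuation_eq_const {f : ↥(modularFunctionFieldBar (M * q))} (hf : f ≠ 0) :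
    ∃ a : Kb, a ≠ 0 ∧
      V.valuation f = V.valuation (algebraMap Kb ↥(modularFunctionFieldBar (M * q)) a) := by
  haveI := isScalarTower_FE (M := M) (q := q)
  refine Fermat.Agent.S34.TwoExtConst.exists_val_eq_val_const (K := Kb) hV ?_ ?_ hf
    (isIntegral_FE hqM f).isAlgebraic
  · intro x hx
    obtain ⟨c, hc, u, hu⟩ := (gaussDatum M A hA hqM).exists_const_mul_unit x hx
    refine ⟨c, hc, ?_⟩
    rw [hu, map_mul, ValuationSubring.valuation_unit, mul_one]
  · intro c n hn
    exact IsAlgClosed.exists_pow_nat_eq c hn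

end Over

/-! ### Inertia -/

section Inertia

variable {σ : Kb ≃ₐ[ℚ] Kb} (hσ : σ ∈ A.inertiaSubgroupIn ℚ)

include hσ in
/-- inertia acts trivially on the residue field of `V₁` -/
theorem smul_sub_mem_nonunits₁ {x : ↥(modularFunctionFieldBar (M * q))} (hx : x ∈ V1X0 hA hqM) :
    arithmeticGalois (modularFunctionFieldFull (M * q)) σ • x - x ∈ (V1X0 hA hqM).nonunits :=
  (ValuationSubring.mem_nonunits_iff _).mpr
    ((setupX0 hA hqM).sub_lt_one_of_fix₁ (isInertial hA hqM hσ) (isExt_V1X0 hA hqM) hx)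

include hσ in
/-- inertia acts trivially on the residue field of `V₂` -/
theorem smul_sub_mem_nonunits₂ {x : ↥(modularFunctionFieldBar (M * q))} (hx : x ∈ V2X0 hA hqM) :
    arithmeticGalois (modularFunctionFieldFull (M * q)) σ • x - x ∈ (V2X0 hA hqM).nonunits :=
  (ValuationSubring.mem_nonunits_iff _).mpr
    ((setupX0 hA hqM).sub_lt_one_of_fix₂ (isInertial hA hqM hσ) (isExt_V2X0 hA hqM) hx)

include hσ in
/-- inertia preserves `V₁` -/
theorem smul_mem_V1X0_iff (x : ↥(modularFunctionFieldBar (M * q))) :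
    arithmeticGalois (modularFunctionFieldFull (M * q)) σ • x ∈ V1X0 hA hqM ↔ x ∈ V1X0 hA hqM :=
  (setupX0 hA hqM).sigma_mem_iff₁ (isInertial hA hqM hσ) (isExt_V1X0 hA hqM) x

include hσ in
/-- inertia preserves `V₂` -/
theorem smul_mem_V2X0_iff (x : ↥(modularFunctionFieldBar (M * q))) :
    arithmeticGalois (modularFunctionFieldFull (M * q)) σ • x ∈ V2X0 hA hqM ↔ x ∈ V2X0 hA hqM :=
  (setupX0 hA hqM).sigma_mem_iff₂ (isInertial hA hqM hσ) (isExt_V2X0 hA hqM) x

end Inertia

/-! ### (Z1) and the reduction of (U) to (Core-Z) -/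

/-- the family `(V₁, V₂)` -/
def VX0 : Fin 2 → ValuationSubring ↥(modularFunctionFieldBar (M * q)) :=
  ![V1X0 hA hqM, V2X0 hA hqM]

@[simp] theorem VX0_zero : VX0 hA hqM 0 = V1X0 hA hqM := rfl

@[simp] theorem VX0_one : VX0 hA hqM 1 = V2X0 hA hqM := rfl

theorem comap_VX0 (i : Fin 2) :
    (VX0 hA hqM i).comap
      (algebraMap ↥(modularFunctionFieldBar M) ↥(modularFunctionFieldBar (M * q))) =
        (gaussDatum M A hA hqM).O := by
  fin_cases i
  · exact (isExt_V1X0 hA hqM).comap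
  · exact (isExt_V2X0 hA hqM).comap

theorem arch_VX0 (i : Fin 2) : Arch (VX0 hA hqM i) := arch_V hA hqM (comap_VX0 hA hqM i)

theorem not_le_VX0 (i j : Fin 2) (hij : i ≠ j) : ¬ VX0 hA hqM i ≤ VX0 hA hqM j := by
  intro hle
  have heq : VX0 hA hqM i = VX0 hA hqM j :=
    le_antisymm hle ((arch_VX0 hA hqM i).le_of_le hle (V_ne_top hA hqM (comap_VX0 hA hqM j)))
  fin_cases i <;> fin_cases j
  · exact hij rfl
  · exact V1X0_ne_V2X0 hA hqM heq
  · exact V1X0_ne_V2X0 hA hqM heq.symm
  · exact hij rfl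

section Main

variable {σ : Kb ≃ₐ[ℚ] Kb} (hσ : σ ∈ A.inertiaSubgroupIn ℚ)

include hσ in
theorem htriv_VX0 (i : Fin 2) (x : ↥(modularFunctionFieldBar (M * q))) (hx : x ∈ VX0 hA hqM i) :
    arithmeticGalois (modularFunctionFieldFull (M * q)) σ • x - x ∈ (VX0 hA hqM i).nonunits := by
  fin_cases i
  · exact smul_sub_mem_nonunits₁ hA hqM hσ hx
  · exact smul_sub_mem_nonunits₂ hA hqM hσ hx

theorem hval_VX0 (i : Fin 2) (f : ↥(modularFunctionFieldBar (M * q))) (hf : f ≠ 0) :
    ∃ c : Kb, (VX0 hA hqM i).valuation f =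
      (VX0 hA hqM i).valuation (algebraMap Kb ↥(modularFunctionFieldBar (M * q)) c) := by
  obtain ⟨a, -, ha⟩ := exists_valuation_eq_const hA hqM (comap_VX0 hA hqM i) hf
  exact ⟨a, ha⟩

include hσ in
/-- **(Z1) at level `M q`**: for `σ` in the inertia group at `q` and every `f ≠ 0`,
`σ f = h ^ n * u * f` with `u ≡ 1` modulo the maximal ideals of both Gauss valuation rings. -/
theorem exists_kummer_decomposition_X0 (n : ℕ) (hn : n ≠ 0)
    (f : ↥(modularFunctionFieldBar (M * q))) (hf : f ≠ 0) :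
    ∃ h u : ↥(modularFunctionFieldBar (M * q)), h ≠ 0 ∧ u ≠ 0 ∧
      IsOneUnit (V1X0 hA hqM) u ∧ IsOneUnit (V2X0 hA hqM) u ∧
      arithmeticGalois (modularFunctionFieldFull (M * q)) σ • f = h ^ n * u * f := by
  obtain ⟨h, u, hh, hu, hone, hgf⟩ :=
    exists_kummer_decomposition (VX0 hA hqM)
      (arithmeticGalois (modularFunctionFieldFull (M * q)) σ) n
      (arch_VX0 hA hqM) (not_le_VX0 hA hqM) (htriv_VX0 hA hqM hσ) (hval_VX0 hA hqM)
      (fun c => IsAlgClosed.exists_pow_nat_eq c (Nat.pos_of_ne_zero hn)) f hf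
  exact ⟨h, u, hh, hu, hone 0, hone 1, hgf⟩

include hσ in
/-- **(U) at level `M q` is reduced to (Core-Z)**: if `σ u / u ∈ ℚ̄^× E^{×n}` for every `u` whose
divisor is divisible by `n` and which is `≡ 1` modulo both Gauss valuations, then `(σ - 1)² = 0`
on `J₀(M q)[n]`. -/
theorem sq_eq_zero_of_coreZ_X0 (n : ℕ) (hn : n ≠ 0)
    (hcore : ∀ u : ↥(modularFunctionFieldBar (M * q)), KummerZ.Hn (K := Kb) n u →
      IsOneUnit (V1X0 hA hqM) u → IsOneUnit (V2X0 hA hqM) u →
      ∃ (c : Kb) (h : ↥(modularFunctionFieldBar (M * q))), c ≠ 0 ∧ h ≠ 0 ∧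
        arithmeticGalois (modularFunctionFieldFull (M * q)) σ • u =
          algebraMap Kb ↥(modularFunctionFieldBar (M * q)) c * h ^ n * u)
    (y : JZero (M * q)) (hy : (n : ℤ) • y = 0) :
    arithmeticGalois (modularFunctionFieldFull (M * q)) σ •
        (arithmeticGalois (modularFunctionFieldFull (M * q)) σ • y) + y =
      2 • (arithmeticGalois (modularFunctionFieldFull (M * q)) σ • y) :=
  sq_eq_zero_of_coreZ (VX0 hA hqM) (arithmeticGalois (modularFunctionFieldFull (M * q)) σ) n hn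
    (arch_VX0 hA hqM) (not_le_VX0 hA hqM) (htriv_VX0 hA hqM hσ) (hval_VX0 hA hqM)
    (fun c => IsAlgClosed.exists_pow_nat_eq c (Nat.pos_of_ne_zero hn))
    (fun u hu hone => hcore u hu (hone 0) (hone 1)) y hy

end Main

end Fermat.Agent.S34.Z1X0
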