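/-
PROJECT U (S34): **(U) from (Core-Z)**, in the exact shapes of `S34/UHyp.UHyp` (consumed by
`S34/Top`) and of `S34/Z1X0` (the two concrete Gauss valuation rings `V1X0`, `V2X0` of
`ℚ̄(X₀(M q))`).

* `CoreZHyp M q p` : for every valuation subring `A` of `ℚ̄` over `q ∤ M`, every `σ` in its inertia
  group, every `k`, and every `u ∈ ℚ̄(X₀(M q))^×` whose divisor is divisible by `p^k` and which is
  `≡ 1` modulo the maximal ideals of both Gauss valuation rings: `σ u / u ∈ ℚ̄^× · E^{× p^k}`.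
* `uHyp_mul_of_coreZHyp` : `CoreZHyp M q p → UHyp (M * q) p q`;
* `uHyp_of_coreZHyp` : for `q ∣ N`, `q² ∤ N`: `CoreZHyp (N / q) q p → UHyp N p q`.
-/
import Mathlib
import Fermat.Agent.S34.Z1X0
import Fermat.Agent.S34.UHyp

set_option autoImplicit false
set_option linter.unusedSectionVars false
set_option linter.style.haveILetI false

noncomputable section

namespace Fermat.Agent.S34.UOfCoreZ

open ModularCurve AlgebraicCurve
open Fermat.Agent.S34.Z1X0 Fermat.Agent.S34.Z1Abstract Fermat.Agent.S34.UHyp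

local notation "Kb" => AlgebraicClosure ℚ

/-- **(Core-Z) at level `M q`**, for the concrete Gauss valuation rings `V1X0`, `V2X0`. -/
def CoreZHyp (M q p : ℕ) [NeZero M] [Fact q.Prime] [NeZero q] : Prop :=
  ∀ (A : ValuationSubring Kb) (hA : A.LiesOverPrime q) (hqM : ¬ q ∣ M),
    ∀ σ ∈ A.inertiaSubgroupIn ℚ, ∀ k : ℕ,
      ∀ u : ↥(modularFunctionFieldBar (M * q)), KummerZ.Hn (K := Kb) (p ^ k) u →
        IsOneUnit (V1X0 hA hqM) u → IsOneUnit (V2X0 hA hqM) u →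
        ∃ (c : Kb) (h : ↥(modularFunctionFieldBar (M * q))), c ≠ 0 ∧ h ≠ 0 ∧
          arithmeticGalois (modularFunctionFieldFull (M * q)) σ • u =
            algebraMap Kb ↥(modularFunctionFieldBar (M * q)) c * h ^ (p ^ k) * u

/-- **(U) at level `M q` from (Core-Z).** -/
theorem uHyp_mul_of_coreZHyp {M q p : ℕ} [NeZero M] [Fact q.Prime] [NeZero q] (hp : p ≠ 0)
    (hqM : ¬ q ∣ M) (h : CoreZHyp M q p) : UHyp (M * q) p q := by
  intro A hA σ hσ y hy
  obtain ⟨k, hk⟩ := hy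
  have hn : p ^ k ≠ 0 := pow_ne_zero k hp
  have hk' : ((p ^ k : ℕ) : ℤ) • y = 0 := by
    rw [natCast_zsmul]
    exact hk
  exact sq_eq_zero_of_coreZ_X0 hA hqM hσ (p ^ k) hn (h A hA hqM σ hσ k) y hk'

/-- **(U) at level `N`, `q ∥ N`, from (Core-Z) at level `(N / q) q`.** -/
theorem uHyp_of_coreZHyp {N q p : ℕ} [NeZero N] (hq : q.Prime) (hp : p ≠ 0) (hqN : q ∣ N)
    (hq2 : ¬ q ^ 2 ∣ N)
    (h : haveI : Fact q.Prime := ⟨hq⟩
      haveI : NeZero q := ⟨hq.ne_zero⟩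
      haveI : NeZero (N / q) :=
        ⟨(Nat.div_pos (Nat.le_of_dvd (Nat.pos_of_ne_zero (NeZero.ne N)) hqN) hq.pos).ne'⟩
      CoreZHyp (N / q) q p) : UHyp N p q := by
  haveI : Fact q.Prime := ⟨hq⟩
  haveI : NeZero q := ⟨hq.ne_zero⟩
  haveI : NeZero (N / q) :=
    ⟨(Nat.div_pos (Nat.le_of_dvd (Nat.pos_of_ne_zero (NeZero.ne N)) hqN) hq.pos).ne'⟩
  have hN : N / q * q = N := Nat.div_mul_cancel hqN
  have hqM : ¬ q ∣ N / q := by
    intro hd
    apply hq2
    rw [← hN, pow_two]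
    exact Nat.mul_dvd_mul_right hd q
  have := uHyp_mul_of_coreZHyp hp hqM h
  rwa [hN] at this

end Fermat.Agent.S34.UOfCoreZ
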