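/-
PROJECT U (S34), ROUTE G, integration bridge, part 1b (helper6):
`UOfCoreZ.CoreZHyp M q p` FROM THE PRINCIPAL-NESS OF `σ D - D` AT `E = ℚ̄(X₀(M q))`.

`PrincipalHyp M q p` is (Core-Z) in divisor language, at the concrete Gauss valuation rings
`V1X0`, `V2X0` of `S34/Z1X0`: for `σ` in the inertia group of `A ∣ q` and every `u ≠ 0` which is a
one-unit of both `V1X0` and `V2X0` and whose divisor is `p ^ k • D` (`deg D = 0`), the divisor
`σ • D - D` is principal.  This is the literal conclusion of the nodal core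
(`S34/NodalCore.nodal_core` applied to `f' = σ u / u`, `D' = σ D - D`).

* `coreZHyp_of_principalHyp : PrincipalHyp M q p → CoreZHyp M q p`.
-/
import Fermat.Agent.S34.CoreZOfPrincipal
import Fermat.Agent.S34.UOfCoreZ
import Fermat.Agent.S18.A.RiemannFk
import Fermat.Agent.S18.A.RiemannBasic
import Fermat.Agent.S18.A.Instances

set_option autoImplicit false
set_option linter.unusedSectionVars false
set_option linter.style.haveILetI false

noncomputable section

namespace Fermat.Agent.S34.CoreZX0OfPrincipal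

open ModularCurve AlgebraicCurve
open Fermat.Agent.S34.Z1X0 Fermat.Agent.S34.Z1Abstract Fermat.Agent.S34.UOfCoreZ
open Fermat.Agent.S34.KummerZ Fermat.Agent.S34.CoreZOfPrincipal

local notation "Kb" => AlgebraicClosure ℚ

/-- **(Core-Z) in divisor language** at `E = ℚ̄(X₀(M q))`. -/
def PrincipalHyp (M q p : ℕ) [NeZero M] [Fact q.Prime] [NeZero q] : Prop :=
  ∀ (A : ValuationSubring Kb) (hA : A.LiesOverPrime q) (hqM : ¬ q ∣ M),
    ∀ σ ∈ A.inertiaSubgroupIn ℚ, ∀ k : ℕ,
      ∀ (u : ↥(modularFunctionFieldBar (M * q)))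
        (D : Divisor Kb ↥(modularFunctionFieldBar (M * q))), u ≠ 0 →
        IsOneUnit (V1X0 hA hqM) u → IsOneUnit (V2X0 hA hqM) u →
        Divisor.degree D = 0 →
        (∀ w : Place Kb ↥(modularFunctionFieldBar (M * q)), w.ord u = ((p ^ k : ℕ) : ℤ) * D w) →
        arithmeticGalois (modularFunctionFieldFull (M * q)) σ • D - D ∈
          Divisor.principal (K := Kb) (F := ↥(modularFunctionFieldBar (M * q)))

/-- a function on `X₀(N)` over `ℚ̄` without zeros and poles is a nonzero constant -/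
theorem exists_const_of_ord_eq_zero (N : ℕ) [NeZero N] (f : ↥(modularFunctionFieldBar N))
    (hf : f ≠ 0) (h : ∀ w : Place Kb ↥(modularFunctionFieldBar N), w.ord f = 0) :
    ∃ c : Kb, c ≠ 0 ∧ f = algebraMap Kb ↥(modularFunctionFieldBar N) c := by
  obtain ⟨g, hR⟩ := Fermat.Agent.S18.A.RiemannFk.exists_riemannHyp_FL N
  haveI := Fermat.Agent.S18.A.Instances.hasPrincipalDivisors_bar N
  haveI : Nonempty (Place Kb ↥(modularFunctionFieldBar N)) := by
    haveI := hR.infinite
    infer_instance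
  have hmem : f ∈ riemannRochSpace (0 : Divisor Kb ↥(modularFunctionFieldBar N)) := by
    rw [Fermat.Agent.S18.A.Riemann.mem_iff_of_ne_zero hf]
    intro w
    rw [h w]
    simp
  obtain ⟨c, hc⟩ := (Fermat.Agent.S18.A.Riemann.mem_rr_zero_iff hR.deg_one).mp hmem
  refine ⟨c, ?_, hc⟩
  rintro rfl
  rw [map_zero] at hc
  exact hf hc

/-- **`CoreZHyp` from principal-ness.** -/
theorem coreZHyp_of_principalHyp {M q p : ℕ} [NeZero M] [Fact q.Prime] [NeZero q] (hp : p ≠ 0)
    (h : PrincipalHyp M q p) : CoreZHyp M q p := by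
  intro A hA hqM σ hσ k u hu h1 h2
  haveI : NeZero (M * q) := ⟨Nat.mul_ne_zero (NeZero.ne M) (NeZero.ne q)⟩
  haveI := Fermat.Agent.S18.A.Instances.hasPrincipalDivisors_bar (M * q)
  exact coreZ_of_principal (exists_const_of_ord_eq_zero (M * q))
    (arithmeticGalois (modularFunctionFieldFull (M * q)) σ) (p ^ k) (pow_ne_zero k hp) hu
    (fun D hdeg hD => h A hA hqM σ hσ k u D hu.1 h1 h2 hdeg hD)

end Fermat.Agent.S34.CoreZX0OfPrincipal
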