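/-
PROJECT U (S34), helper10: GENERIC DIVISORS FOR A NODAL PAIR OF CURVES ("nodal rigidity").

Abstract Riemann-Roch input of the (Z5-inj) core (helper9 #2058 STEP 0 / helper17 #2061 NODAL
RIGIDITY).  Language: the prelude's `AlgebraicCurve.Place / Divisor / riemannRochSpace` and the
`RiemannHyp` package of `S18/NonSpecial`.

* `finite_special_gen` : `deg D + 1 - g < ℓ(D)`  ⟹  `{Q | ℓ(D) < ℓ(D + Q)}` is finite;
* `exists_generic`     : if `deg D₀ + m + 1 - g ≤ ℓ(D₀)` there are `m` distinct places, outside a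
  given finite set and pairwise in general position, whose sum `T` has `ℓ(D₀ + T) = ℓ(D₀)`
  (`D₀ = 0`, `m = g` is `S18.NonSpecial.exists_nonspecial`);
* `riemannRochSpace_neg_sumPlaces` : `L(-∑ E) = 0` for a nonempty set of places `E`;
* `exists_generic_nodes` : `g + #E - 1` generic places `T` with `L(∑ T - ∑ E) = 0`;
* `eq_const_of_compatible` : NODAL RIGIDITY: on two curves glued along nodes `s₁ i ↔ s₂ i`, with
  `ℓ(∑ T₁) = 1` and `L(∑ T₂ - ∑ s₂) = 0`, the only compatible pairs `(h₁, h₂)` in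
  `L(∑ T₁) × L(∑ T₂)` are the constants `(c, c)`.
-/
import Mathlib
import Fermat.Agent.S18.NonSpecial

set_option autoImplicit false

noncomputable section

namespace Fermat.Agent.S34.NodalGeneric

open AlgebraicCurve Fermat.Agent.S18.NonSpecial

universe u v w

variable {K : Type u} {F : Type v} [Field K] [Field F] [Algebra K F]

/-- if `ℓ(D)` exceeds the Riemann bound, only finitely many places `Q` raise `ℓ`. -/
theorem finite_special_gen {g : ℕ} (h : RiemannHyp K F g) {D : Divisor K F}
    (hD : Divisor.degree D + 1 - g < ell D) :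
    {Q : Place K F | ell D < ell (D + Finsupp.single Q 1)}.Finite := by
  classical
  by_contra hinf
  rw [Set.not_finite] at hinf
  obtain ⟨c, hc⟩ := h.riemann_eq
  set M : ℕ := (c - Divisor.degree D).toNat with hM
  obtain ⟨T, hTsub, hTcard⟩ := hinf.exists_subset_card_eq M
  have hge := ell_add_sumPlaces_ge h.finite D T (fun Q hQ => hTsub (Finset.mem_coe.mpr hQ))
  have hdegE : Divisor.degree (D + sumPlaces T) = Divisor.degree D + M := by
    rw [map_add, degree_sumPlaces h.deg_one, hTcard]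
  have hcE : c ≤ Divisor.degree (D + sumPlaces T) := by
    rw [hdegE]
    have := Int.self_le_toNat (c - Divisor.degree D)
    omega
  have heq := hc _ hcE
  rw [hdegE] at heq
  have hge' : (ell D : ℤ) + M ≤ ell (D + sumPlaces T) := by
    rw [hTcard] at hge
    exact_mod_cast hge
  omega

/-- generic places keep `ℓ` constant as long as the Riemann bound allows it. -/
theorem exists_generic {g : ℕ} (h : RiemannHyp K F g) (B : Set (Place K F)) (hB : B.Finite)
    (R : Place K F → Place K F → Prop) (hR : ∀ Q, {Q' | ¬ R Q Q'}.Finite)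
    (hsymm : ∀ a b, R a b → R b a) (D₀ : Divisor K F) {m : ℕ}
    (hm : Divisor.degree D₀ + m + 1 - g ≤ ell D₀) :
    ∃ T : Finset (Place K F), T.card = m ∧ (∀ Q ∈ T, Q ∉ B) ∧
      (∀ Q ∈ T, ∀ Q' ∈ T, Q ≠ Q' → R Q Q') ∧ ell (D₀ + sumPlaces T) = ell D₀ := by
  classical
  induction m with
  | zero =>
    exact ⟨∅, rfl, by simp, by simp, by rw [sumPlaces_empty, add_zero]⟩
  | succ m ih =>
    obtain ⟨T, hcard, hTB, hTR, hT1⟩ := ih (by push_cast at hm ⊢; omega)
    have hdeg : Divisor.degree (D₀ + sumPlaces T) + 1 - g < ell (D₀ + sumPlaces T) := by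
      rw [map_add, degree_sumPlaces h.deg_one, hcard, hT1]
      push_cast at hm
      omega
    have hspec := finite_special_gen h hdeg
    have hbad : (B ∪ ↑T ∪ {Q | ell (D₀ + sumPlaces T) <
          ell (D₀ + sumPlaces T + Finsupp.single Q 1)} ∪
        ⋃ Q ∈ T, {Q' | ¬ R Q Q'}).Finite := by
      refine ((hB.union T.finite_toSet).union hspec).union ?_
      exact Set.Finite.biUnion T.finite_toSet (fun Q _ => hR Q)
    have := h.infinite
    obtain ⟨Q', hQ'⟩ := hbad.exists_notMem
    simp only [Set.mem_union, Set.mem_iUnion, Set.mem_ofPred_eq, Finset.mem_coe, not_or,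
      not_exists, not_not, not_lt] at hQ'
    obtain ⟨⟨⟨hQB, hQT⟩, hQs⟩, hQR⟩ := hQ'
    refine ⟨insert Q' T, ?_, ?_, ?_, ?_⟩
    · rw [Finset.card_insert_of_notMem hQT, hcard]
    · intro Q hQ
      rcases Finset.mem_insert.mp hQ with rfl | hQ
      · exact hQB
      · exact hTB Q hQ
    · intro Q hQ Q'' hQ'' hne
      rcases Finset.mem_insert.mp hQ with hQe | hQm
      · rcases Finset.mem_insert.mp hQ'' with hQe' | hQm'
        · exact absurd (hQe.trans hQe'.symm) hne
        · rw [hQe]
          exact hsymm _ _ (hQR Q'' hQm')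
      · rcases Finset.mem_insert.mp hQ'' with hQe' | hQm'
        · rw [hQe']
          exact hQR Q hQm
        · exact hTR Q hQm Q'' hQm' hne
    · rw [sumPlaces_insert hQT, ← add_assoc]
      have h1 : ell (D₀ + sumPlaces T) ≤ ell (D₀ + sumPlaces T + Finsupp.single Q' 1) :=
        ell_mono (h.finite _) (le_add_of_nonneg_right (single_nonneg Q'))
      omega

/-- `L(0)` consists of the constants (from `ℓ(0) = 1`). -/
theorem exists_const_of_mem_zero (hell : ell (0 : Divisor K F) = 1) {f : F}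
    (hf : f ∈ riemannRochSpace (0 : Divisor K F)) : ∃ c : K, f = algebraMap K F c := by
  have h1mem : (1 : F) ∈ riemannRochSpace (0 : Divisor K F) := one_mem_riemannRochSpace le_rfl
  have hne : (⟨1, h1mem⟩ : riemannRochSpace (0 : Divisor K F)) ≠ 0 := by
    intro h0
    have := congrArg Subtype.val h0
    simp at this
  obtain ⟨c, hc⟩ := (finrank_eq_one_iff_of_nonzero' (⟨1, h1mem⟩ :
    riemannRochSpace (0 : Divisor K F)) hne).mp hell ⟨f, hf⟩
  refine ⟨c, ?_⟩
  have := congrArg Subtype.val hc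
  simp only [Submodule.coe_smul] at this
  rw [← this, Algebra.smul_def, mul_one]

/-- more generally, `ℓ(D) = 1` with `D ≥ 0` forces `L(D)` to be the constants. -/
theorem exists_const_of_mem {D : Divisor K F} (hD : 0 ≤ D) (hell : ell D = 1) {f : F}
    (hf : f ∈ riemannRochSpace D) : ∃ c : K, f = algebraMap K F c := by
  have h1mem : (1 : F) ∈ riemannRochSpace D := one_mem_riemannRochSpace hD
  have hne : (⟨1, h1mem⟩ : riemannRochSpace D) ≠ 0 := by
    intro h0
    have := congrArg Subtype.val h0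
    simp at this
  obtain ⟨c, hc⟩ := (finrank_eq_one_iff_of_nonzero' (⟨1, h1mem⟩ :
    riemannRochSpace D) hne).mp hell ⟨f, hf⟩
  refine ⟨c, ?_⟩
  have := congrArg Subtype.val hc
  simp only [Submodule.coe_smul] at this
  rw [← this, Algebra.smul_def, mul_one]

/-- a function vanishing on a nonempty set of places and regular elsewhere is zero. -/
theorem riemannRochSpace_neg_sumPlaces (hell : ell (0 : Divisor K F) = 1)
    {E : Finset (Place K F)} (hE : E.Nonempty) :
    riemannRochSpace (-sumPlaces E) = ⊥ := by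
  classical
  rw [eq_bot_iff]
  intro f hf
  rw [Submodule.mem_bot]
  by_contra hf0
  have hf' := mem_riemannRochSpace_iff.mp hf
  have hmem0 : f ∈ riemannRochSpace (0 : Divisor K F) := by
    rw [mem_riemannRochSpace_iff]
    intro v
    right
    have h1 := (hf' v).resolve_left hf0
    have h2 := Finsupp.le_def.mp (sumPlaces_nonneg E) v
    simp only [Finsupp.coe_zero, Pi.zero_apply, Finsupp.coe_neg, Pi.neg_apply, neg_neg] at h1 h2 ⊢
    omega
  obtain ⟨c, hc⟩ := exists_const_of_mem_zero hell hmem0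
  obtain ⟨e, he⟩ := hE
  have h1 := (hf' e).resolve_left hf0
  rw [hc, Fermat.Agent.S24.Ord.ord_algebraMap e c] at h1
  simp only [Finsupp.coe_neg, Pi.neg_apply, neg_neg, sumPlaces_apply_of_mem he] at h1
  omega

theorem ell_neg_sumPlaces (hell : ell (0 : Divisor K F) = 1)
    {E : Finset (Place K F)} (hE : E.Nonempty) : ell (-sumPlaces E) = 0 := by
  unfold ell
  rw [riemannRochSpace_neg_sumPlaces hell hE]
  exact finrank_bot K F

/-- **generic places through nodes**: for a nonempty set `E` of places ("nodes") there are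
`g + #E - 1` distinct places `T`, off `E`, off a given finite set and pairwise in general
position, with `L(∑ T - ∑ E) = 0`. -/
theorem exists_generic_nodes {g : ℕ} (h : RiemannHyp K F g) (B : Set (Place K F)) (hB : B.Finite)
    (R : Place K F → Place K F → Prop) (hR : ∀ Q, {Q' | ¬ R Q Q'}.Finite)
    (hsymm : ∀ a b, R a b → R b a) {E : Finset (Place K F)} (hE : E.Nonempty) :
    ∃ T : Finset (Place K F), T.card = g + E.card - 1 ∧ (∀ Q ∈ T, Q ∉ B) ∧ (∀ Q ∈ T, Q ∉ E) ∧
      (∀ Q ∈ T, ∀ Q' ∈ T, Q ≠ Q' → R Q Q') ∧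
      riemannRochSpace (sumPlaces T - sumPlaces E) = ⊥ := by
  classical
  have h0 : ell (-sumPlaces E) = 0 := ell_neg_sumPlaces h.ell_zero hE
  have hpos : 0 < E.card := Finset.card_pos.mpr hE
  have hm : Divisor.degree (-sumPlaces E) + ((g + E.card - 1 : ℕ) : ℤ) + 1 - g ≤
      ell (-sumPlaces E) := by
    rw [h0, map_neg, degree_sumPlaces h.deg_one]
    push_cast
    omega
  obtain ⟨T, hcard, hTB, hTR, hT⟩ := exists_generic h (B ∪ ↑E) (hB.union E.finite_toSet) R hR hsymm
    (-sumPlaces E) hm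
  refine ⟨T, hcard, fun Q hQ hQB => hTB Q hQ (Or.inl hQB),
    fun Q hQ hQE => hTB Q hQ (Or.inr (Finset.mem_coe.mpr hQE)), hTR, ?_⟩
  rw [h0, neg_add_eq_sub] at hT
  have := h.finite (sumPlaces T - sumPlaces E)
  exact Submodule.finrank_eq_zero.mp hT

/-! ### Nodal rigidity on a pair of curves -/

section Pair

variable {F₁ : Type v} {F₂ : Type w} [Field F₁] [Field F₂] [Algebra K F₁] [Algebra K F₂]

/-- `(h₁, h₂)` take a common value at every node `s₁ i ↔ s₂ i` (both regular there). -/
def IsCompatible {ι : Type*} (s₁ : ι → Place K F₁) (s₂ : ι → Place K F₂) (h₁ : F₁) (h₂ : F₂) :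
    Prop :=
  ∀ i, ∃ c : K, (s₁ i).adicValuation (h₁ - algebraMap K F₁ c) < 1 ∧
    (s₂ i).adicValuation (h₂ - algebraMap K F₂ c) < 1

theorem isCompatible_const {ι : Type*} (s₁ : ι → Place K F₁) (s₂ : ι → Place K F₂) (c : K) :
    IsCompatible s₁ s₂ (algebraMap K F₁ c) (algebraMap K F₂ c) := fun _ =>
  ⟨c, by simp, by simp⟩

/-- a constant in the maximal ideal of a place is zero -/
theorem eq_zero_of_adicValuation_algebraMap_lt_one (v : Place K F) {c : K}
    (hc : v.adicValuation (algebraMap K F c) < 1) : c = 0 := by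
  by_contra hc0
  rw [Fermat.Agent.S24.Ord.adicValuation_algebraMap v hc0] at hc
  exact lt_irrefl _ hc

/-- **NODAL RIGIDITY.**  Two curves `F₁, F₂` over `K` glued along the nodes `s₁ i ↔ s₂ i`
(`ι` nonempty, `s₂` injective).  If `ℓ(∑ T₁) = 1` and `L(∑ T₂ - ∑ᵢ s₂ i) = 0`, every compatible
pair `(h₁, h₂) ∈ L(∑ T₁) × L(∑ T₂)` is a pair of equal constants. -/
theorem eq_const_of_compatible {ι : Type*} [Fintype ι] [Nonempty ι]
    (s₁ : ι → Place K F₁) (s₂ : ι → Place K F₂) [DecidableEq (Place K F₂)]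
    (T₁ : Finset (Place K F₁)) (T₂ : Finset (Place K F₂))
    (hT₁ : ell (sumPlaces T₁) = 1)
    (hT₂ : riemannRochSpace (sumPlaces T₂ - sumPlaces (Finset.univ.image s₂)) = ⊥)
    {h₁ : F₁} {h₂ : F₂} (hh₁ : h₁ ∈ riemannRochSpace (sumPlaces T₁))
    (hh₂ : h₂ ∈ riemannRochSpace (sumPlaces T₂)) (hc : IsCompatible s₁ s₂ h₁ h₂) :
    ∃ c : K, h₁ = algebraMap K F₁ c ∧ h₂ = algebraMap K F₂ c := by
  classical
  obtain ⟨c, hc1⟩ := exists_const_of_mem (sumPlaces_nonneg T₁) hT₁ hh₁
  refine ⟨c, hc1, ?_⟩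
  -- `h₂ - c` vanishes at every node
  have hvan : ∀ i, (s₂ i).adicValuation (h₂ - algebraMap K F₂ c) < 1 := by
    intro i
    obtain ⟨c', h1, h2⟩ := hc i
    have : c - c' = 0 := by
      apply eq_zero_of_adicValuation_algebraMap_lt_one (s₁ i)
      rw [map_sub, ← hc1]
      exact h1
    rw [sub_eq_zero.mp this]
    exact h2
  have hmem : h₂ - algebraMap K F₂ c ∈
      riemannRochSpace (sumPlaces T₂ - sumPlaces (Finset.univ.image s₂)) := by
    have hsub : h₂ - algebraMap K F₂ c ∈ riemannRochSpace (sumPlaces T₂) := by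
      refine Submodule.sub_mem _ hh₂ ?_
      have := (riemannRochSpace (sumPlaces T₂)).smul_mem c
        (one_mem_riemannRochSpace (sumPlaces_nonneg T₂))
      rwa [Algebra.smul_def, mul_one] at this
    rw [mem_riemannRochSpace_iff] at hsub ⊢
    intro v
    rcases eq_or_ne (h₂ - algebraMap K F₂ c) 0 with h0 | hne
    · exact Or.inl h0
    right
    have h1 := (hsub v).resolve_left hne
    by_cases hv : v ∈ Finset.univ.image s₂
    · obtain ⟨i, -, rfl⟩ := Finset.mem_image.mp hv
      have hpos := (Fermat.Agent.S24.Ord.ord_pos_iff (s₂ i) hne).mpr (hvan i)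
      have hT2 := Finsupp.le_def.mp (sumPlaces_nonneg T₂) (s₂ i)
      simp only [Finsupp.coe_zero, Pi.zero_apply] at hT2
      have hle : sumPlaces T₂ (s₂ i) ≤ 1 := by
        by_cases hm : s₂ i ∈ T₂
        · rw [sumPlaces_apply_of_mem hm]
        · rw [sumPlaces_apply_of_not_mem hm]; norm_num
      rw [Finsupp.sub_apply, sumPlaces_apply_of_mem hv]
      omega
    · rw [Finsupp.sub_apply, sumPlaces_apply_of_not_mem hv, sub_zero]
      exact h1
  rw [hT₂, Submodule.mem_bot] at hmem
  exact sub_eq_zero.mp hmem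

end Pair

end Fermat.Agent.S34.NodalGeneric
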