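/-
PROJECT U (S34), helper10: ADAPTER from `S18.NonSpecial.RiemannHyp` (on the two components) to the
`Fin`-indexed NODAL RIGIDITY statement consumed by helper9's nodal core (`NodalDefs.NodalRigid`,
#2130), stated here UNFOLDED so that this file does not depend on `NodalDefs`:

for all finite bad sets there are `g₁` distinct places `Q₁ i` of `F₁` and `g₂ + #ι - 1` distinct
places `Q₂ j` of `F₂`, off the bad sets, with `L(∑ Q₁ i) = constants` and such that the only
element of `L(∑ Q₂ j)` vanishing at every node `e₂ e` is `0`.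
-/
import Mathlib
import Fermat.Agent.S18.NonSpecialAdapter
import Fermat.Agent.S34.NodalGeneric

set_option autoImplicit false

noncomputable section

namespace Fermat.Agent.S34.NodalRigidAdapter

open AlgebraicCurve Fermat.Agent.S18.NonSpecial Fermat.Agent.S18.NonSpecialAdapter
  Fermat.Agent.S18.CoreDefs Fermat.Agent.S34.NodalGeneric

universe u v w

variable {k : Type u} {F₁ : Type v} {F₂ : Type w} [Field k] [Field F₁] [Field F₂]
  [Algebra k F₁] [Algebra k F₂]

/-- the second half: `g + #ι - 1` generic places of one curve such that the only element of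
`L(∑ Q j)` vanishing at all the nodes is `0`. -/
theorem exists_generic_nodes_fin {g : ℕ} (h : RiemannHyp k F₂ g) {ι : Type*} [Fintype ι]
    [Nonempty ι] (e₂ : ι → Place k F₂) (he₂ : Function.Injective e₂)
    (Bad : Set (Place k F₂)) (hBad : Bad.Finite) :
    ∃ Q : Fin (g + Fintype.card ι - 1) → Place k F₂, Function.Injective Q ∧
      (∀ j, Q j ∉ Bad) ∧ (∀ j e, Q j ≠ e₂ e) ∧
      ∀ y ∈ riemannRochSpace (∑ j, Finsupp.single (Q j) (1 : ℤ)),
        (∀ e, y = 0 ∨ 0 < (e₂ e).ord y) → y = 0 := by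
  classical
  set E : Finset (Place k F₂) := Finset.univ.image e₂ with hE
  have hEne : E.Nonempty := ⟨e₂ (Classical.arbitrary ι), Finset.mem_image.mpr ⟨_, Finset.mem_univ _, rfl⟩⟩
  have hEcard : E.card = Fintype.card ι := by
    rw [hE, Finset.card_image_of_injective _ he₂, Finset.card_univ]
  obtain ⟨T, hcard, hTB, hTE, -, hT⟩ :=
    exists_generic_nodes h Bad hBad (fun _ _ => True) (fun _ => by simp) (fun _ _ _ => trivial) hEne
  rw [hEcard] at hcard
  let e : T ≃ Fin (g + Fintype.card ι - 1) := T.equivFinOfCardEq hcard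
  refine ⟨fun j => ((e.symm j : T) : Place k F₂), ?_, ?_, ?_, ?_⟩
  · intro i j hij
    exact e.symm.injective (Subtype.ext hij)
  · intro j
    exact hTB _ (e.symm j).2
  · intro j e' hje
    apply hTE _ (e.symm j).2
    have hje' : ((e.symm j : T) : Place k F₂) = e₂ e' := hje
    rw [hje']
    exact Finset.mem_image.mpr ⟨e', Finset.mem_univ _, rfl⟩
  · intro y hy hvan
    rw [sum_single_eq_sumPlaces T e] at hy
    have hmem : y ∈ riemannRochSpace (sumPlaces T - sumPlaces E) := by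
      rw [mem_riemannRochSpace_iff] at hy ⊢
      intro v
      rcases eq_or_ne y 0 with h0 | hne
      · exact Or.inl h0
      right
      have h1 := (hy v).resolve_left hne
      by_cases hv : v ∈ E
      · obtain ⟨e', -, rfl⟩ := Finset.mem_image.mp hv
        have hpos := (hvan e').resolve_left hne
        have hT2 := Finsupp.le_def.mp (sumPlaces_nonneg T) (e₂ e')
        simp only [Finsupp.coe_zero, Pi.zero_apply] at hT2
        rw [Finsupp.sub_apply, sumPlaces_apply_of_mem hv]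
        omega
      · rw [Finsupp.sub_apply, sumPlaces_apply_of_not_mem hv, sub_zero]
        exact h1
    rw [hT, Submodule.mem_bot] at hmem
    exact hmem

/-- **NODAL RIGIDITY, `Fin`-indexed, from Riemann's theorem on the two components** (unfolded form
of `NodalDefs.NodalRigid k F₁ F₂ e₂ g₁ (g₂ + Fintype.card ι - 1)`). -/
theorem nodalRigid_of_riemannHyp {g₁ g₂ : ℕ} (h₁ : RiemannHyp k F₁ g₁) (h₂ : RiemannHyp k F₂ g₂)
    {ι : Type*} [Fintype ι] [Nonempty ι] (e₂ : ι → Place k F₂) (he₂ : Function.Injective e₂)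
    (Bad₁ : Set (Place k F₁)) (Bad₂ : Set (Place k F₂)) (hBad₁ : Bad₁.Finite)
    (hBad₂ : Bad₂.Finite) :
    ∃ (Q₁ : Fin g₁ → Place k F₁) (Q₂ : Fin (g₂ + Fintype.card ι - 1) → Place k F₂),
      Function.Injective Q₁ ∧ Function.Injective Q₂ ∧ (∀ i, Q₁ i ∉ Bad₁) ∧ (∀ j, Q₂ j ∉ Bad₂) ∧
      (∀ j e, Q₂ j ≠ e₂ e) ∧
      (∀ y ∈ riemannRochSpace (∑ i, Finsupp.single (Q₁ i) (1 : ℤ)),
        ∃ c : k, y = algebraMap k F₁ c) ∧
      (∀ y ∈ riemannRochSpace (∑ j, Finsupp.single (Q₂ j) (1 : ℤ)),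
        (∀ e, y = 0 ∨ 0 < (e₂ e).ord y) → y = 0) := by
  obtain ⟨Q₁, hinj₁, hoff₁, hrig₁⟩ := rigidGeneric_of_riemannHyp h₁ le_rfl Bad₁ hBad₁
  obtain ⟨Q₂, hinj₂, hoff₂, hne₂, hrig₂⟩ := exists_generic_nodes_fin h₂ e₂ he₂ Bad₂ hBad₂
  exact ⟨Q₁, Q₂, hinj₁, hinj₂, hoff₁, hoff₂, hne₂, hrig₁, hrig₂⟩

end Fermat.Agent.S34.NodalRigidAdapter
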