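import Mathlib
import Fermat.Agent.S34.NodalDefs
import Fermat.Agent.S34.NodalRigidAdapter

/-!
# PROJECT U (S34): `NodalDefs.NodalRigid` from Riemann's theorem on the two components

The folded form of `NodalRigidAdapter.nodalRigid_of_riemannHyp` (helper10): the hypothesis `hG`
of `NodalCore.nodal_core` with `g1 = g₁` and `m2 = g₂ + #ι - 1`.
-/

set_option autoImplicit false

namespace Fermat.Agent.S34.NodalRigidOfRiemann

open AlgebraicCurve Fermat.Agent.S18.NonSpecial Fermat.Agent.S34.NodalDefs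

/-- Riemann's theorem on the two components gives the generic rigid divisors of the nodal core. -/
theorem nodalRigid {k : Type*} {F1 : Type*} {F2 : Type*} [Field k] [Field F1] [Field F2]
    [Algebra k F1] [Algebra k F2] {g1 g2 : ℕ} (h1 : RiemannHyp k F1 g1) (h2 : RiemannHyp k F2 g2)
    {ι : Type*} [Fintype ι] [Nonempty ι] (e2 : ι → Place k F2) (he2 : Function.Injective e2) :
    NodalRigid k F1 F2 e2 g1 (g2 + Fintype.card ι - 1) := by
  intro Bad1 hBad1 Bad2 hBad2
  obtain ⟨Q1, Q2, hQ1, hQ2, hoff1, hoff2, -, hrig1, hrig2⟩ :=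
    Fermat.Agent.S34.NodalRigidAdapter.nodalRigid_of_riemannHyp h1 h2 e2 he2 Bad1 Bad2 hBad1 hBad2
  exact ⟨Q1, Q2, hQ1, hQ2, hoff1, hoff2, hrig1, hrig2⟩

end Fermat.Agent.S34.NodalRigidOfRiemann
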