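import Mathlib
import Fermat.Agent.S34.GenusRiemann
import Fermat.Agent.S37.ES.DegreeBeta

/-!
# PROJECT U (S34): the special fibre of `X₀(Mq)` at `q` has at least one node

Route G defines the node set `S` abstractly (the subset produced by the affine sandwich) and the
genus identity (Euler route) reads `g(Mq) + 1 = g₁ + g₂ + δ` with `g₁ = g₂ = g(M)`.  That `δ ≥ 1`
(connectedness of the special fibre) is then `2 g(M) ≤ g(Mq)` for the Riemann genera, which we
prove from the classical genus formula (`S34/GenusRiemann` + `S24`):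

`genusFormula (M q) - 2 genusFormula M = -1 + (q-1) ψ(M)/12 + (2 ν₂(M) - ν₂(Mq))/4
    + (2 ν₃(M) - ν₃(Mq))/3 + (2 c(M) - c(Mq))/2 > -1`.

* `rootCount_mul`, `rootCount_prime_le` : CRT-multiplicativity of the number of roots mod `N` of an
  integer polynomial, and the bound by the degree modulo a prime;
* `nuTwo_mul_prime_le`, `nuThree_mul_prime_le`, `cuspCount_mul_prime`;
* `genusFormula_mul_prime_gt` : `2 * genusFormula M - 1 < genusFormula (M * q)`;
* `two_mul_genus_le` : `2 gM ≤ gN` for the Riemann genera at levels `M`, `M * q`;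
* `one_le_of_genus_identity` : `gN + 1 = gM + gM + δ → 1 ≤ δ`.
-/

set_option autoImplicit false

namespace Fermat.Agent.S34.NodesNonempty

open Polynomial ModularCurve

/-! ### roots of integer polynomials modulo `N` -/

/-- the number of roots of `f ∈ ℤ[X]` in `ZMod N` -/
noncomputable def rootCount (f : ℤ[X]) (N : ℕ) : ℕ := Nat.card {x : ZMod N // aeval x f = 0}

theorem aeval_ringHom {R S : Type*} [CommRing R] [CommRing S] (φ : R →+* S) (x : R) (f : ℤ[X]) :
    aeval (φ x) f = φ (aeval x f) :=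
  Polynomial.aeval_algHom_apply φ.toIntAlgHom x f

/-- CRT: the number of roots is multiplicative -/
theorem rootCount_mul {m n : ℕ} (h : m.Coprime n) (f : ℤ[X]) :
    rootCount f (m * n) = rootCount f m * rootCount f n := by
  unfold rootCount
  rw [← Nat.card_prod]
  let e := ZMod.chineseRemainder h
  let φ₁ : ZMod (m * n) →+* ZMod m := (RingHom.fst (ZMod m) (ZMod n)).comp e.toRingHom
  let φ₂ : ZMod (m * n) →+* ZMod n := (RingHom.snd (ZMod m) (ZMod n)).comp e.toRingHom
  have hφ₁ : ∀ x, φ₁ x = (e x).1 := fun _ => rfl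
  have hφ₂ : ∀ x, φ₂ x = (e x).2 := fun _ => rfl
  refine Nat.card_congr ?_
  refine
    { toFun := fun x => (⟨φ₁ x.1, ?_⟩, ⟨φ₂ x.1, ?_⟩)
      invFun := fun p => ⟨e.symm (p.1.1, p.2.1), ?_⟩
      left_inv := ?_
      right_inv := ?_ }
  · rw [aeval_ringHom φ₁ x.1 f, x.2, map_zero]
  · rw [aeval_ringHom φ₂ x.1 f, x.2, map_zero]
  · apply e.injective
    rw [map_zero]
    apply Prod.ext
    · rw [← hφ₁, ← aeval_ringHom φ₁, hφ₁, RingEquiv.apply_symm_apply]
      exact p.1.2
    · rw [← hφ₂, ← aeval_ringHom φ₂, hφ₂, RingEquiv.apply_symm_apply]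
      exact p.2.2
  · intro x
    apply Subtype.ext
    show e.symm ((e x.1).1, (e x.1).2) = x.1
    rw [Prod.mk.eta, RingEquiv.symm_apply_apply]
  · intro p
    apply Prod.ext <;> apply Subtype.ext
    · show (e (e.symm (p.1.1, p.2.1))).1 = p.1.1
      rw [RingEquiv.apply_symm_apply]
    · show (e (e.symm (p.1.1, p.2.1))).2 = p.2.1
      rw [RingEquiv.apply_symm_apply]

/-- modulo a prime a monic polynomial has at most `deg` roots -/
theorem rootCount_prime_le {q : ℕ} (hq : q.Prime) {f : ℤ[X]} (hf : f.Monic) :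
    rootCount f q ≤ f.natDegree := by
  have : Fact q.Prime := ⟨hq⟩
  classical
  set g : (ZMod q)[X] := f.map (Int.castRingHom (ZMod q)) with hg
  have hgm : g.Monic := hf.map _
  have hg0 : g ≠ 0 := hgm.ne_zero
  have hdeg : g.natDegree = f.natDegree := hf.natDegree_map _
  have hev : ∀ x : ZMod q, aeval x f = 0 ↔ x ∈ g.roots.toFinset := by
    intro x
    rw [Multiset.mem_toFinset, mem_roots hg0, IsRoot.def, hg, eval_map, aeval_def]
    rfl
  unfold rootCount
  rw [Nat.card_eq_fintype_card, Fintype.card_subtype]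
  have h1 : (Finset.univ.filter fun x : ZMod q => aeval x f = 0) = g.roots.toFinset := by
    ext x
    rw [Finset.mem_filter, hev]
    simp
  rw [h1, ← hdeg]
  exact (Multiset.toFinset_card_le _).trans (card_roots' g)

theorem nuTwo_eq_rootCount (N : ℕ) : nuTwo N = rootCount (X ^ 2 + 1) N := by
  unfold nuTwo rootCount
  exact Nat.card_congr (Equiv.subtypeEquivRight fun x => by simp)

theorem nuThree_eq_rootCount (N : ℕ) : nuThree N = rootCount (X ^ 2 + X + 1) N := by
  unfold nuThree rootCount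
  exact Nat.card_congr (Equiv.subtypeEquivRight fun x => by simp)

variable {q M : ℕ}

theorem coprime_of_prime_not_dvd (hq : q.Prime) (hqM : ¬ q ∣ M) : M.Coprime q :=
  ((Nat.Prime.coprime_iff_not_dvd hq).mpr hqM).symm

theorem nuTwo_mul_prime_le (hq : q.Prime) (hqM : ¬ q ∣ M) : nuTwo (M * q) ≤ 2 * nuTwo M := by
  rw [nuTwo_eq_rootCount, nuTwo_eq_rootCount, rootCount_mul (coprime_of_prime_not_dvd hq hqM),
    mul_comm]
  have hm : (X ^ 2 + 1 : ℤ[X]).Monic := by monicity!
  have hd : (X ^ 2 + 1 : ℤ[X]).natDegree = 2 := by compute_degree!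
  have := rootCount_prime_le hq hm
  rw [hd] at this
  exact Nat.mul_le_mul_right _ this

theorem nuThree_mul_prime_le (hq : q.Prime) (hqM : ¬ q ∣ M) :
    nuThree (M * q) ≤ 2 * nuThree M := by
  rw [nuThree_eq_rootCount, nuThree_eq_rootCount,
    rootCount_mul (coprime_of_prime_not_dvd hq hqM), mul_comm]
  have hm : (X ^ 2 + X + 1 : ℤ[X]).Monic := by monicity!
  have hd : (X ^ 2 + X + 1 : ℤ[X]).natDegree = 2 := by compute_degree!
  have := rootCount_prime_le hq hm
  rw [hd] at this
  exact Nat.mul_le_mul_right _ this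

/-! ### the cusp count -/

open scoped Pointwise in
theorem cuspCount_mul_prime (hq : q.Prime) (hqM : ¬ q ∣ M) (hM : M ≠ 0) :
    cuspCount (M * q) = 2 * cuspCount M := by
  classical
  unfold cuspCount
  have hdiv : (M * q).divisors = M.divisors ∪ M.divisors.image (· * q) := by
    rw [Nat.divisors_mul, hq.divisors]
    ext d
    simp only [Finset.mem_mul, Finset.mem_insert, Finset.mem_singleton, Finset.mem_union,
      Finset.mem_image]
    constructor
    · rintro ⟨a, ha, b, hb, rfl⟩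
      rcases hb with rfl | rfl
      · left; rwa [mul_one]
      · right; exact ⟨a, ha, rfl⟩
    · rintro (hd | ⟨a, ha, rfl⟩)
      · exact ⟨d, hd, 1, Or.inl rfl, mul_one d⟩
      · exact ⟨a, ha, q, Or.inr rfl, rfl⟩
  have hnot : ∀ d ∈ M.divisors, ¬ q ∣ d := fun d hd hqd =>
    hqM (hqd.trans (Nat.dvd_of_mem_divisors hd))
  have hdisj : Disjoint M.divisors (M.divisors.image (· * q)) := by
    rw [Finset.disjoint_left]
    intro d hd hd'
    obtain ⟨a, -, rfl⟩ := Finset.mem_image.mp hd'
    exact hnot _ hd (Dvd.intro_left a rfl)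
  have hinj : Set.InjOn (· * q) (M.divisors : Set ℕ) := fun a _ b _ hab =>
    Nat.eq_of_mul_eq_mul_right hq.pos hab
  rw [hdiv, Finset.sum_union hdisj, Finset.sum_image hinj, two_mul]
  congr 1
  · refine Finset.sum_congr rfl fun d hd => ?_
    obtain ⟨e, rfl⟩ := Nat.dvd_of_mem_divisors hd
    have hd0 : 0 < d := Nat.pos_of_mem_divisors hd
    have hqd : Nat.Coprime q d := (Nat.Prime.coprime_iff_not_dvd hq).mpr (hnot _ hd)
    rw [mul_assoc, Nat.mul_div_cancel_left _ hd0, Nat.mul_div_cancel_left _ hd0,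
      Nat.Coprime.gcd_mul_right_cancel_right e hqd]
  · refine Finset.sum_congr rfl fun d hd => ?_
    obtain ⟨e, rfl⟩ := Nat.dvd_of_mem_divisors hd
    have hd0 : 0 < d := Nat.pos_of_mem_divisors hd
    have hqe : Nat.Coprime q e := (Nat.Prime.coprime_iff_not_dvd hq).mpr fun h =>
      hqM (h.trans (Dvd.intro_left d rfl))
    have h1 : d * e * q / (d * q) = e := by
      rw [show d * e * q = e * (d * q) by ring]
      exact Nat.mul_div_cancel _ (Nat.mul_pos hd0 hq.pos)
    rw [h1, Nat.mul_div_cancel_left _ hd0, Nat.Coprime.gcd_mul_right_cancel d hqe]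

/-! ### the genus formula at level `M q` -/

theorem genusFormula_mul_prime_gt [NeZero M] (hq : q.Prime) (hqM : ¬ q ∣ M) :
    2 * genusFormula M - 1 < genusFormula (M * q) := by
  have : NeZero q := ⟨hq.ne_zero⟩
  have hψ := Fermat.Agent.S37.ES.DegreeBeta.dedekindPsi_mul_prime_of_not_dvd M hq hqM
  have hψpos : 0 < dedekindPsi M := Fermat.Agent.S37.ES.DegreeBeta.dedekindPsi_pos M
  have h2 := nuTwo_mul_prime_le hq hqM
  have h3 := nuThree_mul_prime_le hq hqM
  have hc := cuspCount_mul_prime hq hqM (NeZero.ne M)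
  have hq2 : 2 ≤ q := hq.two_le
  unfold genusFormula
  rw [hψ, hc]
  push_cast
  have e2 : (nuTwo (M * q) : ℚ) ≤ 2 * nuTwo M := by exact_mod_cast h2
  have e3 : (nuThree (M * q) : ℚ) ≤ 2 * nuThree M := by exact_mod_cast h3
  have eψ : (1 : ℚ) ≤ dedekindPsi M := by exact_mod_cast hψpos
  have eq2 : (2 : ℚ) ≤ q := by exact_mod_cast hq2
  nlinarith

local notation "Kb" => AlgebraicClosure ℚ

/-- **`2 g(M) ≤ g(Mq)`** for the Riemann genera of `ℚ̄(X₀(M))`, `ℚ̄(X₀(Mq))`. -/
theorem two_mul_genus_le [NeZero M] (hq : q.Prime) (hqM : ¬ q ∣ M) [NeZero (M * q)] {gM gN : ℕ}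
    (hRM : Fermat.Agent.S18.NonSpecial.RiemannHyp Kb ↥(modularFunctionFieldBar M) gM)
    (hRN : Fermat.Agent.S18.NonSpecial.RiemannHyp Kb ↥(modularFunctionFieldBar (M * q)) gN) :
    2 * gM ≤ gN := by
  have h1 := Fermat.Agent.S34.GenusRiemann.riemann_genus_eq_formula M hRM
  have h2 := Fermat.Agent.S34.GenusRiemann.riemann_genus_eq_formula (M * q) hRN
  have h3 := genusFormula_mul_prime_gt hq hqM (M := M)
  rw [← h1, ← h2] at h3
  have h4 : ((2 * gM : ℕ) : ℚ) < ((gN + 1 : ℕ) : ℚ) := by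
    push_cast
    linarith
  have h5 : 2 * gM < gN + 1 := by exact_mod_cast h4
  omega

/-- **the special fibre has a node**: the genus identity `g(Mq) + 1 = g₁ + g₂ + δ` with
`g₁ = g₂ = g(M)` forces `1 ≤ δ`. -/
theorem one_le_of_genus_identity [NeZero M] (hq : q.Prime) (hqM : ¬ q ∣ M) [NeZero (M * q)]
    {gM gN δ : ℕ}
    (hRM : Fermat.Agent.S18.NonSpecial.RiemannHyp Kb ↥(modularFunctionFieldBar M) gM)
    (hRN : Fermat.Agent.S18.NonSpecial.RiemannHyp Kb ↥(modularFunctionFieldBar (M * q)) gN)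
    (hid : gN + 1 = gM + gM + δ) : 1 ≤ δ := by
  have := two_mul_genus_le hq hqM hRM hRN
  omega

end Fermat.Agent.S34.NodesNonempty
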