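/-
PROJECT U (S34), ROUTE G, final assembly helper (helper5):
`NodalCore.nodal_core` SPECIALISED at `E = ℚ̄(X₀(M q))`, `κ = modularFunctionFieldFullC k M`
(`k` the residue field of a valuation subring `A ∣ q` of `ℚ̄`, `q ∤ M`), with every hypothesis
which does not belong to the nodal datum discharged from results on main:

* the three `HasPrincipalDivisors` instances, `deg P = 1` on `E`, surjectivity of `residue`;
* `(p ^ n : k) ≠ 0` for a prime `p ≠ q`;
* `hunram₁`, `hunram₂` from `red_i x_i = j̄` (`S18/A/UnramFinal` + `S18/B/SeparableFk`);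
* `Nonempty ι` from (NC) `g + 1 ≤ 2 g_k + #ι` and `2 g(M) ≤ g(M q)` (`S34/NodesNonempty`),
  using `g_k(M) = g_L(M)` (`S37/GenusAll`, `S37/ReductionInputsX0`);
* Riemann's inequality at the arithmetic genus `g_k + (g_k + #ι - 1)` from (NC);
* `NodalRigid` from Riemann's theorem on `κ` (`S34/NodalRigidOfRiemann`).

What is left are the nodal datum `N`, injectivity of `N.e2`, (NC) (the literal conclusion of
`S34/Euler/Main.genus_le_of_sandwich`), the two functions `x_i` with `red_i x_i = j̄`, a type-1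
place `P⋆`, and the Kummer data `D, f₁, f₂` with the gluing hypothesis `GlueG N D`.
-/
import Mathlib
import Fermat.Agent.S34.NodalCore
import Fermat.Agent.S34.NodalRigidOfRiemann
import Fermat.Agent.S34.NodesNonempty
import Fermat.Agent.S37.GenusAll
import Fermat.Agent.S37.Cusps.CuspCountFinal
import Fermat.Agent.S37.ReductionInputsX0
import Fermat.Agent.S18.A.UnramFinal
import Fermat.Agent.S18.B.SeparableFk
import Fermat.Agent.S18.B.FkBasics
import Fermat.Agent.S18.NonSpecialAdapter

set_option autoImplicit false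
set_option linter.unusedSectionVars false
set_option linter.style.haveILetI false
set_option synthInstance.maxHeartbeats 400000

noncomputable section

namespace Fermat.Agent.S34.NodalCoreX0

open ModularCurve AlgebraicCurve IsLocalRing
open Fermat.Agent.S18.NonSpecial Fermat.Agent.S34.NodalDefs

local notation "Kb" => AlgebraicClosure ℚ

variable {q : ℕ} [hq : Fact q.Prime] {M : ℕ} [NeZero M] {A : ValuationSubring Kb}

/-! ### the genera -/

/-- Riemann's theorem on `κ_M = k(X₀(M))` holds with the genus of `ℚ̄(X₀(M))`. -/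
theorem riemannHyp_bar_of_riemannHyp_k (hA : A.LiesOverPrime q) (hqM : ¬ q ∣ M) {gk : ℕ}
    (Hk : RiemannHyp (ResidueField ↥A) ↥(modularFunctionFieldFullC (ResidueField ↥A) M) gk) :
    RiemannHyp Kb ↥(modularFunctionFieldBar M) gk := by
  obtain ⟨gL, HL⟩ := Fermat.Agent.S18.A.RiemannFk.exists_riemannHyp_FL M
  have hle : gL ≤ gk :=
    Fermat.Agent.S37.GenusAll.genus_le M A hA hqM
      (fun _ => Fermat.Agent.S37.Cusps.CuspCountFinal.cuspCount M A hA hqM) gL gk HL Hk
  have heq : gk = gL :=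
    Fermat.Agent.S37.ReductionInputsX0.genus_eq_X0 M A hA hqM HL Hk hle
  rw [heq]
  exact HL

/-- **`2 g_k(M) ≤ g(M q)`.** -/
theorem two_mul_genus_k_le [NeZero q] (hA : A.LiesOverPrime q) (hqM : ¬ q ∣ M) {g gk : ℕ}
    (HL : RiemannHyp Kb ↥(modularFunctionFieldBar (M * q)) g)
    (Hk : RiemannHyp (ResidueField ↥A) ↥(modularFunctionFieldFullC (ResidueField ↥A) M) gk) :
    2 * gk ≤ g :=
  Fermat.Agent.S34.NodesNonempty.two_mul_genus_le hq.out hqM
    (riemannHyp_bar_of_riemannHyp_k hA hqM Hk) HL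

/-- **The nodes exist**: (NC) forces `1 ≤ #ι`. -/
theorem one_le_card_of_nc [NeZero q] (hA : A.LiesOverPrime q) (hqM : ¬ q ∣ M) {g gk : ℕ}
    (HL : RiemannHyp Kb ↥(modularFunctionFieldBar (M * q)) g)
    (Hk : RiemannHyp (ResidueField ↥A) ↥(modularFunctionFieldFullC (ResidueField ↥A) M) gk)
    {ι : Type*} [Fintype ι] (hNC : (g : ℤ) + 1 ≤ gk + gk + Fintype.card ι) :
    1 ≤ Fintype.card ι := by
  have h := two_mul_genus_k_le hA hqM HL Hk
  omega

/-! ### small inputs -/

/-- a power of a prime `p ≠ q` is invertible in the residue field -/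
theorem natCast_pow_ne_zero (hA : A.LiesOverPrime q) {p : ℕ} (hp : p.Prime) (hpq : p ≠ q)
    (n : ℕ) : ((p ^ n : ℕ) : ResidueField ↥A) ≠ 0 := by
  haveI : CharP (ResidueField ↥A) q := Fermat.Agent.S18.ResidueBasics.charP_residueField A hA
  intro h
  have hdvd : q ∣ p ^ n := (CharP.cast_eq_zero_iff (ResidueField ↥A) q (p ^ n)).mp h
  have hqp : q ∣ p := hq.out.dvd_of_dvd_pow hdvd
  exact hpq ((Nat.prime_dvd_prime_iff_eq hq.out hp).mp hqp).symm

/-- **`hunram`** for a function reducing to `j̄`. -/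
theorem finite_not_simple_of_eq_jk
    {x : ↥(modularFunctionFieldFullC (ResidueField ↥A) M)}
    (hx : x = Fermat.Agent.S18.B.FkBasics.jk (ResidueField ↥A) M) :
    {Q : Place (ResidueField ↥A) ↥(modularFunctionFieldFullC (ResidueField ↥A) M) |
      ¬ ∃ γ : ResidueField ↥A,
        Q.ord (x - algebraMap (ResidueField ↥A)
          ↥(modularFunctionFieldFullC (ResidueField ↥A) M) γ) = 1}.Finite := by
  haveI : IsAlgClosed (ResidueField ↥A) :=
    Fermat.Agent.S18.ResidueBasics.isAlgClosed_residueField A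
  rw [hx]
  exact Fermat.Agent.S18.A.Unram.finite_not_simple
    (Fermat.Agent.S18.B.FkBasics.isFF (ResidueField ↥A) M)
    (Fermat.Agent.S18.B.SeparableFk.isSeparable_jk (ResidueField ↥A) M)

/-! ### the nodal core at `X₀(M q)` -/

/-- **The nodal core at `E = ℚ̄(X₀(M q))`.**  All hypotheses of `NodalCore.nodal_core` which do
not concern the nodal datum itself are discharged. -/
theorem principal_of_glueG [NeZero q] (hA : A.LiesOverPrime q) (hqM : ¬ q ∣ M)
    {ι : Type*} [Fintype ι]
    (N : GNodalDatum A (residue ↥A) ↥(modularFunctionFieldBar (M * q))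
      ↥(modularFunctionFieldFullC (ResidueField ↥A) M)
      ↥(modularFunctionFieldFullC (ResidueField ↥A) M) ι)
    (he2 : Function.Injective N.e2) {g gk : ℕ}
    (HL : RiemannHyp Kb ↥(modularFunctionFieldBar (M * q)) g)
    (Hk : RiemannHyp (ResidueField ↥A) ↥(modularFunctionFieldFullC (ResidueField ↥A) M) gk)
    (hNC : (g : ℤ) + 1 ≤ gk + gk + Fintype.card ι)
    (x1 : N.R1.O) (hx1 : N.R1.red x1 = Fermat.Agent.S18.B.FkBasics.jk (ResidueField ↥A) M)
    (x2 : N.R2.O) (hx2 : N.R2.red x2 = Fermat.Agent.S18.B.FkBasics.jk (ResidueField ↥A) M)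
    (Pstar : Place Kb ↥(modularFunctionFieldBar (M * q)))
    (Qstar : Place (ResidueField ↥A) ↥(modularFunctionFieldFullC (ResidueField ↥A) M))
    (hQstar : Qstar ∈ N.R1.good) (hstar : N.R1.r Pstar = some Qstar)
    {p : ℕ} (hp : p.Prime) (hpq : p ≠ q) (n : ℕ)
    (D : Divisor Kb ↥(modularFunctionFieldBar (M * q))) (hD0 : Divisor.degree D = 0)
    (f1 : N.R1.Oˣ) (f2 : N.R2.Oˣ)
    (hf12 : (((f1 : N.R1.O) : ↥(modularFunctionFieldBar (M * q)))) =
      (((f2 : N.R2.O) : ↥(modularFunctionFieldBar (M * q)))))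
    (hred1 : N.R1.red (f1 : N.R1.O) = 1) (hred2 : N.R2.red (f2 : N.R2.O) = 1)
    (hfD : ∀ P : Place Kb ↥(modularFunctionFieldBar (M * q)),
      P.ord (((f1 : N.R1.O) : ↥(modularFunctionFieldBar (M * q)))) = ((p ^ n : ℕ) : ℤ) * D P)
    (hglue : GlueG N D) :
    D ∈ Divisor.principal (K := Kb) (F := ↥(modularFunctionFieldBar (M * q))) := by
  haveI := Fermat.Agent.S18.A.Instances.hasPrincipalDivisors_bar (M * q)
  haveI := Fermat.Agent.S37.ReductionInputs.hasPrincipalDivisors_Fk A M
  have hcard := one_le_card_of_nc hA hqM HL Hk hNC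
  haveI : Nonempty ι := Fintype.card_pos_iff.mp (by omega)
  have hg : g ≤ gk + (gk + Fintype.card ι - 1) := by omega
  exact Fermat.Agent.S34.NodalCore.nodal_core N
    (fun P => Fermat.Agent.S24.Ord.deg_eq_one (Fermat.Agent.S24.Degree.isFF (M * q)) P)
    residue_surjective (p ^ n) (natCast_pow_ne_zero hA hp hpq n)
    x1 (finite_not_simple_of_eq_jk hx1) x2 (finite_not_simple_of_eq_jk hx2)
    (Fermat.Agent.S18.NonSpecialAdapter.riemannGe_of_riemannHyp HL hg)
    (Fermat.Agent.S34.NodalRigidOfRiemann.nodalRigid Hk Hk N.e2 he2)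
    Pstar Qstar hQstar hstar D hD0 f1 f2 hf12 hred1 hred2 hfD hglue

end Fermat.Agent.S34.NodalCoreX0
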