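/-
PROJECT U (S34), ROUTE G, FINAL ASSEMBLY, layer 1 (helper6):
(Core-Z) AT `E = ℚ̄(X₀(M q))` FROM A NODAL DATUM OF `E`.

`X0Datum hA hqM` bundles exactly what the `X₀(M q)` instantiation files have to deliver for one
valuation subring `A ∣ q` of `ℚ̄` (`q ∤ M`); everything else is discharged here from results on
main (`S34/NodalCoreX0` pieces of helper5, `S34/Z1X0` inertia lemmas of helper22):

* the node set `S` and a nodal datum `N` of `E` over `κ = k(X₀(M))` indexed by `S`, whose two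
  Gauss rings are the concrete `V1X0`, `V2X0` of `S34/Z1X0`;
* (NC) `g(E) + 1 ≤ 2 g(κ) + #S` (Euler), injectivity of the nodes on the second component,
  finiteness of admissible sets;
* two functions `x₁`, `x₂` reducing to `j̄`, and one place of type 1 over a good place;
* invariance of the two partial specialisation maps under inertia.

`principalHyp_of_datum : (∀ A hA hqM, Nonempty (X0Datum hA hqM)) → PrincipalHyp M q p` for every
prime `p ≠ q`; with `CoreZX0OfPrincipal.coreZHyp_of_principalHyp` and `UOfCoreZ.uHyp_of_coreZHyp`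
this is (U), hence S34.
-/
import Fermat.Agent.S34.CoreZOfInertia
import Fermat.Agent.S34.CoreZX0OfPrincipal
import Fermat.Agent.S34.NodalCoreX0

set_option autoImplicit false
set_option linter.unusedSectionVars false
set_option linter.style.haveILetI false
set_option synthInstance.maxHeartbeats 400000

noncomputable section

namespace Fermat.Agent.S34.CoreZX0Datum

open ModularCurve AlgebraicCurve IsLocalRing
open Fermat.Agent.S18.NonSpecial Fermat.Agent.S34.NodalDefs
open Fermat.Agent.S34.Z1X0 Fermat.Agent.S34.Z1Abstract Fermat.Agent.S34.UOfCoreZ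
open Fermat.Agent.S34.CoreZX0OfPrincipal

local notation "Kb" => AlgebraicClosure ℚ

variable {q : ℕ} [hq : Fact q.Prime] {M : ℕ} [NeZero M] {A : ValuationSubring Kb} [NeZero q]

set_option maxHeartbeats 1600000 in
/-- **What the `X₀(M q)` instantiation has to deliver** (for one `A ∣ q`). -/
structure X0Datum (hA : A.LiesOverPrime q) (hqM : ¬ q ∣ M) where
  /-- the nodes, as places of the second component -/
  S : Finset (Place (ResidueField ↥A) ↥(modularFunctionFieldFullC (ResidueField ↥A) M))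
  /-- the nodal datum -/
  N : GNodalDatum A (residue ↥A) ↥(modularFunctionFieldBar (M * q))
    ↥(modularFunctionFieldFullC (ResidueField ↥A) M)
    ↥(modularFunctionFieldFullC (ResidueField ↥A) M) {b // b ∈ S}
  O1_eq : N.R1.O = V1X0 hA hqM
  O2_eq : N.R2.O = V2X0 hA hqM
  e2_injective : Function.Injective N.e2
  adm_finite : ∀ S1 S2, N.Adm S1 S2 → S1.Finite ∧ S2.Finite
  /-- the genus of `E` -/
  g : ℕ
  /-- the genus of `κ` -/
  gk : ℕ
  HL : RiemannHyp Kb ↥(modularFunctionFieldBar (M * q)) g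
  Hk : RiemannHyp (ResidueField ↥A) ↥(modularFunctionFieldFullC (ResidueField ↥A) M) gk
  /-- (NC), Euler characteristic -/
  hNC : (g : ℤ) + 1 ≤ gk + gk + S.card
  x1 : N.R1.O
  hx1 : N.R1.red x1 = Fermat.Agent.S18.B.FkBasics.jk (ResidueField ↥A) M
  x2 : N.R2.O
  hx2 : N.R2.red x2 = Fermat.Agent.S18.B.FkBasics.jk (ResidueField ↥A) M
  Pstar : Place Kb ↥(modularFunctionFieldBar (M * q))
  Qstar : Place (ResidueField ↥A) ↥(modularFunctionFieldFullC (ResidueField ↥A) M)
  hQstar : Qstar ∈ N.R1.good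
  hstar : N.R1.r Pstar = some Qstar
  /-- inertia preserves the partial specialisation maps -/
  r1_smul : ∀ σ ∈ A.inertiaSubgroupIn ℚ, ∀ P : Place Kb ↥(modularFunctionFieldBar (M * q)),
    N.R1.r (arithmeticGalois (modularFunctionFieldFull (M * q)) σ • P) = N.R1.r P
  r2_smul : ∀ σ ∈ A.inertiaSubgroupIn ℚ, ∀ P : Place Kb ↥(modularFunctionFieldBar (M * q)),
    N.R2.r (arithmeticGalois (modularFunctionFieldFull (M * q)) σ • P) = N.R2.r P

/-! ### Branch lemmas -/

section Branch

variable {L : Type*} [Field L] {k : Type*} [Field k] {A' : ValuationSubring L} {π : A' →+* k}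
variable {FL : Type*} [Field FL] [Algebra L FL] {Fk : Type*} [Field Fk] [Algebra k Fk]

/-- a non-unit of the Gauss ring reduces to `0` -/
theorem red_eq_zero_of_mem_nonunits (R : Branch A' π FL Fk) {y : FL} (hy : y ∈ R.O.nonunits) :
    ∃ h : y ∈ R.O, R.red ⟨y, h⟩ = 0 := by
  have hle : R.O.valuation y < 1 := (ValuationSubring.mem_nonunits_iff _).mp hy
  have hmem : y ∈ R.O := (ValuationSubring.valuation_le_one_iff _ _).mp hle.le
  refine ⟨hmem, (R.red_eq_zero_iff _).mpr fun hu => ?_⟩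
  have h1 : R.O.valuation y = 1 := (ValuationSubring.valuation_eq_one_iff _ _).mp hu
  exact absurd h1 hle.ne

/-- a one-unit lies in the Gauss ring and reduces to `1` -/
theorem red_eq_one_of_isOneUnit (R : Branch A' π FL Fk) {u : FL} (hu : IsOneUnit R.O u) :
    ∃ h : u ∈ R.O, R.red ⟨u, h⟩ = 1 := by
  obtain ⟨hmem, hred⟩ := red_eq_zero_of_mem_nonunits R hu
  have hu' : u ∈ R.O := by
    have := R.O.add_mem _ _ hmem R.O.one_mem
    simpa using this
  refine ⟨hu', ?_⟩
  have he : (⟨u, hu'⟩ : R.O) = ⟨u - 1, hmem⟩ + 1 := Subtype.ext (by simp)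
  rw [he, map_add, hred, map_one, zero_add]

/-- an automorphism which moves every element of the Gauss ring by a non-unit acts trivially on
the reduction -/
theorem red_smul_eq (R : Branch A' π FL Fk) (g : SemilinearAut L FL)
    (hmem : ∀ x : FL, x ∈ R.O → g • x ∈ R.O)
    (hsub : ∀ x : FL, x ∈ R.O → g • x - x ∈ R.O.nonunits) (y : R.O) :
    ∃ h : g • ((y : R.O) : FL) ∈ R.O, R.red ⟨_, h⟩ = R.red y := by
  refine ⟨hmem _ y.2, ?_⟩
  obtain ⟨hm, h0⟩ := red_eq_zero_of_mem_nonunits R (hsub _ y.2)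
  have he : (⟨g • ((y : R.O) : FL), hmem _ y.2⟩ : R.O) = ⟨g • ((y : R.O) : FL) - y, hm⟩ + y :=
    Subtype.ext (by simp)
  rw [he, map_add, h0, zero_add]

end Branch

/-! ### The final statement -/

set_option maxHeartbeats 1600000 in
/-- **(Core-Z) at `E = ℚ̄(X₀(M q))` in divisor language, from the nodal data.** -/
theorem principalHyp_of_datum {p : ℕ} (hp : p.Prime) (hpq : p ≠ q)
    (H : ∀ (A : ValuationSubring Kb) (hA : A.LiesOverPrime q) (hqM : ¬ q ∣ M),
      Nonempty (X0Datum (A := A) hA hqM)) :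
    PrincipalHyp M q p := by
  intro A hA hqM σ hσ e u D hu0 h1 h2 hD0 hD
  obtain ⟨X⟩ := H A hA hqM
  haveI : NeZero (M * q) := ⟨Nat.mul_ne_zero (NeZero.ne M) (NeZero.ne q)⟩
  haveI := Fermat.Agent.S18.A.Instances.hasPrincipalDivisors_bar (M * q)
  haveI := Fermat.Agent.S37.ReductionInputs.hasPrincipalDivisors_Fk A M
  have hNC' : (X.g : ℤ) + 1 ≤ X.gk + X.gk + Fintype.card {b // b ∈ X.S} := by
    rw [Fintype.card_coe]
    exact X.hNC
  have hcard := Fermat.Agent.S34.NodalCoreX0.one_le_card_of_nc hA hqM X.HL X.Hk hNC'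
  haveI : Nonempty {b // b ∈ X.S} := Fintype.card_pos_iff.mp (by omega)
  have hg : X.g ≤ X.gk + (X.gk + Fintype.card {b // b ∈ X.S} - 1) := by omega
  -- the one-unit `u`
  have h1' : IsOneUnit X.N.R1.O u := by rw [X.O1_eq]; exact h1
  have h2' : IsOneUnit X.N.R2.O u := by rw [X.O2_eq]; exact h2
  obtain ⟨hu1, hred1⟩ := red_eq_one_of_isOneUnit X.N.R1.toBranch h1'
  obtain ⟨hu2, hred2⟩ := red_eq_one_of_isOneUnit X.N.R2.toBranch h2'
  -- inertia on the two Gauss rings
  have hm1 : ∀ x : ↥(modularFunctionFieldBar (M * q)),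
      arithmeticGalois (modularFunctionFieldFull (M * q)) σ • x ∈ X.N.R1.O ↔ x ∈ X.N.R1.O := by
    intro x
    rw [X.O1_eq]
    exact smul_mem_V1X0_iff hA hqM hσ x
  have hm2 : ∀ x : ↥(modularFunctionFieldBar (M * q)),
      arithmeticGalois (modularFunctionFieldFull (M * q)) σ • x ∈ X.N.R2.O ↔ x ∈ X.N.R2.O := by
    intro x
    rw [X.O2_eq]
    exact smul_mem_V2X0_iff hA hqM hσ x
  have hs1 : ∀ x : ↥(modularFunctionFieldBar (M * q)), x ∈ X.N.R1.O →
      arithmeticGalois (modularFunctionFieldFull (M * q)) σ • x - x ∈ X.N.R1.O.nonunits := by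
    intro x hx
    rw [X.O1_eq] at hx ⊢
    exact smul_sub_mem_nonunits₁ hA hqM hσ hx
  have hs2 : ∀ x : ↥(modularFunctionFieldBar (M * q)), x ∈ X.N.R2.O →
      arithmeticGalois (modularFunctionFieldFull (M * q)) σ • x - x ∈ X.N.R2.O.nonunits := by
    intro x hx
    rw [X.O2_eq] at hx ⊢
    exact smul_sub_mem_nonunits₂ hA hqM hσ hx
  exact Fermat.Agent.S34.CoreZOfInertia.principal_of_inertia X.N
    (fun P => Fermat.Agent.S24.Ord.deg_eq_one (Fermat.Agent.S24.Degree.isFF (M * q)) P)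
    (fun e => X.Hk.deg_one _) (fun e => X.Hk.deg_one _) X.adm_finite
    residue_surjective (p ^ e) (Fermat.Agent.S34.NodalCoreX0.natCast_pow_ne_zero hA hp hpq e)
    X.x1 (Fermat.Agent.S34.NodalCoreX0.finite_not_simple_of_eq_jk X.hx1)
    X.x2 (Fermat.Agent.S34.NodalCoreX0.finite_not_simple_of_eq_jk X.hx2)
    (Fermat.Agent.S18.NonSpecialAdapter.riemannGe_of_riemannHyp X.HL hg)
    (Fermat.Agent.S34.NodalRigidOfRiemann.nodalRigid X.Hk X.Hk X.N.e2 X.e2_injective)
    X.Pstar X.Qstar X.hQstar X.hstar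
    (arithmeticGalois (modularFunctionFieldFull (M * q)) σ)
    (red_smul_eq X.N.R1.toBranch _ (fun x hx => (hm1 x).mpr hx) hs1)
    (fun y hy => (hm1 y).mp hy)
    (red_smul_eq X.N.R2.toBranch _ (fun x hx => (hm2 x).mpr hx) hs2)
    (fun y hy => (hm2 y).mp hy)
    (X.r1_smul σ hσ) (X.r2_smul σ hσ) hu1 hu2 hred1 hred2 D hD0 hD

/-- **`CoreZHyp M q p` from the nodal data.** -/
theorem coreZHyp_of_datum {p : ℕ} (hp : p.Prime) (hpq : p ≠ q)
    (H : ∀ (A : ValuationSubring Kb) (hA : A.LiesOverPrime q) (hqM : ¬ q ∣ M),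
      Nonempty (X0Datum (A := A) hA hqM)) :
    CoreZHyp M q p :=
  coreZHyp_of_principalHyp hp.ne_zero (principalHyp_of_datum hp hpq H)

end Fermat.Agent.S34.CoreZX0Datum
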