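/-
PROJECT U (S34), Route G, `k`-side: **the Frobenius package on `κ_M = modularFunctionFieldFullC k M`**.

`k` a perfect field of characteristic `q`, `F_k := modularFunctionFieldFullC k N ⊆ k((t))`.

* `psi k N q : F_k ≃+* F_k` : coefficientwise `q`-th root (`= coeffRingAut k N (frobAut k q).symm`);
* `phi k N q : F_k →ₐ[k] F_k` : the `k`-LINEAR Frobenius pull-back `g(t) ↦ g(t^q)`
  (`coe_phi`), `phi g = (psi g)^q` (`phi_eq_pow`), `phi_jk : phi j = j^q`;
* `Fr k N q : Place k F_k ≃ Place k F_k` : the Frobenius on places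
  (`= placeEquiv k N (frobAut k q)`), with
  `ord_phi : v.ord (phi g) = q * (Fr v).ord g`, the value rule `ord_phi_sub_const`,
  `phi_mem_iff : phi g ∈ O_v ↔ g ∈ O_(Fr v)`;
* `ord_sub_phi_phi` : at a place with `Fr (Fr v) = v`, a parameter `g` gives the parameter
  `g - phi (phi g)` (the `(G3)` lemma of the sandwich);
* `exists_iterate_Fr_eq` : when `k` is algebraic over its prime field every place has a finite
  `Fr`-orbit; `exists_finite_stable` : every finite set of places lies in a finite `Fr`-stable set;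
* `holo k N S` : the holomorphy ring `{g | ∀ v ∉ S, g ∈ O_v}` as a `k`-subalgebra,
  `phi_mem_holo_iff` for `Fr`-stable `S`.
-/
import Mathlib
import Fermat.Agent.S37.Equivariance.CoeffAut
import Fermat.Agent.S37.ES.KummerPoly
import Fermat.Agent.S18.B.FkBasics
import Fermat.Agent.S24.Ord
import Fermat.Agent.S18.CoreOrd

set_option autoImplicit false
set_option linter.unusedSectionVars false
set_option linter.style.haveILetI false

noncomputable section

namespace Fermat.Agent.S34.FrobK

open AlgebraicCurve ModularCurve IntermediateField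
open Fermat.Agent.S37.Equivariance.CoeffAut
open Fermat.Agent.S18.B.FkBasics (jk)

variable (k : Type*) [Field k] (N : ℕ) [NeZero N]
variable (q : ℕ) [hq : Fact q.Prime] [CharP k q] [PerfectField k]

/-- coefficientwise `q`-th root on `F_k` -/
def psi : ↥(modularFunctionFieldFullC k N) ≃+* ↥(modularFunctionFieldFullC k N) :=
  coeffRingAut k N (frobAut k q).symm

theorem coe_psi (g : ↥(modularFunctionFieldFullC k N)) :
    ((psi k N q g : ↥(modularFunctionFieldFullC k N)) : LaurentSeries k) =
      coeffMap (((frobAut k q).symm : k ≃+* k) : k →+* k) (g : LaurentSeries k) := rfl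

theorem frob_psi (g : ↥(modularFunctionFieldFullC k N)) :
    coeffRingAut k N (frobAut k q) (psi k N q g) = g :=
  (coeffRingAut k N (frobAut k q)).apply_symm_apply g

/-! ### the `k`-linear Frobenius pull-back `phi` -/

/-- `(psi g)^q = g(t^q)` as Laurent series -/
theorem coe_psi_pow (g : ↥(modularFunctionFieldFullC k N)) :
    haveI : NeZero q := ⟨hq.out.ne_zero⟩
    ((psi k N q g : ↥(modularFunctionFieldFullC k N)) : LaurentSeries k) ^ q =
      qExpand k q (g : LaurentSeries k) := by
  haveI : NeZero q := ⟨hq.out.ne_zero⟩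
  rw [Fermat.Agent.S37.ES.KummerPoly.pow_char_eq_qExpand q, coe_psi, coeffMap_coeffMap]
  congr 1
  have h : (frobenius k q).comp (((frobAut k q).symm : k ≃+* k) : k →+* k) = RingHom.id k := by
    ext a
    simp only [RingHom.comp_apply, RingHom.coe_coe, RingHom.id_apply]
    have := (frobAut k q).apply_symm_apply a
    rw [frobAut_apply] at this
    rw [frobenius_def]
    exact this
  rw [coeffMap_congr h, coeffMap_id]

theorem qExpand_mem (g : ↥(modularFunctionFieldFullC k N)) :
    haveI : NeZero q := ⟨hq.out.ne_zero⟩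
    qExpand k q (g : LaurentSeries k) ∈ modularFunctionFieldFullC k N := by
  haveI : NeZero q := ⟨hq.out.ne_zero⟩
  rw [← coe_psi_pow k N q g]
  exact pow_mem (psi k N q g).2 q

/-- **The `k`-linear Frobenius pull-back** `g(t) ↦ g(t^q)` of `F_k`. -/
def phi : ↥(modularFunctionFieldFullC k N) →ₐ[k] ↥(modularFunctionFieldFullC k N) :=
  haveI : NeZero q := ⟨hq.out.ne_zero⟩
  AlgHom.codRestrict ((qExpandAlgHomC k q).comp (modularFunctionFieldFullC k N).val)
    (modularFunctionFieldFullC k N).toSubalgebra (fun g => qExpand_mem k N q g)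

theorem coe_phi (g : ↥(modularFunctionFieldFullC k N)) :
    haveI : NeZero q := ⟨hq.out.ne_zero⟩
    ((phi k N q g : ↥(modularFunctionFieldFullC k N)) : LaurentSeries k) =
      qExpand k q (g : LaurentSeries k) := rfl

/-- `phi g = (psi g)^q` -/
theorem phi_eq_pow (g : ↥(modularFunctionFieldFullC k N)) :
    phi k N q g = psi k N q g ^ q := by
  apply Subtype.ext
  rw [coe_phi, ← coe_psi_pow]
  rfl

theorem phi_injective : Function.Injective (phi k N q) :=
  (phi k N q).toRingHom.injective

theorem phi_algebraMap (c : k) :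
    phi k N q (algebraMap k ↥(modularFunctionFieldFullC k N) c) =
      algebraMap k ↥(modularFunctionFieldFullC k N) c :=
  (phi k N q).commutes c

/-- `psi` fixes `j` -/
theorem psi_jk : psi k N q (jk k N) = jk k N := by
  apply Subtype.ext
  rw [coe_psi]
  exact coeffMap_jqModC _

/-- `phi j = j^q` -/
theorem phi_jk : phi k N q (jk k N) = jk k N ^ q := by
  rw [phi_eq_pow, psi_jk]

/-! ### the Frobenius on places -/

/-- **The Frobenius on places** of `F_k`: `O_(Fr v) = {g | psi g ∈ O_v}`. -/
def Fr : Place k ↥(modularFunctionFieldFullC k N) ≃ Place k ↥(modularFunctionFieldFullC k N) :=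
  placeEquiv k N (frobAut k q)

theorem Fr_apply (v : Place k ↥(modularFunctionFieldFullC k N)) :
    Fr k N q v = coeffAut k N (frobAut k q) • v := rfl

/-- `ord_v (psi g) = ord_(Fr v) g` -/
theorem ord_psi (v : Place k ↥(modularFunctionFieldFullC k N))
    (g : ↥(modularFunctionFieldFullC k N)) :
    v.ord (psi k N q g) = (Fr k N q v).ord g := by
  have h := ord_placeEquiv k N (frobAut k q) v (psi k N q g)
  rw [frob_psi] at h
  exact h.symm

/-- **`ord_v (phi g) = q · ord_(Fr v) g`.** -/
theorem ord_phi (v : Place k ↥(modularFunctionFieldFullC k N))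
    (g : ↥(modularFunctionFieldFullC k N)) :
    v.ord (phi k N q g) = (q : ℤ) * (Fr k N q v).ord g := by
  rw [phi_eq_pow, ← ord_psi, ← zpow_natCast, Place.ord_zpow]

/-- the value rule: `(phi g)(v) = c ↔ g(Fr v) = c` -/
theorem ord_phi_sub_const (v : Place k ↥(modularFunctionFieldFullC k N))
    (g : ↥(modularFunctionFieldFullC k N)) (c : k) :
    v.ord (phi k N q g - algebraMap k _ c) =
      (q : ℤ) * (Fr k N q v).ord (g - algebraMap k _ c) := by
  rw [← ord_phi, map_sub, phi_algebraMap]

theorem phi_ne_zero {g : ↥(modularFunctionFieldFullC k N)} (hg : g ≠ 0) : phi k N q g ≠ 0 :=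
  (map_ne_zero_iff _ (phi_injective k N q)).mpr hg

/-- `phi g ∈ O_v ↔ g ∈ O_(Fr v)` -/
theorem phi_mem_iff (v : Place k ↥(modularFunctionFieldFullC k N))
    (g : ↥(modularFunctionFieldFullC k N)) :
    phi k N q g ∈ v.toValuationSubring ↔ g ∈ (Fr k N q v).toValuationSubring := by
  rcases eq_or_ne g 0 with rfl | hg
  · simp
  rw [Fermat.Agent.S24.Ord.mem_iff, Fermat.Agent.S24.Ord.mem_iff,
    ← Fermat.Agent.S24.Ord.ord_nonneg_iff v (phi_ne_zero k N q hg),
    ← Fermat.Agent.S24.Ord.ord_nonneg_iff _ hg, ord_phi]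
  have hq0 : (0 : ℤ) < q := by exact_mod_cast hq.out.pos
  constructor
  · intro h
    by_contra hneg
    rw [not_le] at hneg
    nlinarith
  · intro h
    positivity

/-- iterating: `ord_v (phi^[n] g) = q^n · ord_(Fr^[n] v) g` -/
theorem ord_phi_iterate (n : ℕ) (v : Place k ↥(modularFunctionFieldFullC k N))
    (g : ↥(modularFunctionFieldFullC k N)) :
    v.ord ((phi k N q)^[n] g) = (q : ℤ) ^ n * ((Fr k N q)^[n] v).ord g := by
  induction n generalizing v with
  | zero => simp
  | succ n ih =>
    rw [Function.iterate_succ_apply', ord_phi, ih, Function.iterate_succ_apply, pow_succ]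
    ring

/-- **the `(G3)` lemma**: at a place fixed by `Fr²`, a parameter `g` gives the parameter
`g - phi (phi g)`. -/
theorem ord_sub_phi_phi (v : Place k ↥(modularFunctionFieldFullC k N))
    (hv : Fr k N q (Fr k N q v) = v) (g : ↥(modularFunctionFieldFullC k N))
    (hg : v.ord g = 1) : v.ord (g - phi k N q (phi k N q g)) = 1 := by
  have hg0 : g ≠ 0 := by
    rintro rfl
    simp at hg
  have h2 : v.ord (phi k N q (phi k N q g)) = (q : ℤ) * q := by
    rw [ord_phi, ord_phi, hv, hg]
    ring
  have hq2 : (2 : ℤ) ≤ q := by exact_mod_cast hq.out.two_le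
  have hlt : v.ord g < v.ord (-(phi k N q (phi k N q g))) := by
    rw [Fermat.Agent.S18.CoreOrd.ord_neg', h2, hg]
    nlinarith
  rw [sub_eq_add_neg, Fermat.Agent.S18.CoreOrd.ord_add_eq_of_lt v hg0
    (neg_ne_zero.mpr (phi_ne_zero k N q (phi_ne_zero k N q hg0))) hlt, hg]

/-- more generally `ord_v (g - phi (phi g)) = ord_v g` whenever `0 < ord_v g` and `Fr² v = v` -/
theorem ord_sub_phi_phi_of_pos (v : Place k ↥(modularFunctionFieldFullC k N))
    (hv : Fr k N q (Fr k N q v) = v) (g : ↥(modularFunctionFieldFullC k N))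
    (hg : 0 < v.ord g) : v.ord (g - phi k N q (phi k N q g)) = v.ord g := by
  have hg0 : g ≠ 0 := by
    rintro rfl
    simp at hg
  have h2 : v.ord (phi k N q (phi k N q g)) = (q : ℤ) * q * v.ord g := by
    rw [ord_phi, ord_phi, hv]
    ring
  have hq2 : (2 : ℤ) ≤ q := by exact_mod_cast hq.out.two_le
  have hlt : v.ord g < v.ord (-(phi k N q (phi k N q g))) := by
    rw [Fermat.Agent.S18.CoreOrd.ord_neg', h2]
    have h4 : (4 : ℤ) ≤ (q : ℤ) * q := by nlinarith
    nlinarith
  rw [sub_eq_add_neg, Fermat.Agent.S18.CoreOrd.ord_add_eq_of_lt v hg0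
    (neg_ne_zero.mpr (phi_ne_zero k N q (phi_ne_zero k N q hg0))) hlt]

/-! ### finite `Fr`-orbits -/

/-- elements of a field algebraic over its prime field are fixed by a power of Frobenius -/
theorem exists_pow_eq_self_of_isAlgebraic [Algebra (ZMod q) k] [Algebra.IsAlgebraic (ZMod q) k]
    (c : k) : ∃ m : ℕ, 0 < m ∧ c ^ q ^ m = c := by
  have hint : IsIntegral (ZMod q) c := (Algebra.IsAlgebraic.isAlgebraic c).isIntegral
  haveI : FiniteDimensional (ZMod q) (ZMod q)⟮c⟯ := adjoin.finiteDimensional hint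
  haveI : Finite (ZMod q)⟮c⟯ := Module.finite_of_finite (ZMod q)
  haveI : Fintype (ZMod q)⟮c⟯ := Fintype.ofFinite _
  have hcard : Fintype.card (ZMod q)⟮c⟯ = q ^ Module.finrank (ZMod q) (ZMod q)⟮c⟯ := by
    rw [Module.card_eq_pow_finrank (K := ZMod q) (V := (ZMod q)⟮c⟯), ZMod.card]
  refine ⟨Module.finrank (ZMod q) (ZMod q)⟮c⟯, Module.finrank_pos, ?_⟩
  have h := FiniteField.pow_card (⟨c, mem_adjoin_simple_self (ZMod q) c⟩ : (ZMod q)⟮c⟯)
  rw [hcard] at h
  exact congrArg Subtype.val h

/-- `ord_(Fr v) g = ord_v g` for `g` fixed by `psi` (e.g. any polynomial in `j` with coefficients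
in the prime field) -/
theorem ord_Fr_of_psi_eq (v : Place k ↥(modularFunctionFieldFullC k N))
    {g : ↥(modularFunctionFieldFullC k N)} (hg : psi k N q g = g) :
    (Fr k N q v).ord g = v.ord g := by
  rw [← ord_psi, hg]

/-- `j^(q^m) - j`, fixed by `psi` -/
def fm (m : ℕ) : ↥(modularFunctionFieldFullC k N) := jk k N ^ q ^ m - jk k N

theorem psi_fm (m : ℕ) : psi k N q (fm k N q m) = fm k N q m := by
  rw [fm, map_sub, map_pow, psi_jk]

theorem fm_ne_zero {m : ℕ} (hm : 0 < m) : fm k N q m ≠ 0 := by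
  intro h0
  have htr := Fermat.Agent.S18.B.FkBasics.transcendental_jk k N
  apply htr
  refine ⟨Polynomial.X ^ q ^ m - Polynomial.X, ?_, ?_⟩
  · intro h
    have hq1 : 1 < q ^ m := Nat.one_lt_pow hm.ne' hq.out.one_lt
    have := congrArg (fun p : Polynomial k => p.coeff (q ^ m)) h
    simp only [Polynomial.coeff_sub, Polynomial.coeff_X_pow, if_true, Polynomial.coeff_X,
      Polynomial.coeff_zero] at this
    rw [if_neg (by omega)] at this
    simp at this
  · simpa [fm] using h0

variable [HasPrincipalDivisors k ↥(modularFunctionFieldFullC k N)]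

theorem finite_ord_ne_zero {f : ↥(modularFunctionFieldFullC k N)} (hf : f ≠ 0) :
    {v : Place k ↥(modularFunctionFieldFullC k N) | v.ord f ≠ 0}.Finite := by
  obtain ⟨D, hD, -⟩ := HasPrincipalDivisors.exists_divisor (K := k) f hf
  refine D.support.finite_toSet.subset fun v hv => ?_
  rw [Finset.mem_coe, Finsupp.mem_support_iff, hD]
  exact hv

/-- transport of values: `g(Fr v) = c^q` iff `(psi-fixed) g(v) = c`; here for `g = j` -/
theorem ord_Fr_jk_sub (v : Place k ↥(modularFunctionFieldFullC k N)) (c : k) :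
    (Fr k N q v).ord (jk k N - algebraMap k _ (c ^ q)) = v.ord (jk k N - algebraMap k _ c) := by
  rw [← ord_psi, map_sub, psi_jk]
  congr 2
  have h1 := coeffRingAut_algebraMap k N (frobAut k q).symm (c ^ q)
  have h2 : (frobAut k q).symm (c ^ q) = c := by
    rw [RingEquiv.symm_apply_eq, frobAut_apply]
  rw [h2] at h1
  exact h1

/-- **`Fr²`-fixed places are zeros of `j^(q²) - j` or poles of `j`** (so they form a finite set). -/
theorem ord_fm_two_pos_of_Fr_Fr_eq [IsAlgClosed k] (v : Place k ↥(modularFunctionFieldFullC k N))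
    (hv : Fr k N q (Fr k N q v) = v) (hj : 0 ≤ v.ord (jk k N)) : 0 < v.ord (fm k N q 2) := by
  have htr := Fermat.Agent.S18.B.FkBasics.transcendental_jk k N
  have hj0 : jk k N ≠ 0 := fun h => by
    rw [h] at htr
    exact htr ⟨Polynomial.X, Polynomial.X_ne_zero, by simp⟩
  obtain ⟨c, hc⟩ := Fermat.Agent.S24.Ord.exists_sub_lt_one
    (Fermat.Agent.S18.B.FkBasics.isFF k N) v
    ((Fermat.Agent.S24.Ord.ord_nonneg_iff v hj0).mp hj)
  have hne : ∀ d : k, jk k N - algebraMap k _ d ≠ 0 := by
    intro d h0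
    rw [sub_eq_zero.mp h0] at htr
    exact htr ⟨Polynomial.X - Polynomial.C d, Polynomial.X_sub_C_ne_zero d, by simp⟩
  have hpos : 0 < v.ord (jk k N - algebraMap k _ c) :=
    (Fermat.Agent.S24.Ord.ord_pos_iff v (hne c)).mpr hc
  -- the value at `Fr² v = v` is `c^(q²)`
  have hpos2 : 0 < v.ord (jk k N - algebraMap k _ ((c ^ q) ^ q)) := by
    have h1 := ord_Fr_jk_sub k N q (Fr k N q v) (c ^ q)
    rw [hv, ord_Fr_jk_sub] at h1
    rw [h1]
    exact hpos
  have hcc : (c ^ q) ^ q = c := by
    by_contra hcne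
    have hd : algebraMap k ↥(modularFunctionFieldFullC k N) ((c ^ q) ^ q) - algebraMap k _ c ≠ 0 := by
      rw [← map_sub]
      exact (map_ne_zero_iff _ (algebraMap k ↥(modularFunctionFieldFullC k N)).injective).mpr
        (sub_ne_zero.mpr hcne)
    have h3 := Fermat.Agent.S18.CoreOrd.min_le_ord_sub v
      (f := jk k N - algebraMap k _ c) (g := jk k N - algebraMap k _ ((c ^ q) ^ q))
      (by rw [sub_sub_sub_cancel_left]; exact hd)
    rw [sub_sub_sub_cancel_left, ← map_sub, Fermat.Agent.S24.Ord.ord_algebraMap] at h3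
    exact absurd h3 (not_le.mpr (lt_min hpos hpos2))
  haveI : CharP ↥(modularFunctionFieldFullC k N) q :=
    charP_of_injective_algebraMap (algebraMap k ↥(modularFunctionFieldFullC k N)).injective q
  have hcm : c ^ q ^ 2 = c := by rw [pow_two, pow_mul, hcc]
  have hfm : fm k N q 2 = (jk k N - algebraMap k _ c) ^ q ^ 2 - (jk k N - algebraMap k _ c) := by
    rw [fm, sub_pow_char_pow, ← map_pow, hcm]
    ring
  have hfm0 := fm_ne_zero k N q (m := 2) (by norm_num)
  have h1 : 0 < v.ord ((jk k N - algebraMap k _ c) ^ q ^ 2) := by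
    rw [Fermat.Agent.S18.CoreOrd.ord_pow]
    have hqm : (0 : ℤ) < ((q ^ 2 : ℕ) : ℤ) := by
      exact_mod_cast pow_pos hq.out.pos 2
    exact mul_pos hqm hpos
  have h2 := Fermat.Agent.S18.CoreOrd.min_le_ord_sub v (f := (jk k N - algebraMap k _ c) ^ q ^ 2)
    (g := jk k N - algebraMap k _ c) (by rw [← hfm]; exact hfm0)
  rw [← hfm] at h2
  exact lt_of_lt_of_le (lt_min h1 hpos) h2

/-- the `Fr²`-fixed places form a finite set -/
theorem finite_Fr_Fr_fixed [IsAlgClosed k] :
    {v : Place k ↥(modularFunctionFieldFullC k N) | Fr k N q (Fr k N q v) = v}.Finite := by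
  have htr := Fermat.Agent.S18.B.FkBasics.transcendental_jk k N
  have hj0 : jk k N ≠ 0 := fun h => by
    rw [h] at htr
    exact htr ⟨Polynomial.X, Polynomial.X_ne_zero, by simp⟩
  have hfm0 := fm_ne_zero k N q (m := 2) (by norm_num)
  refine ((finite_ord_ne_zero k N hj0).union (finite_ord_ne_zero k N hfm0)).subset fun v hv => ?_
  by_cases hj : 0 ≤ v.ord (jk k N)
  · exact Or.inr (ne_of_gt (ord_fm_two_pos_of_Fr_Fr_eq k N q v hv hj))
  · exact Or.inl (ne_of_lt (not_le.mp hj))

/-- **Every place lies in a finite `Fr`-stable set of places** (`k` algebraically closed, every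
element of `k` fixed by a power of Frobenius). -/
theorem exists_finite_stable_of_place [IsAlgClosed k]
    (halg : ∀ c : k, ∃ m : ℕ, 0 < m ∧ c ^ q ^ m = c)
    (v : Place k ↥(modularFunctionFieldFullC k N)) :
    ∃ T : Set (Place k ↥(modularFunctionFieldFullC k N)), T.Finite ∧ v ∈ T ∧
      (∀ w, Fr k N q w ∈ T ↔ w ∈ T) := by
  by_cases hj : 0 ≤ v.ord (jk k N)
  · -- `j` regular at `v`, value `c`
    have hj0 : jk k N ≠ 0 := fun h => by
      have := Fermat.Agent.S18.B.FkBasics.transcendental_jk k N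
      rw [h] at this
      exact this ⟨Polynomial.X, Polynomial.X_ne_zero, by simp⟩
    obtain ⟨c, hc⟩ := Fermat.Agent.S24.Ord.exists_sub_lt_one
      (Fermat.Agent.S18.B.FkBasics.isFF k N) v
      ((Fermat.Agent.S24.Ord.ord_nonneg_iff v hj0).mp hj)
    obtain ⟨m, hm, hcm⟩ := halg c
    have hne : jk k N - algebraMap k _ c ≠ 0 := by
      intro h0
      have := Fermat.Agent.S18.B.FkBasics.transcendental_jk k N
      rw [sub_eq_zero.mp h0] at this
      exact this ⟨Polynomial.X - Polynomial.C c, Polynomial.X_sub_C_ne_zero c, by simp⟩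
    have hpos : 0 < v.ord (jk k N - algebraMap k _ c) :=
      (Fermat.Agent.S24.Ord.ord_pos_iff v hne).mpr hc
    haveI : CharP ↥(modularFunctionFieldFullC k N) q :=
      charP_of_injective_algebraMap (algebraMap k ↥(modularFunctionFieldFullC k N)).injective q
    have hfm : fm k N q m = (jk k N - algebraMap k _ c) ^ q ^ m - (jk k N - algebraMap k _ c) := by
      rw [fm, sub_pow_char_pow, ← map_pow, hcm]
      ring
    have hfm0 := fm_ne_zero k N q hm
    have hvT : 0 < v.ord (fm k N q m) := by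
      have h1 : 0 < v.ord ((jk k N - algebraMap k _ c) ^ q ^ m) := by
        rw [Fermat.Agent.S18.CoreOrd.ord_pow]
        have hqm : (0 : ℤ) < ((q ^ m : ℕ) : ℤ) := by
          exact_mod_cast pow_pos hq.out.pos m
        exact mul_pos hqm hpos
      have h2 := Fermat.Agent.S18.CoreOrd.min_le_ord_sub v (f := (jk k N - algebraMap k _ c) ^ q ^ m)
        (g := jk k N - algebraMap k _ c) (by rw [← hfm]; exact hfm0)
      rw [← hfm] at h2
      exact lt_of_lt_of_le (lt_min h1 hpos) h2
    refine ⟨{w | 0 < w.ord (fm k N q m)}, ?_, hvT, fun w => ?_⟩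
    · exact (finite_ord_ne_zero k N hfm0).subset fun w hw => ne_of_gt hw
    · show 0 < (Fr k N q w).ord (fm k N q m) ↔ 0 < w.ord (fm k N q m)
      rw [ord_Fr_of_psi_eq k N q w (psi_fm k N q m)]
  · rw [not_le] at hj
    refine ⟨{w | w.ord (jk k N) < 0}, ?_, hj, fun w => ?_⟩
    · have hj0 : jk k N ≠ 0 := by
        rintro h
        rw [h, Place.ord_zero] at hj
        exact lt_irrefl _ hj
      exact (finite_ord_ne_zero k N hj0).subset fun w hw => ne_of_lt hw
    · show (Fr k N q w).ord (jk k N) < 0 ↔ w.ord (jk k N) < 0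
      rw [ord_Fr_of_psi_eq k N q w (psi_jk k N q)]

/-- **Every finite set of places lies in a finite `Fr`-stable set.** -/
theorem exists_finite_stable [IsAlgClosed k]
    (halg : ∀ c : k, ∃ m : ℕ, 0 < m ∧ c ^ q ^ m = c)
    (S : Set (Place k ↥(modularFunctionFieldFullC k N))) (hS : S.Finite) :
    ∃ T : Set (Place k ↥(modularFunctionFieldFullC k N)), T.Finite ∧ S ⊆ T ∧
      (∀ w, Fr k N q w ∈ T ↔ w ∈ T) := by
  classical
  choose T hTfin hTmem hTst using fun v => exists_finite_stable_of_place k N q halg v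
  refine ⟨⋃ v ∈ S, T v, hS.biUnion fun v _ => hTfin v, fun v hv => ?_, fun w => ?_⟩
  · exact Set.mem_biUnion hv (hTmem v)
  · simp only [Set.mem_iUnion, exists_prop]
    exact ⟨fun ⟨v, hv, h⟩ => ⟨v, hv, (hTst v w).mp h⟩, fun ⟨v, hv, h⟩ => ⟨v, hv, (hTst v w).mpr h⟩⟩

/-- **Finite `Fr`-orbits**: every place is fixed by a positive iterate of `Fr`. -/
theorem exists_iterate_Fr_eq [IsAlgClosed k]
    (halg : ∀ c : k, ∃ m : ℕ, 0 < m ∧ c ^ q ^ m = c)
    (v : Place k ↥(modularFunctionFieldFullC k N)) :
    ∃ m : ℕ, 0 < m ∧ (Fr k N q)^[m] v = v := by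
  obtain ⟨T, hTfin, hvT, hTst⟩ := exists_finite_stable_of_place k N q halg v
  have hmem : ∀ n : ℕ, (Fr k N q)^[n] v ∈ T := by
    intro n
    induction n with
    | zero => exact hvT
    | succ n ih =>
      rw [Function.iterate_succ_apply']
      exact (hTst _).mpr ih
  obtain ⟨a, b, hab, heq⟩ : ∃ a b : ℕ, a < b ∧ (Fr k N q)^[a] v = (Fr k N q)^[b] v := by
    by_contra hcon
    push Not at hcon
    have hinj : Function.Injective fun n : ℕ => (Fr k N q)^[n] v := by
      intro a b hab'
      by_contra hne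
      rcases lt_or_gt_of_ne hne with h | h
      · exact hcon a b h hab'
      · exact hcon b a h hab'.symm
    exact Set.infinite_range_of_injective hinj (hTfin.subset (Set.range_subset_iff.mpr hmem))
  refine ⟨b - a, Nat.sub_pos_of_lt hab, ?_⟩
  have hb : b = a + (b - a) := by omega
  rw [hb, Function.iterate_add_apply] at heq
  exact ((Fr k N q).injective.iterate a heq).symm

/-! ### holomorphy rings -/

omit [HasPrincipalDivisors k ↥(modularFunctionFieldFullC k N)] in
/-- the functions regular off `S` -/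
def holo (S : Set (Place k ↥(modularFunctionFieldFullC k N))) :
    Subalgebra k ↥(modularFunctionFieldFullC k N) where
  carrier := {g | ∀ v : Place k ↥(modularFunctionFieldFullC k N), v ∉ S → g ∈ v.toValuationSubring}
  mul_mem' := fun ha hb v hv => mul_mem (ha v hv) (hb v hv)
  one_mem' := fun _ _ => one_mem _
  add_mem' := fun ha hb v hv => add_mem (ha v hv) (hb v hv)
  zero_mem' := fun _ _ => zero_mem _
  algebraMap_mem' := fun c v _ => v.algebraMap_mem' c

omit [HasPrincipalDivisors k ↥(modularFunctionFieldFullC k N)] in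
theorem mem_holo_iff {S : Set (Place k ↥(modularFunctionFieldFullC k N))}
    {g : ↥(modularFunctionFieldFullC k N)} :
    g ∈ holo k N S ↔ ∀ v : Place k ↥(modularFunctionFieldFullC k N), v ∉ S →
      g ∈ v.toValuationSubring := Iff.rfl

omit [HasPrincipalDivisors k ↥(modularFunctionFieldFullC k N)] in
theorem mem_holo_iff_ord {S : Set (Place k ↥(modularFunctionFieldFullC k N))}
    {g : ↥(modularFunctionFieldFullC k N)} :
    g ∈ holo k N S ↔ ∀ v : Place k ↥(modularFunctionFieldFullC k N), v ∉ S → 0 ≤ v.ord g := by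
  rw [mem_holo_iff]
  refine forall₂_congr fun v _ => ?_
  rcases eq_or_ne g 0 with rfl | hg
  · simp
  · rw [Fermat.Agent.S24.Ord.mem_iff, Fermat.Agent.S24.Ord.ord_nonneg_iff v hg]

omit [HasPrincipalDivisors k ↥(modularFunctionFieldFullC k N)] in
/-- **`phi` preserves and reflects the holomorphy ring of an `Fr`-stable set.** -/
theorem phi_mem_holo_iff {S : Set (Place k ↥(modularFunctionFieldFullC k N))}
    (hS : ∀ w, Fr k N q w ∈ S ↔ w ∈ S) (g : ↥(modularFunctionFieldFullC k N)) :
    phi k N q g ∈ holo k N S ↔ g ∈ holo k N S := by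
  constructor
  · intro h v hv
    have hv' : (Fr k N q).symm v ∉ S := fun h' => hv (by
      have := (hS ((Fr k N q).symm v)).mpr h'
      rwa [Equiv.apply_symm_apply] at this)
    have := (phi_mem_iff k N q ((Fr k N q).symm v) g).mp (h _ hv')
    rwa [Equiv.apply_symm_apply] at this
  · intro h v hv
    exact (phi_mem_iff k N q v g).mpr (h _ (fun h' => hv ((hS v).mp h')))

omit [HasPrincipalDivisors k ↥(modularFunctionFieldFullC k N)] in
/-- `phi` restricted to the holomorphy ring of an `Fr`-stable set -/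
def phiHolo {S : Set (Place k ↥(modularFunctionFieldFullC k N))}
    (hS : ∀ w, Fr k N q w ∈ S ↔ w ∈ S) : ↥(holo k N S) →ₐ[k] ↥(holo k N S) :=
  AlgHom.codRestrict ((phi k N q).comp (holo k N S).val) (holo k N S)
    (fun g => (phi_mem_holo_iff k N q hS g.1).mpr g.2)

omit [HasPrincipalDivisors k ↥(modularFunctionFieldFullC k N)] in
theorem coe_phiHolo {S : Set (Place k ↥(modularFunctionFieldFullC k N))}
    (hS : ∀ w, Fr k N q w ∈ S ↔ w ∈ S) (g : ↥(holo k N S)) :
    ((phiHolo k N q hS g : ↥(holo k N S)) : ↥(modularFunctionFieldFullC k N)) =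
      phi k N q (g : ↥(modularFunctionFieldFullC k N)) := rfl

end Fermat.Agent.S34.FrobK
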