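/-
PROJECT U (S34), safe piece: **Dedekind-Kummer at a simple root, for a discrete valuation subring.**
Mathlib + `S34/TwoExt` (only for `coeffHom`, `red`, the lemmas on valuation subrings over `O`).

`O` a valuation subring of `F` which is a principal ideal ring (e.g. a Prelude `Place`),
`F' = F(t)`, `Φ ∈ O[X]` monic with `Φ(t) = 0`, `1, …, t^(n-1)` spanning `F'`, `Φ ∣ p` whenever
`p(t) = 0`; `a ∈ O` a SIMPLE root of `Φ mod 𝔪_O` (`Φ(a) ∈ 𝔪_O`, `Φ'(a)` a unit).  The cofactor
`Φ / (X - a) mod 𝔪` is ARBITRARY (this is what `TwoExt` does not cover).  Then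

* `exists_unique_ext` : there is exactly one valuation subring `V` of `F'` over `O` with
  `t - a ∈ 𝔪_V`;
* `e = 1` : a generator `ϖ` of `𝔪_O` generates `𝔪_V`, every `x ≠ 0` has `|x|_V = |ϖ|_V ^ m`, `m : ℤ`,
  `V` is a principal ideal ring, `V ≠ ⊤`;
* `f = 1` : every `x ∈ V` is congruent mod `𝔪_V` to a constant of `O`;
* every other valuation subring `W` of `F'` over `O` has `|t - a|_W = 1`.
-/
import Mathlib
import Fermat.Agent.S34.TwoExt

set_option autoImplicit false

noncomputable section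

namespace Fermat.Agent.S34.SimpleRoot

open Polynomial IsLocalRing Fermat.Agent.S34.TwoExt

variable {F : Type*} [Field F] {F' : Type*} [Field F'] [Algebra F F']

/-- The data: a primitive integral element `t` with minimal polynomial `Φ`, and a simple root `a`
of `Φ` modulo `𝔪_O`. -/
structure Datum (O : ValuationSubring F) (F' : Type*) [Field F'] [Algebra F F'] where
  t : F'
  Φ : (↥O)[X]
  a : ↥O
  monic : Φ.Monic
  root : Φ.eval₂ (coeffHom O F') t = 0
  span : ∀ x : F', ∃ P : F[X], P.natDegree < Φ.natDegree ∧ aeval t P = x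
  dvd_of_root : ∀ p : (↥O)[X], p.eval₂ (coeffHom O F') t = 0 → Φ ∣ p
  eval_mem : Φ.eval a ∈ maximalIdeal ↥O
  deriv_unit : IsUnit (Φ.derivative.eval a)

namespace Datum

variable {O : ValuationSubring F} (S : Datum O F')

/-- evaluation at `t` -/
def ev : (↥O)[X] →+* F' := eval₂RingHom (coeffHom O F') S.t

theorem ev_apply (p : (↥O)[X]) : S.ev p = p.eval₂ (coeffHom O F') S.t := rfl

@[simp] theorem ev_C (c : ↥O) : S.ev (C c) = algebraMap F F' (c : F) := by
  rw [ev_apply, eval₂_C, coeffHom_apply]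

@[simp] theorem ev_X : S.ev X = S.t := by rw [ev_apply, eval₂_X]

/-- the subring `O[t]` of `F'` -/
def A : Subring F' := S.ev.range

/-- `O[X] → O[t]` -/
def evA : (↥O)[X] →+* ↥S.A := S.ev.rangeRestrict

theorem evA_surjective : Function.Surjective S.evA := S.ev.rangeRestrict_surjective

theorem coe_evA (p : (↥O)[X]) : ((S.evA p : ↥S.A) : F') = S.ev p := rfl

/-- `O[X] → κ`, `p ↦ p(a) mod 𝔪` -/
def chi0 : (↥O)[X] →+* ResidueField ↥O := (residue ↥O).comp (evalRingHom S.a)

theorem chi0_apply (p : (↥O)[X]) : S.chi0 p = residue ↥O (p.eval S.a) := rfl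

theorem chi0_Φ : S.chi0 S.Φ = 0 := by
  rw [chi0_apply, residue_eq_zero_iff]
  exact S.eval_mem

theorem ker_evA_le : RingHom.ker S.evA ≤ RingHom.ker S.chi0 := by
  intro p hp
  rw [RingHom.mem_ker] at hp ⊢
  have h0 : S.ev p = 0 := by rw [← S.coe_evA, hp]; rfl
  obtain ⟨q, rfl⟩ := S.dvd_of_root p h0
  rw [map_mul, chi0_Φ, zero_mul]

/-- the character `O[t] → κ`, `t ↦ a mod 𝔪` -/
def chi : ↥S.A →+* ResidueField ↥O :=
  S.evA.liftOfSurjective S.evA_surjective ⟨S.chi0, S.ker_evA_le⟩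

theorem chi_evA (p : (↥O)[X]) : S.chi (S.evA p) = S.chi0 p :=
  RingHom.liftOfRightInverse_comp_apply _ _ _ ⟨S.chi0, S.ker_evA_le⟩ p

theorem chi_surjective : Function.Surjective S.chi := by
  intro y
  obtain ⟨c, rfl⟩ := residue_surjective y
  exact ⟨S.evA (C c), by rw [chi_evA, chi0_apply, eval_C]⟩

/-- the maximal ideal `(𝔪_O, t - a)` of `O[t]` -/
def P : Ideal ↥S.A := RingHom.ker S.chi

instance : S.P.IsMaximal := RingHom.ker_isMaximal_of_surjective _ S.chi_surjective

instance : S.P.IsPrime := Ideal.IsMaximal.isPrime inferInstance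

theorem mem_P_iff (p : (↥O)[X]) : S.evA p ∈ S.P ↔ p.eval S.a ∈ maximalIdeal ↥O := by
  rw [P, RingHom.mem_ker, chi_evA, chi0_apply, residue_eq_zero_iff]

/-- the cofactor `Q = Φ / (X - a)` -/
def Q : (↥O)[X] := S.Φ /ₘ (X - C S.a)

theorem Φ_eq : S.Φ = (X - C S.a) * S.Q + C (S.Φ.eval S.a) := by
  have h := modByMonic_add_div S.Φ (q := X - C S.a)
  rw [modByMonic_X_sub_C_eq_C_eval] at h
  rw [Q, add_comm]
  exact h.symm

theorem eval_Q : S.Q.eval S.a = S.Φ.derivative.eval S.a := by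
  have h := congrArg (fun p => (derivative p).eval S.a) S.Φ_eq
  simp only [derivative_add, derivative_mul, derivative_sub, derivative_X, derivative_C, sub_zero,
    one_mul, eval_add, eval_mul, eval_sub, eval_X, eval_C, sub_self, zero_mul, add_zero] at h
  exact h.symm

theorem evA_Q_notMem : S.evA S.Q ∉ S.P := by
  rw [mem_P_iff, eval_Q]
  intro h
  exact ((mem_maximalIdeal _).mp h) S.deriv_unit

/-- `(t - a) · Q(t) = - Φ(a)` -/
theorem evA_sub_mul : S.evA (X - C S.a) * S.evA S.Q = - S.evA (C (S.Φ.eval S.a)) := by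
  have h : S.evA S.Φ = 0 := Subtype.ext (by rw [S.coe_evA]; exact S.root)
  have h2 := congrArg S.evA S.Φ_eq
  rw [h, map_add, map_mul] at h2
  exact eq_neg_of_add_eq_zero_left h2.symm

/-! ### The localisation `R` of `O[t]` at `P` -/

/-- the localisation of `O[t]` at `P`, as a subring of `F'` -/
abbrev R : Subring F' := (LocalSubring.ofPrime S.A S.P).toSubring

theorem A_le_R : S.A ≤ S.R := LocalSubring.le_ofPrime S.A S.P

instance [IsPrincipalIdealRing ↥O] : IsNoetherianRing ↥S.A :=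
  isNoetherianRing_of_surjective _ _ S.evA S.evA_surjective

instance [IsPrincipalIdealRing ↥O] : IsNoetherianRing ↥S.R :=
  IsLocalization.isNoetherianRing S.P.primeCompl ↥S.R inferInstance

theorem maximalIdeal_R : maximalIdeal ↥S.R = S.P.map (algebraMap ↥S.A ↥S.R) :=
  (IsLocalization.AtPrime.map_eq_maximalIdeal S.P ↥S.R).symm

/-- the image of `c ∈ O` in `R` -/
def constR (c : ↥O) : ↥S.R := algebraMap ↥S.A ↥S.R (S.evA (C c))

theorem coe_constR (c : ↥O) : ((S.constR c : ↥S.R) : F') = algebraMap F F' (c : F) := by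
  show S.ev (C c) = _
  rw [ev_C]

theorem isUnit_Q : IsUnit (algebraMap ↥S.A ↥S.R (S.evA S.Q)) :=
  IsLocalization.map_units ↥S.R (⟨S.evA S.Q, S.evA_Q_notMem⟩ : S.P.primeCompl)

/-- `t - a ∈ ϖ R` -/
theorem sub_mem_span {ϖ : ↥O} (hϖ : maximalIdeal ↥O = Ideal.span {ϖ}) :
    algebraMap ↥S.A ↥S.R (S.evA (X - C S.a)) ∈ Ideal.span {S.constR ϖ} := by
  obtain ⟨d, hd⟩ : ∃ d, d * ϖ = S.Φ.eval S.a := by
    have := S.eval_mem
    rw [hϖ] at this
    exact Ideal.mem_span_singleton'.mp this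
  obtain ⟨u, hu⟩ := S.isUnit_Q
  have h1 := congrArg (algebraMap ↥S.A ↥S.R) S.evA_sub_mul
  rw [map_mul, map_neg, ← hu] at h1
  have h2 : algebraMap ↥S.A ↥S.R (S.evA (X - C S.a)) =
      - algebraMap ↥S.A ↥S.R (S.evA (C (S.Φ.eval S.a))) * ((u⁻¹ : (↥S.R)ˣ) : ↥S.R) := by
    rw [← h1, mul_assoc, Units.mul_inv, mul_one]
  rw [h2, ← hd, C_mul, map_mul, map_mul, Ideal.mem_span_singleton']
  refine ⟨- algebraMap ↥S.A ↥S.R (S.evA (C d)) * ((u⁻¹ : (↥S.R)ˣ) : ↥S.R), ?_⟩
  rw [constR]
  ring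

/-- **The maximal ideal of `R` is generated by a uniformiser of `O`.** -/
theorem maximalIdeal_R_eq {ϖ : ↥O} (hϖ : maximalIdeal ↥O = Ideal.span {ϖ}) :
    maximalIdeal ↥S.R = Ideal.span {S.constR ϖ} := by
  apply le_antisymm
  · rw [maximalIdeal_R, Ideal.map_le_iff_le_comap]
    intro x hx
    obtain ⟨p, rfl⟩ := S.evA_surjective x
    rw [mem_P_iff, hϖ, Ideal.mem_span_singleton'] at hx
    obtain ⟨d, hd⟩ := hx
    rw [Ideal.mem_comap]
    have hp : p = (X - C S.a) * (p /ₘ (X - C S.a)) + C (d * ϖ) := by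
      have h := modByMonic_add_div p (q := X - C S.a)
      rw [modByMonic_X_sub_C_eq_C_eval, ← hd] at h
      rw [add_comm]
      exact h.symm
    rw [hp, map_add, map_mul, map_add, map_mul]
    refine Ideal.add_mem _ (Ideal.mul_mem_right _ _ (S.sub_mem_span hϖ)) ?_
    rw [C_mul, map_mul, map_mul, Ideal.mem_span_singleton']
    exact ⟨_, rfl⟩
  · rw [Ideal.span_singleton_le_iff_mem, maximalIdeal_R]
    refine Ideal.mem_map_of_mem _ ?_
    rw [mem_P_iff, eval_C, hϖ]
    exact Ideal.mem_span_singleton_self ϖ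

/-! ### `R` is a discrete valuation ring, hence a valuation subring of `F'` -/

section DVR

variable [IsPrincipalIdealRing ↥O]

theorem isPrincipal_maximalIdeal_R : (maximalIdeal ↥S.R).IsPrincipal := by
  obtain ⟨ϖ, hϖ⟩ := (IsPrincipalIdealRing.principal (maximalIdeal ↥O)).principal
  exact ⟨⟨S.constR ϖ, S.maximalIdeal_R_eq hϖ⟩⟩

theorem valuationRing_R : ValuationRing ↥S.R :=
  ((tfae_of_isNoetherianRing_of_isLocalRing_of_isDomain ↥S.R).out 4 1).mp
    S.isPrincipal_maximalIdeal_R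

theorem isPrincipalIdealRing_R : IsPrincipalIdealRing ↥S.R :=
  ((tfae_of_isNoetherianRing_of_isLocalRing_of_isDomain ↥S.R).out 4 0).mp
    S.isPrincipal_maximalIdeal_R

omit [IsPrincipalIdealRing ↥O] in
/-- every element of `F'` is a quotient of an element of `O[t]` by a nonzero constant of `O` -/
theorem exists_const_mul_mem_A (x : F') :
    ∃ d : ↥O, d ≠ 0 ∧ algebraMap F F' (d : F) * x ∈ S.A := by
  obtain ⟨P, -, rfl⟩ := S.span x
  obtain ⟨b, hbM, hb⟩ := IsLocalization.integerNormalization_spec (nonZeroDivisors ↥O) P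
    (S := F)
  refine ⟨b, nonZeroDivisors.ne_zero hbM, ?_⟩
  have h1 : algebraMap F F' ((b : ↥O) : F) * aeval S.t P =
      S.ev (IsLocalization.integerNormalization (nonZeroDivisors ↥O) P) := by
    show _ = eval₂ ((algebraMap F F').comp (algebraMap ↥O F)) S.t _
    rw [← eval₂_map (f := algebraMap ↥O F) (g := algebraMap F F'), ← aeval_def, hb,
      Algebra.smul_def, map_mul]
    congr 1
    rw [show algebraMap (↥O) F[X] b = C ((b : ↥O) : F) from rfl, aeval_C]
  rw [h1]
  exact ⟨_, rfl⟩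

theorem mem_or_inv_mem_R (x : F') : x ∈ S.R ∨ x⁻¹ ∈ S.R := by
  have := S.valuationRing_R
  obtain ⟨d, hd0, hdx⟩ := S.exists_const_mul_mem_A x
  have hd' : algebraMap F F' (d : F) ≠ 0 := by
    rw [Ne, map_eq_zero]
    exact fun h => hd0 (Subtype.ext h)
  set r₁ : ↥S.R := ⟨algebraMap F F' (d : F) * x, S.A_le_R hdx⟩ with hr₁
  set r₂ : ↥S.R := S.constR d with hr₂
  have hr₂c : (r₂ : F') = algebraMap F F' (d : F) := S.coe_constR d
  obtain ⟨c, hc | hc⟩ := ValuationRing.cond r₁ r₂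
  · -- `r₁ c = r₂`, so `x⁻¹ = c`
    right
    have h := congrArg (Subtype.val : ↥S.R → F') hc
    rw [show ((r₁ * c : ↥S.R) : F') = (r₁ : F') * (c : F') from rfl, hr₂c] at h
    have hx0 : x ≠ 0 := by
      rintro rfl
      rw [hr₁] at h
      simp only [mul_zero, zero_mul] at h
      exact hd' h.symm
    have hc' : (c : F') = x⁻¹ := by
      rw [hr₁] at h
      field_simp
      field_simp at h
      rw [mul_comm]
      exact h
    rw [← hc']
    exact c.2
  · left
    have h := congrArg (Subtype.val : ↥S.R → F') hc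
    rw [show ((r₂ * c : ↥S.R) : F') = (r₂ : F') * (c : F') from rfl, hr₂c] at h
    have hc' : (c : F') = x := mul_left_cancel₀ hd' h
    rw [← hc']
    exact c.2

/-- **The valuation subring of type `a`.** -/
def V : ValuationSubring F' :=
  { S.R with mem_or_inv_mem' := S.mem_or_inv_mem_R }

theorem mem_V_iff (x : F') : x ∈ S.V ↔ x ∈ S.R := Iff.rfl

theorem val_lt_one_iff (r : ↥S.R) :
    S.V.valuation (r : F') < 1 ↔ r ∈ maximalIdeal ↥S.R := by
  rw [← ValuationSubring.mem_nonunits_iff, ValuationSubring.mem_nonunits_iff_or, mem_V_iff,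
    mem_maximalIdeal, mem_nonunits_iff]
  constructor
  · rintro (h | h) hu
    · have : r = 0 := Subtype.ext h
      rw [this] at hu
      exact not_isUnit_zero hu
    · obtain ⟨u, hu'⟩ := hu
      apply h
      have h1 : ((u⁻¹ : (↥S.R)ˣ) : ↥S.R) * r = 1 := by rw [← hu']; exact Units.inv_mul u
      have h2 : (((u⁻¹ : (↥S.R)ˣ) : ↥S.R) : F') * (r : F') = 1 :=
        congrArg (Subtype.val : ↥S.R → F') h1
      have h3 : (r : F')⁻¹ = (((u⁻¹ : (↥S.R)ˣ) : ↥S.R) : F') := by
        rw [eq_comm, ← mul_eq_one_iff_eq_inv₀]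
        · exact h2
        · intro h0
          rw [h0, mul_zero] at h2
          exact zero_ne_one h2
      rw [h3]
      exact (((u⁻¹ : (↥S.R)ˣ) : ↥S.R)).2
  · intro hnu
    by_cases h0 : (r : F') = 0
    · exact Or.inl h0
    · right
      intro hinv
      apply hnu
      refine isUnit_iff_exists_inv.mpr ⟨⟨(r : F')⁻¹, hinv⟩, Subtype.ext ?_⟩
      show (r : F') * (r : F')⁻¹ = 1
      exact mul_inv_cancel₀ h0

theorem val_le_one (r : ↥S.R) : S.V.valuation (r : F') ≤ 1 :=
  (S.V.valuation_le_one_iff _).mpr r.2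

/-- elements of `P` are non-units of `V` -/
theorem val_lt_one_of_mem_P {y : ↥S.A} (hy : y ∈ S.P) : S.V.valuation (y : F') < 1 := by
  have h : algebraMap ↥S.A ↥S.R y ∈ maximalIdeal ↥S.R := by
    rw [maximalIdeal_R]
    exact Ideal.mem_map_of_mem _ hy
  exact (S.val_lt_one_iff _).mpr h

/-- **`t - a ∈ 𝔪_V`.** -/
theorem val_sub_lt_one : S.V.valuation (S.t - algebraMap F F' (S.a : F)) < 1 := by
  have h : S.evA (X - C S.a) ∈ S.P := by
    rw [mem_P_iff, eval_sub, eval_X, eval_C, sub_self]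
    exact zero_mem _
  have := S.val_lt_one_of_mem_P h
  rwa [coe_evA, map_sub, ev_X, ev_C] at this

/-- **`V` lies over `O`.** -/
theorem comap_V : S.V.comap (algebraMap F F') = O := by
  refine ValuationSubring.ext _ _ fun x => ?_
  rw [ValuationSubring.mem_comap]
  constructor
  · intro hx
    by_contra hxO
    have hx0 : x ≠ 0 := fun h => hxO (h ▸ O.zero_mem)
    have hv : 1 < O.valuation x := not_le.mp fun h => hxO ((O.valuation_le_one_iff _).mp h)
    have hinv : O.valuation x⁻¹ < 1 := by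
      rw [map_inv₀]
      exact inv_lt_one_of_one_lt₀ hv
    set c : ↥O := ⟨x⁻¹, (O.valuation_le_one_iff _).mp hinv.le⟩ with hc
    have hcm : c ∈ maximalIdeal ↥O := (O.valuation_lt_one_iff c).mpr hinv
    have hP : S.evA (C c) ∈ S.P := by rw [mem_P_iff, eval_C]; exact hcm
    have h1 := S.val_lt_one_of_mem_P hP
    rw [coe_evA, ev_C, hc, map_inv₀, map_inv₀] at h1
    have h2 : S.V.valuation (algebraMap F F' x) ≤ 1 := (S.V.valuation_le_one_iff _).mpr hx
    have h3 : S.V.valuation (algebraMap F F' x) ≠ 0 :=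
      (Valuation.ne_zero_iff _).mpr ((_root_.map_ne_zero _).mpr hx0)
    have h4 : 1 ≤ (S.V.valuation (algebraMap F F' x))⁻¹ :=
      (one_le_inv₀ (lt_of_le_of_ne zero_le h3.symm)).mpr h2
    exact absurd h1 (not_lt.mpr h4)
  · intro hx
    have : algebraMap F F' x = S.ev (C ⟨x, hx⟩) := by rw [ev_C]
    rw [this]
    exact S.A_le_R ⟨_, rfl⟩

/-! ### Uniqueness -/

omit [IsPrincipalIdealRing ↥O] in
theorem t_mem_of_comap {W : ValuationSubring F'} (hW : W.comap (algebraMap F F') = O) :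
    S.t ∈ W := by
  have hint : IsIntegral ↥W S.t := by
    refine ⟨S.Φ.map (Setup.incl hW), S.monic.map _, ?_⟩
    rw [eval₂_map]
    exact S.root
  obtain ⟨y, hy⟩ := IsIntegrallyClosed.isIntegral_iff.mp hint
  rw [← hy]
  exact y.2

omit [IsPrincipalIdealRing ↥O] in
theorem ev_mem_of_comap {W : ValuationSubring F'} (hW : W.comap (algebraMap F F') = O)
    (p : (↥O)[X]) : S.ev p ∈ W := by
  rw [ev_apply, eval₂_eq_sum_range]
  exact sum_mem fun i _ =>
    W.mul_mem _ _ ((alg_mem_iff hW _).mpr (p.coeff i).2) (pow_mem (S.t_mem_of_comap hW) i)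

omit [IsPrincipalIdealRing ↥O] in
/-- elements of `P` are non-units of any `W` over `O` with `t - a ∈ 𝔪_W` -/
theorem val_lt_one_of_mem_P_of_comap {W : ValuationSubring F'}
    (hW : W.comap (algebraMap F F') = O)
    (hlt : W.valuation (S.t - algebraMap F F' (S.a : F)) < 1) {y : ↥S.A} (hy : y ∈ S.P) :
    W.valuation (y : F') < 1 := by
  obtain ⟨p, rfl⟩ := S.evA_surjective y
  rw [mem_P_iff] at hy
  have hp : p = (X - C S.a) * (p /ₘ (X - C S.a)) + C (p.eval S.a) := by
    have h := modByMonic_add_div p (q := X - C S.a)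
    rw [modByMonic_X_sub_C_eq_C_eval] at h
    rw [add_comm]
    exact h.symm
  rw [coe_evA, hp, map_add, map_mul, map_sub, ev_X, ev_C, ev_C]
  refine Valuation.map_add_lt _ ?_ ?_
  · rw [map_mul]
    exact lt_of_le_of_lt (mul_le_of_le_one_right'
      ((W.valuation_le_one_iff _).mpr (S.ev_mem_of_comap hW _))) hlt
  · rw [val_alg_lt_one_iff hW, ← ValuationSubring.valuation_lt_one_iff]
    exact hy

omit [IsPrincipalIdealRing ↥O] in
/-- elements of `O[t]` outside `P` are units of any such `W` -/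
theorem val_eq_one_of_notMem_P_of_comap {W : ValuationSubring F'}
    (hW : W.comap (algebraMap F F') = O)
    (hlt : W.valuation (S.t - algebraMap F F' (S.a : F)) < 1) {y : ↥S.A} (hy : y ∉ S.P) :
    W.valuation (y : F') = 1 := by
  have hχ : S.chi y ≠ 0 := fun h => hy ((RingHom.mem_ker).mpr h)
  obtain ⟨y', hy'⟩ := S.chi_surjective (S.chi y)⁻¹
  have hP : y * y' - 1 ∈ S.P := by
    rw [P, RingHom.mem_ker, map_sub, map_mul, hy', map_one, mul_inv_cancel₀ hχ, sub_self]
  have h1 := S.val_lt_one_of_mem_P_of_comap hW hlt hP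
  have hyW : W.valuation (y : F') ≤ 1 := by
    obtain ⟨p, rfl⟩ := S.evA_surjective y
    exact (W.valuation_le_one_iff _).mpr (S.ev_mem_of_comap hW p)
  have hy'W : W.valuation (y' : F') ≤ 1 := by
    obtain ⟨p, rfl⟩ := S.evA_surjective y'
    exact (W.valuation_le_one_iff _).mpr (S.ev_mem_of_comap hW p)
  have h2 : W.valuation ((y : F') * (y' : F')) = 1 := by
    have h3 : ((y * y' - 1 : ↥S.A) : F') = (y : F') * (y' : F') - 1 := rfl
    rw [h3] at h1
    have := Valuation.map_sub_eq_of_lt_left W.valuation (x := (1 : F'))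
      (y := 1 - (y : F') * (y' : F')) (by
        rw [map_one, ← Valuation.map_neg, neg_sub]; exact h1)
    rw [sub_sub_cancel, map_one] at this
    exact this
  rw [map_mul] at h2
  refine le_antisymm hyW ?_
  by_contra hlt'
  rw [not_le] at hlt'
  have : W.valuation (y : F') * W.valuation (y' : F') < 1 :=
    lt_of_le_of_lt (mul_le_of_le_one_right' hy'W) hlt'
  rw [h2] at this
  exact lt_irrefl _ this

/-- **Uniqueness**: `V` is the only valuation subring over `O` with `t - a` in its maximal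
ideal. -/
theorem eq_V_of_comap {W : ValuationSubring F'} (hW : W.comap (algebraMap F F') = O)
    (hlt : W.valuation (S.t - algebraMap F F' (S.a : F)) < 1) : W = S.V := by
  -- `V ≤ W`
  have hVW : ∀ x : F', x ∈ S.R → x ∈ W := by
    intro x hx
    obtain ⟨⟨b, s⟩, hbs⟩ := IsLocalization.surj S.P.primeCompl (⟨x, hx⟩ : ↥S.R)
    have h1 : x * ((s : ↥S.A) : F') = ((b : ↥S.A) : F') :=
      congrArg (Subtype.val : ↥S.R → F') hbs
    have hs1 := S.val_eq_one_of_notMem_P_of_comap hW hlt s.2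
    have hbW : W.valuation ((b : ↥S.A) : F') ≤ 1 := by
      obtain ⟨p, rfl⟩ := S.evA_surjective b
      exact (W.valuation_le_one_iff _).mpr (S.ev_mem_of_comap hW p)
    rw [← W.valuation_le_one_iff]
    rwa [← h1, map_mul, hs1, mul_one] at hbW
  refine ValuationSubring.ext _ _ fun x => ⟨fun hx => ?_, fun hx => hVW x hx⟩
  by_contra hxV
  have hx0 : x ≠ 0 := fun h => hxV (h ▸ S.V.zero_mem)
  have hinv : x⁻¹ ∈ S.R := (S.mem_or_inv_mem_R x).resolve_left hxV
  -- `x⁻¹` is a non-unit of `R`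
  have hnu : (⟨x⁻¹, hinv⟩ : ↥S.R) ∈ maximalIdeal ↥S.R := by
    rw [← val_lt_one_iff, ← ValuationSubring.mem_nonunits_iff,
      ValuationSubring.mem_nonunits_iff_or]
    right
    show (x⁻¹)⁻¹ ∉ S.V
    rwa [inv_inv]
  -- hence a non-unit of `W`
  obtain ⟨ϖ, hϖ⟩ := (IsPrincipalIdealRing.principal (maximalIdeal ↥O)).principal
  rw [S.maximalIdeal_R_eq hϖ, Ideal.mem_span_singleton'] at hnu
  obtain ⟨r', hr'⟩ := hnu
  have h1 : (r' : F') * algebraMap F F' (ϖ : F) = x⁻¹ := by
    have := congrArg (Subtype.val : ↥S.R → F') hr'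
    rw [show ((r' * S.constR ϖ : ↥S.R) : F') = (r' : F') * ((S.constR ϖ : ↥S.R) : F') from rfl,
      coe_constR] at this
    exact this
  have hϖW : W.valuation (algebraMap F F' (ϖ : F)) < 1 := by
    rw [val_alg_lt_one_iff hW, ← ValuationSubring.valuation_lt_one_iff, hϖ]
    exact Ideal.mem_span_singleton_self ϖ
  have h2 : W.valuation x⁻¹ < 1 := by
    rw [← h1, map_mul]
    exact lt_of_le_of_lt (mul_le_of_le_one_left'
      ((W.valuation_le_one_iff _).mpr (hVW _ r'.2))) hϖW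
  have h3 : W.valuation x ≤ 1 := (W.valuation_le_one_iff _).mpr hx
  rw [map_inv₀] at h2
  have h4 : W.valuation x ≠ 0 := (Valuation.ne_zero_iff _).mpr hx0
  have h5 : 1 ≤ (W.valuation x)⁻¹ := (one_le_inv₀ (lt_of_le_of_ne zero_le h4.symm)).mpr h3
  exact absurd h2 (not_lt.mpr h5)

/-- **Existence and uniqueness of the extension at the simple root `a`.** -/
theorem existsUnique_ext : ∃! V : ValuationSubring F',
    V.comap (algebraMap F F') = O ∧ V.valuation (S.t - algebraMap F F' (S.a : F)) < 1 :=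
  ⟨S.V, ⟨S.comap_V, S.val_sub_lt_one⟩, fun _ hW => S.eq_V_of_comap hW.1 hW.2⟩

/-- Every other valuation subring over `O` has `t - a` as a unit. -/
theorem val_sub_eq_one_of_ne {W : ValuationSubring F'}
    (hW : W.comap (algebraMap F F') = O) (hne : W ≠ S.V) :
    W.valuation (S.t - algebraMap F F' (S.a : F)) = 1 := by
  have hle : W.valuation (S.t - algebraMap F F' (S.a : F)) ≤ 1 := by
    rw [W.valuation_le_one_iff]
    exact sub_mem (S.t_mem_of_comap hW) ((alg_mem_iff hW _).mpr S.a.2)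
  exact le_antisymm hle (not_lt.mp fun h => hne (S.eq_V_of_comap hW h))

/-! ### `f = 1` and `e = 1` -/

/-- **`f = 1`**: every element of `V` is congruent to a constant of `O` modulo `𝔪_V`. -/
theorem exists_const_sub_lt_one {x : F'} (hx : x ∈ S.V) :
    ∃ c : ↥O, S.V.valuation (x - algebraMap F F' (c : F)) < 1 := by
  obtain ⟨⟨b, s⟩, hbs⟩ := IsLocalization.surj S.P.primeCompl (⟨x, hx⟩ : ↥S.R)
  have h1 : x * ((s : ↥S.A) : F') = ((b : ↥S.A) : F') :=
    congrArg (Subtype.val : ↥S.R → F') hbs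
  have hχ : S.chi s ≠ 0 := fun h => s.2 ((RingHom.mem_ker).mpr h)
  obtain ⟨c, hc⟩ := residue_surjective (S.chi b * (S.chi s)⁻¹)
  have hcχ : S.chi (S.evA (C c)) = residue ↥O c := by rw [chi_evA, chi0_apply, eval_C]
  have hP : b - S.evA (C c) * s ∈ S.P := by
    refine (RingHom.mem_ker).mpr ?_
    rw [map_sub, map_mul, hcχ, hc, mul_assoc, inv_mul_cancel₀ hχ, mul_one, sub_self]
  have h2 := S.val_lt_one_of_mem_P hP
  have hs1 := S.val_eq_one_of_notMem_P_of_comap S.comap_V S.val_sub_lt_one s.2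
  have hs0 : ((s : ↥S.A) : F') ≠ 0 := by
    intro h0
    rw [h0, map_zero] at hs1
    exact zero_ne_one hs1
  have h3 : ((b - S.evA (C c) * s : ↥S.A) : F') =
      (x - algebraMap F F' (c : F)) * ((s : ↥S.A) : F') := by
    rw [sub_mul, h1]
    show ((b : ↥S.A) : F') - S.ev (C c) * ((s : ↥S.A) : F') = _
    rw [ev_C]
  rw [h3, map_mul, hs1, mul_one] at h2
  exact ⟨c, h2⟩

theorem val_eq_one_of_isUnit {u : ↥S.R} (hu : IsUnit u) : S.V.valuation (u : F') = 1 :=
  le_antisymm (S.val_le_one u) (not_lt.mp fun h =>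
    ((mem_maximalIdeal _).mp ((S.val_lt_one_iff u).mp h)) hu)

/-- values of nonzero elements of `R` are powers of the value of the uniformiser -/
theorem exists_pow_eq_of_mem_R {ϖ : ↥O} (hϖ : maximalIdeal ↥O = Ideal.span {ϖ}) {r : ↥S.R}
    (hr : r ≠ 0) :
    ∃ n : ℕ, S.V.valuation (r : F') = S.V.valuation (algebraMap F F' (ϖ : F)) ^ n := by
  have h7 := ((tfae_of_isNoetherianRing_of_isLocalRing_of_isDomain ↥S.R).out 4 6).mp
    S.isPrincipal_maximalIdeal_R
  have hI : Ideal.span {r} ≠ ⊥ := by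
    rw [Ne, Ideal.span_singleton_eq_bot]
    exact hr
  obtain ⟨n, hn⟩ := h7 _ hI
  rw [S.maximalIdeal_R_eq hϖ, Ideal.span_singleton_pow,
    Ideal.span_singleton_eq_span_singleton] at hn
  obtain ⟨u, hu⟩ := hn
  refine ⟨n, ?_⟩
  have h1 : (r : F') * ((u : ↥S.R) : F') = ((S.constR ϖ : ↥S.R) : F') ^ n := by
    have := congrArg (Subtype.val : ↥S.R → F') hu
    exact this
  have h2 := congrArg S.V.valuation h1
  rwa [map_mul, S.val_eq_one_of_isUnit u.isUnit, mul_one, map_pow, coe_constR] at h2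

/-- **`e = 1`**: the value group of `V` is generated by the value of a uniformiser of `O`. -/
theorem exists_zpow_eq {ϖ : ↥O} (hϖ : maximalIdeal ↥O = Ideal.span {ϖ}) {x : F'} (hx : x ≠ 0) :
    ∃ m : ℤ, S.V.valuation x = S.V.valuation (algebraMap F F' (ϖ : F)) ^ m := by
  obtain ⟨d, hd0, hdx⟩ := S.exists_const_mul_mem_A x
  have hd' : algebraMap F F' (d : F) ≠ 0 := by
    rw [Ne, map_eq_zero]
    exact fun h => hd0 (Subtype.ext h)
  have hr₁ : (⟨algebraMap F F' (d : F) * x, S.A_le_R hdx⟩ : ↥S.R) ≠ 0 := by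
    intro h
    exact mul_ne_zero hd' hx (congrArg (Subtype.val : ↥S.R → F') h)
  have hr₂ : S.constR d ≠ 0 := by
    intro h
    have := congrArg (Subtype.val : ↥S.R → F') h
    rw [coe_constR] at this
    exact hd' this
  obtain ⟨n₁, h₁⟩ := S.exists_pow_eq_of_mem_R hϖ hr₁
  obtain ⟨n₂, h₂⟩ := S.exists_pow_eq_of_mem_R hϖ hr₂
  rw [coe_constR] at h₂
  have hd'' : S.V.valuation (algebraMap F F' (d : F)) ≠ 0 := (Valuation.ne_zero_iff _).mpr hd'
  have hdx'' : S.V.valuation (algebraMap F F' (d : F) * x) ≠ 0 :=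
    (Valuation.ne_zero_iff _).mpr (mul_ne_zero hd' hx)
  have h3 : S.V.valuation x =
      S.V.valuation (algebraMap F F' (d : F) * x) / S.V.valuation (algebraMap F F' (d : F)) := by
    rw [map_mul, mul_div_cancel_left₀ _ hd'']
  by_cases hϖ0 : S.V.valuation (algebraMap F F' (ϖ : F)) = 0
  · -- degenerate case `ϖ = 0`
    have hn₁ : n₁ = 0 := by
      by_contra hne
      rw [hϖ0, zero_pow hne] at h₁
      exact hdx'' h₁
    have hn₂ : n₂ = 0 := by
      by_contra hne
      rw [hϖ0, zero_pow hne] at h₂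
      exact hd'' h₂
    refine ⟨0, ?_⟩
    rw [hn₁, pow_zero] at h₁
    rw [hn₂, pow_zero] at h₂
    rw [h3, zpow_zero]
    show S.V.valuation (algebraMap F F' (d : F) * x) / _ = 1
    rw [h₁, h₂, div_one]
  · refine ⟨(n₁ : ℤ) - n₂, ?_⟩
    rw [h3, zpow_sub₀ hϖ0, zpow_natCast, zpow_natCast, ← h₂]
    congr 1

/-- `V` is a principal ideal ring. -/
theorem isPrincipalIdealRing_V : IsPrincipalIdealRing ↥S.V :=
  S.isPrincipalIdealRing_R

/-- `V` is not the whole field (if `O` is not). -/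
theorem V_ne_top (hO : O ≠ ⊤) : S.V ≠ ⊤ := by
  intro h
  apply hO
  refine ValuationSubring.ext _ _ fun x => ⟨fun _ => ValuationSubring.mem_top x, fun _ => ?_⟩
  rw [← S.comap_V, ValuationSubring.mem_comap, h]
  exact ValuationSubring.mem_top _

end DVR

/-- The data from a power basis of `F'/F` whose generator has minimal polynomial `Φ`. -/
def ofPowerBasis (pb : PowerBasis F F') (Φ : (↥O)[X]) (a : ↥O) (hΦ : Φ.Monic)
    (hmin : minpoly F pb.gen = Φ.map (algebraMap ↥O F))
    (ha : Φ.eval a ∈ maximalIdeal ↥O) (ha' : IsUnit (Φ.derivative.eval a)) : Datum O F' where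
  t := pb.gen
  Φ := Φ
  a := a
  monic := hΦ
  root := by
    have h : Φ.eval₂ (coeffHom O F') pb.gen = aeval pb.gen (Φ.map (algebraMap ↥O F)) := by
      rw [aeval_def, eval₂_map]
      rfl
    rw [h, ← hmin, minpoly.aeval]
  span := fun x => by
    obtain ⟨f, hf, hx⟩ := pb.exists_eq_aeval x
    refine ⟨f, ?_, hx.symm⟩
    have h1 : pb.dim = Φ.natDegree := by
      rw [← pb.natDegree_minpoly, hmin, hΦ.natDegree_map]
    rwa [← h1]
  dvd_of_root := fun p hp => by
    have h : aeval pb.gen (p.map (algebraMap ↥O F)) = 0 := by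
      rw [aeval_def, eval₂_map]
      exact hp
    have h1 := minpoly.dvd F pb.gen h
    rw [hmin] at h1
    exact (map_dvd_map _ (FaithfulSMul.algebraMap_injective ↥O F) hΦ).mp h1
  eval_mem := ha
  deriv_unit := ha'

end Datum

end Fermat.Agent.S34.SimpleRoot
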