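/-
PROJECT U (S34): **adapter from `S34/SimpleRoot` to the Prelude language of places**
(`AlgebraicCurve.Place`, `Place.restrict`, `Place.ramificationIndex`, `Place.ord`).

`PM : Place K F`, `F'/F` a finite extension of function fields over `K`, and
`S : SimpleRoot.Datum PM.toValuationSubring F'` (a primitive element `t` with integral minimal
polynomial `Φ` and a SIMPLE root `a` of `Φ` modulo `𝔪_{PM}`).  Then

* `place S : Place K F'` is a place over `PM` (`restrict_place`), unramified
  (`ramificationIndex_place`, `ord_place_algebraMap`), with `t ≡ a` (`adicValuation_place_sub_lt_one`)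
  and residue field that of `PM` (`exists_const_sub_lt_one`);
* it is the ONLY place over `PM` with `t ≡ a` (`eq_place_of_restrict`, `existsUnique_place`);
* at every other place over `PM` the function `t - a` is a unit (`ord_sub_eq_zero_of_ne`).
-/
import Mathlib
import Fermat.Prelude.Def_AlgebraicCurve_DivisorPushPull
import Fermat.Agent.S24.Ord
import Fermat.Agent.S34.SimpleRoot

set_option autoImplicit false

noncomputable section

namespace Fermat.Agent.S34.SimpleRootPlace

open AlgebraicCurve IsLocalRing Fermat.Agent.S24.Ord Fermat.Agent.S34.SimpleRoot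

variable {K F F' : Type*} [Field K] [Field F] [Field F'] [Algebra K F] [Algebra K F']
  [Algebra F F'] [IsScalarTower K F F']

/-! ### Dictionary between `Place.adicValuation` and the canonical valuation of the subring -/

theorem adicValuation_lt_one_iff_val (P : Place K F') (x : F') :
    P.adicValuation x < 1 ↔ P.toValuationSubring.valuation x < 1 := by
  constructor
  · intro h
    have hx : x ∈ P.toValuationSubring := (mem_iff P x).mpr h.le
    have := (mem_maximalIdeal_iff P ⟨x, hx⟩).mpr h
    exact (P.toValuationSubring.valuation_lt_one_iff ⟨x, hx⟩).mp this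
  · intro h
    have hx : x ∈ P.toValuationSubring := (P.toValuationSubring.valuation_le_one_iff x).mp h.le
    have := (P.toValuationSubring.valuation_lt_one_iff ⟨x, hx⟩).mpr h
    exact (mem_maximalIdeal_iff P ⟨x, hx⟩).mp this

theorem adicValuation_le_one_iff_val (P : Place K F') (x : F') :
    P.adicValuation x ≤ 1 ↔ P.toValuationSubring.valuation x ≤ 1 := by
  rw [← mem_iff, ← ValuationSubring.valuation_le_one_iff]

theorem adicValuation_eq_one_iff_val (P : Place K F') (x : F') :
    P.adicValuation x = 1 ↔ P.toValuationSubring.valuation x = 1 := by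
  constructor
  · intro h
    refine le_antisymm ((adicValuation_le_one_iff_val P x).mp h.le) (not_lt.mp fun hlt => ?_)
    exact absurd ((adicValuation_lt_one_iff_val P x).mpr hlt) (not_lt.mpr h.ge)
  · intro h
    refine le_antisymm ((adicValuation_le_one_iff_val P x).mpr h.le) (not_lt.mp fun hlt => ?_)
    exact absurd ((adicValuation_lt_one_iff_val P x).mp hlt) (not_lt.mpr h.ge)

variable {PM : Place K F} (S : Datum PM.toValuationSubring F')

/-- **The place over `PM` attached to the simple root `a`.** -/
def place : Place K F' where
  toValuationSubring := S.V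
  algebraMap_mem' c := by
    rw [IsScalarTower.algebraMap_apply K F F', ← ValuationSubring.mem_comap, S.comap_V]
    exact PM.algebraMap_mem' c
  ne_top' := S.V_ne_top PM.ne_top'
  isPrincipalIdealRing' := S.isPrincipalIdealRing_V

@[simp] theorem place_toValuationSubring : (place S).toValuationSubring = S.V := rfl

theorem adicValuation_place_sub_lt_one :
    (place S).adicValuation (S.t - algebraMap F F' (S.a : F)) < 1 :=
  (adicValuation_lt_one_iff_val _ _).mpr S.val_sub_lt_one

/-- `f = 1`: the residue field of `place S` is that of `PM`. -/
theorem exists_const_sub_lt_one {x : F'} (hx : (place S).adicValuation x ≤ 1) :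
    ∃ c : PM.toValuationSubring, (place S).adicValuation (x - algebraMap F F' (c : F)) < 1 := by
  obtain ⟨c, hc⟩ := S.exists_const_sub_lt_one ((mem_iff (place S) x).mpr hx)
  exact ⟨c, (adicValuation_lt_one_iff_val _ _).mpr hc⟩

section Integral

variable [Algebra.IsIntegral F F']

/-- **`place S` lies over `PM`.** -/
theorem restrict_place : (place S).restrict F = PM :=
  Place.ext (by rw [Place.restrict_toValuationSubring, place_toValuationSubring, S.comap_V])

omit [Algebra.IsIntegral F F'] in
/-- a uniformiser of `PM` is a uniformiser of `place S` -/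
theorem ord_place_uniformizer {ϖ : PM.toValuationSubring} (hϖ : Irreducible ϖ) :
    (place S).ord (algebraMap F F' (ϖ : F)) = 1 := by
  have hmax : maximalIdeal PM.toValuationSubring = Ideal.span {ϖ} := hϖ.maximalIdeal_eq
  have hR := S.maximalIdeal_R_eq hmax
  have hmem : algebraMap F F' (ϖ : F) ∈ (place S).toValuationSubring := by
    rw [← S.coe_constR]
    exact (S.constR ϖ).2
  have hirr : Irreducible (⟨algebraMap F F' (ϖ : F), hmem⟩ : (place S).toValuationSubring) := by
    rw [IsDiscreteValuationRing.irreducible_iff_uniformizer]
    have hc : (⟨algebraMap F F' (ϖ : F), hmem⟩ : (place S).toValuationSubring) = S.constR ϖ :=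
      Subtype.ext (S.coe_constR ϖ).symm
    rw [hc]
    exact hR
  exact (place S).ord_coe_irreducible hirr

/-- **`place S` is unramified over `PM`.** -/
theorem ramificationIndex_place : Place.ramificationIndex (F := F) (place S) = 1 := by
  obtain ⟨ϖ, hϖ⟩ := IsDiscreteValuationRing.exists_irreducible PM.toValuationSubring
  have h1 := ord_place_uniformizer S hϖ
  have hne : (ϖ : F) ≠ 0 := by
    simpa [ne_eq, ZeroMemClass.coe_eq_zero] using hϖ.ne_zero
  have hle := (place S).ramificationIndex_le_ord (F := F) hne (by rw [h1]; exact one_pos)
  have hpos := (place S).ramificationIndex_pos (F := F)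
  rw [h1] at hle
  omega

theorem ord_place_algebraMap (g : F) : (place S).ord (algebraMap F F' g) = PM.ord g := by
  rw [(place S).ord_restrict g, ramificationIndex_place, restrict_place, Nat.cast_one, one_mul]

/-- **Uniqueness**: the only place over `PM` at which `t ≡ a`. -/
theorem eq_place_of_restrict {P' : Place K F'} (h : P'.restrict F = PM)
    (hlt : P'.adicValuation (S.t - algebraMap F F' (S.a : F)) < 1) : P' = place S := by
  apply Place.ext
  rw [place_toValuationSubring]
  apply S.eq_V_of_comap
  · rw [← Place.restrict_toValuationSubring, h]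
  · exact (adicValuation_lt_one_iff_val _ _).mp hlt

theorem existsUnique_place : ∃! P : Place K F', P.restrict F = PM ∧
    P.adicValuation (S.t - algebraMap F F' (S.a : F)) < 1 :=
  ⟨place S, ⟨restrict_place S, adicValuation_place_sub_lt_one S⟩,
    fun _ h => eq_place_of_restrict S h.1 h.2⟩

/-- at every other place over `PM`, `t - a` is a unit -/
theorem adicValuation_sub_eq_one_of_ne {P' : Place K F'} (h : P'.restrict F = PM)
    (hne : P' ≠ place S) : P'.adicValuation (S.t - algebraMap F F' (S.a : F)) = 1 := by
  rw [adicValuation_eq_one_iff_val]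
  apply S.val_sub_eq_one_of_ne
  · rw [← Place.restrict_toValuationSubring, h]
  · intro hV
    exact hne (Place.ext hV)

theorem ord_sub_eq_zero_of_ne {P' : Place K F'} (h : P'.restrict F = PM)
    (hne : P' ≠ place S) : P'.ord (S.t - algebraMap F F' (S.a : F)) = 0 := by
  rw [ord_eq, adicValuation_sub_eq_one_of_ne S h hne, WithZero.log_one, neg_zero]

end Integral

end Fermat.Agent.S34.SimpleRootPlace
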