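/-
PROJECT U (S34): **(FIB) — the unique unramified place over `PM` whose `t`-value reduces to a
simple root of the reduced equation**, in the Prelude language of places.

Two layers of reduction are involved: `PM : Place L FM` is a place of the GENERIC fibre (trivial
on the constants `L`, `L` algebraically closed), and `A ⊆ L` is a valuation subring of the
constants with a reduction map `π : A → k`.

* Part 1 (Mathlib only): `Φ₀ ∈ A[X]` monic, `ā ∈ k` a SIMPLE root of `π Φ₀`.  Then there is exactly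
  one root `x ∈ A` of `Φ₀` with `π x = ā`, and `Φ₀'(x) ≠ 0` (`existsUnique_root`).  No Hensel:
  `Φ₀` splits in `L` and its roots are integral over `A`.
* Part 2: `F = FM(t)` with minimal polynomial `Φ ∈ O_{PM}[X]`, `Φ ≡ Φ₀` modulo `𝔪_{PM}`
  coefficientwise.  The constant `x` is a simple root of `Φ` modulo `𝔪_{PM}`
  (`datum : SimpleRoot.Datum`), hence there is a unique place over `PM` with `t ≡ x`.
* Part 3: at EVERY place `P'` over `PM`, a value `x'` of `t` is a root of `Φ₀` lying in `A`
  (`value_isRoot`, `value_mem`), so `π x'` is a root of `π Φ₀`.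
* `exists_place`: the statement in the shape of `Generic.Compat.GenericAt.fibα`.
-/
import Mathlib
import Fermat.Agent.S18.A.RiemannBasic
import Fermat.Agent.S34.SimpleRootPlace

set_option autoImplicit false

noncomputable section

namespace Fermat.Agent.S34.SimpleRootLift

open Polynomial AlgebraicCurve IsLocalRing Fermat.Agent.S24.Ord Fermat.Agent.S34.TwoExt
  Fermat.Agent.S34.SimpleRoot Fermat.Agent.S34.SimpleRootPlace

/-! ### Part 1: lifting a simple root (no Hensel) -/

section Roots

variable {L : Type*} [Field L] {A : ValuationSubring L} {k : Type*} [Field k] (π : ↥A →+* k)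

theorem eval_map_apply' {R S : Type*} [CommRing R] [CommRing S] (f : R →+* S) (p : R[X]) (x : R) :
    (p.map f).eval (f x) = f (p.eval x) := by
  rw [eval_map, eval₂_at_apply]

/-- a root in `L` of a monic polynomial over `A` lies in `A` -/
theorem mem_of_isRoot {Ψ : (↥A)[X]} (hΨ : Ψ.Monic) {y : L}
    (hy : (Ψ.map (algebraMap ↥A L)).eval y = 0) : ∃ y' : ↥A, (y' : L) = y := by
  have hint : IsIntegral ↥A y := ⟨Ψ, hΨ, by rwa [← eval_map]⟩
  obtain ⟨y', hy'⟩ := IsIntegrallyClosed.isIntegral_iff.mp hint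
  exact ⟨y', hy'⟩

theorem eval_eq_zero_of_map {Ψ : (↥A)[X]} {y : ↥A}
    (hy : (Ψ.map (algebraMap ↥A L)).eval (y : L) = 0) : Ψ.eval y = 0 := by
  have h : (Ψ.map (algebraMap ↥A L)).eval (algebraMap ↥A L y) = 0 := hy
  rw [eval_map_apply'] at h
  exact (map_eq_zero_iff _ (IsFractionRing.injective ↥A L)).mp h

/-- **Existence**: a root of `π Ψ` is the reduction of a root of `Ψ` in `A`. -/
theorem exists_root_of_map_root [IsAlgClosed L] {ā : k} :
    ∀ (n : ℕ) (Ψ : (↥A)[X]), Ψ.natDegree = n → Ψ.Monic → (Ψ.map π).eval ā = 0 →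
      ∃ x : ↥A, Ψ.eval x = 0 ∧ π x = ā := by
  intro n
  induction n with
  | zero =>
    intro Ψ hdeg hΨ hā
    have h1 : Ψ = 1 := eq_one_of_monic_natDegree_zero hΨ hdeg
    rw [h1, Polynomial.map_one, eval_one] at hā
    exact absurd hā one_ne_zero
  | succ n ih =>
    intro Ψ hdeg hΨ hā
    have hdegL : (Ψ.map (algebraMap ↥A L)).degree ≠ 0 := by
      rw [degree_eq_natDegree (Polynomial.Monic.map _ hΨ).ne_zero,
        Polynomial.Monic.natDegree_map hΨ, hdeg]
      exact_mod_cast Nat.succ_ne_zero n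
    obtain ⟨y, hy⟩ := IsAlgClosed.exists_root _ hdegL
    obtain ⟨y', rfl⟩ := mem_of_isRoot hΨ hy
    have hy' : Ψ.eval y' = 0 := eval_eq_zero_of_map hy
    have hfac : (X - C y') * (Ψ /ₘ (X - C y')) = Ψ := mul_divByMonic_eq_iff_isRoot.mpr hy'
    set Ψ₁ := Ψ /ₘ (X - C y') with hΨ₁
    have hΨ₁m : Ψ₁.Monic := by
      have : ((X - C y') * Ψ₁).Monic := by rw [hfac]; exact hΨ
      exact (monic_X_sub_C y').of_mul_monic_left this
    have hdeg₁ : Ψ₁.natDegree = n := by
      have := congrArg natDegree hfac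
      rw [(monic_X_sub_C y').natDegree_mul hΨ₁m, natDegree_X_sub_C, hdeg] at this
      omega
    have hmap : Ψ.map π = (X - C (π y')) * Ψ₁.map π := by
      rw [← hfac, Polynomial.map_mul, Polynomial.map_sub, map_X, map_C]
    rw [hmap, eval_mul, eval_sub, eval_X, eval_C, mul_eq_zero] at hā
    rcases hā with h | h
    · exact ⟨y', hy', (sub_eq_zero.mp h).symm⟩
    · obtain ⟨x, hx, hπ⟩ := ih Ψ₁ hdeg₁ hΨ₁m h
      refine ⟨x, ?_, hπ⟩
      rw [← hfac, eval_mul, hx, mul_zero]

/-- **Uniqueness**: two distinct roots with the same reduction give a multiple root of `π Ψ`. -/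
theorem root_unique {Ψ : (↥A)[X]} {ā : k} (hsimple : (Ψ.map π).derivative.eval ā ≠ 0)
    {x x' : ↥A} (hx : Ψ.eval x = 0) (hx' : Ψ.eval x' = 0) (hπ : π x = ā) (hπ' : π x' = ā) :
    x' = x := by
  by_contra hne
  have hfac : (X - C x) * (Ψ /ₘ (X - C x)) = Ψ := mul_divByMonic_eq_iff_isRoot.mpr hx
  set Ψ₁ := Ψ /ₘ (X - C x) with hΨ₁
  have h1 : Ψ₁.eval x' = 0 := by
    have := hx'
    rw [← hfac, eval_mul, eval_sub, eval_X, eval_C, mul_eq_zero] at this
    rcases this with h | h
    · exact absurd (sub_eq_zero.mp h) hne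
    · exact h
  apply hsimple
  have hmap : Ψ.map π = (X - C (π x)) * Ψ₁.map π := by
    rw [← hfac, Polynomial.map_mul, Polynomial.map_sub, map_X, map_C]
  rw [hmap, derivative_mul, derivative_sub, derivative_X, derivative_C, sub_zero, one_mul,
    eval_add, eval_mul, eval_sub, eval_X, eval_C, hπ, sub_self, zero_mul, add_zero, ← hπ',
    eval_map_apply', h1, map_zero]

/-- **A simple root of `π Φ₀` lifts to a unique root of `Φ₀` in `A`.** -/
theorem existsUnique_root [IsAlgClosed L] {Φ₀ : (↥A)[X]} (hΦ₀ : Φ₀.Monic) {ā : k}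
    (hroot : (Φ₀.map π).eval ā = 0) (hsimple : (Φ₀.map π).derivative.eval ā ≠ 0) :
    ∃! x : ↥A, Φ₀.eval x = 0 ∧ π x = ā := by
  obtain ⟨x, hx, hπ⟩ := exists_root_of_map_root π _ Φ₀ rfl hΦ₀ hroot
  exact ⟨x, ⟨hx, hπ⟩, fun x' h => root_unique π hsimple hx h.1 hπ h.2⟩

/-- the derivative does not vanish at a root reducing to a simple root -/
theorem derivative_eval_ne_zero {Φ₀ : (↥A)[X]} {ā : k}
    (hsimple : (Φ₀.map π).derivative.eval ā ≠ 0) {x : ↥A} (hπ : π x = ā) :
    Φ₀.derivative.eval x ≠ 0 := by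
  intro h
  apply hsimple
  rw [← hπ, derivative_map, eval_map_apply', h, map_zero]

end Roots

/-! ### Part 2: the simple-root datum at a constant -/

section Place

variable {L : Type*} [Field L] {FM F : Type*} [Field FM] [Field F] [Algebra L FM] [Algebra L F]
  [Algebra FM F] [IsScalarTower L FM F]
variable {A : ValuationSubring L} {k : Type*} [Field k] (π : ↥A →+* k)

/-- constants of `A`, as elements of the valuation ring of a place `PM` -/
def constA (A : ValuationSubring L) (PM : Place L FM) : ↥A →+* ↥PM.toValuationSubring :=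
  (algebraMap L ↥PM.toValuationSubring).comp A.subtype

@[simp] theorem coe_constA (PM : Place L FM) (x : ↥A) :
    ((constA A PM x : ↥PM.toValuationSubring) : FM) = algebraMap L FM (x : L) := rfl

/-- `Φ ≡ Φ₀` modulo `𝔪_{PM}`, coefficientwise -/
def Congr (PM : Place L FM) (Φ : (↥PM.toValuationSubring)[X]) (Φ₀ : (↥A)[X]) : Prop :=
  ∀ i, PM.adicValuation (((Φ.coeff i : ↥PM.toValuationSubring) : FM) -
    algebraMap L FM ((Φ₀.coeff i : ↥A) : L)) < 1

variable {PM : Place L FM} {Φ : (↥PM.toValuationSubring)[X]} {Φ₀ : (↥A)[X]}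

theorem Congr.map_residue_eq (h : Congr PM Φ Φ₀) :
    Φ.map (residue ↥PM.toValuationSubring) =
      Φ₀.map ((residue ↥PM.toValuationSubring).comp (constA A PM)) := by
  ext i
  rw [coeff_map, coeff_map, RingHom.comp_apply, ← sub_eq_zero, ← map_sub, residue_eq_zero_iff,
    mem_maximalIdeal_iff PM]
  exact h i

/-- a nonzero constant is a unit at every place -/
theorem isUnit_constA (PM : Place L FM) {x : ↥A} (hx : x ≠ 0) : IsUnit (constA A PM x) := by
  have h0 : (x : L) ≠ 0 := fun h => hx (Subtype.ext h)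
  exact (IsUnit.mk0 _ h0).map (algebraMap L ↥PM.toValuationSubring)

theorem Congr.eval_const_mem (h : Congr PM Φ Φ₀) {x : ↥A} (hx : Φ₀.eval x = 0) :
    Φ.eval (constA A PM x) ∈ maximalIdeal ↥PM.toValuationSubring := by
  rw [← residue_eq_zero_iff, ← eval_map_apply', h.map_residue_eq]
  have : residue ↥PM.toValuationSubring (constA A PM x) =
      ((residue ↥PM.toValuationSubring).comp (constA A PM)) x := rfl
  rw [this, eval_map_apply', hx, map_zero]

theorem Congr.isUnit_derivative_eval_const (h : Congr PM Φ Φ₀) {x : ↥A}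
    (hx : Φ₀.derivative.eval x ≠ 0) : IsUnit (Φ.derivative.eval (constA A PM x)) := by
  rw [← residue_ne_zero_iff_isUnit, ← eval_map_apply', ← derivative_map, h.map_residue_eq,
    derivative_map]
  have : residue ↥PM.toValuationSubring (constA A PM x) =
      ((residue ↥PM.toValuationSubring).comp (constA A PM)) x := rfl
  rw [this, eval_map_apply', RingHom.comp_apply, residue_ne_zero_iff_isUnit]
  exact isUnit_constA PM hx

/-- **The simple-root datum at the constant `x`.** -/
def datum (pb : PowerBasis FM F) (hΦ : Φ.Monic)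
    (hmin : minpoly FM pb.gen = Φ.map (algebraMap ↥PM.toValuationSubring FM))
    (h : Congr PM Φ Φ₀) {x : ↥A} (hx : Φ₀.eval x = 0) (hx' : Φ₀.derivative.eval x ≠ 0) :
    Datum PM.toValuationSubring F :=
  Datum.ofPowerBasis pb Φ (constA A PM x) hΦ hmin (h.eval_const_mem hx)
    (h.isUnit_derivative_eval_const hx')

omit [Algebra L F] [IsScalarTower L FM F] in
@[simp] theorem datum_t (pb : PowerBasis FM F) (hΦ : Φ.Monic)
    (hmin : minpoly FM pb.gen = Φ.map (algebraMap ↥PM.toValuationSubring FM))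
    (h : Congr PM Φ Φ₀) {x : ↥A} (hx : Φ₀.eval x = 0) (hx' : Φ₀.derivative.eval x ≠ 0) :
    (datum pb hΦ hmin h hx hx').t = pb.gen := rfl

theorem algebraMap_datum_a (pb : PowerBasis FM F) (hΦ : Φ.Monic)
    (hmin : minpoly FM pb.gen = Φ.map (algebraMap ↥PM.toValuationSubring FM))
    (h : Congr PM Φ Φ₀) {x : ↥A} (hx : Φ₀.eval x = 0) (hx' : Φ₀.derivative.eval x ≠ 0) :
    algebraMap FM F (((datum pb hΦ hmin h hx hx').a : ↥PM.toValuationSubring) : FM) =
      algebraMap L F (x : L) := by
  show algebraMap FM F (algebraMap L FM (x : L)) = _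
  rw [← IsScalarTower.algebraMap_apply]

/-! ### Part 3: the values of `t` at the places over `PM` are roots of `Φ₀` -/

/-- **A value of `t` at a place over `PM` is a root of `Φ₀`.** -/
theorem value_isRoot (pb : PowerBasis FM F)
    (hmin : minpoly FM pb.gen = Φ.map (algebraMap ↥PM.toValuationSubring FM))
    (h : Congr PM Φ Φ₀) {P' : Place L F}
    (hP' : P'.toValuationSubring.comap (algebraMap FM F) = PM.toValuationSubring) {x' : L}
    (hlt : P'.adicValuation (pb.gen - algebraMap L F x') < 1) :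
    (Φ₀.map (algebraMap ↥A L)).eval x' = 0 := by
  set W := P'.toValuationSubring with hW
  set ρ' := residue ↥W with hρ'
  set ι : ↥PM.toValuationSubring →+* ↥W := Setup.incl hP' with hι
  set c' : L →+* ↥W := algebraMap L ↥W with hc'
  -- `t ∈ W`
  have hd : pb.gen - algebraMap L F x' ∈ W := (mem_iff P' _).mpr hlt.le
  have ht : pb.gen ∈ W := by
    have : pb.gen = (pb.gen - algebraMap L F x') + algebraMap L F x' := by ring
    rw [this]
    exact W.add_mem _ _ hd (P'.algebraMap_mem' x')
  set tW : ↥W := ⟨pb.gen, ht⟩ with htW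
  -- `Φ(t) = 0` in `W`
  have h0 : (Φ.map ι).eval tW = 0 := by
    apply Subtype.ext
    have h1 : (W.subtype : ↥W →+* F) ((Φ.map ι).eval tW) =
        Φ.eval₂ ((W.subtype : ↥W →+* F).comp ι) pb.gen := by
      rw [eval_map, hom_eval₂]
      rfl
    have h2 : Φ.eval₂ ((W.subtype : ↥W →+* F).comp ι) pb.gen =
        aeval pb.gen (Φ.map (algebraMap ↥PM.toValuationSubring FM)) := by
      rw [aeval_def, eval₂_map]
      rfl
    have h3 : (((Φ.map ι).eval tW : ↥W) : F) = (W.subtype : ↥W →+* F) ((Φ.map ι).eval tW) := rfl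
    rw [h3, h1, h2, ← hmin, minpoly.aeval]
    rfl
  -- coefficients
  have hcoef : Φ.map (ρ'.comp ι) = (Φ₀.map (algebraMap ↥A L)).map (ρ'.comp c') := by
    ext i
    rw [coeff_map, coeff_map, coeff_map, RingHom.comp_apply, RingHom.comp_apply, ← sub_eq_zero,
      ← map_sub, residue_eq_zero_iff, ValuationSubring.valuation_lt_one_iff]
    have hcoe : ((ι (Φ.coeff i) - c' (algebraMap ↥A L (Φ₀.coeff i)) : ↥W) : F) =
        algebraMap FM F (((Φ.coeff i : ↥PM.toValuationSubring) : FM) -
          algebraMap L FM ((Φ₀.coeff i : ↥A) : L)) := by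
      rw [map_sub (algebraMap FM F), ← IsScalarTower.algebraMap_apply L FM F]
      rfl
    rw [hcoe, val_alg_lt_one_iff hP', ← adicValuation_lt_one_iff_val]
    exact h i
  -- the value
  have hval : ρ' tW = (ρ'.comp c') x' := by
    rw [RingHom.comp_apply, ← sub_eq_zero, ← map_sub, residue_eq_zero_iff,
      mem_maximalIdeal_iff P']
    exact hlt
  have h4 := congrArg ρ' h0
  rw [map_zero, ← eval_map_apply', Polynomial.map_map, hcoef, hval, eval_map_apply'] at h4
  exact (map_eq_zero_iff _ (ρ'.comp c').injective).mp h4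

/-- a value of `t` at a place over `PM` lies in `A` -/
theorem value_mem (pb : PowerBasis FM F)
    (hmin : minpoly FM pb.gen = Φ.map (algebraMap ↥PM.toValuationSubring FM))
    (h : Congr PM Φ Φ₀) (hΦ₀ : Φ₀.Monic) {P' : Place L F}
    (hP' : P'.toValuationSubring.comap (algebraMap FM F) = PM.toValuationSubring) {x' : L}
    (hlt : P'.adicValuation (pb.gen - algebraMap L F x') < 1) : x' ∈ A := by
  obtain ⟨y, hy⟩ := mem_of_isRoot hΦ₀ (value_isRoot pb hmin h hP' hlt)
  rw [← hy]
  exact y.2

/-- the reduction of a value of `t` at a place over `PM` is a root of `π Φ₀` -/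
theorem map_value_isRoot (pb : PowerBasis FM F)
    (hmin : minpoly FM pb.gen = Φ.map (algebraMap ↥PM.toValuationSubring FM))
    (h : Congr PM Φ Φ₀) {P' : Place L F}
    (hP' : P'.toValuationSubring.comap (algebraMap FM F) = PM.toValuationSubring) {x' : ↥A}
    (hlt : P'.adicValuation (pb.gen - algebraMap L F (x' : L)) < 1) :
    Φ₀.eval x' = 0 ∧ (Φ₀.map π).eval (π x') = 0 := by
  have h1 : Φ₀.eval x' = 0 := eval_eq_zero_of_map (value_isRoot pb hmin h hP' hlt)
  exact ⟨h1, by rw [eval_map_apply', h1, map_zero]⟩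

/-- at a place of degree one over `PM`, `t` has a value; it is a root of `Φ₀` in `A` -/
theorem exists_value (pb : PowerBasis FM F) (hΦ : Φ.Monic)
    (hmin : minpoly FM pb.gen = Φ.map (algebraMap ↥PM.toValuationSubring FM))
    (h : Congr PM Φ Φ₀) (hΦ₀ : Φ₀.Monic) {P' : Place L F} (hdeg : P'.deg = 1)
    (hP' : P'.toValuationSubring.comap (algebraMap FM F) = PM.toValuationSubring) :
    ∃ x' : ↥A, Φ₀.eval x' = 0 ∧ (Φ₀.map π).eval (π x') = 0 ∧
      P'.adicValuation (pb.gen - algebraMap L F (x' : L)) < 1 := by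
  have hint : IsIntegral ↥P'.toValuationSubring pb.gen := by
    refine ⟨Φ.map (Setup.incl hP'), hΦ.map _, ?_⟩
    rw [eval₂_map]
    have h2 : Φ.eval₂ ((algebraMap ↥P'.toValuationSubring F).comp (Setup.incl hP')) pb.gen =
        aeval pb.gen (Φ.map (algebraMap ↥PM.toValuationSubring FM)) := by
      rw [aeval_def, eval₂_map]
      rfl
    rw [h2, ← hmin, minpoly.aeval]
  obtain ⟨y, hy⟩ := IsIntegrallyClosed.isIntegral_iff.mp hint
  have ht : P'.adicValuation pb.gen ≤ 1 := by
    rw [← mem_iff, ← hy]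
    exact y.2
  obtain ⟨c, hc⟩ := Fermat.Agent.S18.A.Riemann.exists_sub_const_lt_one P' hdeg ht
  have hcA : c ∈ A := value_mem pb hmin h hΦ₀ hP' hc
  have := map_value_isRoot π pb hmin h hP' (x' := ⟨c, hcA⟩) hc
  exact ⟨⟨c, hcA⟩, this.1, this.2, hc⟩

/-! ### (FIB) -/

/-- **(FIB)**: over `PM` there is exactly one place at which the value of `t` reduces to the
simple root `ā` of `π Φ₀`; it is unramified over `PM`. -/
theorem exists_place [IsAlgClosed L] [Algebra.IsIntegral FM F] (pb : PowerBasis FM F)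
    (hΦ : Φ.Monic) (hmin : minpoly FM pb.gen = Φ.map (algebraMap ↥PM.toValuationSubring FM))
    (h : Congr PM Φ Φ₀) (hΦ₀ : Φ₀.Monic) {ā : k} (hroot : (Φ₀.map π).eval ā = 0)
    (hsimple : (Φ₀.map π).derivative.eval ā ≠ 0) :
    ∃ P : Place L F, P.restrict FM = PM ∧ Place.ramificationIndex (F := FM) P = 1 ∧
      (∀ g : FM, P.ord (algebraMap FM F g) = PM.ord g) ∧
      (∃ x : ↥A, π x = ā ∧ P.adicValuation (pb.gen - algebraMap L F (x : L)) < 1) ∧
      ∀ P' : Place L F, P'.restrict FM = PM →
        (∃ x' : ↥A, π x' = ā ∧ P'.adicValuation (pb.gen - algebraMap L F (x' : L)) < 1) →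
        P' = P := by
  obtain ⟨x, ⟨hx, hπ⟩, huniq⟩ := existsUnique_root π hΦ₀ hroot hsimple
  have hx' : Φ₀.derivative.eval x ≠ 0 := derivative_eval_ne_zero π hsimple hπ
  set S := datum pb hΦ hmin h hx hx' with hS
  have hlt : (place S).adicValuation (pb.gen - algebraMap L F (x : L)) < 1 := by
    have := adicValuation_place_sub_lt_one S
    rwa [algebraMap_datum_a] at this
  refine ⟨place S, restrict_place S, ramificationIndex_place S, ord_place_algebraMap S,
    ⟨x, hπ, hlt⟩, ?_⟩
  rintro P' hP' ⟨x', hπ', hlt'⟩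
  have hcomap : P'.toValuationSubring.comap (algebraMap FM F) = PM.toValuationSubring := by
    rw [← Place.restrict_toValuationSubring, hP']
  have hx'root := (map_value_isRoot π pb hmin h hcomap hlt').1
  have hxx : x' = x := huniq x' ⟨hx'root, hπ'⟩
  subst hxx
  apply eq_place_of_restrict S hP'
  rw [algebraMap_datum_a]
  exact hlt'

end Place

end Fermat.Agent.S34.SimpleRootLift
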