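/-
PROJECT U (S34/S35): **the Atkin-Lehner involution `w_q` of `ℚ̄(X₀(N ℓ))` is defined over `ℚ`.**

* `wq N ℓ hℓ hℓN : E ≃ₐ[ℚ̄] E` (`E = ℚ̄(X₀(N ℓ))`, `ℓ` prime, `ℓ ∤ N`), a choice from
  `S34/AtkinLehner.exists_wq`, with `wq_alpha : w (α g) = β g`, `wq_beta : w (β g) = α g`,
  `wq_wq : w (w x) = x`, `wq_jl : w (j_ℓ) = α j`, `wq_alpha_jgen : w (α j) = j_ℓ`;
* `ringHom_ext_alpha_beta` : a ring homomorphism out of `E` is determined by its values on the
  constants, on `α(F)` and on `β(F)` (`F = ℚ̄(X₀(N))`); `wq_unique`;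
* `smul_wq` : `σ_E (w x) = w (σ_E x)` for every `σ ∈ Gal(ℚ̄/ℚ)` (coefficientwise action);
* `smul_comap_wq` : `σ_E • (V.comap w) = (σ_E • V).comap w` for valuation subrings `V` of `E`, so
  Galois-stability passes from `V` to `V.comap w`; `smul_comap_wq_eq` .
-/
import Mathlib
import Fermat.Agent.S34.AtkinLehner
import Fermat.Agent.S34.PowerBasisX0
import Fermat.Agent.S30.Arith.HeckeGalois

set_option autoImplicit false
set_option linter.unusedSectionVars false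

noncomputable section

namespace Fermat.Agent.S34.WqGalois

open ModularCurve AlgebraicCurve IntermediateField
open Fermat.Agent.S24.DegreeAlg Fermat.Agent.S34.AtkinLehner Fermat.Agent.S34.PowerBasisX0

open scoped Pointwise

local notation "Kb" => AlgebraicClosure ℚ

variable {N ℓ : ℕ} [NeZero N] [NeZero ℓ]

/-! ### The chosen involution -/

/-- **The Atkin-Lehner involution** `w_ℓ` of `ℚ̄(X₀(N ℓ))` (`ℓ` prime, `ℓ ∤ N`). -/
def wq (N ℓ : ℕ) [NeZero N] [NeZero ℓ] (hℓ : ℓ.Prime) (hℓN : ¬ ℓ ∣ N) :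
    ↥(modularFunctionFieldBar (N * ℓ)) ≃ₐ[Kb] ↥(modularFunctionFieldBar (N * ℓ)) :=
  Classical.choose (exists_wq (N := N) hℓ hℓN)

variable (hℓ : ℓ.Prime) (hℓN : ¬ ℓ ∣ N)

theorem wq_alpha (g : ↥(modularFunctionFieldBar N)) :
    wq N ℓ hℓ hℓN (heckeAlphaBar Kb N ℓ g) = heckeBetaBar Kb N ℓ g :=
  (Classical.choose_spec (exists_wq (N := N) hℓ hℓN)).1 g

theorem wq_beta (g : ↥(modularFunctionFieldBar N)) :
    wq N ℓ hℓ hℓN (heckeBetaBar Kb N ℓ g) = heckeAlphaBar Kb N ℓ g :=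
  (Classical.choose_spec (exists_wq (N := N) hℓ hℓN)).2.1 g

theorem wq_wq (x : ↥(modularFunctionFieldBar (N * ℓ))) :
    wq N ℓ hℓ hℓN (wq N ℓ hℓ hℓN x) = x :=
  (Classical.choose_spec (exists_wq (N := N) hℓ hℓN)).2.2.1 x

theorem wq_symm : (wq N ℓ hℓ hℓN).symm = wq N ℓ hℓ hℓN := by
  refine AlgEquiv.ext fun x => ?_
  rw [AlgEquiv.symm_apply_eq, wq_wq]

/-- `w_ℓ` as a ring homomorphism -/
def wqHom (N ℓ : ℕ) [NeZero N] [NeZero ℓ] (hℓ : ℓ.Prime) (hℓN : ¬ ℓ ∣ N) :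
    ↥(modularFunctionFieldBar (N * ℓ)) →+* ↥(modularFunctionFieldBar (N * ℓ)) :=
  (wq N ℓ hℓ hℓN).toRingEquiv.toRingHom

@[simp] theorem wqHom_apply (x : ↥(modularFunctionFieldBar (N * ℓ))) :
    wqHom N ℓ hℓ hℓN x = wq N ℓ hℓ hℓN x := rfl

theorem wq_jl : wq N ℓ hℓ hℓN (jl N ℓ) = heckeAlphaBar Kb N ℓ (jgen N) := by
  rw [jl, wq_beta]

theorem wq_alpha_jgen : wq N ℓ hℓ hℓN (heckeAlphaBar Kb N ℓ (jgen N)) = jl N ℓ := by
  rw [jl, wq_alpha]

/-! ### Ring homomorphisms out of `E` are determined on constants, `α(F)` and `β(F)` -/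

include hℓ in
theorem ringHom_ext_alpha_beta {E' : Type*} [DivisionRing E']
    (φ ψ : ↥(modularFunctionFieldBar (N * ℓ)) →+* E')
    (hc : ∀ c : Kb, φ (algebraMap Kb ↥(modularFunctionFieldBar (N * ℓ)) c) =
      ψ (algebraMap Kb ↥(modularFunctionFieldBar (N * ℓ)) c))
    (hα : ∀ g : ↥(modularFunctionFieldBar N),
      φ (heckeAlphaBar Kb N ℓ g) = ψ (heckeAlphaBar Kb N ℓ g))
    (hβ : ∀ g : ↥(modularFunctionFieldBar N),
      φ (heckeBetaBar Kb N ℓ g) = ψ (heckeBetaBar Kb N ℓ g)) : φ = ψ := by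
  let L : IntermediateField Kb ↥(modularFunctionFieldBar (N * ℓ)) :=
    Subfield.toIntermediateField (RingHom.eqLocusField φ ψ) hc
  have htop : (⊤ : IntermediateField Kb ↥(modularFunctionFieldBar (N * ℓ))) ≤ L := by
    rw [← adjoin_range_jdivF_eq_top (N * ℓ), adjoin_le_iff]
    rintro _ ⟨d, rfl⟩
    show φ (jdivF (N * ℓ) d) = ψ (jdivF (N * ℓ) d)
    rcases jdivF_mul_cases hℓ d with ⟨d', h⟩ | ⟨d', h⟩
    · rw [h, hα]
    · rw [h, hβ]
  ext x
  exact htop (IntermediateField.mem_top (x := x))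

/-- uniqueness of the Atkin-Lehner involution -/
theorem wq_unique
    (w : ↥(modularFunctionFieldBar (N * ℓ)) →ₐ[Kb] ↥(modularFunctionFieldBar (N * ℓ)))
    (hα : ∀ g : ↥(modularFunctionFieldBar N),
      w (heckeAlphaBar Kb N ℓ g) = heckeBetaBar Kb N ℓ g)
    (hβ : ∀ g : ↥(modularFunctionFieldBar N),
      w (heckeBetaBar Kb N ℓ g) = heckeAlphaBar Kb N ℓ g)
    (x : ↥(modularFunctionFieldBar (N * ℓ))) : w x = wq N ℓ hℓ hℓN x := by
  have h := ringHom_ext_alpha_beta (N := N) hℓ w.toRingHom (wqHom N ℓ hℓ hℓN)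
    (fun c => by
      show w (algebraMap Kb _ c) = wq N ℓ hℓ hℓN (algebraMap Kb _ c)
      rw [AlgHom.commutes, AlgEquiv.commutes])
    (fun g => by
      show w _ = wq N ℓ hℓ hℓN _
      rw [hα, wq_alpha])
    (fun g => by
      show w _ = wq N ℓ hℓ hℓN _
      rw [hβ, wq_beta])
  exact DFunLike.congr_fun h x

/-! ### `w_ℓ` commutes with the Galois action -/

/-- **`w_ℓ` is defined over `ℚ`**: it commutes with the coefficientwise action of `Gal(ℚ̄/ℚ)`. -/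
theorem smul_wq (σ : Kb ≃ₐ[ℚ] Kb) (x : ↥(modularFunctionFieldBar (N * ℓ))) :
    arithmeticGalois (modularFunctionFieldFull (N * ℓ)) σ • wq N ℓ hℓ hℓN x =
      wq N ℓ hℓ hℓN (arithmeticGalois (modularFunctionFieldFull (N * ℓ)) σ • x) := by
  set gE := arithmeticGalois (modularFunctionFieldFull (N * ℓ)) σ with hgE
  set gF := arithmeticGalois (modularFunctionFieldFull N) σ with hgF
  have hα : ∀ g : ↥(modularFunctionFieldBar N),
      gE • heckeAlphaBar Kb N ℓ g = heckeAlphaBar Kb N ℓ (gF • g) :=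
    fun g => Fermat.Agent.S30.Arith.HeckeGalois.intertwines_alpha (L := Kb) N ℓ σ g
  have hβ : ∀ g : ↥(modularFunctionFieldBar N),
      gE • heckeBetaBar Kb N ℓ g = heckeBetaBar Kb N ℓ (gF • g) :=
    fun g => Fermat.Agent.S30.Arith.HeckeGalois.intertwines_beta (L := Kb) N ℓ σ g
  have h := ringHom_ext_alpha_beta (N := N) hℓ
    ((SemilinearAut.toRingAut gE).toRingHom.comp (wqHom N ℓ hℓ hℓN))
    ((wqHom N ℓ hℓ hℓN).comp (SemilinearAut.toRingAut gE).toRingHom)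
    (fun c => by
      show SemilinearAut.toRingAut gE (wq N ℓ hℓ hℓN (algebraMap Kb _ c)) =
        wq N ℓ hℓ hℓN (SemilinearAut.toRingAut gE (algebraMap Kb _ c))
      rw [AlgEquiv.commutes, SemilinearAut.commutes, AlgEquiv.commutes])
    (fun g => by
      show gE • wq N ℓ hℓ hℓN (heckeAlphaBar Kb N ℓ g) =
        wq N ℓ hℓ hℓN (gE • heckeAlphaBar Kb N ℓ g)
      rw [wq_alpha, hβ, hα, wq_alpha])
    (fun g => by
      show gE • wq N ℓ hℓ hℓN (heckeBetaBar Kb N ℓ g) =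
        wq N ℓ hℓ hℓN (gE • heckeBetaBar Kb N ℓ g)
      rw [wq_beta, hα, hβ, wq_beta])
  exact DFunLike.congr_fun h x

theorem inv_smul_wq (σ : Kb ≃ₐ[ℚ] Kb) (x : ↥(modularFunctionFieldBar (N * ℓ))) :
    (arithmeticGalois (modularFunctionFieldFull (N * ℓ)) σ)⁻¹ • wq N ℓ hℓ hℓN x =
      wq N ℓ hℓ hℓN ((arithmeticGalois (modularFunctionFieldFull (N * ℓ)) σ)⁻¹ • x) := by
  rw [← map_inv]
  exact smul_wq hℓ hℓN σ⁻¹ x

/-! ### Transport of valuation subrings along `w_ℓ` -/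

/-- `V ↦ w⁻¹(V)` commutes with the Galois action on valuation subrings of `E`. -/
theorem smul_comap_wq (σ : Kb ≃ₐ[ℚ] Kb)
    (V : ValuationSubring ↥(modularFunctionFieldBar (N * ℓ))) :
    arithmeticGalois (modularFunctionFieldFull (N * ℓ)) σ •
        V.comap (wqHom N ℓ hℓ hℓN) =
      (arithmeticGalois (modularFunctionFieldFull (N * ℓ)) σ • V).comap (wqHom N ℓ hℓ hℓN) := by
  ext x
  rw [ValuationSubring.mem_pointwise_smul_iff_inv_smul_mem, ValuationSubring.mem_comap,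
    ValuationSubring.mem_comap, ValuationSubring.mem_pointwise_smul_iff_inv_smul_mem]
  show wq N ℓ hℓ hℓN _ ∈ V ↔ _ • wq N ℓ hℓ hℓN x ∈ V
  rw [inv_smul_wq]

/-- Galois-stability passes from `V` to `V.comap w`. -/
theorem smul_comap_wq_eq (σ : Kb ≃ₐ[ℚ] Kb)
    {V : ValuationSubring ↥(modularFunctionFieldBar (N * ℓ))}
    (hV : arithmeticGalois (modularFunctionFieldFull (N * ℓ)) σ • V = V) :
    arithmeticGalois (modularFunctionFieldFull (N * ℓ)) σ •
        V.comap (wqHom N ℓ hℓ hℓN) = V.comap (wqHom N ℓ hℓ hℓN) := by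
  rw [smul_comap_wq, hV]

end Fermat.Agent.S34.WqGalois
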