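/-
PROJECT U (S34): the `β`-side twin of `S34/PowerBasisX0`.

`E = ℚ̄(X₀(N ℓ))` is also an extension of `F = ℚ̄(X₀(N))` along `β = heckeBetaBar` (`g(t) ↦ g(t^ℓ)`),
of degree `ℓ + 1`; for this structure `α j = j(t)` is a primitive element, and its minimal
polynomial over `F` is THE SAME modular polynomial `Φ_ℓ(X, j) = modPolyF N Φ` as on the `α`-side
(transport along the Atkin-Lehner involution `S34/WqGalois.wq`, which swaps `α` and `β`; no symmetry
of `Φ_ℓ` is used).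

* `aeval_alpha_jgen_modPolyF`, `minpoly_alpha_jgen`, `natDegree_minpoly_alpha_jgen`,
  `adjoin_alpha_jgen_eq_top`, `finite_beta`, `pbX0Beta`, `pbX0Beta_gen`.
-/
import Mathlib
import Fermat.Agent.S34.PowerBasisX0
import Fermat.Agent.S34.WqGalois
import Fermat.Agent.S34.TwoExt

set_option autoImplicit false
set_option linter.unusedSectionVars false
set_option linter.style.haveILetI false

noncomputable section

namespace Fermat.Agent.S34.PowerBasisX0Beta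

open Polynomial ModularCurve AlgebraicCurve IntermediateField
open Fermat.Agent.S28.ModPoly Fermat.Agent.S24.DegreeAlg
open Fermat.Agent.S34.PowerBasisX0 Fermat.Agent.S34.WqGalois

local notation "Kb" => AlgebraicClosure ℚ

variable {N ℓ : ℕ} [NeZero N] [NeZero ℓ]

/-- evaluation along `β` is the `w`-transport of evaluation along `α` -/
theorem eval₂_beta_eq (hℓ : ℓ.Prime) (hℓN : ¬ ℓ ∣ N)
    (P : Polynomial ↥(modularFunctionFieldBar N)) (x : ↥(modularFunctionFieldBar (N * ℓ))) :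
    P.eval₂ ((heckeBetaBar Kb N ℓ : _ →ₐ[Kb] ↥(modularFunctionFieldBar (N * ℓ))) : _ →+* _)
        (wq N ℓ hℓ hℓN x) =
      wq N ℓ hℓ hℓN
        (P.eval₂ ((heckeAlphaBar Kb N ℓ : _ →ₐ[Kb] ↥(modularFunctionFieldBar (N * ℓ))) : _ →+* _)
          x) := by
  have h := Polynomial.hom_eval₂ P
    ((heckeAlphaBar Kb N ℓ : _ →ₐ[Kb] ↥(modularFunctionFieldBar (N * ℓ))) : _ →+* _)
    (wqHom N ℓ hℓ hℓN) x
  rw [wqHom_apply, wqHom_apply] at h
  rw [h]
  congr 1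
  refine RingHom.ext fun g => ?_
  exact (wq_alpha hℓ hℓN g).symm

/-- evaluation along `α` is the `w`-transport of evaluation along `β` -/
theorem eval₂_alpha_eq (hℓ : ℓ.Prime) (hℓN : ¬ ℓ ∣ N)
    (P : Polynomial ↥(modularFunctionFieldBar N)) (x : ↥(modularFunctionFieldBar (N * ℓ))) :
    P.eval₂ ((heckeAlphaBar Kb N ℓ : _ →ₐ[Kb] ↥(modularFunctionFieldBar (N * ℓ))) : _ →+* _)
        (wq N ℓ hℓ hℓN x) =
      wq N ℓ hℓ hℓN
        (P.eval₂ ((heckeBetaBar Kb N ℓ : _ →ₐ[Kb] ↥(modularFunctionFieldBar (N * ℓ))) : _ →+* _)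
          x) := by
  have h := Polynomial.hom_eval₂ P
    ((heckeBetaBar Kb N ℓ : _ →ₐ[Kb] ↥(modularFunctionFieldBar (N * ℓ))) : _ →+* _)
    (wqHom N ℓ hℓ hℓN) x
  rw [wqHom_apply, wqHom_apply] at h
  rw [h]
  congr 1
  refine RingHom.ext fun g => ?_
  exact (wq_beta hℓ hℓN g).symm

/-- `Φ_ℓ(α j, j) = 0` for the `β`-structure: `Φ_ℓ(j(t), j(t^ℓ)) = 0`. -/
theorem aeval_alpha_jgen_modPolyF (hℓ : ℓ.Prime) (hℓN : ¬ ℓ ∣ N) {Φ : Polynomial (Polynomial ℤ)}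
    (hΦ : Φ.map (evalL ℤ (jqModC ℤ)) = rPoly ℓ ℤ) :
    letI := algebraAlong (heckeBetaBar Kb N ℓ)
    aeval (heckeAlphaBar Kb N ℓ (jgen N)) (modPolyF N Φ) = 0 := by
  letI algFE := algebraAlong (heckeBetaBar Kb N ℓ)
  have h0 : (modPolyF N Φ).eval₂
      ((heckeAlphaBar Kb N ℓ : _ →ₐ[Kb] ↥(modularFunctionFieldBar (N * ℓ))) : _ →+* _)
      (jl N ℓ) = 0 := by
    have := aeval_jl_modPolyF (N := N) (ℓ := ℓ) hΦ
    exact this
  have h1 := eval₂_beta_eq hℓ hℓN (modPolyF N Φ) (jl N ℓ)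
  rw [h0, map_zero, wq_jl] at h1
  exact h1

/-- **The minimal polynomial of `α j` over `F` along `β` is the modular polynomial `Φ_ℓ(X, j)`.** -/
theorem minpoly_alpha_jgen (hℓ : ℓ.Prime) (hℓN : ¬ ℓ ∣ N) {Φ : Polynomial (Polynomial ℤ)}
    (hmonic : Φ.Monic) (hdeg : Φ.natDegree = ℓ + 1)
    (hΦ : Φ.map (evalL ℤ (jqModC ℤ)) = rPoly ℓ ℤ) :
    letI := algebraAlong (heckeBetaBar Kb N ℓ)
    minpoly ↥(modularFunctionFieldBar N) (heckeAlphaBar Kb N ℓ (jgen N)) = modPolyF N Φ := by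
  letI algβ := algebraAlong (heckeBetaBar Kb N ℓ)
  have hfr : Module.finrank ↥(modularFunctionFieldBar N) ↥(modularFunctionFieldBar (N * ℓ))
      = ℓ + 1 := Fermat.Agent.S37.ES.DegreeBeta.finrankAlong_beta N hℓ hℓN
  haveI hfin : Module.Finite ↥(modularFunctionFieldBar N) ↥(modularFunctionFieldBar (N * ℓ)) :=
    FiniteDimensional.of_finrank_pos (by rw [hfr]; omega)
  have hint : IsIntegral ↥(modularFunctionFieldBar N) (heckeAlphaBar Kb N ℓ (jgen N)) :=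
    IsIntegral.of_finite _ _
  set m := minpoly ↥(modularFunctionFieldBar N) (heckeAlphaBar Kb N ℓ (jgen N)) with hm
  -- `m ∣ Φ(X, j)`
  have hdvd : m ∣ modPolyF N Φ := minpoly.dvd _ _ (aeval_alpha_jgen_modPolyF hℓ hℓN hΦ)
  -- `Φ(X, j) ∣ m`: transport `m(α j) = 0` back along `w`
  have hm0 : m.eval₂
      ((heckeBetaBar Kb N ℓ : _ →ₐ[Kb] ↥(modularFunctionFieldBar (N * ℓ))) : _ →+* _)
      (heckeAlphaBar Kb N ℓ (jgen N)) = 0 := minpoly.aeval _ _
  have h1 := eval₂_alpha_eq hℓ hℓN m (heckeAlphaBar Kb N ℓ (jgen N))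
  rw [hm0, map_zero, wq_alpha_jgen] at h1
  have hdvd' : modPolyF N Φ ∣ m := by
    have hmin := minpoly_jl (N := N) hℓ hℓN hmonic hdeg hΦ
    have h2 : @minpoly ↥(modularFunctionFieldBar N) ↥(modularFunctionFieldBar (N * ℓ)) _ _
        (algebraAlong (heckeAlphaBar Kb N ℓ)) (jl N ℓ) ∣ m :=
      @minpoly.dvd ↥(modularFunctionFieldBar N) ↥(modularFunctionFieldBar (N * ℓ)) _ _
        (algebraAlong (heckeAlphaBar Kb N ℓ)) (jl N ℓ) m h1
    rwa [hmin] at h2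
  exact Polynomial.eq_of_monic_of_associated (minpoly.monic hint) (modPolyF_monic hmonic)
    (associated_of_dvd_dvd hdvd hdvd')

theorem natDegree_minpoly_alpha_jgen (hℓ : ℓ.Prime) (hℓN : ¬ ℓ ∣ N) :
    letI := algebraAlong (heckeBetaBar Kb N ℓ)
    (minpoly ↥(modularFunctionFieldBar N) (heckeAlphaBar Kb N ℓ (jgen N))).natDegree = ℓ + 1 := by
  haveI : Fact ℓ.Prime := ⟨hℓ⟩
  obtain ⟨Φ, hmonic, hdeg, hΦ, -⟩ := Fermat.Agent.S34.Kronecker.kronecker ℓ
  rw [minpoly_alpha_jgen hℓ hℓN hmonic hdeg hΦ, natDegree_modPolyF hmonic, hdeg]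

include N in
theorem finite_beta (hℓ : ℓ.Prime) (hℓN : ¬ ℓ ∣ N) :
    letI := algebraAlong (heckeBetaBar Kb N ℓ)
    Module.Finite ↥(modularFunctionFieldBar N) ↥(modularFunctionFieldBar (N * ℓ)) := by
  letI algβ := algebraAlong (heckeBetaBar Kb N ℓ)
  have hfr : Module.finrank ↥(modularFunctionFieldBar N) ↥(modularFunctionFieldBar (N * ℓ))
      = ℓ + 1 := Fermat.Agent.S37.ES.DegreeBeta.finrankAlong_beta N hℓ hℓN
  exact FiniteDimensional.of_finrank_pos (by rw [hfr]; omega)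

/-- **`α j` generates `E` over `F` along `β`.** -/
theorem adjoin_alpha_jgen_eq_top (hℓ : ℓ.Prime) (hℓN : ¬ ℓ ∣ N) :
    letI := algebraAlong (heckeBetaBar Kb N ℓ)
    IntermediateField.adjoin ↥(modularFunctionFieldBar N) {heckeAlphaBar Kb N ℓ (jgen N)} = ⊤ := by
  letI algβ := algebraAlong (heckeBetaBar Kb N ℓ)
  have hfr : Module.finrank ↥(modularFunctionFieldBar N) ↥(modularFunctionFieldBar (N * ℓ))
      = ℓ + 1 := Fermat.Agent.S37.ES.DegreeBeta.finrankAlong_beta N hℓ hℓN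
  haveI hfin : Module.Finite ↥(modularFunctionFieldBar N) ↥(modularFunctionFieldBar (N * ℓ)) :=
    FiniteDimensional.of_finrank_pos (by rw [hfr]; omega)
  rw [Field.primitive_element_iff_minpoly_natDegree_eq, hfr]
  exact natDegree_minpoly_alpha_jgen hℓ hℓN

/-- `α j` is integral over `F` along `β`. -/
theorem isIntegral_alpha_jgen (hℓ : ℓ.Prime) (hℓN : ¬ ℓ ∣ N) :
    letI := algebraAlong (heckeBetaBar Kb N ℓ)
    IsIntegral ↥(modularFunctionFieldBar N) (heckeAlphaBar Kb N ℓ (jgen N)) := by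
  letI algβ := algebraAlong (heckeBetaBar Kb N ℓ)
  haveI := finite_beta (N := N) hℓ hℓN
  exact IsIntegral.of_finite _ _

/-- The power basis `1, α j, …, (α j)^ℓ` of `E / F` along `β`. -/
def pbX0Beta (hℓ : ℓ.Prime) (hℓN : ¬ ℓ ∣ N) :
    letI := algebraAlong (heckeBetaBar Kb N ℓ)
    PowerBasis ↥(modularFunctionFieldBar N) ↥(modularFunctionFieldBar (N * ℓ)) :=
  letI := algebraAlong (heckeBetaBar Kb N ℓ)
  Fermat.Agent.S34.TwoExt.Setup.powerBasisOfAdjoinEqTop (isIntegral_alpha_jgen hℓ hℓN)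
    (adjoin_alpha_jgen_eq_top hℓ hℓN)

theorem pbX0Beta_gen (hℓ : ℓ.Prime) (hℓN : ¬ ℓ ∣ N) :
    letI := algebraAlong (heckeBetaBar Kb N ℓ)
    (pbX0Beta (N := N) hℓ hℓN).gen = heckeAlphaBar Kb N ℓ (jgen N) := by
  letI := algebraAlong (heckeBetaBar Kb N ℓ)
  exact Fermat.Agent.S34.TwoExt.Setup.powerBasisOfAdjoinEqTop_gen _ _

end Fermat.Agent.S34.PowerBasisX0Beta
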