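import Mathlib
import Fermat.Agent.S37.Deuring.Core

/-!
# PROJECT U (S34): level-`M` surjectivity of the reduction with prescribed poles

Abstract setting of `S37/Deuring/Core.lean`: a Gauss datum `G` (valuation ring `O` of `FL` above
`(L, A)`, reduction `red : O → Fk`) satisfying Deuring's hypotheses `H : Hyp G gL gk`, with Deuring's
place map `r = placeMap H`.  For a Gauss-integral function `u` with `red u ≠ 0` such that
`deg (u)_∞ ≤ deg (red u)_∞` (e.g. `[FL : L(u)] ≤ [Fk : k(red u)]`):

* `mapDomain_poleDiv` : `r_* (u)_∞ = (red u)_∞`;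
* `redSpace_nsmul_poleDiv` : for all large `m`, the reduction of `L(m (u)_∞) ∩ O` is **all** of
  `L(m (red u)_∞)`;
* `exists_lift_of_poles` : every `ȳ ∈ Fk` whose poles are among the poles of `red u` is `red f`
  for some `f ∈ O` whose poles are among the poles of `u` (poles at the `L`-places themselves, not
  in their residue discs);
* `placeMap_surjective` : Deuring's place map is onto (when `red` is).

These are the "level-`M` surjectivity" inputs of the affine sandwich of Project U (chart `u = j`: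
poles at the cusps; chart `u = j⁻¹`: poles over `j = 0`).
-/

set_option autoImplicit false
set_option linter.unusedSectionVars false

noncomputable section

namespace Fermat.Agent.S34.LevelMSurj

open AlgebraicCurve Fermat.Agent.S18.NonSpecial Fermat.Agent.S37.Deuring.Core

/-! ### generalities on `mapDomain` of divisors -/

section General

variable {K : Type*} [Field K] {F : Type*} [Field F] [Algebra K F]
variable {K' : Type*} [Field K'] {F' : Type*} [Field F'] [Algebra K' F']

/-- the push-forward of an effective divisor is effective -/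
theorem mapDomain_nonneg (r : Place K F → Place K' F') {D : Divisor K F} (hD : 0 ≤ D) :
    0 ≤ Finsupp.mapDomain r D := by
  classical
  rw [Finsupp.mapDomain, Finsupp.sum]
  refine Finset.sum_nonneg fun P _ => ?_
  rw [Finsupp.le_def]
  intro Q
  have := Finsupp.le_def.mp hD P
  simp only [Finsupp.coe_zero, Pi.zero_apply] at this
  rw [Finsupp.single_apply]
  split_ifs
  · simpa using this
  · simp

/-- a degree-preserving map of places preserves the degree of divisors -/
theorem degree_mapDomain (r : Place K F → Place K' F') (hr : ∀ P, (r P).deg = P.deg)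
    (D : Divisor K F) : Divisor.degree (Finsupp.mapDomain r D) = Divisor.degree D := by
  induction D using Finsupp.induction with
  | zero => simp
  | single_add P n D _ _ ih =>
    rw [Finsupp.mapDomain_add, map_add, map_add, ih, Finsupp.mapDomain_single,
      Divisor.degree_single, Divisor.degree_single, hr]

end General

variable {L : Type*} [Field L] {k : Type*} [Field k]
variable {A : ValuationSubring L} {π : A →+* k}
variable {FL : Type*} [Field FL] [Algebra L FL] {Fk : Type*} [Field Fk] [Algebra k Fk]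
variable {G : GaussDatum A π FL Fk} {gL gk : ℕ}
variable [HasPrincipalDivisors L FL] [HasPrincipalDivisors k Fk] [Infinite k]

/-- an element of `O` with nonzero reduction, as a unit of `O` -/
def unitOf (G : GaussDatum A π FL Fk) (u : G.O) (hu : G.red u ≠ 0) : G.Oˣ :=
  (not_not.mp (mt (G.red_eq_zero_iff u).mpr hu)).unit

@[simp] theorem coe_unitOf (u : G.O) (hu : G.red u ≠ 0) : ((unitOf G u hu : G.Oˣ) : G.O) = u :=
  IsUnit.unit_spec _

/-- **`r_* (u)_∞ = (red u)_∞`** for a Gauss-integral `u` with nonzero reduction, as soon as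
`deg (u)_∞ ≤ deg (red u)_∞`. -/
theorem mapDomain_poleDiv (H : Hyp G gL gk) (u : G.O) (hu : G.red u ≠ 0)
    {Du : Divisor L FL} {Dy : Divisor k Fk} (hDu : IsPoleDiv ((u : G.O) : FL) Du)
    (hDy : IsPoleDiv (G.red u) Dy) (hdeg : Divisor.degree Du ≤ Divisor.degree Dy) :
    Finsupp.mapDomain (placeMap H) Du = Dy := by
  classical
  set r := placeMap H with hr
  have hu0 : ((u : G.O) : FL) ≠ 0 := by
    have := coe_unit_ne_zero (unitOf G u hu)
    rwa [coe_unitOf] at this
  obtain ⟨D, hD, -⟩ := HasPrincipalDivisors.exists_divisor (K := L) ((u : G.O) : FL) hu0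
  -- the divisor of zeros
  set Z : Divisor L FL := D + Du with hZ
  have hZ0 : 0 ≤ Z := by
    rw [Finsupp.le_def]
    intro v
    rw [hZ, Finsupp.add_apply, hD v, hDu v]
    simp only [Finsupp.coe_zero, Pi.zero_apply]
    omega
  have hcompat : ∀ Q, Finsupp.mapDomain r D Q = Q.ord (G.red u) := by
    intro Q
    have := mapDomain_placeMap_div H (unitOf G u hu) D (fun P => by rw [coe_unitOf]; exact hD P) Q
    rwa [coe_unitOf] at this
  have hle : Dy ≤ Finsupp.mapDomain r Du := by
    rw [Finsupp.le_def]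
    intro Q
    have h1 : Finsupp.mapDomain r Z Q = Finsupp.mapDomain r D Q + Finsupp.mapDomain r Du Q := by
      rw [hZ, Finsupp.mapDomain_add, Finsupp.add_apply]
    have h2 := Finsupp.le_def.mp (mapDomain_nonneg r hZ0) Q
    have h3 := Finsupp.le_def.mp (mapDomain_nonneg r hDu.nonneg) Q
    simp only [Finsupp.coe_zero, Pi.zero_apply] at h2 h3
    rw [hDy Q, ← hcompat Q]
    omega
  have hdeg' : Divisor.degree (Finsupp.mapDomain r Du) = Divisor.degree Du :=
    degree_mapDomain r (deg_placeMap H) Du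
  refine (eq_of_le_of_degree_eq H.riemannK.deg_one hle ?_).symm
  have := degree_le_of_le hle
  omega

/-- the push-forward of divisors is monotone -/
theorem mapDomain_mono {K : Type*} [Field K] {F : Type*} [Field F] [Algebra K F]
    {K' : Type*} [Field K'] {F' : Type*} [Field F'] [Algebra K' F']
    (r : Place K F → Place K' F') {D D' : Divisor K F} (h : D ≤ D') :
    Finsupp.mapDomain r D ≤ Finsupp.mapDomain r D' := by
  have h1 := mapDomain_nonneg r (sub_nonneg.mpr h)
  have h2 : Finsupp.mapDomain r (D' - D) = Finsupp.mapDomain r D' - Finsupp.mapDomain r D := by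
    rw [← Finsupp.mapDomain.addMonoidHom_apply, map_sub, Finsupp.mapDomain.addMonoidHom_apply,
      Finsupp.mapDomain.addMonoidHom_apply]
  rw [h2] at h1
  exact sub_nonneg.mp h1

/-- **Pole control at level `M`**: the reduction of `L(D) ∩ O` lies in `L(r_* D)`, for every
divisor `D`. -/
theorem redSpace_le_mapDomain (H : Hyp G gL gk) (D : Divisor L FL) :
    G.redSpace D ≤ riemannRochSpace (Finsupp.mapDomain (placeMap H) D) := by
  classical
  rintro _ ⟨f, hf, rfl⟩
  by_cases hu : G.red f = 0
  · rw [hu]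
    exact Submodule.zero_mem _
  have hf0 : ((f : G.O) : FL) ≠ 0 := by
    have := coe_unit_ne_zero (unitOf G f hu)
    rwa [coe_unitOf] at this
  obtain ⟨Df, hDf, -⟩ := HasPrincipalDivisors.exists_divisor (K := L) ((f : G.O) : FL) hf0
  have hcompat : ∀ Q, Finsupp.mapDomain (placeMap H) Df Q = Q.ord (G.red f) := by
    intro Q
    have := mapDomain_placeMap_div H (unitOf G f hu) Df
      (fun P => by rw [coe_unitOf]; exact hDf P) Q
    rwa [coe_unitOf] at this
  have hle : -D ≤ Df := by
    rw [Finsupp.le_def]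
    intro P
    have := ((mem_riemannRochSpace_iff.mp hf) P).resolve_left hf0
    rw [Finsupp.neg_apply, hDf P]
    exact this
  have h1 := mapDomain_mono (placeMap H) hle
  have h2 : Finsupp.mapDomain (placeMap H) (-D) = - Finsupp.mapDomain (placeMap H) D := by
    rw [← Finsupp.mapDomain.addMonoidHom_apply, map_neg, Finsupp.mapDomain.addMonoidHom_apply]
  rw [h2] at h1
  rw [mem_riemannRochSpace_iff]
  intro Q
  right
  have := Finsupp.le_def.mp h1 Q
  rw [Finsupp.neg_apply, hcompat Q] at this
  exact this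

/-- Deuring's place map is onto, when `red` is. -/
theorem placeMap_surjective (H : Hyp G gL gk) (hsurj : Function.Surjective G.red) :
    Function.Surjective (placeMap H) := by
  classical
  intro Q
  obtain ⟨t, ht0, ht⟩ := Fermat.Agent.S18.A.Riemann.exists_uniformizer Q
  obtain ⟨u, rfl⟩ := hsurj t
  have hu0 : ((u : G.O) : FL) ≠ 0 := by
    have := coe_unit_ne_zero (unitOf G u ht0)
    rwa [coe_unitOf] at this
  obtain ⟨D, hD, -⟩ := HasPrincipalDivisors.exists_divisor (K := L) ((u : G.O) : FL) hu0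
  have h := mapDomain_placeMap_div H (unitOf G u ht0) D
    (fun P => by rw [coe_unitOf]; exact hD P) Q
  rw [coe_unitOf, ht] at h
  by_contra hQ
  rw [Finsupp.mapDomain_of_notMem_range _ _ hQ] at h
  exact zero_ne_one h

/-- **Reduction of `L(m (u)_∞) ∩ O` is all of `L(m (red u)_∞)`** for all large `m`. -/
theorem redSpace_nsmul_poleDiv (H : Hyp G gL gk) (u : G.O) (hu : G.red u ≠ 0)
    {Du : Divisor L FL} {Dy : Divisor k Fk} (hDu : IsPoleDiv ((u : G.O) : FL) Du)
    (hDy : IsPoleDiv (G.red u) Dy) (hdeg : Divisor.degree Du ≤ Divisor.degree Dy)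
    (hpos : 0 < Divisor.degree Du) :
    ∃ m₀ : ℕ, ∀ m : ℕ, m₀ ≤ m → G.redSpace (m • Du) = riemannRochSpace (m • Dy) := by
  refine ⟨(thr H).toNat, fun m hm => ?_⟩
  have hlarge : Large H (m • Du) := by
    refine ⟨smul_nonneg (Nat.zero_le m) hDu.nonneg, ?_⟩
    rw [map_nsmul, nsmul_eq_mul]
    have h1 : thr H ≤ (m : ℤ) := by
      have := Int.self_le_toNat (thr H)
      have : ((thr H).toNat : ℤ) ≤ (m : ℤ) := by exact_mod_cast hm
      omega
    nlinarith
  rw [redSpace_eq H hlarge, bar_eq_mapDomain H hlarge]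
  congr 1
  have h2 : Finsupp.mapDomain (placeMap H) (m • Du) = m • Finsupp.mapDomain (placeMap H) Du := by
    rw [← Finsupp.mapDomain.addMonoidHom_apply, map_nsmul, Finsupp.mapDomain.addMonoidHom_apply]
  rw [h2, mapDomain_poleDiv H u hu hDu hDy hdeg]

/-- **Lifting with poles at the poles of `u`**: every `ȳ ∈ Fk` whose poles are among the poles of
`red u` is the reduction of some `f ∈ O` whose poles are among the poles of `u`; moreover
`f ∈ L(m (u)_∞)` for every large `m` with `ȳ ∈ L(m (red u)_∞)`. -/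
theorem exists_lift_of_mem (H : Hyp G gL gk) (u : G.O) (hu : G.red u ≠ 0)
    {Du : Divisor L FL} {Dy : Divisor k Fk} (hDu : IsPoleDiv ((u : G.O) : FL) Du)
    (hDy : IsPoleDiv (G.red u) Dy) (hdeg : Divisor.degree Du ≤ Divisor.degree Dy)
    (hpos : 0 < Divisor.degree Du) :
    ∃ m₀ : ℕ, ∀ m : ℕ, m₀ ≤ m → ∀ y ∈ riemannRochSpace (m • Dy),
      ∃ f : G.O, (f : FL) ∈ riemannRochSpace (m • Du) ∧ G.red f = y := by
  obtain ⟨m₀, hm₀⟩ := redSpace_nsmul_poleDiv H u hu hDu hDy hdeg hpos
  refine ⟨m₀, fun m hm y hy => ?_⟩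
  rw [← hm₀ m hm] at hy
  exact hy

/-- a function whose poles are among the support of an effective divisor `E` lies in `L(m E)`
for all large `m` -/
theorem exists_mem_nsmul {K : Type*} [Field K] {F : Type*} [Field F] [Algebra K F]
    [HasPrincipalDivisors K F] {E : Divisor K F} (hE : 0 ≤ E) (y : F)
    (hy : ∀ Q : Place K F, E Q = 0 → y = 0 ∨ 0 ≤ Q.ord y) :
    ∃ m₀ : ℕ, ∀ m : ℕ, m₀ ≤ m → y ∈ riemannRochSpace (m • E) := by
  classical
  by_cases hy0 : y = 0
  · exact ⟨0, fun m _ => by rw [hy0]; exact Submodule.zero_mem _⟩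
  obtain ⟨D, hD, -⟩ := HasPrincipalDivisors.exists_divisor (K := K) y hy0
  refine ⟨D.support.sup fun Q => (- D Q).toNat, fun m hm => ?_⟩
  rw [mem_riemannRochSpace_iff]
  intro Q
  right
  rw [Finsupp.smul_apply, nsmul_eq_mul]
  have hEQ := Finsupp.le_def.mp hE Q
  simp only [Finsupp.coe_zero, Pi.zero_apply] at hEQ
  by_cases hQ : E Q = 0
  · have := (hy Q hQ).resolve_left hy0
    rw [hQ]
    omega
  · have hE1 : 1 ≤ E Q := by omega
    by_cases hQs : Q ∈ D.support
    · have h1 : (- D Q).toNat ≤ D.support.sup fun Q => (- D Q).toNat :=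
        Finset.le_sup (f := fun Q => (- D Q).toNat) hQs
      have h2 : ((- D Q).toNat : ℤ) ≤ (m : ℤ) := by exact_mod_cast h1.trans hm
      have h3 := Int.self_le_toNat (- D Q)
      rw [← hD Q]
      nlinarith
    · rw [Finsupp.notMem_support_iff] at hQs
      rw [← hD Q, hQs]
      have : (0 : ℤ) ≤ (m : ℤ) * E Q := by positivity
      omega

/-- **Lifting with poles at the poles of `u`**, place form. -/
theorem exists_lift_of_poles (H : Hyp G gL gk) (u : G.O) (hu : G.red u ≠ 0)
    {Du : Divisor L FL} {Dy : Divisor k Fk} (hDu : IsPoleDiv ((u : G.O) : FL) Du)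
    (hDy : IsPoleDiv (G.red u) Dy) (hdeg : Divisor.degree Du ≤ Divisor.degree Dy)
    (hpos : 0 < Divisor.degree Du) (y : Fk)
    (hy : ∀ Q : Place k Fk, 0 ≤ Q.ord (G.red u) → y = 0 ∨ 0 ≤ Q.ord y) :
    ∃ f : G.O, G.red f = y ∧
      ∀ P : Place L FL, 0 ≤ P.ord ((u : G.O) : FL) → (f : FL) = 0 ∨ 0 ≤ P.ord (f : FL) := by
  obtain ⟨m₀, hm₀⟩ := exists_lift_of_mem H u hu hDu hDy hdeg hpos
  have hy' : ∀ Q : Place k Fk, Dy Q = 0 → y = 0 ∨ 0 ≤ Q.ord y := by
    intro Q hQ
    apply hy Q
    have := hDy Q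
    rw [hQ] at this
    omega
  obtain ⟨m₁, hm₁⟩ := exists_mem_nsmul hDy.nonneg y hy'
  obtain ⟨f, hf, hfy⟩ := hm₀ (max m₀ m₁) (le_max_left _ _) y (hm₁ _ (le_max_right _ _))
  refine ⟨f, hfy, fun P hP => ?_⟩
  rcases (mem_riemannRochSpace_iff.mp hf) P with h | h
  · exact Or.inl h
  · right
    rw [Finsupp.smul_apply, hDu P] at h
    have : max 0 (- P.ord ((u : G.O) : FL)) = 0 := by omega
    rw [this] at h
    simpa using h

/-! ### the chart `u⁻¹` -/

/-- the inverse of an element of `O` with nonzero reduction -/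
def invOf (G : GaussDatum A π FL Fk) (u : G.O) (hu : G.red u ≠ 0) : G.O :=
  ((unitOf G u hu)⁻¹ : G.Oˣ)

theorem coe_invOf (u : G.O) (hu : G.red u ≠ 0) :
    ((invOf G u hu : G.O) : FL) = ((u : G.O) : FL)⁻¹ := by
  have h1 : u * invOf G u hu = 1 := by
    have := (unitOf G u hu).mul_inv
    rwa [coe_unitOf] at this
  have h2 : ((u : G.O) : FL) * ((invOf G u hu : G.O) : FL) = 1 := congrArg Subtype.val h1
  exact eq_inv_of_mul_eq_one_right h2

theorem red_invOf (u : G.O) (hu : G.red u ≠ 0) : G.red (invOf G u hu) = (G.red u)⁻¹ := by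
  have h1 : u * invOf G u hu = 1 := by
    have := (unitOf G u hu).mul_inv
    rwa [coe_unitOf] at this
  have h2 : G.red u * G.red (invOf G u hu) = 1 := by rw [← map_mul, h1, map_one]
  exact eq_inv_of_mul_eq_one_right h2

theorem red_invOf_ne_zero (u : G.O) (hu : G.red u ≠ 0) : G.red (invOf G u hu) ≠ 0 := by
  rw [red_invOf]
  exact inv_ne_zero hu

/-- **Lifting with poles at the zeros of `u`**, place form: every `ȳ ∈ Fk` whose poles are among
the zeros of `red u` is `red f` for some `f ∈ O` whose poles are among the zeros of `u`. -/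
theorem exists_lift_of_zeros (H : Hyp G gL gk) (u : G.O) (hu : G.red u ≠ 0)
    {Zu : Divisor L FL} {Zy : Divisor k Fk} (hZu : IsPoleDiv (((u : G.O) : FL)⁻¹) Zu)
    (hZy : IsPoleDiv (G.red u)⁻¹ Zy) (hdeg : Divisor.degree Zu ≤ Divisor.degree Zy)
    (hpos : 0 < Divisor.degree Zu) (y : Fk)
    (hy : ∀ Q : Place k Fk, Q.ord (G.red u) ≤ 0 → y = 0 ∨ 0 ≤ Q.ord y) :
    ∃ f : G.O, G.red f = y ∧
      ∀ P : Place L FL, P.ord ((u : G.O) : FL) ≤ 0 → (f : FL) = 0 ∨ 0 ≤ P.ord (f : FL) := by
  have h := exists_lift_of_poles H (invOf G u hu) (red_invOf_ne_zero u hu)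
    (Du := Zu) (Dy := Zy) (by rw [coe_invOf]; exact hZu) (by rw [red_invOf]; exact hZy)
    hdeg hpos y (fun Q hQ => hy Q (by rw [red_invOf, Place.ord_inv] at hQ; omega))
  obtain ⟨f, hf, hP⟩ := h
  exact ⟨f, hf, fun P hPu => hP P (by rw [coe_invOf, Place.ord_inv]; omega)⟩

end Fermat.Agent.S34.LevelMSurj
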