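import Mathlib
import Fermat.Agent.S34.LevelMSurj
import Fermat.Agent.S37.Gauss.Datum
import Fermat.Agent.S37.ReductionInputs
import Fermat.Agent.S18.A.Instances
import Fermat.Agent.S18.A.FibreSep
import Fermat.Agent.S18.B.FkBasics
import Fermat.Agent.S18.B.SeparableFk
import Fermat.Agent.S18.C.Forms
import Fermat.Agent.S18.ResidueBasics

/-!
# PROJECT U (S34): level-`M` surjectivity of the reduction at `X₀(M)`, charts `j` and `j⁻¹`

`A` a valuation ring of `ℚ̄` over a prime `q ∤ M`, `k = κ(A)`, `G = gaussDatum M A hA hqM` the Gauss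
datum of `F = ℚ̄(X₀(M))` (`S37/Gauss/Datum.lean`), `H : Hyp G gL gk` Deuring's hypotheses
(`S37/ReductionInputsX0.hyp_X0`), `r = placeMap H`.

* `mapDomain_poleDiv_j` : `r_* (j)_∞ = (j̄)_∞`; `mapDomain_zeroDiv_j` : `r_* (j)_0 = (j̄)_0`;
* `exists_lift_off_cusps` : every `ḡ ∈ F_k(M)` regular off the cusps (poles of `j̄`) is `G.red g`
  for some `g ∈ G.O` regular off the cusps (poles of `j`);
* `exists_lift_off_zeros` : the same off the zeros of `j̄`, resp. of `j`;
* `placeMap_surjective_X0`.
-/

set_option autoImplicit false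
set_option linter.unusedSectionVars false
set_option linter.style.haveILetI false

noncomputable section

namespace Fermat.Agent.S34.LevelMSurjX0

open AlgebraicCurve ModularCurve IsLocalRing IntermediateField
open Fermat.Agent.S18.NonSpecial Fermat.Agent.S37.Deuring.Core Fermat.Agent.S34.LevelMSurj
open Fermat.Agent.S37.Gauss.Datum Fermat.Agent.S18.A
open Fermat.Agent.S24.DegreeAlg (jgen)
open Fermat.Agent.S18.B.FkBasics (jk)

local notation "Kb" => AlgebraicClosure ℚ

set_option synthInstance.maxHeartbeats 400000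

variable {q : ℕ} [Fact q.Prime] {M : ℕ} [NeZero M] {A : ValuationSubring Kb}
variable (hA : A.LiesOverPrime q) (hqM : ¬ q ∣ M)

/-- `j` as an element of the Gauss valuation ring -/
def jO : ↥(gaussDatum M A hA hqM).O := ⟨jgen M, jgen_mem_O hA hqM⟩

theorem red_jO : (gaussDatum M A hA hqM).red (jO hA hqM) = jk (ResidueField ↥A) M :=
  red_jgen hA hqM

theorem jk_ne_zero : jk (ResidueField ↥A) M ≠ 0 := fun h =>
  (Fermat.Agent.S18.B.FkBasics.isFF (ResidueField ↥A) M).transcendental (h ▸ isAlgebraic_zero)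

theorem red_jO_ne_zero : (gaussDatum M A hA hqM).red (jO hA hqM) ≠ 0 := by
  rw [red_jO]
  exact jk_ne_zero

include hA hqM in
/-- the degrees of `j` and `j̄` agree up to the right inequality -/
theorem finrank_le :
    Module.finrank ↥Kb⟮jgen M⟯ ↥(modularFunctionFieldBar M) ≤
      Module.finrank ↥(ResidueField ↥A)⟮jk (ResidueField ↥A) M⟯
        ↥(modularFunctionFieldFullC (ResidueField ↥A) M) := by
  haveI := Fermat.Agent.S18.ResidueBasics.isAlgClosed_residueField A
  rw [Fermat.Agent.S18.C.Forms.finrank_bar_eq_dedekindPsi M]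
  exact Fermat.Agent.S18.B.FkBasics.psi_le_finrank (ResidueField ↥A) M
    (Fermat.Agent.S18.ResidueBasics.natCast_ne_zero_of_not_dvd A hA hqM)

variable {gL gk : ℕ}

section Main

variable (H : Hyp (gaussDatum M A hA hqM) gL gk)

/-- `r_* (j)_∞ = (j̄)_∞` -/
theorem mapDomain_poleDiv_j
    (hsepk : Algebra.IsSeparable ↥(ResidueField ↥A)⟮jk (ResidueField ↥A) M⟯
      ↥(modularFunctionFieldFullC (ResidueField ↥A) M)) :
    haveI := Fermat.Agent.S18.ResidueBasics.isAlgClosed_residueField A
    haveI := Fermat.Agent.S18.GaussFromHBar.hasPrincipalDivisors_bar M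
    haveI := Fermat.Agent.S37.ReductionInputs.hasPrincipalDivisors_Fk A M
    haveI := Fermat.Agent.S37.ReductionInputs.infinite_residueField A
    Finsupp.mapDomain (placeMap H)
        (FibreSep.poleDiv (Instances.isFF_jgen M) (Instances.isSeparable_jgen M)) =
      FibreSep.poleDiv (Fermat.Agent.S18.B.FkBasics.isFF (ResidueField ↥A) M) hsepk := by
  haveI := Fermat.Agent.S18.ResidueBasics.isAlgClosed_residueField A
  haveI := Fermat.Agent.S18.GaussFromHBar.hasPrincipalDivisors_bar M
  haveI := Fermat.Agent.S37.ReductionInputs.hasPrincipalDivisors_Fk A M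
  haveI := Fermat.Agent.S37.ReductionInputs.infinite_residueField A
  refine mapDomain_poleDiv H (jO hA hqM) (red_jO_ne_zero hA hqM) ?_ ?_ ?_
  · intro v
    rw [FibreSep.poleDiv_apply, max_comm]
    rfl
  · intro v
    rw [FibreSep.poleDiv_apply, max_comm, red_jO]
  · rw [FibreSep.degree_poleDiv, FibreSep.degree_poleDiv]
    exact_mod_cast finrank_le hA hqM

/-- `r_* (j)_0 = (j̄)_0` -/
theorem mapDomain_zeroDiv_j
    (hsepk : Algebra.IsSeparable ↥(ResidueField ↥A)⟮jk (ResidueField ↥A) M⟯
      ↥(modularFunctionFieldFullC (ResidueField ↥A) M)) :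
    haveI := Fermat.Agent.S18.ResidueBasics.isAlgClosed_residueField A
    haveI := Fermat.Agent.S18.GaussFromHBar.hasPrincipalDivisors_bar M
    haveI := Fermat.Agent.S37.ReductionInputs.hasPrincipalDivisors_Fk A M
    haveI := Fermat.Agent.S37.ReductionInputs.infinite_residueField A
    Finsupp.mapDomain (placeMap H)
        (FibreSep.zeroDiv (Instances.isFF_jgen M) (Instances.isSeparable_jgen M)) =
      FibreSep.zeroDiv (Fermat.Agent.S18.B.FkBasics.isFF (ResidueField ↥A) M) hsepk := by
  haveI := Fermat.Agent.S18.ResidueBasics.isAlgClosed_residueField A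
  haveI := Fermat.Agent.S18.GaussFromHBar.hasPrincipalDivisors_bar M
  haveI := Fermat.Agent.S37.ReductionInputs.hasPrincipalDivisors_Fk A M
  haveI := Fermat.Agent.S37.ReductionInputs.infinite_residueField A
  refine mapDomain_poleDiv H (invOf _ (jO hA hqM) (red_jO_ne_zero hA hqM))
    (red_invOf_ne_zero _ (red_jO_ne_zero hA hqM)) ?_ ?_ ?_
  · intro v
    rw [FibreSep.zeroDiv_apply, max_comm, coe_invOf, Place.ord_inv, neg_neg]
    rfl
  · intro v
    rw [FibreSep.zeroDiv_apply, max_comm, red_invOf, Place.ord_inv, neg_neg, red_jO]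
  · rw [FibreSep.degree_zeroDiv, FibreSep.degree_zeroDiv]
    exact_mod_cast finrank_le hA hqM

/-- Deuring's place map of `X₀(M)` at `q ∤ M` is onto. -/
theorem placeMap_surjective_X0 :
    haveI := Fermat.Agent.S18.ResidueBasics.isAlgClosed_residueField A
    haveI := Fermat.Agent.S18.GaussFromHBar.hasPrincipalDivisors_bar M
    haveI := Fermat.Agent.S37.ReductionInputs.hasPrincipalDivisors_Fk A M
    haveI := Fermat.Agent.S37.ReductionInputs.infinite_residueField A
    Function.Surjective (placeMap H) := by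
  haveI := Fermat.Agent.S18.ResidueBasics.isAlgClosed_residueField A
  haveI := Fermat.Agent.S18.GaussFromHBar.hasPrincipalDivisors_bar M
  haveI := Fermat.Agent.S37.ReductionInputs.hasPrincipalDivisors_Fk A M
  haveI := Fermat.Agent.S37.ReductionInputs.infinite_residueField A
  exact placeMap_surjective H (red_surjective hA hqM)

theorem finrank_pos :
    0 < Module.finrank ↥Kb⟮jgen M⟯ ↥(modularFunctionFieldBar M) := by
  haveI := (Instances.isFF_jgen M).finite
  exact Module.finrank_pos

include H in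
/-- **Chart `j ≠ ∞`**: every `ḡ ∈ F_k(M)` regular off the cusps (the poles of `j̄`) is `G.red g`
for some `g ∈ G.O` regular off the cusps (the poles of `j`, as places of `ℚ̄(X₀(M))`). -/
theorem exists_lift_off_cusps (y : ↥(modularFunctionFieldFullC (ResidueField ↥A) M))
    (hy : ∀ Q : Place (ResidueField ↥A) ↥(modularFunctionFieldFullC (ResidueField ↥A) M),
      0 ≤ Q.ord (jk (ResidueField ↥A) M) → y = 0 ∨ 0 ≤ Q.ord y) :
    ∃ f : ↥(gaussDatum M A hA hqM).O, (gaussDatum M A hA hqM).red f = y ∧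
      ∀ P : Place Kb ↥(modularFunctionFieldBar M), 0 ≤ P.ord (jgen M) →
        (f : ↥(modularFunctionFieldBar M)) = 0 ∨ 0 ≤ P.ord (f : ↥(modularFunctionFieldBar M)) := by
  haveI := Fermat.Agent.S18.ResidueBasics.isAlgClosed_residueField A
  haveI := Fermat.Agent.S18.GaussFromHBar.hasPrincipalDivisors_bar M
  haveI := Fermat.Agent.S37.ReductionInputs.hasPrincipalDivisors_Fk A M
  haveI := Fermat.Agent.S37.ReductionInputs.infinite_residueField A
  have hsepk := Fermat.Agent.S18.B.SeparableFk.isSeparable_jk (ResidueField ↥A) M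
  refine exists_lift_of_poles H (jO hA hqM) (red_jO_ne_zero hA hqM)
    (Du := FibreSep.poleDiv (Instances.isFF_jgen M) (Instances.isSeparable_jgen M))
    (Dy := FibreSep.poleDiv (Fermat.Agent.S18.B.FkBasics.isFF (ResidueField ↥A) M) hsepk)
    ?_ ?_ ?_ ?_ y (fun Q hQ => hy Q (by rwa [red_jO] at hQ))
  · intro v
    rw [FibreSep.poleDiv_apply, max_comm]
    rfl
  · intro v
    rw [FibreSep.poleDiv_apply, max_comm, red_jO]
  · rw [FibreSep.degree_poleDiv, FibreSep.degree_poleDiv]
    exact_mod_cast finrank_le hA hqM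
  · rw [FibreSep.degree_poleDiv]
    exact_mod_cast finrank_pos

include H in
/-- **Chart `j ≠ 0`**: every `ḡ ∈ F_k(M)` regular off the zeros of `j̄` is `G.red g` for some
`g ∈ G.O` regular off the zeros of `j`. -/
theorem exists_lift_off_zeros (y : ↥(modularFunctionFieldFullC (ResidueField ↥A) M))
    (hy : ∀ Q : Place (ResidueField ↥A) ↥(modularFunctionFieldFullC (ResidueField ↥A) M),
      Q.ord (jk (ResidueField ↥A) M) ≤ 0 → y = 0 ∨ 0 ≤ Q.ord y) :
    ∃ f : ↥(gaussDatum M A hA hqM).O, (gaussDatum M A hA hqM).red f = y ∧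
      ∀ P : Place Kb ↥(modularFunctionFieldBar M), P.ord (jgen M) ≤ 0 →
        (f : ↥(modularFunctionFieldBar M)) = 0 ∨ 0 ≤ P.ord (f : ↥(modularFunctionFieldBar M)) := by
  haveI := Fermat.Agent.S18.ResidueBasics.isAlgClosed_residueField A
  haveI := Fermat.Agent.S18.GaussFromHBar.hasPrincipalDivisors_bar M
  haveI := Fermat.Agent.S37.ReductionInputs.hasPrincipalDivisors_Fk A M
  haveI := Fermat.Agent.S37.ReductionInputs.infinite_residueField A
  have hsepk := Fermat.Agent.S18.B.SeparableFk.isSeparable_jk (ResidueField ↥A) M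
  refine exists_lift_of_zeros H (jO hA hqM) (red_jO_ne_zero hA hqM)
    (Zu := FibreSep.zeroDiv (Instances.isFF_jgen M) (Instances.isSeparable_jgen M))
    (Zy := FibreSep.zeroDiv (Fermat.Agent.S18.B.FkBasics.isFF (ResidueField ↥A) M) hsepk)
    ?_ ?_ ?_ ?_ y (fun Q hQ => hy Q (by rwa [red_jO] at hQ))
  · intro v
    rw [FibreSep.zeroDiv_apply, max_comm, Place.ord_inv, neg_neg]
    rfl
  · intro v
    rw [FibreSep.zeroDiv_apply, max_comm, Place.ord_inv, neg_neg, red_jO]
  · rw [FibreSep.degree_zeroDiv, FibreSep.degree_zeroDiv]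
    exact_mod_cast finrank_le hA hqM
  · rw [FibreSep.degree_zeroDiv]
    exact_mod_cast finrank_pos

end Main

end Fermat.Agent.S34.LevelMSurjX0
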