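import Mathlib
import Fermat.Agent.S34.NodalDefs
import Fermat.Agent.S34.Generic.Dich
import Fermat.Agent.S18.A.RiemannBasic

/-!
# PROJECT U (S34), Route G: assembly of `GNodalDatum.pcg` (pole control + gluing)

Hypotheses-first assembly of the fields `Adm`, `adm_subset_good`, `exists_adm` and `pcg` of
`NodalDefs.GNodalDatum` when both components have the same function field `κ` (at `X₀(qM)`:
`κ = 𝔽̄_q(X₀(M))`), from

* the Frobenius `Fr` on the places of `κ` (finite sets lie in finite `Fr`-stable sets, the set of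
  generic places is `Fr`-stable);
* the two total specialisation maps `sp1 P = r_M(P ∘ α)`, `sp2 P = r_M(P ∘ β)` and their relation
  with the partial maps `R1.r`, `R2.r` (a place of type 1 over `Q` has `sp1 = Q`, `sp2 = Fr Q`; a
  place of type 2 over `Q` has `sp2 = Q`, `sp1 = Fr Q`);
* POLE CONTROL on both components at every place (`pc1`, `pc2`; `Generic/PoleControl`);
* the chart-0 SANDWICH: functions with poles only over the cusps are glued at the nodes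
  `(Fr a, a)`, `a ∈ N` (`glue0`; `S34/SandwichK.exists_nodes_places`);
* the MULTIPLIER (`mult`; `S34/NodeTransfer.exists_alpha_multiplier`): every function without pole
  over the disc of `Fr a` becomes a chart-0 function after multiplication by a chart-0 function
  which does not vanish at the node.

Main results: `Adm`, `exists_adm`, `Hyp.pcg`, and the constructor `gNodalDatum`.
-/

set_option autoImplicit false

noncomputable section

namespace Fermat.Agent.S34.PcgOfSandwich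

open AlgebraicCurve Fermat.Agent.S34.NodalDefs Fermat.Agent.S34.Generic.Dich

variable {L : Type*} [Field L] {k : Type*} [Field k]

/-! ### `HasValue` and `HasVal` -/

section Value

variable {κ : Type*} [Field κ] [Algebra k κ]

theorem hasValue_iff (Q : Place k κ) (φ : κ) (γ : k) : HasValue Q φ γ ↔ HasVal Q φ γ := by
  unfold HasValue HasVal
  rw [Fermat.Agent.S18.A.Riemann.adicValuation_lt_one_iff, sub_eq_zero]

end Value

/-! ### admissible pairs -/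

section Adm

variable {κ : Type*} [Field κ] [Algebra k κ]

/-- **Admissible pairs**: the same finite `Fr`-stable set of generic places on both components. -/
def Adm (Fr : Place k κ → Place k κ) (good : Set (Place k κ)) (S1 S2 : Set (Place k κ)) : Prop :=
  S1 = S2 ∧ S1.Finite ∧ S1 ⊆ good ∧ ∀ Q, Fr Q ∈ S1 ↔ Q ∈ S1

theorem exists_adm (Fr : Place k κ → Place k κ) (good : Set (Place k κ))
    (hgood : ∀ Q, Fr Q ∈ good ↔ Q ∈ good)
    (hstab : ∀ T : Set (Place k κ), T.Finite →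
      ∃ T' : Set (Place k κ), T'.Finite ∧ T ⊆ T' ∧ ∀ Q, Fr Q ∈ T' ↔ Q ∈ T')
    (T1 T2 : Set (Place k κ)) (h1 : T1.Finite) (h2 : T2.Finite) (hg1 : T1 ⊆ good)
    (hg2 : T2 ⊆ good) : ∃ S1 S2, Adm Fr good S1 S2 ∧ T1 ⊆ S1 ∧ T2 ⊆ S2 := by
  obtain ⟨T', hfin, hsub, hst⟩ := hstab (T1 ∪ T2) (h1.union h2)
  refine ⟨T' ∩ good, T' ∩ good, ⟨rfl, hfin.subset Set.inter_subset_left, Set.inter_subset_right,
    fun Q => ?_⟩, fun Q hQ => ⟨hsub (Or.inl hQ), hg1 hQ⟩, fun Q hQ => ⟨hsub (Or.inr hQ), hg2 hQ⟩⟩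
  simp only [Set.mem_inter_iff, hst Q, hgood Q]

end Adm

/-! ### the assembly -/

variable {A : ValuationSubring L} {π : A →+* k} {FL : Type*} [Field FL] [Algebra L FL]
  {κ : Type*} [Field κ] [Algebra k κ]

/-- The hypotheses of the assembly (see the header). -/
structure Hyp (R1 R2 : SmoothRed A π FL κ) (Fr : Place k κ → Place k κ)
    (sp1 sp2 : Place L FL → Place k κ) (cusp : Set (Place k κ)) (N : Finset (Place k κ)) :
    Prop where
  degk : ∀ Q : Place k κ, Q.deg = 1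
  good_eq : R2.good = R1.good
  r1_sp1 : ∀ P Q, R1.r P = some Q → sp1 P = Q
  r1_sp2 : ∀ P Q, R1.r P = some Q → sp2 P = Fr Q
  r2_sp2 : ∀ P Q, R2.r P = some Q → sp2 P = Q
  r2_sp1 : ∀ P Q, R2.r P = some Q → sp1 P = Fr Q
  /-- pole control on the first component -/
  pc1 : ∀ (Q : Place k κ) (h : R1.O), (∀ P : Place L FL, P.ord ((h : R1.O) : FL) < 0 → sp1 P ≠ Q) →
    0 ≤ Q.ord (R1.red h)
  /-- pole control on the second component -/
  pc2 : ∀ (Q : Place k κ) (h : R2.O), (∀ P : Place L FL, P.ord ((h : R2.O) : FL) < 0 → sp2 P ≠ Q) →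
    0 ≤ Q.ord (R2.red h)
  /-- the nodes are not generic -/
  node1_not_good : ∀ a ∈ N, Fr a ∉ R1.good
  node2_not_good : ∀ a ∈ N, a ∉ R1.good
  /-- the sandwich on chart 0 -/
  glue0 : ∀ (h1 : R1.O) (h2 : R2.O), ((h1 : R1.O) : FL) = ((h2 : R2.O) : FL) →
    (∀ P : Place L FL, P.ord ((h1 : R1.O) : FL) < 0 → sp1 P ∈ cusp) →
    ∀ a ∈ N, ∃ γ : k, HasValue (Fr a) (R1.red h1) γ ∧ HasValue a (R2.red h2) γ
  /-- the multiplier -/
  mult : ∀ (h1 : R1.O) (h2 : R2.O), ((h1 : R1.O) : FL) = ((h2 : R2.O) : FL) → ∀ a ∈ N,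
    (∀ P : Place L FL, P.ord ((h1 : R1.O) : FL) < 0 → sp1 P ≠ Fr a) →
    ∃ (y1 : R1.O) (y2 : R2.O), ((y1 : R1.O) : FL) = ((y2 : R2.O) : FL) ∧
      (∀ P : Place L FL, P.ord ((y1 : R1.O) : FL) < 0 → sp1 P ∈ cusp) ∧
      (∀ P : Place L FL, P.ord (((y1 * h1 : R1.O) : R1.O) : FL) < 0 → sp1 P ∈ cusp) ∧
      ∃ γ : k, γ ≠ 0 ∧ HasValue (Fr a) (R1.red y1) γ

namespace Hyp

variable {R1 R2 : SmoothRed A π FL κ} {Fr : Place k κ → Place k κ}
  {sp1 sp2 : Place L FL → Place k κ} {cusp : Set (Place k κ)} {N : Finset (Place k κ)}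

/-- pole control for admissible functions, first component -/
theorem regular1 (H : Hyp R1 R2 Fr sp1 sp2 cusp N) {S1 S2 : Set (Place k κ)}
    (hS : Adm Fr R1.good S1 S2) (h1 : R1.O)
    (hpole : ∀ P : Place L FL, P.ord ((h1 : R1.O) : FL) < 0 →
      (∃ Q ∈ S1, R1.r P = some Q) ∨ (∃ Q ∈ S2, R2.r P = some Q))
    (Q : Place k κ) (hQ : Q ∉ S1) : 0 ≤ Q.ord (R1.red h1) := by
  obtain ⟨rfl, -, -, hst⟩ := hS
  refine H.pc1 Q h1 fun P hP => ?_
  rcases hpole P hP with ⟨Q', hQ', hr⟩ | ⟨Q', hQ', hr⟩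
  · rw [H.r1_sp1 P Q' hr]
    rintro rfl
    exact hQ hQ'
  · rw [H.r2_sp1 P Q' hr]
    rintro rfl
    exact hQ ((hst Q').mpr hQ')

/-- pole control for admissible functions, second component -/
theorem regular2 (H : Hyp R1 R2 Fr sp1 sp2 cusp N) {S1 S2 : Set (Place k κ)}
    (hS : Adm Fr R1.good S1 S2) (h2 : R2.O)
    (hpole : ∀ P : Place L FL, P.ord ((h2 : R2.O) : FL) < 0 →
      (∃ Q ∈ S1, R1.r P = some Q) ∨ (∃ Q ∈ S2, R2.r P = some Q))
    (Q : Place k κ) (hQ : Q ∉ S2) : 0 ≤ Q.ord (R2.red h2) := by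
  obtain ⟨rfl, -, -, hst⟩ := hS
  refine H.pc2 Q h2 fun P hP => ?_
  rcases hpole P hP with ⟨Q', hQ', hr⟩ | ⟨Q', hQ', hr⟩
  · rw [H.r1_sp2 P Q' hr]
    rintro rfl
    exact hQ ((hst Q').mpr hQ')
  · rw [H.r2_sp2 P Q' hr]
    rintro rfl
    exact hQ hQ'

/-- a function regular at `Q` has a value there -/
theorem exists_hasValue (H : Hyp R1 R2 Fr sp1 sp2 cusp N) (Q : Place k κ) {φ : κ}
    (h : 0 ≤ Q.ord φ) : ∃ γ : k, HasValue Q φ γ := by
  have hle : Q.adicValuation φ ≤ 1 := Q.adicValuation_le_one_iff.mpr (Or.inr h)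
  obtain ⟨γ, hγ⟩ := exists_hasVal Q (H.degk Q) hle
  exact ⟨γ, (hasValue_iff Q φ γ).mpr hγ⟩

/-- **pole control and gluing** for the node set `N` -/
theorem pcg (H : Hyp R1 R2 Fr sp1 sp2 cusp N) (S1 S2 : Set (Place k κ))
    (hS : Adm Fr R1.good S1 S2) (h1 : R1.O) (h2 : R2.O)
    (h12 : ((h1 : R1.O) : FL) = ((h2 : R2.O) : FL))
    (hpole : ∀ P : Place L FL, P.ord ((h1 : R1.O) : FL) < 0 →
      (∃ Q ∈ S1, R1.r P = some Q) ∨ (∃ Q ∈ S2, R2.r P = some Q)) :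
    (∀ Q : Place k κ, Q ∉ S1 → 0 ≤ Q.ord (R1.red h1)) ∧
      (∀ Q : Place k κ, Q ∉ S2 → 0 ≤ Q.ord (R2.red h2)) ∧
      ∀ a ∈ N, ∃ γ : k, HasValue (Fr a) (R1.red h1) γ ∧ HasValue a (R2.red h2) γ := by
  have hpole2 : ∀ P : Place L FL, P.ord ((h2 : R2.O) : FL) < 0 →
      (∃ Q ∈ S1, R1.r P = some Q) ∨ (∃ Q ∈ S2, R2.r P = some Q) := by
    intro P hP
    exact hpole P (by rw [h12]; exact hP)
  have hreg1 := H.regular1 hS h1 hpole
  have hreg2 := H.regular2 hS h2 hpole2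
  refine ⟨hreg1, hreg2, fun a ha => ?_⟩
  have hS' := hS
  obtain ⟨hS12, -, hSgood, hst⟩ := hS'
  -- the nodes are off `S1 = S2`
  have hFa : Fr a ∉ S1 := fun h => H.node1_not_good a ha (hSgood h)
  have ha2 : a ∉ S2 := fun h => H.node2_not_good a ha (hSgood (hS12 ▸ h))
  -- values of `h` at the node
  obtain ⟨η₁, hη₁⟩ := H.exists_hasValue (Fr a) (hreg1 _ hFa)
  obtain ⟨η₂, hη₂⟩ := H.exists_hasValue a (hreg2 _ ha2)
  -- the multiplier
  have hnopole : ∀ P : Place L FL, P.ord ((h1 : R1.O) : FL) < 0 → sp1 P ≠ Fr a := by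
    intro P hP
    rcases hpole P hP with ⟨Q', hQ', hr⟩ | ⟨Q', hQ', hr⟩
    · rw [H.r1_sp1 P Q' hr]
      rintro rfl
      exact hFa hQ'
    · rw [H.r2_sp1 P Q' hr]
      intro heq
      exact hFa (heq ▸ (hst Q').mpr (hS12 ▸ hQ'))
  obtain ⟨y1, y2, hy12, hypole, hyhpole, γy, hγy0, hγy⟩ := H.mult h1 h2 h12 a ha hnopole
  -- gluing of `y` and of `y h` on chart 0
  obtain ⟨γ', hγ'1, hγ'2⟩ := H.glue0 y1 y2 hy12 hypole a ha
  have hyh12 : (((y1 * h1 : R1.O) : R1.O) : FL) = (((y2 * h2 : R2.O) : R2.O) : FL) := by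
    push_cast
    rw [hy12, h12]
  obtain ⟨δ, hδ1, hδ2⟩ := H.glue0 (y1 * h1) (y2 * h2) hyh12 hyhpole a ha
  rw [hasValue_iff] at hγy hγ'1 hγ'2 hδ1 hδ2 hη₁ hη₂
  have hγeq : γ' = γy := hγ'1.unique hγy
  subst hγeq
  rw [map_mul] at hδ1 hδ2
  have e1 : γ' * η₁ = δ := (hγ'1.mul hη₁).unique hδ1
  have e2 : γ' * η₂ = δ := (hγ'2.mul hη₂).unique hδ2
  have hη : η₁ = η₂ := mul_left_cancel₀ hγy0 (e1.trans e2.symm)
  subst hη
  exact ⟨η₁, (hasValue_iff _ _ _).mpr hη₁, (hasValue_iff _ _ _).mpr hη₂⟩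

end Hyp

/-- **The nodal datum assembled from the sandwich.**  The nodes are indexed by the finite set `N`
of places of `κ` produced by the chart-0 sandwich: `e1 a = Fr a`, `e2 a = a`. -/
def gNodalDatum (R1 R2 : SmoothRed A π FL κ) (Fr : Place k κ → Place k κ)
    (sp1 sp2 : Place L FL → Place k κ) (cusp : Set (Place k κ)) (N : Finset (Place k κ))
    (H : Hyp R1 R2 Fr sp1 sp2 cusp N)
    (hfin : (R1.good)ᶜ.Finite)
    (hexcl : ∀ (P : Place L FL) (Q1 Q2 : Place k κ), R1.r P = some Q1 → R2.r P = some Q2 → False)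
    (hgood : ∀ Q, Fr Q ∈ R1.good ↔ Q ∈ R1.good)
    (hstab : ∀ T : Set (Place k κ), T.Finite →
      ∃ T' : Set (Place k κ), T'.Finite ∧ T ⊆ T' ∧ ∀ Q, Fr Q ∈ T' ↔ Q ∈ T') :
    GNodalDatum A π FL κ κ {a : Place k κ // a ∈ N} where
  R1 := R1
  R2 := R2
  e1 := fun a => Fr a.1
  e2 := fun a => a.1
  e1_not_good := fun a => H.node1_not_good a.1 a.2
  e2_not_good := fun a => by rw [H.good_eq]; exact H.node2_not_good a.1 a.2
  finite_compl_good1 := hfin
  finite_compl_good2 := by rw [H.good_eq]; exact hfin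
  excl := hexcl
  Adm := Adm Fr R1.good
  adm_subset_good := fun S1 S2 hS => ⟨hS.2.2.1, by rw [H.good_eq, ← hS.1]; exact hS.2.2.1⟩
  exists_adm := fun T1 T2 h1 h2 hg1 hg2 =>
    exists_adm Fr R1.good hgood hstab T1 T2 h1 h2 hg1 (by rw [← H.good_eq]; exact hg2)
  pcg := fun S1 S2 hS h1 h2 h12 hpole => by
    obtain ⟨p1, p2, p3⟩ := H.pcg S1 S2 hS h1 h2 h12 hpole
    exact ⟨p1, p2, fun a => p3 a.1 a.2⟩

section Simp

variable (R1 R2 : SmoothRed A π FL κ) (Fr : Place k κ → Place k κ)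
  (sp1 sp2 : Place L FL → Place k κ) (cusp : Set (Place k κ)) (N : Finset (Place k κ))
  (H : Hyp R1 R2 Fr sp1 sp2 cusp N) (hfin : (R1.good)ᶜ.Finite)
  (hexcl : ∀ (P : Place L FL) (Q1 Q2 : Place k κ), R1.r P = some Q1 → R2.r P = some Q2 → False)
  (hgood : ∀ Q, Fr Q ∈ R1.good ↔ Q ∈ R1.good)
  (hstab : ∀ T : Set (Place k κ), T.Finite →
    ∃ T' : Set (Place k κ), T'.Finite ∧ T ⊆ T' ∧ ∀ Q, Fr Q ∈ T' ↔ Q ∈ T')

@[simp] theorem gNodalDatum_R1 :
    (gNodalDatum R1 R2 Fr sp1 sp2 cusp N H hfin hexcl hgood hstab).R1 = R1 := rfl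

@[simp] theorem gNodalDatum_R2 :
    (gNodalDatum R1 R2 Fr sp1 sp2 cusp N H hfin hexcl hgood hstab).R2 = R2 := rfl

@[simp] theorem gNodalDatum_e1 (a : {a : Place k κ // a ∈ N}) :
    (gNodalDatum R1 R2 Fr sp1 sp2 cusp N H hfin hexcl hgood hstab).e1 a = Fr a.1 := rfl

@[simp] theorem gNodalDatum_e2 (a : {a : Place k κ // a ∈ N}) :
    (gNodalDatum R1 R2 Fr sp1 sp2 cusp N H hfin hexcl hgood hstab).e2 a = a.1 := rfl

theorem gNodalDatum_adm_iff (S1 S2 : Set (Place k κ)) :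
    (gNodalDatum R1 R2 Fr sp1 sp2 cusp N H hfin hexcl hgood hstab).Adm S1 S2 ↔
      Adm Fr R1.good S1 S2 := Iff.rfl

theorem injective_e2 :
    Function.Injective (gNodalDatum R1 R2 Fr sp1 sp2 cusp N H hfin hexcl hgood hstab).e2 :=
  Subtype.val_injective

theorem injective_e1 (hFr : Function.Injective Fr) :
    Function.Injective (gNodalDatum R1 R2 Fr sp1 sp2 cusp N H hfin hexcl hgood hstab).e1 :=
  fun _ _ h => Subtype.val_injective (hFr h)

/-- admissible sets are finite (the hypothesis `hadmfin` of `GlueGNodal.glueG_of_inertia`) -/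
theorem adm_finite (S1 S2 : Set (Place k κ))
    (hS : (gNodalDatum R1 R2 Fr sp1 sp2 cusp N H hfin hexcl hgood hstab).Adm S1 S2) :
    S1.Finite ∧ S2.Finite :=
  ⟨hS.2.1, hS.1 ▸ hS.2.1⟩

theorem card_nodes : Fintype.card {a : Place k κ // a ∈ N} = N.card := Fintype.card_coe N

end Simp

end Fermat.Agent.S34.PcgOfSandwich
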