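/-
PROJECT U (S34), ROUTE G, FINAL ASSEMBLY, layer 2 (helper6):
THE NODAL DATUM `CoreZX0Datum.X0Datum` OF `E = ℚ̄(X₀(M q))` FROM THE PRODUCERS' OUTPUTS.

Everything is stated for one valuation subring `A ∣ q` of `ℚ̄` (`q ∤ M`) and one Deuring datum
`H : Hyp (gaussDatum M A hA hqM) gL gk` of level `M`; `r_M = placeMap H`, `α, β` the two degeneracy
embeddings `ℚ̄(X₀(M)) → E`, `w = w_q`, `Fr` the Frobenius on the places of `κ = k(X₀(M))`.

* `Inputs hA hqM H` : the first component: a branch `B₁` of `E` with `B₁.O = V1X0`, compatible with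
  level `M` along `α`, and a cofinite `Fr`-stable set `good` of places of `κ` without
  `Fr²`-fixed points at which `Generic.Compat.GenericAt` holds
  (producers: `GaussPairX0`, `Generic/…X0`, `Generic/FiniteNonGeneric`);
* `R1 X`, `R2 X` : the two components (`smoothRedOfGeneric`, `smoothRedComap … w_q`);
* `Nodes X` : the node set `S` with the hypotheses `PcgHyp.Hyp` (sandwich + pole control +
  multiplier), the Euler characteristic inequality and the invariance of the two total
  specialisation maps `sp₁ = r_M ∘ res_α`, `sp₂ = r_M ∘ res_β` under inertia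
  (producers: `Euler/…`, `EulerX0`, `PcgOfChart`, `MultOfAlpha`, `Generic/InertiaSp`);
* `x0Datum X Y : X0Datum hA hqM`.
-/
import Fermat.Agent.S34.CoreZX0Datum
import Fermat.Agent.S34.PcgHyp
import Fermat.Agent.S34.Generic.SwapX0
import Fermat.Agent.S34.Generic.FibAlphaX0
import Fermat.Agent.S34.Generic.FibBetaX0
import Fermat.Agent.S34.FrobK
import Fermat.Agent.S37.Deuring.HypX0
import Fermat.Agent.S34.LevelMSurjX0

set_option autoImplicit false
set_option linter.unusedSectionVars false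
set_option linter.style.haveILetI false
set_option synthInstance.maxHeartbeats 400000

noncomputable section

namespace Fermat.Agent.S34.CoreZX0Assembly

open ModularCurve AlgebraicCurve IsLocalRing
open Fermat.Agent.S18.NonSpecial Fermat.Agent.S34.NodalDefs
open Fermat.Agent.S34.Z1X0 Fermat.Agent.S34.CoreZX0Datum
open Fermat.Agent.S37.Deuring.Core Fermat.Agent.S37.Gauss.Datum
open Fermat.Agent.S34.Generic.Compat Fermat.Agent.S34.Generic.RestrAlong
open Fermat.Agent.S34.Generic.SmoothRedOfGeneric Fermat.Agent.S34.Generic.SwapX0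
open Fermat.Agent.S34.Generic.FibAlphaX0 Fermat.Agent.S34.Generic.FibBetaX0
open Fermat.Agent.S34.WqGalois

local notation "Kb" => AlgebraicClosure ℚ

/-- shortcut instances (all propositions) -/
local instance instPDBar (N : ℕ) [NeZero N] :
    HasPrincipalDivisors Kb ↥(modularFunctionFieldBar N) :=
  Fermat.Agent.S18.A.Instances.hasPrincipalDivisors_bar N

local instance instPDFk (A : ValuationSubring Kb) (N : ℕ) [NeZero N] :
    HasPrincipalDivisors (ResidueField ↥A) ↥(modularFunctionFieldFullC (ResidueField ↥A) N) :=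
  Fermat.Agent.S37.ReductionInputs.hasPrincipalDivisors_Fk A N

local instance instACk (A : ValuationSubring Kb) : IsAlgClosed (ResidueField ↥A) :=
  Fermat.Agent.S18.ResidueBasics.isAlgClosed_residueField A

local instance instInfk (A : ValuationSubring Kb) : Infinite (ResidueField ↥A) :=
  Fermat.Agent.S37.ReductionInputs.infinite_residueField A

local instance instNeZeroMul (M q : ℕ) [NeZero M] [NeZero q] : NeZero (M * q) :=
  ⟨Nat.mul_ne_zero (NeZero.ne M) (NeZero.ne q)⟩

variable {q : ℕ} [hq : Fact q.Prime] {M : ℕ} [NeZero M] {A : ValuationSubring Kb} [NeZero q]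
variable (hA : A.LiesOverPrime q) (hqM : ¬ q ∣ M)
variable {gL gk : ℕ} (H : Hyp (gaussDatum M A hA hqM) gL gk)
variable [CharP (ResidueField ↥A) q]

/-- restriction of places along `α` -/
def raX : Restr Kb ((heckeAlphaBar Kb M q : ↥(modularFunctionFieldBar M) →ₐ[Kb]
    ↥(modularFunctionFieldBar (M * q))) : ↥(modularFunctionFieldBar M) →+*
    ↥(modularFunctionFieldBar (M * q))) :=
  restrAlong (heckeAlphaBar Kb M q) (isIntegral_alpha hqM)

/-- restriction of places along `β` -/
def rbX (M q : ℕ) [NeZero M] [NeZero q] : Restr Kb ((heckeBetaBar Kb M q :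
    ↥(modularFunctionFieldBar M) →ₐ[Kb] ↥(modularFunctionFieldBar (M * q))) :
    ↥(modularFunctionFieldBar M) →+* ↥(modularFunctionFieldBar (M * q))) :=
  restrAlong (heckeBetaBar Kb M q) (isIntegral_beta M q)

variable {hA hqM} in
/-- the total specialisation map along `α` -/
def sp1 (P : Place Kb ↥(modularFunctionFieldBar (M * q))) :
    Place (ResidueField ↥A) ↥(modularFunctionFieldFullC (ResidueField ↥A) M) :=
  placeMap H (resAlong (heckeAlphaBar Kb M q) (isIntegral_alpha hqM) P)

variable {hA hqM} in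
/-- the total specialisation map along `β` -/
def sp2 (P : Place Kb ↥(modularFunctionFieldBar (M * q))) :
    Place (ResidueField ↥A) ↥(modularFunctionFieldFullC (ResidueField ↥A) M) :=
  placeMap H (resAlong (heckeBetaBar Kb M q) (isIntegral_beta M q) P)

set_option maxHeartbeats 1600000 in
/-- **The first component**: what `GaussPairX0` + `Generic/…X0` + `FiniteNonGeneric` deliver. -/
structure Inputs where
  /-- the first branch -/
  B₁ : Branch A (residue ↥A) ↥(modularFunctionFieldBar (M * q))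
    ↥(modularFunctionFieldFullC (ResidueField ↥A) M)
  O_eq : B₁.O = V1X0 hA hqM
  α_mem : ∀ g : (redDatum H).O, heckeAlphaBar Kb M q (g : ↥(modularFunctionFieldBar M)) ∈ B₁.O
  red_α : ∀ g : (redDatum H).O,
    B₁.red ⟨heckeAlphaBar Kb M q (g : ↥(modularFunctionFieldBar M)), α_mem g⟩ = (redDatum H).red g
  β_mem : ∀ g : (redDatum H).O, heckeBetaBar Kb M q (g : ↥(modularFunctionFieldBar M)) ∈ B₁.O
  /-- `w_q` exchanges the two Gauss rings -/
  comap_eq : (V1X0 hA hqM).comap ((wq M q hq.out hqM :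
      ↥(modularFunctionFieldBar (M * q)) ≃ₐ[Kb] ↥(modularFunctionFieldBar (M * q))) :
      ↥(modularFunctionFieldBar (M * q)) →+* ↥(modularFunctionFieldBar (M * q))) = V2X0 hA hqM
  /-- the generic places -/
  good : Set (Place (ResidueField ↥A) ↥(modularFunctionFieldFullC (ResidueField ↥A) M))
  generic : ∀ Q ∈ good, GenericAt (r := placeMap H) (raX hqM) (rbX M q)
    (redOneOfBranch (R := redDatum H) B₁ α_mem red_α β_mem) Q
    (Fermat.Agent.S34.FrobK.Fr (ResidueField ↥A) M q Q)
    ((Fermat.Agent.S34.FrobK.Fr (ResidueField ↥A) M q).symm Q)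
  finite_compl : goodᶜ.Finite
  Fr_Fr_ne : ∀ Q ∈ good, Fermat.Agent.S34.FrobK.Fr (ResidueField ↥A) M q
    (Fermat.Agent.S34.FrobK.Fr (ResidueField ↥A) M q Q) ≠ Q
  Fr_mem_iff : ∀ Q, Fermat.Agent.S34.FrobK.Fr (ResidueField ↥A) M q Q ∈ good ↔ Q ∈ good
  /-- finite sets of places lie in finite `Fr`-stable sets -/
  stable : ∀ T : Set (Place (ResidueField ↥A) ↥(modularFunctionFieldFullC (ResidueField ↥A) M)),
    T.Finite → ∃ T' : Set (Place (ResidueField ↥A)
      ↥(modularFunctionFieldFullC (ResidueField ↥A) M)), T'.Finite ∧ T ⊆ T' ∧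
      ∀ Q, Fermat.Agent.S34.FrobK.Fr (ResidueField ↥A) M q Q ∈ T' ↔ Q ∈ T'

variable {hA hqM H}

/-- the first component -/
def R1 (X : Inputs hA hqM H) : SmoothRed A (residue ↥A) ↥(modularFunctionFieldBar (M * q))
    ↥(modularFunctionFieldFullC (ResidueField ↥A) M) :=
  smoothRedOfGeneric (R := redDatum H) X.B₁ X.α_mem X.red_α X.β_mem (raX hqM) (rbX M q)
    (Fermat.Agent.S34.FrobK.Fr (ResidueField ↥A) M q)
    (Fermat.Agent.S34.FrobK.Fr (ResidueField ↥A) M q).symm X.good X.generic

/-- the second component -/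
def R2 (X : Inputs hA hqM H) : SmoothRed A (residue ↥A) ↥(modularFunctionFieldBar (M * q))
    ↥(modularFunctionFieldFullC (ResidueField ↥A) M) :=
  smoothRedComap (R1 X) (wq M q hq.out hqM)

theorem R1_O (X : Inputs hA hqM H) : (R1 X).O = V1X0 hA hqM := X.O_eq

theorem R2_O (X : Inputs hA hqM H) : (R2 X).O = V2X0 hA hqM := by
  rw [← X.comap_eq, ← X.O_eq]
  rfl

theorem R1_r (X : Inputs hA hqM H) :
    (R1 X).r = rOne (placeMap H) (restrAlong (heckeAlphaBar Kb M q) (isIntegral_alpha hqM))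
      (restrAlong (heckeBetaBar Kb M q) (isIntegral_beta M q))
      (Fermat.Agent.S34.FrobK.Fr (ResidueField ↥A) M q) X.good := rfl

/-- exclusivity of the two kinds of generic residue discs -/
theorem excl (X : Inputs hA hqM H) (P : Place Kb ↥(modularFunctionFieldBar (M * q)))
    (Q1 Q2 : Place (ResidueField ↥A) ↥(modularFunctionFieldFullC (ResidueField ↥A) M))
    (h1 : (R1 X).r P = some Q1) (h2 : (R2 X).r P = some Q2) : False :=
  excl_of_swap (placeMap H) (heckeAlphaBar Kb M q) (heckeBetaBar Kb M q) (isIntegral_alpha hqM)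
    (isIntegral_beta M q) (wq M q hq.out hqM) (fun g => wq_alpha hq.out hqM g)
    (fun g => wq_beta hq.out hqM g) (Fermat.Agent.S34.FrobK.Fr (ResidueField ↥A) M q) X.good
    X.Fr_Fr_ne (R1 X) (R1_r X) P Q1 Q2 h1 h2

set_option maxHeartbeats 1600000 in
/-- **The nodes**: what `Euler/…` + `EulerX0` + `PcgOfChart` + `MultOfAlpha` + `Generic/InertiaSp`
deliver. -/
structure Nodes (X : Inputs hA hqM H) where
  /-- the nodes, as places of the second component -/
  S : Finset (Place (ResidueField ↥A) ↥(modularFunctionFieldFullC (ResidueField ↥A) M))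
  /-- the cusps of the special fibre -/
  cusp : Set (Place (ResidueField ↥A) ↥(modularFunctionFieldFullC (ResidueField ↥A) M))
  hyp : Fermat.Agent.S34.PcgHyp.Hyp (R1 X) (R2 X)
    (Fermat.Agent.S34.FrobK.Fr (ResidueField ↥A) M q) (sp1 H) (sp2 H) cusp S
  /-- the genus of `E` -/
  gE : ℕ
  HL : RiemannHyp Kb ↥(modularFunctionFieldBar (M * q)) gE
  /-- (NC), Euler characteristic -/
  hNC : (gE : ℤ) + 1 ≤ gk + gk + S.card
  /-- inertia preserves the two total specialisation maps -/
  sp1_smul : ∀ σ ∈ A.inertiaSubgroupIn ℚ, ∀ P : Place Kb ↥(modularFunctionFieldBar (M * q)),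
    sp1 H (arithmeticGalois (modularFunctionFieldFull (M * q)) σ • P) = sp1 H P
  sp2_smul : ∀ σ ∈ A.inertiaSubgroupIn ℚ, ∀ P : Place Kb ↥(modularFunctionFieldBar (M * q)),
    sp2 H (arithmeticGalois (modularFunctionFieldFull (M * q)) σ • P) = sp2 H P

/-- the nodal datum -/
def nodal (X : Inputs hA hqM H) (Y : Nodes X) :
    GNodalDatum A (residue ↥A) ↥(modularFunctionFieldBar (M * q))
      ↥(modularFunctionFieldFullC (ResidueField ↥A) M)
      ↥(modularFunctionFieldFullC (ResidueField ↥A) M) {b // b ∈ Y.S} :=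
  Fermat.Agent.S34.PcgHyp.gNodalDatum (R1 X) (R2 X)
    (Fermat.Agent.S34.FrobK.Fr (ResidueField ↥A) M q) (sp1 H) (sp2 H) Y.cusp Y.S Y.hyp
    X.finite_compl (excl X) X.Fr_mem_iff X.stable

theorem nodal_R1 (X : Inputs hA hqM H) (Y : Nodes X) : (nodal X Y).R1 = R1 X := rfl

theorem nodal_R2 (X : Inputs hA hqM H) (Y : Nodes X) : (nodal X Y).R2 = R2 X := rfl

/-- inertia preserves the first partial specialisation map -/
theorem r1_smul (X : Inputs hA hqM H) (Y : Nodes X) (σ : Kb ≃ₐ[ℚ] Kb)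
    (hσ : σ ∈ A.inertiaSubgroupIn ℚ) (P : Place Kb ↥(modularFunctionFieldBar (M * q))) :
    (R1 X).r (arithmeticGalois (modularFunctionFieldFull (M * q)) σ • P) = (R1 X).r P := by
  rw [R1_r]
  exact rOne_eq_of_res (placeMap H) _ _ _ X.good P _ (Y.sp1_smul σ hσ P) (Y.sp2_smul σ hσ P)

/-- inertia preserves the second partial specialisation map -/
theorem r2_smul (X : Inputs hA hqM H) (Y : Nodes X) (σ : Kb ≃ₐ[ℚ] Kb)
    (hσ : σ ∈ A.inertiaSubgroupIn ℚ) (P : Place Kb ↥(modularFunctionFieldBar (M * q))) :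
    (R2 X).r (arithmeticGalois (modularFunctionFieldFull (M * q)) σ • P) = (R2 X).r P :=
  smoothRedComap_r_eq_of_res (placeMap H) (heckeAlphaBar Kb M q) (heckeBetaBar Kb M q)
    (isIntegral_alpha hqM) (isIntegral_beta M q) (wq M q hq.out hqM)
    (fun g => wq_alpha hq.out hqM g) (fun g => wq_beta hq.out hqM g)
    (Fermat.Agent.S34.FrobK.Fr (ResidueField ↥A) M q) X.good (R1 X) (R1_r X) P _
    (Y.sp1_smul σ hσ P) (Y.sp2_smul σ hσ P)

/-- a place of `E` of type 1 over a generic place -/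
theorem exists_typeOne (X : Inputs hA hqM H) :
    ∃ (P : Place Kb ↥(modularFunctionFieldBar (M * q)))
      (Q : Place (ResidueField ↥A) ↥(modularFunctionFieldFullC (ResidueField ↥A) M)),
      Q ∈ (R1 X).good ∧ (R1 X).r P = some Q := by
  haveI := H.riemannK.infinite
  obtain ⟨Q, hQ⟩ : ∃ Q, Q ∈ X.good := by
    by_contra hne
    have hall : X.goodᶜ = Set.univ := by
      ext Q
      simp only [Set.mem_compl_iff, Set.mem_univ, iff_true]
      exact fun h => hne ⟨Q, h⟩
    have hfin := X.finite_compl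
    rw [hall] at hfin
    exact Set.infinite_univ hfin
  obtain ⟨PM, hPM⟩ := Fermat.Agent.S34.LevelMSurjX0.placeMap_surjective_X0 hA hqM H Q
  obtain ⟨P, hres, hb, -, -⟩ := (X.generic Q hQ).fibα PM hPM
  refine ⟨P, Q, hQ, ?_⟩
  rw [R1_r]
  refine (rOne_eq_some_iff _ _ _ X.good P Q).mpr ⟨hQ, ?_, hb⟩
  change placeMap H ((raX hqM).res P) = Q
  rw [hres, hPM]

set_option maxHeartbeats 1600000 in
/-- **The nodal datum of `E = ℚ̄(X₀(M q))`.** -/
theorem nonempty_x0Datum (X : Inputs hA hqM H) (Y : Nodes X) : Nonempty (X0Datum hA hqM) := by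
  obtain ⟨Pstar, Qstar, hQstar, hstar⟩ := exists_typeOne X
  -- `j` on the two components
  let jR : (redDatum H).O := Fermat.Agent.S37.Deuring.HypX0.jO hA hqM
  have hjR : (redDatum H).red jR = Fermat.Agent.S18.B.FkBasics.jk (ResidueField ↥A) M :=
    Fermat.Agent.S37.Deuring.HypX0.red_jO hA hqM
  have hw : wq M q hq.out hqM (heckeBetaBar Kb M q (jR : ↥(modularFunctionFieldBar M))) =
      heckeAlphaBar Kb M q (jR : ↥(modularFunctionFieldBar M)) := wq_beta hq.out hqM _
  have hmem2 : heckeBetaBar Kb M q (jR : ↥(modularFunctionFieldBar M)) ∈ (R2 X).O := by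
    show _ ∈ X.B₁.O.comap _
    rw [ValuationSubring.mem_comap]
    show wq M q hq.out hqM _ ∈ X.B₁.O
    rw [hw]
    exact X.α_mem jR
  refine ⟨{
    S := Y.S
    N := nodal X Y
    O1_eq := R1_O X
    O2_eq := R2_O X
    e2_injective := Fermat.Agent.S34.PcgHyp.injective_e2 _ _ _ _ _ _ _ _ _ _ _ _
    adm_finite := Fermat.Agent.S34.PcgHyp.adm_finite _ _ _ _ _ _ _ _ _ _ _ _
    g := Y.gE
    gk := gk
    HL := Y.HL
    Hk := H.riemannK
    hNC := Y.hNC
    x1 := ⟨_, X.α_mem jR⟩
    hx1 := ?_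
    x2 := ⟨_, hmem2⟩
    hx2 := ?_
    Pstar := Pstar
    Qstar := Qstar
    hQstar := hQstar
    hstar := hstar
    r1_smul := r1_smul X Y
    r2_smul := r2_smul X Y }⟩
  · exact (X.red_α jR).trans hjR
  · show X.B₁.red ⟨wq M q hq.out hqM _, _⟩ = _
    have he : (⟨wq M q hq.out hqM (heckeBetaBar Kb M q (jR : ↥(modularFunctionFieldBar M))),
        hmem2⟩ : X.B₁.O) = ⟨_, X.α_mem jR⟩ := Subtype.ext hw
    rw [he]
    exact (X.red_α jR).trans hjR

/-- **(Core-Z) at `E = ℚ̄(X₀(M q))` in divisor language, from the producers' outputs.** -/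
theorem principalHyp_of_inputs {q : ℕ} [hq : Fact q.Prime] {M : ℕ} [NeZero M] [NeZero q] {p : ℕ}
    (hp : p.Prime) (hpq : p ≠ q)
    (HH : ∀ (A : ValuationSubring Kb) (hA : A.LiesOverPrime q) (hqM : ¬ q ∣ M),
      haveI := Fermat.Agent.S18.ResidueBasics.charP_residueField A hA
      ∃ (gL gk : ℕ) (H : Hyp (gaussDatum M A hA hqM) gL gk) (X : Inputs hA hqM H),
        Nonempty (Nodes X)) :
    Fermat.Agent.S34.CoreZX0OfPrincipal.PrincipalHyp M q p := by
  refine principalHyp_of_datum hp hpq fun A hA hqM => ?_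
  haveI := Fermat.Agent.S18.ResidueBasics.charP_residueField A hA
  obtain ⟨gL, gk, H, X, ⟨Y⟩⟩ := HH A hA hqM
  exact nonempty_x0Datum X Y

end Fermat.Agent.S34.CoreZX0Assembly
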