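/-
PROJECT U (S34), ROUTE G, final assembly, auxiliary (helper6):
THE RESIDUE FIELD OF A VALUATION SUBRING `A ∣ q` OF `ℚ̄` IS ALGEBRAIC OVER `𝔽_q`, in the form
consumed by `FrobK.exists_finite_stable` / `FrobK.exists_iterate_Fr_eq`:
every `c ∈ κ(A)` is fixed by a positive power of the `q`-Frobenius.

* `exists_pow_eq_self hA c : ∃ m, 0 < m ∧ c ^ q ^ m = c`;
* `exists_finite_stable_X0 hA M T hT` : every finite set of places of `κ(A)(X₀(M))` lies in a
  finite `Fr`-stable set (the hypothesis `hstab` of `PcgCusp.gNodalDatum`).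
-/
import Fermat.Agent.S34.FrobK
import Fermat.Agent.S18.C.SmallDVR
import Fermat.Agent.S37.ReductionInputs

set_option autoImplicit false
set_option linter.unusedSectionVars false
set_option linter.style.haveILetI false
set_option synthInstance.maxHeartbeats 400000

noncomputable section

namespace Fermat.Agent.S34.ResidueFrobX0

open IsLocalRing Polynomial IntermediateField AlgebraicCurve ModularCurve

local notation "Kb" => AlgebraicClosure ℚ

variable {A : ValuationSubring Kb} {q : ℕ} [hq : Fact q.Prime]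

/-- every element of the residue field of `A ∣ q` is fixed by a positive power of Frobenius -/
theorem exists_pow_eq_self (hA : A.LiesOverPrime q) (c : ResidueField ↥A) :
    ∃ m : ℕ, 0 < m ∧ c ^ q ^ m = c := by
  haveI : CharP (ResidueField ↥A) q := Fermat.Agent.S18.ResidueBasics.charP_residueField A hA
  obtain ⟨f, hfm, hf0, -⟩ := Fermat.Agent.S18.C.SmallDVR.exists_monic_int_simple_root hA c
  let φ : ZMod q →+* ResidueField ↥A := ZMod.castHom (dvd_refl q) (ResidueField ↥A)
  letI : Algebra (ZMod q) (ResidueField ↥A) := φ.toAlgebra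
  have hφ : φ.comp (Int.castRingHom (ZMod q)) = Int.castRingHom (ResidueField ↥A) :=
    RingHom.ext_int _ _
  have hint : IsIntegral (ZMod q) c := by
    refine ⟨f.map (Int.castRingHom (ZMod q)), hfm.map _, ?_⟩
    rw [eval₂_map]
    show eval₂ (φ.comp (Int.castRingHom (ZMod q))) c f = 0
    rw [hφ]
    exact hf0
  haveI : FiniteDimensional (ZMod q) (ZMod q)⟮c⟯ := adjoin.finiteDimensional hint
  haveI : Finite (ZMod q)⟮c⟯ := Module.finite_of_finite (ZMod q)
  haveI : Fintype (ZMod q)⟮c⟯ := Fintype.ofFinite _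
  have hcard : Fintype.card (ZMod q)⟮c⟯ = q ^ Module.finrank (ZMod q) (ZMod q)⟮c⟯ := by
    rw [Module.card_eq_pow_finrank (K := ZMod q) (V := (ZMod q)⟮c⟯), ZMod.card]
  refine ⟨Module.finrank (ZMod q) (ZMod q)⟮c⟯, Module.finrank_pos, ?_⟩
  have h := FiniteField.pow_card (⟨c, mem_adjoin_simple_self (ZMod q) c⟩ : (ZMod q)⟮c⟯)
  rw [hcard] at h
  exact congrArg Subtype.val h

/-- **finite sets of places of `κ(A)(X₀(M))` lie in finite `Fr`-stable sets** -/
theorem exists_finite_stable_X0 (hA : A.LiesOverPrime q) (M : ℕ) [NeZero M]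
    [CharP (ResidueField ↥A) q] [PerfectField (ResidueField ↥A)] [IsAlgClosed (ResidueField ↥A)]
    (T : Set (Place (ResidueField ↥A) ↥(modularFunctionFieldFullC (ResidueField ↥A) M)))
    (hT : T.Finite) :
    ∃ T' : Set (Place (ResidueField ↥A) ↥(modularFunctionFieldFullC (ResidueField ↥A) M)),
      T'.Finite ∧ T ⊆ T' ∧
        ∀ Q, Fermat.Agent.S34.FrobK.Fr (ResidueField ↥A) M q Q ∈ T' ↔ Q ∈ T' :=
  haveI := Fermat.Agent.S37.ReductionInputs.hasPrincipalDivisors_Fk A M
  Fermat.Agent.S34.FrobK.exists_finite_stable (ResidueField ↥A) M q (exists_pow_eq_self hA) T hT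

end Fermat.Agent.S34.ResidueFrobX0
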