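/-
PROJECT U (S34), ROUTE G, FINAL ASSEMBLY, layer 2' (helper6):
THE NODAL DATUM `CoreZX0Datum.X0Datum` OF `E = ℚ̄(X₀(M q))` AS AN EXPLICIT TERM, with the node
hypotheses in helper29's FINAL form `PcgCusp.Hyp` (chart-0 functions described by the true cusps
`cuspL` of the generic fibre) and the inertia invariance of the two partial specialisation maps
discharged (`Generic/InertiaSpSwap`).

Setting and first component: `CoreZX0Assembly.Inputs hA hqM H`, `R1 X`, `R2 X`.

* `NodesC X` : the node set `S`, `cuspL`, `PcgCusp.Hyp (R1 X) (R2 X) Fr (sp1 H) (sp2 H) cuspL S`,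
  the genus of `E` and the Euler characteristic inequality;
* `nodalC X Y : GNodalDatum …` (`= PcgCusp.gNodalDatum …`, so `e1 b = Fr b`, `e2 b = b` by `rfl`);
* `x0DatumOf X Y : X0Datum hA hqM` with `(x0DatumOf X Y).N = nodalC X Y`, `.S = Y.S` by `rfl`
  (consumed by S35 as an explicit term);
* `principalHyp_of_inputsC`.
-/
import Fermat.Agent.S34.CoreZX0Assembly
import Fermat.Agent.S34.PcgCusp
import Fermat.Agent.S34.Generic.InertiaSpSwap
import Fermat.Agent.S34.ResidueFrobX0

set_option autoImplicit false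
set_option linter.unusedSectionVars false
set_option linter.style.haveILetI false
set_option synthInstance.maxHeartbeats 400000

noncomputable section

namespace Fermat.Agent.S34.CoreZX0Build

open ModularCurve AlgebraicCurve IsLocalRing
open Fermat.Agent.S18.NonSpecial Fermat.Agent.S34.NodalDefs
open Fermat.Agent.S34.Z1X0 Fermat.Agent.S34.CoreZX0Datum Fermat.Agent.S34.CoreZX0Assembly
open Fermat.Agent.S37.Deuring.Core Fermat.Agent.S37.Gauss.Datum
open Fermat.Agent.S34.Generic.Compat Fermat.Agent.S34.Generic.RestrAlong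
open Fermat.Agent.S34.Generic.SmoothRedOfGeneric Fermat.Agent.S34.Generic.SwapX0
open Fermat.Agent.S34.Generic.FibAlphaX0 Fermat.Agent.S34.Generic.FibBetaX0
open Fermat.Agent.S34.WqGalois

local notation "Kb" => AlgebraicClosure ℚ

/-- shortcut instances (all propositions) -/
local instance instPDBar (N : ℕ) [NeZero N] :
    HasPrincipalDivisors Kb ↥(modularFunctionFieldBar N) :=
  Fermat.Agent.S18.A.Instances.hasPrincipalDivisors_bar N

local instance instPDFk (A : ValuationSubring Kb) (N : ℕ) [NeZero N] :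
    HasPrincipalDivisors (ResidueField ↥A) ↥(modularFunctionFieldFullC (ResidueField ↥A) N) :=
  Fermat.Agent.S37.ReductionInputs.hasPrincipalDivisors_Fk A N

local instance instACk (A : ValuationSubring Kb) : IsAlgClosed (ResidueField ↥A) :=
  Fermat.Agent.S18.ResidueBasics.isAlgClosed_residueField A

local instance instInfk (A : ValuationSubring Kb) : Infinite (ResidueField ↥A) :=
  Fermat.Agent.S37.ReductionInputs.infinite_residueField A

local instance instNeZeroMul (M q : ℕ) [NeZero M] [NeZero q] : NeZero (M * q) :=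
  ⟨Nat.mul_ne_zero (NeZero.ne M) (NeZero.ne q)⟩

variable {q : ℕ} [hq : Fact q.Prime] {M : ℕ} [NeZero M] {A : ValuationSubring Kb} [NeZero q]
variable {hA : A.LiesOverPrime q} {hqM : ¬ q ∣ M}
variable {gL gk : ℕ} {H : Hyp (gaussDatum M A hA hqM) gL gk}
variable [CharP (ResidueField ↥A) q]

set_option maxHeartbeats 1600000 in
/-- **The nodes** (final form): what `EulerClosedX0` + `PcgX0` deliver. -/
structure NodesC (X : Inputs hA hqM H) where
  /-- the nodes, as places of the second component -/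
  S : Finset (Place (ResidueField ↥A) ↥(modularFunctionFieldFullC (ResidueField ↥A) M))
  /-- the true cusps of `X₀(M q)` -/
  cuspL : Set (Place Kb ↥(modularFunctionFieldBar (M * q)))
  hyp : Fermat.Agent.S34.PcgCusp.Hyp (R1 X) (R2 X)
    (Fermat.Agent.S34.FrobK.Fr (ResidueField ↥A) M q) (sp1 H) (sp2 H) cuspL S
  /-- the genus of `E` -/
  gE : ℕ
  HL : RiemannHyp Kb ↥(modularFunctionFieldBar (M * q)) gE
  /-- (NC), Euler characteristic -/
  hNC : (gE : ℤ) + 1 ≤ gk + gk + S.card

/-- the nodal datum -/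
def nodalC (X : Inputs hA hqM H) (Y : NodesC X) :
    GNodalDatum A (residue ↥A) ↥(modularFunctionFieldBar (M * q))
      ↥(modularFunctionFieldFullC (ResidueField ↥A) M)
      ↥(modularFunctionFieldFullC (ResidueField ↥A) M) {b // b ∈ Y.S} :=
  Fermat.Agent.S34.PcgCusp.gNodalDatum (R1 X) (R2 X)
    (Fermat.Agent.S34.FrobK.Fr (ResidueField ↥A) M q) (sp1 H) (sp2 H) Y.cuspL Y.S Y.hyp
    X.finite_compl (excl X) X.Fr_mem_iff X.stable

@[simp] theorem nodalC_R1 (X : Inputs hA hqM H) (Y : NodesC X) : (nodalC X Y).R1 = R1 X := rfl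

@[simp] theorem nodalC_R2 (X : Inputs hA hqM H) (Y : NodesC X) : (nodalC X Y).R2 = R2 X := rfl

@[simp] theorem nodalC_e1 (X : Inputs hA hqM H) (Y : NodesC X) (b : {b // b ∈ Y.S}) :
    (nodalC X Y).e1 b = Fermat.Agent.S34.FrobK.Fr (ResidueField ↥A) M q b.1 := rfl

@[simp] theorem nodalC_e2 (X : Inputs hA hqM H) (Y : NodesC X) (b : {b // b ∈ Y.S}) :
    (nodalC X Y).e2 b = b.1 := rfl

theorem nodalC_adm_iff (X : Inputs hA hqM H) (Y : NodesC X)
    (S1 S2 : Set (Place (ResidueField ↥A) ↥(modularFunctionFieldFullC (ResidueField ↥A) M))) :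
    (nodalC X Y).Adm S1 S2 ↔ Fermat.Agent.S34.PcgOfSandwich.Adm
      (Fermat.Agent.S34.FrobK.Fr (ResidueField ↥A) M q) X.good S1 S2 := Iff.rfl

/-- inertia preserves the first partial specialisation map -/
theorem r1_smul (X : Inputs hA hqM H) : ∀ σ ∈ A.inertiaSubgroupIn ℚ,
    ∀ P : Place Kb ↥(modularFunctionFieldBar (M * q)),
      (R1 X).r (arithmeticGalois (modularFunctionFieldFull (M * q)) σ • P) = (R1 X).r P :=
  Fermat.Agent.S34.Generic.InertiaSpSwap.r1_smul hA hqM
    (Fermat.Agent.S34.Generic.InertiaSp.isPlaceReductionAlong_placeMap hA hqM H)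
    (Fermat.Agent.S34.Generic.InertiaSp.principalGeneratedByIntegral_X0 hA hqM)
    (isIntegral_alpha hqM) (isIntegral_beta M q)
    (Fermat.Agent.S34.FrobK.Fr (ResidueField ↥A) M q) X.good (R1 X) (R1_r X)

/-- inertia preserves the second partial specialisation map -/
theorem r2_smul (X : Inputs hA hqM H) : ∀ σ ∈ A.inertiaSubgroupIn ℚ,
    ∀ P : Place Kb ↥(modularFunctionFieldBar (M * q)),
      (R2 X).r (arithmeticGalois (modularFunctionFieldFull (M * q)) σ • P) = (R2 X).r P :=
  Fermat.Agent.S34.Generic.InertiaSpSwap.r2_smul hA hqM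
    (Fermat.Agent.S34.Generic.InertiaSp.isPlaceReductionAlong_placeMap hA hqM H)
    (Fermat.Agent.S34.Generic.InertiaSp.principalGeneratedByIntegral_X0 hA hqM)
    (isIntegral_alpha hqM) (isIntegral_beta M q)
    (Fermat.Agent.S34.FrobK.Fr (ResidueField ↥A) M q) X.good (R1 X) (R1_r X)

/-- `j` as an element of the level-`M` Gauss ring of `redDatum H` -/
def jR (H : Hyp (gaussDatum M A hA hqM) gL gk) : (redDatum H).O :=
  Fermat.Agent.S37.Deuring.HypX0.jO hA hqM

theorem red_jR : (redDatum H).red (jR H) = Fermat.Agent.S18.B.FkBasics.jk (ResidueField ↥A) M :=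
  Fermat.Agent.S37.Deuring.HypX0.red_jO hA hqM

theorem wq_beta_jR : wq M q hq.out hqM (heckeBetaBar Kb M q (jR H : ↥(modularFunctionFieldBar M))) =
    heckeAlphaBar Kb M q (jR H : ↥(modularFunctionFieldBar M)) := wq_beta hq.out hqM _

theorem beta_jR_mem (X : Inputs hA hqM H) :
    heckeBetaBar Kb M q (jR H : ↥(modularFunctionFieldBar M)) ∈ (R2 X).O := by
  show _ ∈ X.B₁.O.comap _
  rw [ValuationSubring.mem_comap]
  show wq M q hq.out hqM _ ∈ X.B₁.O
  rw [wq_beta_jR]
  exact X.α_mem (jR H)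

theorem red_alpha_jR (X : Inputs hA hqM H) :
    (R1 X).red ⟨_, X.α_mem (jR H)⟩ = Fermat.Agent.S18.B.FkBasics.jk (ResidueField ↥A) M :=
  (X.red_α (jR H)).trans red_jR

theorem red_beta_jR (X : Inputs hA hqM H) :
    (R2 X).red ⟨_, beta_jR_mem X⟩ = Fermat.Agent.S18.B.FkBasics.jk (ResidueField ↥A) M := by
  show X.B₁.red ⟨wq M q hq.out hqM _, _⟩ = _
  have he : (⟨wq M q hq.out hqM (heckeBetaBar Kb M q (jR H : ↥(modularFunctionFieldBar M))),
      beta_jR_mem X⟩ : X.B₁.O) = ⟨_, X.α_mem (jR H)⟩ := Subtype.ext wq_beta_jR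
  rw [he]
  exact (X.red_α (jR H)).trans red_jR

set_option maxHeartbeats 1600000 in
/-- **The nodal datum of `E = ℚ̄(X₀(M q))`, as a term.** -/
def x0DatumOf (X : Inputs hA hqM H) (Y : NodesC X) : X0Datum hA hqM where
  S := Y.S
  N := nodalC X Y
  O1_eq := R1_O X
  O2_eq := R2_O X
  e2_injective := Fermat.Agent.S34.PcgCusp.injective_e2 _ _ _ _ _ _ _ _ _ _ _ _
  adm_finite := Fermat.Agent.S34.PcgCusp.adm_finite _ _ _ _ _ _ _ _ _ _ _ _
  g := Y.gE
  gk := gk
  HL := Y.HL
  Hk := H.riemannK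
  hNC := Y.hNC
  x1 := ⟨_, X.α_mem (jR H)⟩
  hx1 := red_alpha_jR X
  x2 := ⟨_, beta_jR_mem X⟩
  hx2 := red_beta_jR X
  Pstar := (exists_typeOne X).choose
  Qstar := (exists_typeOne X).choose_spec.choose
  hQstar := (exists_typeOne X).choose_spec.choose_spec.1
  hstar := (exists_typeOne X).choose_spec.choose_spec.2
  r1_smul := r1_smul X
  r2_smul := r2_smul X

@[simp] theorem x0DatumOf_S (X : Inputs hA hqM H) (Y : NodesC X) : (x0DatumOf X Y).S = Y.S := rfl

@[simp] theorem x0DatumOf_N (X : Inputs hA hqM H) (Y : NodesC X) :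
    (x0DatumOf X Y).N = nodalC X Y := rfl

/-- **(Core-Z) at `E = ℚ̄(X₀(M q))` in divisor language, from the producers' outputs.** -/
theorem principalHyp_of_inputsC {q : ℕ} [hq : Fact q.Prime] {M : ℕ} [NeZero M] [NeZero q] {p : ℕ}
    (hp : p.Prime) (hpq : p ≠ q)
    (HH : ∀ (A : ValuationSubring Kb) (hA : A.LiesOverPrime q) (hqM : ¬ q ∣ M),
      haveI := Fermat.Agent.S18.ResidueBasics.charP_residueField A hA
      ∃ (gL gk : ℕ) (H : Hyp (gaussDatum M A hA hqM) gL gk) (X : Inputs hA hqM H),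
        Nonempty (NodesC X)) :
    Fermat.Agent.S34.CoreZX0OfPrincipal.PrincipalHyp M q p := by
  refine principalHyp_of_datum hp hpq fun A hA hqM => ?_
  haveI := Fermat.Agent.S18.ResidueBasics.charP_residueField A hA
  obtain ⟨gL, gk, H, X, ⟨Y⟩⟩ := HH A hA hqM
  exact ⟨x0DatumOf X Y⟩

end Fermat.Agent.S34.CoreZX0Build
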