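import Mathlib

/-!
# PROJECT U (S34), Route G, slice (G3): the affine sandwich

`R₁`, `R₂` commutative rings (the affine coordinate rings of the two components of the special
fibre, off a finite set), `φ : R₁ →+* R₂` and `ψ : R₂ →+* R₁` ring homomorphisms (at `X₀(qM)` both
are the pull-back by the `q`-Frobenius), and `B` a subring of `R₁ × R₂` (the reduction of the
integral functions) which contains the two graphs

  `(g, φ g)`   (reduction of `α g`)   and   `(ψ g', g')`   (reduction of `β g'`).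

Then `glueIdeal B := {w | (0, w) ∈ B}` is an ideal of `R₂` and
`B = {(h₁, h₂) | h₂ - φ h₁ ∈ glueIdeal B}` (`mem_iff`).  The ideal contains every
`g' - φ (ψ g')` (`sub_mem_glueIdeal`).  If it contains a finite intersection of maximal ideals
(at `X₀(qM)`: the radical ideal of the `Fr²`-fixed points), it is the intersection of a subset of
them: the **nodes** (`exists_nodes`), and `B` is the ring of pairs glued along the nodes.
-/

set_option autoImplicit false

namespace Fermat.Agent.S34.Sandwich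

variable {R₁ R₂ : Type*} [CommRing R₁] [CommRing R₂]

/-- The hypothesis of the sandwich: `B` contains both graphs. -/
structure IsSandwich (φ : R₁ →+* R₂) (ψ : R₂ →+* R₁) (B : Subring (R₁ × R₂)) : Prop where
  graph₁ : ∀ g : R₁, (g, φ g) ∈ B
  graph₂ : ∀ g : R₂, (ψ g, g) ∈ B

/-- The gluing ideal `{w | (0, w) ∈ B}`. -/
def glueIdeal {φ : R₁ →+* R₂} {ψ : R₂ →+* R₁} {B : Subring (R₁ × R₂)}
    (h : IsSandwich φ ψ B) : Ideal R₂ where
  carrier := {w | ((0 : R₁), w) ∈ B}
  zero_mem' := B.zero_mem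
  add_mem' := by
    intro a b ha hb
    have := B.add_mem ha hb
    simpa using this
  smul_mem' := by
    intro c w hw
    have := B.mul_mem (h.graph₂ c) hw
    simpa using this

variable {φ : R₁ →+* R₂} {ψ : R₂ →+* R₁} {B : Subring (R₁ × R₂)}

theorem mem_glueIdeal (h : IsSandwich φ ψ B) {w : R₂} :
    w ∈ glueIdeal h ↔ ((0 : R₁), w) ∈ B := Iff.rfl

/-- **The sandwich.** `B` is the ring of pairs which are glued modulo the gluing ideal. -/
theorem mem_iff (h : IsSandwich φ ψ B) (h₁ : R₁) (h₂ : R₂) :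
    (h₁, h₂) ∈ B ↔ h₂ - φ h₁ ∈ glueIdeal h := by
  rw [mem_glueIdeal]
  constructor
  · intro hm
    have := B.sub_mem hm (h.graph₁ h₁)
    simpa using this
  · intro hm
    have := B.add_mem hm (h.graph₁ h₁)
    simpa using this

theorem mem_iff' (h : IsSandwich φ ψ B) (p : R₁ × R₂) :
    p ∈ B ↔ p.2 - φ p.1 ∈ glueIdeal h := mem_iff h p.1 p.2

/-- The gluing ideal contains `g - φ (ψ g)`. -/
theorem sub_mem_glueIdeal (h : IsSandwich φ ψ B) (g : R₂) : g - φ (ψ g) ∈ glueIdeal h := by
  rw [← mem_iff h]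
  exact h.graph₂ g

theorem span_le_glueIdeal (h : IsSandwich φ ψ B) :
    Ideal.span (Set.range fun g : R₂ => g - φ (ψ g)) ≤ glueIdeal h := by
  rw [Ideal.span_le]
  rintro _ ⟨g, rfl⟩
  exact sub_mem_glueIdeal h g

/-- The first gluing ideal `{w | (w, 0) ∈ B}` (symmetric statement). -/
def glueIdeal' (h : IsSandwich φ ψ B) : Ideal R₁ where
  carrier := {w | (w, (0 : R₂)) ∈ B}
  zero_mem' := B.zero_mem
  add_mem' := by
    intro a b ha hb
    have := B.add_mem ha hb
    simpa using this
  smul_mem' := by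
    intro c w hw
    have := B.mul_mem (h.graph₁ c) hw
    simpa using this

theorem mem_glueIdeal' (h : IsSandwich φ ψ B) {w : R₁} :
    w ∈ glueIdeal' h ↔ (w, (0 : R₂)) ∈ B := Iff.rfl

theorem mem_iff_left (h : IsSandwich φ ψ B) (h₁ : R₁) (h₂ : R₂) :
    (h₁, h₂) ∈ B ↔ h₁ - ψ h₂ ∈ glueIdeal' h := by
  rw [mem_glueIdeal']
  constructor
  · intro hm
    have := B.sub_mem hm (h.graph₂ h₂)
    simpa using this
  · intro hm
    have := B.add_mem hm (h.graph₂ h₂)
    simpa using this

theorem map_glueIdeal'_le (h : IsSandwich φ ψ B) {w : R₁} (hw : w ∈ glueIdeal' h) :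
    φ w ∈ glueIdeal h := by
  rw [mem_glueIdeal] at *
  rw [mem_glueIdeal'] at hw
  have := B.sub_mem (h.graph₁ w) hw
  simpa using this

theorem map_glueIdeal_le (h : IsSandwich φ ψ B) {w : R₂} (hw : w ∈ glueIdeal h) :
    ψ w ∈ glueIdeal' h := by
  rw [mem_glueIdeal'] at *
  rw [mem_glueIdeal] at hw
  have := B.sub_mem (h.graph₂ w) hw
  simpa using this

/-! ### Ideals containing a finite intersection of maximal ideals -/

/-- An ideal containing a finite intersection of maximal ideals is the intersection of those of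
them which contain it. -/
theorem eq_inf_of_inf_le {R : Type*} [CommRing R] (Z : Finset (Ideal R))
    (hmax : ∀ m ∈ Z, m.IsMaximal) (I : Ideal R) (hI : Z.inf id ≤ I) :
    ∃ S ⊆ Z, I = S.inf id := by
  classical
  refine ⟨Z.filter fun m => I ≤ m, Finset.filter_subset _ _, le_antisymm ?_ ?_⟩
  · apply Finset.le_inf
    intro m hm
    exact (Finset.mem_filter.mp hm).2
  · -- the maximal ideals of `Z` not containing `I` are comaximal with `I`
    set S := Z.filter fun m => I ≤ m with hS
    set T := Z.filter fun m => ¬ I ≤ m with hT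
    have hZ : Z.inf id = S.inf id ⊓ T.inf id := by
      rw [← Finset.inf_union, hS, hT, Finset.filter_union_filter_not_eq]
    -- `I ⊔ T.inf id = ⊤`
    have hcop : I ⊔ T.inf id = ⊤ := by
      have h1 : I ⊔ ⨅ m ∈ T, (id m : Ideal R) = ⊤ := by
        apply Ideal.sup_iInf_eq_top
        intro m hmT
        have hmZ : m ∈ Z := (Finset.mem_filter.mp hmT).1
        have hnot : ¬ I ≤ m := (Finset.mem_filter.mp hmT).2
        by_contra hne
        have h2 := (hmax m hmZ).eq_of_le hne le_sup_right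
        exact hnot (h2 ▸ le_sup_left)
      rwa [← Finset.inf_eq_iInf] at h1
    -- `S.inf id = S.inf id * ⊤ ≤ S.inf id * I + S.inf id * T.inf id ≤ I`
    intro x hx
    have hx1 : (1 : R) ∈ I ⊔ T.inf id := hcop ▸ Submodule.mem_top
    obtain ⟨a, ha, b, hb, hab⟩ := Submodule.mem_sup.mp hx1
    have : x = a * x + b * x := by rw [← add_mul, hab, one_mul]
    rw [this]
    refine I.add_mem (I.mul_mem_right _ ha) (hI ?_)
    rw [hZ]
    exact ⟨Ideal.mul_mem_left _ _ hx, Ideal.mul_mem_right _ _ hb⟩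

/-- **The nodes.**  If the ideal generated by the `g - φ (ψ g)` contains the intersection of a
finite set `Z` of maximal ideals of `R₂`, there is a subset `S ⊆ Z` (the nodes) such that
`B` is exactly the ring of pairs with `h₂ ≡ φ h₁` modulo every `m ∈ S`. -/
theorem exists_nodes (h : IsSandwich φ ψ B) (Z : Finset (Ideal R₂))
    (hmax : ∀ m ∈ Z, m.IsMaximal)
    (hJ : Z.inf id ≤ Ideal.span (Set.range fun g : R₂ => g - φ (ψ g))) :
    ∃ S ⊆ Z, glueIdeal h = S.inf id ∧
      ∀ (h₁ : R₁) (h₂ : R₂), (h₁, h₂) ∈ B ↔ ∀ m ∈ S, h₂ - φ h₁ ∈ m := by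
  obtain ⟨S, hS, hI⟩ := eq_inf_of_inf_le Z hmax (glueIdeal h) (hJ.trans (span_le_glueIdeal h))
  refine ⟨S, hS, hI, fun h₁ h₂ => ?_⟩
  rw [mem_iff h, hI]
  constructor
  · intro hm m hmS
    exact (Finset.inf_le hmS : S.inf id ≤ id m) hm
  · intro hm
    rw [Submodule.mem_finsetInf]
    exact hm

end Fermat.Agent.S34.Sandwich
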