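/-
PROJECT U (S34), Route G, `k`-side: **ideals of the holomorphy rings `holo k N S` of
`F_k = modularFunctionFieldFullC k N`** and the producer of the two hypotheses `hmax`, `hJ` of
`Sandwich.exists_nodes` at `R₁ = R₂ = holo k N S`, `φ = ψ = phiHolo`.

`S` a finite set of places containing `Q0` (the points at infinity of the chart),
`hR : RiemannHyp k F_k gk`.

* `exists_holo_unif` : a function regular off `S` which is a parameter at every place of a finite
  set `T` off `S`;
* `exists_holo_approx` : **strong approximation** in `holo S`: finitely many places `T` off `S`,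
  targets `t w` regular at `w`, an order `n`: some `a ∈ holo S` with
  `|a - t w|_w ≤ exp (-n)` for all `w ∈ T`;
* `mem_of_local` : **local-global principle** for an ideal `J` of `holo S`: if `J` has order `≤ 1`
  at the places of a finite set `Zs` off `S` and order `0` at every other place off `S`, then `J`
  contains every function of `holo S` vanishing on `Zs`;
* `mv S v` : the ideal of the functions of `holo S` vanishing at `v`; it is maximal for `v ∉ S`
  (`mv_isMaximal`) and `v ↦ mv S v` is injective off `S` (`mv_injOn`);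
* `inf_mv_le_span` : `⨅_{v ∈ Zs} mv S v ≤ span {g - φ (φ g)}` for `Zs` the `Fr²`-fixed places off
  `S` (literally `hJ` of `Sandwich.exists_nodes`);
* `exists_nodes_holo` : end-to-end: a subring `B` of `holo S × holo S` containing the two graphs
  of `φ` is the ring of the pairs `(h₁, h₂)` with `h₂(v) = h₁(Fr v)` at the places `v` of a finite
  set of `Fr²`-fixed places off `S` (the **nodes**); value form `exists_nodes_holo_value`.
-/
import Mathlib
import Fermat.Agent.S34.FrobK
import Fermat.Agent.S34.FrobKSep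
import Fermat.Agent.S34.Sandwich
import Fermat.Agent.S18.A.RiemannBasic

set_option autoImplicit false
set_option linter.unusedSectionVars false
set_option linter.style.haveILetI false

noncomputable section

namespace Fermat.Agent.S34.HoloIdeal

open AlgebraicCurve ModularCurve IntermediateField WithZero
open Fermat.Agent.S34.FrobK Fermat.Agent.S34.FrobKSep Fermat.Agent.S18.NonSpecial

/-! ### elementary facts in `ℤᵐ⁰` -/

theorem lt_one_iff_le_exp {x : ℤᵐ⁰} : x < 1 ↔ x ≤ exp (-1 : ℤ) := by
  rcases eq_or_ne x 0 with rfl | hx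
  · simp
  · rw [← exp_log hx, ← exp_zero, exp_lt_exp, exp_le_exp]
    omega

theorem exp_neg_succ (n : ℕ) : exp (-((n + 1 : ℕ) : ℤ)) = exp (-(n : ℤ)) * exp (-1 : ℤ) := by
  rw [← exp_add]
  congr 1
  push_cast
  ring

theorem exp_neg_nat_le_one (n : ℕ) : exp (-(n : ℤ)) ≤ (1 : ℤᵐ⁰) := by
  rw [← exp_zero, exp_le_exp]
  omega

variable (k : Type*) [Field k] (N : ℕ) [NeZero N]

theorem val_le_one_of_mem_holo {S : Set (Place k ↥(modularFunctionFieldFullC k N))} {g : ↥(modularFunctionFieldFullC k N)} (hg : g ∈ holo k N S)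
    {v : Place k ↥(modularFunctionFieldFullC k N)} (hv : v ∉ S) : v.adicValuation g ≤ 1 :=
  (Fermat.Agent.S24.Ord.mem_iff v g).mp (hg v hv)

theorem mem_holo_of_val {S : Set (Place k ↥(modularFunctionFieldFullC k N))} {g : ↥(modularFunctionFieldFullC k N)}
    (hg : ∀ v : Place k ↥(modularFunctionFieldFullC k N), v ∉ S → v.adicValuation g ≤ 1) : g ∈ holo k N S :=
  fun v hv => (Fermat.Agent.S24.Ord.mem_iff v g).mpr (hg v hv)

section Approx

variable {gk : ℕ} (hR : RiemannHyp k ↥(modularFunctionFieldFullC k N) gk)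
variable {S : Set (Place k ↥(modularFunctionFieldFullC k N))} {Q0 : Place k ↥(modularFunctionFieldFullC k N)} (hQ0 : Q0 ∈ S)

include hR hQ0 in
/-- a function regular off `S` which is a parameter at every place of a finite set off `S` -/
theorem exists_holo_unif (T : Finset (Place k ↥(modularFunctionFieldFullC k N))) (hT : ∀ w ∈ T, w ∉ S) :
    ∃ π ∈ holo k N S, ∀ w ∈ T, w.adicValuation π = exp (-1 : ℤ) := by
  classical
  -- local parameters
  have h1 : ∀ w ∈ T, ∃ p ∈ holo k N S, w.adicValuation p = exp (-1 : ℤ) := by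
    intro w hw
    obtain ⟨p, hp, hp1⟩ := exists_holo_param k N hR hQ0 (hT w hw)
    have hp0 : p ≠ 0 := by
      rintro rfl
      rw [Place.ord_zero] at hp1
      exact zero_ne_one hp1
    exact ⟨p, hp, by rw [Fermat.Agent.S24.Ord.adicValuation_eq w hp0, hp1]⟩
  choose! p hp hp1 using h1
  -- partition functions
  have h2 : ∀ w ∈ T, ∃ c ∈ holo k N S, ∀ Q ∈ T,
      Q.adicValuation (c - algebraMap k ↥(modularFunctionFieldFullC k N) (if Q = w then 1 else 0)) < 1 := by
    intro w _
    exact exists_holo_values k N hR hQ0 T hT (fun Q => if Q = w then 1 else 0)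
  choose! c hc hc1 using h2
  refine ⟨∑ w ∈ T, c w ^ 2 * p w, ?_, ?_⟩
  · exact Subalgebra.sum_mem _ fun w hw =>
      Subalgebra.mul_mem _ (Subalgebra.pow_mem _ (hc w hw) 2) (hp w hw)
  · intro w0 hw0
    rw [← Finset.add_sum_erase T _ hw0]
    -- the main term
    have hcw0 : w0.adicValuation (c w0) = 1 := by
      have h := hc1 w0 hw0 w0 hw0
      rw [if_pos rfl, map_one] at h
      have := Valuation.map_sub_eq_of_lt_left w0.adicValuation (x := (1 : ↥(modularFunctionFieldFullC k N))) (y := 1 - c w0) (by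
        rw [Valuation.map_one, ← Valuation.map_neg, neg_sub]
        exact h)
      rw [sub_sub_cancel, Valuation.map_one] at this
      exact this
    have hmain : w0.adicValuation (c w0 ^ 2 * p w0) = exp (-1 : ℤ) := by
      rw [map_mul, map_pow, hcw0, one_pow, one_mul, hp1 w0 hw0]
    have hrest : w0.adicValuation (∑ w ∈ T.erase w0, c w ^ 2 * p w) < exp (-1 : ℤ) := by
      refine Valuation.map_sum_lt _ exp_ne_zero fun w hw => ?_
      have hwT : w ∈ T := Finset.mem_of_mem_erase hw
      have hne : w0 ≠ w := (Finset.ne_of_mem_erase hw).symm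
      have h := hc1 w hwT w0 hw0
      rw [if_neg hne, map_zero, sub_zero] at h
      have h' : w0.adicValuation (c w) ≤ exp (-1 : ℤ) := lt_one_iff_le_exp.mp h
      have hpw : w0.adicValuation (p w) ≤ 1 := val_le_one_of_mem_holo k N (hp w hwT) (hT w0 hw0)
      rw [map_mul, map_pow]
      calc w0.adicValuation (c w) ^ 2 * w0.adicValuation (p w)
          ≤ exp (-1 : ℤ) ^ 2 * 1 := mul_le_mul' (pow_le_pow_left' h' 2) hpw
        _ < exp (-1 : ℤ) := by
          rw [mul_one, ← exp_nsmul, exp_lt_exp]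
          norm_num
    rw [Valuation.map_add_eq_of_lt_left _ (by rw [hmain]; exact hrest), hmain]

include hR hQ0 in
/-- **Strong approximation in `holo S`.** -/
theorem exists_holo_approx (T : Finset (Place k ↥(modularFunctionFieldFullC k N))) (hT : ∀ w ∈ T, w ∉ S)
    (t : Place k ↥(modularFunctionFieldFullC k N) → ↥(modularFunctionFieldFullC k N)) (ht : ∀ w ∈ T, w.adicValuation (t w) ≤ 1) (n : ℕ) :
    ∃ a ∈ holo k N S, ∀ w ∈ T, w.adicValuation (a - t w) ≤ exp (-(n : ℤ)) := by
  classical
  obtain ⟨π, hπ, hπ1⟩ := exists_holo_unif k N hR hQ0 T hT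
  induction n with
  | zero =>
    refine ⟨0, Subalgebra.zero_mem _, fun w hw => ?_⟩
    rw [zero_sub, Valuation.map_neg]
    simpa using ht w hw
  | succ n ih =>
    obtain ⟨a, ha, han⟩ := ih
    -- the values of `(a - t w) / π ^ n`
    have h1 : ∀ w ∈ T, ∃ β : k,
        w.adicValuation ((a - t w) / π ^ n - algebraMap k ↥(modularFunctionFieldFullC k N) β) < 1 := by
      intro w hw
      refine Fermat.Agent.S18.A.Riemann.exists_sub_const_lt_one w (hR.deg_one w) ?_
      rw [map_div₀, map_pow, hπ1 w hw, ← exp_nsmul]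
      rw [div_le_iff₀ exp_pos, one_mul]
      refine (han w hw).trans (le_of_eq ?_)
      congr 1
      simp
    choose! β hβ using h1
    obtain ⟨b, hb, hb1⟩ := exists_holo_values k N hR hQ0 T hT β
    refine ⟨a - b * π ^ n, Subalgebra.sub_mem _ ha
      (Subalgebra.mul_mem _ hb (Subalgebra.pow_mem _ hπ n)), fun w hw => ?_⟩
    have hπ0 : π ≠ 0 := by
      rintro rfl
      have := hπ1 w hw
      rw [map_zero] at this
      exact exp_ne_zero this.symm
    have e : a - b * π ^ n - t w =
        π ^ n * (((a - t w) / π ^ n - algebraMap k ↥(modularFunctionFieldFullC k N) (β w)) - (b - algebraMap k ↥(modularFunctionFieldFullC k N) (β w))) := by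
      field_simp
      ring
    rw [e, map_mul, map_pow, hπ1 w hw, exp_neg_succ, ← exp_nsmul]
    have h2 : w.adicValuation (((a - t w) / π ^ n - algebraMap k ↥(modularFunctionFieldFullC k N) (β w)) -
        (b - algebraMap k ↥(modularFunctionFieldFullC k N) (β w))) ≤ exp (-1 : ℤ) :=
      lt_one_iff_le_exp.mp (Valuation.map_sub_lt _ (hβ w hw) (hb1 w hw))
    refine mul_le_mul' (le_of_eq ?_) h2
    congr 1
    simp

end Approx

/-! ### the local-global principle for ideals of `holo S` -/

section LocalGlobal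

variable {gk : ℕ} (hR : RiemannHyp k ↥(modularFunctionFieldFullC k N) gk)
variable [HasPrincipalDivisors k ↥(modularFunctionFieldFullC k N)]
variable {S : Set (Place k ↥(modularFunctionFieldFullC k N))} {Q0 : Place k ↥(modularFunctionFieldFullC k N)} (hQ0 : Q0 ∈ S)

include hR hQ0 in
/-- **Local-global principle.**  Let `J` be an ideal of `holo S` (`S` finite) and `Zs` a finite
set of places.  If `J` contains, for every `v ∈ Zs`, an element of order `≤ 1` at `v`, and for
every `v ∉ S ∪ Zs` an element which is a unit at `v`, then `J` contains every `h ∈ holo S` which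
vanishes at all places of `Zs`. -/
theorem mem_of_local (hSfin : S.Finite) (J : Ideal ↥(holo k N S)) (Zs : Finset (Place k ↥(modularFunctionFieldFullC k N)))
    (hZ : ∀ v ∈ Zs, v ∉ S → ∃ g ∈ J, exp (-1 : ℤ) ≤ v.adicValuation ((g : ↥(holo k N S)) : ↥(modularFunctionFieldFullC k N)))
    (hnZ : ∀ v, v ∉ S → v ∉ Zs → ∃ g ∈ J, v.adicValuation ((g : ↥(holo k N S)) : ↥(modularFunctionFieldFullC k N)) = 1)
    (h : ↥(holo k N S)) (hh : ∀ v ∈ Zs, v.adicValuation (h : ↥(modularFunctionFieldFullC k N)) < 1) : h ∈ J := by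
  classical
  -- the threshold
  set thr : Place k ↥(modularFunctionFieldFullC k N) → ℤᵐ⁰ := fun v => if v ∈ Zs then exp (-1 : ℤ) else 1 with hthr
  have hthr0 : ∀ v, thr v ≠ 0 := by
    intro v
    simp only [hthr]
    split_ifs
    · exact exp_ne_zero
    · exact one_ne_zero
  have hloc : ∀ v, v ∉ S → ∃ g ∈ J, thr v ≤ v.adicValuation ((g : ↥(holo k N S)) : ↥(modularFunctionFieldFullC k N)) := by
    intro v hv
    simp only [hthr]
    split_ifs with hvZ
    · exact hZ v hvZ hv
    · obtain ⟨g, hg, hg1⟩ := hnZ v hv hvZ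
      exact ⟨g, hg, hg1.ge⟩
  have hhthr : ∀ v, v ∉ S → v.adicValuation (h : ↥(modularFunctionFieldFullC k N)) ≤ thr v := by
    intro v hv
    simp only [hthr]
    split_ifs with hvZ
    · exact lt_one_iff_le_exp.mp (hh v hvZ)
    · exact val_le_one_of_mem_holo k N h.2 hv
  -- a nonzero element of `J`
  haveI := hR.infinite
  obtain ⟨v0, hv0⟩ := hSfin.infinite_compl.nonempty
  obtain ⟨g1, hg1J, hg1v⟩ := hloc v0 hv0
  have hg10 : (g1 : ↥(modularFunctionFieldFullC k N)) ≠ 0 := by
    intro h0
    rw [h0, map_zero] at hg1v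
    exact hthr0 v0 (le_zero_iff.mp hg1v)
  -- its zeros off `S`
  have hTfin : {v : Place k ↥(modularFunctionFieldFullC k N) | v.ord (g1 : ↥(modularFunctionFieldFullC k N)) ≠ 0}.Finite := by
    obtain ⟨D, hD, -⟩ := HasPrincipalDivisors.exists_divisor (K := k) (g1 : ↥(modularFunctionFieldFullC k N)) hg10
    refine D.support.finite_toSet.subset fun v hv => ?_
    rw [Finset.mem_coe, Finsupp.mem_support_iff, hD]
    exact hv
  set T : Finset (Place k ↥(modularFunctionFieldFullC k N)) := hTfin.toFinset.filter fun v => v ∉ S with hTdef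
  have hT : ∀ w ∈ T, w ∉ S := fun w hw => (Finset.mem_filter.mp hw).2
  have hnotT : ∀ v, v ∉ S → v ∉ T → v.adicValuation (g1 : ↥(modularFunctionFieldFullC k N)) = 1 := by
    intro v hv hvT
    have : ¬ v.ord (g1 : ↥(modularFunctionFieldFullC k N)) ≠ 0 := fun hne =>
      hvT (Finset.mem_filter.mpr ⟨hTfin.mem_toFinset.mpr hne, hv⟩)
    rw [not_not] at this
    rw [Fermat.Agent.S24.Ord.adicValuation_eq v hg10, this, neg_zero, exp_zero]
  -- a uniform bound for the order of `g1` on `T`
  obtain ⟨n, hn⟩ : ∃ n : ℕ, ∀ w ∈ T, exp (-(n : ℤ)) ≤ w.adicValuation (g1 : ↥(modularFunctionFieldFullC k N)) := by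
    refine ⟨T.sup fun w => (w.ord (g1 : ↥(modularFunctionFieldFullC k N))).toNat, fun w hw => ?_⟩
    rw [Fermat.Agent.S24.Ord.adicValuation_eq w hg10, exp_le_exp]
    have h1 : (w.ord (g1 : ↥(modularFunctionFieldFullC k N))).toNat ≤ T.sup fun w => (w.ord (g1 : ↥(modularFunctionFieldFullC k N))).toNat :=
      Finset.le_sup (f := fun w => (w.ord (g1 : ↥(modularFunctionFieldFullC k N))).toNat) hw
    have h2 : w.ord (g1 : ↥(modularFunctionFieldFullC k N)) ≤ ((w.ord (g1 : ↥(modularFunctionFieldFullC k N))).toNat : ℤ) := Int.self_le_toNat _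
    have h3 : ((w.ord (g1 : ↥(modularFunctionFieldFullC k N))).toNat : ℤ) ≤
        ((T.sup fun w => (w.ord (g1 : ↥(modularFunctionFieldFullC k N))).toNat : ℕ) : ℤ) := by exact_mod_cast h1
    omega
  -- local generators on `T`
  have h2 : ∀ w ∈ T, ∃ g ∈ J, thr w ≤ w.adicValuation ((g : ↥(holo k N S)) : ↥(modularFunctionFieldFullC k N)) :=
    fun w hw => hloc w (hT w hw)
  choose! gg hggJ hggv using h2
  -- the quotients `h / gg w`
  have h3 : ∀ w ∈ T, w.adicValuation ((h : ↥(modularFunctionFieldFullC k N)) / (gg w : ↥(modularFunctionFieldFullC k N))) ≤ 1 := by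
    intro w hw
    have hpos : 0 < w.adicValuation (gg w : ↥(modularFunctionFieldFullC k N)) :=
      lt_of_lt_of_le (zero_lt_iff.mpr (hthr0 w)) (hggv w hw)
    rw [map_div₀, div_le_iff₀ hpos, one_mul]
    exact (hhthr w (hT w hw)).trans (hggv w hw)
  -- strong approximation
  have h4 : ∀ w, ∃ a ∈ holo k N S, w ∈ T → ∀ w' ∈ T,
      w'.adicValuation (a - (if w' = w then (h : ↥(modularFunctionFieldFullC k N)) / (gg w : ↥(modularFunctionFieldFullC k N)) else 0)) ≤ exp (-(n : ℤ)) := by
    intro w
    by_cases hw : w ∈ T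
    · obtain ⟨a, ha, h5⟩ := exists_holo_approx k N hR hQ0 T hT
        (fun w' => if w' = w then (h : ↥(modularFunctionFieldFullC k N)) / (gg w : ↥(modularFunctionFieldFullC k N)) else 0) (fun w' _ => by
          split_ifs with heq
          · rw [heq]
            exact h3 w hw
          · simp) n
      exact ⟨a, ha, fun _ => h5⟩
    · exact ⟨0, Subalgebra.zero_mem _, fun h => absurd h hw⟩
  choose a ha haT using h4
  -- the remainder
  set h' : ↥(modularFunctionFieldFullC k N) := (h : ↥(modularFunctionFieldFullC k N)) - ∑ w ∈ T, a w * (gg w : ↥(modularFunctionFieldFullC k N)) with hh'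
  have hsum_mem : ∑ w ∈ T, a w * (gg w : ↥(modularFunctionFieldFullC k N)) ∈ holo k N S :=
    Subalgebra.sum_mem _ fun w hw => Subalgebra.mul_mem _ (ha w) (gg w).2
  have hh'mem : h' ∈ holo k N S := Subalgebra.sub_mem _ h.2 hsum_mem
  have hh'T : ∀ w0 ∈ T, w0.adicValuation h' ≤ exp (-(n : ℤ)) := by
    intro w0 hw0
    have e : h' = ((h : ↥(modularFunctionFieldFullC k N)) - a w0 * (gg w0 : ↥(modularFunctionFieldFullC k N))) - ∑ w ∈ T.erase w0, a w * (gg w : ↥(modularFunctionFieldFullC k N)) := by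
      rw [hh', ← Finset.add_sum_erase T _ hw0]
      ring
    rw [e]
    refine (Valuation.map_sub _ _ _).trans (max_le ?_ ?_)
    · have hgg0 : (gg w0 : ↥(modularFunctionFieldFullC k N)) ≠ 0 := by
        intro h0
        have := hggv w0 hw0
        rw [h0, map_zero] at this
        exact hthr0 w0 (le_zero_iff.mp this)
      have e2 : (h : ↥(modularFunctionFieldFullC k N)) - a w0 * (gg w0 : ↥(modularFunctionFieldFullC k N)) =
          -((a w0 - (h : ↥(modularFunctionFieldFullC k N)) / (gg w0 : ↥(modularFunctionFieldFullC k N))) * (gg w0 : ↥(modularFunctionFieldFullC k N))) := by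
        field_simp
        ring
      rw [e2, Valuation.map_neg, map_mul]
      have h5 := haT w0 hw0 w0 hw0
      rw [if_pos rfl] at h5
      calc w0.adicValuation (a w0 - (h : ↥(modularFunctionFieldFullC k N)) / (gg w0 : ↥(modularFunctionFieldFullC k N))) * w0.adicValuation (gg w0 : ↥(modularFunctionFieldFullC k N))
          ≤ exp (-(n : ℤ)) * 1 :=
            mul_le_mul' h5 (val_le_one_of_mem_holo k N (gg w0).2 (hT w0 hw0))
        _ = exp (-(n : ℤ)) := mul_one _
    · refine Valuation.map_sum_le _ fun w hw => ?_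
      have hwT : w ∈ T := Finset.mem_of_mem_erase hw
      have hne : w0 ≠ w := (Finset.ne_of_mem_erase hw).symm
      have h5 := haT w hwT w0 hw0
      rw [if_neg hne, sub_zero] at h5
      rw [map_mul]
      calc w0.adicValuation (a w) * w0.adicValuation (gg w : ↥(modularFunctionFieldFullC k N))
          ≤ exp (-(n : ℤ)) * 1 :=
            mul_le_mul' h5 (val_le_one_of_mem_holo k N (gg w).2 (hT w0 hw0))
        _ = exp (-(n : ℤ)) := mul_one _
  -- the quotient by `g1`
  have hb : h' / (g1 : ↥(modularFunctionFieldFullC k N)) ∈ holo k N S := by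
    refine mem_holo_of_val k N fun v hv => ?_
    by_cases hvT : v ∈ T
    · have hpos : 0 < v.adicValuation (g1 : ↥(modularFunctionFieldFullC k N)) := lt_of_lt_of_le exp_pos (hn v hvT)
      rw [map_div₀, div_le_iff₀ hpos, one_mul]
      exact (hh'T v hvT).trans (hn v hvT)
    · rw [map_div₀, hnotT v hv hvT, div_one]
      exact val_le_one_of_mem_holo k N hh'mem hv
  -- conclusion
  have hfin : h = ⟨h' / (g1 : ↥(modularFunctionFieldFullC k N)), hb⟩ * g1 + ∑ w ∈ T, ⟨a w, ha w⟩ * gg w := by
    apply Subtype.ext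
    rw [Subalgebra.coe_add, Subalgebra.coe_mul, AddSubmonoidClass.coe_finsetSum]
    simp only [Subalgebra.coe_mul]
    rw [div_mul_cancel₀ _ hg10, hh']
    ring
  rw [hfin]
  refine J.add_mem (J.mul_mem_left _ hg1J) (J.sum_mem fun w hw => ?_)
  exact J.mul_mem_left _ (hggJ w hw)

end LocalGlobal

/-! ### the maximal ideals `mv S v` -/

section Max

open Classical in
/-- the ideal of the functions of `holo S` vanishing at `v` (by convention `⊤` for `v ∈ S`) -/
def mv (S : Set (Place k ↥(modularFunctionFieldFullC k N))) (v : Place k ↥(modularFunctionFieldFullC k N)) : Ideal ↥(holo k N S) :=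
  if hv : v ∈ S then ⊤ else
  { carrier := {g | v.adicValuation ((g : ↥(holo k N S)) : ↥(modularFunctionFieldFullC k N)) < 1}
    zero_mem' := by simp
    add_mem' := fun {a b} ha hb => by
      change v.adicValuation ((a : ↥(modularFunctionFieldFullC k N)) + (b : ↥(modularFunctionFieldFullC k N))) < 1
      exact Valuation.map_add_lt _ ha hb
    smul_mem' := fun c g hg => by
      change v.adicValuation ((c : ↥(modularFunctionFieldFullC k N)) * (g : ↥(modularFunctionFieldFullC k N))) < 1
      rw [map_mul]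
      exact lt_of_le_of_lt (mul_le_of_le_one_left' (val_le_one_of_mem_holo k N c.2 hv)) hg }

theorem mem_mv_iff {S : Set (Place k ↥(modularFunctionFieldFullC k N))} {v : Place k ↥(modularFunctionFieldFullC k N)} (hv : v ∉ S) (g : ↥(holo k N S)) :
    g ∈ mv k N S v ↔ v.adicValuation (g : ↥(modularFunctionFieldFullC k N)) < 1 := by
  unfold mv
  rw [dif_neg hv]
  rfl

variable {gk : ℕ} (hR : RiemannHyp k ↥(modularFunctionFieldFullC k N) gk)
variable {S : Set (Place k ↥(modularFunctionFieldFullC k N))} {Q0 : Place k ↥(modularFunctionFieldFullC k N)} (hQ0 : Q0 ∈ S)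

include hR in
/-- `mv S v` is a maximal ideal of `holo S` for `v ∉ S` (residue field `k`) -/
theorem mv_isMaximal {v : Place k ↥(modularFunctionFieldFullC k N)} (hv : v ∉ S) : (mv k N S v).IsMaximal := by
  rw [Ideal.isMaximal_iff]
  refine ⟨?_, fun J x hle hx hxJ => ?_⟩
  · rw [mem_mv_iff k N hv]
    simp
  · rw [mem_mv_iff k N hv] at hx
    obtain ⟨c, hc⟩ := Fermat.Agent.S18.A.Riemann.exists_sub_const_lt_one v (hR.deg_one v)
      (val_le_one_of_mem_holo k N x.2 hv)
    have hc0 : c ≠ 0 := by
      rintro rfl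
      rw [map_zero, sub_zero] at hc
      exact hx hc
    have h1 : x - algebraMap k ↥(holo k N S) c ∈ J := hle ((mem_mv_iff k N hv _).mpr hc)
    have h2 : algebraMap k ↥(holo k N S) c ∈ J := by
      have := J.sub_mem hxJ h1
      rwa [sub_sub_cancel] at this
    have h3 := J.mul_mem_left (algebraMap k ↥(holo k N S) c⁻¹) h2
    rwa [← map_mul, inv_mul_cancel₀ hc0, map_one] at h3

include hR hQ0 in
/-- distinct places off `S` have distinct maximal ideals -/
theorem mv_ne {v w : Place k ↥(modularFunctionFieldFullC k N)} (hv : v ∉ S) (hw : w ∉ S) (hvw : v ≠ w) :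
    mv k N S v ≠ mv k N S w := by
  obtain ⟨g, hg, hg0, hgv, hgw⟩ := exists_holo_sep k N hR hQ0 hv hw hvw
  intro heq
  have h1 : (⟨g, hg⟩ : ↥(holo k N S)) ∈ mv k N S v :=
    (mem_mv_iff k N hv _).mpr ((Fermat.Agent.S24.Ord.ord_pos_iff v hg0).mp hgv)
  rw [heq, mem_mv_iff k N hw] at h1
  have h2 := (Fermat.Agent.S24.Ord.ord_pos_iff w hg0).mpr h1
  rw [hgw] at h2
  exact lt_irrefl _ h2

include hR hQ0 in
theorem mv_injOn : Set.InjOn (mv k N S) Sᶜ := by
  intro v hv w hw heq
  by_contra hne
  exact mv_ne k N hR hQ0 hv hw hne heq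

end Max

/-! ### the Frobenius ideal and the nodes -/

section Frob

variable (q : ℕ) [hq : Fact q.Prime] [CharP k q] [PerfectField k] [IsAlgClosed k]
variable [HasPrincipalDivisors k ↥(modularFunctionFieldFullC k N)]

open Classical in
/-- the finite set of the `Fr²`-fixed places off `S` -/
def fixedOff (S : Set (Place k ↥(modularFunctionFieldFullC k N))) : Finset (Place k ↥(modularFunctionFieldFullC k N)) :=
  (finite_Fr_Fr_fixed k N q).toFinset.filter fun v => v ∉ S

theorem mem_fixedOff {S : Set (Place k ↥(modularFunctionFieldFullC k N))} {v : Place k ↥(modularFunctionFieldFullC k N)} :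
    v ∈ fixedOff k N q S ↔ Fr k N q (Fr k N q v) = v ∧ v ∉ S := by
  classical
  unfold fixedOff
  rw [Finset.mem_filter, Set.Finite.mem_toFinset]
  rfl

/-- `|φ x|_v < 1 ↔ |x|_(Fr v) < 1` -/
theorem val_phi_lt_one_iff (v : Place k ↥(modularFunctionFieldFullC k N)) (x : ↥(modularFunctionFieldFullC k N)) :
    v.adicValuation (phi k N q x) < 1 ↔ (Fr k N q v).adicValuation x < 1 := by
  rcases eq_or_ne x 0 with rfl | hx
  · simp
  · rw [← Fermat.Agent.S24.Ord.ord_pos_iff v (phi_ne_zero k N q hx),
      ← Fermat.Agent.S24.Ord.ord_pos_iff (Fr k N q v) hx, ord_phi]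
    have hq0 : (0 : ℤ) < q := by exact_mod_cast hq.out.pos
    exact mul_pos_iff_of_pos_left hq0

/-- the gluing condition `h₂(v) = h₁(Fr v)` in value form -/
theorem val_sub_phi_lt_one_iff (v : Place k ↥(modularFunctionFieldFullC k N)) (hdeg : v.deg = 1) (h₁ h₂ : ↥(modularFunctionFieldFullC k N))
    (h2 : v.adicValuation h₂ ≤ 1) :
    v.adicValuation (h₂ - phi k N q h₁) < 1 ↔
      ∃ c : k, (Fr k N q v).adicValuation (h₁ - algebraMap k ↥(modularFunctionFieldFullC k N) c) < 1 ∧
        v.adicValuation (h₂ - algebraMap k ↥(modularFunctionFieldFullC k N) c) < 1 := by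
  constructor
  · intro h
    obtain ⟨c, hc⟩ := Fermat.Agent.S18.A.Riemann.exists_sub_const_lt_one v hdeg h2
    refine ⟨c, ?_, hc⟩
    rw [← val_phi_lt_one_iff, map_sub, phi_algebraMap]
    have e : phi k N q h₁ - algebraMap k ↥(modularFunctionFieldFullC k N) c =
        (h₂ - algebraMap k ↥(modularFunctionFieldFullC k N) c) - (h₂ - phi k N q h₁) := by ring
    rw [e]
    exact Valuation.map_sub_lt _ hc h
  · rintro ⟨c, hc1, hc2⟩
    rw [← val_phi_lt_one_iff, map_sub, phi_algebraMap] at hc1
    have e : h₂ - phi k N q h₁ =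
        (h₂ - algebraMap k ↥(modularFunctionFieldFullC k N) c) - (phi k N q h₁ - algebraMap k ↥(modularFunctionFieldFullC k N) c) := by ring
    rw [e]
    exact Valuation.map_sub_lt _ hc2 hc1

variable {gk : ℕ} (hR : RiemannHyp k ↥(modularFunctionFieldFullC k N) gk)
variable {S : Set (Place k ↥(modularFunctionFieldFullC k N))} {Q0 : Place k ↥(modularFunctionFieldFullC k N)} (hQ0 : Q0 ∈ S)

include hR hQ0 in
/-- **The Frobenius ideal contains the radical ideal of the `Fr²`-fixed places off `S`**: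
literally the hypothesis `hJ` of `Sandwich.exists_nodes` at `R₁ = R₂ = holo S`,
`φ = ψ = phiHolo`. -/
theorem inf_mv_le_span (hS : ∀ w, Fr k N q w ∈ S ↔ w ∈ S) (hSfin : S.Finite) :
    ((fixedOff k N q S).image (mv k N S)).inf id ≤
      Ideal.span (Set.range fun g : ↥(holo k N S) =>
        g - phiHolo k N q hS (phiHolo k N q hS g)) := by
  classical
  intro h hh
  rw [Submodule.mem_finsetInf] at hh
  refine mem_of_local k N hR hQ0 hSfin _ (fixedOff k N q S) ?_ ?_ h ?_
  · intro v hv hvS
    obtain ⟨g, hg, hg1⟩ := exists_holo_sub_phi_phi_param k N q hR hQ0 hvS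
      ((mem_fixedOff k N q).mp hv).1
    refine ⟨_, Ideal.subset_span ⟨⟨g, hg⟩, rfl⟩, ?_⟩
    have hne : g - phi k N q (phi k N q g) ≠ 0 := by
      intro h0
      rw [h0, Place.ord_zero] at hg1
      exact zero_ne_one hg1
    change exp (-1 : ℤ) ≤ v.adicValuation (g - phi k N q (phi k N q g))
    rw [Fermat.Agent.S24.Ord.adicValuation_eq v hne, hg1]
  · intro v hvS hvZ
    have hfix : Fr k N q (Fr k N q v) ≠ v := fun hfix =>
      hvZ ((mem_fixedOff k N q).mpr ⟨hfix, hvS⟩)
    have hv2 : Fr k N q (Fr k N q v) ∉ S := fun h2 => hvS ((hS v).mp ((hS _).mp h2))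
    obtain ⟨g, hg, hne, hg0⟩ := exists_holo_sub_phi_phi_unit k N q hR hQ0 hvS hv2 hfix
    refine ⟨_, Ideal.subset_span ⟨⟨g, hg⟩, rfl⟩, ?_⟩
    change v.adicValuation (g - phi k N q (phi k N q g)) = 1
    rw [Fermat.Agent.S24.Ord.adicValuation_eq v hne, hg0, neg_zero, exp_zero]
  · intro v hv
    have hvS : v ∉ S := ((mem_fixedOff k N q).mp hv).2
    have := hh (mv k N S v) (Finset.mem_image_of_mem _ hv)
    exact (mem_mv_iff k N hvS h).mp this

include hR hQ0 in
/-- **The nodes of a sandwich in `holo S × holo S`.**  A subring `B` of `holo S × holo S`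
containing the graphs `(g, φ g)` and `(φ g, g)` is the ring of pairs `(h₁, h₂)` with
`h₂ ≡ φ h₁` at the places of a finite set of `Fr²`-fixed places off `S`. -/
theorem exists_nodes_holo (hS : ∀ w, Fr k N q w ∈ S ↔ w ∈ S) (hSfin : S.Finite)
    {B : Subring (↥(holo k N S) × ↥(holo k N S))}
    (h : Sandwich.IsSandwich (phiHolo k N q hS).toRingHom (phiHolo k N q hS).toRingHom B) :
    ∃ nodes : Finset (Place k ↥(modularFunctionFieldFullC k N)),
      (∀ v ∈ nodes, v ∉ S ∧ Fr k N q (Fr k N q v) = v) ∧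
      ∀ h₁ h₂ : ↥(holo k N S), (h₁, h₂) ∈ B ↔
        ∀ v ∈ nodes, v.adicValuation ((h₂ : ↥(modularFunctionFieldFullC k N)) - phi k N q (h₁ : ↥(modularFunctionFieldFullC k N))) < 1 := by
  classical
  obtain ⟨S', hS'Z, -, hB⟩ := Sandwich.exists_nodes h ((fixedOff k N q S).image (mv k N S))
    (by
      intro m hm
      obtain ⟨v, hv, rfl⟩ := Finset.mem_image.mp hm
      exact mv_isMaximal k N hR ((mem_fixedOff k N q).mp hv).2)
    (inf_mv_le_span k N q hR hQ0 hS hSfin)
  refine ⟨(fixedOff k N q S).filter fun v => mv k N S v ∈ S', ?_, fun h₁ h₂ => ?_⟩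
  · intro v hv
    have := (mem_fixedOff k N q).mp (Finset.mem_filter.mp hv).1
    exact ⟨this.2, this.1⟩
  · rw [hB]
    have hcoe : ((h₂ - (phiHolo k N q hS).toRingHom h₁ : ↥(holo k N S)) : ↥(modularFunctionFieldFullC k N)) =
        (h₂ : ↥(modularFunctionFieldFullC k N)) - phi k N q (h₁ : ↥(modularFunctionFieldFullC k N)) := rfl
    constructor
    · intro hm v hv
      have hvS : v ∉ S := ((mem_fixedOff k N q).mp (Finset.mem_filter.mp hv).1).2
      have h1 := (mem_mv_iff k N hvS _).mp (hm _ (Finset.mem_filter.mp hv).2)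
      rwa [hcoe] at h1
    · intro hm m hmS'
      obtain ⟨v, hv, rfl⟩ := Finset.mem_image.mp (hS'Z hmS')
      have hvS : v ∉ S := ((mem_fixedOff k N q).mp hv).2
      rw [mem_mv_iff k N hvS, hcoe]
      exact hm v (Finset.mem_filter.mpr ⟨hv, hmS'⟩)

include hR hQ0 in
/-- the same in value form: `(h₁, h₂) ∈ B` iff `h₁(Fr v) = h₂(v)` at every node `v` -/
theorem exists_nodes_holo_value (hS : ∀ w, Fr k N q w ∈ S ↔ w ∈ S) (hSfin : S.Finite)
    {B : Subring (↥(holo k N S) × ↥(holo k N S))}
    (h : Sandwich.IsSandwich (phiHolo k N q hS).toRingHom (phiHolo k N q hS).toRingHom B) :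
    ∃ nodes : Finset (Place k ↥(modularFunctionFieldFullC k N)),
      (∀ v ∈ nodes, v ∉ S ∧ Fr k N q (Fr k N q v) = v) ∧
      ∀ h₁ h₂ : ↥(holo k N S), (h₁, h₂) ∈ B ↔
        ∀ v ∈ nodes, ∃ c : k,
          (Fr k N q v).adicValuation ((h₁ : ↥(modularFunctionFieldFullC k N)) - algebraMap k ↥(modularFunctionFieldFullC k N) c) < 1 ∧
          v.adicValuation ((h₂ : ↥(modularFunctionFieldFullC k N)) - algebraMap k ↥(modularFunctionFieldFullC k N) c) < 1 := by
  obtain ⟨nodes, hn, hB⟩ := exists_nodes_holo k N q hR hQ0 hS hSfin h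
  refine ⟨nodes, hn, fun h₁ h₂ => ?_⟩
  rw [hB]
  refine forall₂_congr fun v hv => ?_
  exact val_sub_phi_lt_one_iff k N q v (hR.deg_one v) _ _
    (val_le_one_of_mem_holo k N h₂.2 (hn v hv).1)

include hR hQ0 in
/-- the same with the nodes indexed by `Fin n` (second coordinates `s i`, first coordinates
`Fr (s i)`), the shape of `Euler.Glued.GluedAt (Fr ∘ s) s i (h₁, h₂)` -/
theorem exists_nodes_holo_fin (hS : ∀ w, Fr k N q w ∈ S ↔ w ∈ S) (hSfin : S.Finite)
    {B : Subring (↥(holo k N S) × ↥(holo k N S))}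
    (h : Sandwich.IsSandwich (phiHolo k N q hS).toRingHom (phiHolo k N q hS).toRingHom B) :
    ∃ (n : ℕ) (s : Fin n → Place k ↥(modularFunctionFieldFullC k N)), Function.Injective s ∧
      (∀ i, s i ∉ S ∧ Fr k N q (Fr k N q (s i)) = s i) ∧
      ∀ h₁ h₂ : ↥(holo k N S), (h₁, h₂) ∈ B ↔
        ∀ i, ∃ c : k,
          (Fr k N q (s i)).adicValuation ((h₁ : ↥(modularFunctionFieldFullC k N)) - algebraMap k ↥(modularFunctionFieldFullC k N) c) < 1 ∧
          (s i).adicValuation ((h₂ : ↥(modularFunctionFieldFullC k N)) - algebraMap k ↥(modularFunctionFieldFullC k N) c) < 1 := by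
  obtain ⟨nodes, hn, hB⟩ := exists_nodes_holo_value k N q hR hQ0 hS hSfin h
  refine ⟨nodes.card, fun i => (nodes.equivFin.symm i : Place k ↥(modularFunctionFieldFullC k N)), ?_, ?_, fun h₁ h₂ => ?_⟩
  · intro i j hij
    exact nodes.equivFin.symm.injective (Subtype.ext hij)
  · intro i
    exact hn _ (nodes.equivFin.symm i).2
  · rw [hB]
    constructor
    · intro hm i
      exact hm _ (nodes.equivFin.symm i).2
    · intro hm v hv
      have := hm (nodes.equivFin ⟨v, hv⟩)
      simp only [Equiv.symm_apply_apply] at this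
      exact this

end Frob

end Fermat.Agent.S34.HoloIdeal
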