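import Mathlib
import Fermat.Agent.S28.ModPoly
import Fermat.Agent.S34.TwoGaussX0

/-!
# PROJECT U (S34): the `j`-degrees of the coefficients of the modular polynomial

`Φ = TwoGaussX0.modPolyZ q ∈ ℤ[j][X]`, monic of degree `q + 1` in `X`.  Its image under
`j ↦ j(Q)` is `rPoly q ℤ = (X - j(Q^q)) * gPoly`, `gPoly = C (ε Q⁻¹) * pencil` with
`pencil ∈ ℤ⟦Q⟧[X]`.  Hence every coefficient of `gPoly` has `Q`-order `≥ -1` and

* `natDegree_coeff_modPolyZ_le` : every coefficient of `Φ` has `j`-degree `≤ q + 1`;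
* `natDegree_coeff_modPolyZ_q_le` : the coefficient of `X ^ q` has `j`-degree `≤ q`.

(No symmetry of `Φ` is used.)
-/

set_option autoImplicit false
set_option linter.unusedSectionVars false

noncomputable section

namespace Fermat.Agent.S34.ModPolyDegree

open ModularCurve Fermat.Agent.S28.ModPoly Fermat.Agent.S34.TwoGaussX0

/-! ### lower bounds for the support of a Laurent series -/

section LowBdd

variable {R : Type*} [CommRing R]

/-- the coefficients of `x` vanish below `n` -/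
def LowBdd (n : ℤ) (x : LaurentSeries R) : Prop := ∀ i : ℤ, i < n → x.coeff i = 0

theorem LowBdd.mono {m n : ℤ} {x : LaurentSeries R} (h : LowBdd n x) (hmn : m ≤ n) :
    LowBdd m x := fun i hi => h i (lt_of_lt_of_le hi hmn)

theorem LowBdd.sub {n : ℤ} {x y : LaurentSeries R} (hx : LowBdd n x) (hy : LowBdd n y) :
    LowBdd n (x - y) := by
  intro i hi
  rw [HahnSeries.coeff_sub, hx i hi, hy i hi, sub_zero]

theorem LowBdd.mul {m n : ℤ} {x y : LaurentSeries R} (hx : LowBdd m x) (hy : LowBdd n y) :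
    LowBdd (m + n) (x * y) := by
  intro k hk
  rw [HahnSeries.coeff_mul]
  apply Finset.sum_eq_zero
  rintro ⟨i, j⟩ hij
  rw [Finset.mem_antidiagonal] at hij
  obtain ⟨-, -, hsum⟩ := hij
  simp only at hsum
  by_cases hi : i < m
  · rw [hx i hi, zero_mul]
  · have hj : j < n := by omega
    rw [hy j hj, mul_zero]

theorem lowBdd_ofPowerSeries (f : PowerSeries R) :
    LowBdd 0 (HahnSeries.ofPowerSeries ℤ R f) := by
  intro i hi
  have h := PowerSeries.coeff_coe (R := R) f i
  rw [if_pos hi] at h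
  exact h

theorem lowBdd_one : LowBdd 0 (1 : LaurentSeries R) := by
  intro i hi
  rw [HahnSeries.coeff_one, if_neg (by omega)]

theorem lowBdd_unitL (p : ℕ) [NeZero p] : LowBdd (-1) (unitL p R) := by
  intro i hi
  rw [unitL, coeff_C_mul', HahnSeries.coeff_single_of_ne (by omega), mul_zero]

theorem lowBdd_jq : LowBdd (-1) (jqModC R) := by
  intro i hi
  have h : ((jqModC R) ^ 1).coeff i = 0 := coeff_jqModC_pow_of_lt R (by push_cast; omega)
  rwa [pow_one] at h

theorem lowBdd_qExpand_jq (p : ℕ) [NeZero p] : LowBdd (-(p : ℤ)) (qExpand R p (jqModC R)) := by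
  intro i hi
  by_cases hdvd : (p : ℤ) ∣ i
  · obtain ⟨k, rfl⟩ := hdvd
    rw [qExpand_coeff_mul]
    apply lowBdd_jq
    have hp : (0 : ℤ) < p := by exact_mod_cast Nat.pos_of_ne_zero (NeZero.ne p)
    by_contra hk
    push Not at hk
    have : -(p : ℤ) ≤ (p : ℤ) * k := by nlinarith
    omega
  · exact qExpand_coeff_of_not_dvd p _ hdvd

end LowBdd

/-! ### the coefficients of `gPoly` and `rPoly` -/

section Coeffs

variable (p : ℕ) [NeZero p] (R : Type*) [CommRing R]

theorem lowBdd_coeff_gPoly (b : ℕ) : LowBdd (-1) ((gPoly p R).coeff b) := by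
  rw [gPoly, Polynomial.coeff_C_mul, Polynomial.coeff_map]
  have h := (lowBdd_unitL (R := R) p).mul (lowBdd_ofPowerSeries ((pencil p R).coeff b))
  simpa using h

theorem coeff_rPoly_zero :
    (rPoly p R).coeff 0 = -(qExpand R p (jqModC R) * (gPoly p R).coeff 0) := by
  rw [rPoly, sub_mul, Polynomial.coeff_sub, Polynomial.coeff_X_mul_zero, Polynomial.coeff_C_mul,
    zero_sub]

theorem coeff_rPoly_succ (a : ℕ) :
    (rPoly p R).coeff (a + 1) =
      (gPoly p R).coeff a - qExpand R p (jqModC R) * (gPoly p R).coeff (a + 1) := by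
  rw [rPoly, sub_mul, Polynomial.coeff_sub, Polynomial.coeff_X_mul, Polynomial.coeff_C_mul]

theorem lowBdd_coeff_rPoly (a : ℕ) : LowBdd (-(p : ℤ) - 1) ((rPoly p R).coeff a) := by
  have hp : (1 : ℤ) ≤ p := by exact_mod_cast Nat.pos_of_ne_zero (NeZero.ne p)
  have hJ : ∀ b, LowBdd (-(p : ℤ) - 1) (qExpand R p (jqModC R) * (gPoly p R).coeff b) := by
    intro b
    have h := (lowBdd_qExpand_jq (R := R) p).mul (lowBdd_coeff_gPoly p R b)
    exact h.mono (by omega)
  rcases a with _ | a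
  · rw [coeff_rPoly_zero]
    intro i hi
    rw [HahnSeries.coeff_neg, hJ 0 i hi, neg_zero]
  · rw [coeff_rPoly_succ]
    exact ((lowBdd_coeff_gPoly p R a).mono (by omega)).sub (hJ (a + 1))

theorem lowBdd_coeff_rPoly_card : LowBdd (-(p : ℤ)) ((rPoly p R).coeff p) := by
  have hp : (1 : ℤ) ≤ p := by exact_mod_cast Nat.pos_of_ne_zero (NeZero.ne p)
  obtain ⟨a, ha⟩ : ∃ a, p = a + 1 := Nat.exists_eq_succ_of_ne_zero (NeZero.ne p)
  have h1 : (rPoly p R).coeff p =
      (gPoly p R).coeff a - qExpand R p (jqModC R) * (gPoly p R).coeff p := by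
    have h2 := coeff_rPoly_succ p R a
    rwa [← ha] at h2
  rw [h1, coeff_gPoly_card, mul_one]
  exact ((lowBdd_coeff_gPoly p R a).mono (by omega)).sub (lowBdd_qExpand_jq p)

end Coeffs

/-! ### from `Q`-orders to `j`-degrees -/

theorem natDegree_le_of_lowBdd {P : Polynomial ℤ} {n : ℕ}
    (h : LowBdd (-(n : ℤ)) (evalL ℤ (jqModC ℤ) P)) : P.natDegree ≤ n := by
  by_contra hlt
  push Not at hlt
  have h1 := coeff_evalL_jq ℤ P P.natDegree le_rfl
  rw [h (-(P.natDegree : ℤ)) (by omega)] at h1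
  have h2 : P = 0 := Polynomial.leadingCoeff_eq_zero.mp h1.symm
  rw [h2, Polynomial.natDegree_zero] at hlt
  omega

variable {q : ℕ} [hq : Fact q.Prime] [NeZero q]

theorem evalL_coeff_modPolyZ (a : ℕ) :
    evalL ℤ (jqModC ℤ) ((modPolyZ q).coeff a) = (rPoly q ℤ).coeff a := by
  rw [← map_evalL_modPolyZ (q := q), Polynomial.coeff_map]

/-- every coefficient of the modular polynomial has `j`-degree `≤ q + 1` -/
theorem natDegree_coeff_modPolyZ_le (a : ℕ) : ((modPolyZ q).coeff a).natDegree ≤ q + 1 := by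
  apply natDegree_le_of_lowBdd
  rw [evalL_coeff_modPolyZ]
  have h := lowBdd_coeff_rPoly q ℤ a
  have e : -(((q + 1 : ℕ)) : ℤ) = -(q : ℤ) - 1 := by push_cast; ring
  rw [e]
  exact h

/-- the coefficient of `X ^ q` of the modular polynomial has `j`-degree `≤ q` -/
theorem natDegree_coeff_modPolyZ_q_le : ((modPolyZ q).coeff q).natDegree ≤ q := by
  apply natDegree_le_of_lowBdd
  rw [evalL_coeff_modPolyZ]
  exact lowBdd_coeff_rPoly_card q ℤ

end Fermat.Agent.S34.ModPolyDegree
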