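import Mathlib
import Fermat.Agent.S34.ModPolyDegree
import Fermat.Agent.S18.CoreOrd
import Fermat.Agent.S34.Euler.Chart

/-!
# PROJECT U (S34): `j_q / j ^ q` is regular at the poles of `j` on `X₀(M q)`

`E = ℚ̄(X₀(M q))`, `j = α(j)` (`jE M q`), `j_q = β(j)` (`PowerBasisX0.jl M q`), related by the modular
polynomial `Φ_q(j_q, j) = 0`, monic of degree `q + 1` in `X` with `j`-degrees `≤ q + 1`, and `≤ q`
for the coefficient of `X ^ q` (`S34/ModPolyDegree`).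

* `valuation_le_of_monic_root` : roots of a monic polynomial with `v (c_a) ≤ B ^ (n - a)` have
  `v t ≤ B` (dominant term);
* `adicValuation_jl_le` : at every place `P` of `E` with `1 ≤ |j|_P`: `|j_q|_P ≤ |j|_P ^ q`;
* `adicValuation_jl_le_one` : `|j|_P ≤ 1 → |j_q|_P ≤ 1`;
* `ord_jl_ge` : `P.ord j < 0 → q * P.ord j ≤ P.ord j_q`; `ord_jl_nonneg`.
* `ord_cuspFun_ge` : `f_r := j ^ (r - q) * j_q ^ (r + 1)` (`= x ^ r * (j_q / j ^ q)`, `x = j j_q`,
  `r ≥ q`) satisfies `r * P.ord x ≤ P.ord f_r` at every pole of `j` and is regular elsewhere: it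
  lies in `L(r (x)_∞)`.
-/

set_option autoImplicit false
set_option linter.unusedSectionVars false
set_option linter.style.haveILetI false

noncomputable section

namespace Fermat.Agent.S34.CuspRegular

open Polynomial ModularCurve AlgebraicCurve
open Fermat.Agent.S24.DegreeAlg (jgen)
open Fermat.Agent.S34.PowerBasisX0 Fermat.Agent.S34.TwoGaussX0 Fermat.Agent.S34.ModPolyDegree

/-! ### valuations of roots of monic polynomials -/

section Abstract

variable {E : Type*} [Field E] {Γ₀ : Type*} [LinearOrderedCommGroupWithZero Γ₀]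
  (v : Valuation E Γ₀)

/-- **dominant term**: a root `t` of a monic polynomial of degree `n` whose coefficients satisfy
`v (c_a) ≤ B ^ (n - a)` has `v t ≤ B`. -/
theorem valuation_le_of_monic_root {P : Polynomial E} (hP : P.Monic) {t : E}
    (ht : P.eval t = 0) {B : Γ₀}
    (hB : ∀ a < P.natDegree, v (P.coeff a) ≤ B ^ (P.natDegree - a)) : v t ≤ B := by
  by_contra hlt
  push Not at hlt
  set n := P.natDegree with hn
  have hvt0 : v t ≠ 0 := fun h => by rw [h] at hlt; exact not_lt_zero hlt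
  have hvtpos : 0 < v t := zero_lt_iff.mpr hvt0
  have hsum : P.eval t = t ^ n + ∑ a ∈ Finset.range n, P.coeff a * t ^ a := by
    rw [Polynomial.eval_eq_sum_range, Finset.sum_range_succ, ← hn, add_comm]
    congr 1
    rw [hn, Polynomial.coeff_natDegree, hP.leadingCoeff, one_mul]
  have hterm : ∀ a ∈ Finset.range n, v (P.coeff a * t ^ a) < v t ^ n := by
    intro a ha
    rw [Finset.mem_range] at ha
    rw [map_mul, map_pow]
    have h1 : v (P.coeff a) ≤ B ^ (n - a) := hB a ha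
    have h2 : B ^ (n - a) < v t ^ (n - a) := pow_lt_pow_left₀ hlt zero_le (by omega)
    have h3 : v (P.coeff a) < v t ^ (n - a) := lt_of_le_of_lt h1 h2
    have h4 : v t ^ n = v t ^ (n - a) * v t ^ a := by
      rw [← pow_add]; congr 1; omega
    rw [h4]
    exact mul_lt_mul_of_pos_right h3 (pow_pos hvtpos a)
  have hlt2 : v (∑ a ∈ Finset.range n, P.coeff a * t ^ a) < v (t ^ n) := by
    rw [map_pow]
    exact v.map_sum_lt (pow_ne_zero n hvt0) hterm
  have h5 := v.map_add_eq_of_lt_left hlt2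
  rw [← hsum, ht, map_zero, map_pow] at h5
  exact pow_ne_zero n hvt0 h5.symm

/-- an integral polynomial of degree `≤ d` in `y`, `1 ≤ v y`, has valuation `≤ v y ^ d` -/
theorem valuation_aeval_le (hint : ∀ n : ℤ, v (n : E) ≤ 1) {y : E} (hy : 1 ≤ v y)
    (Q : Polynomial ℤ) {d : ℕ} (hd : Q.natDegree ≤ d) : v (Polynomial.aeval y Q) ≤ v y ^ d := by
  rw [Polynomial.aeval_eq_sum_range]
  apply v.map_sum_le
  intro i hi
  rw [Finset.mem_range] at hi
  rw [zsmul_eq_mul, map_mul, map_pow]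
  calc v ((Q.coeff i : ℤ) : E) * v y ^ i ≤ 1 * v y ^ i := mul_le_mul_left (hint _) _
    _ = v y ^ i := one_mul _
    _ ≤ v y ^ d := pow_le_pow_right₀ hy (by omega)

/-- an integral polynomial in `y`, `v y ≤ 1`, has valuation `≤ 1` -/
theorem valuation_aeval_le_one (hint : ∀ n : ℤ, v (n : E) ≤ 1) {y : E} (hy : v y ≤ 1)
    (Q : Polynomial ℤ) : v (Polynomial.aeval y Q) ≤ 1 := by
  rw [Polynomial.aeval_eq_sum_range]
  apply v.map_sum_le
  intro i _
  rw [zsmul_eq_mul, map_mul, map_pow]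
  calc v ((Q.coeff i : ℤ) : E) * v y ^ i ≤ 1 * 1 :=
        mul_le_mul' (hint _) (pow_le_one₀ zero_le hy)
    _ = 1 := one_mul _

end Abstract

/-! ### the modular equation in `E = ℚ̄(X₀(M q))` -/

local notation "Kb" => AlgebraicClosure ℚ

variable (M q : ℕ) [NeZero M] [hq : Fact q.Prime] [NeZero q]

/-- `α(j)`, the `j`-function as an element of `E = ℚ̄(X₀(M q))` -/
def jE : ↥(modularFunctionFieldBar (M * q)) := heckeAlphaBar Kb M q (jgen M)

/-- `Φ_q(X, α j) ∈ E[X]` -/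
def PhiE : Polynomial ↥(modularFunctionFieldBar (M * q)) :=
  (modPolyZ q).map ((aeval (jE M q) : Polynomial ℤ →ₐ[ℤ] ↥(modularFunctionFieldBar (M * q))) :
    Polynomial ℤ →+* ↥(modularFunctionFieldBar (M * q)))

theorem PhiE_monic : (PhiE M q).Monic := modPolyZ_monic.map _

theorem natDegree_PhiE : (PhiE M q).natDegree = q + 1 := by
  rw [PhiE, modPolyZ_monic.natDegree_map, natDegree_modPolyZ]

theorem coeff_PhiE (a : ℕ) : (PhiE M q).coeff a = aeval (jE M q) ((modPolyZ q).coeff a) := by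
  rw [PhiE, Polynomial.coeff_map]
  rfl

/-- `Φ_q(j_q, j) = 0` in `E` -/
theorem eval_jl_PhiE : (PhiE M q).eval (jl M q) = 0 := by
  letI algFE := algebraAlong (heckeAlphaBar Kb M q)
  have h := aeval_jl_modPolyF (N := M) (ℓ := q) (map_evalL_modPolyZ (q := q))
  rw [Polynomial.aeval_def, ← Polynomial.eval_map, modPolyF, Polynomial.map_map] at h
  have hcomp : (algebraMap ↥(modularFunctionFieldBar M) ↥(modularFunctionFieldBar (M * q))).comp
      ((aeval (jgen M) : Polynomial ℤ →ₐ[ℤ] ↥(modularFunctionFieldBar M)) :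
        Polynomial ℤ →+* ↥(modularFunctionFieldBar M)) =
      ((aeval (jE M q) : Polynomial ℤ →ₐ[ℤ] ↥(modularFunctionFieldBar (M * q))) :
        Polynomial ℤ →+* ↥(modularFunctionFieldBar (M * q))) := by
    apply Polynomial.ringHom_ext
    · intro a
      simp
    · simp only [RingHom.comp_apply, RingHom.coe_coe, aeval_X]
      rfl
  rw [hcomp] at h
  exact h

/-! ### the pole inequality -/

variable {M q}

theorem adicValuation_intCast_le_one (P : Place Kb ↥(modularFunctionFieldBar (M * q))) (n : ℤ) :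
    P.adicValuation ((n : ℤ) : ↥(modularFunctionFieldBar (M * q))) ≤ 1 := by
  have h := P.adicValuation_algebraMap_le_one ((n : ℤ) : Kb)
  rwa [map_intCast] at h

/-- **`|j_q|_P ≤ |j|_P ^ q` at the poles of `j`** -/
theorem adicValuation_jl_le (P : Place Kb ↥(modularFunctionFieldBar (M * q)))
    (h : 1 ≤ P.adicValuation (jE M q)) :
    P.adicValuation (jl M q) ≤ P.adicValuation (jE M q) ^ q := by
  have hq1 : 1 ≤ q := hq.out.one_le
  refine valuation_le_of_monic_root P.adicValuation (PhiE_monic M q) (eval_jl_PhiE M q) ?_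
  intro a ha
  rw [natDegree_PhiE] at ha ⊢
  rw [coeff_PhiE, ← pow_mul]
  rcases Nat.lt_succ_iff_lt_or_eq.mp ha with ha' | rfl
  · -- `a < q`: degree `≤ q + 1 ≤ q * (q + 1 - a)`
    refine (valuation_aeval_le P.adicValuation (adicValuation_intCast_le_one P) h _
      (natDegree_coeff_modPolyZ_le a)).trans ?_
    apply pow_le_pow_right₀ h
    have h2 : 2 ≤ q + 1 - a := by omega
    calc q + 1 ≤ q * 2 := by omega
      _ ≤ q * (q + 1 - a) := Nat.mul_le_mul_left q h2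
  · -- `a = q`: degree `≤ q`
    refine (valuation_aeval_le P.adicValuation (adicValuation_intCast_le_one P) h _
      natDegree_coeff_modPolyZ_q_le).trans ?_
    apply pow_le_pow_right₀ h
    have : a + 1 - a = 1 := by omega
    rw [this, mul_one]

/-- `j_q` is regular where `j` is -/
theorem adicValuation_jl_le_one (P : Place Kb ↥(modularFunctionFieldBar (M * q)))
    (h : P.adicValuation (jE M q) ≤ 1) : P.adicValuation (jl M q) ≤ 1 := by
  refine valuation_le_of_monic_root P.adicValuation (PhiE_monic M q) (eval_jl_PhiE M q) ?_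
  intro a _
  rw [coeff_PhiE, one_pow]
  exact valuation_aeval_le_one P.adicValuation (adicValuation_intCast_le_one P) h _

/-! ### `ord` forms -/

theorem jgen_ne_zero : jgen M ≠ 0 := fun h =>
  (Fermat.Agent.S18.A.Instances.isFF_jgen M).transcendental (h ▸ isAlgebraic_zero)

variable (M q) in
theorem jE_ne_zero : jE M q ≠ 0 := by
  unfold jE
  exact (map_ne_zero_iff _ (heckeAlphaBar Kb M q).toRingHom.injective).mpr jgen_ne_zero

variable (M q) in
theorem jl_ne_zero : jl M q ≠ 0 := by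
  unfold jl
  exact (map_ne_zero_iff _ (heckeBetaBar Kb M q).toRingHom.injective).mpr jgen_ne_zero

/-- `j_q` is regular where `j` is, `ord` form -/
theorem ord_jl_nonneg (P : Place Kb ↥(modularFunctionFieldBar (M * q)))
    (h : 0 ≤ P.ord (jE M q)) : 0 ≤ P.ord (jl M q) := by
  have h1 : P.adicValuation (jE M q) ≤ 1 := P.adicValuation_le_one_iff.mpr (Or.inr h)
  rcases P.adicValuation_le_one_iff.mp (adicValuation_jl_le_one P h1) with h2 | h2
  · exact absurd h2 (jl_ne_zero M q)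
  · exact h2

/-- **`q · ord_P j ≤ ord_P j_q` at the poles of `j`** -/
theorem ord_jl_ge (P : Place Kb ↥(modularFunctionFieldBar (M * q)))
    (h : P.ord (jE M q) < 0) : (q : ℤ) * P.ord (jE M q) ≤ P.ord (jl M q) := by
  have h1 : 1 ≤ P.adicValuation (jE M q) :=
    le_of_lt (not_le.mp (P.not_adicValuation_le_one_iff.mpr h))
  have h2 := adicValuation_jl_le P h1
  have hne : jE M q ^ q ≠ 0 := pow_ne_zero q (jE_ne_zero M q)
  have h3 : P.adicValuation (jl M q / jE M q ^ q) ≤ 1 := by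
    rw [map_div₀, map_pow]
    exact div_le_one_of_le₀ h2 zero_le
  rcases P.adicValuation_le_one_iff.mp h3 with h4 | h4
  · exact absurd h4 (div_ne_zero (jl_ne_zero M q) hne)
  · rw [Fermat.Agent.S18.CoreOrd.ord_div P (jl_ne_zero M q) hne,
      Fermat.Agent.S18.CoreOrd.ord_pow] at h4
    omega

/-! ### the cusp witness `f = j_q ^ (q + 1) = x ^ q · (j_q / j ^ q)` -/

open Fermat.Agent.S18.NonSpecial Fermat.Agent.S37.Deuring.Core Fermat.Agent.S34.Euler.RedPair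

/-- `x = j · j_q` -/
def xE (M q : ℕ) [NeZero M] [NeZero q] : ↥(modularFunctionFieldBar (M * q)) := jE M q * jl M q

/-- **`j_q ^ (q + 1) ∈ L(q (x)_∞)`**, `x = j j_q` -/
theorem jl_pow_mem_rr {D : Divisor Kb ↥(modularFunctionFieldBar (M * q))}
    (hD : IsPoleDiv (xE M q) D) : jl M q ^ (q + 1) ∈ riemannRochSpace (q • D) := by
  have hne : jl M q ^ (q + 1) ≠ 0 := pow_ne_zero _ (jl_ne_zero M q)
  rw [Fermat.Agent.S18.A.Riemann.mem_iff_of_ne_zero hne]
  intro P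
  rw [Fermat.Agent.S18.CoreOrd.ord_pow, Finsupp.smul_apply, hD P, xE,
    P.ord_mul (jE_ne_zero M q) (jl_ne_zero M q), nsmul_eq_mul]
  push_cast
  have hq0 : (0 : ℤ) ≤ q := Int.natCast_nonneg q
  rcases lt_or_ge (P.ord (jE M q)) 0 with h | h
  · have h1 := ord_jl_ge P h
    have h2 : -(P.ord (jE M q) + P.ord (jl M q)) ≤ max 0 (-(P.ord (jE M q) + P.ord (jl M q))) :=
      le_max_right _ _
    nlinarith
  · have h1 := ord_jl_nonneg P h
    have h2 : (0 : ℤ) ≤ max 0 (-(P.ord (jE M q) + P.ord (jl M q))) := le_max_left _ _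
    nlinarith

section Witness

variable {k : Type*} [Field k] {A : ValuationSubring Kb} {π : A →+* k}
variable {κ : Type*} [Field κ] [Algebra k κ]

/-- **the (CUSP) witness of `Euler/Chart.cusp_of_witness`**, hypotheses-first on a pair of Gauss
data of `E = ℚ̄(X₀(M q))` with `red₁ j = j̄`, `red₁ j_q = j̄ ^ q`, `red₂ j = j̄ ^ q`, `red₂ j_q = j̄`:
`p = red (j_q ^ (q + 1)) ∈ redSpace₂ (q (x)_∞)`, `p.1 = x̄₁ ^ q`, `p.2 · j̄ ^ (q² - 1) = x̄₂ ^ q`. -/
theorem exists_cusp_witness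
    (G₁ G₂ : GaussDatum A π ↥(modularFunctionFieldBar (M * q)) κ)
    (hj₁ : jE M q ∈ G₁.O) (hj₂ : jE M q ∈ G₂.O) (hl₁ : jl M q ∈ G₁.O) (hl₂ : jl M q ∈ G₂.O)
    {jb : κ} (h11 : G₁.red ⟨jE M q, hj₁⟩ = jb) (h12 : G₁.red ⟨jl M q, hl₁⟩ = jb ^ q)
    (h21 : G₂.red ⟨jE M q, hj₂⟩ = jb ^ q) (h22 : G₂.red ⟨jl M q, hl₂⟩ = jb)
    {D : Divisor Kb ↥(modularFunctionFieldBar (M * q))} (hD : IsPoleDiv (xE M q) D)
    (hxO₁ : xE M q ∈ G₁.O) (hxO₂ : xE M q ∈ G₂.O) :
    ∃ p ∈ redSpace₂ G₁ G₂ (q • D), p.1 = G₁.red ⟨xE M q, hxO₁⟩ ^ q ∧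
      p.2 * jb ^ (q ^ 2 - 1) = G₂.red ⟨xE M q, hxO₂⟩ ^ q := by
  have hx₁ : G₁.red ⟨xE M q, hxO₁⟩ = jb ^ (q + 1) := by
    have e : (⟨xE M q, hxO₁⟩ : G₁.O) = ⟨jE M q, hj₁⟩ * ⟨jl M q, hl₁⟩ := rfl
    rw [e, map_mul, h11, h12, pow_succ']
  have hx₂ : G₂.red ⟨xE M q, hxO₂⟩ = jb ^ (q + 1) := by
    have e : (⟨xE M q, hxO₂⟩ : G₂.O) = ⟨jE M q, hj₂⟩ * ⟨jl M q, hl₂⟩ := rfl
    rw [e, map_mul, h21, h22, pow_succ]
  have hf₁ : jl M q ^ (q + 1) ∈ G₁.O := G₁.O.pow_mem hl₁ _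
  have hf₂ : jl M q ^ (q + 1) ∈ G₂.O := G₂.O.pow_mem hl₂ _
  refine ⟨redPair G₁ G₂ (jl M q ^ (q + 1)) hf₁ hf₂,
    ⟨jl M q ^ (q + 1), hf₁, hf₂, jl_pow_mem_rr hD, rfl⟩, ?_, ?_⟩
  · show G₁.red ⟨jl M q ^ (q + 1), hf₁⟩ = _
    have e : (⟨jl M q ^ (q + 1), hf₁⟩ : G₁.O) = ⟨jl M q, hl₁⟩ ^ (q + 1) := rfl
    rw [e, map_pow, h12, hx₁, ← pow_mul, ← pow_mul, mul_comm]
  · show G₂.red ⟨jl M q ^ (q + 1), hf₂⟩ * _ = _
    have e : (⟨jl M q ^ (q + 1), hf₂⟩ : G₂.O) = ⟨jl M q, hl₂⟩ ^ (q + 1) := rfl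
    rw [e, map_pow, h22, hx₂, ← pow_add, ← pow_mul]
    congr 1
    have hq1 : 1 ≤ q ^ 2 := Nat.one_le_pow _ _ hq.out.pos
    have : q ^ 2 = q * q := sq q
    nlinarith [Nat.sub_add_cancel hq1]

/-- **(CUSP) of `Euler/Chart.genus_le_of_charts` at `X₀(M q)`**, hypotheses-first on the pair of
Gauss data: `P₀` consists of poles of `j̄`, `P₁` contains the zeros of `j̄`. -/
theorem cusp_X0
    (G₁ G₂ : GaussDatum A π ↥(modularFunctionFieldBar (M * q)) κ)
    (hj₁ : jE M q ∈ G₁.O) (hj₂ : jE M q ∈ G₂.O) (hl₁ : jl M q ∈ G₁.O) (hl₂ : jl M q ∈ G₂.O)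
    {jb : κ} (h11 : G₁.red ⟨jE M q, hj₁⟩ = jb) (h12 : G₁.red ⟨jl M q, hl₁⟩ = jb ^ q)
    (h21 : G₂.red ⟨jE M q, hj₂⟩ = jb ^ q) (h22 : G₂.red ⟨jl M q, hl₂⟩ = jb)
    {D : Divisor Kb ↥(modularFunctionFieldBar (M * q))} (hD : IsPoleDiv (xE M q) D)
    (hxO₁ : xE M q ∈ G₁.O) (hxO₂ : xE M q ∈ G₂.O)
    {Fr : Place k κ → Place k κ} {P₀ P₁ : Set (Place k κ)}
    (hP₀ : ∀ b ∈ P₀, b.ord jb < 0) (hP₁ : ∀ v, 0 < v.ord jb → v ∈ P₁)
    (Z₁ : Finset (Place k κ)) :
    ∀ b ∈ Z₁, b ∈ P₀ → ∃ p ∈ Fermat.Agent.S34.Euler.Chart.Rbar1 G₁ G₂ hxO₁ hxO₂ hD,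
      p.1 ∈ Fermat.Agent.S34.Euler.Places.regOff P₁ ∧
      p.2 ∈ Fermat.Agent.S34.Euler.Places.regOff P₁ ∧
      ¬ ∃ c : k, Fermat.Agent.S34.Euler.Value.HasValue (Fr b) p.1 c ∧
        Fermat.Agent.S34.Euler.Value.HasValue b p.2 c := by
  obtain ⟨p, hp, hp1, hp2⟩ := exists_cusp_witness G₁ G₂ hj₁ hj₂ hl₁ hl₂ h11 h12 h21 h22 hD hxO₁ hxO₂
  have hq2 : 1 ≤ q ^ 2 - 1 := by
    have h2 : 2 ≤ q := hq.out.two_le
    have : 4 ≤ q ^ 2 := by nlinarith
    omega
  refine Fermat.Agent.S34.Euler.Chart.cusp_of_witness G₁ G₂ hxO₁ hxO₂ hD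
    (t := jb ^ (q ^ 2 - 1)) ?_ ?_ hp hp1 hp2 Z₁
  · intro b hb
    have h := hP₀ b hb
    rw [Fermat.Agent.S18.CoreOrd.ord_pow]
    have : (1 : ℤ) ≤ ((q ^ 2 - 1 : ℕ) : ℤ) := by exact_mod_cast hq2
    nlinarith
  · intro v hv
    have hle : v.ord jb ≤ 0 := by
      by_contra hpos
      push Not at hpos
      exact hv (hP₁ v hpos)
    apply v.adicValuation_le_one_iff.mpr
    right
    rw [v.ord_inv, Fermat.Agent.S18.CoreOrd.ord_pow]
    have : (0 : ℤ) ≤ ((q ^ 2 - 1 : ℕ) : ℤ) := Int.natCast_nonneg _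
    nlinarith

end Witness

end Fermat.Agent.S34.CuspRegular
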