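/-
PROJECT U (S34), helper11: THE `x`-DATA OF THE EULER-CHARACTERISTIC GENUS INEQUALITY
(`Euler.Main.genus_le_of_sandwich`) AT `E = ℚ̄(X₀(M q))`, `q` prime, `q ∤ M`.

`x := j · j_q` (`j = α j = jgen (M q)`, `j_q = β j = jl M q`).

* `alpha_jgen` : `α (jgen M) = jgen (M q)`;
* `jl_mem_of_jgen_mem`, `jgen_mem_of_jl_mem` : `j` and `j_q` are integral over each other
  (modular equation, monic in `X`; Atkin-Lehner for the converse), hence have the same poles
  (`ord_jl_neg_iff`);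
* `Dj`, `Djl`, `D` : the pole divisors of `j`, `j_q`, `x`; `isPoleDiv_x`;
  `degree_D : deg D = 2 (q + 1) μ_M`, `μ_M = [SL₂(ℤ) : Γ₀(M)]`;
* `Ek` : the pole divisor of `j̄` on `X₀(M)/k`, `isPoleDiv_jk_pow`, `degree_Ek = μ_M`.
-/
import Mathlib
import Fermat.Agent.S34.TwoGaussX0
import Fermat.Agent.S34.WqGalois
import Fermat.Agent.S34.KummerZ
import Fermat.Agent.S18.A.FibreSep
import Fermat.Agent.S18.A.Instances
import Fermat.Agent.S18.B.SeparableFk
import Fermat.Agent.S30.Hecke.NormEmbForms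
import Fermat.Agent.S37.Deuring.HypX0
import Fermat.Agent.S34.Euler.Main

set_option autoImplicit false
set_option linter.unusedSectionVars false
set_option linter.style.haveILetI false

noncomputable section

namespace Fermat.Agent.S34.EulerX0

open Polynomial ModularCurve AlgebraicCurve IntermediateField CongruenceSubgroup
open Fermat.Agent.S24.DegreeAlg (jgen)
open Fermat.Agent.S18.B.FkBasics (jk)
open Fermat.Agent.S34.PowerBasisX0 Fermat.Agent.S34.WqGalois
open Fermat.Agent.S37.Deuring.Core (IsPoleDiv)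
open Fermat.Agent.S18.A
open scoped MatrixGroups

local notation "Kb" => AlgebraicClosure ℚ

variable {q : ℕ} [hq : Fact q.Prime] [NeZero q] {M : ℕ} [NeZero M]

/-! ### `α j = j` -/

theorem alpha_jgen : heckeAlphaBar Kb M q (jgen M) = jgen (M * q) := by
  apply Subtype.ext
  rw [coe_heckeAlphaBar, Fermat.Agent.S18.B.Basic.coe_jgen_eq,
    Fermat.Agent.S18.B.Basic.coe_jgen_eq]

/-! ### `j` and `j_q` are integral over each other -/

/-- `j_q` lies in every valuation subring of `E` containing `j` (modular equation). -/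
theorem jl_mem_of_jgen_mem (V : ValuationSubring ↥(modularFunctionFieldBar (M * q)))
    (h : jgen (M * q) ∈ V) : jl M q ∈ V := by
  obtain ⟨Φ, hmonic, -, hΦ, -⟩ := Fermat.Agent.S34.Kronecker.kronecker q
  have hroot := aeval_jl_modPolyF (N := M) (ℓ := q) hΦ
  letI algFE := algebraAlong (heckeAlphaBar Kb M q)
  set ψ : Polynomial ℤ →+* ↥V :=
    ((aeval (⟨jgen (M * q), h⟩ : ↥V) : Polynomial ℤ →ₐ[ℤ] ↥V) : Polynomial ℤ →+* ↥V) with hψ
  have hcomp : V.subtype.comp ψ =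
      (algebraMap ↥(modularFunctionFieldBar M) ↥(modularFunctionFieldBar (M * q))).comp
        ((aeval (jgen M) : Polynomial ℤ →ₐ[ℤ] ↥(modularFunctionFieldBar M)) :
          Polynomial ℤ →+* ↥(modularFunctionFieldBar M)) := by
    apply Polynomial.ringHom_ext
    · intro a
      simp [hψ]
    · simp only [RingHom.comp_apply, hψ, AlgHom.coe_toRingHom, aeval_X]
      exact (alpha_jgen (M := M) (q := q)).symm
  have hint : IsIntegral ↥V (jl M q) := by
    refine ⟨Φ.map ψ, hmonic.map _, ?_⟩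
    rw [eval₂_map]
    show eval₂ (V.subtype.comp ψ) (jl M q) Φ = 0
    rw [hcomp, ← eval₂_map]
    exact hroot
  obtain ⟨y, hy⟩ := IsIntegrallyClosed.isIntegral_iff.mp hint
  rw [← hy]
  exact y.2

variable (hqM : ¬ q ∣ M)

include hqM in
/-- `j` lies in every valuation subring of `E` containing `j_q` (apply `w_q`). -/
theorem jgen_mem_of_jl_mem (V : ValuationSubring ↥(modularFunctionFieldBar (M * q)))
    (h : jl M q ∈ V) : jgen (M * q) ∈ V := by
  have h1 : jgen (M * q) ∈ V.comap (wqHom M q hq.out hqM) := by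
    rw [ValuationSubring.mem_comap, wqHom_apply, ← alpha_jgen, wq_alpha_jgen]
    exact h
  have h2 := jl_mem_of_jgen_mem _ h1
  rw [ValuationSubring.mem_comap, wqHom_apply, wq_jl, alpha_jgen] at h2
  exact h2

include hqM in
theorem jl_mem_iff (V : ValuationSubring ↥(modularFunctionFieldBar (M * q))) :
    jl M q ∈ V ↔ jgen (M * q) ∈ V :=
  ⟨jgen_mem_of_jl_mem hqM V, jl_mem_of_jgen_mem V⟩

theorem jgen_ne_zero (N : ℕ) [NeZero N] : jgen N ≠ 0 :=
  (Instances.isFF_jgen N).ne_zero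

theorem jl_ne_zero : jl M q ≠ 0 := by
  rw [jl]
  exact (_root_.map_ne_zero _).mpr (jgen_ne_zero M)

include hqM in
/-- `j` and `j_q` have the same poles. -/
theorem ord_jl_neg_iff (P : Place Kb ↥(modularFunctionFieldBar (M * q))) :
    P.ord (jl M q) < 0 ↔ P.ord (jgen (M * q)) < 0 := by
  rw [Fermat.Agent.S24.Ord.ord_neg_iff P jl_ne_zero,
    Fermat.Agent.S24.Ord.ord_neg_iff P (jgen_ne_zero (M * q)), ← not_le, ← not_le,
    ← Fermat.Agent.S24.Ord.mem_iff, ← Fermat.Agent.S24.Ord.mem_iff,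
    jl_mem_iff hqM P.toValuationSubring]

/-! ### The pole divisors on `X₀(M q)` -/

/-- the pole divisor of `j` on `X₀(M q)` -/
def Dj (M q : ℕ) [NeZero M] [NeZero q] : Divisor Kb ↥(modularFunctionFieldBar (M * q)) :=
  FibreSep.poleDiv (Instances.isFF_jgen (M * q)) (Instances.isSeparable_jgen (M * q))

theorem isPoleDiv_jgen : IsPoleDiv (jgen (M * q)) (Dj M q) := fun v => by
  rw [Dj, FibreSep.poleDiv_apply, max_comm]

theorem degree_Dj :
    Divisor.degree (Dj M q) = (Nat.card (SL(2, ℤ) ⧸ Gamma0 (M * q)) : ℤ) := by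
  rw [Dj, FibreSep.degree_poleDiv, Instances.finrank_jgen]

/-- the Atkin-Lehner involution as a (linear) semilinear automorphism -/
def wqAut : SemilinearAut Kb ↥(modularFunctionFieldBar (M * q)) :=
  SemilinearAut.ofAlgAut (wq M q hq.out hqM)

theorem wqAut_smul (x : ↥(modularFunctionFieldBar (M * q))) :
    wqAut hqM • x = wq M q hq.out hqM x := rfl

/-- the pole divisor of `j_q` on `X₀(M q)` -/
def Djl : Divisor Kb ↥(modularFunctionFieldBar (M * q)) := wqAut hqM • Dj M q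

theorem isPoleDiv_jl : IsPoleDiv (jl M q) (Djl hqM) := fun v => by
  rw [Djl, SemilinearAut.divisor_smul_apply, isPoleDiv_jgen,
    ← Fermat.Agent.S34.KummerZ.ord_smul_eq, wqAut_smul, ← alpha_jgen, wq_alpha_jgen]

theorem degree_Djl :
    Divisor.degree (Djl hqM) = (Nat.card (SL(2, ℤ) ⧸ Gamma0 (M * q)) : ℤ) := by
  rw [Djl, SemilinearAut.degree_smul, degree_Dj]

/-- `x = j · j_q` -/
def xE (M q : ℕ) [NeZero M] [NeZero q] : ↥(modularFunctionFieldBar (M * q)) :=
  jgen (M * q) * jl M q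

theorem xE_ne_zero : xE M q ≠ 0 := mul_ne_zero (jgen_ne_zero (M * q)) jl_ne_zero

/-- the pole divisor of `x = j · j_q` -/
def D : Divisor Kb ↥(modularFunctionFieldBar (M * q)) := Dj M q + Djl hqM

theorem isPoleDiv_xE : IsPoleDiv (xE M q) (D hqM) := fun v => by
  rw [D, Finsupp.add_apply, isPoleDiv_jgen, isPoleDiv_jl hqM, xE,
    v.ord_mul (jgen_ne_zero (M * q)) jl_ne_zero]
  have h := ord_jl_neg_iff hqM v
  rcases lt_or_ge (v.ord (jgen (M * q))) 0 with h1 | h1
  · have h2 := h.mpr h1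
    rw [max_eq_right (by omega), max_eq_right (by omega), max_eq_right (by omega)]
    ring
  · have h2 : 0 ≤ v.ord (jl M q) := not_lt.mp fun h' => (not_lt.mpr h1) (h.mp h')
    rw [max_eq_left (by omega), max_eq_left (by omega), max_eq_left (by omega)]
    ring

theorem degree_D :
    Divisor.degree (D hqM) = 2 * (Nat.card (SL(2, ℤ) ⧸ Gamma0 (M * q)) : ℤ) := by
  rw [D, map_add, degree_Dj, degree_Djl]
  ring

include hqM in
/-- `[SL₂(ℤ) : Γ₀(M q)] = (q + 1) [SL₂(ℤ) : Γ₀(M)]` -/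
theorem card_mul :
    Nat.card (SL(2, ℤ) ⧸ Gamma0 (M * q)) = (q + 1) * Nat.card (SL(2, ℤ) ⧸ Gamma0 M) := by
  rw [← Subgroup.index_eq_card, ← Subgroup.index_eq_card,
    ← Subgroup.relIndex_mul_index (Fermat.Agent.S30.Hecke.NormEmbForms.Gamma0_mul_le M q),
    ← Fermat.Agent.S30.Hecke.NormEmbForms.finrankAlong_alpha_eq_relIndex,
    Fermat.Agent.S37.ES.DegreeBeta.finrankAlong_alpha M hq.out hqM]

/-! ### The pole divisor of `j̄` on `X₀(M) / k` -/

section KSide

/-- the pole divisor of `j̄` on `X₀(M)/k` -/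
def Ek (k : Type*) [Field k] [IsAlgClosed k] (M : ℕ) [NeZero M] :
    Divisor k ↥(modularFunctionFieldFullC k M) :=
  FibreSep.poleDiv (Fermat.Agent.S18.B.FkBasics.isFF k M)
    (Fermat.Agent.S18.B.SeparableFk.isSeparable_jk k M)

variable (k : Type*) [Field k] [IsAlgClosed k] (M' : ℕ) [NeZero M']

theorem isPoleDiv_jk : IsPoleDiv (jk k M') (Ek k M') := fun v => by
  rw [Ek, FibreSep.poleDiv_apply, max_comm]

theorem Ek_nonneg : 0 ≤ Ek k M' := (isPoleDiv_jk k M').nonneg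

theorem isPoleDiv_jk_pow (n : ℕ) : IsPoleDiv (jk k M' ^ n) (n • Ek k M') := fun v => by
  rw [Finsupp.smul_apply, isPoleDiv_jk, Fermat.Agent.S34.KummerZ.ord_pow, nsmul_eq_mul]
  rcases le_or_gt 0 (v.ord (jk k M')) with h | h
  · have h1 : 0 ≤ (n : ℤ) * v.ord (jk k M') := mul_nonneg (Int.natCast_nonneg n) h
    rw [max_eq_left (by omega), max_eq_left (by omega), mul_zero]
  · have h1 : (n : ℤ) * v.ord (jk k M') ≤ 0 :=
      mul_nonpos_of_nonneg_of_nonpos (Int.natCast_nonneg n) h.le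
    rw [max_eq_right (by omega), max_eq_right (by omega)]
    ring

theorem degree_Ek :
    Divisor.degree (Ek k M') = (Module.finrank k⟮jk k M'⟯ ↥(modularFunctionFieldFullC k M') : ℤ) := by
  rw [Ek, FibreSep.degree_poleDiv]

theorem degree_Ek_pos : 0 < Divisor.degree (Ek k M') := by
  rw [degree_Ek]
  haveI := (Fermat.Agent.S18.B.FkBasics.isFF k M').finite
  exact_mod_cast Module.finrank_pos

end KSide

section Residue

open IsLocalRing

set_option synthInstance.maxHeartbeats 400000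

/-- shortcut (the generic search for this algebra structure is slow) -/
@[reducible] def algResFk (A : ValuationSubring Kb) (N : ℕ) [NeZero N] :
    Algebra (ResidueField ↥A) ↥(modularFunctionFieldFullC (ResidueField ↥A) N) := inferInstance

attribute [local instance 2000] algResFk

variable {A : ValuationSubring Kb} (hA : A.LiesOverPrime q)

/-- the pole divisor of `j̄` on `X₀(M)` over the residue field of `A` -/
def EkA (A : ValuationSubring Kb) (M : ℕ) [NeZero M] :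
    Divisor (ResidueField ↥A) ↥(modularFunctionFieldFullC (ResidueField ↥A) M) :=
  haveI : IsAlgClosed (ResidueField ↥A) :=
    Fermat.Agent.S18.ResidueBasics.isAlgClosed_residueField A
  Ek (ResidueField ↥A) M

theorem isPoleDiv_jk_pow_A (n : ℕ) :
    IsPoleDiv (jk (ResidueField ↥A) M ^ n) (n • EkA A M) := by
  haveI : IsAlgClosed (ResidueField ↥A) :=
    Fermat.Agent.S18.ResidueBasics.isAlgClosed_residueField A
  exact isPoleDiv_jk_pow (ResidueField ↥A) M n

theorem degree_EkA_pos : 0 < Divisor.degree (EkA A M) := by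
  haveI : IsAlgClosed (ResidueField ↥A) :=
    Fermat.Agent.S18.ResidueBasics.isAlgClosed_residueField A
  exact degree_Ek_pos (ResidueField ↥A) M

include hA hqM in
/-- `deg (j̄)_∞ = [SL₂(ℤ) : Γ₀(M)]` -/
theorem degree_EkA :
    Divisor.degree (EkA A M) = (Nat.card (SL(2, ℤ) ⧸ Gamma0 M) : ℤ) := by
  haveI : IsAlgClosed (ResidueField ↥A) :=
    Fermat.Agent.S18.ResidueBasics.isAlgClosed_residueField A
  rw [EkA, degree_Ek, ← Fermat.Agent.S37.Deuring.HypX0.finrank_eq hA hqM, Instances.finrank_jgen]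

include hA hqM in
/-- **the fundamental equality for `x = j j_q`**: `deg (x)_∞ = 2 deg (j̄^(q+1))_∞` -/
theorem degree_D_eq :
    Divisor.degree (D hqM) =
      Divisor.degree ((q + 1) • EkA A M) + Divisor.degree ((q + 1) • EkA A M) := by
  rw [degree_D, card_mul hqM, map_nsmul, degree_EkA hqM hA]
  push_cast
  rw [nsmul_eq_mul]
  push_cast
  ring

/-! ### The pair of Gauss data and the final call -/

open Fermat.Agent.S18.NonSpecial Fermat.Agent.S37.Deuring.Core Fermat.Agent.S34.Euler.Glued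
  Fermat.Agent.S34.Euler.RedPair

/-- What the genus inequality needs from the two Gauss data `G₁`, `G₂` of `E = ℚ̄(X₀(M q))`
(`GaussPairX0`): `j, j_q ∈ O₁ ∩ O₂` with reductions `(j̄, j̄^q)` and `(j̄^q, j̄)`. -/
structure PairRed
    (G₁ G₂ : GaussDatum A (residue ↥A) ↥(modularFunctionFieldBar (M * q))
      ↥(modularFunctionFieldFullC (ResidueField ↥A) M)) : Prop where
  j_mem₁ : jgen (M * q) ∈ G₁.O
  jl_mem₁ : jl M q ∈ G₁.O
  j_mem₂ : jgen (M * q) ∈ G₂.O
  jl_mem₂ : jl M q ∈ G₂.O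
  red₁_j : G₁.red ⟨jgen (M * q), j_mem₁⟩ = jk (ResidueField ↥A) M
  red₁_jl : G₁.red ⟨jl M q, jl_mem₁⟩ = jk (ResidueField ↥A) M ^ q
  red₂_j : G₂.red ⟨jgen (M * q), j_mem₂⟩ = jk (ResidueField ↥A) M ^ q
  red₂_jl : G₂.red ⟨jl M q, jl_mem₂⟩ = jk (ResidueField ↥A) M

variable {G₁ G₂ : GaussDatum A (residue ↥A) ↥(modularFunctionFieldBar (M * q))
  ↥(modularFunctionFieldFullC (ResidueField ↥A) M)}

theorem PairRed.xE_mem₁ (hP : PairRed G₁ G₂) : xE M q ∈ G₁.O :=
  G₁.O.mul_mem _ _ hP.j_mem₁ hP.jl_mem₁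

theorem PairRed.xE_mem₂ (hP : PairRed G₁ G₂) : xE M q ∈ G₂.O :=
  G₂.O.mul_mem _ _ hP.j_mem₂ hP.jl_mem₂

theorem PairRed.red₁_xE (hP : PairRed G₁ G₂) :
    G₁.red ⟨xE M q, hP.xE_mem₁⟩ = jk (ResidueField ↥A) M ^ (q + 1) := by
  have h : (⟨xE M q, hP.xE_mem₁⟩ : ↥G₁.O) = ⟨jgen (M * q), hP.j_mem₁⟩ * ⟨jl M q, hP.jl_mem₁⟩ :=
    Subtype.ext rfl
  rw [h, map_mul, hP.red₁_j, hP.red₁_jl, pow_succ']

theorem PairRed.red₂_xE (hP : PairRed G₁ G₂) :
    G₂.red ⟨xE M q, hP.xE_mem₂⟩ = jk (ResidueField ↥A) M ^ (q + 1) := by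
  have h : (⟨xE M q, hP.xE_mem₂⟩ : ↥G₂.O) = ⟨jgen (M * q), hP.j_mem₂⟩ * ⟨jl M q, hP.jl_mem₂⟩ :=
    Subtype.ext rfl
  rw [h, map_mul, hP.red₂_j, hP.red₂_jl, pow_succ]

/-- the divisor `(q + 1) (j̄)_∞` vanishes at every place which is not a pole of `j̄` -/
theorem smul_EkA_apply_eq_zero (n : ℕ)
    (v : Place (ResidueField ↥A) ↥(modularFunctionFieldFullC (ResidueField ↥A) M))
    (hv : 0 ≤ v.ord (jk (ResidueField ↥A) M)) : (n • EkA A M) v = 0 := by
  have h := isPoleDiv_jk_pow_A (A := A) (M := M) 1 v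
  rw [one_nsmul, pow_one] at h
  rw [Finsupp.smul_apply, h, max_eq_left (by omega), smul_zero]

include hA hqM in
/-- **The genus inequality at `X₀(M q)`**: `g(X₀(M q)) + 1 ≤ 2 g(X₀(M)/k) + #nodes`, from the
two-chart sandwich for `x = j j_q` (`h0` : chart `x ≠ ∞`, `h1` : chart `x ≠ 0`). -/
theorem genus_le_X0 (hP : PairRed G₁ G₂) {g gM : ℕ}
    (HL : RiemannHyp Kb ↥(modularFunctionFieldBar (M * q)) g)
    (HM : RiemannHyp (ResidueField ↥A) ↥(modularFunctionFieldFullC (ResidueField ↥A) M) gM)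
    {ι : Type*} [Fintype ι]
    (s₁ s₂ : ι → Place (ResidueField ↥A) ↥(modularFunctionFieldFullC (ResidueField ↥A) M))
    (hinj : Function.Injective s₁)
    (hs₁ : ∀ i, 0 ≤ (s₁ i).ord (jk (ResidueField ↥A) M))
    (hs₂ : ∀ i, 0 ≤ (s₂ i).ord (jk (ResidueField ↥A) M))
    (hxg : ∀ i, GluedAt s₁ s₂ i
      (jk (ResidueField ↥A) M ^ (q + 1), jk (ResidueField ↥A) M ^ (q + 1)))
    (h0 : ∀ d, ∀ p ∈ V s₁ s₂ ((q + 1) • EkA A M) ((q + 1) • EkA A M) d,
      ∃ r, p ∈ redSpace₂ G₁ G₂ ((d + r) • D hqM))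
    (h1 : ∀ d, ∀ p ∈ V s₁ s₂ ((q + 1) • EkA A M) ((q + 1) • EkA A M) d, ∃ r,
      ((jk (ResidueField ↥A) M ^ (q + 1)) ^ r * p.1, (jk (ResidueField ↥A) M ^ (q + 1)) ^ r * p.2)
        ∈ redSpace₂ G₁ G₂ ((d + r) • D hqM)) :
    (g : ℤ) + 1 ≤ gM + gM + Fintype.card ι := by
  have hpos : 0 < Divisor.degree ((q + 1) • EkA A M) := by
    rw [map_nsmul]
    exact nsmul_pos (degree_EkA_pos (A := A) (M := M)) (Nat.succ_ne_zero q)
  refine Fermat.Agent.S34.Euler.Main.genus_le_of_sandwich G₁ G₂ HL HM HM s₁ s₂ hinj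
    hP.xE_mem₁ hP.xE_mem₂ (isPoleDiv_xE hqM)
    (E₁ := (q + 1) • EkA A M) (E₂ := (q + 1) • EkA A M) ?_ ?_
    (fun i => smul_EkA_apply_eq_zero _ _ (hs₁ i)) (fun i => smul_EkA_apply_eq_zero _ _ (hs₂ i))
    hpos hpos ?_ (degree_D_eq hqM hA) h0 ?_
  · rw [hP.red₁_xE]
    exact isPoleDiv_jk_pow_A (q + 1)
  · rw [hP.red₂_xE]
    exact isPoleDiv_jk_pow_A (q + 1)
  · rw [hP.red₁_xE, hP.red₂_xE]
    exact hxg
  · intro d p hp
    obtain ⟨r, hr⟩ := h1 d p hp
    refine ⟨r, ?_⟩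
    rw [hP.red₁_xE, hP.red₂_xE]
    exact hr

end Residue

end Fermat.Agent.S34.EulerX0
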