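/-
PROJECT U (S34), helper11: **THE NODE SET AND THE GENUS INEQUALITY AT `X₀(M q)`** = one call of
helper17's `Euler.ChartFullC.genus_le_of_charts_fullC` with the `x`-data of `S34/EulerX0`
(`x = j · j_q`, `D = (x)_∞`, `E = (q + 1) (j̄)_∞`, `deg D = 2 deg E`, `red_i x = j̄ ^ (q + 1)`).

What is left as hypotheses (each has a producer):
* `hP : PairRed G₁ G₂` (GaussPairX0);
* `LS0`, `LS1` (ChartLiftX0 = LevelMSurjX0 + the reduction dictionary);
* `hJ₀`, `hJ₁` (HoloIdeal);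
* `CUSP` (CuspRegular).
-/
import Mathlib
import Fermat.Agent.S34.EulerX0
import Fermat.Agent.S34.Euler.ChartFullC

set_option autoImplicit false
set_option linter.unusedSectionVars false
set_option linter.style.haveILetI false

noncomputable section

namespace Fermat.Agent.S34.EulerChartsX0

open ModularCurve AlgebraicCurve IsLocalRing
open Fermat.Agent.S24.DegreeAlg (jgen)
open Fermat.Agent.S18.B.FkBasics (jk)
open Fermat.Agent.S18.NonSpecial Fermat.Agent.S37.Deuring.Core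
open Fermat.Agent.S34.PowerBasisX0 Fermat.Agent.S34.EulerX0
open Fermat.Agent.S34.FrobK Fermat.Agent.S34.Euler.Places Fermat.Agent.S34.Euler.Value
  Fermat.Agent.S34.Euler.RedPair Fermat.Agent.S34.Euler.Chart Fermat.Agent.S34.Euler.FrobSide
  Fermat.Agent.S34.Euler.ChartFullC

local notation "Kb" => AlgebraicClosure ℚ

set_option synthInstance.maxHeartbeats 400000

attribute [local instance 2000] Fermat.Agent.S34.EulerX0.algResFk

variable {q : ℕ} [hq : Fact q.Prime] [NeZero q] {M : ℕ} [NeZero M] (hqM : ¬ q ∣ M)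
variable {A : ValuationSubring Kb} (hA : A.LiesOverPrime q)
variable [CharP (ResidueField ↥A) q] [PerfectField (ResidueField ↥A)]
variable [HasPrincipalDivisors (ResidueField ↥A) ↥(modularFunctionFieldFullC (ResidueField ↥A) M)]
variable [IsAlgClosed (ResidueField ↥A)]
variable {G₁ G₂ : GaussDatum A (residue ↥A) ↥(modularFunctionFieldBar (M * q))
  ↥(modularFunctionFieldFullC (ResidueField ↥A) M)}

include hA in
/-- **The nodes of `X₀(M q)` mod `q`, the genus inequality and the chart-0 gluing.** -/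
theorem exists_nodes_X0 (hP : PairRed G₁ G₂) {g gM : ℕ}
    (HL : RiemannHyp Kb ↥(modularFunctionFieldBar (M * q)) g)
    (HM : RiemannHyp (ResidueField ↥A) ↥(modularFunctionFieldFullC (ResidueField ↥A) M) gM)
    -- chart 0
    (LS0 : ∀ h : ↥(modularFunctionFieldFullC (ResidueField ↥A) M),
      (∀ v : Place (ResidueField ↥A) ↥(modularFunctionFieldFullC (ResidueField ↥A) M),
        0 ≤ v.ord (jk (ResidueField ↥A) M) → h = 0 ∨ 0 ≤ v.ord h) →
      ∃ r : ℕ, (h, phi (ResidueField ↥A) M q h) ∈ redSpace₂ G₁ G₂ (r • D hqM) ∧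
        (phi (ResidueField ↥A) M q h, h) ∈ redSpace₂ G₁ G₂ (r • D hqM))
    (hJ₀ : HJ (ResidueField ↥A) M q (P0 (ResidueField ↥A) M) (Fr_mem_P0_iff (ResidueField ↥A) M q))
    -- chart 1
    (LS1 : ∀ h : ↥(modularFunctionFieldFullC (ResidueField ↥A) M),
      (∀ v : Place (ResidueField ↥A) ↥(modularFunctionFieldFullC (ResidueField ↥A) M),
        v.ord (jk (ResidueField ↥A) M) ≤ 0 → h = 0 ∨ 0 ≤ v.ord h) →
      ∃ r : ℕ, ((jk (ResidueField ↥A) M ^ (q + 1)) ^ r * h,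
          (jk (ResidueField ↥A) M ^ (q + 1)) ^ r * phi (ResidueField ↥A) M q h)
          ∈ redSpace₂ G₁ G₂ (r • D hqM) ∧
        ((jk (ResidueField ↥A) M ^ (q + 1)) ^ r * phi (ResidueField ↥A) M q h,
          (jk (ResidueField ↥A) M ^ (q + 1)) ^ r * h) ∈ redSpace₂ G₁ G₂ (r • D hqM))
    (hJ₁ : HJ (ResidueField ↥A) M q (P1 (ResidueField ↥A) M) (Fr_mem_P1_iff (ResidueField ↥A) M q))
    (CUSP : ∃ (r m : ℕ) (p : ↥(modularFunctionFieldFullC (ResidueField ↥A) M) ×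
        ↥(modularFunctionFieldFullC (ResidueField ↥A) M)),
      p ∈ redSpace₂ G₁ G₂ (r • D hqM) ∧ p.1 = (jk (ResidueField ↥A) M ^ (q + 1)) ^ r ∧
        p.2 * jk (ResidueField ↥A) M ^ (m + 1) = (jk (ResidueField ↥A) M ^ (q + 1)) ^ r) :
    ∃ S : Finset (Place (ResidueField ↥A) ↥(modularFunctionFieldFullC (ResidueField ↥A) M)),
      (∀ b ∈ S, Fr (ResidueField ↥A) M q (Fr (ResidueField ↥A) M q b) = b ∧
        b ∉ P0 (ResidueField ↥A) M) ∧
      (g : ℤ) + 1 ≤ gM + gM + S.card ∧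
      ∀ h₁ h₂ : ↥(modularFunctionFieldFullC (ResidueField ↥A) M),
        h₁ ∈ regOff (P0 (ResidueField ↥A) M) → h₂ ∈ regOff (P0 (ResidueField ↥A) M) →
        ((h₁, h₂) ∈ Rbar0 G₁ G₂ (isPoleDiv_xE hqM).nonneg ↔
          ∀ b ∈ S, ∃ c : ResidueField ↥A,
            HasValue (Fr (ResidueField ↥A) M q b) h₁ c ∧ HasValue b h₂ c) := by
  refine genus_le_of_charts_fullC G₁ G₂ HL HM hP.xE_mem₁ hP.xE_mem₂ (isPoleDiv_xE hqM) q
    hP.red₁_xE hP.red₂_xE (isPoleDiv_jk_pow_A (q + 1)) ?_ (degree_D_eq hqM hA) LS0 hJ₀ ?_ hJ₁ ?_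
  · rw [map_nsmul]
    exact nsmul_pos (degree_EkA_pos (A := A) (M := M)) (Nat.succ_ne_zero q)
  · intro h hh
    obtain ⟨r, h1, h2⟩ := LS1 h hh
    refine ⟨r, ?_, ?_⟩
    · rw [hP.red₁_xE, hP.red₂_xE]
      exact h1
    · rw [hP.red₁_xE, hP.red₂_xE]
      exact h2
  · obtain ⟨r, m, p, hp, hp1, hp2⟩ := CUSP
    refine ⟨r, m, p, hp, ?_, ?_⟩
    · rw [hP.red₁_xE]
      exact hp1
    · rw [hP.red₂_xE]
      exact hp2

end Fermat.Agent.S34.EulerChartsX0
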