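/-
PROJECT U (S34), helper11: **THE NODE SET AND THE GENUS INEQUALITY AT `X₀(M q)` FROM THE REDUCTION
DICTIONARY** = `EulerChartsX0.exists_nodes_X0` with `PairRed`, (LS0), (LS1), (CUSP) discharged by
their producers:

* `PairRed`, (LS0), (LS1) from the dictionary `d : ChartLift.PairDict` (GaussPairX0) and the
  restriction data `ra rb` (`Euler/ChartLiftX0.ls0_X0_mul`, `ls1_X0_mul`, helper23);
* (CUSP) from `CuspRegular.exists_cusp_witness` (helper15).

What remains as hypotheses: the dictionary `d`, the restriction data `ra`, `rb`, Deuring's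
hypotheses `H` at level `M`, Riemann's theorem on `E`, and the radical-ideal statements `hJ₀`, `hJ₁`
(HoloIdeal).
-/
import Mathlib
import Fermat.Agent.S34.EulerChartsX0
import Fermat.Agent.S34.Euler.ChartLiftX0
import Fermat.Agent.S34.CuspRegular

set_option autoImplicit false
set_option linter.unusedSectionVars false
set_option linter.style.haveILetI false

noncomputable section

namespace Fermat.Agent.S34.EulerNodesX0

open ModularCurve AlgebraicCurve IsLocalRing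
open Fermat.Agent.S24.DegreeAlg (jgen)
open Fermat.Agent.S18.B.FkBasics (jk)
open Fermat.Agent.S18.NonSpecial Fermat.Agent.S37.Deuring.Core
open Fermat.Agent.S37.Gauss.Datum
open Fermat.Agent.S34.PowerBasisX0 Fermat.Agent.S34.EulerX0
open Fermat.Agent.S34.FrobK Fermat.Agent.S34.Euler.Places Fermat.Agent.S34.Euler.Value
  Fermat.Agent.S34.Euler.RedPair Fermat.Agent.S34.Euler.Chart Fermat.Agent.S34.Euler.FrobSide
  Fermat.Agent.S34.Euler.ChartFullC Fermat.Agent.S34.Euler.ChartLift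
  Fermat.Agent.S34.Generic.Compat

local notation "Kb" => AlgebraicClosure ℚ

set_option synthInstance.maxHeartbeats 400000

attribute [local instance 2000] Fermat.Agent.S34.EulerX0.algResFk

variable {q : ℕ} [hq : Fact q.Prime] [NeZero q] {M : ℕ} [NeZero M] (hqM : ¬ q ∣ M)
variable {A : ValuationSubring Kb} (hA : A.LiesOverPrime q)
variable [CharP (ResidueField ↥A) q] [PerfectField (ResidueField ↥A)]
variable [HasPrincipalDivisors (ResidueField ↥A) ↥(modularFunctionFieldFullC (ResidueField ↥A) M)]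
variable [IsAlgClosed (ResidueField ↥A)]
variable {G₁ G₂ : GaussDatum A (residue ↥A) ↥(modularFunctionFieldBar (M * q))
  ↥(modularFunctionFieldFullC (ResidueField ↥A) M)}

/-- `α` as a ring homomorphism -/
abbrev αR (M q : ℕ) [NeZero M] [NeZero q] :
    ↥(modularFunctionFieldBar M) →+* ↥(modularFunctionFieldBar (M * q)) :=
  (heckeAlphaBar Kb M q).toRingHom

/-- `β` as a ring homomorphism -/
abbrev βR (M q : ℕ) [NeZero M] [NeZero q] :
    ↥(modularFunctionFieldBar M) →+* ↥(modularFunctionFieldBar (M * q)) :=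
  (heckeBetaBar Kb M q).toRingHom

theorem αR_jgen : αR M q (jgen M) = jgen (M * q) := alpha_jgen

theorem βR_jgen : βR M q (jgen M) = jl M q := rfl

/-- the pole divisor of `α j · β j` -/
theorem isPoleDiv_mul : IsPoleDiv (αR M q (jgen M) * βR M q (jgen M)) (D hqM) := by
  rw [αR_jgen, βR_jgen]
  exact isPoleDiv_xE hqM

include hqM in
theorem ord_alpha_neg_iff (P : Place Kb ↥(modularFunctionFieldBar (M * q))) :
    P.ord (αR M q (jgen M)) < 0 ↔ P.ord (βR M q (jgen M)) < 0 := by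
  rw [αR_jgen, βR_jgen]
  exact (ord_jl_neg_iff hqM P).symm

variable (d : PairDict (gaussDatum M A hA hqM) G₁ G₂ (αR M q) (βR M q)
  (fun g => phi (ResidueField ↥A) M q g))

include d in
/-- the dictionary gives `PairRed` -/
theorem pairRed_of_dict : PairRed G₁ G₂ := by
  have hj : ((Fermat.Agent.S34.LevelMSurjX0.jO hA hqM : ↥(gaussDatum M A hA hqM).O) :
      ↥(modularFunctionFieldBar M)) = jgen M := rfl
  have ha1 := d.alpha_mem₁ (Fermat.Agent.S34.LevelMSurjX0.jO hA hqM)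
  have ha2 := d.alpha_mem₂ (Fermat.Agent.S34.LevelMSurjX0.jO hA hqM)
  have hb1 := d.beta_mem₁ (Fermat.Agent.S34.LevelMSurjX0.jO hA hqM)
  have hb2 := d.beta_mem₂ (Fermat.Agent.S34.LevelMSurjX0.jO hA hqM)
  have r1a := d.red₁_alpha (Fermat.Agent.S34.LevelMSurjX0.jO hA hqM)
  have r2a := d.red₂_alpha (Fermat.Agent.S34.LevelMSurjX0.jO hA hqM)
  have r1b := d.red₁_beta (Fermat.Agent.S34.LevelMSurjX0.jO hA hqM)
  have r2b := d.red₂_beta (Fermat.Agent.S34.LevelMSurjX0.jO hA hqM)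
  simp only [hj, Fermat.Agent.S34.LevelMSurjX0.red_jO, phi_jk] at ha1 ha2 hb1 hb2 r1a r2a r1b r2b
  have e : αR M q (jgen M) = jgen (M * q) := αR_jgen
  exact
    { j_mem₁ := e ▸ ha1
      jl_mem₁ := hb1
      j_mem₂ := e ▸ ha2
      jl_mem₂ := hb2
      red₁_j := by
        have : (⟨jgen (M * q), e ▸ ha1⟩ : ↥G₁.O) = ⟨αR M q (jgen M), ha1⟩ := Subtype.ext e.symm
        rw [this]; exact r1a
      red₁_jl := r1b
      red₂_j := by
        have : (⟨jgen (M * q), e ▸ ha2⟩ : ↥G₂.O) = ⟨αR M q (jgen M), ha2⟩ := Subtype.ext e.symm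
        rw [this]; exact r2a
      red₂_jl := r2b }

include d in
/-- **(LS0)** in the shape of `EulerChartsX0.exists_nodes_X0` -/
theorem ls0_of_dict {gL gk : ℕ} (H : Hyp (gaussDatum M A hA hqM) gL gk)
    (ra : Restr Kb (αR M q)) (rb : Restr Kb (βR M q))
    (h : ↥(modularFunctionFieldFullC (ResidueField ↥A) M))
    (hh : ∀ v : Place (ResidueField ↥A) ↥(modularFunctionFieldFullC (ResidueField ↥A) M),
      0 ≤ v.ord (jk (ResidueField ↥A) M) → h = 0 ∨ 0 ≤ v.ord h) :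
    ∃ r : ℕ, (h, phi (ResidueField ↥A) M q h) ∈ redSpace₂ G₁ G₂ (r • D hqM) ∧
      (phi (ResidueField ↥A) M q h, h) ∈ redSpace₂ G₁ G₂ (r • D hqM) := by
  haveI : HasPrincipalDivisors Kb ↥(modularFunctionFieldBar (M * q)) :=
    Fermat.Agent.S18.A.Instances.hasPrincipalDivisors_bar (M * q)
  obtain ⟨r₀, hr₀⟩ := Fermat.Agent.S34.Euler.ChartLiftX0.ls0_X0_mul hA hqM H d ra rb
    (isPoleDiv_mul hqM) (ord_alpha_neg_iff hqM) h (fun Q hQ => by
      rcases hh Q hQ with h0 | h0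
      · rw [h0, Place.ord_zero]
      · exact h0)
  exact ⟨r₀, hr₀ r₀ le_rfl⟩

include d in
/-- **(LS1)** in the shape of `EulerChartsX0.exists_nodes_X0` -/
theorem ls1_of_dict {gL gk : ℕ} (H : Hyp (gaussDatum M A hA hqM) gL gk)
    (ra : Restr Kb (αR M q)) (rb : Restr Kb (βR M q))
    (h : ↥(modularFunctionFieldFullC (ResidueField ↥A) M))
    (hh : ∀ v : Place (ResidueField ↥A) ↥(modularFunctionFieldFullC (ResidueField ↥A) M),
      v.ord (jk (ResidueField ↥A) M) ≤ 0 → h = 0 ∨ 0 ≤ v.ord h) :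
    ∃ r : ℕ, ((jk (ResidueField ↥A) M ^ (q + 1)) ^ r * h,
          (jk (ResidueField ↥A) M ^ (q + 1)) ^ r * phi (ResidueField ↥A) M q h)
          ∈ redSpace₂ G₁ G₂ (r • D hqM) ∧
        ((jk (ResidueField ↥A) M ^ (q + 1)) ^ r * phi (ResidueField ↥A) M q h,
          (jk (ResidueField ↥A) M ^ (q + 1)) ^ r * h) ∈ redSpace₂ G₁ G₂ (r • D hqM) := by
  haveI : HasPrincipalDivisors Kb ↥(modularFunctionFieldBar (M * q)) :=
    Fermat.Agent.S18.A.Instances.hasPrincipalDivisors_bar (M * q)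
  obtain ⟨r₀, hr₀⟩ := Fermat.Agent.S34.Euler.ChartLiftX0.ls1_X0_mul hA hqM H d ra rb
    (isPoleDiv_mul hqM) (ord_alpha_neg_iff hqM) h (fun Q hQ => by
      rcases hh Q hQ with h0 | h0
      · rw [h0, Place.ord_zero]
      · exact h0)
  have h1 := hr₀ r₀ le_rfl
  rw [Fermat.Agent.S34.Euler.ChartLiftX0.red₁_x hA hqM d,
    Fermat.Agent.S34.Euler.ChartLiftX0.red₂_x hA hqM d] at h1
  rw [phi_jk, ← pow_succ', ← pow_succ] at h1
  exact ⟨r₀, h1⟩

/-- **(CUSP)** in the shape of `EulerChartsX0.exists_nodes_X0` -/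
theorem cusp_of_pairRed (hP : PairRed G₁ G₂) :
    ∃ (r m : ℕ) (p : ↥(modularFunctionFieldFullC (ResidueField ↥A) M) ×
        ↥(modularFunctionFieldFullC (ResidueField ↥A) M)),
      p ∈ redSpace₂ G₁ G₂ (r • D hqM) ∧ p.1 = (jk (ResidueField ↥A) M ^ (q + 1)) ^ r ∧
        p.2 * jk (ResidueField ↥A) M ^ (m + 1) = (jk (ResidueField ↥A) M ^ (q + 1)) ^ r := by
  have hjE : Fermat.Agent.S34.CuspRegular.jE M q = jgen (M * q) := alpha_jgen
  have hxE : Fermat.Agent.S34.CuspRegular.xE M q = xE M q := by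
    show Fermat.Agent.S34.CuspRegular.jE M q * jl M q = jgen (M * q) * jl M q
    rw [hjE]
  have hj₁ : Fermat.Agent.S34.CuspRegular.jE M q ∈ G₁.O := by rw [hjE]; exact hP.j_mem₁
  have hj₂ : Fermat.Agent.S34.CuspRegular.jE M q ∈ G₂.O := by rw [hjE]; exact hP.j_mem₂
  have hx₁ : Fermat.Agent.S34.CuspRegular.xE M q ∈ G₁.O := by rw [hxE]; exact hP.xE_mem₁
  have hx₂ : Fermat.Agent.S34.CuspRegular.xE M q ∈ G₂.O := by rw [hxE]; exact hP.xE_mem₂
  have e1 : (⟨Fermat.Agent.S34.CuspRegular.jE M q, hj₁⟩ : ↥G₁.O) = ⟨jgen (M * q), hP.j_mem₁⟩ :=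
    Subtype.ext hjE
  have e2 : (⟨Fermat.Agent.S34.CuspRegular.jE M q, hj₂⟩ : ↥G₂.O) = ⟨jgen (M * q), hP.j_mem₂⟩ :=
    Subtype.ext hjE
  have ex1 : (⟨Fermat.Agent.S34.CuspRegular.xE M q, hx₁⟩ : ↥G₁.O) = ⟨xE M q, hP.xE_mem₁⟩ :=
    Subtype.ext hxE
  have ex2 : (⟨Fermat.Agent.S34.CuspRegular.xE M q, hx₂⟩ : ↥G₂.O) = ⟨xE M q, hP.xE_mem₂⟩ :=
    Subtype.ext hxE
  obtain ⟨p, hp, hp1, hp2⟩ := Fermat.Agent.S34.CuspRegular.exists_cusp_witness G₁ G₂
    (jb := jk (ResidueField ↥A) M) hj₁ hj₂ hP.jl_mem₁ hP.jl_mem₂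
    (by rw [e1]; exact hP.red₁_j) hP.red₁_jl (by rw [e2]; exact hP.red₂_j) hP.red₂_jl
    (D := D hqM) (by rw [hxE]; exact isPoleDiv_xE hqM) hx₁ hx₂
  have hq2 : 2 ≤ q := hq.out.two_le
  obtain ⟨m, hm⟩ : ∃ m : ℕ, q ^ 2 - 1 = m + 1 := by
    refine ⟨q ^ 2 - 2, ?_⟩
    have : 4 ≤ q ^ 2 := by nlinarith
    omega
  have r1 : G₁.red ⟨Fermat.Agent.S34.CuspRegular.xE M q, hx₁⟩ =
      jk (ResidueField ↥A) M ^ (q + 1) := by rw [ex1]; exact hP.red₁_xE
  have r2 : G₂.red ⟨Fermat.Agent.S34.CuspRegular.xE M q, hx₂⟩ =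
      jk (ResidueField ↥A) M ^ (q + 1) := by rw [ex2]; exact hP.red₂_xE
  have hp2' : p.2 * jk (ResidueField ↥A) M ^ (m + 1) =
      G₂.red ⟨Fermat.Agent.S34.CuspRegular.xE M q, hx₂⟩ ^ q := hm ▸ hp2
  rw [r2] at hp2'
  rw [r1] at hp1
  exact ⟨q, m, p, hp, hp1, hp2'⟩

include d in
/-- **The nodes of `X₀(M q)` mod `q`, the genus inequality and the chart-0 gluing, from the
reduction dictionary.** -/
theorem exists_nodes_of_dict {gL gk : ℕ} (H : Hyp (gaussDatum M A hA hqM) gL gk)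
    (ra : Restr Kb (αR M q)) (rb : Restr Kb (βR M q)) {g : ℕ}
    (HL : RiemannHyp Kb ↥(modularFunctionFieldBar (M * q)) g)
    (hJ₀ : HJ (ResidueField ↥A) M q (P0 (ResidueField ↥A) M) (Fr_mem_P0_iff (ResidueField ↥A) M q))
    (hJ₁ : HJ (ResidueField ↥A) M q (P1 (ResidueField ↥A) M)
      (Fr_mem_P1_iff (ResidueField ↥A) M q)) :
    ∃ S : Finset (Place (ResidueField ↥A) ↥(modularFunctionFieldFullC (ResidueField ↥A) M)),
      (∀ b ∈ S, Fr (ResidueField ↥A) M q (Fr (ResidueField ↥A) M q b) = b ∧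
        b ∉ P0 (ResidueField ↥A) M) ∧
      (g : ℤ) + 1 ≤ gk + gk + S.card ∧
      ∀ h₁ h₂ : ↥(modularFunctionFieldFullC (ResidueField ↥A) M),
        h₁ ∈ regOff (P0 (ResidueField ↥A) M) → h₂ ∈ regOff (P0 (ResidueField ↥A) M) →
        ((h₁, h₂) ∈ Rbar0 G₁ G₂ (isPoleDiv_xE hqM).nonneg ↔
          ∀ b ∈ S, ∃ c : ResidueField ↥A,
            HasValue (Fr (ResidueField ↥A) M q b) h₁ c ∧ HasValue b h₂ c) :=
  Fermat.Agent.S34.EulerChartsX0.exists_nodes_X0 hqM hA (pairRed_of_dict hqM hA d) HL H.2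
    (ls0_of_dict hqM hA d H ra rb) hJ₀ (ls1_of_dict hqM hA d H ra rb) hJ₁
    (cusp_of_pairRed hqM (pairRed_of_dict hqM hA d))

end Fermat.Agent.S34.EulerNodesX0
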