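import Mathlib
import Fermat.Agent.S34.EulerNodesX0
import Fermat.Agent.S34.NodalCoreX0
import Fermat.Agent.S34.Generic.RestrAlong
import Fermat.Agent.S34.Generic.FibAlphaX0
import Fermat.Agent.S34.Generic.FibBetaX0

/-!
# PROJECT U (S34): the node set of `X₀(M q)` mod `q` from the reduction dictionary alone

`EulerNodesX0.exists_nodes_of_dict` with its remaining level-`M` and restriction hypotheses
discharged:

* `H : Hyp (gaussDatum M A hA hqM) gM gM` from Riemann's theorem `HM` on `κ_M` alone
  (`NodalCoreX0.riemannHyp_bar_of_riemannHyp_k` + `S37/ReductionInputsX0.hyp_X0`);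
* `ra`, `rb` := `Generic/RestrAlong.restrAlong` along `α`, `β` (`isIntegral_alpha`,
  `isIntegral_beta`).

So the Euler side of the final assembly needs exactly: the dictionary `d`, Riemann's theorem on
both fields and the two ideal statements `hJ₀`, `hJ₁`.
-/

set_option autoImplicit false
set_option linter.unusedSectionVars false
set_option linter.style.haveILetI false

noncomputable section

namespace Fermat.Agent.S34.EulerNodesFinalX0

open ModularCurve AlgebraicCurve IsLocalRing
open Fermat.Agent.S24.DegreeAlg (jgen)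
open Fermat.Agent.S18.B.FkBasics (jk)
open Fermat.Agent.S18.NonSpecial Fermat.Agent.S37.Deuring.Core
open Fermat.Agent.S37.Gauss.Datum
open Fermat.Agent.S34.PowerBasisX0 Fermat.Agent.S34.EulerX0
open Fermat.Agent.S34.FrobK Fermat.Agent.S34.Euler.Places Fermat.Agent.S34.Euler.Value
  Fermat.Agent.S34.Euler.RedPair Fermat.Agent.S34.Euler.Chart Fermat.Agent.S34.Euler.FrobSide
  Fermat.Agent.S34.Euler.ChartFullC Fermat.Agent.S34.Euler.ChartLift
  Fermat.Agent.S34.EulerNodesX0
open Fermat.Agent.S34.Generic.Compat Fermat.Agent.S34.Generic.RestrAlong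

local notation "Kb" => AlgebraicClosure ℚ

set_option synthInstance.maxHeartbeats 400000

attribute [local instance 2000] Fermat.Agent.S34.EulerX0.algResFk

variable {q : ℕ} [hq : Fact q.Prime] [NeZero q] {M : ℕ} [NeZero M] (hqM : ¬ q ∣ M)
variable {A : ValuationSubring Kb} (hA : A.LiesOverPrime q)
variable [CharP (ResidueField ↥A) q] [PerfectField (ResidueField ↥A)]
variable [HasPrincipalDivisors (ResidueField ↥A) ↥(modularFunctionFieldFullC (ResidueField ↥A) M)]
variable [IsAlgClosed (ResidueField ↥A)]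
variable {G₁ G₂ : GaussDatum A (residue ↥A) ↥(modularFunctionFieldBar (M * q))
  ↥(modularFunctionFieldFullC (ResidueField ↥A) M)}

include hA in
/-- Deuring's hypotheses at level `M`, from Riemann's theorem on `κ_M` alone -/
theorem hyp_of_riemannHyp {gM : ℕ}
    (HM : RiemannHyp (ResidueField ↥A) ↥(modularFunctionFieldFullC (ResidueField ↥A) M) gM) :
    Hyp (gaussDatum M A hA hqM) gM gM :=
  Fermat.Agent.S37.ReductionInputsX0.hyp_X0 M A hA hqM
    (Fermat.Agent.S34.NodalCoreX0.riemannHyp_bar_of_riemannHyp_k hA hqM HM) HM le_rfl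

include hqM in
/-- the restriction data along `α` -/
def raX0 : Restr Kb (αR M q) :=
  restrAlong (heckeAlphaBar Kb M q) (Fermat.Agent.S34.Generic.FibAlphaX0.isIntegral_alpha hqM)

/-- the restriction data along `β` -/
def rbX0 (M q : ℕ) [NeZero M] [NeZero q] : Restr Kb (βR M q) :=
  restrAlong (heckeBetaBar Kb M q) (Fermat.Agent.S34.Generic.FibBetaX0.isIntegral_beta M q)

include hA in
/-- **The nodes of `X₀(M q)` mod `q`, the genus inequality and the chart-0 gluing**, from the
reduction dictionary, Riemann's theorem on both fields and the two ideal statements. -/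
theorem exists_nodes_final
    (d : PairDict (gaussDatum M A hA hqM) G₁ G₂ (αR M q) (βR M q)
      (fun g => phi (ResidueField ↥A) M q g)) {g gM : ℕ}
    (HL : RiemannHyp Kb ↥(modularFunctionFieldBar (M * q)) g)
    (HM : RiemannHyp (ResidueField ↥A) ↥(modularFunctionFieldFullC (ResidueField ↥A) M) gM)
    (hJ₀ : HJ (ResidueField ↥A) M q (P0 (ResidueField ↥A) M) (Fr_mem_P0_iff (ResidueField ↥A) M q))
    (hJ₁ : HJ (ResidueField ↥A) M q (P1 (ResidueField ↥A) M)
      (Fr_mem_P1_iff (ResidueField ↥A) M q)) :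
    ∃ S : Finset (Place (ResidueField ↥A) ↥(modularFunctionFieldFullC (ResidueField ↥A) M)),
      (∀ b ∈ S, Fr (ResidueField ↥A) M q (Fr (ResidueField ↥A) M q b) = b ∧
        b ∉ P0 (ResidueField ↥A) M) ∧
      (g : ℤ) + 1 ≤ gM + gM + S.card ∧
      ∀ h₁ h₂ : ↥(modularFunctionFieldFullC (ResidueField ↥A) M),
        h₁ ∈ regOff (P0 (ResidueField ↥A) M) → h₂ ∈ regOff (P0 (ResidueField ↥A) M) →
        ((h₁, h₂) ∈ Rbar0 G₁ G₂ (isPoleDiv_xE hqM).nonneg ↔
          ∀ b ∈ S, ∃ c : ResidueField ↥A,
            HasValue (Fr (ResidueField ↥A) M q b) h₁ c ∧ HasValue b h₂ c) :=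
  exists_nodes_of_dict hqM hA d (hyp_of_riemannHyp hqM hA HM) (raX0 hqM) (rbX0 M q) HL hJ₀ hJ₁

end Fermat.Agent.S34.EulerNodesFinalX0
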