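/-
PROJECT U (S34), slice U-GaussPairX0: **the two Gauss data of `E = ℚ̄(X₀(M q))` over a prime
`q ∤ M`, realised by `t`-expansions, and the four reduction formulas.**

`A` a valuation subring of `ℚ̄` over `q`, `k` its residue field, `G` the Gauss datum of
`F = ℚ̄(X₀(M))` (`S37/Gauss/Datum`), `α = heckeAlphaBar`, `β = heckeBetaBar : F → E`
(`g ↦ g(t)`, `g ↦ g(t^q)`), `S = TwoGaussX0.setupX0` the Dedekind-Kummer setup of `S34/TwoExt`.
`TwoExt` gives the two extensions of `G.O` to `E` only abstractly; here they are made concrete: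

* `hasRepMul : S18.GaussFromH.HasRep A π (M q)` : every nonzero function of level `M q` is
  `c · a / b`, `a, b` `A`-integral `t`-expansions with nonzero reduction (so the whole
  `S18/GaussFromH` + `S37` machinery that is parametrised by `hrep` applies at level `M q`);
  `gaussDatum₁` the resulting Gauss datum with residue field `F_k(M q)`
  (`= F_k(M)`, `fullC_eq`);
* `V₁ = OwV A π (M q)`, `isExt_V₁ : S.IsExt S.G₁ V₁`, `red₁ : V₁ →+* F_k(M)` (coefficientwise
  reduction): `red₁_alpha : red₁ (α x) = G.red x`, `coe_red₁_beta : red₁ (β x) = (G.red x)(t^q)`,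
  `red₁_jl`, `alpha_mem_V₁_iff`, `beta_mem_V₁_iff`, `red₁_eq_zero_iff`, `red₁_surjective`;
* `wq` the Atkin-Lehner involution (`wq_alpha`, `wq_beta`, `wq_wq`), `V₂ = V₁.comap wq`,
  `isExt_V₂ : S.IsExt S.G₂ V₂`, `red₂ = red₁ ∘ wq : V₂ →+* F_k(M)`:
  `red₂_beta : red₂ (β x) = G.red x`, `coe_red₂_alpha : red₂ (α x) = (G.red x)(t^q)`, `red₂_jl`,
  `alpha_mem_V₂_iff`, `beta_mem_V₂_iff`, `red₂_eq_zero_iff`, `red₂_surjective`, `V₁_ne_V₂`;
* `gaussDatumV₁`, `gaussDatumV₂ : S37.Deuring.Core.GaussDatum A π E F_k(M)`;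
* inertia: `smul_mem_V₁_iff`, `smul_mem_V₂_iff`, `red₁_smul`, `red₂_smul`.

Proof of the key point (`exists_V1`): `R = Ow A π (M q)` is a local subring of `E` with
`ρ : R → F_k(M)`; a valuation subring dominating `R` lies over `G.O` and has `G₁(j_q)` in its
maximal ideal, hence is the type-1 extension; conversely the type-1 extension is
`{ b(j_q)/s(j_q) : g₁ ∤ s̄ }` (`TwoExt.mem_iff₁`) and `ρ(s(j_q)) = s̄(J^q) ≠ 0` is a unit of `R`.
-/
import Mathlib
import Fermat.Agent.S34.TwoGaussX0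
import Fermat.Agent.S34.AtkinLehner
import Fermat.Agent.S18.GaussFromH

set_option autoImplicit false
set_option linter.unusedSectionVars false
set_option linter.style.haveILetI false

noncomputable section

namespace Fermat.Agent.S34.GaussPairX0

open Polynomial ModularCurve AlgebraicCurve IsLocalRing HahnSeries
open Fermat.Agent.S24.DegreeAlg (jgen)
open Fermat.Agent.S18.B.FkBasics (jk)
open Fermat.Agent.S18.GaussFromH
open Fermat.Agent.S37.Gauss.Datum
open Fermat.Agent.S34.PowerBasisX0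
open Fermat.Agent.S34.TwoGaussX0

local notation "Kb" => AlgebraicClosure ℚ

/-! ### Integral elements: from level `M` to level `M q` along `α` and `β` -/

section IntRing

variable {L : Type*} [Field L] [Algebra ℚ L] (A : ValuationSubring L)
variable {k : Type*} [Field k] (π : ↥A →+* k) (M q : ℕ) [NeZero M] [NeZero q]

theorem alpha_mem_intRing {y : LaurentSeries ↥A} (hy : y ∈ intRing A π M) :
    y ∈ intRing A π (M * q) := by
  rw [mem_intRing] at hy ⊢
  refine ⟨?_, full_degeneracyC_le k (dvd_mul_right M q) hy.2⟩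
  have h := (heckeAlphaBar L M q ⟨_, hy.1⟩).2
  rwa [coe_heckeAlphaBar] at h

theorem beta_mem_intRing {y : LaurentSeries ↥A} (hy : y ∈ intRing A π M) :
    qExpand ↥A q y ∈ intRing A π (M * q) := by
  rw [mem_intRing] at hy ⊢
  rw [Fermat.Agent.S28.PrimeCaseForm.coeffMap_qExpand,
    Fermat.Agent.S28.PrimeCaseForm.coeffMap_qExpand]
  refine ⟨?_, full_degeneracyC_map_le k M q ⟨_, hy.2, rfl⟩⟩
  have h := (heckeBetaBar L M q ⟨_, hy.1⟩).2
  rwa [coe_heckeBetaBar] at h

/-- `α` on integral elements: the same series, seen at level `M q`. -/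
def alphaI : ↥(intRing A π M) →+* ↥(intRing A π (M * q)) where
  toFun y := ⟨y.1, alpha_mem_intRing A π M q y.2⟩
  map_one' := Subtype.ext rfl
  map_mul' _ _ := Subtype.ext rfl
  map_zero' := Subtype.ext rfl
  map_add' _ _ := Subtype.ext rfl

/-- `β` on integral elements: `y(t) ↦ y(t^q)`. -/
def betaI : ↥(intRing A π M) →+* ↥(intRing A π (M * q)) where
  toFun y := ⟨qExpand ↥A q y.1, beta_mem_intRing A π M q y.2⟩
  map_one' := Subtype.ext (map_one _)
  map_mul' _ _ := Subtype.ext (map_mul _ _ _)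
  map_zero' := Subtype.ext (map_zero _)
  map_add' _ _ := Subtype.ext (map_add _ _ _)

@[simp] theorem coe_alphaI (y : ↥(intRing A π M)) :
    ((alphaI A π M q y : ↥(intRing A π (M * q))) : LaurentSeries ↥A) = y.1 := by
  obtain ⟨v, hv⟩ := y
  rfl

@[simp] theorem coe_betaI (y : ↥(intRing A π M)) :
    ((betaI A π M q y : ↥(intRing A π (M * q))) : LaurentSeries ↥A) = qExpand ↥A q y.1 := by
  obtain ⟨v, hv⟩ := y
  rfl

theorem toFL_alphaI (y : ↥(intRing A π M)) :
    toFL A π (M * q) (alphaI A π M q y) = heckeAlphaBar L M q (toFL A π M y) := by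
  apply Subtype.ext
  rw [coe_heckeAlphaBar, coe_toFL, coe_toFL, coe_alphaI]

theorem toFL_betaI (y : ↥(intRing A π M)) :
    toFL A π (M * q) (betaI A π M q y) = heckeBetaBar L M q (toFL A π M y) := by
  apply Subtype.ext
  rw [coe_heckeBetaBar, coe_toFL, coe_toFL, coe_betaI,
    Fermat.Agent.S28.PrimeCaseForm.coeffMap_qExpand]

theorem coe_red_alphaI (y : ↥(intRing A π M)) :
    ((red A π (M * q) (alphaI A π M q y) : ↥(modularFunctionFieldFullC k (M * q))) :
      LaurentSeries k) = ((red A π M y : ↥(modularFunctionFieldFullC k M)) : LaurentSeries k) := by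
  rw [coe_red, coe_red, coe_alphaI]

theorem coe_red_betaI (y : ↥(intRing A π M)) :
    ((red A π (M * q) (betaI A π M q y) : ↥(modularFunctionFieldFullC k (M * q))) :
      LaurentSeries k) =
      qExpand k q ((red A π M y : ↥(modularFunctionFieldFullC k M)) : LaurentSeries k) := by
  have h1 : ((red A π (M * q) (betaI A π M q y) : ↥(modularFunctionFieldFullC k (M * q))) :
      LaurentSeries k) = coeffMap π (qExpand ↥A q y.1) := by
    rw [coe_red, coe_betaI]
  have h2 : ((red A π M y : ↥(modularFunctionFieldFullC k M)) : LaurentSeries k) =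
      coeffMap π y.1 := coe_red y
  rw [h1, h2]
  exact Fermat.Agent.S28.PrimeCaseForm.coeffMap_qExpand _ _ _

theorem red_alphaI_ne_zero {y : ↥(intRing A π M)} (h : red A π M y ≠ 0) :
    red A π (M * q) (alphaI A π M q y) ≠ 0 := by
  intro h0
  apply h
  rw [← ZeroMemClass.coe_eq_zero, ← coe_red_alphaI A π M q y, h0, ZeroMemClass.coe_zero]

theorem red_betaI_ne_zero {y : ↥(intRing A π M)} (h : red A π M y ≠ 0) :
    red A π (M * q) (betaI A π M q y) ≠ 0 := by
  intro h0
  apply h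
  have h1 := coe_red_betaI A π M q y
  rw [h0, ZeroMemClass.coe_zero] at h1
  rw [← ZeroMemClass.coe_eq_zero]
  apply qExpand_injective (R := k) q
  rw [← h1, map_zero]

end IntRing

/-! ### The ring `R = Ow A π (M q)` and its reduction to `F_k(M)` -/

section Ring

variable {q : ℕ} [hq : Fact q.Prime] {M : ℕ} [NeZero M] {A : ValuationSubring Kb}
variable (hA : A.LiesOverPrime q) (hqM : ¬ q ∣ M) [NeZero q]

attribute [local instance] algFE

set_option synthInstance.maxHeartbeats 400000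

/-- the residue characteristic -/
theorem charP_res (hA : A.LiesOverPrime q) : CharP (ResidueField ↥A) q :=
  Fermat.Agent.S18.ResidueBasics.charP_residueField A hA

/-- `F_k(M q) = F_k(M)` for the residue field `k` of `A`. -/
theorem fullC_eq (hA : A.LiesOverPrime q) :
    modularFunctionFieldFullC (ResidueField ↥A) (M * q) =
      modularFunctionFieldFullC (ResidueField ↥A) M :=
  haveI := charP_res hA
  Fermat.Agent.S34.AtkinLehner.fullC_mul_char (ResidueField ↥A) M q

/-- the identification `F_k(M q) → F_k(M)` -/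
def castK (hA : A.LiesOverPrime q) : ↥(modularFunctionFieldFullC (ResidueField ↥A) (M * q)) →+*
    ↥(modularFunctionFieldFullC (ResidueField ↥A) M) :=
  (IntermediateField.inclusion (le_of_eq (fullC_eq hA))).toRingHom

@[simp] theorem coe_castK (x : ↥(modularFunctionFieldFullC (ResidueField ↥A) (M * q))) :
    ((castK hA x : ↥(modularFunctionFieldFullC (ResidueField ↥A) M)) :
      LaurentSeries (ResidueField ↥A)) = x.1 := by
  obtain ⟨v, hv⟩ := x
  rfl

theorem castK_injective (hA : A.LiesOverPrime q) : Function.Injective (castK (M := M) hA) := by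
  intro x y h
  apply Subtype.ext
  rw [← coe_castK hA x, ← coe_castK hA y, h]

theorem castK_surjective (hA : A.LiesOverPrime q) :
    Function.Surjective (castK (M := M) hA) := by
  intro y
  refine ⟨⟨y.1, ?_⟩, ?_⟩
  · rw [fullC_eq hA]
    exact y.2
  · apply Subtype.ext
    rw [coe_castK]

/-- **the reduction** `ρ : R → F_k(M)`, `R = Ow A π (M q)` -/
def rho (hA : A.LiesOverPrime q) : ↥(Ow A (residue ↥A) (M * q)) →+* ↥(modularFunctionFieldFullC (ResidueField ↥A) M) :=
  (castK hA).comp (redw A (residue ↥A) (M * q))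

theorem rho_eq_zero_iff (x : ↥(Ow A (residue ↥A) (M * q))) :
    rho hA x = 0 ↔ redw A (residue ↥A) (M * q) x = 0 := by
  rw [rho, RingHom.comp_apply, map_eq_zero_iff _ (castK_injective hA)]

theorem coe_rho (x : ↥(Ow A (residue ↥A) (M * q))) :
    ((rho hA x : ↥(modularFunctionFieldFullC (ResidueField ↥A) M)) :
      LaurentSeries (ResidueField ↥A)) = (redw A (residue ↥A) (M * q) x).1 := by
  rw [rho, RingHom.comp_apply, coe_castK]

/-- `α(O) ⊆ R` -/
theorem alpha_mem_Ow {x : ↥(modularFunctionFieldBar M)} (hx : x ∈ (gaussDatum M A hA hqM).O) :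
    heckeAlphaBar Kb M q x ∈ Ow A (residue ↥A) (M * q) := by
  obtain ⟨a, b, hb, hab⟩ := (mem_O_iff hA hqM).mp hx
  refine ⟨alphaI A _ M q a, alphaI A _ M q b, red_alphaI_ne_zero A _ M q hb, ?_⟩
  rw [toFL_alphaI, toFL_alphaI, ← map_mul, hab]

/-- `β(O) ⊆ R` -/
theorem beta_mem_Ow {x : ↥(modularFunctionFieldBar M)} (hx : x ∈ (gaussDatum M A hA hqM).O) :
    heckeBetaBar Kb M q x ∈ Ow A (residue ↥A) (M * q) := by
  obtain ⟨a, b, hb, hab⟩ := (mem_O_iff hA hqM).mp hx
  refine ⟨betaI A _ M q a, betaI A _ M q b, red_betaI_ne_zero A _ M q hb, ?_⟩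
  rw [toFL_betaI, toFL_betaI, ← map_mul, hab]

/-- **`ρ(α x) = red x`** -/
theorem rho_alpha (x : ↥(gaussDatum M A hA hqM).O) :
    rho hA ⟨heckeAlphaBar Kb M q x, alpha_mem_Ow hA hqM x.2⟩ = (gaussDatum M A hA hqM).red x := by
  obtain ⟨a, b, hb, hab⟩ := (mem_O_iff hA hqM).mp x.2
  apply Subtype.ext
  rw [coe_rho, red_eq hA hqM x hb hab,
    redw_eq (A := A) (π := residue ↥A) (N := M * q) ⟨heckeAlphaBar Kb M q x, alpha_mem_Ow hA hqM x.2⟩
      (a := alphaI A _ M q a) (b := alphaI A _ M q b) (red_alphaI_ne_zero A _ M q hb)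
      (by rw [toFL_alphaI, toFL_alphaI, ← map_mul, hab])]
  rw [IntermediateField.coe_div, IntermediateField.coe_div, coe_red_alphaI, coe_red_alphaI]

/-- **`ρ(β x) = (red x)(t^q)`** -/
theorem coe_rho_beta (x : ↥(gaussDatum M A hA hqM).O) :
    ((rho hA ⟨heckeBetaBar Kb M q x, beta_mem_Ow hA hqM x.2⟩ :
      ↥(modularFunctionFieldFullC (ResidueField ↥A) M)) : LaurentSeries (ResidueField ↥A)) =
      qExpand (ResidueField ↥A) q (((gaussDatum M A hA hqM).red x :
        ↥(modularFunctionFieldFullC (ResidueField ↥A) M)) : LaurentSeries (ResidueField ↥A)) := by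
  obtain ⟨a, b, hb, hab⟩ := (mem_O_iff hA hqM).mp x.2
  rw [coe_rho, red_eq hA hqM x hb hab,
    redw_eq (A := A) (π := residue ↥A) (N := M * q) ⟨heckeBetaBar Kb M q x, beta_mem_Ow hA hqM x.2⟩
      (a := betaI A _ M q a) (b := betaI A _ M q b) (red_betaI_ne_zero A _ M q hb)
      (by rw [toFL_betaI, toFL_betaI, ← map_mul, hab])]
  rw [IntermediateField.coe_div, IntermediateField.coe_div, coe_red_betaI, coe_red_betaI, map_div₀]

include hA hqM in
/-- `j_q = j(t^q) ∈ R` -/
theorem jl_mem_Ow : jl M q ∈ Ow A (residue ↥A) (M * q) :=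
  beta_mem_Ow hA hqM (jgen_mem_O hA hqM)

include hqM in
/-- `ρ(j_q) = J^q` -/
theorem rho_jl : rho hA ⟨jl M q, jl_mem_Ow hA hqM⟩ = jk (ResidueField ↥A) M ^ q := by
  haveI := charP_res hA
  apply Subtype.ext
  have h := coe_rho_beta hA hqM ⟨jgen M, jgen_mem_O hA hqM⟩
  rw [red_jgen hA hqM] at h
  rw [SubmonoidClass.coe_pow, Fermat.Agent.S18.B.FkBasics.coe_jk,
    ← Fermat.Agent.S34.Kronecker.qExpand_jqModC_char q (ResidueField ↥A)]
  rw [Fermat.Agent.S18.B.FkBasics.coe_jk] at h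
  exact h

/-- `α : O → R` -/
def alphaR : ↥(gaussDatum M A hA hqM).O →+* ↥(Ow A (residue ↥A) (M * q)) where
  toFun x := ⟨heckeAlphaBar Kb M q x, alpha_mem_Ow hA hqM x.2⟩
  map_one' := Subtype.ext (show heckeAlphaBar Kb M q ((1 : ↥(gaussDatum M A hA hqM).O) :
      ↥(modularFunctionFieldBar M)) = ((1 : ↥(Ow A (residue ↥A) (M * q))) :
        ↥(modularFunctionFieldBar (M * q))) by
    rw [OneMemClass.coe_one, map_one, OneMemClass.coe_one])
  map_mul' x y := Subtype.ext (show heckeAlphaBar Kb M q ((x * y : ↥(gaussDatum M A hA hqM).O) :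
      ↥(modularFunctionFieldBar M)) = heckeAlphaBar Kb M q x * heckeAlphaBar Kb M q y by
    rw [MulMemClass.coe_mul, map_mul])
  map_zero' := Subtype.ext (show heckeAlphaBar Kb M q ((0 : ↥(gaussDatum M A hA hqM).O) :
      ↥(modularFunctionFieldBar M)) = ((0 : ↥(Ow A (residue ↥A) (M * q))) :
        ↥(modularFunctionFieldBar (M * q))) by
    rw [ZeroMemClass.coe_zero, map_zero, ZeroMemClass.coe_zero])
  map_add' x y := Subtype.ext (show heckeAlphaBar Kb M q ((x + y : ↥(gaussDatum M A hA hqM).O) :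
      ↥(modularFunctionFieldBar M)) = heckeAlphaBar Kb M q x + heckeAlphaBar Kb M q y by
    rw [AddMemClass.coe_add, map_add])

@[simp] theorem coe_alphaR (x : ↥(gaussDatum M A hA hqM).O) :
    ((alphaR hA hqM x : ↥(Ow A (residue ↥A) (M * q))) : ↥(modularFunctionFieldBar (M * q))) =
      heckeAlphaBar Kb M q x := rfl

theorem rho_alphaR (x : ↥(gaussDatum M A hA hqM).O) :
    rho hA (alphaR hA hqM x) = (gaussDatum M A hA hqM).red x :=
  rho_alpha hA hqM x

/-- evaluation at `j_q`, with values in `R` -/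
def evR : Polynomial ↥(gaussDatum M A hA hqM).O →+* ↥(Ow A (residue ↥A) (M * q)) :=
  eval₂RingHom (alphaR hA hqM) ⟨jl M q, jl_mem_Ow hA hqM⟩

theorem coe_evR (p : Polynomial ↥(gaussDatum M A hA hqM).O) :
    ((evR hA hqM p : ↥(Ow A (residue ↥A) (M * q))) : ↥(modularFunctionFieldBar (M * q))) =
      (setupX0 hA hqM).ev p := by
  have h : (Ow A (residue ↥A) (M * q)).subtype.comp (evR hA hqM) = (setupX0 hA hqM).ev := by
    refine Polynomial.ringHom_ext (fun c => ?_) ?_
    · rw [RingHom.comp_apply, evR, coe_eval₂RingHom, eval₂_C, TwoExt.Setup.ev_C]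
      rfl
    · rw [RingHom.comp_apply, evR, coe_eval₂RingHom, eval₂_X, TwoExt.Setup.ev_X, setupX0_t]
      rfl
  exact congrArg (fun f => f p) h

theorem rho_evR (p : Polynomial ↥(gaussDatum M A hA hqM).O) :
    rho hA (evR hA hqM p) =
      p.eval₂ (gaussDatum M A hA hqM).red (jk (ResidueField ↥A) M ^ q) := by
  have h1 : (rho hA).comp (alphaR hA hqM) = (gaussDatum M A hA hqM).red :=
    RingHom.ext fun c => rho_alphaR hA hqM c
  have h2 : evR hA hqM p = p.eval₂ (alphaR hA hqM) ⟨jl M q, jl_mem_Ow hA hqM⟩ := rfl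
  rw [h2, Polynomial.hom_eval₂, h1, rho_jl hA hqM]

theorem ev_mem_Ow (p : Polynomial ↥(gaussDatum M A hA hqM).O) :
    (setupX0 hA hqM).ev p ∈ Ow A (residue ↥A) (M * q) := by
  rw [← coe_evR]
  exact (evR hA hqM p).2

theorem rho_evR_G1O : rho hA (evR hA hqM (G1O hA hqM)) = 0 := by
  rw [rho_evR, G1O, eval₂_sub, eval₂_X, eval₂_C, map_pow, red_jO, sub_self]

/-- divisibility transported from `G.red` to `TwoExt.red` -/
theorem red_dvd_of_map {p r : Polynomial ↥(gaussDatum M A hA hqM).O}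
    (h : p.map (gaussDatum M A hA hqM).red ∣ r.map (gaussDatum M A hA hqM).red) :
    TwoExt.red (gaussDatum M A hA hqM).O p ∣ TwoExt.red (gaussDatum M A hA hqM).O r := by
  rw [← mapEquiv_resEquiv_red, ← mapEquiv_resEquiv_red] at h
  exact (map_dvd_iff (Polynomial.mapEquiv (resEquiv hA hqM))).mp h

/-- the unit criterion: `g₁ ∤ s̄` implies `ρ(s(j_q)) ≠ 0` -/
theorem rho_evR_ne_zero {s : Polynomial ↥(gaussDatum M A hA hqM).O}
    (hs : ¬ TwoExt.red (gaussDatum M A hA hqM).O (G1O hA hqM) ∣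
      TwoExt.red (gaussDatum M A hA hqM).O s) :
    rho hA (evR hA hqM s) ≠ 0 := by
  intro h0
  apply hs
  apply red_dvd_of_map
  rw [map_red_G1O, dvd_iff_isRoot, IsRoot.def, eval_map, ← rho_evR, h0]

/-! ### `R` is the type-1 valuation subring -/

include hqM in
/-- A valuation subring dominating `R` is of type 1 over the Gauss ring `O`. -/
theorem isExt_of_dominating {B : ValuationSubring ↥(modularFunctionFieldBar (M * q))}
    (hRB : Ow A (residue ↥A) (M * q) ≤ B.toSubring)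
    (hker : ∀ x : ↥(Ow A (residue ↥A) (M * q)), rho hA x = 0 →
      (x : ↥(modularFunctionFieldBar (M * q))) ∈ B.nonunits) :
    (setupX0 hA hqM).IsExt (setupX0 hA hqM).G₁ B := by
  refine ⟨?_, ?_⟩
  · refine ValuationSubring.ext _ _ fun x => ?_
    rw [ValuationSubring.mem_comap]
    constructor
    · intro hx
      by_contra hxO
      have hx0 : x ≠ 0 := fun h => hxO (h ▸ (gaussDatum M A hA hqM).O.zero_mem)
      have hinv : x⁻¹ ∈ (gaussDatum M A hA hqM).O :=
        ((gaussDatum M A hA hqM).O.mem_or_inv_mem x).resolve_left hxO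
      have hnu : ¬ IsUnit (⟨x⁻¹, hinv⟩ : ↥(gaussDatum M A hA hqM).O) := by
        intro hu
        obtain ⟨v, hv⟩ := hu.exists_right_inv
        have hv' : x⁻¹ * (v : ↥(modularFunctionFieldBar M)) = 1 := congrArg Subtype.val hv
        apply hxO
        have : (v : ↥(modularFunctionFieldBar M)) = x := by
          field_simp at hv'
          exact hv'
        rw [← this]
        exact v.2
      have hred : (gaussDatum M A hA hqM).red ⟨x⁻¹, hinv⟩ = 0 :=
        ((gaussDatum M A hA hqM).red_eq_zero_iff _).mpr hnu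
      have h1 := hker (alphaR hA hqM ⟨x⁻¹, hinv⟩) (by rw [rho_alphaR, hred])
      rw [coe_alphaR, ValuationSubring.mem_nonunits_iff] at h1
      have h2 : B.valuation (algebraMap ↥(modularFunctionFieldBar M)
          ↥(modularFunctionFieldBar (M * q)) x) ≤ 1 := (B.valuation_le_one_iff _).mpr hx
      have h3 : B.valuation (heckeAlphaBar Kb M q x⁻¹) *
          B.valuation (algebraMap ↥(modularFunctionFieldBar M)
            ↥(modularFunctionFieldBar (M * q)) x) = 1 := by
        rw [algebraMap_FE, ← map_mul, ← map_mul, inv_mul_cancel₀ hx0, map_one, map_one]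
      have h4 : B.valuation (heckeAlphaBar Kb M q x⁻¹) *
          B.valuation (algebraMap ↥(modularFunctionFieldBar M)
            ↥(modularFunctionFieldBar (M * q)) x) < 1 :=
        lt_of_le_of_lt (mul_le_of_le_one_right' h2) h1
      rw [h3] at h4
      exact lt_irrefl _ h4
    · intro hx
      exact hRB (alpha_mem_Ow hA hqM hx)
  · rw [← ValuationSubring.mem_nonunits_iff, setupX0_G₁, ← coe_evR]
    exact hker _ (rho_evR_G1O hA hqM)

include hqM in
/-- **`R` is a valuation subring of type 1**: there is a valuation subring of type 1 whose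
elements are exactly the elements of `R`, and whose non-units are the kernel of `ρ`. -/
theorem exists_V1 : ∃ B : ValuationSubring ↥(modularFunctionFieldBar (M * q)),
    (setupX0 hA hqM).IsExt (setupX0 hA hqM).G₁ B ∧
      (∀ x, x ∈ B ↔ x ∈ Ow A (residue ↥A) (M * q)) ∧
      ∀ x : ↥(Ow A (residue ↥A) (M * q)), rho hA x = 0 ↔
        (x : ↥(modularFunctionFieldBar (M * q))) ∈ B.nonunits := by
  obtain ⟨B, hRB, hker⟩ := Ideal.image_subset_nonunits_valuationSubring
    (RingHom.ker (rho (M := M) hA)) (RingHom.ker_ne_top _)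
  have hker' : ∀ x : ↥(Ow A (residue ↥A) (M * q)), rho hA x = 0 →
      (x : ↥(modularFunctionFieldBar (M * q))) ∈ B.nonunits := fun x hx =>
    hker ⟨x, (RingHom.mem_ker).mpr hx, rfl⟩
  have h₁ := isExt_of_dominating hA hqM hRB hker'
  obtain ⟨V₂, h₂⟩ := (setupX0 hA hqM).exists_isExt₂
  have hBR : ∀ x, x ∈ B → x ∈ Ow A (residue ↥A) (M * q) := by
    intro x hx
    obtain ⟨b, s, hs, hxs⟩ := ((setupX0 hA hqM).mem_iff₁ h₁ h₂ x).mp hx
    rw [setupX0_G₁] at hs
    have hs0 := rho_evR_ne_zero hA hqM hs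
    have hinv := inv_mem_Ow_of_redw_ne_zero (A := A) (π := residue ↥A) (N := M * q)
      (evR hA hqM s) (fun h => hs0 ((rho_eq_zero_iff hA _).mpr h))
    rw [coe_evR] at hinv
    have hs1 : (setupX0 hA hqM).ev s ≠ 0 := by
      intro h0
      apply hs0
      have : evR hA hqM s = 0 := Subtype.ext (by rw [coe_evR, h0]; rfl)
      rw [this, map_zero]
    have hx' : x = (setupX0 hA hqM).ev b * ((setupX0 hA hqM).ev s)⁻¹ := by
      rw [← hxs, mul_assoc, mul_inv_cancel₀ hs1, mul_one]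
    rw [hx']
    exact (Ow A (residue ↥A) (M * q)).mul_mem (ev_mem_Ow hA hqM b) hinv
  refine ⟨B, h₁, fun x => ⟨hBR x, fun hx => hRB hx⟩, fun x => ⟨hker' x, fun hx => ?_⟩⟩
  by_contra h0
  have hinv := inv_mem_Ow_of_redw_ne_zero (A := A) (π := residue ↥A) (N := M * q) x
    (fun h => h0 ((rho_eq_zero_iff hA _).mpr h))
  have h1 : (x : ↥(modularFunctionFieldBar (M * q)))⁻¹ ∈ B := hRB hinv
  have hx0 : (x : ↥(modularFunctionFieldBar (M * q))) ≠ 0 := by
    intro h
    apply h0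
    have : x = 0 := Subtype.ext h
    rw [this, map_zero]
  rw [ValuationSubring.mem_nonunits_iff] at hx
  have h2 : B.valuation (x : ↥(modularFunctionFieldBar (M * q)))⁻¹ ≤ 1 :=
    (B.valuation_le_one_iff _).mpr h1
  have h3 : B.valuation (x : ↥(modularFunctionFieldBar (M * q))) *
      B.valuation (x : ↥(modularFunctionFieldBar (M * q)))⁻¹ = 1 := by
    rw [← map_mul, mul_inv_cancel₀ hx0, map_one]
  have h4 : B.valuation (x : ↥(modularFunctionFieldBar (M * q))) *
      B.valuation (x : ↥(modularFunctionFieldBar (M * q)))⁻¹ < 1 :=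
    lt_of_le_of_lt (mul_le_of_le_one_right' h2) hx
  rw [h3] at h4
  exact lt_irrefl _ h4

/-! ### `HasRep` at level `M q` -/

include hA hqM in
/-- **`HasRep` at level `M q`, `q ∤ M`, for `A` over `q`**: every nonzero function of
`ℚ̄(X₀(M q))` is `c · a / b` with `c` a constant and `a, b` `A`-integral `t`-expansions of nonzero
reduction.  (The level `M` statement is `S37.Gauss.Datum.hasRep`; here the prime divides the
level.) -/
theorem hasRepMul : HasRep A (residue ↥A) (M * q) := by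
  intro f hf
  obtain ⟨B, h₁, hmem, hker⟩ := exists_V1 hA hqM
  have halg : IsAlgebraic ↥(modularFunctionFieldBar M) f := (isIntegral_FE hqM f).isAlgebraic
  obtain ⟨c, hc, u, hfu⟩ := TwoExt.exists_const_mul_unit_of_divisible h₁.comap
    (exists_pow_valuation_eq hA hqM) hf halg
  obtain ⟨c0, hc0, u', hcu'⟩ := (gaussDatum M A hA hqM).exists_const_mul_unit c hc
  -- the unit `v = α u' * u` of `B`
  set v : ↥(modularFunctionFieldBar (M * q)) :=
    heckeAlphaBar Kb M q ((u' : ↥(gaussDatum M A hA hqM).O) : ↥(modularFunctionFieldBar M)) *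
      ((u : ↥B) : ↥(modularFunctionFieldBar (M * q))) with hv
  have hfv : f = algebraMap Kb ↥(modularFunctionFieldBar (M * q)) c0 * v := by
    rw [hfu, hcu', algebraMap_FE, map_mul, AlgHom.commutes, hv, mul_assoc]
  have hu1 : B.valuation ((u : ↥B) : ↥(modularFunctionFieldBar (M * q))) = 1 :=
    ValuationSubring.valuation_unit B u
  have hu'1 : B.valuation (heckeAlphaBar Kb M q
      ((u' : ↥(gaussDatum M A hA hqM).O) : ↥(modularFunctionFieldBar M))) = 1 := by
    have h := (TwoExt.val_alg_eq_one_iff h₁.comap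
      ((u' : ↥(gaussDatum M A hA hqM).O) : ↥(modularFunctionFieldBar M))).mpr
      (ValuationSubring.valuation_unit _ u')
    rwa [algebraMap_FE] at h
  have hv1 : B.valuation v = 1 := by rw [hv, map_mul, hu'1, hu1, mul_one]
  have hvB : v ∈ B := (B.valuation_le_one_iff _).mp hv1.le
  have hvR : v ∈ Ow A (residue ↥A) (M * q) := (hmem v).mp hvB
  have hrho : rho hA ⟨v, hvR⟩ ≠ 0 := by
    intro h0
    have h1 := (hker ⟨v, hvR⟩).mp h0
    rw [ValuationSubring.mem_nonunits_iff] at h1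
    rw [hv1] at h1
    exact lt_irrefl _ h1
  obtain ⟨a, b, ha, hb, hab⟩ := exists_rep_of_redw_ne_zero (A := A) (π := residue ↥A)
    (N := M * q) ⟨v, hvR⟩ (fun h => hrho ((rho_eq_zero_iff hA _).mpr h))
  refine ⟨c0, a, b, hc0, ha, hb, ?_⟩
  rw [hfv, mul_assoc]
  congr 1

/-! ### The first Gauss datum `(V₁, red₁)` -/

/-- **The Gauss datum of `ℚ̄(X₀(M q))` for the `t`-expansion at `∞`** (`q ∤ M`, `A` over `q`):
`O = V₁`, the type-1 extension of the Gauss ring of level `M`. -/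
def gaussDatum₁ : Fermat.Agent.S37.Deuring.Core.GaussDatum A (residue ↥A)
    ↥(modularFunctionFieldBar (M * q))
      ↥(modularFunctionFieldFullC (ResidueField ↥A) (M * q)) where
  O := OwV A (residue ↥A) (M * q) (hasRepMul hA hqM)
  red := redV A (residue ↥A) (M * q) (hasRepMul hA hqM)
  pi_surjective := residue_surjective
  algebraMap_mem := algebraMap_mem_OwV (hasRepMul hA hqM)
  red_algebraMap := redV_algebraMap (hasRepMul hA hqM)
  red_eq_zero_iff := redV_eq_zero_iff (hasRepMul hA hqM)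
  exists_const_mul_unit := exists_const_mul_unit (hasRepMul hA hqM)
  mem_of_algebraMap_mem := fun c hc =>
    mem_of_algebraMap_mem_Ow (residue_eq_zero_of_not_isUnit A) c hc

/-- the first valuation subring: the Gauss ring of the `t`-expansion -/
abbrev V₁ : ValuationSubring ↥(modularFunctionFieldBar (M * q)) := (gaussDatum₁ hA hqM).O

theorem mem_V₁_iff {f : ↥(modularFunctionFieldBar (M * q))} :
    f ∈ V₁ hA hqM ↔ f ∈ Ow A (residue ↥A) (M * q) := Iff.rfl

theorem mem_V₁_iff_inOw {f : ↥(modularFunctionFieldBar (M * q))} :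
    f ∈ V₁ hA hqM ↔ InOw A (residue ↥A) (M * q) f := Iff.rfl

/-- **`V₁` is the type-1 extension of the Gauss ring of level `M`.** -/
theorem isExt_V₁ : (setupX0 hA hqM).IsExt (setupX0 hA hqM).G₁ (V₁ hA hqM) := by
  obtain ⟨B, h₁, hmem, -⟩ := exists_V1 hA hqM
  have hB : B = V₁ hA hqM := ValuationSubring.ext _ _ fun x => by rw [hmem, mem_V₁_iff]
  rw [← hB]
  exact h₁

/-- the reduction of `V₁`, with values in `F_k(M)` -/
def red₁ : ↥(V₁ hA hqM) →+* ↥(modularFunctionFieldFullC (ResidueField ↥A) M) :=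
  (castK hA).comp (gaussDatum₁ hA hqM).red

theorem red₁_eq_rho (x : ↥(V₁ hA hqM)) : red₁ hA hqM x = rho hA ⟨x.1, x.2⟩ := rfl

theorem red₁_eq_zero_iff (x : ↥(V₁ hA hqM)) : red₁ hA hqM x = 0 ↔ ¬ IsUnit x := by
  rw [red₁, RingHom.comp_apply, map_eq_zero_iff _ (castK_injective hA)]
  exact (gaussDatum₁ hA hqM).red_eq_zero_iff x

theorem red₁_eq_zero_iff_mem_nonunits (x : ↥(V₁ hA hqM)) :
    red₁ hA hqM x = 0 ↔ (x : ↥(modularFunctionFieldBar (M * q))) ∈ (V₁ hA hqM).nonunits := by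
  rw [red₁_eq_zero_iff, ValuationSubring.coe_mem_nonunits_iff, mem_maximalIdeal, mem_nonunits_iff]

theorem red₁_algebraMap (a : ↥A) :
    red₁ hA hqM ⟨algebraMap Kb ↥(modularFunctionFieldBar (M * q)) (a : Kb),
      (gaussDatum₁ hA hqM).algebraMap_mem a⟩ =
      algebraMap (ResidueField ↥A) ↥(modularFunctionFieldFullC (ResidueField ↥A) M)
        (residue ↥A a) := by
  rw [red₁, RingHom.comp_apply, (gaussDatum₁ hA hqM).red_algebraMap a]
  apply Subtype.ext
  rw [coe_castK]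
  rfl

theorem alpha_mem_V₁_iff (x : ↥(modularFunctionFieldBar M)) :
    heckeAlphaBar Kb M q x ∈ V₁ hA hqM ↔ x ∈ (gaussDatum M A hA hqM).O :=
  TwoExt.alg_mem_iff (isExt_V₁ hA hqM).comap x

/-- **`red₁ (α x) = red x`** -/
theorem red₁_alpha (x : ↥(gaussDatum M A hA hqM).O) :
    red₁ hA hqM ⟨heckeAlphaBar Kb M q x, (alpha_mem_V₁_iff hA hqM x).mpr x.2⟩ =
      (gaussDatum M A hA hqM).red x :=
  rho_alpha hA hqM x

theorem beta_mem_V₁ {x : ↥(modularFunctionFieldBar M)} (hx : x ∈ (gaussDatum M A hA hqM).O) :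
    heckeBetaBar Kb M q x ∈ V₁ hA hqM :=
  beta_mem_Ow hA hqM hx

/-- **`red₁ (β x) = (red x)(t^q)`**, the Frobenius pull-back of `red x` -/
theorem coe_red₁_beta (x : ↥(gaussDatum M A hA hqM).O) :
    ((red₁ hA hqM ⟨heckeBetaBar Kb M q x, beta_mem_V₁ hA hqM x.2⟩ :
      ↥(modularFunctionFieldFullC (ResidueField ↥A) M)) : LaurentSeries (ResidueField ↥A)) =
      qExpand (ResidueField ↥A) q (((gaussDatum M A hA hqM).red x :
        ↥(modularFunctionFieldFullC (ResidueField ↥A) M)) : LaurentSeries (ResidueField ↥A)) :=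
  coe_rho_beta hA hqM x

theorem beta_mem_V₁_iff (x : ↥(modularFunctionFieldBar M)) :
    heckeBetaBar Kb M q x ∈ V₁ hA hqM ↔ x ∈ (gaussDatum M A hA hqM).O := by
  refine ⟨fun hx => ?_, beta_mem_V₁ hA hqM⟩
  by_contra hxO
  have hx0 : x ≠ 0 := fun h => hxO (h ▸ (gaussDatum M A hA hqM).O.zero_mem)
  have hinv : x⁻¹ ∈ (gaussDatum M A hA hqM).O :=
    ((gaussDatum M A hA hqM).O.mem_or_inv_mem x).resolve_left hxO
  have hnu : ¬ IsUnit (⟨x⁻¹, hinv⟩ : ↥(gaussDatum M A hA hqM).O) := by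
    intro hu
    obtain ⟨v, hv⟩ := hu.exists_right_inv
    have hv' : x⁻¹ * (v : ↥(modularFunctionFieldBar M)) = 1 := congrArg Subtype.val hv
    apply hxO
    have : (v : ↥(modularFunctionFieldBar M)) = x := by
      field_simp at hv'
      exact hv'
    rw [← this]
    exact v.2
  have hred : (gaussDatum M A hA hqM).red ⟨x⁻¹, hinv⟩ = 0 :=
    ((gaussDatum M A hA hqM).red_eq_zero_iff _).mpr hnu
  have h0 : red₁ hA hqM ⟨heckeBetaBar Kb M q x⁻¹, beta_mem_V₁ hA hqM hinv⟩ = 0 := by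
    apply Subtype.ext
    rw [coe_red₁_beta hA hqM ⟨x⁻¹, hinv⟩, hred, ZeroMemClass.coe_zero, map_zero]
  have h1 := (red₁_eq_zero_iff_mem_nonunits hA hqM _).mp h0
  rw [ValuationSubring.mem_nonunits_iff] at h1
  have h2 : (V₁ hA hqM).valuation (heckeBetaBar Kb M q x) ≤ 1 :=
    ((V₁ hA hqM).valuation_le_one_iff _).mpr hx
  have h3 : (V₁ hA hqM).valuation (heckeBetaBar Kb M q x⁻¹) *
      (V₁ hA hqM).valuation (heckeBetaBar Kb M q x) = 1 := by
    rw [← map_mul, ← map_mul, inv_mul_cancel₀ hx0, map_one, map_one]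
  have h4 : (V₁ hA hqM).valuation (heckeBetaBar Kb M q x⁻¹) *
      (V₁ hA hqM).valuation (heckeBetaBar Kb M q x) < 1 :=
    lt_of_le_of_lt (mul_le_of_le_one_right' h2) h1
  rw [h3] at h4
  exact lt_irrefl _ h4

/-- `red₁ j_q = J^q` -/
theorem red₁_jl :
    red₁ hA hqM ⟨jl M q, beta_mem_V₁ hA hqM (jgen_mem_O hA hqM)⟩ = jk (ResidueField ↥A) M ^ q :=
  rho_jl hA hqM

theorem red₁_surjective : Function.Surjective (red₁ hA hqM) := by
  intro y
  obtain ⟨x, rfl⟩ := red_surjective hA hqM y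
  exact ⟨_, red₁_alpha hA hqM x⟩

/-! ### The Atkin-Lehner involution and the second Gauss datum `(V₂, red₂)` -/

include hqM in
theorem exists_wq' :
    ∃ w : ↥(modularFunctionFieldBar (M * q)) ≃ₐ[Kb] ↥(modularFunctionFieldBar (M * q)),
      (∀ g : ↥(modularFunctionFieldBar M),
        w (heckeAlphaBar Kb M q g) = heckeBetaBar Kb M q g) ∧
      (∀ g : ↥(modularFunctionFieldBar M),
        w (heckeBetaBar Kb M q g) = heckeAlphaBar Kb M q g) ∧
      (∀ x, w (w x) = x) := by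
  obtain ⟨w, h1, h2, h3, -⟩ := Fermat.Agent.S34.AtkinLehner.exists_wq (N := M) hq.out hqM
  exact ⟨w, h1, h2, h3⟩

/-- **the Atkin-Lehner involution** `w_q` of `ℚ̄(X₀(M q))` (a choice from
`S34/AtkinLehner.exists_wq`) -/
def wq (hqM : ¬ q ∣ M) :
    ↥(modularFunctionFieldBar (M * q)) ≃ₐ[Kb] ↥(modularFunctionFieldBar (M * q)) :=
  Classical.choose (exists_wq' (q := q) hqM)

theorem wq_alpha (g : ↥(modularFunctionFieldBar M)) :
    wq hqM (heckeAlphaBar Kb M q g) = heckeBetaBar Kb M q g :=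
  (Classical.choose_spec (exists_wq' (q := q) hqM)).1 g

theorem wq_beta (g : ↥(modularFunctionFieldBar M)) :
    wq hqM (heckeBetaBar Kb M q g) = heckeAlphaBar Kb M q g :=
  (Classical.choose_spec (exists_wq' (q := q) hqM)).2.1 g

theorem wq_wq (x : ↥(modularFunctionFieldBar (M * q))) : wq hqM (wq hqM x) = x :=
  (Classical.choose_spec (exists_wq' (q := q) hqM)).2.2 x

theorem wq_jl : wq hqM (jl M q) = heckeAlphaBar Kb M q (jgen M) :=
  wq_beta hqM (jgen M)

/-- the second valuation subring `V₂ = w_q⁻¹ V₁` -/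
def V₂ : ValuationSubring ↥(modularFunctionFieldBar (M * q)) :=
  (V₁ hA hqM).comap ((wq hqM : ↥(modularFunctionFieldBar (M * q)) ≃ₐ[Kb]
    ↥(modularFunctionFieldBar (M * q))) : ↥(modularFunctionFieldBar (M * q)) →+*
      ↥(modularFunctionFieldBar (M * q)))

theorem mem_V₂_iff {f : ↥(modularFunctionFieldBar (M * q))} :
    f ∈ V₂ hA hqM ↔ wq hqM f ∈ V₁ hA hqM := Iff.rfl

theorem wq_mem_V₁_iff {f : ↥(modularFunctionFieldBar (M * q))} :
    wq hqM f ∈ V₁ hA hqM ↔ f ∈ V₂ hA hqM := Iff.rfl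

theorem wq_mem_V₂_iff {f : ↥(modularFunctionFieldBar (M * q))} :
    wq hqM f ∈ V₂ hA hqM ↔ f ∈ V₁ hA hqM := by
  rw [mem_V₂_iff, wq_wq]

/-- the ring isomorphism `V₂ ≃ V₁` induced by `w_q` -/
def wqV : ↥(V₂ hA hqM) ≃+* ↥(V₁ hA hqM) where
  toFun x := ⟨wq hqM x.1, x.2⟩
  invFun y := ⟨wq hqM y.1, (wq_mem_V₂_iff hA hqM).mpr y.2⟩
  left_inv x := Subtype.ext (wq_wq hqM x.1)
  right_inv y := Subtype.ext (wq_wq hqM y.1)
  map_mul' x y := Subtype.ext (map_mul (wq hqM) x.1 y.1)
  map_add' x y := Subtype.ext (map_add (wq hqM) x.1 y.1)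

@[simp] theorem coe_wqV (x : ↥(V₂ hA hqM)) :
    ((wqV hA hqM x : ↥(V₁ hA hqM)) : ↥(modularFunctionFieldBar (M * q))) = wq hqM x.1 := rfl

@[simp] theorem coe_wqV_symm (y : ↥(V₁ hA hqM)) :
    (((wqV hA hqM).symm y : ↥(V₂ hA hqM)) : ↥(modularFunctionFieldBar (M * q))) = wq hqM y.1 :=
  rfl

theorem val_V₂ (f : ↥(modularFunctionFieldBar (M * q))) :
    (V₂ hA hqM).valuation f < 1 ↔ (V₁ hA hqM).valuation (wq hqM f) < 1 := by
  rw [← ValuationSubring.mem_nonunits_iff, ← ValuationSubring.mem_nonunits_iff]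
  constructor
  · intro h
    rw [ValuationSubring.mem_nonunits_iff_exists_mem_maximalIdeal] at h ⊢
    obtain ⟨hf, hm⟩ := h
    refine ⟨hf, ?_⟩
    rw [mem_maximalIdeal, mem_nonunits_iff] at hm ⊢
    intro hu
    apply hm
    have := hu.map (wqV hA hqM).symm
    convert this using 1
    exact Subtype.ext (wq_wq hqM f).symm
  · intro h
    rw [ValuationSubring.mem_nonunits_iff_exists_mem_maximalIdeal] at h ⊢
    obtain ⟨hf, hm⟩ := h
    refine ⟨hf, ?_⟩
    rw [mem_maximalIdeal, mem_nonunits_iff] at hm ⊢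
    intro hu
    apply hm
    exact hu.map (wqV hA hqM)

theorem ev_G₁ : (setupX0 hA hqM).ev (setupX0 hA hqM).G₁ =
    jl M q - heckeAlphaBar Kb M q (jgen M) ^ q := by
  rw [setupX0_G₁, G1O, map_sub, TwoExt.Setup.ev_X, TwoExt.Setup.ev_C, setupX0_t, algebraMap_FE,
    SubmonoidClass.coe_pow, coe_jO, map_pow]

theorem ev_G₂ : (setupX0 hA hqM).ev (setupX0 hA hqM).G₂ =
    jl M q ^ q - heckeAlphaBar Kb M q (jgen M) := by
  rw [setupX0_G₂, G2O, map_sub, map_pow, TwoExt.Setup.ev_X, TwoExt.Setup.ev_C, setupX0_t,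
    algebraMap_FE, coe_jO]

/-- **`V₂` is the type-2 extension of the Gauss ring of level `M`.** -/
theorem isExt_V₂ : (setupX0 hA hqM).IsExt (setupX0 hA hqM).G₂ (V₂ hA hqM) := by
  refine ⟨?_, ?_⟩
  · refine ValuationSubring.ext _ _ fun x => ?_
    rw [ValuationSubring.mem_comap, algebraMap_FE, mem_V₂_iff, wq_alpha, beta_mem_V₁_iff]
  · rw [val_V₂]
    have h : wq hqM ((setupX0 hA hqM).ev (setupX0 hA hqM).G₂) =
        -((setupX0 hA hqM).ev (setupX0 hA hqM).G₁) := by
      rw [ev_G₁, ev_G₂, map_sub, map_pow, wq_jl, wq_alpha, jl]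
      ring
    rw [h, Valuation.map_neg]
    exact (isExt_V₁ hA hqM).lt

theorem V₁_ne_V₂ : V₁ hA hqM ≠ V₂ hA hqM := by
  intro h
  have h2 := isExt_V₂ hA hqM
  rw [← h] at h2
  exact (setupX0 hA hqM).not_isExt_both (isExt_V₁ hA hqM) h2

/-- the reduction of `V₂`, with values in `F_k(M)`: `red₂ = red₁ ∘ w_q` -/
def red₂ : ↥(V₂ hA hqM) →+* ↥(modularFunctionFieldFullC (ResidueField ↥A) M) :=
  (red₁ hA hqM).comp (wqV hA hqM : ↥(V₂ hA hqM) →+* ↥(V₁ hA hqM))

theorem red₂_apply (x : ↥(V₂ hA hqM)) : red₂ hA hqM x = red₁ hA hqM (wqV hA hqM x) := rfl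

theorem red₂_eq_zero_iff (x : ↥(V₂ hA hqM)) : red₂ hA hqM x = 0 ↔ ¬ IsUnit x := by
  rw [red₂_apply, red₁_eq_zero_iff]
  exact not_congr (MulEquiv.isUnit_map (wqV hA hqM))

theorem red₂_eq_zero_iff_mem_nonunits (x : ↥(V₂ hA hqM)) :
    red₂ hA hqM x = 0 ↔ (x : ↥(modularFunctionFieldBar (M * q))) ∈ (V₂ hA hqM).nonunits := by
  rw [red₂_eq_zero_iff, ValuationSubring.coe_mem_nonunits_iff, mem_maximalIdeal, mem_nonunits_iff]

theorem red₂_surjective : Function.Surjective (red₂ hA hqM) := by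
  intro y
  obtain ⟨x, rfl⟩ := red₁_surjective hA hqM y
  exact ⟨(wqV hA hqM).symm x, by rw [red₂_apply, RingEquiv.apply_symm_apply]⟩

theorem beta_mem_V₂_iff (x : ↥(modularFunctionFieldBar M)) :
    heckeBetaBar Kb M q x ∈ V₂ hA hqM ↔ x ∈ (gaussDatum M A hA hqM).O := by
  rw [mem_V₂_iff, wq_beta, alpha_mem_V₁_iff]

theorem alpha_mem_V₂_iff (x : ↥(modularFunctionFieldBar M)) :
    heckeAlphaBar Kb M q x ∈ V₂ hA hqM ↔ x ∈ (gaussDatum M A hA hqM).O := by
  rw [mem_V₂_iff, wq_alpha, beta_mem_V₁_iff]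

/-- **`red₂ (β x) = red x`** -/
theorem red₂_beta (x : ↥(gaussDatum M A hA hqM).O) :
    red₂ hA hqM ⟨heckeBetaBar Kb M q x, (beta_mem_V₂_iff hA hqM x).mpr x.2⟩ =
      (gaussDatum M A hA hqM).red x := by
  rw [red₂_apply, ← red₁_alpha hA hqM x]
  congr 1
  exact Subtype.ext (wq_beta hqM x)

/-- **`red₂ (α x) = (red x)(t^q)`**, the Frobenius pull-back of `red x` -/
theorem coe_red₂_alpha (x : ↥(gaussDatum M A hA hqM).O) :
    ((red₂ hA hqM ⟨heckeAlphaBar Kb M q x, (alpha_mem_V₂_iff hA hqM x).mpr x.2⟩ :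
      ↥(modularFunctionFieldFullC (ResidueField ↥A) M)) : LaurentSeries (ResidueField ↥A)) =
      qExpand (ResidueField ↥A) q (((gaussDatum M A hA hqM).red x :
        ↥(modularFunctionFieldFullC (ResidueField ↥A) M)) : LaurentSeries (ResidueField ↥A)) := by
  rw [red₂_apply, ← coe_red₁_beta hA hqM x]
  congr 2
  exact Subtype.ext (wq_alpha hqM x)

/-- `red₂ j_q = J` -/
theorem red₂_jl :
    red₂ hA hqM ⟨jl M q, (beta_mem_V₂_iff hA hqM _).mpr (jgen_mem_O hA hqM)⟩ =
      jk (ResidueField ↥A) M := by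
  rw [← red_jgen hA hqM]
  exact red₂_beta hA hqM ⟨jgen M, jgen_mem_O hA hqM⟩

theorem algebraMap_mem_V₂ (a : ↥A) :
    algebraMap Kb ↥(modularFunctionFieldBar (M * q)) (a : Kb) ∈ V₂ hA hqM := by
  rw [mem_V₂_iff, AlgEquiv.commutes]
  exact (gaussDatum₁ hA hqM).algebraMap_mem a

theorem red₂_algebraMap (a : ↥A) :
    red₂ hA hqM ⟨algebraMap Kb ↥(modularFunctionFieldBar (M * q)) (a : Kb),
      algebraMap_mem_V₂ hA hqM a⟩ =
      algebraMap (ResidueField ↥A) ↥(modularFunctionFieldFullC (ResidueField ↥A) M)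
        (residue ↥A a) := by
  rw [red₂_apply, ← red₁_algebraMap hA hqM a]
  congr 1
  exact Subtype.ext (AlgEquiv.commutes (wq hqM) (a : Kb))

/-! ### The two Gauss data with values in `F_k(M)` -/

/-- **The first Gauss datum with residue field `F_k(M)`**: `(V₁, red₁)`. -/
def gaussDatumV₁ : Fermat.Agent.S37.Deuring.Core.GaussDatum A (residue ↥A)
    ↥(modularFunctionFieldBar (M * q))
      ↥(modularFunctionFieldFullC (ResidueField ↥A) M) where
  O := V₁ hA hqM
  red := red₁ hA hqM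
  pi_surjective := residue_surjective
  algebraMap_mem := (gaussDatum₁ hA hqM).algebraMap_mem
  red_algebraMap := red₁_algebraMap hA hqM
  red_eq_zero_iff := red₁_eq_zero_iff hA hqM
  exists_const_mul_unit := (gaussDatum₁ hA hqM).exists_const_mul_unit
  mem_of_algebraMap_mem := (gaussDatum₁ hA hqM).mem_of_algebraMap_mem

/-- **The second Gauss datum with residue field `F_k(M)`**: `(V₂, red₂)`, `V₂ = w_q⁻¹ V₁`,
`red₂ = red₁ ∘ w_q`. -/
def gaussDatumV₂ : Fermat.Agent.S37.Deuring.Core.GaussDatum A (residue ↥A)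
    ↥(modularFunctionFieldBar (M * q))
      ↥(modularFunctionFieldFullC (ResidueField ↥A) M) where
  O := V₂ hA hqM
  red := red₂ hA hqM
  pi_surjective := residue_surjective
  algebraMap_mem := algebraMap_mem_V₂ hA hqM
  red_algebraMap := red₂_algebraMap hA hqM
  red_eq_zero_iff := red₂_eq_zero_iff hA hqM
  exists_const_mul_unit := by
    intro f hf
    have hwf : wq hqM f ≠ 0 := (EmbeddingLike.map_ne_zero_iff).mpr hf
    obtain ⟨c, hc, u, hu⟩ := (gaussDatum₁ hA hqM).exists_const_mul_unit (wq hqM f) hwf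
    refine ⟨c, hc, Units.map ((wqV hA hqM).symm : ↥(V₁ hA hqM) →* ↥(V₂ hA hqM)) u, ?_⟩
    have h1 : f = wq hqM (wq hqM f) := (wq_wq hqM f).symm
    rw [h1, hu, map_mul, AlgEquiv.commutes]
    rfl
  mem_of_algebraMap_mem := by
    intro c hc
    rw [mem_V₂_iff, AlgEquiv.commutes] at hc
    exact (gaussDatum₁ hA hqM).mem_of_algebraMap_mem c hc

@[simp] theorem gaussDatumV₁_O : (gaussDatumV₁ hA hqM).O = V₁ hA hqM := rfl
@[simp] theorem gaussDatumV₁_red : (gaussDatumV₁ hA hqM).red = red₁ hA hqM := rfl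
@[simp] theorem gaussDatumV₂_O : (gaussDatumV₂ hA hqM).O = V₂ hA hqM := rfl
@[simp] theorem gaussDatumV₂_red : (gaussDatumV₂ hA hqM).red = red₂ hA hqM := rfl

/-! ### Inertia -/

section Inertia

variable {σ : Kb ≃ₐ[ℚ] Kb} (hσ : σ ∈ A.inertiaSubgroupIn ℚ)

include hσ in
theorem smul_mem_V₁_iff (x : ↥(modularFunctionFieldBar (M * q))) :
    arithmeticGalois (modularFunctionFieldFull (M * q)) σ • x ∈ V₁ hA hqM ↔ x ∈ V₁ hA hqM :=
  (setupX0 hA hqM).sigma_mem_iff₁ (isInertial hA hqM hσ) (isExt_V₁ hA hqM) x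

include hσ in
theorem smul_mem_V₂_iff (x : ↥(modularFunctionFieldBar (M * q))) :
    arithmeticGalois (modularFunctionFieldFull (M * q)) σ • x ∈ V₂ hA hqM ↔ x ∈ V₂ hA hqM :=
  (setupX0 hA hqM).sigma_mem_iff₂ (isInertial hA hqM hσ) (isExt_V₂ hA hqM) x

/-- **inertia acts trivially on the residue field of `V₁`** -/
theorem red₁_smul (x : ↥(V₁ hA hqM)) :
    red₁ hA hqM ⟨arithmeticGalois (modularFunctionFieldFull (M * q)) σ • x.1,
      (smul_mem_V₁_iff hA hqM hσ x.1).mpr x.2⟩ = red₁ hA hqM x := by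
  have h := (setupX0 hA hqM).sub_lt_one_of_fix₁ (isInertial hA hqM hσ) (isExt_V₁ hA hqM) x.2
  rw [← ValuationSubring.mem_nonunits_iff] at h
  have h0 := (red₁_eq_zero_iff_mem_nonunits hA hqM
    (⟨arithmeticGalois (modularFunctionFieldFull (M * q)) σ • x.1,
      (smul_mem_V₁_iff hA hqM hσ x.1).mpr x.2⟩ - x)).mpr h
  rwa [map_sub, sub_eq_zero] at h0

/-- **inertia acts trivially on the residue field of `V₂`** -/
theorem red₂_smul (x : ↥(V₂ hA hqM)) :
    red₂ hA hqM ⟨arithmeticGalois (modularFunctionFieldFull (M * q)) σ • x.1,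
      (smul_mem_V₂_iff hA hqM hσ x.1).mpr x.2⟩ = red₂ hA hqM x := by
  have h := (setupX0 hA hqM).sub_lt_one_of_fix₂ (isInertial hA hqM hσ) (isExt_V₂ hA hqM) x.2
  rw [← ValuationSubring.mem_nonunits_iff] at h
  have h0 := (red₂_eq_zero_iff_mem_nonunits hA hqM
    (⟨arithmeticGalois (modularFunctionFieldFull (M * q)) σ • x.1,
      (smul_mem_V₂_iff hA hqM hσ x.1).mpr x.2⟩ - x)).mpr h
  rwa [map_sub, sub_eq_zero] at h0

end Inertia

end Ring

end Fermat.Agent.S34.GaussPairX0
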