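/-
PROJECT U, slice (Z1), hypotheses-first (helper18).

`F` a field with a semilinear automorphism `g` (over the constant field `K`), and a finite family
`O i` of pairwise incomparable archimedean valuation subrings of `F` ("Gauss valuations") such that
* `g` acts trivially on the residue fields: `g • x - x ∈ 𝔪 i` for `x ∈ O i`;
* the value group of every `O i` is already attained on constants;
* `K` is `n`-divisible.
Then for every `f ≠ 0` we have `g • f = h ^ n * u * f` with `u ≡ 1` modulo all `𝔪 i`.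
This is the hypothesis `h1` of `KummerZ.sq_eq_zero_of_kummer` (with `c = 1`).
-/
import Fermat.Agent.S34.WeakApprox
import Fermat.Agent.S34.ArchComap
import Fermat.Agent.S34.KummerZ

set_option autoImplicit false

noncomputable section

namespace Fermat.Agent.S34.Z1Abstract

open AlgebraicCurve Fermat.Agent.S34.WeakApprox

variable {F : Type*} [Field F]

/-! ### Generalities on `1 + 𝔪` -/

/-- `x ≡ 1` modulo the maximal ideal of `A`. -/
def IsOneUnit (A : ValuationSubring F) (x : F) : Prop := x - 1 ∈ A.nonunits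

theorem IsOneUnit.valuation_eq_one {A : ValuationSubring F} {x : F} (h : IsOneUnit A x) :
    A.valuation x = 1 := by
  have h1 : A.valuation (x - 1) < 1 := A.mem_nonunits_iff.mp h
  have h2 : A.valuation (1 + (x - 1)) = A.valuation (1 : F) := by
    apply Valuation.map_add_eq_of_lt_left
    rwa [map_one]
  rwa [add_sub_cancel, map_one] at h2

theorem IsOneUnit.ne_zero {A : ValuationSubring F} {x : F} (h : IsOneUnit A x) : x ≠ 0 := by
  intro h0
  have := h.valuation_eq_one
  rw [h0, map_zero] at this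
  exact zero_ne_one this

theorem isOneUnit_one (A : ValuationSubring F) : IsOneUnit A 1 := by
  unfold IsOneUnit
  rw [sub_self]
  exact A.nonunits.zero_mem

theorem mem_of_valuation_eq_one {A : ValuationSubring F} {x : F} (h : A.valuation x = 1) :
    x ∈ A := (A.valuation_le_one_iff x).mp h.le

/-- if `g` moves every element of `A` by an element of `𝔪`, then `g x / x ≡ 1` for units `x` -/
theorem isOneUnit_div_of_sub_mem {A : ValuationSubring F} {x y : F} (hx : A.valuation x = 1)
    (hxy : y - x ∈ A.nonunits) : IsOneUnit A (y / x) := by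
  have hx0 : x ≠ 0 := by
    intro h0
    rw [h0, map_zero] at hx
    exact zero_ne_one hx
  have h1 : y / x - 1 = (y - x) * x⁻¹ := by
    field_simp
  unfold IsOneUnit
  rw [h1, A.mem_nonunits_iff, map_mul, map_inv₀, hx, inv_one, mul_one]
  exact A.mem_nonunits_iff.mp hxy

/-! ### Simultaneous normalisation by weak approximation -/

variable {ι : Type*} (O : ι → ValuationSubring F)

/-- Given `d i ≠ 0`, there is `h ≠ 0` with `h / d i ≡ 1` modulo `𝔪 i` for every `i`. -/
theorem exists_simultaneous [Finite ι] (hA : ∀ i, Arch (O i))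
    (hinc : ∀ i j, i ≠ j → ¬ O i ≤ O j) (d : ι → F) (hd : ∀ i, d i ≠ 0) :
    ∃ h : F, h ≠ 0 ∧ ∀ i, IsOneUnit (O i) (h / d i) := by
  classical
  have := Fintype.ofFinite ι
  rcases isEmpty_or_nonempty ι with hι | ⟨⟨i₀⟩⟩
  · exact ⟨1, one_ne_zero, fun i => isEmptyElim i⟩
  -- the finite set of all quotients `d i / d j`
  let bs : Finset F := Finset.univ.image (fun p : ι × ι => d p.1 / d p.2)
  have h1 : ∀ i, ∃ x : F, x - 1 ∈ (O i).nonunits ∧
      ∀ j, j ≠ i → x ∈ (O j).nonunits ∧ ∀ b ∈ bs, x * b ∈ (O j).nonunits :=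
    fun i => exists_one_sub O hA hinc i bs
  choose x hx1 hx2 using h1
  have key : ∀ j, IsOneUnit (O j) ((∑ i, x i * d i) / d j) := by
    intro j
    have h2 : (∑ i, x i * d i) / d j - 1
        = (x j - 1) + ∑ i ∈ Finset.univ.erase j, x i * (d i / d j) := by
      rw [Finset.sum_div, ← Finset.add_sum_erase _ _ (Finset.mem_univ j),
        mul_div_assoc, div_self (hd j), mul_one]
      have : ∀ i, x i * d i / d j = x i * (d i / d j) := fun i => mul_div_assoc _ _ _
      simp only [this]
      ring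
    unfold IsOneUnit
    rw [h2]
    refine (O j).nonunits.add_mem (hx1 j) (sum_mem fun i hi => ?_)
    refine (hx2 i j (Finset.ne_of_mem_erase hi).symm).2 _ ?_
    exact Finset.mem_image.mpr ⟨(i, j), Finset.mem_univ _, rfl⟩
  refine ⟨∑ i, x i * d i, ?_, key⟩
  intro h0
  have := (key i₀).ne_zero
  rw [h0, zero_div] at this
  exact this rfl

/-! ### (Z1) -/

variable {K : Type*} [Field K] [Algebra K F]

/-- **(Z1), abstract form.** -/
theorem exists_kummer_decomposition [Finite ι] (g : SemilinearAut K F) (n : ℕ)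
    (hA : ∀ i, Arch (O i)) (hinc : ∀ i j, i ≠ j → ¬ O i ≤ O j)
    (htriv : ∀ i, ∀ x ∈ O i, g • x - x ∈ (O i).nonunits)
    (hval : ∀ i, ∀ f : F, f ≠ 0 →
      ∃ c : K, (O i).valuation f = (O i).valuation (algebraMap K F c))
    (hdiv : ∀ c : K, ∃ d : K, d ^ n = c)
    (f : F) (hf : f ≠ 0) :
    ∃ h u : F, h ≠ 0 ∧ u ≠ 0 ∧ (∀ i, IsOneUnit (O i) u) ∧ g • f = h ^ n * u * f := by
  classical
  -- constants `d i` with `v_i (f) = v_i (d i ^ n)`
  have h1 : ∀ i, ∃ d : K, d ≠ 0 ∧
      (O i).valuation f = (O i).valuation (algebraMap K F d) ^ n := by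
    intro i
    obtain ⟨c, hcv⟩ := hval i f hf
    have hc : c ≠ 0 := by
      rintro rfl
      rw [map_zero, map_zero] at hcv
      exact hf ((Valuation.zero_iff _).mp hcv)
    obtain ⟨d, hd⟩ := hdiv c
    rcases Nat.eq_zero_or_pos n with hn | hn
    · subst hn
      refine ⟨1, one_ne_zero, ?_⟩
      rw [hcv, ← hd, pow_zero, pow_zero, map_one, map_one]
    · refine ⟨d, ?_, ?_⟩
      · rintro rfl
        rw [zero_pow hn.ne'] at hd
        exact hc hd.symm
      · rw [hcv, ← hd, map_pow, map_pow]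
  choose d hd0 hdv using h1
  have hdF : ∀ i, algebraMap K F (d i) ≠ 0 := fun i => (map_ne_zero _).mpr (hd0 i)
  obtain ⟨h, hh0, hh⟩ := exists_simultaneous O hA hinc (fun i => algebraMap K F (d i)) hdF
  -- the normalised function
  set f' : F := f / h ^ n with hf'
  have hf'0 : f' ≠ 0 := div_ne_zero hf (pow_ne_zero _ hh0)
  have hf'v : ∀ i, (O i).valuation f' = 1 := by
    intro i
    have h2 : (O i).valuation (h / algebraMap K F (d i)) = 1 := (hh i).valuation_eq_one
    rw [map_div₀] at h2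
    have h3 : (O i).valuation h = (O i).valuation (algebraMap K F (d i)) := by
      have hne : (O i).valuation (algebraMap K F (d i)) ≠ 0 :=
        (Valuation.ne_zero_iff _).mpr (hdF i)
      rwa [div_eq_one_iff_eq hne] at h2
    rw [hf', map_div₀, map_pow, hdv i, h3]
    exact div_self (pow_ne_zero _ ((Valuation.ne_zero_iff _).mpr (hdF i)))
  have hgf'0 : g • f' ≠ 0 := by
    rw [SemilinearAut.smul_def]
    exact (map_ne_zero _).mpr hf'0
  have hgh0 : g • h ≠ 0 := by
    rw [SemilinearAut.smul_def]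
    exact (map_ne_zero _).mpr hh0
  refine ⟨g • h / h, g • f' / f', div_ne_zero hgh0 hh0, div_ne_zero hgf'0 hf'0, fun i => ?_, ?_⟩
  · exact isOneUnit_div_of_sub_mem (hf'v i)
      (htriv i f' (mem_of_valuation_eq_one (hf'v i)))
  · have h4 : f = f' * h ^ n := by
      rw [hf', div_mul_cancel₀ _ (pow_ne_zero _ hh0)]
    have h5 : g • f = g • f' * (g • h) ^ n := by
      conv_lhs => rw [h4]
      rw [smul_mul', smul_pow']
    rw [h5, div_pow]
    conv_rhs => rw [h4]
    field_simp

/-! ### (Z1) + (Core-Z) ⟹ `(g - 1)^2 = 0` on `Pic0[n]` -/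

/-- With the Gauss data `(O i)` as above, PROJECT U is reduced to (Core-Z) alone:
`g u / u ∈ K^× F^{× n}` for every `u ∈ H_n` which is `≡ 1` modulo all `𝔪 i`. -/
theorem sq_eq_zero_of_coreZ [Finite ι] (g : SemilinearAut K F) (n : ℕ) (hn : n ≠ 0)
    (hA : ∀ i, Arch (O i)) (hinc : ∀ i j, i ≠ j → ¬ O i ≤ O j)
    (htriv : ∀ i, ∀ x ∈ O i, g • x - x ∈ (O i).nonunits)
    (hval : ∀ i, ∀ f : F, f ≠ 0 →
      ∃ c : K, (O i).valuation f = (O i).valuation (algebraMap K F c))
    (hdiv : ∀ c : K, ∃ d : K, d ^ n = c)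
    (hcore : ∀ u : F, KummerZ.Hn (K := K) n u → (∀ i, IsOneUnit (O i) u) →
      ∃ (c : K) (h : F), c ≠ 0 ∧ h ≠ 0 ∧ g • u = algebraMap K F c * h ^ n * u)
    (y : Pic0 K F) (hy : (n : ℤ) • y = 0) :
    g • (g • y) + y = 2 • (g • y) := by
  refine KummerZ.sq_eq_zero_of_kummer g n hn (fun u => ∀ i, IsOneUnit (O i) u) ?_ hcore y hy
  intro f hf
  obtain ⟨h, u, hh, hu, hPu, hgf⟩ :=
    exists_kummer_decomposition O g n hA hinc htriv hval hdiv f hf.1
  refine ⟨1, h, u, one_ne_zero, hh, hu, hPu, ?_⟩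
  rw [hgf, map_one, one_mul]

/-- The same with the archimedean property only required on the constants (e.g. a valuation ring
of `Q̄` above a prime: `ArchComap.arch_of_liesOverPrime`) and "pairwise incomparable" replaced
by "pairwise distinct and proper". -/
theorem sq_eq_zero_of_coreZ_of_comap [Finite ι] (g : SemilinearAut K F) (n : ℕ) (hn : n ≠ 0)
    (hK : ∀ i, Arch ((O i).comap (algebraMap K F)))
    (htop : ∀ i, O i ≠ ⊤) (hne : ∀ i j, i ≠ j → O i ≠ O j)
    (htriv : ∀ i, ∀ x ∈ O i, g • x - x ∈ (O i).nonunits)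
    (hval : ∀ i, ∀ f : F, f ≠ 0 →
      ∃ c : K, (O i).valuation f = (O i).valuation (algebraMap K F c))
    (hdiv : ∀ c : K, ∃ d : K, d ^ n = c)
    (hcore : ∀ u : F, KummerZ.Hn (K := K) n u → (∀ i, IsOneUnit (O i) u) →
      ∃ (c : K) (h : F), c ≠ 0 ∧ h ≠ 0 ∧ g • u = algebraMap K F c * h ^ n * u)
    (y : Pic0 K F) (hy : (n : ℤ) • y = 0) :
    g • (g • y) + y = 2 • (g • y) := by
  have hA : ∀ i, Arch (O i) := fun i =>
    ArchComap.arch_of_valuation_eq (F := K) (O i) (hK i) (hval i)
  have hinc : ∀ i j, i ≠ j → ¬ O i ≤ O j := fun i j hij hle =>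
    hne i j hij (le_antisymm hle ((hA i).le_of_le hle (htop j)))
  exact sq_eq_zero_of_coreZ O g n hn hA hinc htriv hval hdiv hcore y hy

end Fermat.Agent.S34.Z1Abstract


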