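import Mathlib
import Fermat.Agent.S34.NodalDefs
import Fermat.Agent.S34.Z1Abstract
import Fermat.Agent.S37.Deuring.Core

/-!
# PROJECT U (S34), Route G, integration: small lemmas on `NodalDefs.Branch`

For a branch `R : NodalDefs.Branch A π FL Fk` (a Gauss valuation ring `R.O` of `FL` with its
reduction `R.red : R.O →+* Fk`, kernel = the maximal ideal):

* `sub_mem_nonunits_iff`, `red_eq_iff` : `R.red x = R.red y ↔ x - y ∈ 𝔪`;
* `isOneUnit_iff` : `Z1Abstract.IsOneUnit R.O u ↔ ∃ h : u ∈ R.O, R.red ⟨u, h⟩ = 1`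
  (the hypotheses `IsOneUnit (V_i) u` of `UOfCoreZ.CoreZHyp` against the hypotheses
  `hu_i`, `hred_i` of `CoreZOfNodal.principal_of_nodal`);
* `red_smul_eq` : a semilinear automorphism `g` which preserves `R.O` and moves every element of
  `R.O` by an element of `𝔪` commutes with the reduction: this is literally the hypothesis `hg_i` of
  `CoreZOfNodal.principal_of_nodal` (at `X₀(M q)` the two inputs are `Z1X0.smul_mem_V_iX0_iff` and
  `Z1X0.smul_sub_mem_nonunits_i`); `red_map_eq` is the same for any map `σ : FL → FL`;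
* `Branch.ofGaussDatum` : a `S37.Deuring.Core.GaussDatum` is a branch (field for field), with the
  `rfl`-lemmas `ofGaussDatum_O`, `ofGaussDatum_red`.
-/

set_option autoImplicit false
set_option linter.unusedSectionVars false

noncomputable section

namespace Fermat.Agent.S34.BranchAux

open AlgebraicCurve Fermat.Agent.S34.NodalDefs Fermat.Agent.S34.Z1Abstract

variable {L : Type*} [Field L] {k : Type*} [Field k]
variable {A : ValuationSubring L} {π : A →+* k}
variable {FL : Type*} [Field FL] [Algebra L FL]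
variable {Fk : Type*} [Field Fk] [Algebra k Fk]

/-! ### the kernel of the reduction -/

/-- an element of `R.O` lies in the maximal ideal iff it is not a unit of `R.O` -/
theorem coe_mem_nonunits_iff (R : Branch A π FL Fk) (y : R.O) :
    (y : FL) ∈ R.O.nonunits ↔ ¬ IsUnit y :=
  ValuationSubring.coe_mem_nonunits_iff

/-- the kernel of `R.red` is `𝔪`, in terms of `nonunits` -/
theorem red_eq_zero_iff_mem_nonunits (R : Branch A π FL Fk) (y : R.O) :
    R.red y = 0 ↔ (y : FL) ∈ R.O.nonunits := by
  rw [R.red_eq_zero_iff, coe_mem_nonunits_iff]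

/-- two elements of `R.O` have the same reduction iff they differ by an element of `𝔪` -/
theorem red_eq_iff (R : Branch A π FL Fk) (x y : R.O) :
    R.red x = R.red y ↔ (x : FL) - (y : FL) ∈ R.O.nonunits := by
  rw [← sub_eq_zero, ← map_sub, red_eq_zero_iff_mem_nonunits]
  rfl

/-- membership in `R.O` of an element congruent to an element of `R.O` modulo `𝔪` -/
theorem mem_of_sub_mem_nonunits (R : Branch A π FL Fk) {x y : FL} (hy : y ∈ R.O)
    (h : x - y ∈ R.O.nonunits) : x ∈ R.O := by
  have h1 : x - y ∈ R.O := R.O.nonunits_subset h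
  have h2 : x = (x - y) + y := by ring
  rw [h2]
  exact R.O.add_mem _ _ h1 hy

/-! ### (1) one-units -/

/-- **(1)** `u ≡ 1` modulo the maximal ideal of `R.O` iff `u ∈ R.O` and `R.red u = 1`. -/
theorem isOneUnit_iff (R : Branch A π FL Fk) (u : FL) :
    IsOneUnit R.O u ↔ ∃ h : u ∈ R.O, R.red ⟨u, h⟩ = 1 := by
  constructor
  · intro hu
    have hmem : u ∈ R.O := mem_of_sub_mem_nonunits R R.O.one_mem hu
    refine ⟨hmem, ?_⟩
    rw [← map_one R.red, red_eq_iff]
    exact hu
  · rintro ⟨hmem, hred⟩
    rw [← map_one R.red, red_eq_iff] at hred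
    exact hred

theorem mem_of_isOneUnit (R : Branch A π FL Fk) {u : FL} (hu : IsOneUnit R.O u) : u ∈ R.O :=
  ((isOneUnit_iff R u).mp hu).1

theorem red_eq_one_of_isOneUnit (R : Branch A π FL Fk) {u : FL} (hu : IsOneUnit R.O u) :
    R.red ⟨u, mem_of_isOneUnit R hu⟩ = 1 :=
  ((isOneUnit_iff R u).mp hu).2

theorem isOneUnit_of_red_eq_one (R : Branch A π FL Fk) {u : FL} (h : u ∈ R.O)
    (hred : R.red ⟨u, h⟩ = 1) : IsOneUnit R.O u :=
  (isOneUnit_iff R u).mpr ⟨h, hred⟩

/-! ### (2) automorphisms acting trivially on the residue field -/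

/-- **(2), general form**: a map `σ : FL → FL` which preserves `R.O` and moves every element of
`R.O` by an element of `𝔪` commutes with the reduction. -/
theorem red_map_eq (R : Branch A π FL Fk) (σ : FL → FL)
    (hmem : ∀ x : FL, x ∈ R.O → σ x ∈ R.O)
    (hsub : ∀ x : FL, x ∈ R.O → σ x - x ∈ R.O.nonunits) (y : R.O) :
    ∃ h : σ (y : FL) ∈ R.O, R.red ⟨_, h⟩ = R.red y := by
  refine ⟨hmem _ y.2, ?_⟩
  rw [red_eq_iff]
  exact hsub _ y.2

/-- **(2)** the hypothesis `hg_i` of `CoreZOfNodal.principal_of_nodal` for a semilinear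
automorphism preserving `R.O` and acting trivially on its residue field. -/
theorem red_smul_eq (R : Branch A π FL Fk) (g : SemilinearAut L FL)
    (hmem : ∀ x : FL, g • x ∈ R.O ↔ x ∈ R.O)
    (hsub : ∀ x : FL, x ∈ R.O → g • x - x ∈ R.O.nonunits) :
    ∀ y : R.O, ∃ h : g • ((y : R.O) : FL) ∈ R.O, R.red ⟨_, h⟩ = R.red y :=
  fun y => red_map_eq R (fun x => g • x) (fun x hx => (hmem x).mpr hx) hsub y

/-- the same from the one-sided stability `x ∈ R.O → g • x ∈ R.O` -/
theorem red_smul_eq' (R : Branch A π FL Fk) (g : SemilinearAut L FL)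
    (hmem : ∀ x : FL, x ∈ R.O → g • x ∈ R.O)
    (hsub : ∀ x : FL, x ∈ R.O → g • x - x ∈ R.O.nonunits) :
    ∀ y : R.O, ∃ h : g • ((y : R.O) : FL) ∈ R.O, R.red ⟨_, h⟩ = R.red y :=
  fun y => red_map_eq R (fun x => g • x) hmem hsub y

/-- an automorphism as in (2) maps one-units to one-units -/
theorem isOneUnit_smul (R : Branch A π FL Fk) (g : SemilinearAut L FL)
    (hmem : ∀ x : FL, g • x ∈ R.O ↔ x ∈ R.O)
    (hsub : ∀ x : FL, x ∈ R.O → g • x - x ∈ R.O.nonunits) {u : FL} (hu : IsOneUnit R.O u) :
    IsOneUnit R.O (g • u) := by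
  obtain ⟨h, hred⟩ := (isOneUnit_iff R u).mp hu
  obtain ⟨h', hred'⟩ := red_smul_eq R g hmem hsub ⟨u, h⟩
  exact (isOneUnit_iff R (g • u)).mpr ⟨h', hred'.trans hred⟩

/-! ### (3) Gauss data are branches -/

/-- **(3)** a Gauss datum of `S37/Deuring/Core` is a branch, field for field. -/
def Branch.ofGaussDatum (G : Fermat.Agent.S37.Deuring.Core.GaussDatum A π FL Fk) :
    Branch A π FL Fk where
  O := G.O
  red := G.red
  algebraMap_mem := G.algebraMap_mem
  red_algebraMap := G.red_algebraMap
  red_eq_zero_iff := G.red_eq_zero_iff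
  exists_const_mul_unit := G.exists_const_mul_unit
  mem_of_algebraMap_mem := G.mem_of_algebraMap_mem

@[simp] theorem ofGaussDatum_O (G : Fermat.Agent.S37.Deuring.Core.GaussDatum A π FL Fk) :
    (Branch.ofGaussDatum G).O = G.O := rfl

@[simp] theorem ofGaussDatum_red (G : Fermat.Agent.S37.Deuring.Core.GaussDatum A π FL Fk) :
    (Branch.ofGaussDatum G).red = G.red := rfl

/-- conversely a branch over a base with surjective residue map is a Gauss datum -/
def gaussDatumOfBranch (R : Branch A π FL Fk) (hπ : Function.Surjective π) :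
    Fermat.Agent.S37.Deuring.Core.GaussDatum A π FL Fk where
  O := R.O
  red := R.red
  pi_surjective := hπ
  algebraMap_mem := R.algebraMap_mem
  red_algebraMap := R.red_algebraMap
  red_eq_zero_iff := R.red_eq_zero_iff
  exists_const_mul_unit := R.exists_const_mul_unit
  mem_of_algebraMap_mem := R.mem_of_algebraMap_mem

@[simp] theorem gaussDatumOfBranch_O (R : Branch A π FL Fk) (hπ : Function.Surjective π) :
    (gaussDatumOfBranch R hπ).O = R.O := rfl

@[simp] theorem gaussDatumOfBranch_red (R : Branch A π FL Fk) (hπ : Function.Surjective π) :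
    (gaussDatumOfBranch R hπ).red = R.red := rfl

end Fermat.Agent.S34.BranchAux
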