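/-
PROJECT U (S34), ROUTE G (helper5): the SECOND Gauss datum and the full reduction dictionary
`ChartLift.PairDict` from the FIRST half and an involution swapping the two degeneracy maps.

Abstract setting: `G₁ : GaussDatum A π FL κ` (the Gauss ring `V₁` with its reduction `red₁`),
`w : FL ≃ₐ[L] FL` with `w ∘ α = β`, `w ∘ β = α` (at `X₀(qM)`: the Atkin–Lehner involution `w_q`,
`WqGalois.wq_alpha`, `wq_beta`).  Then

* `gaussDatumComap G₁ w` is the Gauss datum with ring `V₂ = V₁.comap w` and reduction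
  `red₂ = red₁ ∘ w` (same residue field `κ`, no twist on constants);
* `pairDict_of_swap`: if `α g, β g ∈ V₁`, `red₁ (α g) = ḡ`, `red₁ (β g) = φ ḡ` for all `g ∈ GM.O`,
  then `PairDict GM G₁ (gaussDatumComap G₁ w) α β φ`, i.e. also
  `red₂ (α g) = φ ḡ`, `red₂ (β g) = ḡ`.
-/
import Mathlib
import Fermat.Agent.S34.Euler.ChartLift
import Fermat.Agent.S34.BranchAux
import Fermat.Agent.S34.Generic.SmoothRedOfGeneric

set_option autoImplicit false

noncomputable section

namespace Fermat.Agent.S34.PairDictSwap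

open Fermat.Agent.S37.Deuring.Core Fermat.Agent.S34.NodalDefs
open Fermat.Agent.S34.Generic.SmoothRedOfGeneric Fermat.Agent.S34.BranchAux
open Fermat.Agent.S34.Euler.ChartLift

variable {L : Type*} [Field L] {k : Type*} [Field k]
variable {A : ValuationSubring L} {π : A →+* k}
variable {FM : Type*} [Field FM] [Algebra L FM]
variable {FL : Type*} [Field FL] [Algebra L FL]
variable {κ : Type*} [Field κ] [Algebra k κ]

/-- **The second Gauss datum**: ring `G.O.comap w`, reduction `G.red ∘ w`. -/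
def gaussDatumComap (G : GaussDatum A π FL κ) (w : FL ≃ₐ[L] FL) : GaussDatum A π FL κ :=
  gaussDatumOfBranch (branchComap (Branch.ofGaussDatum G) w) G.pi_surjective

theorem gaussDatumComap_O (G : GaussDatum A π FL κ) (w : FL ≃ₐ[L] FL) :
    (gaussDatumComap G w).O = G.O.comap (w : FL →+* FL) := rfl

theorem mem_gaussDatumComap_O (G : GaussDatum A π FL κ) (w : FL ≃ₐ[L] FL) (x : FL) :
    x ∈ (gaussDatumComap G w).O ↔ w x ∈ G.O := Iff.rfl

theorem gaussDatumComap_red (G : GaussDatum A π FL κ) (w : FL ≃ₐ[L] FL)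
    (x : (gaussDatumComap G w).O) :
    (gaussDatumComap G w).red x = G.red ⟨w (x : FL), x.2⟩ := rfl

theorem gaussDatumComap_red_mk (G : GaussDatum A π FL κ) (w : FL ≃ₐ[L] FL) (x : FL)
    (hx : x ∈ (gaussDatumComap G w).O) :
    (gaussDatumComap G w).red ⟨x, hx⟩ = G.red ⟨w x, hx⟩ := rfl

/-- the branch of the second Gauss datum is the transported branch -/
theorem ofGaussDatum_gaussDatumComap (G : GaussDatum A π FL κ) (w : FL ≃ₐ[L] FL) :
    Branch.ofGaussDatum (gaussDatumComap G w) = branchComap (Branch.ofGaussDatum G) w := rfl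

/-- **The full reduction dictionary from its first half and the swap `w`.** -/
theorem pairDict_of_swap (GM : GaussDatum A π FM κ) (G₁ : GaussDatum A π FL κ)
    (α β : FM →+* FL) (w : FL ≃ₐ[L] FL)
    (hwα : ∀ g : FM, w (α g) = β g) (hwβ : ∀ g : FM, w (β g) = α g) (φ : κ → κ)
    (hα : ∀ g : GM.O, α (g : FM) ∈ G₁.O) (hβ : ∀ g : GM.O, β (g : FM) ∈ G₁.O)
    (hredα : ∀ g : GM.O, G₁.red ⟨α (g : FM), hα g⟩ = GM.red g)
    (hredβ : ∀ g : GM.O, G₁.red ⟨β (g : FM), hβ g⟩ = φ (GM.red g)) :
    PairDict GM G₁ (gaussDatumComap G₁ w) α β φ where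
  alpha_mem₁ := hα
  alpha_mem₂ := fun g => by
    rw [mem_gaussDatumComap_O, hwα]
    exact hβ g
  beta_mem₁ := hβ
  beta_mem₂ := fun g => by
    rw [mem_gaussDatumComap_O, hwβ]
    exact hα g
  red₁_alpha := hredα
  red₂_alpha := fun g => by
    rw [gaussDatumComap_red_mk, ← hredβ g]
    congr 1
    exact Subtype.ext (hwα _)
  red₁_beta := hredβ
  red₂_beta := fun g => by
    rw [gaussDatumComap_red_mk, ← hredα g]
    congr 1
    exact Subtype.ext (hwβ _)

end Fermat.Agent.S34.PairDictSwap
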