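/-
PROJECT U (S34), ROUTE G (helper5): `PairDictSwap.pairDict_of_swap` at `X₀(N ℓ)` with the
Atkin–Lehner involution `w_ℓ` (`WqGalois.wq`): the full reduction dictionary
`ChartLift.PairDict GM G₁ G₂ α β φ` with `G₂ := gaussDatumComap G₁ w_ℓ` from its `V₁`-half.
-/
import Mathlib
import Fermat.Agent.S34.PairDictSwap
import Fermat.Agent.S34.WqGalois

set_option autoImplicit false

noncomputable section

namespace Fermat.Agent.S34.PairDictSwapX0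

open ModularCurve Fermat.Agent.S37.Deuring.Core Fermat.Agent.S34.Euler.ChartLift
open Fermat.Agent.S34.PairDictSwap Fermat.Agent.S34.WqGalois

local notation "Kb" => AlgebraicClosure ℚ

variable {N ℓ : ℕ} [NeZero N] [NeZero ℓ] (hℓ : ℓ.Prime) (hℓN : ¬ ℓ ∣ N)
variable {k : Type*} [Field k] {A : ValuationSubring Kb} {π : A →+* k}
variable {κ : Type*} [Field κ] [Algebra k κ]

/-- the second Gauss datum at `X₀(N ℓ)`: ring `V₁.comap w_ℓ`, reduction `red₁ ∘ w_ℓ` -/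
def G₂ (G₁ : GaussDatum A π ↥(modularFunctionFieldBar (N * ℓ)) κ) :
    GaussDatum A π ↥(modularFunctionFieldBar (N * ℓ)) κ :=
  gaussDatumComap G₁ (wq N ℓ hℓ hℓN)

theorem mem_G₂_O (G₁ : GaussDatum A π ↥(modularFunctionFieldBar (N * ℓ)) κ)
    (x : ↥(modularFunctionFieldBar (N * ℓ))) :
    x ∈ (G₂ hℓ hℓN G₁).O ↔ wq N ℓ hℓ hℓN x ∈ G₁.O := Iff.rfl

theorem G₂_O (G₁ : GaussDatum A π ↥(modularFunctionFieldBar (N * ℓ)) κ) :
    (G₂ hℓ hℓN G₁).O = G₁.O.comap (wqHom N ℓ hℓ hℓN) := rfl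

theorem G₂_red (G₁ : GaussDatum A π ↥(modularFunctionFieldBar (N * ℓ)) κ)
    (x : ↥(modularFunctionFieldBar (N * ℓ))) (hx : x ∈ (G₂ hℓ hℓN G₁).O) :
    (G₂ hℓ hℓN G₁).red ⟨x, hx⟩ = G₁.red ⟨wq N ℓ hℓ hℓN x, hx⟩ := rfl

/-- **The reduction dictionary at `X₀(N ℓ)` from its `V₁`-half.** -/
theorem pairDict_wq (GM : GaussDatum A π ↥(modularFunctionFieldBar N) κ)
    (G₁ : GaussDatum A π ↥(modularFunctionFieldBar (N * ℓ)) κ) (φ : κ → κ)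
    (hα : ∀ g : GM.O, heckeAlphaBar Kb N ℓ (g : ↥(modularFunctionFieldBar N)) ∈ G₁.O)
    (hβ : ∀ g : GM.O, heckeBetaBar Kb N ℓ (g : ↥(modularFunctionFieldBar N)) ∈ G₁.O)
    (hredα : ∀ g : GM.O, G₁.red ⟨heckeAlphaBar Kb N ℓ (g : ↥(modularFunctionFieldBar N)), hα g⟩ =
      GM.red g)
    (hredβ : ∀ g : GM.O, G₁.red ⟨heckeBetaBar Kb N ℓ (g : ↥(modularFunctionFieldBar N)), hβ g⟩ =
      φ (GM.red g)) :
    PairDict GM G₁ (G₂ hℓ hℓN G₁) (heckeAlphaBar Kb N ℓ) (heckeBetaBar Kb N ℓ) φ :=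
  pairDict_of_swap GM G₁ (heckeAlphaBar Kb N ℓ) (heckeBetaBar Kb N ℓ) (wq N ℓ hℓ hℓN)
    (fun g => wq_alpha hℓ hℓN g) (fun g => wq_beta hℓ hℓN g) φ hα hβ hredα hredβ

end Fermat.Agent.S34.PairDictSwapX0
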