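import Mathlib
import Fermat.Agent.S34.EulerNodesFinalX0
import Fermat.Agent.S34.PairDictSwapX0
import Fermat.Agent.S34.GaussPairX0
import Fermat.Agent.S34.Euler.HoloBridge

/-!
# PROJECT U (S34): the node set of `X₀(M q)` mod `q`, with no hypothesis left

`EulerNodesFinalX0.exists_nodes_final` with its last inputs discharged:

* the reduction dictionary `d` is made concrete: `G₁ := GaussPairX0.gaussDatumV₁` (the Gauss ring
  of `t`-expansions), `G₂ := PairDictSwapX0.G₂` (its transform by the Atkin–Lehner involution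
  `WqGalois.wq`), `dX0 := PairDictSwapX0.pairDict_wq` fed with the `V₁`-half of `GaussPairX0`;
* `hJ₀`, `hJ₁` := `Euler.HoloBridge.hJ_P0`, `hJ_P1`;
* the instances on `k = ResidueField A` (`CharP`, `PerfectField`, `IsAlgClosed`,
  `HasPrincipalDivisors`) come from `S18/ResidueBasics` and `S37/ReductionInputs`;
* Riemann's theorem on both fields comes from `S18/A/RiemannFk`.
-/

set_option autoImplicit false
set_option linter.unusedSectionVars false
set_option linter.style.haveILetI false

noncomputable section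

namespace Fermat.Agent.S34.EulerClosedX0

open ModularCurve AlgebraicCurve IsLocalRing
open Fermat.Agent.S24.DegreeAlg (jgen)
open Fermat.Agent.S18.B.FkBasics (jk)
open Fermat.Agent.S18.NonSpecial Fermat.Agent.S37.Deuring.Core
open Fermat.Agent.S37.Gauss.Datum
open Fermat.Agent.S34.PowerBasisX0 Fermat.Agent.S34.EulerX0
open Fermat.Agent.S34.FrobK Fermat.Agent.S34.Euler.Places Fermat.Agent.S34.Euler.Value
  Fermat.Agent.S34.Euler.RedPair Fermat.Agent.S34.Euler.Chart Fermat.Agent.S34.Euler.FrobSide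
  Fermat.Agent.S34.Euler.ChartFullC Fermat.Agent.S34.Euler.ChartLift
  Fermat.Agent.S34.EulerNodesX0 Fermat.Agent.S34.EulerNodesFinalX0
open Fermat.Agent.S34.GaussPairX0 (gaussDatumV₁)

local notation "Kb" => AlgebraicClosure ℚ

set_option synthInstance.maxHeartbeats 400000

attribute [local instance 2000] Fermat.Agent.S34.EulerX0.algResFk

variable {q : ℕ} [hq : Fact q.Prime] [NeZero q] {M : ℕ} [NeZero M]
variable {A : ValuationSubring Kb} (hA : A.LiesOverPrime q) (hqM : ¬ q ∣ M)
variable [CharP (ResidueField ↥A) q] [PerfectField (ResidueField ↥A)]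

/-- the first Gauss datum: the Gauss ring of `t`-expansions at level `M q` -/
abbrev G1X0 : GaussDatum A (residue ↥A) ↥(modularFunctionFieldBar (M * q))
    ↥(modularFunctionFieldFullC (ResidueField ↥A) M) :=
  gaussDatumV₁ hA hqM

/-- the second Gauss datum: the transform of the first by `WqGalois.wq` -/
abbrev G2X0 : GaussDatum A (residue ↥A) ↥(modularFunctionFieldBar (M * q))
    ↥(modularFunctionFieldFullC (ResidueField ↥A) M) :=
  Fermat.Agent.S34.PairDictSwapX0.G₂ hq.out hqM (gaussDatumV₁ hA hqM)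

/-- **The reduction dictionary at `X₀(M q)`**, concretely. -/
theorem dX0 :
    PairDict (gaussDatum M A hA hqM) (G1X0 hA hqM) (G2X0 hA hqM) (αR M q) (βR M q)
      (fun g => phi (ResidueField ↥A) M q g) := by
  refine Fermat.Agent.S34.PairDictSwapX0.pairDict_wq hq.out hqM (gaussDatum M A hA hqM)
    (gaussDatumV₁ hA hqM) (fun g => phi (ResidueField ↥A) M q g)
    (fun g => (Fermat.Agent.S34.GaussPairX0.alpha_mem_V₁_iff hA hqM _).mpr g.2)
    (fun g => Fermat.Agent.S34.GaussPairX0.beta_mem_V₁ hA hqM g.2)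
    (fun g => Fermat.Agent.S34.GaussPairX0.red₁_alpha hA hqM g) (fun g => ?_)
  apply Subtype.ext
  rw [coe_phi]
  exact Fermat.Agent.S34.GaussPairX0.coe_red₁_beta hA hqM g

variable [HasPrincipalDivisors (ResidueField ↥A) ↥(modularFunctionFieldFullC (ResidueField ↥A) M)]
variable [IsAlgClosed (ResidueField ↥A)]

/-- **The nodes of `X₀(M q)` mod `q`, the genus inequality and the chart-0 gluing**, from
Riemann's theorem on both fields alone. -/
theorem exists_nodes_closed {g gM : ℕ}
    (HL : RiemannHyp Kb ↥(modularFunctionFieldBar (M * q)) g)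
    (HM : RiemannHyp (ResidueField ↥A) ↥(modularFunctionFieldFullC (ResidueField ↥A) M) gM) :
    ∃ S : Finset (Place (ResidueField ↥A) ↥(modularFunctionFieldFullC (ResidueField ↥A) M)),
      (∀ b ∈ S, Fr (ResidueField ↥A) M q (Fr (ResidueField ↥A) M q b) = b ∧
        b ∉ P0 (ResidueField ↥A) M) ∧
      (g : ℤ) + 1 ≤ gM + gM + S.card ∧
      ∀ h₁ h₂ : ↥(modularFunctionFieldFullC (ResidueField ↥A) M),
        h₁ ∈ regOff (P0 (ResidueField ↥A) M) → h₂ ∈ regOff (P0 (ResidueField ↥A) M) →
        ((h₁, h₂) ∈ Rbar0 (G1X0 hA hqM) (G2X0 hA hqM) (isPoleDiv_xE hqM).nonneg ↔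
          ∀ b ∈ S, ∃ c : ResidueField ↥A,
            HasValue (Fr (ResidueField ↥A) M q b) h₁ c ∧ HasValue b h₂ c) :=
  exists_nodes_final hqM hA (dX0 hA hqM) HL HM
    (Fermat.Agent.S34.Euler.HoloBridge.hJ_P0 (ResidueField ↥A) M q HM)
    (Fermat.Agent.S34.Euler.HoloBridge.hJ_P1 (ResidueField ↥A) M q HM)

omit hq [NeZero q] [CharP (ResidueField ↥A) q] [PerfectField (ResidueField ↥A)]
  [HasPrincipalDivisors (ResidueField ↥A) ↥(modularFunctionFieldFullC (ResidueField ↥A) M)]
  [IsAlgClosed (ResidueField ↥A)] in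
/-- Riemann's theorem on `ℚ̄(X₀(N))` and on `κ_M = k(X₀(M))`, `k` the residue field of `A`
(no hypothesis) -/
theorem exists_genera (A : ValuationSubring Kb) (N M : ℕ) [NeZero N] [NeZero M] :
    ∃ g gM : ℕ, RiemannHyp Kb ↥(modularFunctionFieldBar N) g ∧
      RiemannHyp (ResidueField ↥A) ↥(modularFunctionFieldFullC (ResidueField ↥A) M) gM := by
  haveI : IsAlgClosed (ResidueField ↥A) :=
    Fermat.Agent.S18.ResidueBasics.isAlgClosed_residueField A
  obtain ⟨g, HL⟩ := Fermat.Agent.S18.A.RiemannFk.exists_riemannHyp_FL N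
  obtain ⟨gM, HM⟩ := Fermat.Agent.S18.A.RiemannFk.exists_riemannHyp_Fk' (ResidueField ↥A) M
    (Fermat.Agent.S18.B.SeparableFk.isSeparable_jk (ResidueField ↥A) M)
  exact ⟨g, gM, HL, HM⟩

omit [CharP (ResidueField ↥A) q] [PerfectField (ResidueField ↥A)]
  [HasPrincipalDivisors (ResidueField ↥A) ↥(modularFunctionFieldFullC (ResidueField ↥A) M)]
  [IsAlgClosed (ResidueField ↥A)] [NeZero q] in
include hA in
/-- the four instances on `k = ResidueField A`, `κ_M` used by the Euler line -/
theorem instances_k (M : ℕ) [NeZero M] :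
    CharP (ResidueField ↥A) q ∧ PerfectField (ResidueField ↥A) ∧
      IsAlgClosed (ResidueField ↥A) ∧
      HasPrincipalDivisors (ResidueField ↥A) ↥(modularFunctionFieldFullC (ResidueField ↥A) M) := by
  haveI : IsAlgClosed (ResidueField ↥A) :=
    Fermat.Agent.S18.ResidueBasics.isAlgClosed_residueField A
  exact ⟨Fermat.Agent.S18.ResidueBasics.charP_residueField A hA, inferInstance, inferInstance,
    Fermat.Agent.S37.ReductionInputs.hasPrincipalDivisors_Fk A M⟩

/-- **The nodes of `X₀(M q)` mod `q`, the genus inequality and the chart-0 gluing**, with no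
hypothesis: the genera `g`, `gM` are those of Riemann's theorem on the two fields. -/
theorem exists_nodes_closed' :
    ∃ (g gM : ℕ) (_ : RiemannHyp Kb ↥(modularFunctionFieldBar (M * q)) g)
      (_ : RiemannHyp (ResidueField ↥A) ↥(modularFunctionFieldFullC (ResidueField ↥A) M) gM)
      (S : Finset (Place (ResidueField ↥A) ↥(modularFunctionFieldFullC (ResidueField ↥A) M))),
      (∀ b ∈ S, Fr (ResidueField ↥A) M q (Fr (ResidueField ↥A) M q b) = b ∧
        b ∉ P0 (ResidueField ↥A) M) ∧
      (g : ℤ) + 1 ≤ gM + gM + S.card ∧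
      ∀ h₁ h₂ : ↥(modularFunctionFieldFullC (ResidueField ↥A) M),
        h₁ ∈ regOff (P0 (ResidueField ↥A) M) → h₂ ∈ regOff (P0 (ResidueField ↥A) M) →
        ((h₁, h₂) ∈ Rbar0 (G1X0 hA hqM) (G2X0 hA hqM) (isPoleDiv_xE hqM).nonneg ↔
          ∀ b ∈ S, ∃ c : ResidueField ↥A,
            HasValue (Fr (ResidueField ↥A) M q b) h₁ c ∧ HasValue b h₂ c) := by
  obtain ⟨g, gM, HL, HM⟩ := exists_genera A (M * q) M
  obtain ⟨S, hS⟩ := exists_nodes_closed hA hqM HL HM
  exact ⟨g, gM, HL, HM, S, hS⟩

end Fermat.Agent.S34.EulerClosedX0
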