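/-
PROJECT U (S34): BRIDGE between the abstract pair `Z1X0.V1X0`, `Z1X0.V2X0` (chosen from the
two-extension theory) and the concrete pair `GaussPairX0.V₁`, `GaussPairX0.V₂` (t-expansions), and
between the two choices of the Atkin-Lehner involution (`GaussPairX0.wq`, `WqGalois.wq`).

* `V1X0_eq`, `V2X0_eq` : the valuation rings agree (uniqueness of the extension of each type);
* `wq_eq` : the involutions agree (uniqueness on the generators `α F`, `β F`).
-/
import Mathlib
import Fermat.Agent.S34.Z1X0
import Fermat.Agent.S34.GaussPairX0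
import Fermat.Agent.S34.WqGalois

set_option autoImplicit false
set_option linter.unusedSectionVars false

noncomputable section

namespace Fermat.Agent.S34.GaussPairBridge

open ModularCurve AlgebraicCurve
open Fermat.Agent.S34.TwoGaussX0

local notation "Kb" => AlgebraicClosure ℚ

variable {q : ℕ} [hq : Fact q.Prime] {M : ℕ} [NeZero M] {A : ValuationSubring Kb}
variable (hA : A.LiesOverPrime q) (hqM : ¬ q ∣ M) [NeZero q]

attribute [local instance] algFE

/-- the abstract type-1 valuation ring is the concrete Gauss ring of `t`-expansions -/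
theorem V1X0_eq : Fermat.Agent.S34.Z1X0.V1X0 hA hqM = Fermat.Agent.S34.GaussPairX0.V₁ hA hqM :=
  (setupX0 hA hqM).isExt₁_unique (Fermat.Agent.S34.Z1X0.isExt_V1X0 hA hqM)
    (Fermat.Agent.S34.GaussPairX0.isExt_V₁ hA hqM)

/-- the abstract type-2 valuation ring is the `w_q`-transform of the concrete Gauss ring -/
theorem V2X0_eq : Fermat.Agent.S34.Z1X0.V2X0 hA hqM = Fermat.Agent.S34.GaussPairX0.V₂ hA hqM :=
  (setupX0 hA hqM).isExt₂_unique (Fermat.Agent.S34.Z1X0.isExt_V2X0 hA hqM)
    (Fermat.Agent.S34.GaussPairX0.isExt_V₂ hA hqM)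

/-- the two choices of the Atkin-Lehner involution agree -/
theorem wq_eq : Fermat.Agent.S34.GaussPairX0.wq (q := q) (M := M) hqM =
    Fermat.Agent.S34.WqGalois.wq M q hq.out hqM := by
  refine AlgEquiv.ext fun x => ?_
  exact Fermat.Agent.S34.WqGalois.wq_unique hq.out hqM
    ((Fermat.Agent.S34.GaussPairX0.wq (q := q) (M := M) hqM :
      ↥(modularFunctionFieldBar (M * q)) ≃ₐ[Kb] ↥(modularFunctionFieldBar (M * q))) :
      ↥(modularFunctionFieldBar (M * q)) →ₐ[Kb] ↥(modularFunctionFieldBar (M * q)))
    (fun g => Fermat.Agent.S34.GaussPairX0.wq_alpha hqM g)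
    (fun g => Fermat.Agent.S34.GaussPairX0.wq_beta hqM g) x

end Fermat.Agent.S34.GaussPairBridge
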