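/-
PROJECT U (S34): CUSPS REDUCE TO CUSPS at level `M` (the `hle` of `Generic/GoodParam.poles_to_poles`
discharged at `X₀(M)`).

Abstract part.  `R : S18.CoreDefs.RedDatum A π r`, `x : R.O` such that `x` and `red x` are
separating variables of the same degree (`[F_L : L(x)] = [F_k : k(red x)]`).  Then

* `pole_to_pole` : every pole of `x` specialises to a pole of `red x`;
* `regOn_of_nonneg` : `x` is regular on the residue disc of every place at which `red x` is regular;
* `zero_to_zero` : every zero of `x` specialises to a zero of `red x`;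
* `regOn_inv_of_nonpos` : `x⁻¹` is regular on the residue disc of every place at which `red x` has
  no zero.

At `X₀(M)` (`H : S37.Deuring.Core.Hyp (gaussDatum M A hA hqM) gL gk`, `R := redDatum H`,
`r := placeMap H`, `x := j`, `red x = jk`; degree equality = `S37.Deuring.HypX0.finrank_eq`):
`pole_to_pole_jgen`, `regOn_jgen`, `zero_to_zero_jgen`, `regOn_inv_jgen`, and the cusp divisor
`cuspDiv M` (`= (j)_∞`, of positive degree) with `placeMap_mem_cusp_of_cuspDiv_ne_zero`.
-/
import Mathlib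
import Fermat.Agent.S34.Generic.GoodParam
import Fermat.Agent.S37.Deuring.HypX0
import Fermat.Agent.S18.A.FibreSep
import Fermat.Agent.S18.A.Instances
import Fermat.Agent.S18.B.SeparableFk

set_option autoImplicit false
set_option linter.unusedSectionVars false
set_option linter.style.haveILetI false

noncomputable section

namespace Fermat.Agent.S34.CuspRedX0

open AlgebraicCurve IntermediateField
open Fermat.Agent.S24.FF Fermat.Agent.S24.Ord
open Fermat.Agent.S18.CoreDefs Fermat.Agent.S18.Disc Fermat.Agent.S18.A.FibreSep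

/-! ### the abstract statement -/

section Abstract

variable {L : Type*} [Field L] {FL : Type*} [Field FL] [Algebra L FL]
variable {k : Type*} [Field k] {Fk : Type*} [Field Fk] [Algebra k Fk]
variable {A : ValuationSubring L} {π : A →+* k} {r : Place L FL → Place k Fk}
variable [HasPrincipalDivisors L FL] [IsAlgClosed L] [IsAlgClosed k]
variable (R : RedDatum A π r) (x : R.O)
  (hx : IsFF L ((x : R.O) : FL)) (hsep : Algebra.IsSeparable L⟮((x : R.O) : FL)⟯ FL)
  (hxk : IsFF k (R.red x)) (hsepk : Algebra.IsSeparable k⟮R.red x⟯ Fk)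
  (hfr : Module.finrank L⟮((x : R.O) : FL)⟯ FL = Module.finrank k⟮R.red x⟯ Fk)

include hx hsep hxk hsepk hfr

/-- every pole of `x` specialises to a pole of `red x` -/
theorem pole_to_pole (P : Place L FL) (hP : P.ord ((x : R.O) : FL) < 0) :
    (r P).ord (R.red x) < 0 := by
  refine Fermat.Agent.S34.Generic.GoodParam.poles_to_poles R x hxk.ne_zero (poles hx hsep)
    (mem_poles_iff_ord_neg hx hsep) (poles hxk hsepk) (mem_poles_iff_ord_neg hxk hsepk) ?_ P hP
  rw [sum_poles hx hsep, sum_poles hxk hsepk, hfr]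

/-- `x` is regular on the residue disc of every place at which `red x` is regular -/
theorem regOn_of_nonneg (Q : Place k Fk) (hQ : 0 ≤ Q.ord (R.red x)) :
    RegOn r ((x : R.O) : FL) Q := by
  refine regOn_of_ord_nonneg fun P hP => ?_
  by_contra hneg
  have h := pole_to_pole R x hx hsep hxk hsepk hfr P (not_le.mp hneg)
  rw [hP] at h
  omega

/-- the inverse of `x` in `R.O` (`red x ≠ 0`, so `x` is a unit) -/
theorem inv_mem : (((x : R.O) : FL))⁻¹ ∈ R.O := by
  have hu : IsUnit x := by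
    by_contra h
    exact hxk.ne_zero ((R.red_eq_zero_iff x).mpr h)
  obtain ⟨u, hu⟩ := hu
  have h1 : (((u⁻¹ : R.Oˣ) : R.O) : FL) = (((x : R.O) : FL))⁻¹ := by
    have h2 : ((x : R.O) : FL) * (((u⁻¹ : R.Oˣ) : R.O) : FL) = 1 := by
      rw [← hu]
      have h3 : ((u : R.O) * ((u⁻¹ : R.Oˣ) : R.O) : R.O) = 1 := u.mul_inv
      have h4 := congrArg (fun z : R.O => (z : FL)) h3
      exact h4
    exact eq_inv_of_mul_eq_one_right h2
  rw [← h1]
  exact (((u⁻¹ : R.Oˣ) : R.O)).2

theorem red_inv :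
    R.red ⟨(((x : R.O) : FL))⁻¹, inv_mem R x hx hsep hxk hsepk hfr⟩ = (R.red x)⁻¹ := by
  have h : x * ⟨(((x : R.O) : FL))⁻¹, inv_mem R x hx hsep hxk hsepk hfr⟩ = 1 := by
    apply Subtype.ext
    change ((x : R.O) : FL) * (((x : R.O) : FL))⁻¹ = 1
    exact mul_inv_cancel₀ hx.ne_zero
  have h2 := congrArg R.red h
  rw [map_mul, map_one] at h2
  exact eq_inv_of_mul_eq_one_right h2

/-- every zero of `x` specialises to a zero of `red x` -/
theorem zero_to_zero (P : Place L FL) (hP : 0 < P.ord ((x : R.O) : FL)) :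
    0 < (r P).ord (R.red x) := by
  have hinv := inv_mem R x hx hsep hxk hsepk hfr
  have hred := red_inv R x hx hsep hxk hsepk hfr
  set y : R.O := ⟨(((x : R.O) : FL))⁻¹, hinv⟩ with hy
  have hy0 : R.red y ≠ 0 := by
    rw [hred]
    exact inv_ne_zero hxk.ne_zero
  have hSL : ∀ P : Place L FL, P ∈ zeros hx hsep 0 ↔ P.ord ((y : R.O) : FL) < 0 := by
    intro P
    have h := mem_zeros_iff_ord_pos hx hsep 0 P
    rw [map_zero, sub_zero] at h
    rw [h]
    change _ ↔ P.ord (((x : R.O) : FL))⁻¹ < 0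
    rw [Place.ord_inv]
    omega
  have hSk : ∀ Q : Place k Fk, Q ∈ zeros hxk hsepk 0 ↔ Q.ord (R.red y) < 0 := by
    intro Q
    have h := mem_zeros_iff_ord_pos hxk hsepk 0 Q
    rw [map_zero, sub_zero] at h
    rw [h, hred, Place.ord_inv]
    omega
  have hle : ∑ P ∈ zeros hx hsep 0, - P.ord ((y : R.O) : FL) ≤
      ∑ Q ∈ zeros hxk hsepk 0, - Q.ord (R.red y) := by
    have h1 : ∑ P ∈ zeros hx hsep 0, - P.ord ((y : R.O) : FL) =
        (Module.finrank L⟮((x : R.O) : FL)⟯ FL : ℤ) := by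
      rw [← sum_zeros hx hsep 0]
      refine Finset.sum_congr rfl fun P _ => ?_
      change - P.ord (((x : R.O) : FL))⁻¹ = _
      rw [Place.ord_inv, map_zero, sub_zero, neg_neg]
    have h2 : ∑ Q ∈ zeros hxk hsepk 0, - Q.ord (R.red y) =
        (Module.finrank k⟮R.red x⟯ Fk : ℤ) := by
      rw [← sum_zeros hxk hsepk 0]
      refine Finset.sum_congr rfl fun Q _ => ?_
      rw [hred, Place.ord_inv, map_zero, sub_zero, neg_neg]
    rw [h1, h2, hfr]
  have hPy : P.ord ((y : R.O) : FL) < 0 := by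
    change P.ord (((x : R.O) : FL))⁻¹ < 0
    rw [Place.ord_inv]
    omega
  have h := Fermat.Agent.S34.Generic.GoodParam.poles_to_poles R y hy0 (zeros hx hsep 0) hSL
    (zeros hxk hsepk 0) hSk hle P hPy
  rw [hred, Place.ord_inv] at h
  omega

/-- `x⁻¹` is regular on the residue disc of every place at which `red x` has no zero -/
theorem regOn_inv_of_nonpos (Q : Place k Fk) (hQ : Q.ord (R.red x) ≤ 0) :
    RegOn r (((x : R.O) : FL))⁻¹ Q := by
  refine regOn_of_ord_nonneg fun P hP => ?_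
  rw [Place.ord_inv]
  by_contra hneg
  have h := zero_to_zero R x hx hsep hxk hsepk hfr P (by omega)
  rw [hP] at h
  omega

end Abstract

/-! ### the same, with the element and its reduction given up to equality -/

section Abstract'

variable {L : Type*} [Field L] {FL : Type*} [Field FL] [Algebra L FL]
variable {k : Type*} [Field k] {Fk : Type*} [Field Fk] [Algebra k Fk]
variable {A : ValuationSubring L} {π : A →+* k} {r : Place L FL → Place k Fk}
variable [HasPrincipalDivisors L FL] [IsAlgClosed L] [IsAlgClosed k]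
variable (R : RedDatum A π r) (x : R.O) {xL : FL} (hxL : ((x : R.O) : FL) = xL) {xk : Fk}
  (hxk' : R.red x = xk)
  (hx : IsFF L xL) (hsep : Algebra.IsSeparable L⟮xL⟯ FL)
  (hxk : IsFF k xk) (hsepk : Algebra.IsSeparable k⟮xk⟯ Fk)
  (hfr : Module.finrank L⟮xL⟯ FL = Module.finrank k⟮xk⟯ Fk)

include hxL hxk' hx hsep hxk hsepk hfr

theorem pole_to_pole' (P : Place L FL) (hP : P.ord xL < 0) : (r P).ord xk < 0 := by
  subst hxL; subst hxk'
  exact pole_to_pole R x hx hsep hxk hsepk hfr P hP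

theorem regOn_of_nonneg' (Q : Place k Fk) (hQ : 0 ≤ Q.ord xk) : RegOn r xL Q := by
  subst hxL; subst hxk'
  exact regOn_of_nonneg R x hx hsep hxk hsepk hfr Q hQ

theorem zero_to_zero' (P : Place L FL) (hP : 0 < P.ord xL) : 0 < (r P).ord xk := by
  subst hxL; subst hxk'
  exact zero_to_zero R x hx hsep hxk hsepk hfr P hP

theorem regOn_inv_of_nonpos' (Q : Place k Fk) (hQ : Q.ord xk ≤ 0) : RegOn r xL⁻¹ Q := by
  subst hxL; subst hxk'
  exact regOn_inv_of_nonpos R x hx hsep hxk hsepk hfr Q hQ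

theorem inv_mem' : xL⁻¹ ∈ R.O := by
  subst hxL; subst hxk'
  exact inv_mem R x hx hsep hxk hsepk hfr

theorem red_inv' (h : xL⁻¹ ∈ R.O) : R.red ⟨xL⁻¹, h⟩ = xk⁻¹ := by
  subst hxL; subst hxk'
  exact red_inv R x hx hsep hxk hsepk hfr

end Abstract'

/-! ### `X₀(M)` -/

section X0

open ModularCurve IsLocalRing Fermat.Agent.S37.Deuring.Core Fermat.Agent.S37.Deuring.HypX0
  Fermat.Agent.S37.Gauss.Datum Fermat.Agent.S18.B.FkBasics Fermat.Agent.S24.DegreeAlg

local notation "Kb" => AlgebraicClosure ℚ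

variable {M : ℕ} [NeZero M] {q : ℕ} [hq : Fact q.Prime] {A : ValuationSubring Kb}
  (hA : A.LiesOverPrime q) (hqM : ¬ q ∣ M)

/-- the cusp divisor `(j)_∞` of `ℚ̄(X₀(M))` -/
def cuspDiv (M : ℕ) [NeZero M] : Divisor Kb ↥(modularFunctionFieldBar M) :=
  poleDiv (Fermat.Agent.S18.A.Instances.isFF_jgen M)
    (Fermat.Agent.S18.A.Instances.isSeparable_jgen M)

theorem cuspDiv_apply (P : Place Kb ↥(modularFunctionFieldBar M)) :
    cuspDiv M P = max (-P.ord (jgen M)) 0 :=
  poleDiv_apply _ _ P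

theorem cuspDiv_ne_zero_iff (P : Place Kb ↥(modularFunctionFieldBar M)) :
    cuspDiv M P ≠ 0 ↔ P.ord (jgen M) < 0 := by
  rw [cuspDiv_apply]
  omega

theorem cuspDiv_nonneg : 0 ≤ cuspDiv M := by
  rw [Finsupp.le_def]
  intro P
  rw [cuspDiv_apply]
  simp

theorem degree_cuspDiv :
    Divisor.degree (cuspDiv M) =
      (Module.finrank Kb⟮jgen M⟯ ↥(modularFunctionFieldBar M) : ℤ) :=
  degree_poleDiv _ _

theorem degree_cuspDiv_pos : 0 < Divisor.degree (cuspDiv M) := by
  rw [degree_cuspDiv]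
  haveI := (Fermat.Agent.S18.A.Instances.isFF_jgen M).finite
  exact_mod_cast (Module.finrank_pos :
    0 < Module.finrank Kb⟮jgen M⟯ ↥(modularFunctionFieldBar M))

variable [HasPrincipalDivisors Kb ↥(modularFunctionFieldBar M)]
  [HasPrincipalDivisors (ResidueField ↥A) ↥(modularFunctionFieldFullC (ResidueField ↥A) M)]
  [Infinite (ResidueField ↥A)]
variable {gL gk : ℕ} (H : Hyp (gaussDatum M A hA hqM) gL gk)

/-- **cusps reduce to cusps**: every pole of `j` specialises to a pole of `j̄`. -/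
theorem pole_to_pole_jgen (P : Place Kb ↥(modularFunctionFieldBar M))
    (hP : P.ord (jgen M) < 0) : (placeMap H P).ord (jk (ResidueField ↥A) M) < 0 := by
  haveI : IsAlgClosed (ResidueField ↥A) := Fermat.Agent.S18.ResidueBasics.isAlgClosed_residueField A
  exact pole_to_pole' (redDatum H) (jO hA hqM) (coe_jO hA hqM) (red_jO hA hqM)
    (Fermat.Agent.S18.A.Instances.isFF_jgen M) (Fermat.Agent.S18.A.Instances.isSeparable_jgen M)
    (Fermat.Agent.S18.B.FkBasics.isFF (ResidueField ↥A) M)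
    (Fermat.Agent.S18.B.SeparableFk.isSeparable_jk (ResidueField ↥A) M) (finrank_eq hA hqM) P hP

/-- `j` is regular on every non-cuspidal residue disc. -/
theorem regOn_jgen (Q : Place (ResidueField ↥A) ↥(modularFunctionFieldFullC (ResidueField ↥A) M))
    (hQ : 0 ≤ Q.ord (jk (ResidueField ↥A) M)) : RegOn (placeMap H) (jgen M) Q := by
  haveI : IsAlgClosed (ResidueField ↥A) := Fermat.Agent.S18.ResidueBasics.isAlgClosed_residueField A
  exact regOn_of_nonneg' (redDatum H) (jO hA hqM) (coe_jO hA hqM) (red_jO hA hqM)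
    (Fermat.Agent.S18.A.Instances.isFF_jgen M) (Fermat.Agent.S18.A.Instances.isSeparable_jgen M)
    (Fermat.Agent.S18.B.FkBasics.isFF (ResidueField ↥A) M)
    (Fermat.Agent.S18.B.SeparableFk.isSeparable_jk (ResidueField ↥A) M) (finrank_eq hA hqM) Q hQ

/-- every zero of `j` specialises to a zero of `j̄`. -/
theorem zero_to_zero_jgen (P : Place Kb ↥(modularFunctionFieldBar M))
    (hP : 0 < P.ord (jgen M)) : 0 < (placeMap H P).ord (jk (ResidueField ↥A) M) := by
  haveI : IsAlgClosed (ResidueField ↥A) := Fermat.Agent.S18.ResidueBasics.isAlgClosed_residueField A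
  exact zero_to_zero' (redDatum H) (jO hA hqM) (coe_jO hA hqM) (red_jO hA hqM)
    (Fermat.Agent.S18.A.Instances.isFF_jgen M) (Fermat.Agent.S18.A.Instances.isSeparable_jgen M)
    (Fermat.Agent.S18.B.FkBasics.isFF (ResidueField ↥A) M)
    (Fermat.Agent.S18.B.SeparableFk.isSeparable_jk (ResidueField ↥A) M) (finrank_eq hA hqM) P hP

/-- `1 / j` is regular on the residue disc of every place at which `j̄` has no zero (in particular
on the cuspidal discs). -/
theorem regOn_inv_jgen
    (Q : Place (ResidueField ↥A) ↥(modularFunctionFieldFullC (ResidueField ↥A) M))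
    (hQ : Q.ord (jk (ResidueField ↥A) M) ≤ 0) : RegOn (placeMap H) (jgen M)⁻¹ Q := by
  haveI : IsAlgClosed (ResidueField ↥A) := Fermat.Agent.S18.ResidueBasics.isAlgClosed_residueField A
  exact regOn_inv_of_nonpos' (redDatum H) (jO hA hqM) (coe_jO hA hqM) (red_jO hA hqM)
    (Fermat.Agent.S18.A.Instances.isFF_jgen M) (Fermat.Agent.S18.A.Instances.isSeparable_jgen M)
    (Fermat.Agent.S18.B.FkBasics.isFF (ResidueField ↥A) M)
    (Fermat.Agent.S18.B.SeparableFk.isSeparable_jk (ResidueField ↥A) M) (finrank_eq hA hqM) Q hQ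

include H in
/-- `1 / j` is Gauss-integral and reduces to `1 / j̄`. -/
theorem inv_jgen_mem_O : (jgen M)⁻¹ ∈ (gaussDatum M A hA hqM).O := by
  haveI : IsAlgClosed (ResidueField ↥A) := Fermat.Agent.S18.ResidueBasics.isAlgClosed_residueField A
  exact inv_mem' (redDatum H) (jO hA hqM) (coe_jO hA hqM) (red_jO hA hqM)
    (Fermat.Agent.S18.A.Instances.isFF_jgen M) (Fermat.Agent.S18.A.Instances.isSeparable_jgen M)
    (Fermat.Agent.S18.B.FkBasics.isFF (ResidueField ↥A) M)
    (Fermat.Agent.S18.B.SeparableFk.isSeparable_jk (ResidueField ↥A) M) (finrank_eq hA hqM)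

include H in
theorem red_inv_jgen (h : (jgen M)⁻¹ ∈ (gaussDatum M A hA hqM).O) :
    (gaussDatum M A hA hqM).red ⟨(jgen M)⁻¹, h⟩ = (jk (ResidueField ↥A) M)⁻¹ := by
  haveI : IsAlgClosed (ResidueField ↥A) := Fermat.Agent.S18.ResidueBasics.isAlgClosed_residueField A
  exact red_inv' (redDatum H) (jO hA hqM) (coe_jO hA hqM) (red_jO hA hqM)
    (Fermat.Agent.S18.A.Instances.isFF_jgen M) (Fermat.Agent.S18.A.Instances.isSeparable_jgen M)
    (Fermat.Agent.S18.B.FkBasics.isFF (ResidueField ↥A) M)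
    (Fermat.Agent.S18.B.SeparableFk.isSeparable_jk (ResidueField ↥A) M) (finrank_eq hA hqM) h

/-- the `hcusp` of `MultOfAlpha.mult_of_alpha` for `C := cuspDiv M`,
`cusp := {Q | Q.ord j̄ < 0}` -/
theorem placeMap_mem_cusp (PM : Place Kb ↥(modularFunctionFieldBar M))
    (hPM : cuspDiv M PM ≠ 0) :
    placeMap H PM ∈ {Q : Place (ResidueField ↥A)
      ↥(modularFunctionFieldFullC (ResidueField ↥A) M) | Q.ord (jk (ResidueField ↥A) M) < 0} :=
  pole_to_pole_jgen hA hqM H PM ((cuspDiv_ne_zero_iff PM).mp hPM)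

end X0

end Fermat.Agent.S34.CuspRedX0
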