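/-
PROJECT U (S34), ROUTE G: **the node set does not depend on the chart** (multiplier trick).

The sandwich (G3) is run on a CHART: `B₀` = integral functions with poles only over a fixed finite
set (chart 0: the cusps), and produces the nodes of that chart.  The nodal core needs the gluing at
THOSE nodes for every ADMISSIBLE function `h` (poles over generic discs).  This follows by
multiplying `h` with a function `y = α(G) ∈ B₀` that kills the poles of `h` and does not vanish at
the node:

* `glue_of_multiplier` (abstract, `GlueG` vocabulary): if the node glues `B₀`, the evaluations are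
  local, and every `h ∈ B` has a multiplier `y ∈ B₀` with `y h ∈ B₀`, `e₁ y ≠ 0`, then the node
  glues `B`  (conclusion = `hglue` of `GlueG.nodeSetup_lam`);
* `exists_multiplier` (level `M`, hypotheses-first on `S18.CoreDefs.RedDatum` + Riemann on both
  sides + general orthonormal bases `OBGen`): for effective divisors `C` (`deg C > 0`) and `E` and a
  place `Q₀` of the residue function field with no point of `supp C ∪ supp E` in its disc, there are
  `n` and `G ∈ O ∩ L(n C - E)` whose reduction is regular and non-zero at `Q₀`;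
* `exists_alpha_multiplier` (level `qM` along `α`, vocabulary of `Generic/Compat.Restr`): for `h`
  with no pole over the disc of `Q₀` there is `G ∈ O_M` with `red G (Q₀) ≠ 0`, poles only on
  `supp C`, such that `α(G) h` has poles only over `supp C`.
-/
import Mathlib
import Fermat.Agent.S34.GlueG
import Fermat.Agent.S34.Generic.Compat
import Fermat.Agent.S18.NonSpecial

set_option autoImplicit false
set_option linter.unusedSectionVars false
set_option linter.style.haveILetI false

noncomputable section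

namespace Fermat.Agent.S34.NodeTransfer

open AlgebraicCurve Fermat.Agent.S18.CoreDefs Fermat.Agent.S18.NonSpecial
open Fermat.Agent.S34.GlueG Fermat.Agent.S34.Generic.Compat

/-! ### Part 1: the abstract transfer -/

section Abstract

variable {F : Type*} [Field F] {k : Type*} [Field k]

/-- **Node transfer.**  If the node `(V₁, V₂, e₁, e₂)` glues every element of `B₀`, and every
`h ∈ B` admits a multiplier `y ∈ B₀` with `y * h ∈ B₀` and `e₁ y ≠ 0`, then the node glues every
element of `B`. -/
theorem glue_of_multiplier (V₁ V₂ : Subring F) (e₁ : V₁ →+* k) (e₂ : V₂ →+* k)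
    (hloc₁ : ∀ x : F, x ∈ V₁ → ev V₁ e₁ x ≠ 0 → x⁻¹ ∈ V₁)
    (hloc₂ : ∀ x : F, x ∈ V₂ → ev V₂ e₂ x ≠ 0 → x⁻¹ ∈ V₂)
    (B₀ B : Set F)
    (hglue₀ : ∀ h ∈ B₀, h ∈ V₁ ∧ h ∈ V₂ ∧ ev V₁ e₁ h = ev V₂ e₂ h)
    (hmult : ∀ h ∈ B, ∃ y ∈ B₀, y * h ∈ B₀ ∧ ev V₁ e₁ y ≠ 0) :
    ∀ h ∈ B, h ∈ V₁ ∧ h ∈ V₂ ∧ ev V₁ e₁ h = ev V₂ e₂ h := by
  intro h hh
  obtain ⟨y, hy0, hyh0, hy1⟩ := hmult h hh
  obtain ⟨hyV1, hyV2, hyev⟩ := hglue₀ y hy0
  obtain ⟨hyhV1, hyhV2, hyhev⟩ := hglue₀ _ hyh0
  have hy2 : ev V₂ e₂ y ≠ 0 := hyev ▸ hy1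
  have hyne : y ≠ 0 := by
    rintro rfl
    exact hy1 ev_zero
  have hh1 : h ∈ V₁ := by
    have := V₁.mul_mem (hloc₁ y hyV1 hy1) hyhV1
    rwa [← mul_assoc, inv_mul_cancel₀ hyne, one_mul] at this
  have hh2 : h ∈ V₂ := by
    have := V₂.mul_mem (hloc₂ y hyV2 hy2) hyhV2
    rwa [← mul_assoc, inv_mul_cancel₀ hyne, one_mul] at this
  refine ⟨hh1, hh2, ?_⟩
  rw [ev_mul hyV1 hh1, ev_mul hyV2 hh2, hyev] at hyhev
  exact mul_left_cancel₀ hy2 hyhev

/-- the same for subrings, in the exact shape of `GlueG.nodeSetup_lam` -/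
theorem glue_of_multiplier' (V₁ V₂ : ValuationSubring F) (e₁ : V₁.toSubring →+* k)
    (e₂ : V₂.toSubring →+* k)
    (hloc₁ : ∀ x : F, x ∈ V₁ → ev V₁.toSubring e₁ x ≠ 0 → x⁻¹ ∈ V₁)
    (hloc₂ : ∀ x : F, x ∈ V₂ → ev V₂.toSubring e₂ x ≠ 0 → x⁻¹ ∈ V₂)
    (B₀ : Set F) (𝒬 : Set (ValuationSubring F))
    (hglue₀ : ∀ h ∈ B₀, h ∈ V₁ ∧ h ∈ V₂ ∧ ev V₁.toSubring e₁ h = ev V₂.toSubring e₂ h)
    (hmult : ∀ h ∈ ringB 𝒬, ∃ y ∈ B₀, y * h ∈ B₀ ∧ ev V₁.toSubring e₁ y ≠ 0) :
    ∀ h ∈ ringB 𝒬, h ∈ V₁ ∧ h ∈ V₂ ∧ ev V₁.toSubring e₁ h = ev V₂.toSubring e₂ h :=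
  glue_of_multiplier V₁.toSubring V₂.toSubring e₁ e₂ hloc₁ hloc₂ B₀ (ringB 𝒬 : Set F) hglue₀ hmult

end Abstract

/-! ### Part 2: the multiplier at level `M` -/

section LevelM

variable {L : Type*} [Field L] {FM : Type*} [Field FM] [Algebra L FM]
variable {k : Type*} [Field k] {Fk : Type*} [Field Fk] [Algebra k Fk]
variable {A : ValuationSubring L} {π : A →+* k} {r : Place L FM → Place k Fk}

/-- general orthonormal bases: every finite-dimensional subspace of `FM` contains as many integral
elements with `k`-independent reductions as its dimension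
(`S37/Deuring/OrthoBasis2.exists_red_independent_of_basis`). -/
def OBGen (R : RedDatum A π r) : Prop :=
  ∀ (W : Submodule L FM) [FiniteDimensional L W],
    ∃ g : Fin (Module.finrank L W) → R.O, (∀ j, ((g j : R.O) : FM) ∈ W) ∧
      LinearIndependent k fun j => R.red (g j)

theorem mapDomain_nonneg {α β : Type*} (f : α → β) {v : α →₀ ℤ} (hv : 0 ≤ v) :
    0 ≤ Finsupp.mapDomain f v := by
  classical
  rw [Finsupp.le_def]
  intro b
  rw [Finsupp.mapDomain, Finsupp.sum_apply]
  simp only [Finsupp.coe_zero, Pi.zero_apply]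
  refine Finset.sum_nonneg fun a _ => ?_
  show 0 ≤ (Finsupp.single (f a) (v a)) b
  rw [Finsupp.single_apply]
  split_ifs
  · exact Finsupp.le_def.mp hv a
  · exact le_rfl

theorem mapDomain_apply_eq_zero {α β : Type*} (f : α → β) (v : α →₀ ℤ) (b : β)
    (h : ∀ a, v a ≠ 0 → f a ≠ b) : Finsupp.mapDomain f v b = 0 := by
  classical
  rw [Finsupp.mapDomain, Finsupp.sum_apply]
  refine Finset.sum_eq_zero fun a ha => ?_
  show (Finsupp.single (f a) (v a)) b = 0
  rw [Finsupp.single_apply, if_neg (h a (Finsupp.mem_support_iff.mp ha))]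

theorem degree_mapDomain (hL : ∀ v : Place L FM, v.deg = 1) (hk : ∀ v : Place k Fk, v.deg = 1)
    (D : Divisor L FM) : Divisor.degree (Finsupp.mapDomain r D) = Divisor.degree D := by
  classical
  induction D using Finsupp.induction_linear with
  | zero => simp
  | add D D' h h' => rw [Finsupp.mapDomain_add, map_add, map_add, h, h']
  | single P n =>
    rw [Finsupp.mapDomain_single, Divisor.degree_single, Divisor.degree_single, hL, hk]

variable [HasPrincipalDivisors L FM]

/-- the reduction of `O ∩ L(D)` lies in `L(r_* D)` -/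
theorem red_mem_riemannRochSpace (R : RedDatum A π r) (D : Divisor L FM) (f : R.O)
    (hf : (f : FM) ∈ riemannRochSpace D) :
    R.red f ∈ riemannRochSpace (Finsupp.mapDomain r D) := by
  classical
  by_cases h0 : R.red f = 0
  · rw [h0]
    exact Submodule.zero_mem _
  have hu : IsUnit f := not_not.mp fun h => h0 ((R.red_eq_zero_iff f).mpr h)
  have hf0 : (f : FM) ≠ 0 := by
    intro h
    apply h0
    have : f = 0 := Subtype.ext h
    rw [this, map_zero]
  obtain ⟨Df, hDf, -⟩ := HasPrincipalDivisors.exists_divisor (K := L) (f : FM) hf0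
  have hcompat := R.compat hu.unit Df (fun P => by rw [hDf P, IsUnit.unit_spec])
  rw [IsUnit.unit_spec] at hcompat
  rw [mem_riemannRochSpace_iff] at hf ⊢
  intro Q
  right
  rw [← hcompat Q]
  have hnn : 0 ≤ Df + D := by
    rw [Finsupp.le_def]
    intro P
    rw [Finsupp.add_apply, hDf P]
    have := (hf P).resolve_left hf0
    simp only [Finsupp.coe_zero, Pi.zero_apply]
    omega
  have := Finsupp.le_def.mp (mapDomain_nonneg r hnn) Q
  rw [Finsupp.mapDomain_add, Finsupp.add_apply] at this
  simp only [Finsupp.coe_zero, Pi.zero_apply] at this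
  omega

/-- **The multiplier at level `M`.**  For effective `C` of positive degree, effective `E`, and a
place `Q₀` of `Fk` whose disc contains no point of `supp C ∪ supp E`: for some `n` there is
`G ∈ O ∩ L(n C - E)` whose reduction is non-zero and has neither zero nor pole at `Q₀`. -/
theorem exists_multiplier {g : ℕ} (R : RedDatum A π r) (hπ : Function.Surjective π)
    (HL : RiemannHyp L FM g) (HK : RiemannHyp k Fk g) (hOB : OBGen R)
    (C : Divisor L FM) (hCdeg : 0 < Divisor.degree C) (E : Divisor L FM)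
    (Q₀ : Place k Fk) (hQC : ∀ P, C P ≠ 0 → r P ≠ Q₀) (hQE : ∀ P, E P ≠ 0 → r P ≠ Q₀) :
    ∃ (n : ℕ) (G : R.O), ((G : R.O) : FM) ∈ riemannRochSpace ((n : ℤ) • C - E) ∧
      R.red G ≠ 0 ∧ Q₀.ord (R.red G) = 0 := by
  classical
  obtain ⟨cL, hcL⟩ := HL.riemann_eq
  obtain ⟨cK, hcK⟩ := HK.riemann_eq
  -- choose `n` with `deg (n C - E)` large
  set d := Divisor.degree C with hd
  set e := Divisor.degree E with he
  obtain ⟨n, hn⟩ : ∃ n : ℕ, max cL (cK + 1) + e ≤ (n : ℤ) * d := by
    refine ⟨(max cL (cK + 1) + e).toNat, ?_⟩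
    have h1 : max cL (cK + 1) + e ≤ ((max cL (cK + 1) + e).toNat : ℤ) := Int.self_le_toNat _
    have h2 : (((max cL (cK + 1) + e).toNat : ℤ)) ≤ ((max cL (cK + 1) + e).toNat : ℤ) * d := by
      have h3 : (0 : ℤ) ≤ ((max cL (cK + 1) + e).toNat : ℤ) := Int.natCast_nonneg _
      nlinarith
    exact h1.trans h2
  set D : Divisor L FM := (n : ℤ) • C - E with hD
  have hdegD : Divisor.degree D = n * d - e := by
    rw [hD, map_sub, map_zsmul, smul_eq_mul]
  set Db : Divisor k Fk := Finsupp.mapDomain r D with hDb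
  have hdegDb : Divisor.degree Db = n * d - e := by
    rw [hDb, degree_mapDomain HL.deg_one HK.deg_one, hdegD]
  have hDbQ : Db Q₀ = 0 := by
    rw [hDb]
    refine mapDomain_apply_eq_zero r D Q₀ fun P hP => ?_
    by_contra hr
    apply hP
    have h1 : C P = 0 := by
      by_contra h
      exact hQC P h hr
    have h2 : E P = 0 := by
      by_contra h
      exact hQE P h hr
    rw [hD, Finsupp.sub_apply, Finsupp.smul_apply, h1, h2]
    simp
  -- dimensions
  have hellD : (ell D : ℤ) = n * d - e + 1 - g := by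
    rw [hcL D (by rw [hdegD]; have := le_max_left cL (cK + 1); omega), hdegD]
  have hellDb : (ell Db : ℤ) = n * d - e + 1 - g := by
    rw [hcK Db (by rw [hdegDb]; have := le_max_right cL (cK + 1); omega), hdegDb]
  have hellDb' : (ell (Db - Finsupp.single Q₀ 1) : ℤ) = n * d - e - 1 + 1 - g := by
    have hdeg' : Divisor.degree (Db - Finsupp.single Q₀ 1) = n * d - e - 1 := by
      rw [map_sub, hdegDb, Divisor.degree_single, HK.deg_one]
      simp
    rw [hcK _ (by rw [hdeg']; have := le_max_right cL (cK + 1); omega), hdeg']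
  -- integral elements with independent reductions
  haveI := HL.finite D
  haveI := HK.finite Db
  obtain ⟨gs, hgsW, hgsli⟩ := hOB (riemannRochSpace D)
  have hmem : ∀ j, R.red (gs j) ∈ riemannRochSpace Db := fun j =>
    red_mem_riemannRochSpace R D (gs j) (hgsW j)
  -- the reductions span `L(Db)`
  let gs' : Fin (Module.finrank L (riemannRochSpace D)) → riemannRochSpace Db :=
    fun j => ⟨R.red (gs j), hmem j⟩
  have hgs'li : LinearIndependent k gs' := by
    apply LinearIndependent.of_comp (riemannRochSpace Db).subtype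
    exact hgsli
  have hcard : Fintype.card (Fin (Module.finrank L (riemannRochSpace D))) =
      Module.finrank k (riemannRochSpace Db) := by
    rw [Fintype.card_fin]
    have h1 : (Module.finrank L (riemannRochSpace D) : ℤ) = ell D := rfl
    have h2 : (Module.finrank k (riemannRochSpace Db) : ℤ) = ell Db := rfl
    have : (Module.finrank L (riemannRochSpace D) : ℤ) =
        Module.finrank k (riemannRochSpace Db) := by rw [h1, h2, hellD, hellDb]
    exact_mod_cast this
  have hspan : ⊤ ≤ Submodule.span k (Set.range gs') :=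
    (hgs'li.span_eq_top_of_card_eq_finrank' hcard).ge
  -- an element of `L(Db)` outside `L(Db - Q₀)`
  have hlt : riemannRochSpace (Db - Finsupp.single Q₀ 1) < riemannRochSpace Db := by
    have hle : riemannRochSpace (Db - Finsupp.single Q₀ 1) ≤ riemannRochSpace Db :=
      riemannRochSpace_mono (sub_le_self _ (single_nonneg Q₀))
    refine lt_of_le_of_ne hle fun heq => ?_
    have h1 : ell (Db - Finsupp.single Q₀ 1) = ell Db := by
      unfold ell
      rw [heq]
    have h2 : (ell (Db - Finsupp.single Q₀ 1) : ℤ) = ell Db := by rw [h1]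
    rw [hellDb, hellDb'] at h2
    omega
  obtain ⟨y, hyDb, hynot⟩ := SetLike.exists_of_lt hlt
  -- lift `y`
  have hy' : (⟨y, hyDb⟩ : riemannRochSpace Db) ∈ Submodule.span k (Set.range gs') :=
    hspan Submodule.mem_top
  obtain ⟨c, hc⟩ := (Submodule.mem_span_range_iff_exists_fun k).mp hy'
  choose a ha using fun j => hπ (c j)
  let aO : Fin (Module.finrank L (riemannRochSpace D)) → R.O :=
    fun j => ⟨algebraMap L FM ((a j : A) : L), R.algebraMap_mem (a j)⟩
  set G : R.O := ∑ j, aO j * gs j with hG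
  have hredG : R.red G = y := by
    rw [hG, map_sum]
    have h1 : ∀ j, R.red (aO j * gs j) = c j • R.red (gs j) := by
      intro j
      rw [map_mul, R.red_algebraMap, ha j, Algebra.smul_def]
    simp only [h1]
    have h2 := congrArg Subtype.val hc
    rw [AddSubmonoidClass.coe_finsetSum] at h2
    simpa using h2
  have hGmem : ((G : R.O) : FM) ∈ riemannRochSpace D := by
    have h1 : ((G : R.O) : FM) = ∑ j, ((a j : A) : L) • ((gs j : R.O) : FM) := by
      rw [hG]
      push_cast
      refine Finset.sum_congr rfl fun j _ => ?_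
      rw [Algebra.smul_def]
    rw [h1]
    exact Submodule.sum_mem _ fun j _ => Submodule.smul_mem _ _ (hgsW j)
  have hy0 : y ≠ 0 := by
    rintro rfl
    exact hynot (Submodule.zero_mem _)
  refine ⟨n, G, hGmem, by rw [hredG]; exact hy0, ?_⟩
  rw [hredG]
  -- `0 ≤ ord y` from `y ∈ L(Db)`, `ord y < 1` from `y ∉ L(Db - Q₀)`
  have h1 : 0 ≤ Q₀.ord y := by
    have := ((mem_riemannRochSpace_iff.mp hyDb) Q₀).resolve_left hy0
    rw [hDbQ] at this
    simpa using this
  have h2 : Q₀.ord y < 1 := by
    have hy2 : y ∈ riemannRochSpace ((Db - Finsupp.single Q₀ 1) + Finsupp.single Q₀ 1) := by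
      rw [sub_add_cancel]
      exact hyDb
    have := (ord_lt_of_mem_of_not_mem hy2 hynot).2
    rw [Finsupp.sub_apply, hDbQ, Finsupp.single_apply, if_pos rfl] at this
    simpa using this
  omega

end LevelM

/-! ### Part 3: the multiplier along `α` at level `qM` -/

section LevelQM

variable {L : Type*} [Field L] {FM : Type*} [Field FM] [Algebra L FM]
variable {k : Type*} [Field k] {Fk : Type*} [Field Fk] [Algebra k Fk]
variable {A : ValuationSubring L} {π : A →+* k} {r : Place L FM → Place k Fk}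
variable [HasPrincipalDivisors L FM]
variable {F : Type*} [Field F] [Algebra L F] [HasPrincipalDivisors L F] {α : FM →+* F}

/-- **The multiplier along `α`.**  Let `C` be an effective divisor of positive degree on level `M`
("the cusps") and `Q₀` a place of `Fk` whose disc does not meet `supp C`.  For every `h ∈ F^×`
without poles over the disc of `Q₀` there is `G ∈ O_M`, regular off `supp C`, whose reduction is
regular and non-zero at `Q₀`, such that `α(G) h` has no pole off the places over `supp C`. -/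
theorem exists_alpha_multiplier {g : ℕ} (R : RedDatum A π r) (hπ : Function.Surjective π)
    (HL : RiemannHyp L FM g) (HK : RiemannHyp k Fk g) (hOB : OBGen R) (ra : Restr L α)
    (C : Divisor L FM) (hCdeg : 0 < Divisor.degree C)
    (Q₀ : Place k Fk) (hQC : ∀ P, C P ≠ 0 → r P ≠ Q₀)
    (h : F) (hh : h ≠ 0) (hpole : ∀ P : Place L F, P.ord h < 0 → r (ra.res P) ≠ Q₀) :
    ∃ G : R.O, R.red G ≠ 0 ∧ Q₀.ord (R.red G) = 0 ∧
      (∀ PM : Place L FM, C PM = 0 → 0 ≤ PM.ord ((G : R.O) : FM)) ∧
      ∀ P : Place L F, C (ra.res P) = 0 → 0 ≤ P.ord (α ((G : R.O) : FM) * h) := by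
  classical
  obtain ⟨Dh, hDh, -⟩ := HasPrincipalDivisors.exists_divisor (K := L) h hh
  -- the polar divisor of `h`, pushed to level `M`
  set T : Finset (Place L F) := Dh.support.filter fun P => Dh P < 0 with hT
  set E : Divisor L FM := ∑ P ∈ T, Finsupp.single (ra.res P) (-Dh P) with hE
  have hterm : ∀ P ∈ T, (0 : Divisor L FM) ≤ Finsupp.single (ra.res P) (-Dh P) := by
    intro P hP
    have hneg : Dh P < 0 := (Finset.mem_filter.mp hP).2
    rw [Finsupp.le_def]
    intro v
    rw [Finsupp.single_apply]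
    split_ifs
    · simp only [Finsupp.coe_zero, Pi.zero_apply]; omega
    · exact le_rfl
  have hE0 : 0 ≤ E := Finset.sum_nonneg hterm
  have hEge : ∀ P : Place L F, P.ord h < 0 → -P.ord h ≤ E (ra.res P) := by
    intro P hP
    have hPT : P ∈ T := by
      rw [hT, Finset.mem_filter, Finsupp.mem_support_iff, hDh P]
      exact ⟨by omega, hP⟩
    have h1 : Finsupp.single (ra.res P) (-Dh P) ≤ E := by
      rw [hE]
      exact Finset.single_le_sum (f := fun P => Finsupp.single (ra.res P) (-Dh P))
        (fun i hi => hterm i hi) hPT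
    have h2 := Finsupp.le_def.mp h1 (ra.res P)
    rw [Finsupp.single_apply, if_pos rfl, hDh P] at h2
    exact h2
  have hQE : ∀ PM, E PM ≠ 0 → r PM ≠ Q₀ := by
    intro PM hPM
    by_contra hr
    apply hPM
    rw [hE, Finsupp.finset_sum_apply]
    refine Finset.sum_eq_zero fun P hP => ?_
    have hneg : Dh P < 0 := (Finset.mem_filter.mp hP).2
    rw [Finsupp.single_apply, if_neg]
    intro heq
    exact hpole P (by rw [← hDh P]; exact hneg) (heq ▸ hr)
  obtain ⟨n, G, hGmem, hG0, hGQ⟩ :=
    exists_multiplier R hπ HL HK hOB C hCdeg E Q₀ hQC hQE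
  have hGne : ((G : R.O) : FM) ≠ 0 := by
    intro h0
    apply hG0
    have : G = 0 := Subtype.ext h0
    rw [this, map_zero]
  have hord : ∀ PM : Place L FM, C PM = 0 → E PM ≤ PM.ord ((G : R.O) : FM) := by
    intro PM hPM
    have := ((mem_riemannRochSpace_iff.mp hGmem) PM).resolve_left hGne
    rw [Finsupp.sub_apply, Finsupp.smul_apply, hPM] at this
    simp only [smul_zero, zero_sub, neg_neg] at this
    exact this
  refine ⟨G, hG0, hGQ, fun PM hPM => (Finsupp.le_def.mp hE0 PM).trans (hord PM hPM), ?_⟩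
  intro P hP
  have hαG : α ((G : R.O) : FM) ≠ 0 := (map_ne_zero α).mpr hGne
  rw [P.ord_mul hαG hh, ra.ord_map]
  have h1 := hord (ra.res P) hP
  have h2 : (0 : ℤ) ≤ E (ra.res P) := Finsupp.le_def.mp hE0 (ra.res P)
  have he : (1 : ℤ) ≤ (ra.e P : ℤ) := by exact_mod_cast ra.e_pos P
  by_cases hneg : P.ord h < 0
  · have h3 := hEge P hneg
    nlinarith
  · push Not at hneg
    nlinarith

end LevelQM

end Fermat.Agent.S34.NodeTransfer
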