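/-
PROJECT U (S34), ROUTE G: the `mult` field of `PcgOfSandwich.Hyp` from
`NodeTransfer.exists_alpha_multiplier`.

`PcgOfSandwich.Hyp.mult` asks, for `h ∈ O₁ ∩ O₂` without pole over the disc of the node `Fr a`
(along `α`), for a chart-0 function `y ∈ O₁ ∩ O₂` (poles only over the cusps) such that `y h` is a
chart-0 function too and `red₁ y` has a non-zero value at `Fr a`.  The multiplier is `y = α(G)`,
`G` a level-`M` function with poles only at the cusps (`supp C`) killing the polar divisor of `h`,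
with `red G` a unit at `Fr a` (`NodeTransfer.exists_alpha_multiplier`).

* `exists_ne_zero_hasValue` : a function of order `0` at a place of degree one has a non-zero value;
* `mult_of_alpha` : the `mult` field, verbatim, with `sp1 P := r (ra.res P)`.
-/
import Mathlib
import Fermat.Agent.S34.NodeTransfer
import Fermat.Agent.S34.PcgOfSandwich

set_option autoImplicit false
set_option linter.unusedSectionVars false

noncomputable section

namespace Fermat.Agent.S34.MultOfAlpha

open AlgebraicCurve Fermat.Agent.S18.CoreDefs Fermat.Agent.S18.NonSpecial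
open Fermat.Agent.S34.NodalDefs Fermat.Agent.S34.Generic.Compat Fermat.Agent.S34.NodeTransfer

/-- a non-zero function of order `0` at a place of degree one has a non-zero value there -/
theorem exists_ne_zero_hasValue {k : Type*} [Field k] {κ : Type*} [Field κ] [Algebra k κ]
    (Q : Place k κ) (hQ : Q.deg = 1) {φ : κ} (hφ : φ ≠ 0) (hord : Q.ord φ = 0) :
    ∃ γ : k, γ ≠ 0 ∧ HasValue Q φ γ := by
  obtain ⟨γ, hγ⟩ := Fermat.Agent.S18.CoreOrd.exists_value Q hQ (f := φ) (by rw [hord])
  refine ⟨γ, ?_, hγ⟩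
  rintro rfl
  rw [map_zero, sub_zero] at hγ
  rcases hγ with h | h
  · exact hφ h
  · rw [hord] at h
    exact lt_irrefl _ h

variable {L : Type*} [Field L] {FM : Type*} [Field FM] [Algebra L FM]
variable {k : Type*} [Field k] {κ : Type*} [Field κ] [Algebra k κ]
variable {A : ValuationSubring L} {π : A →+* k} {r : Place L FM → Place k κ}
variable [HasPrincipalDivisors L FM]
variable {F : Type*} [Field F] [Algebra L F] [HasPrincipalDivisors L F] {α : FM →+* F}

/-- **The `mult` field of `PcgOfSandwich.Hyp`** (verbatim, with `sp1 P := r (ra.res P)`), from the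
multiplier along `α`. -/
theorem mult_of_alpha {g : ℕ} (R : RedDatum A π r) (hπ : Function.Surjective π)
    (HL : RiemannHyp L FM g) (HK : RiemannHyp k κ g) (hOB : OBGen R) (ra : Restr L α)
    (R1 R2 : SmoothRed A π F κ)
    (ha1 : ∀ G : R.O, α ((G : R.O) : FM) ∈ R1.O)
    (hred1 : ∀ G : R.O, R1.red ⟨α ((G : R.O) : FM), ha1 G⟩ = R.red G)
    (ha2 : ∀ G : R.O, α ((G : R.O) : FM) ∈ R2.O)
    (C : Divisor L FM) (hCdeg : 0 < Divisor.degree C)
    (Fr : Place k κ → Place k κ) (cusp : Set (Place k κ))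
    (hcusp : ∀ PM : Place L FM, C PM ≠ 0 → r PM ∈ cusp)
    (N : Finset (Place k κ)) (hN : ∀ a ∈ N, Fr a ∉ cusp) :
    ∀ (h1 : R1.O) (h2 : R2.O), ((h1 : R1.O) : F) = ((h2 : R2.O) : F) → ∀ a ∈ N,
    (∀ P : Place L F, P.ord ((h1 : R1.O) : F) < 0 → r (ra.res P) ≠ Fr a) →
    ∃ (y1 : R1.O) (y2 : R2.O), ((y1 : R1.O) : F) = ((y2 : R2.O) : F) ∧
      (∀ P : Place L F, P.ord ((y1 : R1.O) : F) < 0 → r (ra.res P) ∈ cusp) ∧
      (∀ P : Place L F, P.ord (((y1 * h1 : R1.O) : R1.O) : F) < 0 → r (ra.res P) ∈ cusp) ∧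
      ∃ γ : k, γ ≠ 0 ∧ HasValue (Fr a) (R1.red y1) γ := by
  intro h1 h2 h12 a ha hpole
  rcases eq_or_ne ((h1 : R1.O) : F) 0 with h0 | h0
  · -- `h = 0`: the multiplier is `1`
    refine ⟨1, 1, rfl, fun P hP => ?_, fun P hP => ?_, 1, one_ne_zero, Or.inl ?_⟩
    · exfalso
      have : ((1 : R1.O) : F) = 1 := rfl
      rw [this, Place.ord_one] at hP
      exact lt_irrefl _ hP
    · exfalso
      have : (((1 * h1 : R1.O) : R1.O) : F) = 0 := by rw [one_mul, h0]
      rw [this, Place.ord_zero] at hP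
      exact lt_irrefl _ hP
    · rw [map_one, map_one]
  · have hQC : ∀ PM : Place L FM, C PM ≠ 0 → r PM ≠ Fr a := by
      intro PM hPM heq
      exact hN a ha (heq ▸ hcusp PM hPM)
    obtain ⟨G, hG0, hGQ, hGreg, hGh⟩ :=
      exists_alpha_multiplier R hπ HL HK hOB ra C hCdeg (Fr a) hQC ((h1 : R1.O) : F) h0 hpole
    refine ⟨⟨α ((G : R.O) : FM), ha1 G⟩, ⟨α ((G : R.O) : FM), ha2 G⟩, rfl, fun P hP => ?_,
      fun P hP => ?_, ?_⟩
    · -- poles of `α G` lie over `supp C`
      by_contra hc
      have hCP : C (ra.res P) = 0 := by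
        by_contra hne
        exact hc (hcusp _ hne)
      have h1' := hGreg (ra.res P) hCP
      change P.ord (α ((G : R.O) : FM)) < 0 at hP
      rw [ra.ord_map] at hP
      have he : (0 : ℤ) ≤ (ra.e P : ℤ) := Int.natCast_nonneg _
      nlinarith
    · -- poles of `α G * h` lie over `supp C`
      by_contra hc
      have hCP : C (ra.res P) = 0 := by
        by_contra hne
        exact hc (hcusp _ hne)
      have h1' := hGh P hCP
      change P.ord (α ((G : R.O) : FM) * ((h1 : R1.O) : F)) < 0 at hP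
      omega
    · rw [hred1 G]
      exact exists_ne_zero_hasValue (Fr a) (HK.deg_one (Fr a)) hG0 hGQ

end Fermat.Agent.S34.MultOfAlpha
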