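/-
PROJECT U (S34), ROUTE G: the `mult` field of `PcgCusp.Hyp` (SHARP form: the multiplier `y` and
`y h` have poles only at the TRUE cusps `cuspL = {P | C (ra.res P) ≠ 0}` of the upper curve) from
`NodeTransfer.exists_alpha_multiplier`.

* `mult_cusp` : the `mult` field of `PcgCusp.Hyp`, verbatim, with `sp1 P := r (ra.res P)` and
  `cuspL := {P | C (ra.res P) ≠ 0}`.
-/
import Mathlib
import Fermat.Agent.S34.MultOfAlpha
import Fermat.Agent.S34.PcgCusp

set_option autoImplicit false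
set_option linter.unusedSectionVars false

noncomputable section

namespace Fermat.Agent.S34.MultCusp

open AlgebraicCurve Fermat.Agent.S18.CoreDefs Fermat.Agent.S18.NonSpecial
open Fermat.Agent.S34.NodalDefs Fermat.Agent.S34.Generic.Compat Fermat.Agent.S34.NodeTransfer
open Fermat.Agent.S34.MultOfAlpha

variable {L : Type*} [Field L] {FM : Type*} [Field FM] [Algebra L FM]
variable {k : Type*} [Field k] {κ : Type*} [Field κ] [Algebra k κ]
variable {A : ValuationSubring L} {π : A →+* k} {r : Place L FM → Place k κ}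
variable [HasPrincipalDivisors L FM]
variable {F : Type*} [Field F] [Algebra L F] [HasPrincipalDivisors L F] {α : FM →+* F}

/-- **The `mult` field of `PcgCusp.Hyp`** (verbatim, with `sp1 P := r (ra.res P)` and
`cuspL := {P | C (ra.res P) ≠ 0}`), from the multiplier along `α`. -/
theorem mult_cusp {g : ℕ} (R : RedDatum A π r) (hπ : Function.Surjective π)
    (HL : RiemannHyp L FM g) (HK : RiemannHyp k κ g) (hOB : OBGen R) (ra : Restr L α)
    (R1 R2 : SmoothRed A π F κ)
    (ha1 : ∀ G : R.O, α ((G : R.O) : FM) ∈ R1.O)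
    (hred1 : ∀ G : R.O, R1.red ⟨α ((G : R.O) : FM), ha1 G⟩ = R.red G)
    (ha2 : ∀ G : R.O, α ((G : R.O) : FM) ∈ R2.O)
    (C : Divisor L FM) (hCdeg : 0 < Divisor.degree C)
    (Fr : Place k κ → Place k κ)
    (N : Finset (Place k κ)) (hN : ∀ a ∈ N, ∀ PM : Place L FM, C PM ≠ 0 → r PM ≠ Fr a) :
    ∀ (h1 : R1.O) (h2 : R2.O), ((h1 : R1.O) : F) = ((h2 : R2.O) : F) → ∀ a ∈ N,
    (∀ P : Place L F, P.ord ((h1 : R1.O) : F) < 0 → r (ra.res P) ≠ Fr a) →
    ∃ (y1 : R1.O) (y2 : R2.O), ((y1 : R1.O) : F) = ((y2 : R2.O) : F) ∧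
      (∀ P : Place L F, P.ord ((y1 : R1.O) : F) < 0 → P ∈ {P : Place L F | C (ra.res P) ≠ 0}) ∧
      (∀ P : Place L F, P.ord (((y1 * h1 : R1.O) : R1.O) : F) < 0 →
        P ∈ {P : Place L F | C (ra.res P) ≠ 0}) ∧
      ∃ γ : k, γ ≠ 0 ∧ HasValue (Fr a) (R1.red y1) γ := by
  intro h1 h2 h12 a ha hpole
  rcases eq_or_ne ((h1 : R1.O) : F) 0 with h0 | h0
  · -- `h = 0`: the multiplier is `1`
    refine ⟨1, 1, rfl, fun P hP => ?_, fun P hP => ?_, 1, one_ne_zero, Or.inl ?_⟩
    · exfalso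
      have : ((1 : R1.O) : F) = 1 := rfl
      rw [this, Place.ord_one] at hP
      exact lt_irrefl _ hP
    · exfalso
      have : (((1 * h1 : R1.O) : R1.O) : F) = 0 := by rw [one_mul, h0]
      rw [this, Place.ord_zero] at hP
      exact lt_irrefl _ hP
    · rw [map_one, map_one]
  · obtain ⟨G, hG0, hGQ, hGreg, hGh⟩ :=
      exists_alpha_multiplier R hπ HL HK hOB ra C hCdeg (Fr a) (hN a ha) ((h1 : R1.O) : F) h0
        hpole
    refine ⟨⟨α ((G : R.O) : FM), ha1 G⟩, ⟨α ((G : R.O) : FM), ha2 G⟩, rfl, fun P hP => ?_,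
      fun P hP => ?_, ?_⟩
    · -- poles of `α G` lie over `supp C`
      change C (ra.res P) ≠ 0
      intro hCP
      have h1' := hGreg (ra.res P) hCP
      change P.ord (α ((G : R.O) : FM)) < 0 at hP
      rw [ra.ord_map] at hP
      have he : (0 : ℤ) ≤ (ra.e P : ℤ) := Int.natCast_nonneg _
      nlinarith
    · -- poles of `α G * h` lie over `supp C`
      change C (ra.res P) ≠ 0
      intro hCP
      have h1' := hGh P hCP
      change P.ord (α ((G : R.O) : FM) * ((h1 : R1.O) : F)) < 0 at hP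
      omega
    · rw [hred1 G]
      exact exists_ne_zero_hasValue (Fr a) (HK.deg_one (Fr a)) hG0 hGQ

end Fermat.Agent.S34.MultCusp
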