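/-
PROJECT U (S34), ROUTE G: the hypothesis `OBGen` of `S34/NodeTransfer.exists_multiplier` (general
orthonormal bases) for the Deuring reduction datum of `ℚ̄(X₀(M))` at a prime `q ∤ M`
(`S37/Deuring/Core.redDatum` of `S37/Gauss/Datum.gaussDatum`, basis from `S37/Deuring/HypX0`).
-/
import Mathlib
import Fermat.Agent.S34.NodeTransfer
import Fermat.Agent.S37.Deuring.HypX0
import Fermat.Agent.S37.Deuring.OrthoBasis2

set_option autoImplicit false
set_option linter.unusedSectionVars false

noncomputable section

namespace Fermat.Agent.S34.NodeTransferX0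

open ModularCurve AlgebraicCurve IsLocalRing
open Fermat.Agent.S18.NonSpecial Fermat.Agent.S37.Gauss.Datum Fermat.Agent.S37.Deuring.Core
open Fermat.Agent.S34.NodeTransfer

local notation "Kb" => AlgebraicClosure ℚ

variable {q : ℕ} [Fact q.Prime] {M : ℕ} [NeZero M] {A : ValuationSubring Kb}
variable (hA : A.LiesOverPrime q) (hqM : ¬ q ∣ M)

/-- general orthonormal bases for the Gauss datum of `X₀(M)` -/
theorem exists_red_independent_X0 (W : Submodule Kb ↥(modularFunctionFieldBar M))
    [FiniteDimensional Kb W] :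
    ∃ g : Fin (Module.finrank Kb W) → ↥(gaussDatum M A hA hqM).O,
      (∀ j, ((g j : ↥(gaussDatum M A hA hqM).O) : ↥(modularFunctionFieldBar M)) ∈ W) ∧
      LinearIndependent (ResidueField ↥A) fun j => (gaussDatum M A hA hqM).red (g j) := by
  obtain ⟨n, u, hi, hii⟩ := Fermat.Agent.S37.Deuring.HypX0.exists_basis_O' hA hqM
  exact Fermat.Agent.S37.Deuring.OrthoBasis2.exists_red_independent_of_basis
    (gaussDatum M A hA hqM) (Fermat.Agent.S37.Deuring.HypX0.jO hA hqM) u
    (Fermat.Agent.S37.Deuring.HypX0.transcendental_red_jO hA hqM) hi hii W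

variable [HasPrincipalDivisors Kb ↥(modularFunctionFieldBar M)]
  [HasPrincipalDivisors (ResidueField ↥A) ↥(modularFunctionFieldFullC (ResidueField ↥A) M)]
  [Infinite (ResidueField ↥A)]

/-- **`OBGen` for Deuring's reduction datum of `X₀(M)`.** -/
theorem obGen_redDatum {gL gk : ℕ} (H : Hyp (gaussDatum M A hA hqM) gL gk) :
    OBGen (redDatum H) := by
  intro W _
  exact exists_red_independent_X0 hA hqM W

end Fermat.Agent.S34.NodeTransferX0
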