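import Mathlib
import Fermat.Agent.S34.PcgCusp
import Fermat.Agent.S34.MultOfAlpha
import Fermat.Agent.S34.Generic.PoleControl
import Fermat.Agent.S34.Euler.Chart

/-!
# PROJECT U (S34), Route G: the fields `glue0`, `mult`, `pc1`, `pc2` of `PcgCusp.Hyp` from their
producers

* `glue0_of_chart` : the chart-0 gluing from the description (b)

    `(h₁, h₂) ∈ Rbar0 G₁ G₂ ↔ ∀ b ∈ S, ∃ c, HasValue (Fr b) h₁ c ∧ HasValue b h₂ c`

  (`h₁ h₂` regular off `P₀`) produced by `Euler.Chart.genus_le_of_charts`, pole control on both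
  components, and "`D` is positive on `cuspL`, the places of `cuspL` specialise into `P₀`".  The
  two components `R1 R2 : SmoothRed` are linked to the Gauss data `G₁ G₂` by inclusions of
  valuation rings and equalities of reductions (hypotheses, no definitional unfolding);
* `mult_sharp` : the multiplier with the SHARP conclusion (poles over `supp C` only), from
  `NodeTransfer.exists_alpha_multiplier`, with `cuspL = {P | C (ra.res P) ≠ 0}`;
* `pc_ord_of_pc_adic`, `pc_of_monic` : pole control in `ord` form from a monic equation with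
  coefficients regular on the disc (`Generic/HintTwoExt.hint_along` shape);
* `not_good_of_fixed` : `Fr²`-fixed places are not generic;
* `hasValue_iff_euler`, `exists_nsmul_mem_rr` : auxiliary.
-/

set_option autoImplicit false

noncomputable section

namespace Fermat.Agent.S34.PcgOfChart

open AlgebraicCurve Fermat.Agent.S34.NodalDefs Fermat.Agent.S37.Deuring.Core
  Fermat.Agent.S34.Euler.RedPair Fermat.Agent.S34.Euler.Chart Fermat.Agent.S34.Euler.Places

variable {L : Type*} [Field L] {k : Type*} [Field k]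

section Value

variable {κ : Type*} [Field κ] [Algebra k κ]

theorem hasValue_iff_euler (Q : Place k κ) (φ : κ) (γ : k) :
    HasValue Q φ γ ↔ Fermat.Agent.S34.Euler.Value.HasValue Q φ γ := by
  unfold HasValue Fermat.Agent.S34.Euler.Value.HasValue
  rw [Fermat.Agent.S18.A.Riemann.adicValuation_lt_one_iff, sub_eq_zero]

end Value

section RR

variable {FL : Type*} [Field FL] [Algebra L FL]

/-- A function whose poles lie in the support of the effective divisor `D` lies in `L(r D)` for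
some `r`. -/
theorem exists_nsmul_mem_rr [HasPrincipalDivisors L FL] (f : FL) (D : Divisor L FL) (hD : 0 ≤ D)
    (hpole : ∀ P : Place L FL, P.ord f < 0 → 0 < D P) :
    ∃ r : ℕ, f ∈ riemannRochSpace (r • D) := by
  classical
  by_cases hf : f = 0
  · exact ⟨0, by rw [hf]; exact Submodule.zero_mem _⟩
  obtain ⟨Df, hDf, -⟩ := HasPrincipalDivisors.exists_divisor (K := L) f hf
  refine ⟨∑ P ∈ Df.support, (Df P).natAbs, ?_⟩
  rw [mem_riemannRochSpace_iff]
  intro P
  right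
  rw [Finsupp.smul_apply, nsmul_eq_mul]
  have hDP : 0 ≤ D P := Finsupp.le_def.mp hD P
  by_cases hneg : P.ord f < 0
  · have hPs : P ∈ Df.support := by
      rw [Finsupp.mem_support_iff, hDf P]
      omega
    have h1 : (Df P).natAbs ≤ ∑ P ∈ Df.support, (Df P).natAbs :=
      Finset.single_le_sum (f := fun P => (Df P).natAbs) (fun _ _ => Nat.zero_le _) hPs
    have h2 : -P.ord f ≤ ((Df P).natAbs : ℤ) := by
      rw [hDf P]
      omega
    have h3 : ((Df P).natAbs : ℤ) ≤ ((∑ P ∈ Df.support, (Df P).natAbs : ℕ) : ℤ) := by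
      exact_mod_cast h1
    have h4 : (1 : ℤ) ≤ D P := hpole P hneg
    have h5 : (0 : ℤ) ≤ ((∑ P ∈ Df.support, (Df P).natAbs : ℕ) : ℤ) := Int.natCast_nonneg _
    nlinarith
  · push Not at hneg
    have h5 : (0 : ℤ) ≤ ((∑ P ∈ Df.support, (Df P).natAbs : ℕ) : ℤ) := Int.natCast_nonneg _
    have : (0 : ℤ) ≤ ((∑ P ∈ Df.support, (Df P).natAbs : ℕ) : ℤ) * D P := mul_nonneg h5 hDP
    omega

end RR

variable {A : ValuationSubring L} {π : A →+* k} {FL : Type*} [Field FL] [Algebra L FL]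
  {κ : Type*} [Field κ] [Algebra k κ]

/-- Pole control in `adicValuation` form (for one function) gives pole control in `ord` form. -/
theorem pc_ord_of_pc_adic (B : Branch A π FL κ) (sp : Place L FL → Place k κ) (Q : Place k κ)
    (h : B.O)
    (hpc : (∀ P : Place L FL, sp P = Q → P.adicValuation ((h : B.O) : FL) ≤ 1) →
      Q.adicValuation (B.red h) ≤ 1)
    (hh : ∀ P : Place L FL, P.ord ((h : B.O) : FL) < 0 → sp P ≠ Q) :
    0 ≤ Q.ord (B.red h) := by
  have h1 : Q.adicValuation (B.red h) ≤ 1 := by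
    refine hpc fun P hP => ?_
    rw [P.adicValuation_le_one_iff]
    by_contra hcon
    rw [not_or, not_le] at hcon
    exact hh P hcon.2 hP
  rcases Q.adicValuation_le_one_iff.mp h1 with h0 | h0
  · rw [h0, Place.ord_zero]
  · exact h0

/-- **The chart-0 gluing** (field `glue0` of `PcgCusp.Hyp`) from the description (b) of
`Rbar0` given by `Euler.Chart.genus_le_of_charts`. -/
theorem glue0_of_chart [HasPrincipalDivisors L FL] (G₁ G₂ : GaussDatum A π FL κ)
    (R1 R2 : SmoothRed A π FL κ)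
    (hO1 : ∀ f : FL, f ∈ R1.O → f ∈ G₁.O) (hO2 : ∀ f : FL, f ∈ R2.O → f ∈ G₂.O)
    (hred1 : ∀ (f : FL) (h : f ∈ R1.O) (h' : f ∈ G₁.O), R1.red ⟨f, h⟩ = G₁.red ⟨f, h'⟩)
    (hred2 : ∀ (f : FL) (h : f ∈ R2.O) (h' : f ∈ G₂.O), R2.red ⟨f, h⟩ = G₂.red ⟨f, h'⟩)
    {D : Divisor L FL} (hD : 0 ≤ D) (Fr : Place k κ → Place k κ)
    (sp1 sp2 : Place L FL → Place k κ) (P₀ : Set (Place k κ)) (cuspL : Set (Place L FL))
    (hsp1 : ∀ P : Place L FL, P ∈ cuspL → sp1 P ∈ P₀)
    (hsp2 : ∀ P : Place L FL, P ∈ cuspL → sp2 P ∈ P₀)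
    (hDpos : ∀ P : Place L FL, P ∈ cuspL → 0 < D P)
    (pc1 : ∀ (Q : Place k κ) (h1 : R1.O) (h2 : R2.O), ((h1 : R1.O) : FL) = ((h2 : R2.O) : FL) →
      (∀ P : Place L FL, P.ord ((h1 : R1.O) : FL) < 0 → sp1 P ≠ Q) → 0 ≤ Q.ord (R1.red h1))
    (pc2 : ∀ (Q : Place k κ) (h1 : R1.O) (h2 : R2.O), ((h1 : R1.O) : FL) = ((h2 : R2.O) : FL) →
      (∀ P : Place L FL, P.ord ((h1 : R1.O) : FL) < 0 → sp2 P ≠ Q) → 0 ≤ Q.ord (R2.red h2))
    (S : Finset (Place k κ))
    (hb : ∀ h₁ h₂ : κ, h₁ ∈ regOff P₀ → h₂ ∈ regOff P₀ → (h₁, h₂) ∈ Rbar0 G₁ G₂ hD →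
      ∀ b ∈ S, ∃ c : k, Fermat.Agent.S34.Euler.Value.HasValue (Fr b) h₁ c ∧
        Fermat.Agent.S34.Euler.Value.HasValue b h₂ c)
    (h1 : R1.O) (h2 : R2.O) (h12 : ((h1 : R1.O) : FL) = ((h2 : R2.O) : FL))
    (hpole : ∀ P : Place L FL, P.ord ((h1 : R1.O) : FL) < 0 → P ∈ cuspL) :
    ∀ a ∈ S, ∃ γ : k, HasValue (Fr a) (R1.red h1) γ ∧ HasValue a (R2.red h2) γ := by
  intro a ha
  have hf1 : ((h1 : R1.O) : FL) ∈ G₁.O := hO1 _ h1.2
  have hf2 : ((h1 : R1.O) : FL) ∈ G₂.O := hO2 _ (h12 ▸ h2.2)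
  have e1 : R1.red h1 = G₁.red ⟨((h1 : R1.O) : FL), hf1⟩ := hred1 _ h1.2 hf1
  have e2 : R2.red h2 = G₂.red ⟨((h1 : R1.O) : FL), hf2⟩ := by
    have : h2 = ⟨((h1 : R1.O) : FL), h12 ▸ h2.2⟩ := Subtype.ext h12.symm
    rw [this]
    exact hred2 _ _ hf2
  -- regular off `P₀`
  have hreg1 : R1.red h1 ∈ regOff P₀ := by
    intro v hv
    refine v.adicValuation_le_one_iff.mpr (Or.inr (pc1 v h1 h2 h12 fun P hP hPv => ?_))
    exact hv (hPv ▸ hsp1 P (hpole P hP))
  have hreg2 : R2.red h2 ∈ regOff P₀ := by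
    intro v hv
    refine v.adicValuation_le_one_iff.mpr (Or.inr (pc2 v h1 h2 h12 fun P hP hPv => ?_))
    exact hv (hPv ▸ hsp2 P (hpole P hP))
  -- in some `W r`
  obtain ⟨r, hr⟩ := exists_nsmul_mem_rr ((h1 : R1.O) : FL) D hD
    (fun P hP => hDpos P (hpole P hP))
  have hmem : (R1.red h1, R2.red h2) ∈ Rbar0 G₁ G₂ hD := by
    rw [mem_Rbar0]
    refine ⟨r, ((h1 : R1.O) : FL), hf1, hf2, hr, ?_⟩
    unfold redPair
    rw [e1, e2]
  obtain ⟨c, hc1, hc2⟩ := hb _ _ hreg1 hreg2 hmem a ha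
  exact ⟨c, (hasValue_iff_euler _ _ _).mpr hc1, (hasValue_iff_euler _ _ _).mpr hc2⟩

/-- `Fr²`-fixed places are not generic. -/
theorem not_good_of_fixed (Fr : Place k κ → Place k κ) (good : Set (Place k κ))
    (hgood : ∀ Q ∈ good, Fr (Fr Q) ≠ Q) (S : Finset (Place k κ))
    (hS : ∀ b ∈ S, Fr (Fr b) = b) :
    (∀ a ∈ S, Fr a ∉ good) ∧ ∀ a ∈ S, a ∉ good := by
  refine ⟨fun a ha h => hgood _ h ?_, fun a ha h => hgood _ h (hS a ha)⟩
  rw [hS a ha]

section Level

open Fermat.Agent.S18.CoreDefs Fermat.Agent.S18.NonSpecial Fermat.Agent.S18.Disc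
  Fermat.Agent.S34.Generic.Compat Fermat.Agent.S34.NodeTransfer Polynomial

variable {FM : Type*} [Field FM] [Algebra L FM] {r : Place L FM → Place k κ}
variable [HasPrincipalDivisors L FM] {α β : FM →+* FL}

/-- **Pole control from a monic equation.**  `h ∈ O₁` (`= G.O`) which is a root of a monic
polynomial over the level-`M` Gauss ring with coefficients regular on the disc of `Q` (this is
what `Generic/HintTwoExt.hint_along` gives for `h ∈ O₁ ∩ O₂` regular over the disc of `Q`) has a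
reduction regular at `Q`; in the `ord` form of `PcgCusp.Hyp.pc1/pc2`. -/
theorem pc_of_monic {R : RedDatum A π r} (G : RedOne R α β) (sp : Place L FL → Place k κ)
    (Q : Place k κ) (h : G.O)
    (hmonic : (∀ P : Place L FL, sp P = Q → P.adicValuation ((h : G.O) : FL) ≤ 1) →
      ∃ p : (R.O)[X], p.Monic ∧ (∀ i, RegOn r ((p.coeff i : R.O) : FM) Q) ∧
        Polynomial.eval₂ (α.comp R.O.subtype) ((h : G.O) : FL) p = 0)
    (hh : ∀ P : Place L FL, P.ord ((h : G.O) : FL) < 0 → sp P ≠ Q) :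
    0 ≤ Q.ord (G.red h) := by
  have h1 : Q.adicValuation (G.red h) ≤ 1 := by
    obtain ⟨p, hp, hpreg, hroot⟩ := hmonic fun P hP => by
      rw [P.adicValuation_le_one_iff]
      by_contra hcon
      rw [not_or, not_le] at hcon
      exact hh P hcon.2 hP
    exact Fermat.Agent.S34.Generic.PoleControl.regular_of_monic_equation G Q h p hp hpreg hroot
  rcases Q.adicValuation_le_one_iff.mp h1 with h0 | h0
  · rw [h0, Place.ord_zero]
  · exact h0

variable [HasPrincipalDivisors L FL]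

/-- **The multiplier, sharp form** (field `mult` of `PcgCusp.Hyp` with
`cuspL = {P | C (ra.res P) ≠ 0}` and `sp1 P = r (ra.res P)`). -/
theorem mult_sharp {g : ℕ} (R : RedDatum A π r) (hπ : Function.Surjective π)
    (HL : RiemannHyp L FM g) (HK : RiemannHyp k κ g) (hOB : OBGen R) (ra : Restr L α)
    (R1 R2 : SmoothRed A π FL κ)
    (ha1 : ∀ G : R.O, α ((G : R.O) : FM) ∈ R1.O)
    (hred1 : ∀ G : R.O, R1.red ⟨α ((G : R.O) : FM), ha1 G⟩ = R.red G)
    (ha2 : ∀ G : R.O, α ((G : R.O) : FM) ∈ R2.O)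
    (C : Divisor L FM) (hCdeg : 0 < Divisor.degree C)
    (Fr : Place k κ → Place k κ) (N : Finset (Place k κ))
    (hN : ∀ a ∈ N, ∀ PM : Place L FM, C PM ≠ 0 → r PM ≠ Fr a) :
    ∀ (h1 : R1.O) (h2 : R2.O), ((h1 : R1.O) : FL) = ((h2 : R2.O) : FL) → ∀ a ∈ N,
    (∀ P : Place L FL, P.ord ((h1 : R1.O) : FL) < 0 → r (ra.res P) ≠ Fr a) →
    ∃ (y1 : R1.O) (y2 : R2.O), ((y1 : R1.O) : FL) = ((y2 : R2.O) : FL) ∧
      (∀ P : Place L FL, P.ord ((y1 : R1.O) : FL) < 0 → P ∈ {P | C (ra.res P) ≠ 0}) ∧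
      (∀ P : Place L FL, P.ord (((y1 * h1 : R1.O) : R1.O) : FL) < 0 →
        P ∈ {P | C (ra.res P) ≠ 0}) ∧
      ∃ γ : k, γ ≠ 0 ∧ HasValue (Fr a) (R1.red y1) γ := by
  intro h1 h2 h12 a ha hpole
  rcases eq_or_ne ((h1 : R1.O) : FL) 0 with h0 | h0
  · -- `h = 0`: the multiplier is `1`
    refine ⟨1, 1, rfl, fun P hP => ?_, fun P hP => ?_, 1, one_ne_zero, Or.inl ?_⟩
    · exfalso
      have : ((1 : R1.O) : FL) = 1 := rfl
      rw [this, Place.ord_one] at hP
      exact lt_irrefl _ hP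
    · exfalso
      have : (((1 * h1 : R1.O) : R1.O) : FL) = 0 := by rw [one_mul, h0]
      rw [this, Place.ord_zero] at hP
      exact lt_irrefl _ hP
    · rw [map_one, map_one]
  · obtain ⟨G, hG0, hGQ, hGreg, hGh⟩ :=
      exists_alpha_multiplier R hπ HL HK hOB ra C hCdeg (Fr a) (hN a ha) ((h1 : R1.O) : FL) h0
        hpole
    refine ⟨⟨α ((G : R.O) : FM), ha1 G⟩, ⟨α ((G : R.O) : FM), ha2 G⟩, rfl, fun P hP => ?_,
      fun P hP => ?_, ?_⟩
    · -- poles of `α G` lie over `supp C`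
      show C (ra.res P) ≠ 0
      intro hCP
      have h1' := hGreg (ra.res P) hCP
      change P.ord (α ((G : R.O) : FM)) < 0 at hP
      rw [ra.ord_map] at hP
      have he : (0 : ℤ) ≤ (ra.e P : ℤ) := Int.natCast_nonneg _
      nlinarith
    · -- poles of `α G * h` lie over `supp C`
      show C (ra.res P) ≠ 0
      intro hCP
      have h1' := hGh P hCP
      change P.ord (α ((G : R.O) : FM) * ((h1 : R1.O) : FL)) < 0 at hP
      omega
    · rw [hred1 G]
      exact Fermat.Agent.S34.MultOfAlpha.exists_ne_zero_hasValue (Fr a) (HK.deg_one (Fr a)) hG0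
        hGQ

end Level

end Fermat.Agent.S34.PcgOfChart
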