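import Mathlib
import Fermat.Agent.S34.PcgCusp
import Fermat.Agent.S34.Generic.SwapX0

/-!
# PROJECT U (S34), Route G: `PcgCusp.Hyp` for the pair `(R₁, smoothRedComap R₁ w)`

Setting of `Generic/SmoothRedOfGeneric` + `Generic/SwapX0`: `a b : FM →ₐ[L] F` two integral
embeddings (`α`, `β`), `w : F ≃ₐ[L] F` an involution exchanging them (`w_q`), `R₁` a `SmoothRed`
whose partial specialisation map is `rOne r (restrAlong a) (restrAlong b) Fr good`, and
`R₂ := smoothRedComap R₁ w`.  With `sp1 P = r (P ∘ a)`, `sp2 P = r (P ∘ b)`: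

* `r1_sp1 … r2_sp1` : the four relations between `R_i.r` and `sp1`, `sp2`;
* `ord_apply` : `P.ord (w x) = (w⁻¹ • P).ord x`;
* `pc2_of_swap` : pole control on the second component follows from pole control on the first one
  (for functions of `O₁ ∩ O₂`), by transport along `w`;
* `hyp_of_swap` : the record `PcgCusp.Hyp R₁ R₂ Fr sp1 sp2 cuspL N` from pole control on the first
  component, `Fr²`-fixedness of the nodes, and the two fields `glue0`, `mult`
  (`PcgOfChart.glue0_of_chart`, `MultCusp.mult_cusp`).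
-/

set_option autoImplicit false

noncomputable section

namespace Fermat.Agent.S34.PcgSwap

open AlgebraicCurve Fermat.Agent.S18.CoreDefs Fermat.Agent.S34.NodalDefs
  Fermat.Agent.S34.Generic.Compat Fermat.Agent.S34.Generic.RestrAlong
  Fermat.Agent.S34.Generic.SmoothRedOfGeneric Fermat.Agent.S34.Generic.SwapX0
open scoped Pointwise

variable {L : Type*} [Field L] {FM : Type*} [Field FM] [Algebra L FM]
variable {F : Type*} [Field F] [Algebra L F]
variable {k : Type*} [Field k] {Fk : Type*} [Field Fk] [Algebra k Fk]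
variable {A : ValuationSubring L} {π : A →+* k}

/-- the order of `w x` at `P` is the order of `x` at `w⁻¹ • P` -/
theorem ord_apply (w : F ≃ₐ[L] F) (P : Place L F) (x : F) :
    P.ord (w x) = ((SemilinearAut.ofAlgAut w)⁻¹ • P).ord x := by
  have h := SemilinearAut.ord_smul (SemilinearAut.ofAlgAut w)
    ((SemilinearAut.ofAlgAut w)⁻¹ • P) x
  rw [smul_inv_smul] at h
  exact h

variable (r : Place L FM → Place k Fk) (a b : FM →ₐ[L] F) (ha : a.toRingHom.IsIntegral)
  (hb : b.toRingHom.IsIntegral) (w : F ≃ₐ[L] F)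

section Fields

variable (hwa : ∀ g : FM, w (a g) = b g) (hwb : ∀ g : FM, w (b g) = a g)
  (Fr : Place k Fk → Place k Fk) (good : Set (Place k Fk)) (R₁ : SmoothRed A π F Fk)
  (hr : R₁.r = rOne r (restrAlong a ha) (restrAlong b hb) Fr good)

include hr in
theorem r1_sp1 (P : Place L F) (Q : Place k Fk) (h : R₁.r P = some Q) :
    r (resAlong a ha P) = Q := by
  rw [hr] at h
  exact ((rOne_eq_some_iff _ _ Fr good P Q).mp h).2.1

include hr in
theorem r1_sp2 (P : Place L F) (Q : Place k Fk) (h : R₁.r P = some Q) :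
    r (resAlong b hb P) = Fr Q := by
  rw [hr] at h
  exact ((rOne_eq_some_iff _ _ Fr good P Q).mp h).2.2

include hwa hwb hr in
theorem r2_sp2 (P : Place L F) (Q : Place k Fk) (h : (smoothRedComap R₁ w).r P = some Q) :
    r (resAlong b hb P) = Q :=
  ((smoothRedComap_r_eq_some_iff r a b ha hb w hwa hwb Fr good R₁ hr P Q).mp h).2.1

include hwa hwb hr in
theorem r2_sp1 (P : Place L F) (Q : Place k Fk) (h : (smoothRedComap R₁ w).r P = some Q) :
    r (resAlong a ha P) = Fr Q :=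
  ((smoothRedComap_r_eq_some_iff r a b ha hb w hwa hwb Fr good R₁ hr P Q).mp h).2.2

end Fields

/-- **Pole control on the second component from pole control on the first one**, by transport
along the involution `w`. -/
theorem pc2_of_swap (hwb : ∀ g : FM, w (b g) = a g) (hww : ∀ x : F, w (w x) = x)
    (R₁ : SmoothRed A π F Fk)
    (pc1 : ∀ (Q : Place k Fk) (h1 : R₁.O) (h2 : (smoothRedComap R₁ w).O),
      ((h1 : R₁.O) : F) = ((h2 : (smoothRedComap R₁ w).O) : F) →
      (∀ P : Place L F, P.ord ((h1 : R₁.O) : F) < 0 → r (resAlong a ha P) ≠ Q) →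
      0 ≤ Q.ord (R₁.red h1))
    (Q : Place k Fk) (h1 : R₁.O) (h2 : (smoothRedComap R₁ w).O)
    (h12 : ((h1 : R₁.O) : F) = ((h2 : (smoothRedComap R₁ w).O) : F))
    (hp : ∀ P : Place L F, P.ord ((h1 : R₁.O) : F) < 0 → r (resAlong b hb P) ≠ Q) :
    0 ≤ Q.ord ((smoothRedComap R₁ w).red h2) := by
  -- `h' = w h` lies in `O₁ ∩ O₂`
  have hm1 : w ((h2 : (smoothRedComap R₁ w).O) : F) ∈ R₁.O := h2.2
  have hm2 : w ((h2 : (smoothRedComap R₁ w).O) : F) ∈ (smoothRedComap R₁ w).O := by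
    show w (w ((h2 : (smoothRedComap R₁ w).O) : F)) ∈ R₁.O
    rw [hww, ← h12]
    exact h1.2
  have key := pc1 Q ⟨_, hm1⟩ ⟨_, hm2⟩ rfl ?_
  · exact key
  · intro P hP
    change P.ord (w ((h2 : (smoothRedComap R₁ w).O) : F)) < 0 at hP
    rw [ord_apply, ← h12] at hP
    have h3 := hp _ hP
    have h4 := resAlong_smul a b ha hb w hwb ((SemilinearAut.ofAlgAut w)⁻¹ • P)
    rw [smul_inv_smul] at h4
    rw [h4]
    exact h3

/-- **The record `PcgCusp.Hyp` for `(R₁, smoothRedComap R₁ w)`.** -/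
theorem hyp_of_swap (hwa : ∀ g : FM, w (a g) = b g) (hwb : ∀ g : FM, w (b g) = a g)
    (hww : ∀ x : F, w (w x) = x)
    (Fr : Place k Fk → Place k Fk) (good : Set (Place k Fk)) (R₁ : SmoothRed A π F Fk)
    (hr : R₁.r = rOne r (restrAlong a ha) (restrAlong b hb) Fr good)
    (hdeg : ∀ Q : Place k Fk, Q.deg = 1)
    (hFr2 : ∀ Q ∈ R₁.good, Fr (Fr Q) ≠ Q)
    (cuspL : Set (Place L F)) (N : Finset (Place k Fk)) (hN : ∀ c ∈ N, Fr (Fr c) = c)
    (pc1 : ∀ (Q : Place k Fk) (h1 : R₁.O) (h2 : (smoothRedComap R₁ w).O),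
      ((h1 : R₁.O) : F) = ((h2 : (smoothRedComap R₁ w).O) : F) →
      (∀ P : Place L F, P.ord ((h1 : R₁.O) : F) < 0 → r (resAlong a ha P) ≠ Q) →
      0 ≤ Q.ord (R₁.red h1))
    (glue0 : ∀ (h1 : R₁.O) (h2 : (smoothRedComap R₁ w).O),
      ((h1 : R₁.O) : F) = ((h2 : (smoothRedComap R₁ w).O) : F) →
      (∀ P : Place L F, P.ord ((h1 : R₁.O) : F) < 0 → P ∈ cuspL) →
      ∀ c ∈ N, ∃ γ : k, HasValue (Fr c) (R₁.red h1) γ ∧
        HasValue c ((smoothRedComap R₁ w).red h2) γ)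
    (mult : ∀ (h1 : R₁.O) (h2 : (smoothRedComap R₁ w).O),
      ((h1 : R₁.O) : F) = ((h2 : (smoothRedComap R₁ w).O) : F) → ∀ c ∈ N,
      (∀ P : Place L F, P.ord ((h1 : R₁.O) : F) < 0 → r (resAlong a ha P) ≠ Fr c) →
      ∃ (y1 : R₁.O) (y2 : (smoothRedComap R₁ w).O),
        ((y1 : R₁.O) : F) = ((y2 : (smoothRedComap R₁ w).O) : F) ∧
        (∀ P : Place L F, P.ord ((y1 : R₁.O) : F) < 0 → P ∈ cuspL) ∧
        (∀ P : Place L F, P.ord (((y1 * h1 : R₁.O) : R₁.O) : F) < 0 → P ∈ cuspL) ∧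
        ∃ γ : k, γ ≠ 0 ∧ HasValue (Fr c) (R₁.red y1) γ) :
    Fermat.Agent.S34.PcgCusp.Hyp R₁ (smoothRedComap R₁ w) Fr
      (fun P => r (resAlong a ha P)) (fun P => r (resAlong b hb P)) cuspL N where
  degk := hdeg
  good_eq := rfl
  r1_sp1 := r1_sp1 r a b ha hb Fr good R₁ hr
  r1_sp2 := r1_sp2 r a b ha hb Fr good R₁ hr
  r2_sp2 := r2_sp2 r a b ha hb w hwa hwb Fr good R₁ hr
  r2_sp1 := r2_sp1 r a b ha hb w hwa hwb Fr good R₁ hr
  pc1 := pc1
  pc2 := pc2_of_swap r a b ha hb w hwb hww R₁ pc1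
  node1_not_good := fun c hc h => hFr2 _ h (by rw [hN c hc])
  node2_not_good := fun c hc h => hFr2 _ h (hN c hc)
  glue0 := glue0
  mult := mult

end Fermat.Agent.S34.PcgSwap
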