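import Mathlib
import Fermat.Agent.S34.PcgSwap
import Fermat.Agent.S34.PcgOfChart
import Fermat.Agent.S34.MultCusp
import Fermat.Agent.S34.CuspRedX0
import Fermat.Agent.S34.NodeTransferX0
import Fermat.Agent.S34.EulerNodesX0
import Fermat.Agent.S34.Generic.HintTwoExt
import Fermat.Agent.S37.Hecke.Integral

/-!
# PROJECT U (S34), Route G: `PcgCusp.Hyp` at `X₀(qM)`

`E = ℚ̄(X₀(M q))`, `FM = ℚ̄(X₀(M))`, `α β : FM → E` the two degeneracy maps, `w` an involution of
`E` exchanging them, `H` Deuring's hypotheses at level `M` (place map `placeMap H`, reduction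
datum `redDatum H`).  For ANY `R₁ : SmoothRed` whose valuation ring is the type-1 extension of the
Gauss ring of level `M`, whose reduction extends the level-`M` reduction along `α`, and whose
partial specialisation map is `rOne …`, and `R₂ := smoothRedComap R₁ w`:

* `pc1_X0` : pole control on the first component at EVERY place, for functions of `V₁ ∩ V₂`
  (`HintTwoExt.hint_along` + `PcgOfChart.pc_of_monic`);
* `cuspL_iff`, `cuspL_beta_iff`, `D_pos` : the true cusps of `X₀(M q)`;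
* `hyp_X0` : the record `PcgCusp.Hyp R₁ R₂ Fr sp1 sp2 cuspL S` for a node set `S` with the
  properties output by `EulerNodesX0.exists_nodes_of_dict`.
-/

set_option autoImplicit false
set_option linter.unusedSectionVars false
set_option linter.style.haveILetI false

noncomputable section

namespace Fermat.Agent.S34.PcgX0

open ModularCurve AlgebraicCurve IsLocalRing
open Fermat.Agent.S24.DegreeAlg (jgen)
open Fermat.Agent.S18.B.FkBasics (jk)
open Fermat.Agent.S18.NonSpecial Fermat.Agent.S37.Deuring.Core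
open Fermat.Agent.S37.Gauss.Datum
open Fermat.Agent.S34.PowerBasisX0 Fermat.Agent.S34.EulerX0
open Fermat.Agent.S34.NodalDefs Fermat.Agent.S34.Generic.Compat
  Fermat.Agent.S34.Generic.RestrAlong Fermat.Agent.S34.Generic.SmoothRedOfGeneric
  Fermat.Agent.S34.TwoGaussX0 Fermat.Agent.S34.CuspRedX0

local notation "Kb" => AlgebraicClosure ℚ

set_option synthInstance.maxHeartbeats 400000

attribute [local instance 2000] Fermat.Agent.S34.EulerX0.algResFk

variable {q : ℕ} [hq : Fact q.Prime] [NeZero q] {M : ℕ} [NeZero M] (hqM : ¬ q ∣ M)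
variable {A : ValuationSubring Kb} (hA : A.LiesOverPrime q)

/-! ### the true cusps of `X₀(M q)` -/

section Cusps

variable (hα : (heckeAlphaBar Kb M q).toRingHom.IsIntegral)
  (hβ : (heckeBetaBar Kb M q).toRingHom.IsIntegral)

/-- a place of `E` lies over a cusp of `X₀(M)` along `α` iff it is a pole of `j` -/
theorem cuspL_iff (P : Place Kb ↥(modularFunctionFieldBar (M * q))) :
    cuspDiv M (resAlong (heckeAlphaBar Kb M q) hα P) ≠ 0 ↔ P.ord (jgen (M * q)) < 0 := by
  rw [cuspDiv_ne_zero_iff, ← alpha_jgen (M := M) (q := q)]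
  have h := (restrAlong (heckeAlphaBar Kb M q) hα).ord_map P (jgen M)
  have he := (restrAlong (heckeAlphaBar Kb M q) hα).e_pos P
  rw [restrAlong_res] at h
  change P.ord (heckeAlphaBar Kb M q (jgen M)) = _ at h
  rw [h]
  have he' : (0 : ℤ) < ((restrAlong (heckeAlphaBar Kb M q) hα).e P : ℤ) := by exact_mod_cast he
  constructor
  · intro h1
    exact mul_neg_of_pos_of_neg he' h1
  · intro h1
    by_contra h2
    push Not at h2
    have := mul_nonneg he'.le h2
    omega

/-- a place of `E` lies over a cusp of `X₀(M)` along `β` iff it is a pole of `j_q` -/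
theorem cuspL_beta_iff (P : Place Kb ↥(modularFunctionFieldBar (M * q))) :
    cuspDiv M (resAlong (heckeBetaBar Kb M q) hβ P) ≠ 0 ↔ P.ord (jl M q) < 0 := by
  rw [cuspDiv_ne_zero_iff]
  have h := (restrAlong (heckeBetaBar Kb M q) hβ).ord_map P (jgen M)
  have he := (restrAlong (heckeBetaBar Kb M q) hβ).e_pos P
  rw [restrAlong_res] at h
  change P.ord (jl M q) = _ at h
  rw [h]
  have he' : (0 : ℤ) < ((restrAlong (heckeBetaBar Kb M q) hβ).e P : ℤ) := by exact_mod_cast he
  constructor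
  · intro h1
    exact mul_neg_of_pos_of_neg he' h1
  · intro h1
    by_contra h2
    push Not at h2
    have := mul_nonneg he'.le h2
    omega

/-- `D = (j j_q)_∞` is positive at the poles of `j` -/
theorem D_pos (P : Place Kb ↥(modularFunctionFieldBar (M * q)))
    (hP : P.ord (jgen (M * q)) < 0) : 0 < D hqM P := by
  have h1 : Dj M q P = max 0 (-P.ord (jgen (M * q))) := isPoleDiv_jgen P
  have h2 : Djl hqM P = max 0 (-P.ord (jl M q)) := isPoleDiv_jl hqM P
  rw [D, Finsupp.add_apply, h1, h2]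
  have h3 : (0 : ℤ) ≤ max 0 (-P.ord (jl M q)) := le_max_left _ _
  have h4 : (0 : ℤ) < max 0 (-P.ord (jgen (M * q))) := lt_max_of_lt_right (by omega)
  omega

end Cusps

/-! ### pole control on the first component -/

section PoleControl

attribute [local instance] algFE

variable [HasPrincipalDivisors Kb ↥(modularFunctionFieldBar M)]
  [HasPrincipalDivisors (ResidueField ↥A) ↥(modularFunctionFieldFullC (ResidueField ↥A) M)]
  [Infinite (ResidueField ↥A)]
variable {gL gk : ℕ} (H : Hyp (gaussDatum M A hA hqM) gL gk)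
  (hα : (heckeAlphaBar Kb M q).toRingHom.IsIntegral)

/-- **Pole control at every place of the first component**, for functions of `V₁ ∩ V₂`. -/
theorem pc1_X0 {β : ↥(modularFunctionFieldBar M) →+* ↥(modularFunctionFieldBar (M * q))}
    (G : RedOne (redDatum H) (heckeAlphaBar Kb M q : _ →+* _) β)
    (h₁ : (setupX0 hA hqM).IsExt (setupX0 hA hqM).G₁ G.O)
    {V₂ : ValuationSubring ↥(modularFunctionFieldBar (M * q))}
    (h₂ : (setupX0 hA hqM).IsExt (setupX0 hA hqM).G₂ V₂)
    (Q : Place (ResidueField ↥A) ↥(modularFunctionFieldFullC (ResidueField ↥A) M))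
    (h : G.O) (hV₂ : ((h : G.O) : ↥(modularFunctionFieldBar (M * q))) ∈ V₂)
    (hh : ∀ P : Place Kb ↥(modularFunctionFieldBar (M * q)),
      P.ord ((h : G.O) : ↥(modularFunctionFieldBar (M * q))) < 0 →
      placeMap H (resAlong (heckeAlphaBar Kb M q) hα P) ≠ Q) :
    0 ≤ Q.ord (G.red h) := by
  haveI : CharZero ↥(modularFunctionFieldBar M) :=
    charZero_of_injective_algebraMap (algebraMap Kb ↥(modularFunctionFieldBar M)).injective
  haveI : Module.Finite ↥(modularFunctionFieldBar M) ↥(modularFunctionFieldBar (M * q)) :=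
    finite_FE hqM
  have hsep : Algebra.IsSeparable ↥(modularFunctionFieldBar M)
      ↥(modularFunctionFieldBar (M * q)) := inferInstance
  refine Fermat.Agent.S34.PcgOfChart.pc_of_monic G
    (fun P => placeMap H (resAlong (heckeAlphaBar Kb M q) hα P)) Q h (fun hreg => ?_) hh
  exact Fermat.Agent.S34.Generic.HintTwoExt.hint_along (heckeAlphaBar Kb M q) hα
    (Fermat.Agent.S37.Hecke.Integral.finiteAlong_alpha M q) hsep (redDatum H)
    (setupX0 hA hqM) h₁ h₂ Q _ h.2 hV₂ hreg

end PoleControl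

/-! ### the record -/

section Main

attribute [local instance] algFE

open Fermat.Agent.S34.FrobK Fermat.Agent.S34.Euler.Places Fermat.Agent.S34.Euler.Chart
  Fermat.Agent.S34.Euler.FrobSide

variable [HasPrincipalDivisors Kb ↥(modularFunctionFieldBar M)]
  [HasPrincipalDivisors Kb ↥(modularFunctionFieldBar (M * q))]
  [HasPrincipalDivisors (ResidueField ↥A) ↥(modularFunctionFieldFullC (ResidueField ↥A) M)]
  [Infinite (ResidueField ↥A)] [CharP (ResidueField ↥A) q] [PerfectField (ResidueField ↥A)]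
variable {gL gk : ℕ} (H : Hyp (gaussDatum M A hA hqM) gL gk)
  (hα : (heckeAlphaBar Kb M q).toRingHom.IsIntegral)
  (hβ : (heckeBetaBar Kb M q).toRingHom.IsIntegral)
  (w : ↥(modularFunctionFieldBar (M * q)) ≃ₐ[Kb] ↥(modularFunctionFieldBar (M * q)))

/-- **`PcgCusp.Hyp` at `X₀(qM)`** for the pair `(R₁, smoothRedComap R₁ w)` and a node set `S` with
the properties output by `EulerNodesX0.exists_nodes_of_dict`. -/
theorem hyp_X0
    (hwa : ∀ g : ↥(modularFunctionFieldBar M), w (heckeAlphaBar Kb M q g) = heckeBetaBar Kb M q g)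
    (hwb : ∀ g : ↥(modularFunctionFieldBar M), w (heckeBetaBar Kb M q g) = heckeAlphaBar Kb M q g)
    (hww : ∀ x : ↥(modularFunctionFieldBar (M * q)), w (w x) = x)
    (good : Set (Place (ResidueField ↥A) ↥(modularFunctionFieldFullC (ResidueField ↥A) M)))
    (R₁ : SmoothRed A (residue ↥A) ↥(modularFunctionFieldBar (M * q))
      ↥(modularFunctionFieldFullC (ResidueField ↥A) M))
    (hr : R₁.r = rOne (placeMap H) (restrAlong (heckeAlphaBar Kb M q) hα)
      (restrAlong (heckeBetaBar Kb M q) hβ) (Fr (ResidueField ↥A) M q) good)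
    (hFr2 : ∀ Q ∈ R₁.good, Fr (ResidueField ↥A) M q (Fr (ResidueField ↥A) M q Q) ≠ Q)
    (h₁ : (setupX0 hA hqM).IsExt (setupX0 hA hqM).G₁ R₁.O)
    (h₂ : (setupX0 hA hqM).IsExt (setupX0 hA hqM).G₂
      (R₁.O.comap (w : ↥(modularFunctionFieldBar (M * q)) →+* ↥(modularFunctionFieldBar (M * q)))))
    (ha1 : ∀ g : (redDatum H).O, (heckeAlphaBar Kb M q : _ →+* _)
      ((g : (redDatum H).O) : ↥(modularFunctionFieldBar M)) ∈ R₁.O)
    (hred1 : ∀ g : (redDatum H).O, R₁.red ⟨(heckeAlphaBar Kb M q : _ →+* _)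
      ((g : (redDatum H).O) : ↥(modularFunctionFieldBar M)), ha1 g⟩ = (redDatum H).red g)
    (hb1 : ∀ g : (redDatum H).O, (heckeBetaBar Kb M q : _ →+* _)
      ((g : (redDatum H).O) : ↥(modularFunctionFieldBar M)) ∈ R₁.O)
    {g0 : ℕ} (HLM : RiemannHyp Kb ↥(modularFunctionFieldBar M) g0)
    (HK : RiemannHyp (ResidueField ↥A) ↥(modularFunctionFieldFullC (ResidueField ↥A) M) g0)
    (G₁ G₂ : GaussDatum A (residue ↥A) ↥(modularFunctionFieldBar (M * q))
      ↥(modularFunctionFieldFullC (ResidueField ↥A) M))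
    (hO1 : ∀ f : ↥(modularFunctionFieldBar (M * q)), f ∈ R₁.O → f ∈ G₁.O)
    (hO2 : ∀ f : ↥(modularFunctionFieldBar (M * q)), f ∈ (smoothRedComap R₁ w).O → f ∈ G₂.O)
    (hrd1 : ∀ (f : ↥(modularFunctionFieldBar (M * q))) (h : f ∈ R₁.O) (h' : f ∈ G₁.O),
      R₁.red ⟨f, h⟩ = G₁.red ⟨f, h'⟩)
    (hrd2 : ∀ (f : ↥(modularFunctionFieldBar (M * q))) (h : f ∈ (smoothRedComap R₁ w).O)
      (h' : f ∈ G₂.O), (smoothRedComap R₁ w).red ⟨f, h⟩ = G₂.red ⟨f, h'⟩)
    (S : Finset (Place (ResidueField ↥A) ↥(modularFunctionFieldFullC (ResidueField ↥A) M)))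
    (hS : ∀ b ∈ S, Fr (ResidueField ↥A) M q (Fr (ResidueField ↥A) M q b) = b ∧
      b ∉ P0 (ResidueField ↥A) M)
    (hbS : ∀ h₁ h₂ : ↥(modularFunctionFieldFullC (ResidueField ↥A) M),
      h₁ ∈ regOff (P0 (ResidueField ↥A) M) → h₂ ∈ regOff (P0 (ResidueField ↥A) M) →
      ((h₁, h₂) ∈ Rbar0 G₁ G₂ (isPoleDiv_xE hqM).nonneg ↔
        ∀ b ∈ S, ∃ c : ResidueField ↥A,
          Fermat.Agent.S34.Euler.Value.HasValue (Fr (ResidueField ↥A) M q b) h₁ c ∧
            Fermat.Agent.S34.Euler.Value.HasValue b h₂ c)) :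
    Fermat.Agent.S34.PcgCusp.Hyp R₁ (smoothRedComap R₁ w) (Fr (ResidueField ↥A) M q)
      (fun P => placeMap H (resAlong (heckeAlphaBar Kb M q) hα P))
      (fun P => placeMap H (resAlong (heckeBetaBar Kb M q) hβ P))
      {P | cuspDiv M (resAlong (heckeAlphaBar Kb M q) hα P) ≠ 0} S := by
  -- pole control on the first component
  set G₀ : RedOne (redDatum H) (heckeAlphaBar Kb M q : _ →+* _) (heckeBetaBar Kb M q : _ →+* _) :=
    redOneOfBranch R₁.toBranch ha1 hred1 hb1 with hG₀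
  have pc1 : ∀ (Q : Place (ResidueField ↥A) ↥(modularFunctionFieldFullC (ResidueField ↥A) M))
      (h1 : R₁.O) (h2 : (smoothRedComap R₁ w).O),
      ((h1 : R₁.O) : ↥(modularFunctionFieldBar (M * q))) =
        ((h2 : (smoothRedComap R₁ w).O) : ↥(modularFunctionFieldBar (M * q))) →
      (∀ P : Place Kb ↥(modularFunctionFieldBar (M * q)),
        P.ord ((h1 : R₁.O) : ↥(modularFunctionFieldBar (M * q))) < 0 →
        placeMap H (resAlong (heckeAlphaBar Kb M q) hα P) ≠ Q) → 0 ≤ Q.ord (R₁.red h1) := by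
    intro Q h1 h2 h12 hh
    have hV₂ : ((h1 : R₁.O) : ↥(modularFunctionFieldBar (M * q))) ∈ R₁.O.comap
        (w : ↥(modularFunctionFieldBar (M * q)) →+* ↥(modularFunctionFieldBar (M * q))) := by
      rw [h12]
      exact h2.2
    exact pc1_X0 hqM hA H hα G₀ h₁ h₂ Q h1 hV₂ hh
  have pc2 := Fermat.Agent.S34.PcgSwap.pc2_of_swap (placeMap H) (heckeAlphaBar Kb M q)
    (heckeBetaBar Kb M q) hα hβ w hwb hww R₁ pc1
  -- the cusps
  have hsp1 : ∀ P : Place Kb ↥(modularFunctionFieldBar (M * q)),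
      P ∈ {P | cuspDiv M (resAlong (heckeAlphaBar Kb M q) hα P) ≠ 0} →
      placeMap H (resAlong (heckeAlphaBar Kb M q) hα P) ∈ P0 (ResidueField ↥A) M :=
    fun P hP => placeMap_mem_cusp hA hqM H _ hP
  have hsp2 : ∀ P : Place Kb ↥(modularFunctionFieldBar (M * q)),
      P ∈ {P | cuspDiv M (resAlong (heckeAlphaBar Kb M q) hα P) ≠ 0} →
      placeMap H (resAlong (heckeBetaBar Kb M q) hβ P) ∈ P0 (ResidueField ↥A) M := by
    intro P hP
    refine placeMap_mem_cusp hA hqM H _ ?_
    rw [cuspL_beta_iff hβ, ord_jl_neg_iff hqM]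
    exact (cuspL_iff hα P).mp hP
  have hDpos : ∀ P : Place Kb ↥(modularFunctionFieldBar (M * q)),
      P ∈ {P | cuspDiv M (resAlong (heckeAlphaBar Kb M q) hα P) ≠ 0} → 0 < D hqM P :=
    fun P hP => D_pos hqM P ((cuspL_iff hα P).mp hP)
  -- the chart-0 gluing
  have glue0 := Fermat.Agent.S34.PcgOfChart.glue0_of_chart G₁ G₂ R₁ (smoothRedComap R₁ w) hO1 hO2
    hrd1 hrd2 (isPoleDiv_xE hqM).nonneg (Fr (ResidueField ↥A) M q)
    (fun P => placeMap H (resAlong (heckeAlphaBar Kb M q) hα P))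
    (fun P => placeMap H (resAlong (heckeBetaBar Kb M q) hβ P)) (P0 (ResidueField ↥A) M)
    {P | cuspDiv M (resAlong (heckeAlphaBar Kb M q) hα P) ≠ 0} hsp1 hsp2 hDpos pc1 pc2 S
    (fun x₁ x₂ r1 r2 => (hbS x₁ x₂ r1 r2).mp)
  -- the multiplier
  have ha2 : ∀ g : (redDatum H).O,
      (heckeAlphaBar Kb M q : _ →+* _) ((g : (redDatum H).O) : ↥(modularFunctionFieldBar M)) ∈
        (smoothRedComap R₁ w).O := by
    intro g
    show w (heckeAlphaBar Kb M q ((g : (redDatum H).O) : ↥(modularFunctionFieldBar M))) ∈ R₁.O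
    rw [hwa]
    exact hb1 g
  have hN : ∀ a ∈ S, ∀ PM : Place Kb ↥(modularFunctionFieldBar M), cuspDiv M PM ≠ 0 →
      placeMap H PM ≠ Fr (ResidueField ↥A) M q a := by
    intro a ha PM hPM heq
    have h1 : placeMap H PM ∈ P0 (ResidueField ↥A) M := placeMap_mem_cusp hA hqM H PM hPM
    rw [heq, Fr_mem_P0_iff] at h1
    exact (hS a ha).2 h1
  have mult := Fermat.Agent.S34.MultCusp.mult_cusp (redDatum H) IsLocalRing.residue_surjective HLM
    HK (Fermat.Agent.S34.NodeTransferX0.obGen_redDatum hA hqM H)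
    (restrAlong (heckeAlphaBar Kb M q) hα) R₁ (smoothRedComap R₁ w) ha1 hred1 ha2 (cuspDiv M)
    degree_cuspDiv_pos (Fr (ResidueField ↥A) M q) S hN
  exact Fermat.Agent.S34.PcgSwap.hyp_of_swap (placeMap H) (heckeAlphaBar Kb M q)
    (heckeBetaBar Kb M q) hα hβ w hwa hwb hww (Fr (ResidueField ↥A) M q) good R₁ hr
    HK.deg_one hFr2 _ S (fun c hc => (hS c hc).1) pc1 glue0 mult

end Main

end Fermat.Agent.S34.PcgX0
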