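/-
PROJECT U (S34), ROUTE G, FINAL ASSEMBLY, layer 3 (helper6):
THE TWO RECORDS `CoreZX0Assembly.Inputs`, `CoreZX0Build.NodesC` AT `X₀(M q)`, AND (Core-Z) FROM `GenericAt`.

* `goodX0` : the good places (`Generic/GoodK.IsGood`);
* `GenericX0 hA hqM H` : the ONE remaining analytic input, `Generic.Compat.GenericAt` at every good
  place for the branch `Generic/BranchX0.B1X0`;
* `inputsX0 hA hqM H hgen : Inputs hA hqM H` (`BranchX0` + `GoodK` + `ResidueFrobX0`);
* `exists_nodesX0` : the node record (`EulerClosedX0.exists_nodes_closed` + `PcgX0.hyp_X0`);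
* `principalHyp_of_generic`, `coreZHyp_of_generic`.
-/
import Fermat.Agent.S34.CoreZX0Build
import Fermat.Agent.S34.Generic.BranchX0
import Fermat.Agent.S34.Generic.GoodK
import Fermat.Agent.S34.EulerClosedX0
import Fermat.Agent.S34.PcgX0

set_option autoImplicit false
set_option linter.unusedSectionVars false
set_option linter.style.haveILetI false
set_option synthInstance.maxHeartbeats 400000

noncomputable section

namespace Fermat.Agent.S34.CoreZX0OfGeneric

open ModularCurve AlgebraicCurve IsLocalRing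
open Fermat.Agent.S18.NonSpecial Fermat.Agent.S34.NodalDefs
open Fermat.Agent.S34.Z1X0 Fermat.Agent.S34.CoreZX0Datum Fermat.Agent.S34.CoreZX0Assembly
open Fermat.Agent.S34.CoreZX0Build
open Fermat.Agent.S37.Deuring.Core Fermat.Agent.S37.Gauss.Datum
open Fermat.Agent.S34.Generic.Compat Fermat.Agent.S34.Generic.RestrAlong
open Fermat.Agent.S34.Generic.SmoothRedOfGeneric Fermat.Agent.S34.Generic.SwapX0
open Fermat.Agent.S34.Generic.FibAlphaX0 Fermat.Agent.S34.Generic.FibBetaX0
open Fermat.Agent.S34.Generic.BranchX0 Fermat.Agent.S34.Generic.GoodK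
open Fermat.Agent.S34.WqGalois

local notation "Kb" => AlgebraicClosure ℚ

attribute [local instance 2000] Fermat.Agent.S34.EulerX0.algResFk

/-- shortcut instances (all propositions) -/
local instance instPDBar (N : ℕ) [NeZero N] :
    HasPrincipalDivisors Kb ↥(modularFunctionFieldBar N) :=
  Fermat.Agent.S18.A.Instances.hasPrincipalDivisors_bar N

local instance instPDFk (A : ValuationSubring Kb) (N : ℕ) [NeZero N] :
    HasPrincipalDivisors (ResidueField ↥A) ↥(modularFunctionFieldFullC (ResidueField ↥A) N) :=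
  Fermat.Agent.S37.ReductionInputs.hasPrincipalDivisors_Fk A N

local instance instACk (A : ValuationSubring Kb) : IsAlgClosed (ResidueField ↥A) :=
  Fermat.Agent.S18.ResidueBasics.isAlgClosed_residueField A

local instance instInfk (A : ValuationSubring Kb) : Infinite (ResidueField ↥A) :=
  Fermat.Agent.S37.ReductionInputs.infinite_residueField A

local instance instNeZeroMul (M q : ℕ) [NeZero M] [NeZero q] : NeZero (M * q) :=
  ⟨Nat.mul_ne_zero (NeZero.ne M) (NeZero.ne q)⟩

variable {q : ℕ} [hq : Fact q.Prime] {M : ℕ} [NeZero M] {A : ValuationSubring Kb} [NeZero q]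
variable (hA : A.LiesOverPrime q) (hqM : ¬ q ∣ M)
variable {gL gk : ℕ} (H : Hyp (gaussDatum M A hA hqM) gL gk)
variable [CharP (ResidueField ↥A) q]

/-- the good places of `κ = k(X₀(M))` -/
def goodX0 (A : ValuationSubring Kb) (M q : ℕ) [NeZero M] [Fact q.Prime]
    [CharP (ResidueField ↥A) q] :
    Set (Place (ResidueField ↥A) ↥(modularFunctionFieldFullC (ResidueField ↥A) M)) :=
  {Q | IsGood (ResidueField ↥A) M q Q}

/-- **THE remaining analytic input**: `GenericAt` at every good place. -/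
def GenericX0 : Prop :=
  ∀ Q ∈ goodX0 A M q, GenericAt (r := placeMap H) (raX hqM) (rbX M q)
    (redOneOfBranch (R := redDatum H) (B1X0 hA hqM) (hα hA hqM) (hredα hA hqM) (hβ hA hqM)) Q
    (Fermat.Agent.S34.FrobK.Fr (ResidueField ↥A) M q Q)
    ((Fermat.Agent.S34.FrobK.Fr (ResidueField ↥A) M q).symm Q)

variable {hA hqM H}

/-- **Record 1 at `X₀(M q)`.** -/
def inputsX0 (hgen : GenericX0 hA hqM H) : Inputs hA hqM H where
  B₁ := B1X0 hA hqM
  O_eq := B1X0_O hA hqM
  α_mem := hα hA hqM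
  red_α := hredα hA hqM
  β_mem := hβ hA hqM
  comap_eq := by
    rw [← B1X0_O hA hqM]
    exact branchComap_O hA hqM
  good := goodX0 A M q
  generic := hgen
  finite_compl := finite_compl_good (ResidueField ↥A) M q
  Fr_Fr_ne := fun Q hQ =>
    Fermat.Agent.S34.Generic.FiniteNonGeneric.Fr_Fr_ne_of_generic (ResidueField ↥A) M q Q hQ.1
  Fr_mem_iff := fun Q => isGood_Fr_iff (ResidueField ↥A) M q Q
  stable := Fermat.Agent.S34.ResidueFrobX0.exists_finite_stable_X0 hA M

variable (hA hqM) in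
/-- Deuring's hypotheses at level `M`, from Riemann's theorem on `κ` alone -/
theorem HX0 {gM : ℕ}
    (HM : RiemannHyp (ResidueField ↥A) ↥(modularFunctionFieldFullC (ResidueField ↥A) M) gM) :
    Hyp (gaussDatum M A hA hqM) gM gM :=
  Fermat.Agent.S37.ReductionInputsX0.hyp_X0 M A hA hqM
    (Fermat.Agent.S34.NodalCoreX0.riemannHyp_bar_of_riemannHyp_k hA hqM HM) HM le_rfl

set_option maxHeartbeats 1600000 in
/-- **Record 2 at `X₀(M q)`**: the nodes. -/
theorem exists_nodesX0 {gM : ℕ}
    (HM : RiemannHyp (ResidueField ↥A) ↥(modularFunctionFieldFullC (ResidueField ↥A) M) gM)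
    (hgen : GenericX0 hA hqM (HX0 hA hqM HM)) :
    Nonempty (NodesC (inputsX0 hgen)) := by
  haveI : PerfectField (ResidueField ↥A) := inferInstance
  obtain ⟨g, HL⟩ := Fermat.Agent.S18.A.RiemannFk.exists_riemannHyp_FL (M * q)
  obtain ⟨S, hS, hNC, hbS⟩ := Fermat.Agent.S34.EulerClosedX0.exists_nodes_closed hA hqM HL HM
  set H := HX0 hA hqM HM with hH
  set X := inputsX0 hgen with hX
  have hyp := Fermat.Agent.S34.PcgX0.hyp_X0 hqM hA H (isIntegral_alpha hqM) (isIntegral_beta M q)
    (wq M q hq.out hqM) (fun g => wq_alpha hq.out hqM g) (fun g => wq_beta hq.out hqM g)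
    (fun x => wq_wq hq.out hqM x) (goodX0 A M q) (R1 X) (R1_r X) X.Fr_Fr_ne
    (isExt₁ hA hqM) (isExt_comap hA hqM) X.α_mem X.red_α X.β_mem H.riemannL H.riemannK
    (Fermat.Agent.S34.EulerClosedX0.G1X0 hA hqM) (Fermat.Agent.S34.EulerClosedX0.G2X0 hA hqM)
    (fun f h => h) (fun f h => h) (fun f h h' => rfl) (fun f h h' => rfl) S hS hbS
  exact ⟨{ S := S, cuspL := _, hyp := hyp, gE := g, HL := HL, hNC := hNC }⟩

/-- **(Core-Z) at `E = ℚ̄(X₀(M q))` in divisor language, from `GenericAt` at the good places.** -/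
theorem principalHyp_of_generic {q : ℕ} [hq : Fact q.Prime] {M : ℕ} [NeZero M] [NeZero q] {p : ℕ}
    (hp : p.Prime) (hpq : p ≠ q)
    (hgen : ∀ (A : ValuationSubring Kb) (hA : A.LiesOverPrime q) (hqM : ¬ q ∣ M),
      haveI := Fermat.Agent.S18.ResidueBasics.charP_residueField A hA
      ∀ (gM : ℕ) (HM : RiemannHyp (ResidueField ↥A)
        ↥(modularFunctionFieldFullC (ResidueField ↥A) M) gM), GenericX0 hA hqM (HX0 hA hqM HM)) :
    Fermat.Agent.S34.CoreZX0OfPrincipal.PrincipalHyp M q p := by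
  refine principalHyp_of_inputsC hp hpq fun A hA hqM => ?_
  haveI := Fermat.Agent.S18.ResidueBasics.charP_residueField A hA
  obtain ⟨gM, HM⟩ := Fermat.Agent.S18.A.RiemannFk.exists_riemannHyp_Fk' (ResidueField ↥A) M
    (Fermat.Agent.S18.B.SeparableFk.isSeparable_jk (ResidueField ↥A) M)
  exact ⟨gM, gM, HX0 hA hqM HM, inputsX0 (hgen A hA hqM gM HM), exists_nodesX0 HM _⟩

/-- **`CoreZHyp M q p` from `GenericAt` at the good places.** -/
theorem coreZHyp_of_generic {q : ℕ} [hq : Fact q.Prime] {M : ℕ} [NeZero M] [NeZero q] {p : ℕ}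
    (hp : p.Prime) (hpq : p ≠ q)
    (hgen : ∀ (A : ValuationSubring Kb) (hA : A.LiesOverPrime q) (hqM : ¬ q ∣ M),
      haveI := Fermat.Agent.S18.ResidueBasics.charP_residueField A hA
      ∀ (gM : ℕ) (HM : RiemannHyp (ResidueField ↥A)
        ↥(modularFunctionFieldFullC (ResidueField ↥A) M) gM), GenericX0 hA hqM (HX0 hA hqM HM)) :
    Fermat.Agent.S34.UOfCoreZ.CoreZHyp M q p :=
  Fermat.Agent.S34.CoreZX0OfPrincipal.coreZHyp_of_principalHyp hp.ne_zero
    (principalHyp_of_generic hp hpq hgen)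

end Fermat.Agent.S34.CoreZX0OfGeneric
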