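/-
PROJECT U (S34) / S35 (N2), ROUTE G, final assembly, supplement (helper6):
the node record of `CoreZX0OfGeneric.exists_nodesX0` TOGETHER WITH the facts about the node set
which the record forgets: the nodes are `Fr²`-fixed and are not cusps (first conjunct of
`EulerClosedX0.exists_nodes_closed`).  Consumed by `S35/FrobZX0.x0ExtOf` (`hfix`).
-/
import Fermat.Agent.S34.CoreZX0OfGeneric

set_option autoImplicit false
set_option linter.unusedSectionVars false
set_option linter.style.haveILetI false
set_option synthInstance.maxHeartbeats 400000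

noncomputable section

namespace Fermat.Agent.S34.CoreZX0Fix

open ModularCurve AlgebraicCurve IsLocalRing
open Fermat.Agent.S18.NonSpecial Fermat.Agent.S34.NodalDefs
open Fermat.Agent.S34.Z1X0 Fermat.Agent.S34.CoreZX0Datum Fermat.Agent.S34.CoreZX0Assembly
open Fermat.Agent.S34.CoreZX0Build Fermat.Agent.S34.CoreZX0OfGeneric
open Fermat.Agent.S37.Deuring.Core Fermat.Agent.S37.Gauss.Datum
open Fermat.Agent.S34.Generic.FibAlphaX0 Fermat.Agent.S34.Generic.FibBetaX0
open Fermat.Agent.S34.Generic.BranchX0 Fermat.Agent.S34.WqGalois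

local notation "Kb" => AlgebraicClosure ℚ

attribute [local instance 2000] Fermat.Agent.S34.EulerX0.algResFk

/-- shortcut instances (all propositions) -/
local instance instPDBar (N : ℕ) [NeZero N] :
    HasPrincipalDivisors Kb ↥(modularFunctionFieldBar N) :=
  Fermat.Agent.S18.A.Instances.hasPrincipalDivisors_bar N

local instance instPDFk (A : ValuationSubring Kb) (N : ℕ) [NeZero N] :
    HasPrincipalDivisors (ResidueField ↥A) ↥(modularFunctionFieldFullC (ResidueField ↥A) N) :=
  Fermat.Agent.S37.ReductionInputs.hasPrincipalDivisors_Fk A N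

local instance instACk (A : ValuationSubring Kb) : IsAlgClosed (ResidueField ↥A) :=
  Fermat.Agent.S18.ResidueBasics.isAlgClosed_residueField A

local instance instInfk (A : ValuationSubring Kb) : Infinite (ResidueField ↥A) :=
  Fermat.Agent.S37.ReductionInputs.infinite_residueField A

local instance instNeZeroMul (M q : ℕ) [NeZero M] [NeZero q] : NeZero (M * q) :=
  ⟨Nat.mul_ne_zero (NeZero.ne M) (NeZero.ne q)⟩

variable {q : ℕ} [hq : Fact q.Prime] {M : ℕ} [NeZero M] {A : ValuationSubring Kb} [NeZero q]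
variable {hA : A.LiesOverPrime q} {hqM : ¬ q ∣ M}
variable [CharP (ResidueField ↥A) q]

set_option maxHeartbeats 1600000 in
/-- **Record 2 at `X₀(M q)`, with the `Fr²`-fixedness of the nodes.** -/
theorem exists_nodesX0_fix {gM : ℕ}
    (HM : RiemannHyp (ResidueField ↥A) ↥(modularFunctionFieldFullC (ResidueField ↥A) M) gM)
    (hgen : GenericX0 hA hqM (HX0 hA hqM HM)) :
    ∃ Y : NodesC (inputsX0 hgen), ∀ b ∈ Y.S,
      Fermat.Agent.S34.FrobK.Fr (ResidueField ↥A) M q
          (Fermat.Agent.S34.FrobK.Fr (ResidueField ↥A) M q b) = b ∧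
        b ∉ Fermat.Agent.S34.Euler.FrobSide.P0 (ResidueField ↥A) M := by
  haveI : PerfectField (ResidueField ↥A) := inferInstance
  obtain ⟨g, HL⟩ := Fermat.Agent.S18.A.RiemannFk.exists_riemannHyp_FL (M * q)
  obtain ⟨S, hS, hNC, hbS⟩ := Fermat.Agent.S34.EulerClosedX0.exists_nodes_closed hA hqM HL HM
  set H := HX0 hA hqM HM with hH
  set X := inputsX0 hgen with hX
  have hyp := Fermat.Agent.S34.PcgX0.hyp_X0 hqM hA H (isIntegral_alpha hqM) (isIntegral_beta M q)
    (wq M q hq.out hqM) (fun g => wq_alpha hq.out hqM g) (fun g => wq_beta hq.out hqM g)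
    (fun x => wq_wq hq.out hqM x) (goodX0 A M q) (R1 X) (R1_r X) X.Fr_Fr_ne
    (isExt₁ hA hqM) (isExt_comap hA hqM) X.α_mem X.red_α X.β_mem H.riemannL H.riemannK
    (Fermat.Agent.S34.EulerClosedX0.G1X0 hA hqM) (Fermat.Agent.S34.EulerClosedX0.G2X0 hA hqM)
    (fun f h => h) (fun f h => h) (fun f h h' => rfl) (fun f h h' => rfl) S hS hbS
  exact ⟨{ S := S, cuspL := _, hyp := hyp, gE := g, HL := HL, hNC := hNC }, hS⟩

end Fermat.Agent.S34.CoreZX0Fix
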