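/-
PROJECT U (S34) / S35, ROUTE G, FINAL ASSEMBLY, layer 4 (helper6):
(Core-Z) AT `E = ℚ̄(X₀(M q))` FROM THE TWO LIFTING STATEMENTS (Bφ), (Bsep) OF LEVEL `M`.

`LiftX0 hA hqM H` : the fields `B_φ`, `B_sep` of `Dich.DichHyp` at `X₀(qM)` for the test functions
`DichRecordX0.BX0` (Gauss-integral functions of level `M`, regular on all non-cuspidal discs).

* `genericX0_of_lift : LiftX0 hA hqM H → CoreZX0OfGeneric.GenericX0 hA hqM H`
  (`Generic/GenericX0.generic_X0` + `Generic/DichRecordX0.dichHyp_of`);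
* `principalHyp_of_lift`, `coreZHyp_of_lift`;
* `exists_inputs_of_lift` : the two records with the `Fr²`-fixedness of the nodes (input of S35).
-/
import Fermat.Agent.S34.CoreZX0Fix
import Fermat.Agent.S34.Generic.GenericX0
import Fermat.Agent.S34.Generic.DichRecordX0

set_option autoImplicit false
set_option linter.unusedSectionVars false
set_option linter.style.haveILetI false
set_option synthInstance.maxHeartbeats 400000

noncomputable section

namespace Fermat.Agent.S34.CoreZX0OfLift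

open ModularCurve AlgebraicCurve IsLocalRing
open Fermat.Agent.S18.NonSpecial
open Fermat.Agent.S37.Deuring.Core Fermat.Agent.S37.Gauss.Datum
open Fermat.Agent.S34.Generic.BranchX0 Fermat.Agent.S34.Generic.GoodK
open Fermat.Agent.S34.Generic.DichRecordX0 Fermat.Agent.S34.CoreZX0OfGeneric
open Fermat.Agent.S34.Generic.Dich Fermat.Agent.S34.CoreZX0Assembly Fermat.Agent.S34.CoreZX0Build

local notation "Kb" => AlgebraicClosure ℚ

attribute [local instance] Fermat.Agent.S18.GaussFromHBar.hasPrincipalDivisors_bar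
attribute [local instance] Fermat.Agent.S37.ReductionInputs.hasPrincipalDivisors_Fk
attribute [local instance] Fermat.Agent.S37.ReductionInputs.infinite_residueField
attribute [local instance] Fermat.Agent.S18.ResidueBasics.isAlgClosed_residueField

variable {q : ℕ} [hq : Fact q.Prime] {M : ℕ} [NeZero M] {A : ValuationSubring Kb} [NeZero q]
variable (hA : A.LiesOverPrime q) (hqM : ¬ q ∣ M)
variable {gL gk : ℕ} (H : Hyp (gaussDatum M A hA hqM) gL gk)
variable [CharP (ResidueField ↥A) q]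

/-- **The two lifting statements** (`B_φ`, `B_sep` of `Dich.DichHyp`) at level `M`. -/
def LiftX0 : Prop :=
  (∀ g ∈ BX0 hA hqM H, ∃ g' ∈ BX0 hA hqM H, (redDatum H).red g' =
      (Fermat.Agent.S34.FrobK.phi (ResidueField ↥A) M q : _ →+* _) ((redDatum H).red g)) ∧
    ∀ Q₁ ∈ NCX0 A M, ∀ Q₂ ∈ NCX0 A M,
      (∀ g ∈ BX0 hA hqM H, ∀ γ : ResidueField ↥A,
        HasVal Q₁ ((redDatum H).red g) γ → HasVal Q₂ ((redDatum H).red g) γ) → Q₁ = Q₂

variable {hA hqM H}

/-- `GenericAt` at every good place, from the two lifting statements -/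
theorem genericX0_of_lift (hL : LiftX0 hA hqM H) : GenericX0 hA hqM H := fun Q hQ =>
  Fermat.Agent.S34.Generic.GenericX0.generic_X0 hA hqM H (B1X0 hA hqM) (isExt₁ hA hqM)
    (isExt_comap hA hqM) (hα hA hqM) (hredα hA hqM) (hβ hA hqM) (hredβ hA hqM)
    (dichHyp_of hA hqM H hL.1 hL.2) (mem_NCX0) (jO_mem_BX0 hA hqM H) Q hQ

/-- **(Core-Z) in divisor language, from the two lifting statements.** -/
theorem principalHyp_of_lift {q : ℕ} [hq : Fact q.Prime] {M : ℕ} [NeZero M] [NeZero q] {p : ℕ}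
    (hp : p.Prime) (hpq : p ≠ q)
    (hL : ∀ (A : ValuationSubring Kb) (hA : A.LiesOverPrime q) (hqM : ¬ q ∣ M),
      haveI := Fermat.Agent.S18.ResidueBasics.charP_residueField A hA
      ∀ (gM : ℕ) (HM : RiemannHyp (ResidueField ↥A)
        ↥(modularFunctionFieldFullC (ResidueField ↥A) M) gM), LiftX0 hA hqM (HX0 hA hqM HM)) :
    Fermat.Agent.S34.CoreZX0OfPrincipal.PrincipalHyp M q p :=
  principalHyp_of_generic hp hpq fun A hA hqM =>
    haveI := Fermat.Agent.S18.ResidueBasics.charP_residueField A hA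
    fun gM HM => genericX0_of_lift (hL A hA hqM gM HM)

/-- **`CoreZHyp M q p` from the two lifting statements.** -/
theorem coreZHyp_of_lift {q : ℕ} [hq : Fact q.Prime] {M : ℕ} [NeZero M] [NeZero q] {p : ℕ}
    (hp : p.Prime) (hpq : p ≠ q)
    (hL : ∀ (A : ValuationSubring Kb) (hA : A.LiesOverPrime q) (hqM : ¬ q ∣ M),
      haveI := Fermat.Agent.S18.ResidueBasics.charP_residueField A hA
      ∀ (gM : ℕ) (HM : RiemannHyp (ResidueField ↥A)
        ↥(modularFunctionFieldFullC (ResidueField ↥A) M) gM), LiftX0 hA hqM (HX0 hA hqM HM)) :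
    Fermat.Agent.S34.UOfCoreZ.CoreZHyp M q p :=
  Fermat.Agent.S34.CoreZX0OfPrincipal.coreZHyp_of_principalHyp hp.ne_zero
    (principalHyp_of_lift hp hpq hL)

/-- **The two records with the `Fr²`-fixedness of the nodes** (input of S35 (N2)). -/
theorem exists_inputs_of_lift {gM : ℕ}
    (HM : RiemannHyp (ResidueField ↥A) ↥(modularFunctionFieldFullC (ResidueField ↥A) M) gM)
    (hL : LiftX0 hA hqM (HX0 hA hqM HM)) :
    ∃ (X : Inputs hA hqM (HX0 hA hqM HM)) (Y : NodesC X), ∀ b ∈ Y.S,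
      Fermat.Agent.S34.FrobK.Fr (ResidueField ↥A) M q
        (Fermat.Agent.S34.FrobK.Fr (ResidueField ↥A) M q b) = b := by
  obtain ⟨Y, hY⟩ := Fermat.Agent.S34.CoreZX0Fix.exists_nodesX0_fix HM (genericX0_of_lift hL)
  exact ⟨inputsX0 (genericX0_of_lift hL), Y, fun b hb => (hY b hb).1⟩

end Fermat.Agent.S34.CoreZX0OfLift
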