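/-
PROJECT U (S34), Route G, `k`-side: **parameters and separating functions in the holomorphy rings
of `F_k = modularFunctionFieldFullC k N`**, on top of `S34/FrobK.lean`.

`S` a set of places containing a place `Q0` (the "points at infinity" of the chart), `holo k N S`
the functions regular off `S`, `hR : RiemannHyp k F_k gk`.

* `exists_holo_values` : prescribed values at finitely many places off `S`, inside `holo S`;
* `exists_holo_param` : for `v ∉ S` there is `g ∈ holo S` with `ord_v g = 1`;
* `exists_holo_sep` : for `v ≠ w` off `S` there is `g ∈ holo S` with `0 < ord_v g`, `ord_w g = 0`;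
* `exists_holo_sub_phi_phi_param` : at an `Fr²`-fixed place `v ∉ S` some `g ∈ holo S` has
  `ord_v (g - φ² g) = 1`;
* `exists_holo_sub_phi_phi_unit` : at a place `v ∉ S` with `Fr² v ≠ v`, `Fr² v ∉ S`, some
  `g ∈ holo S` has `ord_v (g - φ² g) = 0`.

So the ideal `J = span {g - φ² g | g ∈ holo S}` of `holo S` (`S` finite, `Fr`-stable) has order `1`
at the `Fr²`-fixed places off `S` and order `0` at all other places off `S`: it is the radical
ideal of the `Fr²`-fixed points, the input of the sandwich `(G3)`.
-/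
import Mathlib
import Fermat.Agent.S34.FrobK
import Fermat.Agent.S34.GlueG.EvalSurj
import Fermat.Agent.S18.NonSpecial

set_option autoImplicit false
set_option linter.unusedSectionVars false
set_option linter.style.haveILetI false

noncomputable section

namespace Fermat.Agent.S34.FrobKSep

open AlgebraicCurve ModularCurve IntermediateField
open Fermat.Agent.S34.FrobK Fermat.Agent.S18.NonSpecial

variable (k : Type*) [Field k] (N : ℕ) [NeZero N]

section Values

variable {gk : ℕ} (hR : RiemannHyp k ↥(modularFunctionFieldFullC k N) gk)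
variable {S : Set (Place k ↥(modularFunctionFieldFullC k N))}
variable {Q0 : Place k ↥(modularFunctionFieldFullC k N)} (hQ0 : Q0 ∈ S)

include hQ0 in
/-- `L(m Q0) ⊆ holo S` -/
theorem rr_single_le_holo (m : ℤ) {y : ↥(modularFunctionFieldFullC k N)}
    (hy : y ∈ riemannRochSpace (Finsupp.single Q0 m : Divisor k ↥(modularFunctionFieldFullC k N))) :
    y ∈ holo k N S := by
  classical
  intro v hv
  have hne : Q0 ≠ v := fun h => hv (h ▸ hQ0)
  have h1 := hy v
  rw [Finsupp.single_apply, if_neg hne, WithZero.exp_zero] at h1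
  exact (Fermat.Agent.S24.Ord.mem_iff v y).mpr h1

include hR hQ0 in
/-- **prescribed values** at finitely many places off `S`, by a function regular off `S` -/
theorem exists_holo_values (T : Finset (Place k ↥(modularFunctionFieldFullC k N)))
    (hT : ∀ Q ∈ T, Q ∉ S) (t : Place k ↥(modularFunctionFieldFullC k N) → k) :
    ∃ y ∈ holo k N S, ∀ Q ∈ T,
      Q.adicValuation (y - algebraMap k ↥(modularFunctionFieldFullC k N) (t Q)) < 1 := by
  classical
  obtain ⟨c, hc⟩ := Fermat.Agent.S34.GlueG.EvalSurj.exists_eval_surjective hR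
  set m : ℤ := max 0 (c + T.card) with hm
  set D : Divisor k ↥(modularFunctionFieldFullC k N) := Finsupp.single Q0 m with hD
  have hDT : ∀ Q ∈ T, D Q = 0 := by
    intro Q hQ
    have hne : Q0 ≠ Q := fun h => hT Q hQ (h ▸ hQ0)
    rw [hD, Finsupp.single_apply, if_neg hne]
  have hdeg : c + T.card ≤ Divisor.degree D := by
    rw [hD, Divisor.degree_single, hR.deg_one Q0]
    simp only [Nat.cast_one, mul_one]
    exact le_max_right _ _
  obtain ⟨y, hy, hval⟩ := hc D T hDT hdeg t
  exact ⟨y, rr_single_le_holo k N hQ0 m hy, hval⟩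

include hR hQ0 in
/-- **separation**: for two distinct places off `S` a function regular off `S` vanishing at the
first and not at the second -/
theorem exists_holo_sep {v w : Place k ↥(modularFunctionFieldFullC k N)} (hv : v ∉ S) (hw : w ∉ S)
    (hvw : v ≠ w) : ∃ g ∈ holo k N S, g ≠ 0 ∧ 0 < v.ord g ∧ w.ord g = 0 := by
  classical
  obtain ⟨y, hy, hval⟩ := exists_holo_values k N hR hQ0 {v, w}
    (by
      intro Q hQ
      rcases Finset.mem_insert.mp hQ with rfl | hQ
      · exact hv
      · rw [Finset.mem_singleton] at hQ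
        exact hQ ▸ hw)
    (fun Q => if Q = v then 0 else 1)
  have h1 := hval v (Finset.mem_insert_self _ _)
  have h2 := hval w (Finset.mem_insert_of_mem (Finset.mem_singleton_self _))
  rw [if_pos rfl, map_zero, sub_zero] at h1
  rw [if_neg (Ne.symm hvw), map_one] at h2
  -- `y` is a unit at `w`
  have hyw : w.adicValuation y = 1 := by
    have := Valuation.map_sub_eq_of_lt_left w.adicValuation (x := (1 : ↥(modularFunctionFieldFullC k N)))
      (y := 1 - y) (by
        rw [Valuation.map_one, ← Valuation.map_neg, neg_sub]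
        exact h2)
    rw [sub_sub_cancel, Valuation.map_one] at this
    exact this
  have hy0 : y ≠ 0 := by
    rintro rfl
    rw [map_zero] at hyw
    exact zero_ne_one hyw
  refine ⟨y, hy, hy0, (Fermat.Agent.S24.Ord.ord_pos_iff v hy0).mpr h1, ?_⟩
  rw [Fermat.Agent.S24.Ord.ord_eq, hyw, WithZero.log_one, neg_zero]

include hR hQ0 in
/-- **parameters**: for `v ∉ S` a function regular off `S` with a simple zero at `v` -/
theorem exists_holo_param {v : Place k ↥(modularFunctionFieldFullC k N)} (hv : v ∉ S) :
    ∃ g ∈ holo k N S, v.ord g = 1 := by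
  classical
  obtain ⟨c, hc⟩ := hR.riemann_eq
  have hne : Q0 ≠ v := fun h => hv (h ▸ hQ0)
  set m : ℤ := max 0 (c + 2) with hm
  set D1 : Divisor k ↥(modularFunctionFieldFullC k N) :=
    Finsupp.single Q0 m - Finsupp.single v 1 with hD1
  set D2 : Divisor k ↥(modularFunctionFieldFullC k N) :=
    Finsupp.single Q0 m - Finsupp.single v 2 with hD2
  have hdeg1 : Divisor.degree D1 = m - 1 := by
    rw [hD1, map_sub, Divisor.degree_single, Divisor.degree_single, hR.deg_one, hR.deg_one]
    simp
  have hdeg2 : Divisor.degree D2 = m - 2 := by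
    rw [hD2, map_sub, Divisor.degree_single, Divisor.degree_single, hR.deg_one, hR.deg_one]
    simp
  have hmc : c + 2 ≤ m := le_max_right _ _
  have he1 := hc D1 (by rw [hdeg1]; omega)
  have he2 := hc D2 (by rw [hdeg2]; omega)
  have hle : D2 ≤ D1 := by
    rw [hD1, hD2]
    refine sub_le_sub_left ?_ _
    intro P
    rw [Finsupp.single_apply, Finsupp.single_apply]
    split_ifs <;> norm_num
  have hlt : riemannRochSpace D2 < riemannRochSpace D1 := by
    refine lt_of_le_of_ne (riemannRochSpace_mono hle) fun heq => ?_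
    have : ell D2 = ell D1 := by unfold ell; rw [heq]
    rw [hdeg1] at he1
    rw [hdeg2] at he2
    omega
  obtain ⟨g, hg1, hg2⟩ := SetLike.exists_of_lt hlt
  have hg0 : g ≠ 0 := fun h => hg2 (h ▸ zero_mem _)
  rw [mem_riemannRochSpace_iff] at hg1 hg2
  have hgv : 1 ≤ v.ord g := by
    have := (hg1 v).resolve_left hg0
    rw [hD1, Finsupp.sub_apply, Finsupp.single_apply, if_neg hne, Finsupp.single_apply,
      if_pos rfl] at this
    omega
  refine ⟨g, ?_, ?_⟩
  · intro w hw
    have hnew : Q0 ≠ w := fun h => hw (h ▸ hQ0)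
    rw [Fermat.Agent.S24.Ord.mem_iff, ← Fermat.Agent.S24.Ord.ord_nonneg_iff w hg0]
    have := (hg1 w).resolve_left hg0
    rw [hD1, Finsupp.sub_apply, Finsupp.single_apply, if_neg hnew, Finsupp.single_apply] at this
    split_ifs at this with hvw
    · subst hvw
      omega
    · omega
  · by_contra hne1
    have h2 : 2 ≤ v.ord g := by omega
    apply hg2
    intro w
    right
    have := (hg1 w).resolve_left hg0
    rw [hD1, Finsupp.sub_apply, Finsupp.single_apply, Finsupp.single_apply] at this
    rw [hD2, Finsupp.sub_apply, Finsupp.single_apply, Finsupp.single_apply]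
    by_cases hvw : v = w
    · subst hvw
      rw [if_neg hne, if_pos rfl]
      rw [if_neg hne, if_pos rfl] at this
      omega
    · rw [if_neg hvw]
      rw [if_neg hvw] at this
      exact this

end Values

/-! ### the ideal `J = span {g - φ² g}` -/

section Ideal

variable (q : ℕ) [hq : Fact q.Prime] [CharP k q] [PerfectField k]
variable {gk : ℕ} (hR : RiemannHyp k ↥(modularFunctionFieldFullC k N) gk)
variable {S : Set (Place k ↥(modularFunctionFieldFullC k N))}
variable {Q0 : Place k ↥(modularFunctionFieldFullC k N)} (hQ0 : Q0 ∈ S)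

include hR hQ0 in
/-- at an `Fr²`-fixed place off `S`, some `g - φ² g` with `g ∈ holo S` is a parameter -/
theorem exists_holo_sub_phi_phi_param {v : Place k ↥(modularFunctionFieldFullC k N)} (hv : v ∉ S)
    (hfix : Fr k N q (Fr k N q v) = v) :
    ∃ g ∈ holo k N S, v.ord (g - phi k N q (phi k N q g)) = 1 := by
  obtain ⟨g, hg, hg1⟩ := exists_holo_param k N hR hQ0 hv
  exact ⟨g, hg, ord_sub_phi_phi k N q v hfix g hg1⟩

include hR hQ0 in
/-- at a place `v ∉ S` not fixed by `Fr²` (with `Fr² v ∉ S`), some `g - φ² g` with `g ∈ holo S`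
is a unit -/
theorem exists_holo_sub_phi_phi_unit {v : Place k ↥(modularFunctionFieldFullC k N)} (hv : v ∉ S)
    (hv2 : Fr k N q (Fr k N q v) ∉ S) (hfix : Fr k N q (Fr k N q v) ≠ v) :
    ∃ g ∈ holo k N S, g - phi k N q (phi k N q g) ≠ 0 ∧
      v.ord (g - phi k N q (phi k N q g)) = 0 := by
  obtain ⟨g, hg, hg0, hgv, hgw⟩ := exists_holo_sep k N hR hQ0 hv hv2 (Ne.symm hfix)
  have h2 : v.ord (phi k N q (phi k N q g)) = 0 := by
    rw [ord_phi, ord_phi, hgw]
    ring
  have hpp0 : phi k N q (phi k N q g) ≠ 0 := phi_ne_zero k N q (phi_ne_zero k N q hg0)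
  have hlt : v.ord (-(phi k N q (phi k N q g))) < v.ord g := by
    rw [Fermat.Agent.S18.CoreOrd.ord_neg', h2]
    exact hgv
  have hord : v.ord (g - phi k N q (phi k N q g)) = 0 := by
    rw [sub_eq_add_neg, add_comm,
      Fermat.Agent.S18.CoreOrd.ord_add_eq_of_lt v (neg_ne_zero.mpr hpp0) hg0 hlt,
      Fermat.Agent.S18.CoreOrd.ord_neg', h2]
  refine ⟨g, hg, ?_, hord⟩
  intro h0
  -- `g = φ² g` would give `0 < ord_v g = ord_v (φ² g) = 0`
  have : g = phi k N q (phi k N q g) := sub_eq_zero.mp h0
  rw [this, h2] at hgv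
  exact lt_irrefl _ hgv

/-- every `g - φ² g` with `g` regular at `v` and `Fr² v = v` vanishes at `v` -/
theorem ord_sub_phi_phi_pos {v : Place k ↥(modularFunctionFieldFullC k N)} [IsAlgClosed k]
    (hfix : Fr k N q (Fr k N q v) = v) {g : ↥(modularFunctionFieldFullC k N)}
    (hg : g ∈ v.toValuationSubring) (hne : g - phi k N q (phi k N q g) ≠ 0) :
    0 < v.ord (g - phi k N q (phi k N q g)) := by
  -- value `c` of `g` at `v`
  obtain ⟨c, hc⟩ := Fermat.Agent.S24.Ord.exists_sub_lt_one
    (Fermat.Agent.S18.B.FkBasics.isFF k N) v ((Fermat.Agent.S24.Ord.mem_iff v g).mp hg)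
  set g' := g - algebraMap k ↥(modularFunctionFieldFullC k N) c with hg'
  have hdiff : g - phi k N q (phi k N q g) = g' - phi k N q (phi k N q g') := by
    rw [hg', map_sub, map_sub, phi_algebraMap, phi_algebraMap]
    ring
  rw [hdiff] at hne ⊢
  rcases eq_or_ne g' 0 with h0 | h0
  · rw [h0, map_zero, map_zero, sub_zero] at hne
    exact absurd rfl hne
  have hpos : 0 < v.ord g' := (Fermat.Agent.S24.Ord.ord_pos_iff v h0).mpr hc
  rw [ord_sub_phi_phi_of_pos k N q v hfix g' hpos]
  exact hpos

end Ideal

end Fermat.Agent.S34.FrobKSep
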