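import Mathlib
import Fermat.Agent.S34.LevelMSurj

/-!
# PROJECT U (S34): lifting functions through the reduction with control of the discs of the poles

Setting of `S34/LevelMSurj.lean` (`H : Hyp G gL gk`, `r = placeMap H`, `red` onto).  Every
`y ∈ Fk` is `red f` for some `f ∈ O` all of whose poles `P` specialise (`r P`) to a pole of `y` or to
a place `Q₀` chosen in advance:

* `exists_lift_poles_over` : the basic statement;
* `exists_lift_regular_over` : if `y` is regular at every place of a set `T ≠ univ`, then `f` can be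
  chosen regular at every place `P` of `FL` with `r P ∈ T` (regular on the residue discs of `T`).
-/

set_option autoImplicit false
set_option linter.unusedSectionVars false

noncomputable section

namespace Fermat.Agent.S34.LevelMLift

open AlgebraicCurve Fermat.Agent.S18.NonSpecial Fermat.Agent.S37.Deuring.Core
  Fermat.Agent.S34.LevelMSurj

variable {L : Type*} [Field L] {k : Type*} [Field k]
variable {A : ValuationSubring L} {π : A →+* k}
variable {FL : Type*} [Field FL] [Algebra L FL] {Fk : Type*} [Field Fk] [Algebra k Fk]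
variable {G : GaussDatum A π FL Fk} {gL gk : ℕ}
variable [HasPrincipalDivisors L FL] [HasPrincipalDivisors k Fk] [Infinite k]

/-- **Lifting with control of the discs of the poles**: every `y ∈ Fk` is the reduction of some
`f ∈ O` each of whose poles specialises to a pole of `y` or to the given place `Q₀`. -/
theorem exists_lift_poles_over (H : Hyp G gL gk) (hsurj : Function.Surjective G.red) (y : Fk)
    (Q₀ : Place k Fk) :
    ∃ f : G.O, G.red f = y ∧ ∀ P : Place L FL, (f : FL) = 0 ∨ 0 ≤ P.ord (f : FL) ∨
      placeMap H P = Q₀ ∨ (placeMap H P).ord y < 0 := by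
  classical
  by_cases hy0 : y = 0
  · exact ⟨0, by rw [map_zero, hy0], fun P => Or.inl rfl⟩
  set r := placeMap H with hr
  have hrs := placeMap_surjective H hsurj
  set s : Place k Fk → Place L FL := Function.surjInv hrs with hs
  have hrs' : ∀ Q, r (s Q) = Q := Function.surjInv_eq hrs
  obtain ⟨E, hE⟩ := exists_isPoleDiv (K := k) hy0
  set m : ℕ := (thr H).toNat with hm
  set D : Divisor L FL := Finsupp.mapDomain s E + Finsupp.single (s Q₀) (m : ℤ) with hD
  have hD0 : 0 ≤ D := by
    refine add_nonneg (mapDomain_nonneg s hE.nonneg) ?_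
    rw [Finsupp.le_def]
    intro v
    rw [Finsupp.single_apply]
    split_ifs <;> simp
  have hdeg : thr H ≤ Divisor.degree D := by
    rw [hD, map_add, Divisor.degree_single, H.riemannL.deg_one]
    have h1 := Fermat.Agent.S18.A.Riemann.degree_nonneg (mapDomain_nonneg s hE.nonneg)
    have h2 := Int.self_le_toNat (thr H)
    simp only [Nat.cast_one, mul_one]
    omega
  have hlarge : Large H D := ⟨hD0, hdeg⟩
  have hmap : Finsupp.mapDomain r D = E + Finsupp.single Q₀ (m : ℤ) := by
    rw [hD, Finsupp.mapDomain_add, Finsupp.mapDomain_single, hrs' Q₀, ← Finsupp.mapDomain_comp]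
    congr 1
    have : r ∘ s = id := funext hrs'
    rw [this, Finsupp.mapDomain_id]
  have hymem : y ∈ G.redSpace D := by
    rw [redSpace_eq H hlarge, bar_eq_mapDomain H hlarge, hmap, mem_riemannRochSpace_iff]
    intro Q
    right
    rw [Finsupp.add_apply, hE Q, Finsupp.single_apply]
    split_ifs <;> omega
  obtain ⟨f, hf, hfy⟩ := hymem
  refine ⟨f, hfy, fun P => ?_⟩
  by_cases hf0 : (f : FL) = 0
  · exact Or.inl hf0
  by_cases hP : 0 ≤ P.ord (f : FL)
  · exact Or.inr (Or.inl hP)
  right; right
  have h1 := ((mem_riemannRochSpace_iff.mp hf) P).resolve_left hf0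
  have hDP : 0 < D P := by omega
  rw [hD, Finsupp.add_apply, Finsupp.single_apply] at hDP
  by_cases hPQ : s Q₀ = P
  · left
    rw [← hPQ, hrs']
  · right
    rw [if_neg hPQ, add_zero] at hDP
    -- `P` lies in the support of `mapDomain s E`
    have hsupp : P ∈ (Finsupp.mapDomain s E).support :=
      Finsupp.mem_support_iff.mpr (ne_of_gt hDP)
    have h2 := Finsupp.mapDomain_support hsupp
    obtain ⟨Q, hQ, rfl⟩ := Finset.mem_image.mp h2
    rw [hrs']
    have hEQ : E Q ≠ 0 := Finsupp.mem_support_iff.mp hQ
    have := hE Q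
    omega

/-- **Lifting with regularity on prescribed residue discs**: if `y ∈ Fk` is regular at every place
of `T` and `Q₀ ∉ T`, then `y = red f` with `f ∈ O` regular at every place `P` of `FL` which
specialises into `T`. -/
theorem exists_lift_regular_over (H : Hyp G gL gk) (hsurj : Function.Surjective G.red) (y : Fk)
    (T : Set (Place k Fk)) (Q₀ : Place k Fk) (hQ₀ : Q₀ ∉ T)
    (hy : ∀ Q ∈ T, y = 0 ∨ 0 ≤ Q.ord y) :
    ∃ f : G.O, G.red f = y ∧
      ∀ P : Place L FL, placeMap H P ∈ T → (f : FL) = 0 ∨ 0 ≤ P.ord (f : FL) := by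
  obtain ⟨f, hf, hP⟩ := exists_lift_poles_over H hsurj y Q₀
  refine ⟨f, hf, fun P hPT => ?_⟩
  rcases hP P with h | h | h | h
  · exact Or.inl h
  · exact Or.inr h
  · exact absurd (h ▸ hPT) hQ₀
  · rcases hy _ hPT with h0 | h0
    · left
      have : G.red f = 0 := by rw [hf, h0]
      have hnu := (G.red_eq_zero_iff f).mp this
      by_contra hne
      -- `f ≠ 0` with `red f = 0`, but then `y = 0` has no poles: contradiction with `h`
      rw [h0, Place.ord_zero] at h
      exact absurd h (lt_irrefl 0)
    · omega

end Fermat.Agent.S34.LevelMLift
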