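import Mathlib
import Fermat.Agent.S34.LevelMLift
import Fermat.Agent.S34.LevelMSurjX0

/-!
# PROJECT U (S34): lifting with control of the discs of the poles, at `X₀(M)`

Instances of `S34/LevelMLift.lean` at the Gauss datum `gaussDatum M A hA hqM` of `ℚ̄(X₀(M))`
(`q ∤ M`, `H : Hyp (gaussDatum M A hA hqM) gL gk`, `r = placeMap H`).
-/

set_option autoImplicit false
set_option linter.unusedSectionVars false
set_option linter.style.haveILetI false

noncomputable section

namespace Fermat.Agent.S34.LevelMLiftX0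

open AlgebraicCurve ModularCurve IsLocalRing
open Fermat.Agent.S37.Deuring.Core Fermat.Agent.S37.Gauss.Datum Fermat.Agent.S34.LevelMLift

local notation "Kb" => AlgebraicClosure ℚ

set_option synthInstance.maxHeartbeats 400000

variable {q : ℕ} [Fact q.Prime] {M : ℕ} [NeZero M] {A : ValuationSubring Kb}
variable (hA : A.LiesOverPrime q) (hqM : ¬ q ∣ M) {gL gk : ℕ}
variable (H : Hyp (gaussDatum M A hA hqM) gL gk)

/-- every `ȳ ∈ F_k(M)` is `G.red f` with `f ∈ G.O` each of whose poles specialises to a pole of `ȳ`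
or to the given place `Q₀` -/
theorem exists_lift_poles_over_X0 (y : ↥(modularFunctionFieldFullC (ResidueField ↥A) M))
    (Q₀ : Place (ResidueField ↥A) ↥(modularFunctionFieldFullC (ResidueField ↥A) M)) :
    haveI := Fermat.Agent.S18.ResidueBasics.isAlgClosed_residueField A
    haveI := Fermat.Agent.S18.GaussFromHBar.hasPrincipalDivisors_bar M
    haveI := Fermat.Agent.S37.ReductionInputs.hasPrincipalDivisors_Fk A M
    haveI := Fermat.Agent.S37.ReductionInputs.infinite_residueField A
    ∃ f : ↥(gaussDatum M A hA hqM).O, (gaussDatum M A hA hqM).red f = y ∧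
      ∀ P : Place Kb ↥(modularFunctionFieldBar M),
        (f : ↥(modularFunctionFieldBar M)) = 0 ∨ 0 ≤ P.ord (f : ↥(modularFunctionFieldBar M)) ∨
          placeMap H P = Q₀ ∨ (placeMap H P).ord y < 0 := by
  haveI := Fermat.Agent.S18.ResidueBasics.isAlgClosed_residueField A
  haveI := Fermat.Agent.S18.GaussFromHBar.hasPrincipalDivisors_bar M
  haveI := Fermat.Agent.S37.ReductionInputs.hasPrincipalDivisors_Fk A M
  haveI := Fermat.Agent.S37.ReductionInputs.infinite_residueField A
  exact exists_lift_poles_over H (red_surjective hA hqM) y Q₀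

/-- every `ȳ ∈ F_k(M)` regular on a set `T` of places (`Q₀ ∉ T`) is `G.red f` with `f ∈ G.O`
regular at every place of `ℚ̄(X₀(M))` which specialises into `T` -/
theorem exists_lift_regular_over_X0 (y : ↥(modularFunctionFieldFullC (ResidueField ↥A) M))
    (T : Set (Place (ResidueField ↥A) ↥(modularFunctionFieldFullC (ResidueField ↥A) M)))
    (Q₀ : Place (ResidueField ↥A) ↥(modularFunctionFieldFullC (ResidueField ↥A) M))
    (hQ₀ : Q₀ ∉ T) (hy : ∀ Q ∈ T, y = 0 ∨ 0 ≤ Q.ord y) :
    haveI := Fermat.Agent.S18.ResidueBasics.isAlgClosed_residueField A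
    haveI := Fermat.Agent.S18.GaussFromHBar.hasPrincipalDivisors_bar M
    haveI := Fermat.Agent.S37.ReductionInputs.hasPrincipalDivisors_Fk A M
    haveI := Fermat.Agent.S37.ReductionInputs.infinite_residueField A
    ∃ f : ↥(gaussDatum M A hA hqM).O, (gaussDatum M A hA hqM).red f = y ∧
      ∀ P : Place Kb ↥(modularFunctionFieldBar M), placeMap H P ∈ T →
        (f : ↥(modularFunctionFieldBar M)) = 0 ∨ 0 ≤ P.ord (f : ↥(modularFunctionFieldBar M)) := by
  haveI := Fermat.Agent.S18.ResidueBasics.isAlgClosed_residueField A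
  haveI := Fermat.Agent.S18.GaussFromHBar.hasPrincipalDivisors_bar M
  haveI := Fermat.Agent.S37.ReductionInputs.hasPrincipalDivisors_Fk A M
  haveI := Fermat.Agent.S37.ReductionInputs.infinite_residueField A
  exact exists_lift_regular_over H (red_surjective hA hqM) y T Q₀ hQ₀ hy

end Fermat.Agent.S34.LevelMLiftX0
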