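/-
PROJECT U (S34) / S35, ROUTE G, FINAL ASSEMBLY, top (helper6):
**(Core-Z) AT `E = ℚ̄(X₀(M q))`, NO HYPOTHESIS LEFT.**

* `liftX0 hA hqM H : CoreZX0OfLift.LiftX0 hA hqM H` (helper10's `Generic/DichLiftX0`);
* `genericX0` : `Generic.Compat.GenericAt` at every good place of `κ = k(X₀(M))`;
* `principalHyp M q p : p.Prime → p ≠ q → CoreZX0OfPrincipal.PrincipalHyp M q p`;
* `coreZHyp M q p : p.Prime → p ≠ q → UOfCoreZ.CoreZHyp M q p`;
* `exists_inputs` : the two records of the nodal datum with the `Fr²`-fixedness of the nodes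
  (input of S35 (N2)).
-/
import Fermat.Agent.S34.CoreZX0OfLift
import Fermat.Agent.S34.Generic.DichLiftX0

set_option autoImplicit false
set_option linter.unusedSectionVars false
set_option linter.style.haveILetI false
set_option synthInstance.maxHeartbeats 400000

noncomputable section

namespace Fermat.Agent.S34.CoreZX0

open ModularCurve AlgebraicCurve IsLocalRing
open Fermat.Agent.S18.NonSpecial
open Fermat.Agent.S37.Deuring.Core Fermat.Agent.S37.Gauss.Datum
open Fermat.Agent.S34.Generic.DichRecordX0 Fermat.Agent.S34.CoreZX0OfGeneric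
open Fermat.Agent.S34.CoreZX0OfLift Fermat.Agent.S34.Generic.DichLiftX0
open Fermat.Agent.S34.CoreZX0Assembly Fermat.Agent.S34.CoreZX0Build

local notation "Kb" => AlgebraicClosure ℚ

attribute [local instance] Fermat.Agent.S18.GaussFromHBar.hasPrincipalDivisors_bar
attribute [local instance] Fermat.Agent.S37.ReductionInputs.hasPrincipalDivisors_Fk
attribute [local instance] Fermat.Agent.S37.ReductionInputs.infinite_residueField
attribute [local instance] Fermat.Agent.S18.ResidueBasics.isAlgClosed_residueField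

variable {q : ℕ} [hq : Fact q.Prime] {M : ℕ} [NeZero M] {A : ValuationSubring Kb} [NeZero q]
variable (hA : A.LiesOverPrime q) (hqM : ¬ q ∣ M)
variable {gL gk : ℕ} (H : Hyp (gaussDatum M A hA hqM) gL gk)
variable [CharP (ResidueField ↥A) q]

/-- **the two lifting statements at level `M`** -/
theorem liftX0 : LiftX0 hA hqM H :=
  ⟨fun g hg => by
      obtain ⟨g', h1, h2⟩ := B_φ_X0 hA hqM H g hg
      exact ⟨g', h1, h2⟩,
    fun Q₁ h₁ Q₂ h₂ hsep => B_sep_X0 hA hqM H Q₁ Q₂ h₁ h₂ hsep⟩

/-- **`GenericAt` at every good place of `X₀(M q)`** -/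
theorem genericX0 : GenericX0 hA hqM H := genericX0_of_lift (liftX0 hA hqM H)

/-- **(Core-Z) at `E = ℚ̄(X₀(M q))` in divisor language.** -/
theorem principalHyp (M q p : ℕ) [NeZero M] [Fact q.Prime] [NeZero q] (hp : p.Prime)
    (hpq : p ≠ q) : Fermat.Agent.S34.CoreZX0OfPrincipal.PrincipalHyp M q p :=
  principalHyp_of_lift hp hpq fun A hA hqM =>
    haveI := Fermat.Agent.S18.ResidueBasics.charP_residueField A hA
    fun _ HM => liftX0 hA hqM (HX0 hA hqM HM)

/-- **(Core-Z) at `E = ℚ̄(X₀(M q))`.** -/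
theorem coreZHyp (M q p : ℕ) [NeZero M] [Fact q.Prime] [NeZero q] (hp : p.Prime)
    (hpq : p ≠ q) : Fermat.Agent.S34.UOfCoreZ.CoreZHyp M q p :=
  Fermat.Agent.S34.CoreZX0OfPrincipal.coreZHyp_of_principalHyp hp.ne_zero
    (principalHyp M q p hp hpq)

/-- **`GenericAt` for all `A`**, in the literal shape of the hypothesis `hgen` of
`CoreZX0OfGeneric.principalHyp_of_generic` and `S35/FrobZOfGeneric.frobZHyp_of_generic`. -/
theorem genericX0_all (M q : ℕ) [NeZero M] [Fact q.Prime] [NeZero q] :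
    ∀ (A : ValuationSubring Kb) (hA : A.LiesOverPrime q) (hqM : ¬ q ∣ M),
      haveI := Fermat.Agent.S18.ResidueBasics.charP_residueField A hA
      ∀ (gM : ℕ) (HM : RiemannHyp (ResidueField ↥A)
        ↥(modularFunctionFieldFullC (ResidueField ↥A) M) gM), GenericX0 hA hqM (HX0 hA hqM HM) :=
  fun A hA hqM =>
    haveI := Fermat.Agent.S18.ResidueBasics.charP_residueField A hA
    fun _ HM => genericX0 hA hqM (HX0 hA hqM HM)

/-- **The two records of the nodal datum, with the `Fr²`-fixedness of the nodes.** -/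
theorem exists_inputs {gM : ℕ}
    (HM : RiemannHyp (ResidueField ↥A) ↥(modularFunctionFieldFullC (ResidueField ↥A) M) gM) :
    ∃ (X : Inputs hA hqM (HX0 hA hqM HM)) (Y : NodesC X), ∀ b ∈ Y.S,
      Fermat.Agent.S34.FrobK.Fr (ResidueField ↥A) M q
        (Fermat.Agent.S34.FrobK.Fr (ResidueField ↥A) M q b) = b :=
  exists_inputs_of_lift HM (liftX0 hA hqM (HX0 hA hqM HM))

end Fermat.Agent.S34.CoreZX0
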