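/-
PROJECT U (S34) / S35 layer (N2) (helper18): THE STRUCTURAL FACTS OF THE CONCRETE NODAL DATUM OF
`E = ℚ̄(X₀(M q))` THAT THE FROBENIUS TWIN OF (Core-Z) NEEDS ON TOP OF `CoreZX0Datum.X0Datum`.

`X0Datum hA hqM` (helper6) only exposes what the INERTIA argument of S34 uses.  For S35 one applies
the same datum to `g = (σ_E)²`, `σ` a Frobenius lift, and needs to know HOW the datum was built:

* `R₁.r` is the partial specialisation map `rOne r (restrAlong α) (restrAlong β) Fr good` of
  `Generic/SmoothRedOfGeneric` for a place reduction `r` of level `M` and an `Fr`-stable set `good`;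
* `R₂ = smoothRedComap R₁ w_q`;
* admissible pairs are `Fr`-stable (`PcgOfSandwich.Adm Fr good`);
* the first branch extends the level-`M` reduction along `α`;
* the nodes are fixed by `Fr²`.

In the construction of `S34/CoreZX0` (`R₁ := smoothRedOfGeneric ..`, `R₂ := smoothRedComap R₁ w_q`,
`N := PcgCusp.gNodalDatum R₁ R₂ Fr ..`) every field below is `rfl`, `Iff.rfl` or one of the
hypotheses fed to those constructions.  `S35/FrobZX0` consumes `∃ X, Nonempty (X0Ext X)`.
-/
import Fermat.Agent.S34.CoreZX0Datum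
import Fermat.Agent.S34.Generic.SmoothRedOfGeneric
import Fermat.Agent.S34.Generic.RestrAlong
import Fermat.Agent.S34.PcgOfSandwich
import Fermat.Agent.S34.FrobK
import Fermat.Agent.S34.WqGalois

set_option autoImplicit false
set_option linter.unusedSectionVars false
set_option linter.style.haveILetI false
set_option synthInstance.maxHeartbeats 400000

noncomputable section

namespace Fermat.Agent.S34.CoreZX0Ext

open ModularCurve AlgebraicCurve IsLocalRing
open Fermat.Agent.S34.NodalDefs Fermat.Agent.S34.CoreZX0Datum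
open Fermat.Agent.S34.Generic.RestrAlong Fermat.Agent.S34.Generic.SmoothRedOfGeneric
open Fermat.Agent.S34.WqGalois Fermat.Agent.S34.FrobK
open Fermat.Agent.S37.Gauss.Datum

local notation "Kb" => AlgebraicClosure ℚ

variable {q : ℕ} [hq : Fact q.Prime] {M : ℕ} [NeZero M] {A : ValuationSubring Kb} [NeZero q]
variable [CharP (ResidueField ↥A) q] [PerfectField (ResidueField ↥A)]

set_option maxHeartbeats 1600000 in
/-- **How the nodal datum `X` of `E = ℚ̄(X₀(M q))` was built** (see the header). -/
structure X0Ext {hA : A.LiesOverPrime q} {hqM : ¬ q ∣ M} (X : X0Datum hA hqM) where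
  /-- the place reduction of level `M` -/
  r : Place Kb ↥(modularFunctionFieldBar M) →
    Place (ResidueField ↥A) ↥(modularFunctionFieldFullC (ResidueField ↥A) M)
  hr : IsPlaceReductionAlong A (residue ↥A) M r
  hα : (heckeAlphaBar Kb M q).toRingHom.IsIntegral
  hβ : (heckeBetaBar Kb M q).toRingHom.IsIntegral
  /-- the generic places of `κ_M` -/
  good : Set (Place (ResidueField ↥A) ↥(modularFunctionFieldFullC (ResidueField ↥A) M))
  hgood : ∀ Q, Fr (ResidueField ↥A) M q Q ∈ good ↔ Q ∈ good
  /-- the first partial specialisation map is `rOne` -/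
  R1_r : X.N.R1.r = rOne r (restrAlong (heckeAlphaBar Kb M q) hα)
    (restrAlong (heckeBetaBar Kb M q) hβ) (Fr (ResidueField ↥A) M q) good
  /-- the second component is the `w_q`-transport of the first one -/
  R2_eq : X.N.R2 = smoothRedComap X.N.R1 (wq M q hq.out hqM)
  /-- admissible pairs are `Fr`-stable -/
  adm : ∀ S1 S2, X.N.Adm S1 S2 →
    Fermat.Agent.S34.PcgOfSandwich.Adm (Fr (ResidueField ↥A) M q) good S1 S2
  /-- the first branch extends the level-`M` reduction along `α` -/
  alpha_mem : ∀ c : ↥(gaussDatum M A hA hqM).O,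
    heckeAlphaBar Kb M q (c : ↥(modularFunctionFieldBar M)) ∈ X.N.R1.O
  red_alpha : ∀ c : ↥(gaussDatum M A hA hqM).O,
    X.N.R1.red ⟨heckeAlphaBar Kb M q (c : ↥(modularFunctionFieldBar M)), alpha_mem c⟩ =
      (gaussDatum M A hA hqM).red c
  /-- the nodes are fixed by `Fr²` -/
  e1_fix : ∀ e, Fr (ResidueField ↥A) M q (Fr (ResidueField ↥A) M q (X.N.e1 e)) = X.N.e1 e
  e2_fix : ∀ e, Fr (ResidueField ↥A) M q (Fr (ResidueField ↥A) M q (X.N.e2 e)) = X.N.e2 e

end Fermat.Agent.S34.CoreZX0Ext
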