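/-
PROJECT U / S35, slice [S35-b] part B (helper25): **the decomposition group acts on the two Gauss
valuation rings of `E = ℚ̄(X₀(M q))` and on their reductions through the coefficientwise action of
the induced automorphism of the residue field** (the inertia case `Z1X0.smul_mem_V1X0_iff`,
`smul_sub_mem_nonunits₁` is the special case `resAut = 1`).

PART 1 (abstract, `S34/TwoExt` vocabulary).  `σ : F' ≃+* F'` inducing `τ` on `F`, `τ` preserving `O`,
`σ (G(t)) = G(t)`: then `V.comap σ` is again an extension of type `G`, hence `= V` for the two types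
(`comap_eq_of_ev_fix₁/₂`); a ring homomorphism `ρ : V → κ` killing `𝔪_V` satisfies
`ρ (σ x) = T (ρ x)` for all `x ∈ V` as soon as this holds on `O` and at `t` (`redHom_sigma`).

PART 2 (`X₀(M q)`).  For `g` in the decomposition group of `A ∣ q`, `σ_E := arithmeticGalois .. g`:
* `smul_mem_V1X0_iff`, `smul_mem_V2X0_iff` : `σ_E • x ∈ V_i ↔ x ∈ V_i`;
* `red_smul₁` : for EVERY reduction `(O, red)` with `O = V1X0`, `red` killing the non-units and
  `red (α c) = red_M c` on the Gauss ring of level `M`: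
  `red (σ_E • y) = coeffRingAut k M (resAut A g) (red y)`;
* `branch_smul₁` : the same for a `NodalDefs.Branch` over `V1X0`; `branch_smul₂` : equivariance
  passes to the transported branch `branchComap B w_q` (`O.comap w_q`, `red ∘ w_q`; this is the
  second branch `V2X0` of the nodal datum), for every `σ ∈ Gal(ℚ̄/ℚ)`;
* `branch_mem_of_smul_mem₁/₂` : the converse memberships.

PART 3 (Frobenius).  `hasValue_coeffRingAut` : `(τ z)(τ Q) = τ (z(Q))` for the coefficientwise action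
of `τ : RingAut k` on `F_k(N)`; `hasValue_frob_sq` / `hasValue_frobSq` : at a place `Q` with
`Fr (Fr Q) = Q` the coefficientwise `q²`-Frobenius `frobSq` raises values to the power `q ^ 2`
(`= hΨ_i` of `S35/GlueGNodalFrob.principal_of_frobenius`).  For a Frobenius lift `σ` at `q`
(`A.IsFrobeniusAt σ q`) and `g := (arithmeticGalois .. σ) ^ 2`: `branch_frobSq₁/₂` (`= hg_i` with
`Ψ_i := frobSq`) and `branch_mem_of_frobSq_mem₁/₂` (`= hg_i'`), for a branch `B` over `V1X0`
extending the level-`M` reduction along `α` and its transport `branchComap B w_q`.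
-/
import Mathlib
import Fermat.Agent.S34.Z1X0
import Fermat.Agent.S34.WqGalois
import Fermat.Agent.S34.FrobK
import Fermat.Agent.S34.NodalDefs
import Fermat.Agent.S34.Generic.SmoothRedOfGeneric

set_option autoImplicit false
set_option linter.unusedSectionVars false
set_option linter.style.haveILetI false

noncomputable section

namespace Fermat.Agent.S34.DecompX0

open Polynomial IsLocalRing

/-! ### Part 1: automorphisms of a `TwoExt.Setup` which fix `G(t)` -/

section Abstract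

open Fermat.Agent.S34.TwoExt

variable {F : Type*} [Field F] {F' : Type*} [Field F'] [Algebra F F']
variable {O : ValuationSubring F} (S : Setup O F')
variable {σ : F' ≃+* F'} {τ : F →+* F} {V : ValuationSubring F'}

/-- `V.comap σ` lies over `O` when `σ` induces on `F` a map preserving `O` -/
theorem comap_comap_of_comm (hcomm : ∀ x : F, σ (algebraMap F F' x) = algebraMap F F' (τ x))
    (hmem : ∀ x : F, τ x ∈ O ↔ x ∈ O) (hV : V.comap (algebraMap F F') = O) :
    (V.comap (σ : F' →+* F')).comap (algebraMap F F') = O := by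
  refine ValuationSubring.ext _ _ fun x => ?_
  rw [ValuationSubring.mem_comap, ValuationSubring.mem_comap, RingHom.coe_coe, hcomm,
    alg_mem_iff hV, hmem]

/-- if `σ` fixes `G(t)` then `V.comap σ` is of type `G` when `V` is -/
theorem isExt_comap_of_ev_fix (hcomm : ∀ x : F, σ (algebraMap F F' x) = algebraMap F F' (τ x))
    (hmem : ∀ x : F, τ x ∈ O ↔ x ∈ O) {G : (↥O)[X]} (hG : σ (S.ev G) = S.ev G)
    (h : S.IsExt G V) : S.IsExt G (V.comap (σ : F' →+* F')) := by
  refine ⟨comap_comap_of_comm hcomm hmem h.comap, ?_⟩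
  rw [Setup.val_comap_lt_one_iff, hG]
  exact h.lt

/-- **`σ` preserves `V₁`** (decomposition-type automorphisms) -/
theorem comap_eq_of_ev_fix₁ (hcomm : ∀ x : F, σ (algebraMap F F' x) = algebraMap F F' (τ x))
    (hmem : ∀ x : F, τ x ∈ O ↔ x ∈ O) (hG : σ (S.ev S.G₁) = S.ev S.G₁)
    (h : S.IsExt S.G₁ V) : V.comap (σ : F' →+* F') = V :=
  S.isExt₁_unique (isExt_comap_of_ev_fix S hcomm hmem hG h) h

/-- **`σ` preserves `V₂`** (decomposition-type automorphisms) -/
theorem comap_eq_of_ev_fix₂ (hcomm : ∀ x : F, σ (algebraMap F F' x) = algebraMap F F' (τ x))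
    (hmem : ∀ x : F, τ x ∈ O ↔ x ∈ O) (hG : σ (S.ev S.G₂) = S.ev S.G₂)
    (h : S.IsExt S.G₂ V) : V.comap (σ : F' →+* F') = V :=
  S.isExt₂_unique (isExt_comap_of_ev_fix S hcomm hmem hG h) h

theorem sigma_mem_iff_of_comap_eq (hσV : V.comap (σ : F' →+* F') = V) (x : F') :
    σ x ∈ V ↔ x ∈ V := by
  conv_rhs => rw [← hσV]
  rw [ValuationSubring.mem_comap, RingHom.coe_coe]

/-- **A reduction homomorphism is determined on `O[t]`.**  Let `V` be a valuation ring over `O`
whose residue field is generated by the classes of `O[t]` (`hres`), stable under `σ`.  If a ring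
homomorphism `ρ : V → κ` killing the non-units satisfies `ρ (σ c) = T (ρ c)` for `c ∈ O` and
`ρ (σ t) = T (ρ t)`, then `ρ (σ x) = T (ρ x)` for every `x ∈ V`. -/
theorem redHom_sigma (hV : V.comap (algebraMap F F') = O)
    (hres : ∀ x : F', x ∈ V → ∃ r : (↥O)[X], V.valuation (x - S.ev r) < 1)
    (hσV : V.comap (σ : F' →+* F') = V)
    {κ : Type*} [Field κ] (ρ : ↥V →+* κ) (hρ : ∀ x : ↥V, V.valuation (x : F') < 1 → ρ x = 0)
    (T : κ →+* κ)
    (hc : ∀ c : ↥O, ρ ⟨σ (algebraMap F F' (c : F)),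
        (sigma_mem_iff_of_comap_eq hσV _).mpr ((alg_mem_iff hV _).mpr c.2)⟩ =
      T (ρ ⟨algebraMap F F' (c : F), (alg_mem_iff hV _).mpr c.2⟩))
    (ht : ρ ⟨σ S.t, (sigma_mem_iff_of_comap_eq hσV _).mpr (S.t_mem hV)⟩ =
      T (ρ ⟨S.t, S.t_mem hV⟩))
    (x : ↥V) :
    ρ ⟨σ (x : F'), (sigma_mem_iff_of_comap_eq hσV _).mpr x.2⟩ = T (ρ x) := by
  -- the two ring homomorphisms `O[X] → κ`
  have hσmem : ∀ y : F', y ∈ V → σ y ∈ V := fun y hy => (sigma_mem_iff_of_comap_eq hσV y).mpr hy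
  let σV : ↥V →+* ↥V :=
    { toFun := fun y => ⟨σ (y : F'), hσmem _ y.2⟩
      map_one' := Subtype.ext (map_one σ)
      map_mul' := fun a b => Subtype.ext (map_mul σ _ _)
      map_zero' := Subtype.ext (map_zero σ)
      map_add' := fun a b => Subtype.ext (map_add σ _ _) }
  have hσV_apply : ∀ y : ↥V, ρ ⟨σ (y : F'), hσmem _ y.2⟩ = (ρ.comp σV) y := fun y => rfl
  have hpoly : (ρ.comp σV).comp (S.evV hV) = (T.comp ρ).comp (S.evV hV) := by
    refine Polynomial.ringHom_ext (fun c => ?_) ?_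
    · have h1 : S.evV hV (C c) = ⟨algebraMap F F' (c : F), (alg_mem_iff hV _).mpr c.2⟩ :=
        Subtype.ext (by rw [S.coe_evV hV, Setup.ev_C])
      show ρ (σV (S.evV hV (C c))) = T (ρ (S.evV hV (C c)))
      rw [h1]
      exact hc c
    · have h1 : S.evV hV X = ⟨S.t, S.t_mem hV⟩ :=
        Subtype.ext (by rw [S.coe_evV hV, Setup.ev_X])
      show ρ (σV (S.evV hV X)) = T (ρ (S.evV hV X))
      rw [h1]
      exact ht
  obtain ⟨r, hr⟩ := hres x x.2
  -- `x = r(t) + m`, `m ∈ 𝔪_V`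
  have hm : (x : F') - S.ev r ∈ V := V.sub_mem x.2 (S.ev_mem hV r)
  have hx : x = S.evV hV r + ⟨(x : F') - S.ev r, hm⟩ :=
    Subtype.ext (by
      rw [V.coe_add, S.coe_evV hV]
      simp)
  have hρm : ρ ⟨(x : F') - S.ev r, hm⟩ = 0 := hρ _ hr
  have hρσm : (ρ.comp σV) ⟨(x : F') - S.ev r, hm⟩ = 0 := by
    rw [RingHom.comp_apply]
    refine hρ _ ?_
    exact (Setup.val_sigma_lt_one_iff hσV _).mpr hr
  rw [hσV_apply]
  conv_lhs => rw [hx]
  conv_rhs => rw [hx]
  rw [map_add, hρσm, add_zero, map_add, map_add, hρm, map_zero, add_zero]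
  exact congrArg (fun f => f r) hpoly

end Abstract

/-! ### Part 2: the decomposition group at `X₀(M q)` -/

section X0

open ModularCurve AlgebraicCurve
open Fermat.Agent.S37.Gauss.Datum
open Fermat.Agent.S34.PowerBasisX0 Fermat.Agent.S34.TwoGaussX0 Fermat.Agent.S34.Z1X0
open Fermat.Agent.S37.Equivariance.CoeffAut Fermat.Agent.S37.Equivariance.GaussEquiv
open Fermat.Agent.S24.DegreeAlg (jgen)
open Fermat.Agent.S18.B.FkBasics (jk)

local notation "Kb" => AlgebraicClosure ℚ

variable {q : ℕ} [hq : Fact q.Prime] {M : ℕ} [NeZero M] {A : ValuationSubring Kb}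
variable (hA : A.LiesOverPrime q) (hqM : ¬ q ∣ M) [NeZero q]

attribute [local instance] algFE

/-- `G₁(j_q) = j_q - α(j)^q` -/
theorem ev_G1O :
    (setupX0 hA hqM).ev (G1O hA hqM) = jl M q - heckeAlphaBar Kb M q (jgen M ^ q) := by
  rw [G1O, map_sub, TwoExt.Setup.ev_X, TwoExt.Setup.ev_C, setupX0_t, algebraMap_FE]
  congr 2

/-- `G₂(j_q) = j_q^q - α(j)` -/
theorem ev_G2O :
    (setupX0 hA hqM).ev (G2O hA hqM) = jl M q ^ q - heckeAlphaBar Kb M q (jgen M) := by
  rw [G2O, map_sub, map_pow, TwoExt.Setup.ev_X, TwoExt.Setup.ev_C, setupX0_t, algebraMap_FE]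
  congr 2

/-- the coefficientwise Galois action as a ring automorphism of `E` -/
abbrev sE (σ : Kb ≃ₐ[ℚ] Kb) :
    ↥(modularFunctionFieldBar (M * q)) ≃+* ↥(modularFunctionFieldBar (M * q)) :=
  SemilinearAut.toRingAut (arithmeticGalois (modularFunctionFieldFull (M * q)) σ)

/-- the coefficientwise Galois action as a ring endomorphism of `F` -/
abbrev sF (σ : Kb ≃ₐ[ℚ] Kb) :
    ↥(modularFunctionFieldBar M) →+* ↥(modularFunctionFieldBar M) :=
  (SemilinearAut.toRingAut (arithmeticGalois (modularFunctionFieldFull M) σ)).toRingHom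

theorem sE_alpha (σ : Kb ≃ₐ[ℚ] Kb) (x : ↥(modularFunctionFieldBar M)) :
    sE (M := M) (q := q) σ (heckeAlphaBar Kb M q x) = heckeAlphaBar Kb M q (sF σ x) :=
  smul_alpha σ x

theorem sE_jl (σ : Kb ≃ₐ[ℚ] Kb) : sE (M := M) (q := q) σ (jl M q) = jl M q := smul_jl σ

theorem sF_jgen (σ : Kb ≃ₐ[ℚ] Kb) : sF (M := M) σ (jgen M) = jgen M :=
  Fermat.Agent.S37.Equivariance.PlaceEquiv.smul_jgen M σ

theorem sE_ev_G1O (σ : Kb ≃ₐ[ℚ] Kb) :
    sE σ ((setupX0 hA hqM).ev (G1O hA hqM)) = (setupX0 hA hqM).ev (G1O hA hqM) := by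
  rw [ev_G1O, map_sub, sE_jl, sE_alpha, map_pow, sF_jgen]

theorem sE_ev_G2O (σ : Kb ≃ₐ[ℚ] Kb) :
    sE σ ((setupX0 hA hqM).ev (G2O hA hqM)) = (setupX0 hA hqM).ev (G2O hA hqM) := by
  rw [ev_G2O, map_sub, map_pow, sE_jl, sE_alpha, sF_jgen]

/-- the decomposition group preserves the Gauss ring of level `M` -/
theorem sF_mem_O_iff (g : A.decompositionSubgroup ℚ) (x : ↥(modularFunctionFieldBar M)) :
    sF (g : Kb ≃ₐ[ℚ] Kb) x ∈ (gaussDatum M A hA hqM).O ↔ x ∈ (gaussDatum M A hA hqM).O := by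
  constructor
  · intro h
    obtain ⟨hf, -⟩ := smul_mem_O_of_decomposition hA hqM g⁻¹ ⟨_, h⟩
    have h1 : arithmeticGalois (modularFunctionFieldFull M) ((g⁻¹ : A.decompositionSubgroup ℚ) :
        Kb ≃ₐ[ℚ] Kb) • (arithmeticGalois (modularFunctionFieldFull M) (g : Kb ≃ₐ[ℚ] Kb) • x) = x := by
      rw [Subgroup.coe_inv, map_inv, inv_smul_smul]
    rw [← h1]
    exact hf
  · intro h
    exact (smul_mem_O_of_decomposition hA hqM g ⟨x, h⟩).1

/-- **the decomposition group preserves `V₁`** -/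
theorem comap_V1X0 (g : A.decompositionSubgroup ℚ) :
    (V1X0 hA hqM).comap ((sE (M := M) (q := q) (g : Kb ≃ₐ[ℚ] Kb) : _ ≃+* _) : _ →+* _) =
      V1X0 hA hqM :=
  comap_eq_of_ev_fix₁ (setupX0 hA hqM) (τ := sF (g : Kb ≃ₐ[ℚ] Kb)) (fun x => sE_alpha _ x)
    (sF_mem_O_iff hA hqM g) (sE_ev_G1O hA hqM _) (isExt_V1X0 hA hqM)

/-- **the decomposition group preserves `V₂`** -/
theorem comap_V2X0 (g : A.decompositionSubgroup ℚ) :
    (V2X0 hA hqM).comap ((sE (M := M) (q := q) (g : Kb ≃ₐ[ℚ] Kb) : _ ≃+* _) : _ →+* _) =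
      V2X0 hA hqM :=
  comap_eq_of_ev_fix₂ (setupX0 hA hqM) (τ := sF (g : Kb ≃ₐ[ℚ] Kb)) (fun x => sE_alpha _ x)
    (sF_mem_O_iff hA hqM g) (sE_ev_G2O hA hqM _) (isExt_V2X0 hA hqM)

theorem smul_mem_V1X0_iff (g : A.decompositionSubgroup ℚ)
    (x : ↥(modularFunctionFieldBar (M * q))) :
    arithmeticGalois (modularFunctionFieldFull (M * q)) (g : Kb ≃ₐ[ℚ] Kb) • x ∈ V1X0 hA hqM ↔
      x ∈ V1X0 hA hqM :=
  sigma_mem_iff_of_comap_eq (comap_V1X0 hA hqM g) x

theorem smul_mem_V2X0_iff (g : A.decompositionSubgroup ℚ)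
    (x : ↥(modularFunctionFieldBar (M * q))) :
    arithmeticGalois (modularFunctionFieldFull (M * q)) (g : Kb ≃ₐ[ℚ] Kb) • x ∈ V2X0 hA hqM ↔
      x ∈ V2X0 hA hqM :=
  sigma_mem_iff_of_comap_eq (comap_V2X0 hA hqM g) x

/-! #### the reductions -/

section Red

variable {O : ValuationSubring ↥(modularFunctionFieldBar (M * q))}
  (red : ↥O →+* ↥(modularFunctionFieldFullC (ResidueField ↥A) M))

theorem red_congr {a b : ↥(modularFunctionFieldBar (M * q))} (ha : a ∈ O) (hb : b ∈ O)
    (hab : a = b) : red ⟨a, ha⟩ = red ⟨b, hb⟩ := by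
  subst hab
  rfl

/-- **The reduction of the first branch is equivariant for the decomposition group.**  `(O, red)`
is ANY reduction of `V1X0` (kernel `⊇` the non-units) extending the level-`M` reduction along `α`. -/
theorem red_smul₁ (hO : O = V1X0 hA hqM) (hker : ∀ u : ↥O, ¬ IsUnit u → red u = 0)
    (hα : ∀ c : ↥(gaussDatum M A hA hqM).O,
      heckeAlphaBar Kb M q (c : ↥(modularFunctionFieldBar M)) ∈ O)
    (hredα : ∀ c : ↥(gaussDatum M A hA hqM).O,
      red ⟨heckeAlphaBar Kb M q (c : ↥(modularFunctionFieldBar M)), hα c⟩ =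
        (gaussDatum M A hA hqM).red c)
    (g : A.decompositionSubgroup ℚ) (y : ↥O) :
    ∃ h : arithmeticGalois (modularFunctionFieldFull (M * q)) (g : Kb ≃ₐ[ℚ] Kb) •
        (y : ↥(modularFunctionFieldBar (M * q))) ∈ O,
      red ⟨_, h⟩ = coeffRingAut (ResidueField ↥A) M (resAut A g) (red y) := by
  subst hO
  set S := setupX0 hA hqM with hS
  have h₁ := isExt_V1X0 hA hqM
  have h₂ := isExt_V2X0 hA hqM
  have hσV := comap_V1X0 hA hqM g
  have hρ : ∀ x : ↥(V1X0 hA hqM),
      (V1X0 hA hqM).valuation (x : ↥(modularFunctionFieldBar (M * q))) < 1 → red x = 0 := by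
    intro x hx
    refine hker x fun hu => ?_
    have := (ValuationSubring.valuation_eq_one_iff _ x).mp hu
    rw [this] at hx
    exact lt_irrefl _ hx
  -- `red (j_q) = j̄ ^ q`
  have htmem : jl M q ∈ V1X0 hA hqM := by
    have := S.t_mem h₁.comap
    rwa [hS, setupX0_t] at this
  have hjq : ((jO hA hqM ^ q : ↥(gaussDatum M A hA hqM).O) : ↥(modularFunctionFieldBar M)) =
      jgen M ^ q := by
    rw [SubmonoidClass.coe_pow, coe_jO]
  have hred_t : red ⟨jl M q, htmem⟩ = jk (ResidueField ↥A) M ^ q := by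
    have hlt := h₁.lt
    rw [setupX0_G₁, ev_G1O] at hlt
    have hmem2 : heckeAlphaBar Kb M q (jgen M ^ q) ∈ V1X0 hA hqM := by
      have := hα (jO hA hqM ^ q)
      rwa [hjq] at this
    have h0 := hρ ⟨jl M q - heckeAlphaBar Kb M q (jgen M ^ q),
      (V1X0 hA hqM).sub_mem htmem hmem2⟩ hlt
    have h1 : (⟨jl M q - heckeAlphaBar Kb M q (jgen M ^ q),
        (V1X0 hA hqM).sub_mem htmem hmem2⟩ : ↥(V1X0 hA hqM)) =
          ⟨jl M q, htmem⟩ - ⟨heckeAlphaBar Kb M q (jgen M ^ q), hmem2⟩ := rfl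
    rw [h1, map_sub, sub_eq_zero] at h0
    rw [h0, red_congr red hmem2 (hα (jO hA hqM ^ q)) (by rw [hjq]), hredα, map_pow, red_jO]
  refine ⟨(sigma_mem_iff_of_comap_eq hσV _).mpr y.2, ?_⟩
  refine redHom_sigma S h₁.comap (fun x hx => S.exists_ev_sub_lt_one₁ h₁ h₂ hx) hσV red hρ
    ((coeffRingAut (ResidueField ↥A) M (resAut A g) : _ ≃+* _) : _ →+* _) (fun c => ?_) ?_ y
  · -- constants from the Gauss ring of level `M`
    obtain ⟨hf, hred⟩ := smul_mem_O_of_decomposition hA hqM g c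
    have e1 := red_congr red ((sigma_mem_iff_of_comap_eq hσV _).mpr
      ((TwoExt.alg_mem_iff h₁.comap _).mpr c.2)) (hα ⟨_, hf⟩)
      (sE_alpha (M := M) (q := q) (g : Kb ≃ₐ[ℚ] Kb) (c : ↥(modularFunctionFieldBar M)))
    have e2 := red_congr red ((TwoExt.alg_mem_iff h₁.comap _).mpr c.2) (hα c)
      (algebraMap_FE (c : ↥(modularFunctionFieldBar M)))
    rw [e1, hredα, hred, e2, hredα]
    rfl
  · -- the generator `j_q`
    have e1 := red_congr red ((sigma_mem_iff_of_comap_eq hσV _).mpr (S.t_mem h₁.comap)) htmem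
      (by rw [hS, setupX0_t]; exact sE_jl _)
    have e2 := red_congr red (S.t_mem h₁.comap) htmem (by rw [hS, setupX0_t])
    rw [e1, e2, hred_t, RingHom.coe_coe, map_pow]
    congr 1
    exact (Fermat.Agent.S37.Equivariance.PlaceEquiv.smul_jk M (ResidueField ↥A) (resAut A g)).symm

end Red

/-! #### `NodalDefs.Branch` vocabulary: the two branches `B`, `branchComap B w_q` -/

section Branch

open Fermat.Agent.S34.NodalDefs Fermat.Agent.S34.Generic.SmoothRedOfGeneric
open Fermat.Agent.S34.WqGalois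

/-- **first branch**: a branch over `V1X0` extending the level-`M` reduction along `α` is
equivariant for the decomposition group. -/
theorem branch_smul₁
    (B : Branch A (residue ↥A) ↥(modularFunctionFieldBar (M * q))
      ↥(modularFunctionFieldFullC (ResidueField ↥A) M))
    (hO : B.O = V1X0 hA hqM)
    (hα : ∀ c : ↥(gaussDatum M A hA hqM).O,
      heckeAlphaBar Kb M q (c : ↥(modularFunctionFieldBar M)) ∈ B.O)
    (hredα : ∀ c : ↥(gaussDatum M A hA hqM).O,
      B.red ⟨heckeAlphaBar Kb M q (c : ↥(modularFunctionFieldBar M)), hα c⟩ =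
        (gaussDatum M A hA hqM).red c)
    (g : A.decompositionSubgroup ℚ) (y : ↥B.O) :
    ∃ h : arithmeticGalois (modularFunctionFieldFull (M * q)) (g : Kb ≃ₐ[ℚ] Kb) •
        (y : ↥(modularFunctionFieldBar (M * q))) ∈ B.O,
      B.red ⟨_, h⟩ = coeffRingAut (ResidueField ↥A) M (resAut A g) (B.red y) :=
  red_smul₁ hA hqM B.red hO (fun u hu => (B.red_eq_zero_iff u).mpr hu) hα hredα g y

theorem branch_mem_of_smul_mem₁
    (B : Branch A (residue ↥A) ↥(modularFunctionFieldBar (M * q))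
      ↥(modularFunctionFieldFullC (ResidueField ↥A) M))
    (hO : B.O = V1X0 hA hqM) (g : A.decompositionSubgroup ℚ)
    (y : ↥(modularFunctionFieldBar (M * q)))
    (h : arithmeticGalois (modularFunctionFieldFull (M * q)) (g : Kb ≃ₐ[ℚ] Kb) • y ∈ B.O) :
    y ∈ B.O := by
  rw [hO] at h ⊢
  exact (smul_mem_V1X0_iff hA hqM g y).mp h

/-- **second branch**: equivariance passes to the `w_q`-transport of a branch, for EVERY
`σ ∈ Gal(ℚ̄/ℚ)` (`w_q` is defined over `ℚ`). -/
theorem branch_smul₂ {Fk : Type*} [Field Fk] [Algebra (ResidueField ↥A) Fk]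
    (B : Branch A (residue ↥A) ↥(modularFunctionFieldBar (M * q)) Fk)
    (σ : Kb ≃ₐ[ℚ] Kb) (T : Fk → Fk)
    (hB : ∀ y : ↥B.O, ∃ h : arithmeticGalois (modularFunctionFieldFull (M * q)) σ •
        (y : ↥(modularFunctionFieldBar (M * q))) ∈ B.O, B.red ⟨_, h⟩ = T (B.red y))
    (y : ↥(branchComap B (wq M q hq.out hqM)).O) :
    ∃ h : arithmeticGalois (modularFunctionFieldFull (M * q)) σ •
        (y : ↥(modularFunctionFieldBar (M * q))) ∈ (branchComap B (wq M q hq.out hqM)).O,
      (branchComap B (wq M q hq.out hqM)).red ⟨_, h⟩ =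
        T ((branchComap B (wq M q hq.out hqM)).red y) := by
  have hy : wq M q hq.out hqM (y : ↥(modularFunctionFieldBar (M * q))) ∈ B.O := y.2
  obtain ⟨h, hred⟩ := hB ⟨_, hy⟩
  have hsw := smul_wq hq.out hqM σ (y : ↥(modularFunctionFieldBar (M * q)))
  have hmem : wq M q hq.out hqM (arithmeticGalois (modularFunctionFieldFull (M * q)) σ •
      (y : ↥(modularFunctionFieldBar (M * q)))) ∈ B.O := by
    rw [← hsw]
    exact h
  refine ⟨hmem, ?_⟩
  show B.red ⟨wq M q hq.out hqM (arithmeticGalois (modularFunctionFieldFull (M * q)) σ •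
      (y : ↥(modularFunctionFieldBar (M * q)))), hmem⟩ = T (B.red ⟨_, hy⟩)
  rw [← hred]
  have hcongr : ∀ {a b : ↥(modularFunctionFieldBar (M * q))} (ha : a ∈ B.O) (hb : b ∈ B.O),
      a = b → B.red ⟨a, ha⟩ = B.red ⟨b, hb⟩ := by
    intro a b ha hb hab
    subst hab
    rfl
  exact hcongr hmem h hsw.symm

theorem branch_mem_of_smul_mem₂ {Fk : Type*} [Field Fk] [Algebra (ResidueField ↥A) Fk]
    (B : Branch A (residue ↥A) ↥(modularFunctionFieldBar (M * q)) Fk)
    (σ : Kb ≃ₐ[ℚ] Kb)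
    (hB : ∀ y : ↥(modularFunctionFieldBar (M * q)),
      arithmeticGalois (modularFunctionFieldFull (M * q)) σ • y ∈ B.O → y ∈ B.O)
    (y : ↥(modularFunctionFieldBar (M * q)))
    (h : arithmeticGalois (modularFunctionFieldFull (M * q)) σ • y ∈
      (branchComap B (wq M q hq.out hqM)).O) :
    y ∈ (branchComap B (wq M q hq.out hqM)).O := by
  have h' : wq M q hq.out hqM (arithmeticGalois (modularFunctionFieldFull (M * q)) σ • y) ∈ B.O :=
    h
  rw [← smul_wq hq.out hqM σ y] at h'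
  exact hB _ h'

end Branch

end X0

/-! ### Part 3: Frobenius -/

section FrobK

open ModularCurve AlgebraicCurve
open Fermat.Agent.S37.Equivariance.CoeffAut Fermat.Agent.S34.NodalDefs Fermat.Agent.S34.FrobK

variable (k : Type*) [Field k] (N : ℕ) [NeZero N]

/-- the value rule for the coefficientwise action: `(τ z)(τ Q) = τ (z(Q))` -/
theorem hasValue_coeffRingAut (τ : RingAut k) (Q : Place k ↥(modularFunctionFieldFullC k N))
    (z : ↥(modularFunctionFieldFullC k N)) (c : k) (h : HasValue Q z c) :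
    HasValue (placeEquiv k N τ Q) (coeffRingAut k N τ z) (τ c) := by
  rcases h with h | h
  · left
    rw [h, coeffRingAut_algebraMap]
  · right
    rw [← coeffRingAut_algebraMap, ← map_sub, ord_placeEquiv]
    exact h

variable (q : ℕ) [hq : Fact q.Prime] [CharP k q] [PerfectField k]

theorem placeEquiv_frobAut_sq (Q : Place k ↥(modularFunctionFieldFullC k N)) :
    placeEquiv k N (frobAut k q * frobAut k q) Q = Fr k N q (Fr k N q Q) := by
  rw [placeEquiv_apply, map_mul, mul_smul]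
  rfl

theorem frobAut_sq_apply (c : k) : (frobAut k q * frobAut k q) c = c ^ q ^ 2 := by
  rw [RingAut.mul_apply, frobAut_apply, frobAut_apply, ← pow_mul, sq]

/-- **the value rule at an `𝔽_{q²}`-rational place**: if `Fr² Q = Q` then the coefficientwise
`q²`-Frobenius raises the values at `Q` to the power `q²`. -/
theorem hasValue_frob_sq (Q : Place k ↥(modularFunctionFieldFullC k N))
    (hQ : Fr k N q (Fr k N q Q) = Q) (z : ↥(modularFunctionFieldFullC k N)) (c : k)
    (h : HasValue Q z c) :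
    HasValue Q (coeffRingAut k N (frobAut k q * frobAut k q) z) (c ^ q ^ 2) := by
  have := hasValue_coeffRingAut k N (frobAut k q * frobAut k q) Q z c h
  rwa [placeEquiv_frobAut_sq, hQ, frobAut_sq_apply] at this

end FrobK

/-! #### a Frobenius lift at `X₀(M q)`: the inputs `hg_i`, `hg_i'`, `hΨ_i` of
`S35/GlueGNodalFrob.principal_of_frobenius` for `g := σ_E ^ 2`, `Ψ_i := frobSq`, `Qn := q ^ 2` -/

section FrobX0

open ModularCurve AlgebraicCurve
open Fermat.Agent.S37.Gauss.Datum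
open Fermat.Agent.S34.PowerBasisX0 Fermat.Agent.S34.TwoGaussX0 Fermat.Agent.S34.Z1X0
open Fermat.Agent.S37.Equivariance.CoeffAut Fermat.Agent.S37.Equivariance.GaussEquiv
open Fermat.Agent.S34.NodalDefs Fermat.Agent.S34.Generic.SmoothRedOfGeneric
open Fermat.Agent.S34.WqGalois Fermat.Agent.S34.FrobK

local notation "Kb" => AlgebraicClosure ℚ

variable {q : ℕ} [hq : Fact q.Prime] {M : ℕ} [NeZero M] {A : ValuationSubring Kb}
variable (hA : A.LiesOverPrime q) (hqM : ¬ q ∣ M) [NeZero q]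
variable [CharP (ResidueField ↥A) q] [PerfectField (ResidueField ↥A)]

/-- the coefficientwise `q²`-Frobenius of `F_k(M)`, as a ring endomorphism -/
def frobSq : ↥(modularFunctionFieldFullC (ResidueField ↥A) M) →+*
    ↥(modularFunctionFieldFullC (ResidueField ↥A) M) :=
  ((coeffRingAut (ResidueField ↥A) M
    (frobAut (ResidueField ↥A) q * frobAut (ResidueField ↥A) q) : _ ≃+* _) : _ →+* _)

theorem frobSq_apply (z : ↥(modularFunctionFieldFullC (ResidueField ↥A) M)) :
    frobSq (q := q) (M := M) (A := A) z =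
      coeffRingAut (ResidueField ↥A) M
        (frobAut (ResidueField ↥A) q * frobAut (ResidueField ↥A) q) z := rfl

/-- **`hΨ`**: at a place fixed by `Fr²`, `frobSq` raises values to the power `q²`. -/
theorem hasValue_frobSq (Q : Place (ResidueField ↥A) ↥(modularFunctionFieldFullC (ResidueField ↥A) M))
    (hQ : Fr (ResidueField ↥A) M q (Fr (ResidueField ↥A) M q Q) = Q)
    (z : ↥(modularFunctionFieldFullC (ResidueField ↥A) M)) (c : ResidueField ↥A)
    (h : HasValue Q z c) : HasValue Q (frobSq (q := q) (M := M) (A := A) z) (c ^ q ^ 2) :=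
  hasValue_frob_sq (ResidueField ↥A) M q Q hQ z c h

variable {σ : Kb ≃ₐ[ℚ] Kb} (hσ : A.IsFrobeniusAt σ q)

include hσ in
/-- the square of a Frobenius lift, in the decomposition group -/
theorem exists_decomp_sq :
    ∃ g : A.decompositionSubgroup ℚ, (g : Kb ≃ₐ[ℚ] Kb) = σ * σ ∧
      resAut A g = frobAut (ResidueField ↥A) q * frobAut (ResidueField ↥A) q := by
  refine ⟨⟨σ, hσ.mem_decompositionSubgroup⟩ * ⟨σ, hσ.mem_decompositionSubgroup⟩, rfl, ?_⟩
  rw [resAut_mul, resAut_eq_frobAut A q hσ]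

theorem arithmeticGalois_sq (N : ℕ) (σ : Kb ≃ₐ[ℚ] Kb) :
    arithmeticGalois (L := Kb) (modularFunctionFieldFull N) σ ^ 2 =
      arithmeticGalois (modularFunctionFieldFull N) (σ * σ) := by
  rw [map_mul, sq]

include hσ in
/-- **`hg₁`** for `g := σ_E ^ 2`, `σ` a Frobenius lift. -/
theorem branch_frobSq₁
    (B : Branch A (residue ↥A) ↥(modularFunctionFieldBar (M * q))
      ↥(modularFunctionFieldFullC (ResidueField ↥A) M))
    (hO : B.O = V1X0 hA hqM)
    (hα : ∀ c : ↥(gaussDatum M A hA hqM).O,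
      heckeAlphaBar Kb M q (c : ↥(modularFunctionFieldBar M)) ∈ B.O)
    (hredα : ∀ c : ↥(gaussDatum M A hA hqM).O,
      B.red ⟨heckeAlphaBar Kb M q (c : ↥(modularFunctionFieldBar M)), hα c⟩ =
        (gaussDatum M A hA hqM).red c)
    (y : ↥B.O) :
    ∃ h : (arithmeticGalois (modularFunctionFieldFull (M * q)) σ ^ 2) •
        (y : ↥(modularFunctionFieldBar (M * q))) ∈ B.O,
      B.red ⟨_, h⟩ = frobSq (q := q) (B.red y) := by
  obtain ⟨g, hg, hres⟩ := exists_decomp_sq hσ
  obtain ⟨h, hred⟩ := branch_smul₁ hA hqM B hO hα hredα g y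
  rw [hg, ← arithmeticGalois_sq] at h
  refine ⟨h, ?_⟩
  rw [frobSq_apply, ← hres, ← hred]
  congr 2
  rw [arithmeticGalois_sq, hg]

include hσ in
/-- **`hg₁'`** -/
theorem branch_mem_of_frobSq_mem₁
    (B : Branch A (residue ↥A) ↥(modularFunctionFieldBar (M * q))
      ↥(modularFunctionFieldFullC (ResidueField ↥A) M))
    (hO : B.O = V1X0 hA hqM) (y : ↥(modularFunctionFieldBar (M * q)))
    (h : (arithmeticGalois (modularFunctionFieldFull (M * q)) σ ^ 2) • y ∈ B.O) : y ∈ B.O := by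
  obtain ⟨g, hg, -⟩ := exists_decomp_sq hσ
  rw [arithmeticGalois_sq, ← hg] at h
  exact branch_mem_of_smul_mem₁ hA hqM B hO g y h

include hσ in
/-- **`hg₂`** for the `w_q`-transport of the first branch. -/
theorem branch_frobSq₂
    (B : Branch A (residue ↥A) ↥(modularFunctionFieldBar (M * q))
      ↥(modularFunctionFieldFullC (ResidueField ↥A) M))
    (hO : B.O = V1X0 hA hqM)
    (hα : ∀ c : ↥(gaussDatum M A hA hqM).O,
      heckeAlphaBar Kb M q (c : ↥(modularFunctionFieldBar M)) ∈ B.O)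
    (hredα : ∀ c : ↥(gaussDatum M A hA hqM).O,
      B.red ⟨heckeAlphaBar Kb M q (c : ↥(modularFunctionFieldBar M)), hα c⟩ =
        (gaussDatum M A hA hqM).red c)
    (y : ↥(branchComap B (wq M q hq.out hqM)).O) :
    ∃ h : (arithmeticGalois (modularFunctionFieldFull (M * q)) σ ^ 2) •
        (y : ↥(modularFunctionFieldBar (M * q))) ∈ (branchComap B (wq M q hq.out hqM)).O,
      (branchComap B (wq M q hq.out hqM)).red ⟨_, h⟩ =
        frobSq (q := q) ((branchComap B (wq M q hq.out hqM)).red y) := by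
  have key := branch_smul₂ hqM B (σ * σ) (frobSq (q := q) (M := M) (A := A)) (fun y => by
    obtain ⟨h, hred⟩ := branch_frobSq₁ hA hqM hσ B hO hα hredα y
    rw [arithmeticGalois_sq] at h
    refine ⟨h, ?_⟩
    rw [← hred]
    congr 2) y
  obtain ⟨h, hred⟩ := key
  rw [← arithmeticGalois_sq] at h
  refine ⟨h, ?_⟩
  rw [← hred]
  congr 2

include hσ in
/-- **`hg₂'`** -/
theorem branch_mem_of_frobSq_mem₂
    (B : Branch A (residue ↥A) ↥(modularFunctionFieldBar (M * q))
      ↥(modularFunctionFieldFullC (ResidueField ↥A) M))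
    (hO : B.O = V1X0 hA hqM) (y : ↥(modularFunctionFieldBar (M * q)))
    (h : (arithmeticGalois (modularFunctionFieldFull (M * q)) σ ^ 2) • y ∈
      (branchComap B (wq M q hq.out hqM)).O) :
    y ∈ (branchComap B (wq M q hq.out hqM)).O := by
  rw [arithmeticGalois_sq] at h
  refine branch_mem_of_smul_mem₂ hqM B (σ * σ) (fun z hz => ?_) y h
  rw [← arithmeticGalois_sq] at hz
  exact branch_mem_of_frobSq_mem₁ hA hqM hσ B hO z hz

end FrobX0

end Fermat.Agent.S34.DecompX0
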