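import Mathlib

/-!
# PROJECT U (S34): determinant and characteristic polynomial of `Matrix.blockDiagonal'`

Mathlib has `Matrix.det_blockDiagonal` for uniform blocks (index `n × o`) and
`Matrix.trace_blockDiagonal'`, but not the determinant / characteristic polynomial of a block
diagonal matrix over a `Sigma` index.  We derive them from `Matrix.BlockTriangular.det`.

* `det_of_sigma_blocks` / `charpoly_of_sigma_blocks` : a matrix `M` over `Σ i, J i` whose entries
  vanish off the diagonal blocks and whose diagonal blocks are `d i`;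
* `det_blockDiagonal'`, `charpoly_blockDiagonal'`.
-/

set_option autoImplicit false
set_option linter.unusedSectionVars false

namespace Fermat.Agent.S34.BlockDiagDet

open Matrix

variable {ι : Type*} [Fintype ι] [DecidableEq ι] {J : ι → Type*} [∀ i, Fintype (J i)]
  [∀ i, DecidableEq (J i)] {R : Type*} [CommRing R]

/-- the index equivalence of the `k`-th diagonal block -/
def blockEquiv (k : ι) : { p : Σ i, J i // p.1 = k } ≃ J k where
  toFun p := p.2 ▸ p.1.2
  invFun j := ⟨⟨k, j⟩, rfl⟩
  left_inv := by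
    rintro ⟨⟨i, j⟩, h⟩
    dsimp only at h
    subst h
    rfl
  right_inv _ := rfl

theorem toSquareBlock_eq_reindex (M : Matrix (Σ i, J i) (Σ i, J i) R)
    (d : ∀ i, Matrix (J i) (J i) R) (hdiag : ∀ i j j', M ⟨i, j⟩ ⟨i, j'⟩ = d i j j') (k : ι) :
    M.toSquareBlock Sigma.fst k = Matrix.reindex (blockEquiv k).symm (blockEquiv k).symm (d k) := by
  ext ⟨⟨i, j⟩, h⟩ ⟨⟨i', j'⟩, h'⟩
  dsimp only at h h'
  subst h
  subst h'
  rw [toSquareBlock_def]
  simp only [of_apply, reindex_apply, submatrix_apply, Equiv.symm_symm]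
  exact hdiag _ _ _

/-- determinant of a matrix over `Σ i, J i` vanishing off the diagonal blocks -/
theorem det_of_sigma_blocks (M : Matrix (Σ i, J i) (Σ i, J i) R)
    (d : ∀ i, Matrix (J i) (J i) R) (hdiag : ∀ i j j', M ⟨i, j⟩ ⟨i, j'⟩ = d i j j')
    (hoff : ∀ p p' : Σ i, J i, p.1 ≠ p'.1 → M p p' = 0) : M.det = ∏ i, (d i).det := by
  classical
  let _ : LinearOrder ι := LinearOrder.lift' (Fintype.equivFin ι) (Fintype.equivFin ι).injective
  have hM : M.BlockTriangular Sigma.fst := fun p p' h => hoff p p' (ne_of_gt h)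
  rw [hM.det_fintype]
  refine Finset.prod_congr rfl fun k _ => ?_
  rw [toSquareBlock_eq_reindex M d hdiag k, Matrix.det_reindex_self]

/-- characteristic polynomial of a matrix over `Σ i, J i` vanishing off the diagonal blocks -/
theorem charpoly_of_sigma_blocks (M : Matrix (Σ i, J i) (Σ i, J i) R)
    (d : ∀ i, Matrix (J i) (J i) R) (hdiag : ∀ i j j', M ⟨i, j⟩ ⟨i, j'⟩ = d i j j')
    (hoff : ∀ p p' : Σ i, J i, p.1 ≠ p'.1 → M p p' = 0) :
    M.charpoly = ∏ i, (d i).charpoly := by
  classical
  rw [Matrix.charpoly]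
  refine det_of_sigma_blocks M.charmatrix (fun i => (d i).charmatrix) ?_ ?_
  · intro i j j'
    by_cases hj : j = j'
    · subst hj
      rw [charmatrix_apply_eq, charmatrix_apply_eq, hdiag]
    · have hne : (⟨i, j⟩ : Σ i, J i) ≠ ⟨i, j'⟩ := fun h => hj (by
        have := (Sigma.mk.inj_iff.mp h).2
        exact eq_of_heq this)
      rw [charmatrix_apply_ne _ _ _ hne, charmatrix_apply_ne _ _ _ hj, hdiag]
  · intro p p' h
    have hne : p ≠ p' := fun h' => h (h' ▸ rfl)
    rw [charmatrix_apply_ne _ _ _ hne, hoff p p' h, map_zero, neg_zero]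

theorem det_blockDiagonal' (d : ∀ i, Matrix (J i) (J i) R) :
    (Matrix.blockDiagonal' d).det = ∏ i, (d i).det :=
  det_of_sigma_blocks _ d (fun i j j' => blockDiagonal'_apply_eq d i j j')
    (fun p p' h => by
      obtain ⟨i, j⟩ := p
      obtain ⟨i', j'⟩ := p'
      exact blockDiagonal'_apply_ne d j j' h)

theorem charpoly_blockDiagonal' (d : ∀ i, Matrix (J i) (J i) R) :
    (Matrix.blockDiagonal' d).charpoly = ∏ i, (d i).charpoly :=
  charpoly_of_sigma_blocks _ d (fun i j j' => blockDiagonal'_apply_eq d i j j')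
    (fun p p' h => by
      obtain ⟨i, j⟩ := p
      obtain ⟨i', j'⟩ := p'
      exact blockDiagonal'_apply_ne d j j' h)

end Fermat.Agent.S34.BlockDiagDet
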