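import Mathlib
import Fermat.Agent.S34.WeakApprox
import Fermat.Agent.S34.ArchComap

/-!
# PROJECT U (S34): orthonormal bases for several valuations (fundamental inequality, `e = 1`)

`F'/F` a field extension, `O` a valuation ring of `F`, `O' i` (`i : ι`, `ι` finite) pairwise
incomparable archimedean valuation rings of `F'` over `O`.  For every `i` let `a i : J i → O' i`
be a family whose residues are linearly independent over the residue field of `O`
(`hri`, stated elementwise).  Then there is a twisted family `b ⟨i, j⟩ = x i * a i j`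
(`x i ≡ 1` at `i`, `≡ 0` at the others) with

* `b ⟨i, j⟩ ≡ a i j` at `i`, `b ⟨i, j⟩ ≡ 0` at all `i' ≠ i` (so the reduction of `b` in
  `∏ κ(O' i)` is the union of the given residue families);
* **orthonormality**: if `c p₀` is a coefficient of maximal valuation, `p₀ = ⟨i₀, j₀⟩`, then
  `v_{i₀} (∑ c p • b p) = v (c p₀)`;
* `b` is linearly independent over `F`; hence `∑ i, #(J i) ≤ [F' : F]`
  (the fundamental inequality for `e = 1`);
* if `∑ i, #(J i) = [F' : F]`: `b` is a basis and `y ∈ ⋂ O' i ↔` all coordinates of `y` lie in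
  `O` (the semilocal ring `⋂ O' i` is `O`-free on `b`), and `y ∈ ⋂ 𝔪 (O' i) ↔` all coordinates
  lie in `𝔪_O`.
-/

set_option autoImplicit false
set_option linter.unusedSectionVars false

namespace Fermat.Agent.S34.OrthoMulti

open Fermat.Agent.S34.WeakApprox

variable {F F' : Type*} [Field F] [Field F'] [Algebra F F']
variable {ι : Type*} [Fintype ι]
variable (O : ValuationSubring F) (O' : ι → ValuationSubring F')
variable {J : ι → Type*} [∀ i, Fintype (J i)] (a : ∀ i, J i → F')

/-- the data of an orthonormal twisted family -/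
structure IsOrtho (b : (Σ i, J i) → F') : Prop where
  mem : ∀ p i, b p ∈ O' i
  sub_mem : ∀ p, b p - a p.1 p.2 ∈ (O' p.1).nonunits
  mem_nonunits : ∀ p i, i ≠ p.1 → b p ∈ (O' i).nonunits
  ortho : ∀ (c : (Σ i, J i) → F) (p₀ : Σ i, J i),
    (∀ p, O.valuation (c p) ≤ O.valuation (c p₀)) →
      (O' p₀.1).valuation (∑ p, algebraMap F F' (c p) * b p)
        = (O' p₀.1).valuation (algebraMap F F' (c p₀))

variable {O O' a}

theorem algebraMap_mem_of_mem (hO : ∀ i, (O' i).comap (algebraMap F F') = O) (i : ι) {f : F}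
    (hf : f ∈ O) : algebraMap F F' f ∈ O' i := by
  rw [← hO i] at hf
  exact ValuationSubring.mem_comap.mp hf

theorem mem_of_algebraMap_mem (hO : ∀ i, (O' i).comap (algebraMap F F') = O) (i : ι) {f : F}
    (hf : algebraMap F F' f ∈ O' i) : f ∈ O := by
  rw [← hO i]
  exact ValuationSubring.mem_comap.mpr hf

/-- **existence of the orthonormal twisted family** -/
theorem exists_isOrtho (hO : ∀ i, (O' i).comap (algebraMap F F') = O)
    (hA : ∀ i, Arch (O' i)) (hinc : ∀ i j, i ≠ j → ¬ O' i ≤ O' j)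
    (ha : ∀ i j, a i j ∈ O' i)
    (hri : ∀ i (c : J i → F), (∀ j, c j ∈ O) →
      ∑ j, algebraMap F F' (c j) * a i j ∈ (O' i).nonunits → ∀ j, c j ∈ O.nonunits) :
    ∃ b : (Σ i, J i) → F', IsOrtho O O' a b := by
  classical
  -- the approximate idempotents
  have h1 : ∀ i, ∃ x : F', x - 1 ∈ (O' i).nonunits ∧
      ∀ i', i' ≠ i → x ∈ (O' i').nonunits ∧
        ∀ y ∈ (Finset.univ.image (a i)), x * y ∈ (O' i').nonunits :=
    fun i => exists_one_sub O' hA hinc i _
  choose x hx1 hx2 using h1
  have hxval : ∀ i, (O' i).valuation (x i) = 1 := by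
    intro i
    have h2 : x i = 1 + (x i - 1) := by ring
    rw [h2]
    exact Valuation.map_one_add_of_lt _ ((O' i).mem_nonunits_iff.mp (hx1 i))
  have hxmem : ∀ i, x i ∈ O' i := fun i => ((O' i).valuation_le_one_iff _).mp (hxval i).le
  have hbn : ∀ (p : Σ i, J i) (i : ι), i ≠ p.1 → x p.1 * a p.1 p.2 ∈ (O' i).nonunits :=
    fun p i hi => (hx2 p.1 i hi).2 _ (Finset.mem_image.mpr ⟨p.2, Finset.mem_univ _, rfl⟩)
  have hbm : ∀ (p : Σ i, J i) (i : ι), x p.1 * a p.1 p.2 ∈ O' i := by
    intro p i
    by_cases hi : i = p.1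
    · subst hi
      exact mul_mem (hxmem _) (ha _ _)
    · exact (O' i).nonunits_subset (hbn p i hi)
  refine ⟨fun p => x p.1 * a p.1 p.2, hbm, fun p => ?_, hbn, ?_⟩
  · -- `x a - a = (x - 1) a`
    have h3 : x p.1 * a p.1 p.2 - a p.1 p.2 = a p.1 p.2 * (x p.1 - 1) := by ring
    rw [h3]
    exact mul_mem_nonunits (ha _ _) (hx1 _)
  · -- orthonormality
    intro c p₀ hmax
    by_cases hc0 : c p₀ = 0
    · have hall : ∀ p, c p = 0 := by
        intro p
        have := hmax p
        rw [hc0, map_zero] at this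
        exact (Valuation.zero_iff _).mp (le_antisymm this zero_le)
      simp [hall]
    obtain ⟨i₀, j₀⟩ := p₀
    -- normalise
    set d : (Σ i, J i) → F := fun p => c p / c ⟨i₀, j₀⟩ with hd
    have hdO : ∀ p, d p ∈ O := by
      intro p
      rw [← O.valuation_le_one_iff, hd, map_div₀]
      exact div_le_one_of_le₀ (hmax p) zero_le
    have hd0 : d ⟨i₀, j₀⟩ = 1 := div_self hc0
    have hsum : ∑ p, algebraMap F F' (c p) * (x p.1 * a p.1 p.2)
        = algebraMap F F' (c ⟨i₀, j₀⟩) * ∑ p, algebraMap F F' (d p) * (x p.1 * a p.1 p.2) := by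
      rw [Finset.mul_sum]
      refine Finset.sum_congr rfl fun p _ => ?_
      have h4 : algebraMap F F' (c p)
          = algebraMap F F' (c ⟨i₀, j₀⟩) * algebraMap F F' (d p) := by
        rw [← map_mul, hd]
        simp only
        rw [mul_div_cancel₀ _ hc0]
      rw [h4, mul_assoc]
    show (O' i₀).valuation (∑ p, algebraMap F F' (c p) * (x p.1 * a p.1 p.2)) = _
    rw [hsum, map_mul]
    suffices h : (O' i₀).valuation (∑ p, algebraMap F F' (d p) * (x p.1 * a p.1 p.2)) = 1 by
      rw [h, mul_one]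
    -- split the sum
    rw [Fintype.sum_sigma, ← Finset.add_sum_erase _ _ (Finset.mem_univ i₀)]
    have hT : ∑ j, algebraMap F F' (d ⟨i₀, j⟩) * (x i₀ * a i₀ j)
        = x i₀ * ∑ j, algebraMap F F' (d ⟨i₀, j⟩) * a i₀ j := by
      rw [Finset.mul_sum]
      exact Finset.sum_congr rfl fun j _ => mul_left_comm _ _ _
    have hTmem : ∑ j, algebraMap F F' (d ⟨i₀, j⟩) * a i₀ j ∈ O' i₀ :=
      sum_mem fun j _ => mul_mem (algebraMap_mem_of_mem hO i₀ (hdO _)) (ha _ _)
    have hTval : (O' i₀).valuation (∑ j, algebraMap F F' (d ⟨i₀, j⟩) * a i₀ j) = 1 := by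
      refine le_antisymm (((O' i₀).valuation_le_one_iff _).mpr hTmem) (not_lt.mp fun hlt => ?_)
      have h5 := hri i₀ (fun j => d ⟨i₀, j⟩) (fun j => hdO _)
        ((O' i₀).mem_nonunits_iff.mpr hlt) j₀
      rw [hd0, O.mem_nonunits_iff, map_one] at h5
      exact lt_irrefl _ h5
    have hfirst : (O' i₀).valuation (∑ j, algebraMap F F' (d ⟨i₀, j⟩) * (x i₀ * a i₀ j)) = 1 := by
      rw [hT, map_mul, hxval, hTval, one_mul]
    have hsecond : (O' i₀).valuation (∑ i ∈ Finset.univ.erase i₀,
        ∑ j, algebraMap F F' (d ⟨i, j⟩) * (x i * a i j)) < 1 := by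
      refine Valuation.map_sum_lt _ one_ne_zero fun i hi => ?_
      refine Valuation.map_sum_lt _ one_ne_zero fun j _ => ?_
      exact (O' i₀).mem_nonunits_iff.mp (mul_mem_nonunits (algebraMap_mem_of_mem hO i₀ (hdO _))
        (hbn ⟨i, j⟩ i₀ (Finset.ne_of_mem_erase hi).symm))
    rw [← hfirst]
    exact Valuation.map_add_eq_of_lt_left _ (hfirst ▸ hsecond)

/-! ### consequences of orthonormality -/

section Consequences

variable {b : (Σ i, J i) → F'}

theorem IsOrtho.eq_zero_of_sum_eq_zero (hb : IsOrtho O O' a b) {c : (Σ i, J i) → F}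
    (hc : ∑ p, algebraMap F F' (c p) * b p = 0) : ∀ p, c p = 0 := by
  classical
  intro p
  obtain ⟨p₀, -, hmax⟩ := Finset.exists_max_image Finset.univ (fun p => O.valuation (c p))
    ⟨p, Finset.mem_univ _⟩
  have h1 := hb.ortho c p₀ fun p => hmax p (Finset.mem_univ _)
  rw [hc, map_zero] at h1
  have h2 : c p₀ = 0 :=
    (map_eq_zero_iff _ (algebraMap F F').injective).mp ((Valuation.zero_iff _).mp h1.symm)
  have h3 := hmax p (Finset.mem_univ _)
  rw [h2, map_zero] at h3
  exact (Valuation.zero_iff _).mp (le_antisymm h3 zero_le)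

/-- the twisted family is linearly independent -/
theorem IsOrtho.linearIndependent (hb : IsOrtho O O' a b) : LinearIndependent F b := by
  rw [Fintype.linearIndependent_iff]
  intro c hc
  refine hb.eq_zero_of_sum_eq_zero ?_
  rw [← hc]
  exact Finset.sum_congr rfl fun p _ => (Algebra.smul_def _ _).symm

/-- **the fundamental inequality** (`e = 1` form) -/
theorem IsOrtho.card_le_finrank [Module.Finite F F'] (hb : IsOrtho O O' a b) :
    ∑ i, Fintype.card (J i) ≤ Module.finrank F F' := by
  have h1 := hb.linearIndependent.fintype_card_le_finrank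
  rwa [Fintype.card_sigma] at h1

/-- coordinates of an element that is integral at the place of the largest coefficient -/
theorem IsOrtho.coeff_mem (hO : ∀ i, (O' i).comap (algebraMap F F') = O)
    (hb : IsOrtho O O' a b) {c : (Σ i, J i) → F}
    (hy : ∀ i, ∑ p, algebraMap F F' (c p) * b p ∈ O' i) : ∀ p, c p ∈ O := by
  classical
  intro p
  obtain ⟨p₀, -, hmax⟩ := Finset.exists_max_image Finset.univ (fun p => O.valuation (c p))
    ⟨p, Finset.mem_univ _⟩
  have h1 := hb.ortho c p₀ fun p => hmax p (Finset.mem_univ _)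
  have h2 : algebraMap F F' (c p₀) ∈ O' p₀.1 := by
    rw [← (O' p₀.1).valuation_le_one_iff, ← h1, (O' p₀.1).valuation_le_one_iff]
    exact hy _
  have h3 : O.valuation (c p₀) ≤ 1 := (O.valuation_le_one_iff _).mpr (mem_of_algebraMap_mem hO _ h2)
  exact (O.valuation_le_one_iff _).mp ((hmax p (Finset.mem_univ _)).trans h3)

theorem mem_comap_nonunits (hO : ∀ i, (O' i).comap (algebraMap F F') = O) (i : ι) {f : F}
    (hf : algebraMap F F' f ∈ (O' i).nonunits) : f ∈ O.nonunits := by
  rw [← hO i, ArchComap.mem_comap_nonunits_iff]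
  exact hf

theorem algebraMap_mem_nonunits (hO : ∀ i, (O' i).comap (algebraMap F F') = O) (i : ι) {f : F}
    (hf : f ∈ O.nonunits) : algebraMap F F' f ∈ (O' i).nonunits := by
  rw [← hO i, ArchComap.mem_comap_nonunits_iff] at hf
  exact hf

/-- coordinates of an element of all the maximal ideals -/
theorem IsOrtho.coeff_mem_nonunits (hO : ∀ i, (O' i).comap (algebraMap F F') = O)
    (hb : IsOrtho O O' a b) {c : (Σ i, J i) → F}
    (hy : ∀ i, ∑ p, algebraMap F F' (c p) * b p ∈ (O' i).nonunits) : ∀ p, c p ∈ O.nonunits := by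
  classical
  intro p
  obtain ⟨p₀, -, hmax⟩ := Finset.exists_max_image Finset.univ (fun p => O.valuation (c p))
    ⟨p, Finset.mem_univ _⟩
  have h1 := hb.ortho c p₀ fun p => hmax p (Finset.mem_univ _)
  have h2 : algebraMap F F' (c p₀) ∈ (O' p₀.1).nonunits := by
    rw [(O' p₀.1).mem_nonunits_iff, ← h1, ← (O' p₀.1).mem_nonunits_iff]
    exact hy _
  have h3 : O.valuation (c p₀) < 1 := O.mem_nonunits_iff.mp (mem_comap_nonunits hO _ h2)
  exact O.mem_nonunits_iff.mpr ((hmax p (Finset.mem_univ _)).trans_lt h3)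

/-- conversely, integral coordinates give elements of `⋂ O' i` -/
theorem IsOrtho.sum_mem (hO : ∀ i, (O' i).comap (algebraMap F F') = O)
    (hb : IsOrtho O O' a b) {c : (Σ i, J i) → F} (hc : ∀ p, c p ∈ O) (i : ι) :
    ∑ p, algebraMap F F' (c p) * b p ∈ O' i :=
  _root_.sum_mem fun p _ => mul_mem (algebraMap_mem_of_mem hO i (hc p)) (hb.mem p i)

section Basis

variable [Module.Finite F F']

/-- **the equality case**: the twisted family is a basis -/
noncomputable def IsOrtho.basis (hb : IsOrtho O O' a b)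
    (hcard : ∑ i, Fintype.card (J i) = Module.finrank F F') : Module.Basis (Σ i, J i) F F' :=
  basisOfLinearIndependentOfCardEqFinrank' b hb.linearIndependent
    (by rw [Fintype.card_sigma, hcard])

theorem IsOrtho.basis_apply (hb : IsOrtho O O' a b)
    (hcard : ∑ i, Fintype.card (J i) = Module.finrank F F') (p : Σ i, J i) :
    hb.basis hcard p = b p := by
  rw [IsOrtho.basis, coe_basisOfLinearIndependentOfCardEqFinrank']

theorem IsOrtho.sum_repr (hb : IsOrtho O O' a b)
    (hcard : ∑ i, Fintype.card (J i) = Module.finrank F F') (y : F') :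
    ∑ p, algebraMap F F' ((hb.basis hcard).repr y p) * b p = y := by
  conv_rhs => rw [← (hb.basis hcard).sum_repr y]
  exact Finset.sum_congr rfl fun p _ => by rw [hb.basis_apply hcard, Algebra.smul_def]

/-- **`⋂ O' i` is `O`-free on the twisted family** -/
theorem IsOrtho.mem_iff_repr_mem (hO : ∀ i, (O' i).comap (algebraMap F F') = O)
    (hb : IsOrtho O O' a b) (hcard : ∑ i, Fintype.card (J i) = Module.finrank F F') (y : F') :
    (∀ i, y ∈ O' i) ↔ ∀ p, (hb.basis hcard).repr y p ∈ O := by
  constructor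
  · intro hy
    refine hb.coeff_mem hO fun i => ?_
    rw [hb.sum_repr hcard y]
    exact hy i
  · intro hc i
    rw [← hb.sum_repr hcard y]
    exact hb.sum_mem hO hc i

/-- the Jacobson radical `⋂ 𝔪 (O' i)` of the semilocal ring is `𝔪_O ·` the twisted family -/
theorem IsOrtho.mem_nonunits_iff_repr_mem (hO : ∀ i, (O' i).comap (algebraMap F F') = O)
    (hb : IsOrtho O O' a b) (hcard : ∑ i, Fintype.card (J i) = Module.finrank F F') (y : F') :
    (∀ i, y ∈ (O' i).nonunits) ↔ ∀ p, (hb.basis hcard).repr y p ∈ O.nonunits := by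
  constructor
  · intro hy
    refine hb.coeff_mem_nonunits hO fun i => ?_
    rw [hb.sum_repr hcard y]
    exact hy i
  · intro hc i
    rw [← hb.sum_repr hcard y]
    refine (O' i).nonunits.sum_mem fun p _ => ?_
    rw [mul_comm]
    exact mul_mem_nonunits (hb.mem p i) (algebraMap_mem_nonunits hO i (hc p))

end Basis

end Consequences

end Fermat.Agent.S34.OrthoMulti
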