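import Mathlib
import Fermat.Agent.S34.OrthoMulti

/-!
# PROJECT U (S34): the trace commutes with reduction for several valuations

`F'/F` finite, `O` a valuation ring of `F` with residue map `red : O →+* κ`, `O' i` (`i : ι`)
pairwise incomparable archimedean valuation rings of `F'` over `O` with residue maps
`red' i : O' i →+* κ' i` compatible with `red`, and `κ`-bases `B i` of `κ' i` with
`∑ i, [κ' i : κ] = [F' : F]` (the equality case of the fundamental inequality, `e = 1`).  Then for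
every `y ∈ ⋂ O' i`:

* `trace_mem` : `Tr_{F'/F} y ∈ O`;
* `red_trace` : `red (Tr_{F'/F} y) = ∑ i, Tr_{κ' i/κ} (red' i y)`.

More precisely, the matrix of multiplication by `y` in the orthonormal twisted basis of
`OrthoMulti` has entries in `O`, and its reduction is block diagonal with blocks the matrices of
multiplication by `red' i y` in the bases `B i` (`repr_red_mul`).
-/

set_option autoImplicit false
set_option linter.unusedSectionVars false

namespace Fermat.Agent.S34.OrthoTrace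

open Fermat.Agent.S34.WeakApprox Fermat.Agent.S34.OrthoMulti

variable {F F' : Type*} [Field F] [Field F'] [Algebra F F'] [Module.Finite F F']
variable {ι : Type*} [Fintype ι]
variable {O : ValuationSubring F} {O' : ι → ValuationSubring F'}
variable {κ : Type*} [Field κ] {κ' : ι → Type*} [∀ i, Field (κ' i)] [∀ i, Algebra κ (κ' i)]
variable {J : ι → Type*} [∀ i, Fintype (J i)]

/-- the reduction data for a finite family of valuation rings over `O` -/
structure RedData (O : ValuationSubring F) (O' : ι → ValuationSubring F') (κ : Type*) [Field κ]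
    (κ' : ι → Type*) [∀ i, Field (κ' i)] [∀ i, Algebra κ (κ' i)] where
  /-- all `O' i` lie over `O` -/
  comap : ∀ i, (O' i).comap (algebraMap F F') = O
  /-- residue map of the base -/
  red : ↥O →+* κ
  /-- residue maps upstairs -/
  red' : ∀ i, ↥(O' i) →+* κ' i
  red_eq_zero : ∀ c : ↥O, red c = 0 ↔ (c : F) ∈ O.nonunits
  red'_eq_zero : ∀ i (y : ↥(O' i)), red' i y = 0 ↔ (y : F') ∈ (O' i).nonunits
  compat : ∀ i (c : ↥O),
    red' i ⟨algebraMap F F' (c : F), algebraMap_mem_of_mem comap i c.2⟩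
      = algebraMap κ (κ' i) (red c)

namespace RedData

variable (D : RedData O O' κ κ')

/-- `red' i` on elements of `F'` with a membership proof -/
def r (i : ι) (y : F') (hy : y ∈ O' i) : κ' i := D.red' i ⟨y, hy⟩

theorem r_mul (i : ι) {y z : F'} (hy : y ∈ O' i) (hz : z ∈ O' i) :
    D.r i (y * z) (mul_mem hy hz) = D.r i y hy * D.r i z hz := by
  rw [r, r, r, ← map_mul]
  rfl

theorem r_sum (i : ι) {T : Type*} (s : Finset T) (f : T → F') (hf : ∀ t, f t ∈ O' i) :
    D.r i (∑ t ∈ s, f t) (sum_mem fun t _ => hf t) = ∑ t ∈ s, D.r i (f t) (hf t) := by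
  have h1 : (⟨∑ t ∈ s, f t, sum_mem fun t _ => hf t⟩ : ↥(O' i)) = ∑ t ∈ s, ⟨f t, hf t⟩ := by
    apply Subtype.ext
    simp
  rw [r, h1, map_sum]
  rfl

theorem r_congr (i : ι) {y z : F'} (h : y = z) (hy : y ∈ O' i) :
    D.r i y hy = D.r i z (h ▸ hy) := by
  subst h
  rfl

theorem r_eq_zero (i : ι) {y : F'} (hy : y ∈ (O' i).nonunits) :
    D.r i y ((O' i).nonunits_subset hy) = 0 :=
  (D.red'_eq_zero i _).mpr hy

theorem r_eq_of_sub_mem (i : ι) {y z : F'} (hy : y ∈ O' i) (hz : z ∈ O' i)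
    (h : y - z ∈ (O' i).nonunits) : D.r i y hy = D.r i z hz := by
  have h1 : D.red' i (⟨y, hy⟩ - ⟨z, hz⟩) = 0 := (D.red'_eq_zero i _).mpr h
  rw [map_sub, sub_eq_zero] at h1
  exact h1

theorem r_algebraMap (i : ι) {c : F} (hc : c ∈ O) :
    D.r i (algebraMap F F' c) (algebraMap_mem_of_mem D.comap i hc)
      = algebraMap κ (κ' i) (D.red ⟨c, hc⟩) :=
  D.compat i ⟨c, hc⟩

end RedData

variable (D : RedData O O' κ κ') (B : ∀ i, Module.Basis (J i) κ (κ' i))
variable (a : ∀ i, J i → F') (ha : ∀ i j, a i j ∈ O' i)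

/-- the lifts of `κ`-bases are residue-independent (hypothesis `hri` of `OrthoMulti`) -/
theorem hri_of_basis (hB : ∀ i j, D.r i (a i j) (ha i j) = B i j)
    (i : ι) (c : J i → F) (hc : ∀ j, c j ∈ O)
    (hsum : ∑ j, algebraMap F F' (c j) * a i j ∈ (O' i).nonunits) : ∀ j, c j ∈ O.nonunits := by
  have h1 := D.r_eq_zero i hsum
  have h2 : D.r i (∑ j, algebraMap F F' (c j) * a i j)
      (sum_mem fun j _ => mul_mem (algebraMap_mem_of_mem D.comap i (hc j)) (ha i j))
      = ∑ j, D.red ⟨c j, hc j⟩ • B i j := by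
    rw [D.r_sum i Finset.univ (fun j => algebraMap F F' (c j) * a i j)
      (fun j => mul_mem (algebraMap_mem_of_mem D.comap i (hc j)) (ha i j))]
    refine Finset.sum_congr rfl fun j _ => ?_
    rw [D.r_mul i (algebraMap_mem_of_mem D.comap i (hc j)) (ha i j), D.r_algebraMap i (hc j),
      hB, Algebra.smul_def]
  rw [h2] at h1
  intro j
  have h3 := Fintype.linearIndependent_iff.mp (B i).linearIndependent _ h1 j
  exact (D.red_eq_zero _).mp h3

theorem exists_ortho (hB : ∀ i j, D.r i (a i j) (ha i j) = B i j)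
    (hA : ∀ i, Arch (O' i)) (hinc : ∀ i j, i ≠ j → ¬ O' i ≤ O' j) :
    ∃ b : (Σ i, J i) → F', IsOrtho O O' a b :=
  exists_isOrtho D.comap hA hinc ha (hri_of_basis D B a ha hB)

section WithOrtho

variable {a}
variable {b : (Σ i, J i) → F'}

include D in
/-- the matrix of multiplication by `y ∈ ⋂ O' i` in the orthonormal basis has entries in `O` -/
theorem repr_mul_mem (hcard : ∑ i, Fintype.card (J i) = Module.finrank F F')
    (hb : IsOrtho O O' a b) {y : F'} (hy : ∀ i, y ∈ O' i) (p p' : Σ i, J i) :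
    (hb.basis hcard).repr (y * b p') p ∈ O :=
  (hb.mem_iff_repr_mem D.comap hcard (y * b p')).mp (fun i => mul_mem (hy i) (hb.mem p' i)) p

/-- reduction of the twisted basis, diagonal part -/
theorem r_b_self (hB : ∀ i j, D.r i (a i j) (ha i j) = B i j) (hb : IsOrtho O O' a b)
    (i : ι) (j : J i) : D.r i (b ⟨i, j⟩) (hb.mem ⟨i, j⟩ i) = B i j := by
  rw [D.r_eq_of_sub_mem i (hb.mem ⟨i, j⟩ i) (ha i j) (hb.sub_mem ⟨i, j⟩), hB]

/-- reduction of the twisted basis, off-diagonal part -/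
theorem r_b_of_ne (hb : IsOrtho O O' a b) (i : ι) (p : Σ i, J i) (h : i ≠ p.1) :
    D.r i (b p) (hb.mem p i) = 0 :=
  D.r_eq_zero i (hb.mem_nonunits p i h)

/-- **the reduced multiplication matrix is block diagonal with the expected blocks** -/
theorem repr_red_mul (hB : ∀ i j, D.r i (a i j) (ha i j) = B i j)
    (hcard : ∑ i, Fintype.card (J i) = Module.finrank F F') (hb : IsOrtho O O' a b)
    {y : F'} (hy : ∀ i, y ∈ O' i) (i : ι) (j j' : J i) :
    (B i).repr (D.r i y (hy i) * B i j') j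
      = D.red ⟨(hb.basis hcard).repr (y * b ⟨i, j'⟩) ⟨i, j⟩,
          repr_mul_mem D hcard hb hy ⟨i, j⟩ ⟨i, j'⟩⟩ := by
  classical
  set M : (Σ i, J i) → F := fun p => (hb.basis hcard).repr (y * b ⟨i, j'⟩) p with hM
  have hMO : ∀ p, M p ∈ O := fun p => repr_mul_mem D hcard hb hy p ⟨i, j'⟩
  have hexp : y * b ⟨i, j'⟩ = ∑ p, algebraMap F F' (M p) * b p :=
    (hb.sum_repr hcard (y * b ⟨i, j'⟩)).symm
  have hterm : ∀ p, algebraMap F F' (M p) * b p ∈ O' i := fun p =>
    mul_mem (algebraMap_mem_of_mem D.comap i (hMO p)) (hb.mem p i)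
  have h1 : D.r i (y * b ⟨i, j'⟩) (mul_mem (hy i) (hb.mem _ i))
      = D.r i (∑ p, algebraMap F F' (M p) * b p) (sum_mem fun p _ => hterm p) :=
    D.r_congr i hexp _
  rw [D.r_mul i (hy i) (hb.mem _ i), r_b_self D B ha hB hb i j',
    D.r_sum i Finset.univ _ hterm, Fintype.sum_sigma, Finset.sum_eq_single i] at h1
  · have h2 : ∑ j, D.r i (algebraMap F F' (M ⟨i, j⟩) * b ⟨i, j⟩) (hterm ⟨i, j⟩)
        = ∑ j, D.red ⟨M ⟨i, j⟩, hMO ⟨i, j⟩⟩ • B i j := by
      refine Finset.sum_congr rfl fun j _ => ?_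
      rw [D.r_mul i (algebraMap_mem_of_mem D.comap i (hMO _)) (hb.mem _ i),
        D.r_algebraMap i (hMO _), r_b_self D B ha hB hb i j, Algebra.smul_def]
    rw [h2] at h1
    rw [h1, (B i).repr_sum_self]
  · intro i' _ hi'
    refine Finset.sum_eq_zero fun j _ => ?_
    rw [D.r_mul i (algebraMap_mem_of_mem D.comap i (hMO _)) (hb.mem _ i),
      r_b_of_ne D hb i ⟨i', j⟩ (Ne.symm hi'), mul_zero]
  · intro h
    exact absurd (Finset.mem_univ i) h

include D in
theorem trace_mem_of_ortho (hcard : ∑ i, Fintype.card (J i) = Module.finrank F F')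
    (hb : IsOrtho O O' a b) {y : F'} (hy : ∀ i, y ∈ O' i) : Algebra.trace F F' y ∈ O := by
  classical
  rw [Algebra.trace_eq_matrix_trace (hb.basis hcard) y, Matrix.trace]
  refine sum_mem fun p _ => ?_
  rw [Matrix.diag_apply, Algebra.leftMulMatrix_eq_repr_mul, hb.basis_apply hcard]
  exact repr_mul_mem D hcard hb hy p p

theorem red_trace_of_ortho (hB : ∀ i j, D.r i (a i j) (ha i j) = B i j)
    (hcard : ∑ i, Fintype.card (J i) = Module.finrank F F') (hb : IsOrtho O O' a b)
    {y : F'} (hy : ∀ i, y ∈ O' i) :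
    D.red ⟨Algebra.trace F F' y, trace_mem_of_ortho D hcard hb hy⟩
      = ∑ i, Algebra.trace κ (κ' i) (D.r i y (hy i)) := by
  classical
  have h1 : (⟨Algebra.trace F F' y, trace_mem_of_ortho D hcard hb hy⟩ : ↥O)
      = ∑ p : Σ i, J i, ⟨(hb.basis hcard).repr (y * b p) p, repr_mul_mem D hcard hb hy p p⟩ := by
    apply Subtype.ext
    show Algebra.trace F F' y = _
    rw [AddSubmonoidClass.coe_finsetSum, Algebra.trace_eq_matrix_trace (hb.basis hcard) y,
      Matrix.trace]
    refine Finset.sum_congr rfl fun p _ => ?_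
    rw [Matrix.diag_apply, Algebra.leftMulMatrix_eq_repr_mul, hb.basis_apply hcard]
  rw [h1, map_sum, Fintype.sum_sigma]
  refine Finset.sum_congr rfl fun i _ => ?_
  rw [Algebra.trace_eq_matrix_trace (B i), Matrix.trace]
  refine Finset.sum_congr rfl fun j _ => ?_
  rw [Matrix.diag_apply, Algebra.leftMulMatrix_eq_repr_mul,
    repr_red_mul D B ha hB hcard hb hy i j j]

end WithOrtho

/-- **the trace of an element of `⋂ O' i` lies in `O`** -/
theorem trace_mem (hB : ∀ i j, D.r i (a i j) (ha i j) = B i j)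
    (hA : ∀ i, Arch (O' i)) (hinc : ∀ i j, i ≠ j → ¬ O' i ≤ O' j)
    (hcard : ∑ i, Fintype.card (J i) = Module.finrank F F')
    {y : F'} (hy : ∀ i, y ∈ O' i) : Algebra.trace F F' y ∈ O := by
  obtain ⟨b, hb⟩ := exists_ortho D B a ha hB hA hinc
  exact trace_mem_of_ortho D hcard hb hy

/-- **the trace commutes with reduction**: `red (Tr y) = ∑ i, Tr_i (red' i y)` -/
theorem red_trace (hB : ∀ i j, D.r i (a i j) (ha i j) = B i j)
    (hA : ∀ i, Arch (O' i)) (hinc : ∀ i j, i ≠ j → ¬ O' i ≤ O' j)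
    (hcard : ∑ i, Fintype.card (J i) = Module.finrank F F')
    {y : F'} (hy : ∀ i, y ∈ O' i) :
    D.red ⟨Algebra.trace F F' y, trace_mem D B a ha hB hA hinc hcard hy⟩
      = ∑ i, Algebra.trace κ (κ' i) (D.r i y (hy i)) := by
  obtain ⟨b, hb⟩ := exists_ortho D B a ha hB hA hinc
  exact red_trace_of_ortho D B ha hB hcard hb hy

/-! ### basis-free forms -/

section BasisFree

variable [∀ i, Module.Finite κ (κ' i)]

theorem exists_lifts (hsurj : ∀ i, Function.Surjective (D.red' i)) :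
    ∃ (a : ∀ i, Fin (Module.finrank κ (κ' i)) → F') (ha : ∀ i j, a i j ∈ O' i),
      ∀ i j, D.r i (a i j) (ha i j) = Module.finBasis κ (κ' i) j := by
  choose l hl using fun (i : ι) (j : Fin (Module.finrank κ (κ' i))) =>
    hsurj i (Module.finBasis κ (κ' i) j)
  exact ⟨fun i j => (l i j : F'), fun i j => (l i j).2, fun i j => hl i j⟩

/-- **the trace of an element of `⋂ O' i` lies in `O`** (basis-free form) -/
theorem trace_mem' (hsurj : ∀ i, Function.Surjective (D.red' i))
    (hA : ∀ i, Arch (O' i)) (hinc : ∀ i j, i ≠ j → ¬ O' i ≤ O' j)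
    (hdim : ∑ i, Module.finrank κ (κ' i) = Module.finrank F F')
    {y : F'} (hy : ∀ i, y ∈ O' i) : Algebra.trace F F' y ∈ O := by
  obtain ⟨a, ha, hB⟩ := exists_lifts D hsurj
  exact trace_mem D (fun i => Module.finBasis κ (κ' i)) a ha hB hA hinc
    (by simpa using hdim) hy

/-- **the trace commutes with reduction** (basis-free form) -/
theorem red_trace' (hsurj : ∀ i, Function.Surjective (D.red' i))
    (hA : ∀ i, Arch (O' i)) (hinc : ∀ i j, i ≠ j → ¬ O' i ≤ O' j)
    (hdim : ∑ i, Module.finrank κ (κ' i) = Module.finrank F F')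
    {y : F'} (hy : ∀ i, y ∈ O' i) :
    D.red ⟨Algebra.trace F F' y, trace_mem' D hsurj hA hinc hdim hy⟩
      = ∑ i, Algebra.trace κ (κ' i) (D.red' i ⟨y, hy i⟩) := by
  obtain ⟨a, ha, hB⟩ := exists_lifts D hsurj
  exact red_trace D (fun i => Module.finBasis κ (κ' i)) a ha hB hA hinc
    (by simpa using hdim) hy

end BasisFree

end Fermat.Agent.S34.OrthoTrace
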