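import Mathlib
import Fermat.Agent.S34.OrthoTrace
import Fermat.Agent.S34.BlockDiagDet

/-!
# PROJECT U (S34) / S35: the norm commutes with reduction for several valuations

The norm twin of `OrthoTrace.red_trace` (same framework: `F'/F` finite, `O` a valuation ring of `F`
with residue map `red : O →+* κ`, `O' i` pairwise incomparable archimedean valuation rings of `F'`
over `O` with residue maps `red' i : O' i →+* κ' i`, and `∑ i, [κ' i : κ] = [F' : F]`).  For every
`y ∈ ⋂ O' i`:

* `norm_mem` : `N_{F'/F} y ∈ O`;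
* `red_norm` : `red (N_{F'/F} y) = ∏ i, N_{κ' i/κ} (red' i y)`;
* `exists_charpoly` : the characteristic polynomial of the multiplication by `y` is the image of a
  monic `P : O[X]` whose reduction is the product of the characteristic polynomials of the
  multiplications by `red' i y`;
* basis-free forms `norm_mem'`, `red_norm'`, `exists_charpoly'`.

The matrix of the multiplication by `y` in the orthonormal twisted basis of `OrthoMulti` has entries
in `O`; its reduction is block diagonal (`OrthoTrace.repr_red_mul` for the diagonal blocks,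
`repr_red_mul_of_ne` here for the vanishing of the other blocks), and the determinant of a block
diagonal matrix is the product of the determinants of the blocks (`BlockDiagDet`).
-/

set_option autoImplicit false
set_option linter.unusedSectionVars false

namespace Fermat.Agent.S34.OrthoNorm

open Fermat.Agent.S34.WeakApprox Fermat.Agent.S34.OrthoMulti Fermat.Agent.S34.OrthoTrace
open Fermat.Agent.S34.BlockDiagDet

variable {F F' : Type*} [Field F] [Field F'] [Algebra F F'] [Module.Finite F F']
variable {ι : Type*} [Fintype ι]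
variable {O : ValuationSubring F} {O' : ι → ValuationSubring F'}
variable {κ : Type*} [Field κ] {κ' : ι → Type*} [∀ i, Field (κ' i)] [∀ i, Algebra κ (κ' i)]
variable {J : ι → Type*} [∀ i, Fintype (J i)]

variable (D : RedData O O' κ κ') (B : ∀ i, Module.Basis (J i) κ (κ' i))
variable (a : ∀ i, J i → F') (ha : ∀ i j, a i j ∈ O' i)

section WithOrtho

variable {a}
variable {b : (Σ i, J i) → F'}

include D in
/-- the coordinates of `z ∈ ⋂ O' i` in the orthonormal basis lie in `O` -/
theorem repr_mem (hcard : ∑ i, Fintype.card (J i) = Module.finrank F F')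
    (hb : IsOrtho O O' a b) {z : F'} (hz : ∀ i, z ∈ O' i) (p : Σ i, J i) :
    (hb.basis hcard).repr z p ∈ O :=
  (hb.mem_iff_repr_mem D.comap hcard z).mp hz p

/-- **the reduction at `i` of `z ∈ ⋂ O' i` only sees the `i`-th block of coordinates** -/
theorem r_eq_sum_red_repr (hB : ∀ i j, D.r i (a i j) (ha i j) = B i j)
    (hcard : ∑ i, Fintype.card (J i) = Module.finrank F F') (hb : IsOrtho O O' a b)
    {z : F'} (hz : ∀ i, z ∈ O' i) (i : ι) :
    D.r i z (hz i) =
      ∑ j, D.red ⟨(hb.basis hcard).repr z ⟨i, j⟩, repr_mem D hcard hb hz ⟨i, j⟩⟩ • B i j := by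
  classical
  set M : (Σ i, J i) → F := fun p => (hb.basis hcard).repr z p with hM
  have hMO : ∀ p, M p ∈ O := fun p => repr_mem D hcard hb hz p
  have hexp : z = ∑ p, algebraMap F F' (M p) * b p := (hb.sum_repr hcard z).symm
  have hterm : ∀ p, algebraMap F F' (M p) * b p ∈ O' i := fun p =>
    mul_mem (algebraMap_mem_of_mem D.comap i (hMO p)) (hb.mem p i)
  have h1 : D.r i z (hz i) = D.r i (∑ p, algebraMap F F' (M p) * b p)
      (sum_mem fun p _ => hterm p) := D.r_congr i hexp _
  rw [h1, D.r_sum i Finset.univ _ hterm, Fintype.sum_sigma, Finset.sum_eq_single i]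
  · refine Finset.sum_congr rfl fun j _ => ?_
    rw [D.r_mul i (algebraMap_mem_of_mem D.comap i (hMO _)) (hb.mem _ i),
      D.r_algebraMap i (hMO _), r_b_self D B ha hB hb i j, Algebra.smul_def]
  · intro i' _ hi'
    refine Finset.sum_eq_zero fun j _ => ?_
    rw [D.r_mul i (algebraMap_mem_of_mem D.comap i (hMO _)) (hb.mem _ i),
      r_b_of_ne D hb i ⟨i', j⟩ (Ne.symm hi'), mul_zero]
  · intro h
    exact absurd (Finset.mem_univ i) h

/-- **the blocks off the diagonal of the reduced multiplication matrix vanish** -/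
theorem repr_red_mul_of_ne (hB : ∀ i j, D.r i (a i j) (ha i j) = B i j)
    (hcard : ∑ i, Fintype.card (J i) = Module.finrank F F') (hb : IsOrtho O O' a b)
    {y : F'} (hy : ∀ i, y ∈ O' i) (p p' : Σ i, J i) (h : p.1 ≠ p'.1) :
    D.red ⟨(hb.basis hcard).repr (y * b p') p, repr_mul_mem D hcard hb hy p p'⟩ = 0 := by
  classical
  obtain ⟨i, j⟩ := p
  have hz : ∀ i', y * b p' ∈ O' i' := fun i' => mul_mem (hy i') (hb.mem p' i')
  have h1 := r_eq_sum_red_repr D B ha hB hcard hb hz i
  rw [D.r_mul i (hy i) (hb.mem p' i), r_b_of_ne D hb i p' h, mul_zero] at h1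
  exact Fintype.linearIndependent_iff.mp (B i).linearIndependent _ h1.symm j

include D in
/-- the matrix of the multiplication by `y ∈ ⋂ O' i` in the orthonormal basis, over `O` -/
noncomputable def mulMatrix (hcard : ∑ i, Fintype.card (J i) = Module.finrank F F')
    (hb : IsOrtho O O' a b) {y : F'} (hy : ∀ i, y ∈ O' i) :
    Matrix (Σ i, J i) (Σ i, J i) ↥O :=
  fun p p' => ⟨(hb.basis hcard).repr (y * b p') p, repr_mul_mem D hcard hb hy p p'⟩

theorem map_subtype_mulMatrix [DecidableEq (Σ i, J i)]
    (hcard : ∑ i, Fintype.card (J i) = Module.finrank F F')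
    (hb : IsOrtho O O' a b) {y : F'} (hy : ∀ i, y ∈ O' i) :
    (mulMatrix D hcard hb hy).map O.subtype = Algebra.leftMulMatrix (hb.basis hcard) y := by
  ext p p'
  rw [Matrix.map_apply, Algebra.leftMulMatrix_eq_repr_mul, hb.basis_apply hcard]
  rfl

/-- the reduced multiplication matrix is block diagonal with blocks the multiplication matrices
of the reductions -/
theorem map_red_mulMatrix_diag [∀ i, DecidableEq (J i)]
    (hB : ∀ i j, D.r i (a i j) (ha i j) = B i j)
    (hcard : ∑ i, Fintype.card (J i) = Module.finrank F F') (hb : IsOrtho O O' a b)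
    {y : F'} (hy : ∀ i, y ∈ O' i) (i : ι) (j j' : J i) :
    ((mulMatrix D hcard hb hy).map D.red) ⟨i, j⟩ ⟨i, j'⟩ =
      Algebra.leftMulMatrix (B i) (D.r i y (hy i)) j j' := by
  rw [Matrix.map_apply, Algebra.leftMulMatrix_eq_repr_mul,
    repr_red_mul D B ha hB hcard hb hy i j j']
  rfl

theorem map_red_mulMatrix_off (hB : ∀ i j, D.r i (a i j) (ha i j) = B i j)
    (hcard : ∑ i, Fintype.card (J i) = Module.finrank F F') (hb : IsOrtho O O' a b)
    {y : F'} (hy : ∀ i, y ∈ O' i) (p p' : Σ i, J i) (h : p.1 ≠ p'.1) :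
    ((mulMatrix D hcard hb hy).map D.red) p p' = 0 := by
  rw [Matrix.map_apply]
  exact repr_red_mul_of_ne D B ha hB hcard hb hy p p' h

include D in
theorem norm_eq_det_mulMatrix [DecidableEq ι] [∀ i, DecidableEq (J i)]
    (hcard : ∑ i, Fintype.card (J i) = Module.finrank F F')
    (hb : IsOrtho O O' a b) {y : F'} (hy : ∀ i, y ∈ O' i) :
    Algebra.norm F y = ((mulMatrix D hcard hb hy).det : F) := by
  rw [Algebra.norm_eq_matrix_det (hb.basis hcard) y, ← map_subtype_mulMatrix D hcard hb hy]
  exact (RingHom.map_det O.subtype (mulMatrix D hcard hb hy)).symm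

include D in
theorem norm_mem_of_ortho (hcard : ∑ i, Fintype.card (J i) = Module.finrank F F')
    (hb : IsOrtho O O' a b) {y : F'} (hy : ∀ i, y ∈ O' i) : Algebra.norm F y ∈ O := by
  classical
  rw [norm_eq_det_mulMatrix D hcard hb hy]
  exact (mulMatrix D hcard hb hy).det.2

theorem red_norm_of_ortho (hB : ∀ i j, D.r i (a i j) (ha i j) = B i j)
    (hcard : ∑ i, Fintype.card (J i) = Module.finrank F F') (hb : IsOrtho O O' a b)
    {y : F'} (hy : ∀ i, y ∈ O' i) :
    D.red ⟨Algebra.norm F y, norm_mem_of_ortho D hcard hb hy⟩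
      = ∏ i, Algebra.norm κ (D.r i y (hy i)) := by
  classical
  have h1 : (⟨Algebra.norm F y, norm_mem_of_ortho D hcard hb hy⟩ : ↥O)
      = (mulMatrix D hcard hb hy).det :=
    Subtype.ext (norm_eq_det_mulMatrix D hcard hb hy)
  rw [h1, RingHom.map_det, RingHom.mapMatrix_apply,
    det_of_sigma_blocks ((mulMatrix D hcard hb hy).map D.red)
      (fun i => Algebra.leftMulMatrix (B i) (D.r i y (hy i)))
      (map_red_mulMatrix_diag D B ha hB hcard hb hy)
      (map_red_mulMatrix_off D B ha hB hcard hb hy)]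
  refine Finset.prod_congr rfl fun i _ => ?_
  rw [Algebra.norm_eq_matrix_det (B i)]

/-- the characteristic polynomial of the multiplication by `y ∈ ⋂ O' i` has coefficients in `O`
(it is the image of the characteristic polynomial of `mulMatrix`) -/
theorem charpoly_mulMatrix_map_subtype [DecidableEq ι] [∀ i, DecidableEq (J i)]
    (hcard : ∑ i, Fintype.card (J i) = Module.finrank F F')
    (hb : IsOrtho O O' a b) {y : F'} (hy : ∀ i, y ∈ O' i) :
    (mulMatrix D hcard hb hy).charpoly.map O.subtype =
      LinearMap.charpoly (Algebra.lmul F F' y) := by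
  rw [← Matrix.charpoly_map, map_subtype_mulMatrix D hcard hb hy, Algebra.leftMulMatrix_apply,
    LinearMap.charpoly_toMatrix]

/-- **the characteristic polynomial commutes with reduction** -/
theorem charpoly_mulMatrix_map_red [DecidableEq ι] [∀ i, DecidableEq (J i)]
    [∀ i, Module.Finite κ (κ' i)] (hB : ∀ i j, D.r i (a i j) (ha i j) = B i j)
    (hcard : ∑ i, Fintype.card (J i) = Module.finrank F F') (hb : IsOrtho O O' a b)
    {y : F'} (hy : ∀ i, y ∈ O' i) :
    (mulMatrix D hcard hb hy).charpoly.map D.red =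
      ∏ i, LinearMap.charpoly (Algebra.lmul κ (κ' i) (D.r i y (hy i))) := by
  rw [← Matrix.charpoly_map,
    charpoly_of_sigma_blocks ((mulMatrix D hcard hb hy).map D.red)
      (fun i => Algebra.leftMulMatrix (B i) (D.r i y (hy i)))
      (map_red_mulMatrix_diag D B ha hB hcard hb hy)
      (map_red_mulMatrix_off D B ha hB hcard hb hy)]
  refine Finset.prod_congr rfl fun i _ => ?_
  rw [Algebra.leftMulMatrix_apply, LinearMap.charpoly_toMatrix]

end WithOrtho

/-- **the characteristic polynomial of the multiplication by `y ∈ ⋂ O' i` is defined over `O` and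
reduces to the product of the characteristic polynomials of the reductions** -/
theorem exists_charpoly [∀ i, Module.Finite κ (κ' i)]
    (hB : ∀ i j, D.r i (a i j) (ha i j) = B i j)
    (hA : ∀ i, Arch (O' i)) (hinc : ∀ i j, i ≠ j → ¬ O' i ≤ O' j)
    (hcard : ∑ i, Fintype.card (J i) = Module.finrank F F')
    {y : F'} (hy : ∀ i, y ∈ O' i) :
    ∃ P : Polynomial ↥O, P.Monic ∧
      P.map O.subtype = LinearMap.charpoly (Algebra.lmul F F' y) ∧
      P.map D.red = ∏ i, LinearMap.charpoly (Algebra.lmul κ (κ' i) (D.r i y (hy i))) := by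
  classical
  obtain ⟨b, hb⟩ := exists_ortho D B a ha hB hA hinc
  exact ⟨(mulMatrix D hcard hb hy).charpoly, Matrix.charpoly_monic _,
    charpoly_mulMatrix_map_subtype D hcard hb hy,
    charpoly_mulMatrix_map_red D B ha hB hcard hb hy⟩

/-- **the norm of an element of `⋂ O' i` lies in `O`** -/
theorem norm_mem (hB : ∀ i j, D.r i (a i j) (ha i j) = B i j)
    (hA : ∀ i, Arch (O' i)) (hinc : ∀ i j, i ≠ j → ¬ O' i ≤ O' j)
    (hcard : ∑ i, Fintype.card (J i) = Module.finrank F F')
    {y : F'} (hy : ∀ i, y ∈ O' i) : Algebra.norm F y ∈ O := by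
  obtain ⟨b, hb⟩ := exists_ortho D B a ha hB hA hinc
  exact norm_mem_of_ortho D hcard hb hy

/-- **the norm commutes with reduction**: `red (N y) = ∏ i, N_i (red' i y)` -/
theorem red_norm (hB : ∀ i j, D.r i (a i j) (ha i j) = B i j)
    (hA : ∀ i, Arch (O' i)) (hinc : ∀ i j, i ≠ j → ¬ O' i ≤ O' j)
    (hcard : ∑ i, Fintype.card (J i) = Module.finrank F F')
    {y : F'} (hy : ∀ i, y ∈ O' i) :
    D.red ⟨Algebra.norm F y, norm_mem D B a ha hB hA hinc hcard hy⟩
      = ∏ i, Algebra.norm κ (D.r i y (hy i)) := by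
  obtain ⟨b, hb⟩ := exists_ortho D B a ha hB hA hinc
  exact red_norm_of_ortho D B ha hB hcard hb hy

/-! ### basis-free forms -/

section BasisFree

variable [∀ i, Module.Finite κ (κ' i)]

/-- **the norm of an element of `⋂ O' i` lies in `O`** (basis-free form) -/
theorem norm_mem' (hsurj : ∀ i, Function.Surjective (D.red' i))
    (hA : ∀ i, Arch (O' i)) (hinc : ∀ i j, i ≠ j → ¬ O' i ≤ O' j)
    (hdim : ∑ i, Module.finrank κ (κ' i) = Module.finrank F F')
    {y : F'} (hy : ∀ i, y ∈ O' i) : Algebra.norm F y ∈ O := by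
  obtain ⟨a, ha, hB⟩ := exists_lifts D hsurj
  exact norm_mem D (fun i => Module.finBasis κ (κ' i)) a ha hB hA hinc
    (by simpa using hdim) hy

/-- **the norm commutes with reduction** (basis-free form) -/
theorem red_norm' (hsurj : ∀ i, Function.Surjective (D.red' i))
    (hA : ∀ i, Arch (O' i)) (hinc : ∀ i j, i ≠ j → ¬ O' i ≤ O' j)
    (hdim : ∑ i, Module.finrank κ (κ' i) = Module.finrank F F')
    {y : F'} (hy : ∀ i, y ∈ O' i) :
    D.red ⟨Algebra.norm F y, norm_mem' D hsurj hA hinc hdim hy⟩
      = ∏ i, Algebra.norm κ (D.red' i ⟨y, hy i⟩) := by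
  obtain ⟨a, ha, hB⟩ := exists_lifts D hsurj
  exact red_norm D (fun i => Module.finBasis κ (κ' i)) a ha hB hA hinc
    (by simpa using hdim) hy

/-- the characteristic polynomial, basis-free form -/
theorem exists_charpoly' (hsurj : ∀ i, Function.Surjective (D.red' i))
    (hA : ∀ i, Arch (O' i)) (hinc : ∀ i j, i ≠ j → ¬ O' i ≤ O' j)
    (hdim : ∑ i, Module.finrank κ (κ' i) = Module.finrank F F')
    {y : F'} (hy : ∀ i, y ∈ O' i) :
    ∃ P : Polynomial ↥O, P.Monic ∧
      P.map O.subtype = LinearMap.charpoly (Algebra.lmul F F' y) ∧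
      P.map D.red =
        ∏ i, LinearMap.charpoly (Algebra.lmul κ (κ' i) (D.red' i ⟨y, hy i⟩)) := by
  obtain ⟨a, ha, hB⟩ := exists_lifts D hsurj
  exact exists_charpoly D (fun i => Module.finBasis κ (κ' i)) a ha hB hA hinc
    (by simpa using hdim) hy

end BasisFree

end Fermat.Agent.S34.OrthoNorm
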