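import Mathlib
import Fermat.Prelude.Def_GaloisRep_Adic
import Fermat.Prelude.Def_GaloisRep_LocalConditions
import Fermat.Agent.S31.Core

/-!
# PROJECT U (S34), abstract core: unipotence from a Hecke-Galois module

Same setting as `S31/Core.lean`: `ρ : GaloisRepAdic T` (`T` local, `𝔪`-adically separated) with
`charpoly ρ(τ) = X² - π(T_ℓ) X + ℓ` at the Frobenius lifts `τ` at `ℓ ∉ Σ`, and a Hecke-Galois module
`(Λ, r, θ, ε)` with the faithfulness `hinj`.

* `trace_eq_two` : if `(r σ - 1)² = 0` on `Λ` and `ε σ = 1`, then `tr ρ(σ) = 2`;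
* `exists_not_isScalar` : a residually absolutely irreducible `ρ` is not scalar-valued;
* `det_eq_cycChar` : `det ρ` is the cyclotomic character (`ρ` residually absolutely irreducible);
* `charpoly_eq_of_trace_det` : `charpoly f = (X - 1)²` from `tr f = 2`, `det f = 1` (rank two);
* `charpoly_eq_of_heckeModule` : **the abstract form of S34.**
-/

set_option autoImplicit false
set_option linter.unusedSectionVars false
set_option linter.style.haveILetI false

namespace Fermat.Agent.S34.UnipCore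

open Polynomial IsLocalRing
open Fermat.Agent.S31.Core
open Fermat.Agent.S30.Algebra.DetGalois (Density inv_mul_apply_eq frobSet)
open Fermat.Agent.S30.Algebra

section Trace

variable {T : Type} [CommRing T] [IsLocalRing T]
variable {𝕋 : Type*} [CommRing 𝕋]
variable {R₀ : Type*} [CommRing R₀] {Λ : Type*} [AddCommGroup Λ] [Module R₀ Λ]
variable {Sg : Finset ℕ} {I₀ : Ideal R₀} {Tl : ℕ → 𝕋} {r : GQ →* Module.End R₀ Λ}
  {ε : GQ →* R₀} {θ : 𝕋 →+* Module.End R₀ Λ}

/-- **Trace two.** If `σ` acts unipotently of level two on the Hecke-Galois module `Λ` and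
`ε σ = 1`, then `tr ρ(σ) = 2`. -/
theorem trace_eq_two (hM : HeckeModule Sg I₀ Tl r ε θ) (ρ : GaloisRepAdic T) (π : 𝕋 →+* T)
    (hcp : FrobCharpolyVia ρ Sg Tl π) (hdens : Density Sg)
    (hsep : ∀ x : T, (∀ n, x ∈ maximalIdeal T ^ n) → x = 0)
    (hinj : ∀ n : ℕ, ∃ n' : ℕ, ∀ t : 𝕋,
      (∀ v : Λ, θ t v ∈ (I₀ ^ n') • (⊤ : Submodule R₀ Λ)) → π t ∈ maximalIdeal T ^ n)
    (σ : GQ) (hσ : (r σ - 1) * (r σ - 1) = 0) (hσε : ε σ = 1) :
    LinearMap.trace T ρ.V (ρ.ρ σ) = 2 := by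
  rw [← sub_eq_zero]
  refine hsep _ fun n => ?_
  obtain ⟨n', hn'⟩ := hinj n
  obtain ⟨b, hb1, hb2⟩ := exists_approx hM ρ π hcp hdens σ (max n n')
  rw [hσε, one_smul] at hb1
  have hS := isTwoSided_smallEnd (V := Λ) (I₀ ^ max n n')
  have hsq : r σ * r σ = r σ + r σ - 1 := by
    have : r σ * r σ - (r σ + r σ - 1) = (r σ - 1) * (r σ - 1) := by noncomm_ring
    rw [← sub_eq_zero, this, hσ]
  have h1 : θ (2 - b) * r σ ∈ (smallEnd (V := Λ) (I₀ ^ max n n')).toAddSubgroup := by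
    have : θ (2 - b) * r σ = r σ * r σ - θ b * r σ + 1 := by
      rw [hsq, map_sub, map_ofNat, sub_mul]
      noncomm_ring
    rw [this]
    exact hb1
  have h2 : θ (2 - b) ∈ smallEnd (V := Λ) (I₀ ^ max n n') := by
    have : θ (2 - b) = θ (2 - b) * r σ * r σ⁻¹ := by
      rw [mul_assoc, ← map_mul, mul_inv_cancel, map_one, mul_one]
    rw [this]
    exact hS.mul_right _ h1
  have h3 : π (2 - b) ∈ maximalIdeal T ^ n :=
    hn' _ fun v => smallEnd_mono (Ideal.pow_le_pow_right (le_max_right n n')) h2 v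
  have hle : maximalIdeal T ^ max n n' ≤ maximalIdeal T ^ n :=
    Ideal.pow_le_pow_right (le_max_left n n')
  have : LinearMap.trace T ρ.V (ρ.ρ σ) - 2 =
      (LinearMap.trace T ρ.V (ρ.ρ σ) - π b) - π (2 - b) := by
    rw [map_sub, map_ofNat]
    ring
  rw [this]
  exact Ideal.sub_mem _ (hle hb2) h3

end Trace

section Det

variable {T : Type} [CommRing T] [IsLocalRing T]
variable {𝕋 : Type*} [CommRing 𝕋]

/-- A residually absolutely irreducible representation is not scalar-valued. -/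
theorem exists_not_isScalar (ρ : GaloisRepAdic T) (habs : ρ.residual.IsAbsolutelyIrreducible) :
    ∃ σ₀ : GQ, ¬ DetLemma.End.IsScalar (ρ.ρ σ₀) := by
  classical
  by_contra hcon
  push Not at hcon
  let b := Module.finBasisOfFinrankEq T ρ.V ρ.finrank_eq
  have hall : ∀ x : Module.End T ρ.V, DetLemma.End.IsScalar x := by
    intro x
    have hx : x ∈ Submodule.span T (Set.range ρ.ρ) := by
      rw [Fermat.Agent.S53.Centralizer.span_range_eq_top ρ habs]
      exact Submodule.mem_top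
    induction hx using Submodule.span_induction with
    | mem y hy =>
      obtain ⟨g, rfl⟩ := hy
      exact hcon g
    | zero => exact ⟨0, by rw [zero_smul]⟩
    | add y z _ _ hy hz =>
      obtain ⟨c, rfl⟩ := hy
      obtain ⟨c', rfl⟩ := hz
      exact ⟨c + c', by rw [add_smul]⟩
    | smul a y _ hy =>
      obtain ⟨c, rfl⟩ := hy
      exact ⟨a * c, by rw [mul_smul]⟩
  have h1 := hall (Matrix.toLin b b (Matrix.of ![![0, 1], ![0, 0]]))
  rw [← DetLemma.End.isScalar_toMatrix_iff b, LinearMap.toMatrix_toLin, DetLemma.isScalar_iff] at h1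
  have h2 := h1.1
  simp at h2

/-- The determinant of an endomorphism of a free module of rank two from its characteristic
polynomial. -/
theorem det_of_charpoly {V : Type*} [AddCommGroup V] [Module T V] [Module.Free T V]
    [Module.Finite T V] (h2 : Module.finrank T V = 2) (f : Module.End T V) (a d : T)
    (hf : LinearMap.charpoly f = X ^ 2 - C a * X + C d) : LinearMap.det f = d := by
  classical
  let b := Module.finBasisOfFinrankEq T V h2
  have h1 : (LinearMap.toMatrix b b f).charpoly = X ^ 2 - C a * X + C d := by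
    rw [← hf, LinearMap.charpoly_toMatrix]
  rw [Matrix.charpoly_fin_two] at h1
  have h3 := congrArg (fun q : T[X] => q.coeff 0) h1
  simp only [coeff_add, coeff_sub, coeff_X_pow, coeff_C_mul, coeff_X_zero, coeff_C] at h3
  rw [← LinearMap.det_toMatrix b]
  simpa using h3

/-- **`det ρ` is the cyclotomic character.** -/
theorem det_eq_cycChar (p : ℕ) [Fact p.Prime] (hp : (p : T) ∈ maximalIdeal T) (ι : ℤ_[p] →+* T)
    (Sg : Finset ℕ) (hpS : p ∈ Sg) (Tl : ℕ → 𝕋) (ρ : GaloisRepAdic T)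
    (habs : ρ.residual.IsAbsolutelyIrreducible) (π : 𝕋 →+* T)
    (hcp : FrobCharpolyVia ρ Sg Tl π) (hdens : Density Sg)
    (hsep : ∀ x : T, (∀ n, x ∈ maximalIdeal T ^ n) → x = 0) (σ : GQ) :
    LinearMap.det (ρ.ρ σ) = Cyclotomic.cycChar p ι σ := by
  classical
  let b := Module.finBasisOfFinrankEq T ρ.V ρ.finrank_eq
  have hεc := Cyclotomic.cycChar_continuous p ι (maximalIdeal T) hp
  choose Lε hLε hε using hεc
  choose Lρ hLρ hρ using ρ.isAdicContinuous
  refine DetLemma.End.det_eq_of_density b (maximalIdeal T) hsep ρ.ρ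
    (Cyclotomic.cycChar p ι) (frobSet Sg) ?_
    (fun n => {u : GQ | ∀ x ∈ Lρ n ⊔ Lε n, u x = x}) ?_ ?_ ?_ (exists_not_isScalar ρ habs) σ
  · rintro τ ⟨ℓ, hℓ, hℓS, A, hA, hτ⟩ -
    have hℓp : ℓ ≠ p := fun h => hℓS (h ▸ hpS)
    rw [Cyclotomic.cycChar_isFrobeniusAt p ι hℓ hℓp A hA τ hτ]
    exact det_of_charpoly ρ.finrank_eq (ρ.ρ τ) (π (Tl ℓ)) (ℓ : T) (hcp ℓ hℓ hℓS A hA τ hτ)
  · intro n u hu v
    exact hρ n u (fun x hx => hu x ((le_sup_left : Lρ n ≤ Lρ n ⊔ Lε n) hx)) v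
  · intro n u hu
    exact hε n u (fun x hx => hu x ((le_sup_right : Lε n ≤ Lρ n ⊔ Lε n) hx))
  · intro n g
    haveI := hLρ n
    haveI := hLε n
    obtain ⟨ℓ, hℓ, hℓS, A, τ, k, j, hA, hτ, h1, h2⟩ :=
      hdens (Lρ n ⊔ Lε n) (IntermediateField.finiteDimensional_sup _ _) g
    refine ⟨τ, ⟨ℓ, hℓ, hℓS, A, hA, hτ⟩, k, j, (g ^ k)⁻¹ * τ, ?_, ((g ^ k) ^ j)⁻¹ * g, ?_, ?_, ?_⟩
    · intro x hx
      exact inv_mul_apply_eq _ _ x (h1 x hx)
    · intro x hx
      exact inv_mul_apply_eq _ _ x (h2 x hx).symm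
    · rw [mul_inv_cancel_left]
    · rw [mul_inv_cancel_left]

/-- In rank two, trace `2` and determinant `1` give the characteristic polynomial `(X - 1)²`. -/
theorem charpoly_eq_of_trace_det {V : Type*} [AddCommGroup V] [Module T V] [Module.Free T V]
    [Module.Finite T V] (h2 : Module.finrank T V = 2) (f : Module.End T V)
    (htr : LinearMap.trace T V f = 2) (hdet : LinearMap.det f = 1) :
    LinearMap.charpoly f = (X - 1) ^ 2 := by
  classical
  let b := Module.finBasisOfFinrankEq T V h2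
  rw [← LinearMap.charpoly_toMatrix f b, Matrix.charpoly_fin_two,
    ← LinearMap.trace_eq_matrix_trace T b f, LinearMap.det_toMatrix, htr, hdet]
  rw [map_ofNat, map_one]
  ring

end Det

section Main

variable (p : ℕ) [Fact p.Prime]
variable {T : Type} [CommRing T] [IsLocalRing T]
variable {𝕋 : Type*} [CommRing 𝕋]
variable {Λ : Type*} [AddCommGroup Λ] [Module ℤ_[p] Λ]

/-- **S34, abstract form.** `ρ(σ)` has characteristic polynomial `(X - 1)²` for every `σ` in an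
inertia group at `q ≠ p` acting on the Hecke-Galois module `Λ` with `(σ - 1)² = 0`. -/
theorem charpoly_eq_of_heckeModule {Sg : Finset ℕ} (hpS : p ∈ Sg) (Tl : ℕ → 𝕋)
    (r : GQ →* Module.End ℤ_[p] Λ) (θ : 𝕋 →+* Module.End ℤ_[p] Λ)
    (hcont : ∀ n : ℕ, ∃ L : IntermediateField ℚ Qbar, FiniteDimensional ℚ L ∧
      ∀ u : GQ, (∀ x ∈ L, u x = x) → ∀ v : Λ,
        r u v - v ∈ (Ideal.span {(p : ℤ_[p])} ^ n) • (⊤ : Submodule ℤ_[p] Λ))
    (hcomm : ∀ (ℓ : ℕ) (g : GQ), Commute (θ (Tl ℓ)) (r g))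
    (hes : ∀ ℓ : ℕ, ℓ.Prime → ℓ ∉ Sg → ∀ A : ValuationSubring Qbar, A.LiesOverPrime ℓ →
      ∀ τ : GQ, A.IsFrobeniusAt τ ℓ →
        r τ * r τ - θ (Tl ℓ) * r τ + ((ℓ : ℕ) : Module.End ℤ_[p] Λ) = 0)
    (ρ : GaloisRepAdic T) (habs : ρ.residual.IsAbsolutelyIrreducible) (π : 𝕋 →+* T)
    (hcp : FrobCharpolyVia ρ Sg Tl π) (hdens : Density Sg)
    (hsep : ∀ x : T, (∀ n, x ∈ maximalIdeal T ^ n) → x = 0)
    (hpT : (p : T) ∈ maximalIdeal T) (ι : ℤ_[p] →+* T)
    (hinj : ∀ n : ℕ, ∃ n' : ℕ, ∀ t : 𝕋,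
      (∀ v : Λ, θ t v ∈ (Ideal.span {(p : ℤ_[p])} ^ n') • (⊤ : Submodule ℤ_[p] Λ)) →
        t ∈ Ideal.span {(p : 𝕋) ^ n})
    (q : ℕ) (hq : q.Prime) (hqp : q ≠ p)
    (hunip : ∀ P : ValuationSubring Qbar, P.LiesOverPrime q →
      ∀ σ ∈ P.inertiaSubgroupIn ℚ, (r σ - 1) * (r σ - 1) = 0) :
    ρ.IsUnipotentOnInertiaAt q := by
  intro P hP σ hσ
  refine charpoly_eq_of_trace_det ρ.finrank_eq (ρ.ρ σ) ?_ ?_
  · exact trace_eq_two (heckeModule_padic p hpS Tl r θ hcont hcomm hes) ρ π hcp hdens hsep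
      (hinj_of_span p π hpT hinj) σ (hunip P hP σ hσ)
      (Cyclotomic.cycChar_inertia p (RingHom.id ℤ_[p]) hq hqp P hP σ hσ)
  · rw [det_eq_cycChar p hpT ι Sg hpS Tl ρ habs π hcp hdens hsep σ]
    exact Cyclotomic.cycChar_inertia p ι hq hqp P hP σ hσ

end Main

end Fermat.Agent.S34.UnipCore
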