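import Mathlib
import Fermat.Agent.S37.Deuring.OrthoBasis2

/-!
# PROJECT U (S34): full-rank reduction of finite-dimensional spaces into a semilocal ring

The orthonormal-basis lemma of `S37/Deuring/OrthoBasis(2)` with the Gauss valuation ring `G.O`
replaced by a SUBRING `R` of `FL` (in the application `R = O₁ ∩ O₂`) and the residue field `Fk`
by a `k`-ALGEBRA (`κ₁ × κ₂`).

* `RedRing A π FL Fk` : a subring `R ≤ FL` containing the constants of `A`, with a ring
  homomorphism `red : R →+* Fk` restricting to `π` on constants and reflecting units;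
* `RedRing.ofInter` : `R = ⨅ i, O' i`, `Fk = Π i, κ' i`;
* `linearIndependent_of_red`, `exists_red_independent` : transport of the echelon lemma;
* `exists_red_independent_of_onb` / `exists_red_independent_of_basis` / `finrank_le_of_basis` :
  for `x, u p ∈ R` with `(hx)` every nonzero polynomial in `x̄` is a unit of `Fk`, `(hi)` the
  `ū p` are independent over `k[x̄]`, `(hii)` the `u p` span `FL` over `L(x)`: every
  finite-dimensional `L`-subspace `W ≤ FL` contains `finrank W` elements of `R` with
  `k`-independent reductions; so `finrank L W ≤ finrank k V` whenever `red (W ∩ R) ⊆ V`.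
-/

set_option autoImplicit false
set_option linter.unusedSectionVars false

noncomputable section

namespace Fermat.Agent.S34.OrthoLattice

open Polynomial IntermediateField
open Fermat.Agent.S37.Deuring.Core Fermat.Agent.S37.Deuring.GaussLemmas
open Fermat.Agent.S37.Deuring.OrthoBasis Fermat.Agent.S37.Deuring.OrthoBasis2

variable {L : Type*} [Field L] {k : Type*} [Field k]
variable {A : ValuationSubring L} {π : A →+* k}
variable {FL : Type*} [Field FL] [Algebra L FL] {Fk : Type*} [CommRing Fk] [Algebra k Fk]

/-- a reduction ring: a subring of `FL` over `A` with a reduction map to a `k`-algebra -/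
structure RedRing (A : ValuationSubring L) (π : A →+* k) (FL : Type*) [Field FL] [Algebra L FL]
    (Fk : Type*) [CommRing Fk] [Algebra k Fk] where
  /-- the ring of integral elements -/
  R : Subring FL
  /-- the reduction map -/
  red : R →+* Fk
  algebraMap_mem : ∀ a : A, algebraMap L FL (a : L) ∈ R
  red_algebraMap : ∀ a : A, red ⟨algebraMap L FL (a : L), algebraMap_mem a⟩ = algebraMap k Fk (π a)
  isUnit_of_red : ∀ y : R, IsUnit (red y) → IsUnit y

namespace RedRing

variable (RR : RedRing A π FL Fk)

/-- constants as a ring homomorphism `A →+* R` -/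
def constHom : A →+* RR.R where
  toFun a := ⟨algebraMap L FL (a : L), RR.algebraMap_mem a⟩
  map_one' := Subtype.ext (by simp)
  map_mul' a b := Subtype.ext (by simp)
  map_zero' := Subtype.ext (by simp)
  map_add' a b := Subtype.ext (by simp)

@[simp] theorem coe_constHom (a : A) : ((RR.constHom a : RR.R) : FL) = algebraMap L FL (a : L) :=
  rfl

@[simp] theorem red_constHom (a : A) : RR.red (RR.constHom a) = algebraMap k Fk (π a) :=
  RR.red_algebraMap a

/-- evaluation of a polynomial over `A` at an element of `R` -/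
def evalR (x : RR.R) (P : A[X]) : RR.R := Polynomial.eval₂ RR.constHom x P

theorem coe_evalR (x : RR.R) (P : A[X]) :
    ((RR.evalR x P : RR.R) : FL) = aeval (x : FL) (P.map A.subtype) := by
  rw [evalR, ← Subring.subtype_apply, Polynomial.hom_eval₂, aeval_def, Polynomial.eval₂_map]
  rfl

theorem red_evalR (x : RR.R) (P : A[X]) :
    RR.red (RR.evalR x P) = aeval (RR.red x) (P.map π) := by
  rw [evalR, Polynomial.hom_eval₂, aeval_def, Polynomial.eval₂_map]
  congr 1
  ext a
  simp

end RedRing

variable (RR : RedRing A π FL Fk)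

/-- `k`-linearly independent reductions lift to `L`-linearly independent elements. -/
theorem linearIndependent_of_red [Nontrivial Fk] {ι : Type*} [Fintype ι] (f : ι → RR.R)
    (h : LinearIndependent k fun i => RR.red (f i)) :
    LinearIndependent L fun i => ((f i : RR.R) : FL) := by
  classical
  rw [Fintype.linearIndependent_iff]
  intro c hc
  by_contra hne
  push Not at hne
  obtain ⟨i₁, hi₁⟩ := hne
  obtain ⟨i₀, -, h0, hA⟩ :=
    GaussDatum.exists_max_const (A := A) Finset.univ c ⟨i₁, Finset.mem_univ _, hi₁⟩
  set a : ι → A := fun i => ⟨c i / c i₀, hA i (Finset.mem_univ _)⟩ with ha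
  have hsum : ∑ i, RR.constHom (a i) * f i = 0 := by
    apply Subtype.ext
    have h1 : ((∑ i, RR.constHom (a i) * f i : RR.R) : FL)
        = ∑ i, (c i / c i₀) • ((f i : RR.R) : FL) := by
      rw [← Subring.subtype_apply, map_sum]
      refine Finset.sum_congr rfl fun i _ => ?_
      rw [Algebra.smul_def]
      rfl
    rw [h1]
    have h2 : ∑ i, (c i / c i₀) • ((f i : RR.R) : FL)
        = (c i₀)⁻¹ • ∑ i, c i • ((f i : RR.R) : FL) := by
      rw [Finset.smul_sum]
      refine Finset.sum_congr rfl fun i _ => ?_
      rw [smul_smul, div_eq_inv_mul]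
    rw [h2, hc, smul_zero]
    rfl
  have hred : ∑ i, π (a i) • RR.red (f i) = 0 := by
    have := congrArg RR.red hsum
    rw [map_sum, map_zero] at this
    rw [← this]
    refine Finset.sum_congr rfl fun i _ => ?_
    rw [map_mul, RR.red_constHom, Algebra.smul_def]
  have h3 := Fintype.linearIndependent_iff.mp h _ hred i₀
  have h4 : a i₀ = 1 := Subtype.ext (div_self h0)
  rw [h4, map_one] at h3
  exact one_ne_zero h3

/-- **Transport** of the echelon lemma, finite family. -/
theorem exists_red_independent_fintype [Nontrivial Fk] {ι : Type*} [Fintype ι] (w : ι → RR.R)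
    (hw : LinearIndependent k fun i => RR.red (w i)) (W : Submodule L FL)
    (hW : W ≤ Submodule.span L (Set.range fun i => ((w i : RR.R) : FL))) :
    ∃ g : Fin (Module.finrank L W) → RR.R, (∀ j, ((g j : RR.R) : FL) ∈ W) ∧
      LinearIndependent k fun j => RR.red (g j) := by
  classical
  set Φ : (ι → L) →ₗ[L] FL := Fintype.linearCombination L fun i => ((w i : RR.R) : FL) with hΦ
  have hΦinj : Function.Injective Φ :=
    linearIndependent_iff_injective_fintypeLinearCombination.mp (linearIndependent_of_red RR w hw)
  have hrange : W ≤ LinearMap.range Φ := by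
    rw [hΦ, Fintype.range_linearCombination]
    exact hW
  have hrank : Module.finrank L (W.comap Φ) = Module.finrank L W := by
    have h1 := (Submodule.equivMapOfInjective Φ hΦinj (W.comap Φ)).finrank_eq
    rw [Submodule.map_comap_eq_of_le hrange] at h1
    exact h1
  obtain ⟨g₀, hg₀W, hg₀li⟩ := exists_echelon π (Module.finrank L W) (W.comap Φ) hrank
  refine ⟨fun j => ∑ i, RR.constHom (g₀ j i) * w i, fun j => ?_, ?_⟩
  · have hcoe : ((∑ i, RR.constHom (g₀ j i) * w i : RR.R) : FL)
        = Φ fun i => ((g₀ j i : A) : L) := by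
      rw [hΦ, Fintype.linearCombination_apply, ← Subring.subtype_apply, map_sum]
      refine Finset.sum_congr rfl fun i _ => ?_
      rw [Algebra.smul_def]
      rfl
    rw [hcoe]
    exact hg₀W j
  · set Φk : (ι → k) →ₗ[k] Fk := Fintype.linearCombination k fun i => RR.red (w i) with hΦk
    have hΦkinj : Function.Injective Φk :=
      linearIndependent_iff_injective_fintypeLinearCombination.mp hw
    have hfun : (fun j => RR.red (∑ i, RR.constHom (g₀ j i) * w i))
        = Φk ∘ fun j => fun i => π (g₀ j i) := by
      funext j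
      rw [Function.comp_apply, hΦk, Fintype.linearCombination_apply, map_sum]
      refine Finset.sum_congr rfl fun i _ => ?_
      rw [map_mul, RR.red_constHom, Algebra.smul_def]
    rw [hfun]
    exact hg₀li.map' Φk (LinearMap.ker_eq_bot.mpr hΦkinj)

/-- **Transport** of the echelon lemma, arbitrary family. -/
theorem exists_red_independent [Nontrivial Fk] {ι : Type*} (w : ι → RR.R)
    (hw : LinearIndependent k fun i => RR.red (w i)) (W : Submodule L FL) [FiniteDimensional L W]
    (hW : W ≤ Submodule.span L (Set.range fun i => ((w i : RR.R) : FL))) :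
    ∃ g : Fin (Module.finrank L W) → RR.R, (∀ j, ((g j : RR.R) : FL) ∈ W) ∧
      LinearIndependent k fun j => RR.red (g j) := by
  classical
  have hfg : W.FG := (Submodule.fg_iff_finiteDimensional W).mpr inferInstance
  have hcomp := (Submodule.fg_iff_compact W).mp hfg
  rw [Submodule.span_range_eq_iSup] at hW
  obtain ⟨T, hT⟩ :=
    CompleteLattice.IsCompactElement.exists_finset_of_le_iSup (Submodule L FL) hcomp _ hW
  refine exists_red_independent_fintype RR (fun t : T => w t.1)
    (hw.comp _ Subtype.val_injective) W (hT.trans ?_)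
  refine iSup₂_le fun i hi => ?_
  rw [Submodule.span_singleton_le_iff_mem]
  exact Submodule.subset_span ⟨⟨i, hi⟩, rfl⟩

/-- **Orthonormal bases, general subspace.** -/
theorem exists_red_independent_of_onb [Nontrivial Fk] {ι : Type*} (x : RR.R) (u : ι → RR.R)
    (hx : ∀ Q : k[X], Q ≠ 0 → IsUnit (aeval (RR.red x) Q))
    (hi : LinearIndependent k fun p : ι × ℕ => RR.red x ^ p.2 * RR.red (u p.1))
    (hii : ∀ f : FL, ∃ q : L[X], q ≠ 0 ∧
      aeval (x : FL) q * f ∈ polySpan (L := L) (x : FL) fun i => ((u i : RR.R) : FL))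
    (W : Submodule L FL) [FiniteDimensional L W] :
    ∃ g : Fin (Module.finrank L W) → RR.R, (∀ j, ((g j : RR.R) : FL) ∈ W) ∧
      LinearIndependent k fun j => RR.red (g j) := by
  classical
  set M₀ : Submodule L FL := polySpan (L := L) (x : FL) fun i => ((u i : RR.R) : FL) with hM₀
  obtain ⟨q, hq, hqV⟩ := exists_common_denominator (x : FL) (fun i => ((u i : RR.R) : FL)) hii W
  obtain ⟨c, hc, Q, hQ, hQπ⟩ := exists_scale_one (A := A) (π := π) q hq
  set y : RR.R := RR.evalR x Q with hy
  have hycoe : (y : FL) = algebraMap L FL c * aeval (x : FL) q := by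
    rw [hy, RR.coe_evalR, hQ, map_mul, aeval_C]
  have hyred : IsUnit (RR.red y) := by
    rw [hy, RR.red_evalR]
    exact hx _ hQπ
  have hyu : IsUnit y := RR.isUnit_of_red y hyred
  have hy0 : (y : FL) ≠ 0 := by
    intro h
    have h1 : y = 0 := Subtype.ext h
    rw [h1] at hyu
    exact not_isUnit_zero hyu
  set W' : Submodule L FL := W.map (LinearMap.mulLeft L (y : FL)) with hW'
  have hinj : Function.Injective (LinearMap.mulLeft L (y : FL)) := by
    intro a b h
    simp only [LinearMap.mulLeft_apply] at h
    exact mul_left_cancel₀ hy0 h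
  have hrank : Module.finrank L W' = Module.finrank L W :=
    (Submodule.equivMapOfInjective _ hinj W).finrank_eq.symm
  have hWM : W' ≤ M₀ := by
    rintro _ ⟨f, hf, rfl⟩
    rw [LinearMap.mulLeft_apply, hycoe, mul_assoc, ← Algebra.smul_def]
    exact Submodule.smul_mem _ _ (hqV f hf)
  have hWfin : FiniteDimensional L W' := inferInstance
  set w : ι × ℕ → RR.R := fun p => x ^ p.2 * u p.1 with hw
  have hwli : LinearIndependent k fun p => RR.red (w p) := by
    have : (fun p => RR.red (w p)) = fun p : ι × ℕ => RR.red x ^ p.2 * RR.red (u p.1) := by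
      funext p
      rw [hw, map_mul, map_pow]
    rw [this]
    exact hi
  have hWspan : W' ≤ Submodule.span L (Set.range fun p => ((w p : RR.R) : FL)) := hWM
  obtain ⟨g, hgW, hgli⟩ := exists_red_independent RR w hwli W' hWspan
  set a : RR.R := ((hyu.unit⁻¹ : (RR.R)ˣ) : RR.R) with ha
  have hay : a * y = 1 := by
    rw [ha]
    exact hyu.val_inv_mul
  have hared : RR.red a * RR.red y = 1 := by rw [← map_mul, hay, map_one]
  have haredu : IsUnit (RR.red a) := IsUnit.of_mul_eq_one _ hared
  have haycoe : (a : FL) * (y : FL) = 1 := congrArg Subtype.val hay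
  refine ⟨fun j => a * g (Fin.cast hrank.symm j), fun j => ?_, ?_⟩
  · obtain ⟨f, hf, hfg⟩ := hgW (Fin.cast hrank.symm j)
    rw [LinearMap.mulLeft_apply] at hfg
    have : ((a * g (Fin.cast hrank.symm j) : RR.R) : FL) = f := by
      rw [show ((a * g (Fin.cast hrank.symm j) : RR.R) : FL)
          = (a : FL) * (g (Fin.cast hrank.symm j) : FL) from rfl, ← hfg, ← mul_assoc,
        haycoe, one_mul]
    rw [this]
    exact hf
  · have hli1 : LinearIndependent k fun j : Fin (Module.finrank L W) =>
        RR.red (g (Fin.cast hrank.symm j)) :=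
      hgli.comp _ (Fin.cast_injective _)
    have : (fun j : Fin (Module.finrank L W) => RR.red (a * g (Fin.cast hrank.symm j)))
        = (LinearMap.mulLeft k (RR.red a)) ∘
          fun j : Fin (Module.finrank L W) => RR.red (g (Fin.cast hrank.symm j)) := by
      funext j
      rw [Function.comp_apply, LinearMap.mulLeft_apply, map_mul]
    rw [this]
    refine hli1.map' _ (LinearMap.ker_eq_bot.mpr ?_)
    intro b b' h
    simp only [LinearMap.mulLeft_apply] at h
    exact haredu.mul_right_injective h

/-! ### polynomial independence ⟹ independence of the monomials -/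

/-- `(i)` in monomial form from independence over `k[x̄]` -/
theorem linearIndependent_monomials_of_aeval {ι : Type*} [Fintype ι] (xb : Fk) (ub : ι → Fk)
    (hi : ∀ P : ι → k[X], ∑ p, aeval xb (P p) * ub p = 0 → ∀ p, P p = 0) :
    LinearIndependent k fun p : ι × ℕ => xb ^ p.2 * ub p.1 := by
  classical
  rw [linearIndependent_iff]
  intro c hc
  rw [Finsupp.linearCombination_apply, Finsupp.sum] at hc
  -- the polynomials
  set P : ι → k[X] := fun p => ∑ e ∈ c.support.image Prod.snd, Polynomial.monomial e (c (p, e))
    with hP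
  have hsum : ∑ p, aeval xb (P p) * ub p = 0 := by
    rw [← hc]
    have h1 : ∀ p, aeval xb (P p) * ub p
        = ∑ e ∈ c.support.image Prod.snd, c (p, e) • (xb ^ e * ub p) := by
      intro p
      rw [hP, map_sum, Finset.sum_mul]
      refine Finset.sum_congr rfl fun e _ => ?_
      rw [aeval_monomial, Algebra.smul_def, mul_assoc]
    simp_rw [h1]
    rw [← Finset.sum_product']
    symm
    refine Finset.sum_subset ?_ ?_
    · intro pe hpe
      exact Finset.mem_product.mpr ⟨Finset.mem_univ _, Finset.mem_image.mpr ⟨pe, hpe, rfl⟩⟩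
    · intro pe _ hpe
      rw [Finsupp.notMem_support_iff.mp hpe, zero_smul]
  have hzero := hi P hsum
  ext ⟨p, e⟩
  have h2 := congrArg (fun Q : k[X] => Q.coeff e) (hzero p)
  simp only [hP, Polynomial.finsetSum_coeff, Polynomial.coeff_monomial, Polynomial.coeff_zero]
    at h2
  rw [Finsupp.zero_apply]
  by_cases hmem : (p, e) ∈ c.support
  · rw [Finset.sum_eq_single e] at h2
    · simpa using h2
    · intro e' _ he'
      rw [if_neg he']
    · intro h
      exact absurd (Finset.mem_image.mpr ⟨(p, e), hmem, rfl⟩) h
  · exact Finsupp.notMem_support_iff.mp hmem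

/-- the same from bases: `ū p` independent over `k[x̄]`, `u p` spanning `FL` over `L(x)` -/
theorem exists_red_independent_of_basis [Nontrivial Fk] {ι : Type*} [Fintype ι] (x : RR.R)
    (u : ι → RR.R)
    (hx : ∀ Q : k[X], Q ≠ 0 → IsUnit (aeval (RR.red x) Q))
    (hi : ∀ P : ι → k[X], ∑ p, aeval (RR.red x) (P p) * RR.red (u p) = 0 → ∀ p, P p = 0)
    (hii : ⊤ ≤ Submodule.span L⟮(x : FL)⟯ (Set.range fun p => ((u p : RR.R) : FL)))
    (W : Submodule L FL) [FiniteDimensional L W] :
    ∃ g : Fin (Module.finrank L W) → RR.R, (∀ j, ((g j : RR.R) : FL) ∈ W) ∧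
      LinearIndependent k fun j => RR.red (g j) :=
  exists_red_independent_of_onb RR x u hx (linearIndependent_monomials_of_aeval _ _ hi)
    (exists_denominator (x : FL) (fun p => ((u p : RR.R) : FL)) hii) W

/-- **dimension form**: the reduction of `W ∩ R` has dimension at least `finrank W` -/
theorem finrank_le_of_basis [Nontrivial Fk] {ι : Type*} [Fintype ι] (x : RR.R) (u : ι → RR.R)
    (hx : ∀ Q : k[X], Q ≠ 0 → IsUnit (aeval (RR.red x) Q))
    (hi : ∀ P : ι → k[X], ∑ p, aeval (RR.red x) (P p) * RR.red (u p) = 0 → ∀ p, P p = 0)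
    (hii : ⊤ ≤ Submodule.span L⟮(x : FL)⟯ (Set.range fun p => ((u p : RR.R) : FL)))
    (W : Submodule L FL) [FiniteDimensional L W] (V : Submodule k Fk) [FiniteDimensional k V]
    (hV : ∀ f : RR.R, (f : FL) ∈ W → RR.red f ∈ V) :
    Module.finrank L W ≤ Module.finrank k V := by
  obtain ⟨g, hgW, hgli⟩ := exists_red_independent_of_basis RR x u hx hi hii W
  let g' : Fin (Module.finrank L W) → V := fun j => ⟨RR.red (g j), hV _ (hgW j)⟩
  have hg' : LinearIndependent k g' := by
    apply LinearIndependent.of_comp V.subtype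
    exact hgli
  have := hg'.fintype_card_le_finrank
  rwa [Fintype.card_fin] at this

/-! ### the semilocal ring `⨅ i, O' i` -/

section Inter

variable {ι : Type*} [Nonempty ι] (O' : ι → ValuationSubring FL)
  {κ' : ι → Type*} [∀ i, Field (κ' i)] [∀ i, Algebra k (κ' i)]
  (red' : ∀ i, ↥(O' i) →+* κ' i)

/-- the inclusion `⨅ i, O' i → O' i` -/
def incl (i : ι) : ↥(⨅ i, (O' i).toSubring) →+* ↥(O' i) where
  toFun y := ⟨y.1, Subring.mem_iInf.mp y.2 i⟩
  map_one' := rfl
  map_mul' _ _ := rfl
  map_zero' := rfl
  map_add' _ _ := rfl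

@[simp] theorem coe_incl (i : ι) (y : ↥(⨅ i, (O' i).toSubring)) :
    ((incl O' i y : ↥(O' i)) : FL) = (y : FL) := rfl

variable (π) in
/-- **the reduction ring of a finite intersection of valuation rings** -/
def RedRing.ofInter
    (hconst : ∀ i (a : A), algebraMap L FL (a : L) ∈ O' i)
    (hred_const : ∀ i (a : A),
      red' i ⟨algebraMap L FL (a : L), hconst i a⟩ = algebraMap k (κ' i) (π a))
    (hker : ∀ i (y : ↥(O' i)), red' i y = 0 ↔ (y : FL) ∈ (O' i).nonunits) :
    RedRing A π FL (∀ i, κ' i) where
  R := ⨅ i, (O' i).toSubring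
  red := RingHom.pi fun i => (red' i).comp (incl O' i)
  algebraMap_mem a := Subring.mem_iInf.mpr fun i => hconst i a
  red_algebraMap a := by
    funext i
    exact hred_const i a
  isUnit_of_red y hy := by
    have hne : ∀ i, red' i (incl O' i y) ≠ 0 := by
      intro i
      have h1 : IsUnit ((RingHom.pi fun i => (red' i).comp (incl O' i)) y i) :=
        (Pi.isUnit_iff.mp hy) i
      exact h1.ne_zero
    have hval : ∀ i, (O' i).valuation (y : FL) = 1 := by
      intro i
      have h1 : (y : FL) ∉ (O' i).nonunits := fun h => hne i ((hker i _).mpr h)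
      rw [(O' i).mem_nonunits_iff, not_lt] at h1
      exact le_antisymm (((O' i).valuation_le_one_iff _).mpr (Subring.mem_iInf.mp y.2 i)) h1
    have hy0 : (y : FL) ≠ 0 := by
      intro h
      obtain ⟨i⟩ := ‹Nonempty ι›
      have := hval i
      rw [h, map_zero] at this
      exact zero_ne_one this
    have hinv : (y : FL)⁻¹ ∈ ⨅ i, (O' i).toSubring := by
      refine Subring.mem_iInf.mpr fun i => ?_
      show (y : FL)⁻¹ ∈ O' i
      rw [← (O' i).valuation_le_one_iff, map_inv₀, hval i, inv_one]
    refine isUnit_iff_exists_inv.mpr ⟨⟨(y : FL)⁻¹, hinv⟩, ?_⟩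
    exact Subtype.ext (mul_inv_cancel₀ hy0)

variable (hconst : ∀ i (a : A), algebraMap L FL (a : L) ∈ O' i)
  (hred_const : ∀ i (a : A),
    red' i ⟨algebraMap L FL (a : L), hconst i a⟩ = algebraMap k (κ' i) (π a))
  (hker : ∀ i (y : ↥(O' i)), red' i y = 0 ↔ (y : FL) ∈ (O' i).nonunits)

theorem ofInter_red_apply (y : (RedRing.ofInter π O' red' hconst hred_const hker).R) (i : ι) :
    (RedRing.ofInter π O' red' hconst hred_const hker).red y i = red' i (incl O' i y) := rfl

theorem mem_ofInter_R (y : FL) :
    y ∈ (RedRing.ofInter π O' red' hconst hred_const hker).R ↔ ∀ i, y ∈ O' i :=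
  Subring.mem_iInf

/-- `(hx)` for the intersection: all components of `x̄` are transcendental -/
theorem ofInter_isUnit_aeval (x : (RedRing.ofInter π O' red' hconst hred_const hker).R)
    (hx : ∀ i, Transcendental k (red' i (incl O' i x))) (Q : k[X]) (hQ : Q ≠ 0) :
    IsUnit (aeval ((RedRing.ofInter π O' red' hconst hred_const hker).red x) Q) := by
  rw [Pi.isUnit_iff]
  intro i
  have h1 : aeval ((RedRing.ofInter π O' red' hconst hred_const hker).red x) Q i
      = aeval (red' i (incl O' i x)) Q := by
    have := Polynomial.aeval_algHom_apply (Pi.evalAlgHom k κ' i)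
      ((RedRing.ofInter π O' red' hconst hred_const hker).red x) Q
    have h2 : (RedRing.ofInter π O' red' hconst hred_const hker).red x i
        = red' i (incl O' i x) := rfl
    rw [← h2]
    simpa using this.symm
  rw [h1]
  exact isUnit_iff_ne_zero.mpr fun h => hQ ((transcendental_iff.mp (hx i)) Q h)

end Inter

end Fermat.Agent.S34.OrthoLattice
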