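import Mathlib
import Fermat.Agent.S34.OrthoLattice
import Fermat.Agent.S34.TwoExt

/-!
# PROJECT U (S34): orthonormal bases for the pair `(V₁, V₂)` of a `TwoExt.Setup` over a Gauss datum

* `RedRing.ofPair` : the reduction ring `R = V₁ ∩ V₂ → κ₁ × κ₂` (two-ring twin of
  `OrthoLattice.RedRing.ofInter`).
* `Pair` : the data `G : GaussDatum A π F Fk` (level `M`), `S : TwoExt.Setup G.O F'`, the two
  extensions `V₁`, `V₂` with reduction maps `ρ₁`, `ρ₂` (kernel = nonunits, `π` on constants).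
* From level-`M` orthonormal-basis data `x, e l ∈ G.O` (`x̄` transcendental, `ē l` independent over
  `k[x̄]`, `e l` spanning `F` over `L(x)`): the family `u (l, i) = e l * t ^ i`, `i < deg Φ`,
  satisfies `(hx)`, `(hi)`, `(hii)` of `OrthoLattice.finrank_le_of_basis` for the pair; hence
  `finrank_le` : for every finite-dimensional `L`-subspace `W ≤ F'` and `V ≤ κ₁ × κ₂` containing
  the reduction of `W ∩ V₁ ∩ V₂` : `finrank L W ≤ finrank k V`.
-/

set_option autoImplicit false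
set_option linter.unusedSectionVars false

noncomputable section

namespace Fermat.Agent.S34.OrthoPairTwoExt

open Polynomial IntermediateField
open Fermat.Agent.S34.OrthoLattice Fermat.Agent.S34.TwoExt
open Fermat.Agent.S37.Deuring.Core Fermat.Agent.S37.Deuring.GaussLemmas

variable {L : Type*} [Field L] {k : Type*} [Field k]
variable {A : ValuationSubring L} {π : A →+* k}
variable {F' : Type*} [Field F'] [Algebra L F']
variable {κ₁ κ₂ : Type*} [Field κ₁] [Field κ₂] [Algebra k κ₁] [Algebra k κ₂]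

/-! ### the reduction ring of a pair -/

section PairRing

variable (V₁ V₂ : ValuationSubring F') (ρ₁ : ↥V₁ →+* κ₁) (ρ₂ : ↥V₂ →+* κ₂)

/-- the inclusion `V₁ ∩ V₂ → V₁` -/
def incl₁ : ↥(V₁.toSubring ⊓ V₂.toSubring) →+* ↥V₁ where
  toFun y := ⟨y.1, (Subring.mem_inf.mp y.2).1⟩
  map_one' := rfl
  map_mul' _ _ := rfl
  map_zero' := rfl
  map_add' _ _ := rfl

/-- the inclusion `V₁ ∩ V₂ → V₂` -/
def incl₂ : ↥(V₁.toSubring ⊓ V₂.toSubring) →+* ↥V₂ where
  toFun y := ⟨y.1, (Subring.mem_inf.mp y.2).2⟩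
  map_one' := rfl
  map_mul' _ _ := rfl
  map_zero' := rfl
  map_add' _ _ := rfl

theorem isUnit_of_ne_zero_aux (V : ValuationSubring F') {κ : Type*} [Field κ] (ρ : ↥V →+* κ)
    (hker : ∀ y : ↥V, ρ y = 0 ↔ (y : F') ∈ V.nonunits) (y : ↥V) (hy : ρ y ≠ 0) :
    V.valuation (y : F') = 1 := by
  have h1 : (y : F') ∉ V.nonunits := fun h => hy ((hker y).mpr h)
  rw [V.mem_nonunits_iff, not_lt] at h1
  exact le_antisymm ((V.valuation_le_one_iff _).mpr y.2) h1

variable (π) in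
/-- **the reduction ring of the pair** `R = V₁ ∩ V₂ → κ₁ × κ₂` -/
def RedRing.ofPair
    (hconst₁ : ∀ a : A, algebraMap L F' (a : L) ∈ V₁)
    (hconst₂ : ∀ a : A, algebraMap L F' (a : L) ∈ V₂)
    (hred₁ : ∀ a : A, ρ₁ ⟨algebraMap L F' (a : L), hconst₁ a⟩ = algebraMap k κ₁ (π a))
    (hred₂ : ∀ a : A, ρ₂ ⟨algebraMap L F' (a : L), hconst₂ a⟩ = algebraMap k κ₂ (π a))
    (hker₁ : ∀ y : ↥V₁, ρ₁ y = 0 ↔ (y : F') ∈ V₁.nonunits)
    (hker₂ : ∀ y : ↥V₂, ρ₂ y = 0 ↔ (y : F') ∈ V₂.nonunits) :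
    RedRing A π F' (κ₁ × κ₂) where
  R := V₁.toSubring ⊓ V₂.toSubring
  red := (ρ₁.comp (incl₁ V₁ V₂)).prod (ρ₂.comp (incl₂ V₁ V₂))
  algebraMap_mem a := Subring.mem_inf.mpr ⟨hconst₁ a, hconst₂ a⟩
  red_algebraMap a := Prod.ext (hred₁ a) (hred₂ a)
  isUnit_of_red y hy := by
    rw [Prod.isUnit_iff] at hy
    have hv₁ : V₁.valuation (y : F') = 1 :=
      isUnit_of_ne_zero_aux V₁ ρ₁ hker₁ (incl₁ V₁ V₂ y) hy.1.ne_zero
    have hv₂ : V₂.valuation (y : F') = 1 :=
      isUnit_of_ne_zero_aux V₂ ρ₂ hker₂ (incl₂ V₁ V₂ y) hy.2.ne_zero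
    have hy0 : (y : F') ≠ 0 := by
      intro h
      rw [h, map_zero] at hv₁
      exact zero_ne_one hv₁
    have hinv : (y : F')⁻¹ ∈ V₁.toSubring ⊓ V₂.toSubring := by
      refine Subring.mem_inf.mpr ⟨?_, ?_⟩
      · show (y : F')⁻¹ ∈ V₁
        rw [← V₁.valuation_le_one_iff, map_inv₀, hv₁, inv_one]
      · show (y : F')⁻¹ ∈ V₂
        rw [← V₂.valuation_le_one_iff, map_inv₀, hv₂, inv_one]
    refine isUnit_iff_exists_inv.mpr ⟨⟨(y : F')⁻¹, hinv⟩, ?_⟩
    exact Subtype.ext (mul_inv_cancel₀ hy0)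

end PairRing

/-! ### the pair over a Gauss datum -/

variable {F : Type*} [Field F] [Algebra L F] {Fk : Type*} [Field Fk] [Algebra k Fk]
variable [Algebra F F'] [IsScalarTower L F F']

/-- the two extensions of a `TwoExt.Setup` over a Gauss datum, with their reduction maps -/
structure Pair (G : GaussDatum A π F Fk) (S : Setup G.O F') (κ₁ κ₂ : Type*) [Field κ₁] [Field κ₂]
    [Algebra k κ₁] [Algebra k κ₂] where
  V₁ : ValuationSubring F'
  V₂ : ValuationSubring F'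
  h₁ : S.IsExt S.G₁ V₁
  h₂ : S.IsExt S.G₂ V₂
  ρ₁ : ↥V₁ →+* κ₁
  ρ₂ : ↥V₂ →+* κ₂
  ker₁ : ∀ y : ↥V₁, ρ₁ y = 0 ↔ (y : F') ∈ V₁.nonunits
  ker₂ : ∀ y : ↥V₂, ρ₂ y = 0 ↔ (y : F') ∈ V₂.nonunits
  const₁ : ∀ (a : A) (y : ↥V₁), (y : F') = algebraMap L F' (a : L) → ρ₁ y = algebraMap k κ₁ (π a)
  const₂ : ∀ (a : A) (y : ↥V₂), (y : F') = algebraMap L F' (a : L) → ρ₂ y = algebraMap k κ₂ (π a)

namespace Pair

variable {G : GaussDatum A π F Fk} {S : Setup G.O F'} (D : Pair G S κ₁ κ₂)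

theorem algebraMap_mem₁ (a : A) : algebraMap L F' (a : L) ∈ D.V₁ := by
  rw [IsScalarTower.algebraMap_apply L F F']
  exact (alg_mem_iff D.h₁.comap _).mpr (G.algebraMap_mem a)

theorem algebraMap_mem₂ (a : A) : algebraMap L F' (a : L) ∈ D.V₂ := by
  rw [IsScalarTower.algebraMap_apply L F F']
  exact (alg_mem_iff D.h₂.comap _).mpr (G.algebraMap_mem a)

/-- the reduction ring `V₁ ∩ V₂ → κ₁ × κ₂` of the pair -/
def redRing : RedRing A π F' (κ₁ × κ₂) :=
  RedRing.ofPair π D.V₁ D.V₂ D.ρ₁ D.ρ₂ D.algebraMap_mem₁ D.algebraMap_mem₂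
    (fun a => D.const₁ a _ rfl) (fun a => D.const₂ a _ rfl) D.ker₁ D.ker₂

theorem mem_R_iff (y : F') : y ∈ D.redRing.R ↔ y ∈ D.V₁ ∧ y ∈ D.V₂ := Subring.mem_inf

theorem red_apply (y : D.redRing.R) :
    D.redRing.red y = (D.ρ₁ ⟨y.1, ((D.mem_R_iff _).mp y.2).1⟩, D.ρ₂ ⟨y.1, ((D.mem_R_iff _).mp y.2).2⟩) :=
  rfl

/-- `ι₁ = ρ₁ ∘ incl : G.O → κ₁` -/
def ι₁ : ↥G.O →+* κ₁ := D.ρ₁.comp (Setup.incl D.h₁.comap)

/-- `ι₂ = ρ₂ ∘ incl : G.O → κ₂` -/
def ι₂ : ↥G.O →+* κ₂ := D.ρ₂.comp (Setup.incl D.h₂.comap)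

theorem ι₁_eq_zero_iff (c : ↥G.O) : D.ι₁ c = 0 ↔ G.red c = 0 := by
  rw [ι₁, RingHom.comp_apply, D.ker₁, Setup.coe_incl, D.V₁.mem_nonunits_iff,
    val_alg_lt_one_iff D.h₁.comap, G.red_eq_zero_iff, ← G.O.mem_nonunits_iff]
  exact ValuationSubring.coe_mem_nonunits_iff

theorem ι₂_eq_zero_iff (c : ↥G.O) : D.ι₂ c = 0 ↔ G.red c = 0 := by
  rw [ι₂, RingHom.comp_apply, D.ker₂, Setup.coe_incl, D.V₂.mem_nonunits_iff,
    val_alg_lt_one_iff D.h₂.comap, G.red_eq_zero_iff, ← G.O.mem_nonunits_iff]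
  exact ValuationSubring.coe_mem_nonunits_iff

theorem ι₁_comp_constHom : D.ι₁.comp (constHom G) = (algebraMap k κ₁).comp π := by
  ext a
  rw [RingHom.comp_apply, RingHom.comp_apply, ι₁, RingHom.comp_apply]
  refine D.const₁ a _ ?_
  rw [Setup.coe_incl, coe_constHom, ← IsScalarTower.algebraMap_apply]

theorem ι₂_comp_constHom : D.ι₂.comp (constHom G) = (algebraMap k κ₂).comp π := by
  ext a
  rw [RingHom.comp_apply, RingHom.comp_apply, ι₂, RingHom.comp_apply]
  refine D.const₂ a _ ?_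
  rw [Setup.coe_incl, coe_constHom, ← IsScalarTower.algebraMap_apply]

theorem ι₁_evalO (x : ↥G.O) (P : A[X]) : D.ι₁ (evalO G x P) = aeval (D.ι₁ x) (P.map π) := by
  have h := Polynomial.hom_eval₂ P (constHom G) D.ι₁ x
  rw [ι₁_comp_constHom] at h
  rw [aeval_def, Polynomial.eval₂_map]
  exact h

theorem ι₂_evalO (x : ↥G.O) (P : A[X]) : D.ι₂ (evalO G x P) = aeval (D.ι₂ x) (P.map π) := by
  have h := Polynomial.hom_eval₂ P (constHom G) D.ι₂ x
  rw [ι₂_comp_constHom] at h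
  rw [aeval_def, Polynomial.eval₂_map]
  exact h

theorem exists_lift (G : GaussDatum A π F Fk) (Q : k[X]) : ∃ Q' : A[X], Q'.map π = Q :=
  Polynomial.map_surjective π G.pi_surjective Q

theorem transcendental_ι₁ {x : ↥G.O} (hx : Transcendental k (G.red x)) :
    Transcendental k (D.ι₁ x) := by
  rw [transcendental_iff]
  intro Q hQ
  obtain ⟨Q', rfl⟩ := exists_lift G Q
  rw [← ι₁_evalO, ι₁_eq_zero_iff, red_evalO] at hQ
  exact (transcendental_iff.mp hx) _ hQ

theorem transcendental_ι₂ {x : ↥G.O} (hx : Transcendental k (G.red x)) :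
    Transcendental k (D.ι₂ x) := by
  rw [transcendental_iff]
  intro Q hQ
  obtain ⟨Q', rfl⟩ := exists_lift G Q
  rw [← ι₂_evalO, ι₂_eq_zero_iff, red_evalO] at hQ
  exact (transcendental_iff.mp hx) _ hQ

/-- elements of `G.O` as elements of `R = V₁ ∩ V₂` -/
def ofO (c : ↥G.O) : D.redRing.R :=
  ⟨algebraMap F F' (c : F), (D.mem_R_iff _).mpr
    ⟨(alg_mem_iff D.h₁.comap _).mpr c.2, (alg_mem_iff D.h₂.comap _).mpr c.2⟩⟩

@[simp] theorem coe_ofO (c : ↥G.O) : ((D.ofO c : D.redRing.R) : F') = algebraMap F F' (c : F) := rfl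

theorem red_ofO (c : ↥G.O) : D.redRing.red (D.ofO c) = (D.ι₁ c, D.ι₂ c) := rfl

/-- the primitive element as an element of `R` -/
def tR : D.redRing.R :=
  ⟨S.t, (D.mem_R_iff _).mpr ⟨S.t_mem D.h₁.comap, S.t_mem D.h₂.comap⟩⟩

@[simp] theorem coe_tR : ((D.tR : D.redRing.R) : F') = S.t := rfl

/-- `G.O → R` as a ring homomorphism -/
def ofOHom : ↥G.O →+* D.redRing.R where
  toFun := D.ofO
  map_one' := Subtype.ext (by simp)
  map_mul' a b := Subtype.ext (by simp)
  map_zero' := Subtype.ext (by simp)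
  map_add' a b := Subtype.ext (by simp)

@[simp] theorem ofOHom_apply (c : ↥G.O) : D.ofOHom c = D.ofO c := rfl

theorem coe_eval₂_ofOHom (p : (↥G.O)[X]) :
    ((p.eval₂ D.ofOHom D.tR : D.redRing.R) : F') = S.ev p := by
  have h : D.redRing.R.subtype.comp (eval₂RingHom D.ofOHom D.tR) = S.ev := by
    refine Polynomial.ringHom_ext (fun c => ?_) ?_
    · rw [RingHom.comp_apply, coe_eval₂RingHom, eval₂_C, Setup.ev_C]
      rfl
    · rw [RingHom.comp_apply, coe_eval₂RingHom, eval₂_X, Setup.ev_X]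
      rfl
  exact congrArg (fun f => f p) h

theorem red_comp_ofOHom : D.redRing.red.comp D.ofOHom = D.ι₁.prod D.ι₂ :=
  RingHom.ext fun c => D.red_ofO c

/-- values of `S.ev p` under the reduction -/
theorem red_evR (p : (↥G.O)[X]) :
    D.redRing.red ⟨S.ev p, (D.mem_R_iff _).mpr ⟨S.ev_mem D.h₁.comap p, S.ev_mem D.h₂.comap p⟩⟩
      = p.eval₂ ((D.ι₁.prod D.ι₂ : ↥G.O →+* κ₁ × κ₂)) (D.redRing.red D.tR) := by
  have key : (⟨S.ev p, (D.mem_R_iff _).mpr
      ⟨S.ev_mem D.h₁.comap p, S.ev_mem D.h₂.comap p⟩⟩ : D.redRing.R)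
        = p.eval₂ D.ofOHom D.tR := Subtype.ext (D.coe_eval₂_ofOHom p).symm
  rw [key, Polynomial.hom_eval₂, red_comp_ofOHom]

end Pair

/-! ### the level-`M` data and the three hypotheses -/

section Main

variable {G : GaussDatum A π F Fk} {S : Setup G.O F'} (D : Pair G S κ₁ κ₂)
variable {ιM : Type*} [Fintype ιM] (x : ↥G.O) (e : ιM → ↥G.O)

/-- the family `u (l, i) = e l * t ^ i` -/
def u (p : ιM × Fin S.Φ.natDegree) : D.redRing.R := D.ofO (e p.1) * D.tR ^ (p.2 : ℕ)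

theorem coe_u (p : ιM × Fin S.Φ.natDegree) :
    ((u D e p : D.redRing.R) : F') = algebraMap F F' (e p.1 : F) * S.t ^ (p.2 : ℕ) := rfl

/-- `(hx)` -/
theorem isUnit_aeval (hx : Transcendental k (G.red x)) (Q : k[X]) (hQ : Q ≠ 0) :
    IsUnit (aeval (D.redRing.red (D.ofO x)) Q) := by
  rw [D.red_ofO, Polynomial.aeval_prod_apply, Prod.isUnit_iff]
  exact ⟨isUnit_iff_ne_zero.mpr fun h => hQ ((transcendental_iff.mp (D.transcendental_ι₁ hx)) Q h),
    isUnit_iff_ne_zero.mpr fun h => hQ ((transcendental_iff.mp (D.transcendental_ι₂ hx)) Q h)⟩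

/-- `(hi)` : independence over `k[x̄]` of the reductions of `e l * t ^ i` -/
theorem indep
    (hiM : ∀ P : ιM → k[X], ∑ l, aeval (G.red x) (P l) * G.red (e l) = 0 → ∀ l, P l = 0)
    (P : ιM × Fin S.Φ.natDegree → k[X])
    (hP : ∑ p, aeval (D.redRing.red (D.ofO x)) (P p) * D.redRing.red (u D e p) = 0) :
    ∀ p, P p = 0 := by
  classical
  -- lifts of the polynomials
  choose P' hP' using fun p => Pair.exists_lift G (P p)
  -- the coefficients
  set c : Fin S.Φ.natDegree → ↥G.O := fun i => ∑ l, evalO G x (P' (l, i)) * e l with hc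
  set C' : (↥G.O)[X] := ∑ i : Fin S.Φ.natDegree, Polynomial.C (c i) * Polynomial.X ^ (i : ℕ)
    with hC'
  have hdeg : C'.natDegree < S.Φ.natDegree ∨ S.Φ.natDegree = 0 := by
    by_cases hn : S.Φ.natDegree = 0
    · exact Or.inr hn
    · left
      refine lt_of_le_of_lt (Polynomial.natDegree_sum_le_of_forall_le _ _ (n := S.Φ.natDegree - 1)
        fun i _ => ?_) (by omega)
      refine (Polynomial.natDegree_C_mul_X_pow_le _ _).trans ?_
      have := i.2
      omega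
  rcases hdeg with hdeg | hn
  swap
  · intro p
    exact absurd (lt_of_lt_of_eq p.2.2 hn) (Nat.not_lt_zero _)
  -- the reduction of `C'(t)` vanishes
  have hred : D.redRing.red ⟨S.ev C', (D.mem_R_iff _).mpr
      ⟨S.ev_mem D.h₁.comap C', S.ev_mem D.h₂.comap C'⟩⟩ = 0 := by
    rw [D.red_evR, hC', Polynomial.eval₂_finsetSum, ← hP, Fintype.sum_prod_type_right]
    refine Finset.sum_congr rfl fun i _ => ?_
    rw [Polynomial.eval₂_mul, Polynomial.eval₂_C, Polynomial.eval₂_pow, Polynomial.eval₂_X, hc]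
    simp only
    rw [map_sum, Finset.sum_mul]
    refine Finset.sum_congr rfl fun l _ => ?_
    rw [map_mul, mul_assoc]
    have h1 : (D.ι₁.prod D.ι₂ : ↥G.O →+* κ₁ × κ₂) (evalO G x (P' (l, i)))
        = aeval (D.redRing.red (D.ofO x)) (P (l, i)) := by
      rw [D.red_ofO, Polynomial.aeval_prod_apply, RingHom.prod_apply, D.ι₁_evalO, D.ι₂_evalO,
        hP' (l, i)]
    have h2 : D.redRing.red (u D e (l, i))
        = (D.ι₁.prod D.ι₂ : ↥G.O →+* κ₁ × κ₂) (e l) * D.redRing.red D.tR ^ (i : ℕ) := by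
      rw [u, map_mul, map_pow, D.red_ofO]
      rfl
    rw [h1, h2]
  -- hence `C'(t)` lies in both maximal ideals
  have hv₁ : D.V₁.valuation (S.ev C') < 1 := by
    have h1 := congrArg Prod.fst hred
    rw [D.red_apply] at h1
    exact D.V₁.mem_nonunits_iff.mp ((D.ker₁ _).mp h1)
  have hv₂ : D.V₂.valuation (S.ev C') < 1 := by
    have h1 := congrArg Prod.snd hred
    rw [D.red_apply] at h1
    exact D.V₂.mem_nonunits_iff.mp ((D.ker₂ _).mp h1)
  have hzero := (red_eq_zero_iff G.O C').mp (S.red_eq_zero_of_lt D.h₁ D.h₂ C' hdeg hv₁ hv₂)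
  -- the coefficients of `C'` are the `c i`
  have hcoeff : ∀ i : Fin S.Φ.natDegree, C'.coeff (i : ℕ) = c i := by
    intro i
    rw [hC', Polynomial.finsetSum_coeff, Finset.sum_eq_single i]
    · rw [Polynomial.coeff_C_mul, Polynomial.coeff_X_pow, if_pos rfl, mul_one]
    · intro j _ hji
      rw [Polynomial.coeff_C_mul, Polynomial.coeff_X_pow, if_neg, mul_zero]
      exact fun h => hji (Fin.ext h.symm)
    · intro h
      exact absurd (Finset.mem_univ i) h
  intro p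
  obtain ⟨l, i⟩ := p
  have h3 : G.red (c i) = 0 := by
    rw [G.red_eq_zero_iff, ← hcoeff i]
    exact (IsLocalRing.mem_maximalIdeal _).mp (hzero _)
  have h4 : ∑ l, aeval (G.red x) (P (l, i)) * G.red (e l) = 0 := by
    rw [← h3, hc]
    simp only
    rw [map_sum]
    refine Finset.sum_congr rfl fun l _ => ?_
    rw [map_mul, red_evalO, hP' (l, i)]
  exact hiM (fun l => P (l, i)) h4 l

/-- `(hii)` : the `e l * t ^ i` span `F'` over `L(x)` -/
theorem span_top
    (hiiM : ⊤ ≤ Submodule.span L⟮(x : F)⟯ (Set.range fun l => ((e l : ↥G.O) : F))) :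
    ⊤ ≤ Submodule.span L⟮((D.ofO x : D.redRing.R) : F')⟯
      (Set.range fun p => ((u D e p : D.redRing.R) : F')) := by
  classical
  intro y _
  obtain ⟨Pp, hPdeg, rfl⟩ := S.span y
  rw [Polynomial.aeval_eq_sum_range' hPdeg]
  refine Submodule.sum_mem _ fun i hi => ?_
  have hi' : i < S.Φ.natDegree := Finset.mem_range.mp hi
  -- the coefficient in terms of the `e l`
  have ha : Pp.coeff i ∈ Submodule.span L⟮(x : F)⟯ (Set.range fun l => ((e l : ↥G.O) : F)) :=
    hiiM Submodule.mem_top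
  obtain ⟨cf, hcf⟩ := (Submodule.mem_span_range_iff_exists_fun L⟮(x : F)⟯).mp ha
  have hmap : ∀ z : L⟮(x : F)⟯, algebraMap F F' (z : F) ∈ L⟮algebraMap F F' (x : F)⟯ := by
    intro z
    have h1 : algebraMap F F' (z : F) ∈ (L⟮(x : F)⟯).map (IsScalarTower.toAlgHom L F F') :=
      ⟨z, z.2, rfl⟩
    rw [IntermediateField.adjoin_map, Set.image_singleton] at h1
    exact h1
  rw [← hcf, Algebra.smul_def, map_sum, Finset.sum_mul]
  refine Submodule.sum_mem _ fun l _ => ?_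
  have h2 : algebraMap F F' (cf l • ((e l : ↥G.O) : F)) * S.t ^ i
      = (⟨algebraMap F F' ((cf l : L⟮(x : F)⟯) : F), hmap (cf l)⟩ :
          L⟮algebraMap F F' (x : F)⟯) • ((u D e (l, ⟨i, hi'⟩) : D.redRing.R) : F') := by
    rw [IntermediateField.smul_def, smul_eq_mul, map_mul, coe_u, IntermediateField.smul_def,
      smul_eq_mul, mul_assoc]
  rw [h2]
  exact Submodule.smul_mem _ _ (Submodule.subset_span ⟨(l, ⟨i, hi'⟩), rfl⟩)

/-- **full-rank reduction for the pair**: existence form -/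
theorem exists_red_independent (hx : Transcendental k (G.red x))
    (hiM : ∀ P : ιM → k[X], ∑ l, aeval (G.red x) (P l) * G.red (e l) = 0 → ∀ l, P l = 0)
    (hiiM : ⊤ ≤ Submodule.span L⟮(x : F)⟯ (Set.range fun l => ((e l : ↥G.O) : F)))
    (W : Submodule L F') [FiniteDimensional L W] :
    ∃ g : Fin (Module.finrank L W) → D.redRing.R, (∀ j, ((g j : D.redRing.R) : F') ∈ W) ∧
      LinearIndependent k fun j => D.redRing.red (g j) :=
  exists_red_independent_of_basis D.redRing (D.ofO x) (u D e) (isUnit_aeval D x hx)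
    (indep D x e hiM) (span_top D x e hiiM) W

/-- **full-rank reduction for the pair**: dimension form -/
theorem finrank_le (hx : Transcendental k (G.red x))
    (hiM : ∀ P : ιM → k[X], ∑ l, aeval (G.red x) (P l) * G.red (e l) = 0 → ∀ l, P l = 0)
    (hiiM : ⊤ ≤ Submodule.span L⟮(x : F)⟯ (Set.range fun l => ((e l : ↥G.O) : F)))
    (W : Submodule L F') [FiniteDimensional L W] (V : Submodule k (κ₁ × κ₂))
    [FiniteDimensional k V]
    (hV : ∀ f : D.redRing.R, (f : F') ∈ W → D.redRing.red f ∈ V) :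
    Module.finrank L W ≤ Module.finrank k V :=
  finrank_le_of_basis D.redRing (D.ofO x) (u D e) (isUnit_aeval D x hx)
    (indep D x e hiM) (span_top D x e hiiM) W V hV

/-- `finrank_le` with the level-`M` independence in field form (the shape of
`S37/Gauss/OrthoBasisX0.exists_orthonormal`) -/
theorem finrank_le' (hx : Transcendental k (G.red x))
    (hi : LinearIndependent k⟮G.red x⟯ fun l => G.red (e l))
    (hiiM : ⊤ ≤ Submodule.span L⟮(x : F)⟯ (Set.range fun l => ((e l : ↥G.O) : F)))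
    (W : Submodule L F') [FiniteDimensional L W] (V : Submodule k (κ₁ × κ₂))
    [FiniteDimensional k V]
    (hV : ∀ f : D.redRing.R, (f : F') ∈ W → D.redRing.red f ∈ V) :
    Module.finrank L W ≤ Module.finrank k V :=
  finrank_le D x e hx (aeval_eq_zero_of_linearIndependent_field _ hx _ hi) hiiM W V hV

/-- `exists_red_independent` with the level-`M` independence in field form -/
theorem exists_red_independent' (hx : Transcendental k (G.red x))
    (hi : LinearIndependent k⟮G.red x⟯ fun l => G.red (e l))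
    (hiiM : ⊤ ≤ Submodule.span L⟮(x : F)⟯ (Set.range fun l => ((e l : ↥G.O) : F)))
    (W : Submodule L F') [FiniteDimensional L W] :
    ∃ g : Fin (Module.finrank L W) → D.redRing.R, (∀ j, ((g j : D.redRing.R) : F') ∈ W) ∧
      LinearIndependent k fun j => D.redRing.red (g j) :=
  exists_red_independent D x e hx (aeval_eq_zero_of_linearIndependent_field _ hx _ hi) hiiM W

end Main

end Fermat.Agent.S34.OrthoPairTwoExt
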