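import Mathlib
import Fermat.Agent.S34.OrthoPairTwoExt
import Fermat.Agent.S34.TwoGaussX0
import Fermat.Agent.S37.Gauss.OrthoBasisX0

/-!
# PROJECT U (S34): orthonormal bases for the pair `(V₁, V₂)` at `X₀(M q)`, hypothesis-free

`OrthoPairTwoExt.finrank_le'` at `G = gaussDatum M A hA hqM` (level `M`), `S = setupX0 hA hqM`,
with the level-`M` orthonormal basis of `S37/Gauss/OrthoBasisX0.exists_orthonormal`: for ANY pair
datum `D` (the two extensions `V₁`, `V₂` of the Gauss ring to `E = ℚ̄(X₀(M q))` with reduction maps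
`ρ₁`, `ρ₂` having kernel the nonunits and restricting to the residue map on constants):

* `exists_red_independent` : every finite-dimensional `ℚ̄`-subspace `W ≤ E` contains `finrank W`
  elements of `V₁ ∩ V₂` whose reductions in `κ₁ × κ₂` are `k`-linearly independent;
* `finrank_le` : `finrank ℚ̄ W ≤ finrank k V` whenever `red (W ∩ V₁ ∩ V₂) ⊆ V`.
-/

set_option autoImplicit false
set_option linter.unusedSectionVars false

noncomputable section

namespace Fermat.Agent.S34.OrthoPairX0

open ModularCurve AlgebraicCurve IsLocalRing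
open Fermat.Agent.S37.Gauss.Datum Fermat.Agent.S37.Gauss.OrthoBasisX0
open Fermat.Agent.S34.TwoGaussX0 Fermat.Agent.S34.OrthoPairTwoExt

local notation "Kb" => AlgebraicClosure ℚ

variable {q : ℕ} [hq : Fact q.Prime] {M : ℕ} [NeZero M] {A : ValuationSubring Kb}
variable (hA : A.LiesOverPrime q) (hqM : ¬ q ∣ M) [NeZero q]

attribute [local instance] algFE

/-- the scalar tower `ℚ̄ → ℚ̄(X₀(M)) → ℚ̄(X₀(M q))` along `α` -/
theorem isScalarTowerFE (M q : ℕ) [NeZero M] [NeZero q] :
    IsScalarTower Kb ↥(modularFunctionFieldBar M) ↥(modularFunctionFieldBar (M * q)) :=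
  isScalarTower_along (heckeAlphaBar Kb M q)

attribute [local instance] isScalarTowerFE

set_option synthInstance.maxHeartbeats 400000
set_option maxHeartbeats 1600000

variable {κ₁ κ₂ : Type*} [Field κ₁] [Field κ₂] [Algebra (ResidueField ↥A) κ₁]
  [Algebra (ResidueField ↥A) κ₂]

/-- **full-rank reduction for the pair at `X₀(M q)`**, existence form -/
theorem exists_red_independent (D : Pair (gaussDatum M A hA hqM) (setupX0 hA hqM) κ₁ κ₂)
    (W : Submodule Kb ↥(modularFunctionFieldBar (M * q))) [FiniteDimensional Kb W] :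
    ∃ g : Fin (Module.finrank Kb W) → D.redRing.R,
      (∀ j, ((g j : D.redRing.R) : ↥(modularFunctionFieldBar (M * q))) ∈ W) ∧
      LinearIndependent (ResidueField ↥A) fun j => D.redRing.red (g j) := by
  obtain ⟨n, u, hi, hii⟩ := exists_orthonormal hA hqM
  exact exists_red_independent' D (xO hA hqM) u (transcendental_red_xO hA hqM) hi hii W

/-- **full-rank reduction for the pair at `X₀(M q)`**, dimension form -/
theorem finrank_le (D : Pair (gaussDatum M A hA hqM) (setupX0 hA hqM) κ₁ κ₂)
    (W : Submodule Kb ↥(modularFunctionFieldBar (M * q))) [FiniteDimensional Kb W]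
    (V : Submodule (ResidueField ↥A) (κ₁ × κ₂)) [FiniteDimensional (ResidueField ↥A) V]
    (hV : ∀ f : D.redRing.R, (f : ↥(modularFunctionFieldBar (M * q))) ∈ W →
      D.redRing.red f ∈ V) :
    Module.finrank Kb W ≤ Module.finrank (ResidueField ↥A) V := by
  obtain ⟨n, u, hi, hii⟩ := exists_orthonormal hA hqM
  exact finrank_le' D (xO hA hqM) u (transcendental_red_xO hA hqM) hi hii W V hV

end Fermat.Agent.S34.OrthoPairX0
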