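import Fermat.Prelude.Def_CuspForm_HeckeGaloisRepDatum
import Fermat.Prelude.Def_GaloisRep_LocalConditions
import Fermat.Agent.S30
import Fermat.Agent.S31.Assembly
import Fermat.Agent.S31.HeckeModuleFinal
import Fermat.Agent.S34.UHyp
import Fermat.Agent.S34.UnipCore

/-!
# PROJECT U (S34), the top: the frozen S34 statement from `(U)`

`s34_of_uHyp` : the conclusion `H.ρ.IsUnipotentOnInertiaAt q` of the frozen statement S34 (with all
its binders) from the single hypothesis `hU : UHyp N p q`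
(`Fermat/Agent/S34/UHyp.lean`: `(s - 1)² = 0` on `J₀(N)[p^∞]` for `s` in an inertia group at `q`).

The Hecke-Galois module is `Λ := T_p J₀(N)` with `r := Tp.galoisHom G_ℚ` and
`θ := S31.HeckeAction.theta`, exactly as in `S31/HeckeModuleFinal.lean`; the abstract core is
`S34/UnipCore.lean` (`tr ρ(s) = 2` by the Hecke-valued trace carried by `Λ`, `det ρ` = cyclotomic
character).
-/

set_option autoImplicit false
set_option linter.unusedSectionVars false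
set_option linter.style.haveILetI false

noncomputable section

namespace Fermat.Agent.S34.Top

open scoped TensorProduct
open Polynomial IsLocalRing CuspForm
open CongruenceSubgroup ModularCurve
open Fermat.Agent.S31.Core Fermat.Agent.S31.LiftAlg Fermat.Agent.S31.HeckeAction
open Fermat.Agent.S30.Eigen.MultOne
open Fermat.Agent.S30.Padic.TateModule Fermat.Agent.S30.Arith Fermat.Agent.S30.Arith.TateInputs
open Fermat.Agent.S34.UHyp

/-- **(U) on the Tate module.** -/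
theorem galoisHom_sub_one_sq {N p q : ℕ} [Fact p.Prime] (hU : UHyp N p q)
    (P : ValuationSubring Qbar) (hP : P.LiesOverPrime q) (σ : GQ)
    (hσ : σ ∈ P.inertiaSubgroupIn ℚ) :
    (Tp.galoisHom (p := p) (J := JZero N) GQ σ - 1) *
      (Tp.galoisHom (p := p) (J := JZero N) GQ σ - 1) = 0 := by
  have key : ∀ x : Tp p (JZero N),
      Tp.galoisHom (p := p) (J := JZero N) GQ σ (Tp.galoisHom (p := p) (J := JZero N) GQ σ x) + x =
        Tp.galoisHom (p := p) (J := JZero N) GQ σ x +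
          Tp.galoisHom (p := p) (J := JZero N) GQ σ x := by
    intro x
    apply Tp.ext
    intro k
    rw [Tp.coe_add_apply, Tp.coe_add_apply, Tp.coe_galoisHom_apply, Tp.coe_galoisHom_apply,
      ← two_nsmul]
    exact hU P hP σ hσ _ (Tp.isTorsion_apply x k)
  apply LinearMap.ext
  intro x
  rw [Module.End.mul_apply, LinearMap.sub_apply, LinearMap.sub_apply, Module.End.one_apply,
    Module.End.one_apply, map_sub, LinearMap.zero_apply, eq_sub_of_add_eq (key x)]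
  abel

section

variable {p : ℕ} [Fact p.Prime] {N : ℕ} [NeZero N] {S : Finset ℕ}
  {𝒪 : Type} [CommRing 𝒪] [IsDomain 𝒪] [IsDiscreteValuationRing 𝒪]
  [IsAdicComplete (IsLocalRing.maximalIdeal 𝒪) 𝒪]
  {θ : CuspForm.heckeAlgebra N 2 (↑S : Set ℕ) →+* IsLocalRing.ResidueField 𝒪}
  {T : Type} [CommRing T] [IsLocalRing T] [IsNoetherianRing T]
  [IsAdicComplete (IsLocalRing.maximalIdeal T) T] [Algebra 𝒪 T] [IsLocalHom (algebraMap 𝒪 T)]
  [Module.Finite 𝒪 T] [Module.Free 𝒪 T]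

/-- **S34 from (U) and the inputs of the S30 chain.** -/
theorem isUnipotentOnInertiaAt_of_inputs (hpS : p ∈ S)
    (hred : Torsion.HasReductionAll N p) (hfin : {y : JZero N | p • y = 0}.Finite)
    {M : Type*} [AddCommGroup M] [Module.Free ℤ M] [Module.Finite ℤ M]
    {τ : Nat.Primes → Module.End ℤ M}
    {eC : ℂ ⊗[ℤ] M ≃ₗ[ℂ] CuspForm (Gamma0 N) 2 × CuspForm (Gamma0 N) 2}
    (he : ∀ r x, eC ((τ r).baseChange ℂ x) = Prod.map (Tr N 2 r) (Tr N 2 r) (eC x))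
    (ep : Tp p (JZero N) ≃ₗ[ℤ_[p]] ℤ_[p] ⊗[ℤ] M)
    (H3 : ∀ (r : Nat.Primes) (x : Tp p (JZero N)),
      ep (Tp.mapEnd (heckeEnd N r) x) = (τ r).baseChange ℤ_[p] (ep x))
    (hp𝒪 : (p : 𝒪) ∈ IsLocalRing.maximalIdeal 𝒪)
    (hNS : ∀ q : ℕ, q.Prime → q ∣ N → q ∈ S)
    (H : CuspForm.HeckeGaloisRepDatum N (↑S : Set ℕ) 𝒪 θ T)
    (q : ℕ) (hq : q.Prime) (hqp : q ≠ p) (hU : UHyp N p q) :
    H.ρ.IsUnipotentOnInertiaAt q := by
  have he' : ∀ r, IsLift eC (Tr N 2 r) (τ r) := fun r => he r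
  have hnotdvd : ∀ ℓ : ℕ, ℓ.Prime → ℓ ∉ S → ¬ ℓ ∣ N := fun ℓ hℓ hℓS h => hℓS (hNS ℓ hℓ h)
  have hcoe : ∀ ℓ : ℕ, ℓ ∉ S → ℓ ∉ (↑S : Set ℕ) := fun ℓ h => by rwa [Finset.mem_coe]
  have hsep : ∀ x : T, (∀ n, x ∈ maximalIdeal T ^ n) → x = 0 := by
    intro x hx
    have hH : IsHausdorff (maximalIdeal T) T := inferInstance
    apply hH.haus'
    intro n
    rw [SModEq.zero, smul_eq_mul, Ideal.mul_top]
    exact hx n
  have hpT : (p : T) ∈ maximalIdeal T := by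
    rw [mem_maximalIdeal, mem_nonunits_iff]
    intro hu
    have h1 : IsUnit (algebraMap 𝒪 T (p : 𝒪)) := by rwa [map_natCast]
    have h2 : IsUnit (p : 𝒪) := (isUnit_map_iff (algebraMap 𝒪 T) _).1 h1
    exact (mem_nonunits_iff.1 ((mem_maximalIdeal _).1 hp𝒪)) h2
  obtain ⟨ι⟩ := Fermat.Agent.S30.Algebra.Cyclotomic.exists_ringHom p (maximalIdeal T) hpT
  refine Fermat.Agent.S34.UnipCore.charpoly_eq_of_heckeModule p (Sg := S) hpS
    (Fermat.Agent.S31.Assembly.Tl N S) (Tp.galoisHom (p := p) (J := JZero N) GQ)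
    (theta (↑S : Set ℕ) p he' ep) (Fermat.Agent.S31.TateArith.cont N p hfin) ?_ ?_ H.ρ
    H.residual_absIrr H.π ?_
    (fun L _ s => Fermat.Agent.S30.Density.Bridge.frobenius_density_final L s S)
    hsep hpT ι (hinj (↑S : Set ℕ) p he' ep) q hq hqp
    (fun P hP σ hσ => galoisHom_sub_one_sq hU P hP σ hσ)
  · intro ℓ g
    exact (commute_galoisHom_theta (↑S : Set ℕ) p he' ep H3 g _).symm
  · intro ℓ hℓ hℓS A hA t ht
    rw [Fermat.Agent.S31.Assembly.Tl_eq hℓ (hnotdvd ℓ hℓ hℓS) (hcoe ℓ hℓS),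
      theta_T (↑S : Set ℕ) p he' ep H3 hℓ (hnotdvd ℓ hℓ hℓS) (hcoe ℓ hℓS)]
    refine Fermat.Agent.S31.TateArith.eichlerShimura N p hred ℓ hℓ (hnotdvd ℓ hℓ hℓS) ?_ A hA t ht
    rintro rfl
    exact hℓS hpS
  · intro ℓ hℓ hℓS A hA t ht
    rw [Fermat.Agent.S31.Assembly.Tl_eq hℓ (hnotdvd ℓ hℓ hℓS) (hcoe ℓ hℓS)]
    exact H.charpoly_frob ℓ hℓ (hnotdvd ℓ hℓ hℓS) (hcoe ℓ hℓS) A hA t ht

end

/-- **The conclusion of the frozen statement S34 from `(U)`.**  The binders are those of the frozen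
statement; `hU` is the deliverable of PROJECT U. -/
theorem s34_of_uHyp
    {𝒪 : Type} [CommRing 𝒪] [IsDomain 𝒪] [IsDiscreteValuationRing 𝒪]
    [IsAdicComplete (maximalIdeal 𝒪) 𝒪]
    {p : ℕ} (hp : p.Prime) (hp𝒪 : (p : 𝒪) ∈ maximalIdeal 𝒪)
    {N : ℕ} [NeZero N] {S : Finset ℕ} (hpS : p ∈ S) (hNS : ∀ q : ℕ, q.Prime → q ∣ N → q ∈ S)
    {θ : CuspForm.heckeAlgebra N 2 (↑S : Set ℕ) →+* ResidueField 𝒪}
    {T : Type} [CommRing T] [IsLocalRing T] [IsNoetherianRing T]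
    [IsAdicComplete (maximalIdeal T) T] [Algebra 𝒪 T] [IsLocalHom (algebraMap 𝒪 T)]
    [Module.Finite 𝒪 T] [Module.Free 𝒪 T]
    (H : CuspForm.HeckeGaloisRepDatum N (↑S : Set ℕ) 𝒪 θ T)
    (q : ℕ) (hq : q.Prime) (hqp : q ≠ p) (hU : UHyp N p q) :
    H.ρ.IsUnipotentOnInertiaAt q := by
  haveI : Fact p.Prime := ⟨hp⟩
  obtain ⟨ι⟩ := Fermat.Agent.S30.Descent.PhiDictThm.nonempty_ringHom
  have h : Fermat.Agent.S30.Spec.PhiDict N ι := Fermat.Agent.S30.Descent.PhiDictThm.phiDict N ι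
  obtain ⟨ep, H3⟩ := Fermat.Agent.S30.Final.TateCompare.h3_of_phiDict (h := h) p
    (Fermat.Agent.S30.frickeChar N)
    (fun r => Fermat.Agent.S30.Padic.TateChar.tauChar N r r.2)
    (Fermat.Agent.S30.frickeChar_hecke N h)
    (fun r => Fermat.Agent.S30.Hecke.Parabolic.tauPar ℤ ℤ N r r.2)
    (Fermat.Agent.S30.Padic.TateChar.tateLattice N p)
    (fun r x => Fermat.Agent.S30.Padic.TateChar.tateLattice_tauChar p N r r.2 x)
  exact isUnipotentOnInertiaAt_of_inputs hpS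
    (Fermat.Agent.S30.Final.H1.hasReductionAll N p)
    (Fermat.Agent.S30.Descent.PhiDictThm.finite_torsion N hp.ne_zero)
    (Fermat.Agent.S30.Eigen.H4Final.latticeEquiv_tauPar N) ep H3 hp𝒪 hNS H q hq hqp hU

end Fermat.Agent.S34.Top
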