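import Mathlib

/-!
# PROJECT U (S34), (Z4): coordinates at a node, `ξ η = c`

Mathlib-only commutative algebra.

`W → R` a ring homomorphism, `π ∈ W`, `ϖ` its image; `W` is `π`-adically complete and `R` is
`ϖ`-adically complete.  Let `ξ₀, η₀ ∈ R` with `R = W + (ξ₀, η₀, ϖ)` (i.e. `(ξ₀, η₀, ϖ)` is the
maximal ideal and the residue field is that of `W`) and `ξ₀ η₀ ∈ ϖ R` (`R / ϖ` has the node
`x y = 0`).

* `exists_limit` : limits of sequences with `f (n+1) - f n ∈ I ^ n` in an `I`-adically complete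
  ring;
* `step` : the Newton-type step `ξ' = ξ - ϖ^n b`, `η' = η - ϖ^n a`;
* **`exists_node_coordinates`** (Z4a) : there are `ξ ≡ ξ₀`, `η ≡ η₀ mod ϖ` and `c ∈ π W` with
  `ξ η = c`.
-/

set_option autoImplicit false

namespace Fermat.Agent.S34.NodeNormalForm

/-! ### limits in adically complete rings -/

section Limit

variable {R : Type*} [CommRing R] (I : Ideal R)

theorem smodEq_iff_sub_mem_pow (n : ℕ) (x y : R) :
    x ≡ y [SMOD (I ^ n • ⊤ : Submodule R R)] ↔ x - y ∈ I ^ n := by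
  rw [SModEq.sub_mem, smul_eq_mul, Ideal.mul_top]

/-- a sequence with `f (n + 1) - f n ∈ I ^ n` is Cauchy -/
theorem sub_mem_pow_of_le {f : ℕ → R} (hf : ∀ n, f (n + 1) - f n ∈ I ^ n) {m n : ℕ}
    (hmn : m ≤ n) : f n - f m ∈ I ^ m := by
  induction n, hmn using Nat.le_induction with
  | base => rw [sub_self]; exact Ideal.zero_mem _
  | succ n hmn ih =>
    have h1 : f (n + 1) - f m = (f (n + 1) - f n) + (f n - f m) := by ring
    rw [h1]
    exact Ideal.add_mem _ (Ideal.pow_le_pow_right hmn (hf n)) ih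

/-- **limits**: a sequence with `f (n + 1) - f n ∈ I ^ n` converges -/
theorem exists_limit [IsPrecomplete I R] {f : ℕ → R} (hf : ∀ n, f (n + 1) - f n ∈ I ^ n) :
    ∃ L : R, ∀ n, L - f n ∈ I ^ n := by
  obtain ⟨L, hL⟩ := IsPrecomplete.prec' (I := I) f (fun {m n} hmn => by
    rw [smodEq_iff_sub_mem_pow]
    have := sub_mem_pow_of_le I hf hmn
    rw [← neg_sub]
    exact Ideal.neg_mem_iff _ |>.mpr this)
  refine ⟨L, fun n => ?_⟩
  have h := hL n
  rw [smodEq_iff_sub_mem_pow] at h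
  rw [← neg_sub]
  exact (Ideal.neg_mem_iff _).mpr h

theorem eq_zero_of_forall_mem_pow [IsHausdorff I R] {x : R} (hx : ∀ n, x ∈ I ^ n) : x = 0 := by
  apply IsHausdorff.haus' (I := I) x
  intro n
  rw [smodEq_iff_sub_mem_pow, sub_zero]
  exact hx n

end Limit

/-! ### the Newton step -/

variable {W R : Type*} [CommRing W] [CommRing R] [Algebra W R] (π : W) (ξ₀ η₀ : R)

/-- an approximate solution of `ξ η = c` to the order `n` -/
structure Approx (n : ℕ) (s : R × R × W) : Prop where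
  hξ : s.1 - ξ₀ ∈ Ideal.span {algebraMap W R π}
  hη : s.2.1 - η₀ ∈ Ideal.span {algebraMap W R π}
  hc : s.2.2 ∈ Ideal.span {π}
  herr : s.1 * s.2.1 - algebraMap W R s.2.2 ∈ Ideal.span {algebraMap W R π} ^ n

variable {π ξ₀ η₀}

/-- **the Newton step** -/
theorem step
    (hgen : ∀ r : R, ∃ w : W, r - algebraMap W R w ∈ Ideal.span {ξ₀, η₀, algebraMap W R π})
    {n : ℕ} (hn : 1 ≤ n) {s : R × R × W} (h : Approx π ξ₀ η₀ n s) :
    ∃ s' : R × R × W, Approx π ξ₀ η₀ (n + 1) s' ∧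
      s'.1 - s.1 ∈ Ideal.span {algebraMap W R π} ^ n ∧
      s'.2.1 - s.2.1 ∈ Ideal.span {algebraMap W R π} ^ n ∧
      s'.2.2 - s.2.2 ∈ Ideal.span {π} ^ n := by
  obtain ⟨ξ, η, c⟩ := s
  obtain ⟨hξ, hη, hc, herr⟩ := h
  simp only at hξ hη hc herr
  obtain ⟨m, rfl⟩ : ∃ m, n = m + 1 := ⟨n - 1, by omega⟩
  set ϖ := algebraMap W R π with hϖ
  rw [Ideal.span_singleton_pow, Ideal.mem_span_singleton'] at herr
  obtain ⟨r, hr⟩ := herr
  obtain ⟨x, hx⟩ := Ideal.mem_span_singleton'.mp hξ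
  obtain ⟨y, hy⟩ := Ideal.mem_span_singleton'.mp hη
  obtain ⟨w, hw⟩ := hgen r
  rw [Ideal.mem_span_insert] at hw
  obtain ⟨a, z, hz, hw⟩ := hw
  rw [Ideal.mem_span_insert] at hz
  obtain ⟨b, z', hz', hz⟩ := hz
  obtain ⟨r', hr'⟩ := Ideal.mem_span_singleton'.mp hz'
  -- `r = w + a ξ₀ + b η₀ + r' ϖ`
  have hr2 : r = algebraMap W R w + a * ξ₀ + b * η₀ + r' * ϖ := by
    rw [hr']
    have h1 : r = algebraMap W R w + (r - algebraMap W R w) := by ring
    rw [h1, hw, hz]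
    ring
  refine ⟨(ξ - ϖ ^ (m + 1) * b, η - ϖ ^ (m + 1) * a, c + π ^ (m + 1) * w), ⟨?_, ?_, ?_, ?_⟩,
    ?_, ?_, ?_⟩
  · show ξ - ϖ ^ (m + 1) * b - ξ₀ ∈ _
    have : ξ - ϖ ^ (m + 1) * b - ξ₀ = (ξ - ξ₀) - ϖ * (ϖ ^ m * b) := by ring
    rw [this]
    exact Ideal.sub_mem _ hξ (Ideal.mul_mem_right _ _ (Ideal.subset_span rfl))
  · show η - ϖ ^ (m + 1) * a - η₀ ∈ _
    have : η - ϖ ^ (m + 1) * a - η₀ = (η - η₀) - ϖ * (ϖ ^ m * a) := by ring
    rw [this]
    exact Ideal.sub_mem _ hη (Ideal.mul_mem_right _ _ (Ideal.subset_span rfl))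
  · show c + π ^ (m + 1) * w ∈ _
    have : c + π ^ (m + 1) * w = c + π * (π ^ m * w) := by ring
    rw [this]
    exact Ideal.add_mem _ hc (Ideal.mul_mem_right _ _ (Ideal.subset_span rfl))
  · show (ξ - ϖ ^ (m + 1) * b) * (η - ϖ ^ (m + 1) * a) - algebraMap W R (c + π ^ (m + 1) * w) ∈ _
    rw [Ideal.span_singleton_pow, Ideal.mem_span_singleton']
    refine ⟨r' - a * x - b * y + ϖ ^ m * a * b, ?_⟩
    have hξ₀ : ξ₀ = ξ - x * ϖ := by rw [hx]; ring
    have hη₀ : η₀ = η - y * ϖ := by rw [hy]; ring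
    have hr3 : ξ * η = algebraMap W R c + r * ϖ ^ (m + 1) := by rw [hr]; ring
    rw [map_add, map_mul, map_pow, ← hϖ]
    have key : (ξ - ϖ ^ (m + 1) * b) * (η - ϖ ^ (m + 1) * a) =
        ξ * η - ϖ ^ (m + 1) * (a * ξ + b * η) + ϖ ^ (m + 1) * ϖ ^ (m + 1) * a * b := by ring
    rw [key, hr3, hr2, hξ₀, hη₀]
    ring
  · show ξ - ϖ ^ (m + 1) * b - ξ ∈ _
    rw [Ideal.span_singleton_pow, Ideal.mem_span_singleton']
    exact ⟨-b, by ring⟩
  · show η - ϖ ^ (m + 1) * a - η ∈ _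
    rw [Ideal.span_singleton_pow, Ideal.mem_span_singleton']
    exact ⟨-a, by ring⟩
  · show c + π ^ (m + 1) * w - c ∈ _
    rw [Ideal.span_singleton_pow, Ideal.mem_span_singleton']
    exact ⟨w, by ring⟩

/-! ### the sequence of approximations and its limit -/

section Sequence

variable (hgen : ∀ r : R, ∃ w : W, r - algebraMap W R w ∈ Ideal.span {ξ₀, η₀, algebraMap W R π})

/-- the sequence of approximations: `seq n` is an approximation of order `n + 1` -/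
noncomputable def seq (s₁ : R × R × W) : ℕ → R × R × W
  | 0 => s₁
  | n + 1 =>
    open Classical in
    if h : Approx π ξ₀ η₀ (n + 1) (seq s₁ n) then
      Classical.choose (step hgen (Nat.succ_le_succ (Nat.zero_le n)) h)
    else seq s₁ n

theorem approx_seq {s₁ : R × R × W} (h₁ : Approx π ξ₀ η₀ 1 s₁) (n : ℕ) :
    Approx π ξ₀ η₀ (n + 1) (seq hgen s₁ n) := by
  induction n with
  | zero => exact h₁
  | succ n ih =>
    rw [seq, dif_pos ih]
    exact (Classical.choose_spec (step hgen (Nat.succ_le_succ (Nat.zero_le n)) ih)).1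

theorem seq_succ_sub {s₁ : R × R × W} (h₁ : Approx π ξ₀ η₀ 1 s₁) (n : ℕ) :
    (seq hgen s₁ (n + 1)).1 - (seq hgen s₁ n).1 ∈ Ideal.span {algebraMap W R π} ^ (n + 1) ∧
    (seq hgen s₁ (n + 1)).2.1 - (seq hgen s₁ n).2.1 ∈ Ideal.span {algebraMap W R π} ^ (n + 1) ∧
    (seq hgen s₁ (n + 1)).2.2 - (seq hgen s₁ n).2.2 ∈ Ideal.span {π} ^ (n + 1) := by
  have ih := approx_seq hgen h₁ n
  rw [seq, dif_pos ih]
  exact (Classical.choose_spec (step hgen (Nat.succ_le_succ (Nat.zero_le n)) ih)).2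

end Sequence

/-- **(Z4a) coordinates at a node**: `ξ₀ η₀ ≡ 0 mod ϖ` can be corrected to `ξ η = c ∈ π W`. -/
theorem exists_node_coordinates [IsAdicComplete (Ideal.span {π}) W]
    [IsAdicComplete (Ideal.span {algebraMap W R π}) R]
    (hgen : ∀ r : R, ∃ w : W, r - algebraMap W R w ∈ Ideal.span {ξ₀, η₀, algebraMap W R π})
    (hnode : ξ₀ * η₀ ∈ Ideal.span {algebraMap W R π}) :
    ∃ (ξ η : R) (c : W), ξ - ξ₀ ∈ Ideal.span {algebraMap W R π} ∧
      η - η₀ ∈ Ideal.span {algebraMap W R π} ∧ c ∈ Ideal.span {π} ∧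
      ξ * η = algebraMap W R c := by
  set I : Ideal R := Ideal.span {algebraMap W R π} with hI
  set J : Ideal W := Ideal.span {π} with hJ
  have h₁ : Approx π ξ₀ η₀ 1 (ξ₀, η₀, (0 : W)) := by
    refine ⟨?_, ?_, Ideal.zero_mem _, ?_⟩
    · show ξ₀ - ξ₀ ∈ _
      rw [sub_self]; exact Ideal.zero_mem _
    · show η₀ - η₀ ∈ _
      rw [sub_self]; exact Ideal.zero_mem _
    · show ξ₀ * η₀ - algebraMap W R 0 ∈ _
      rw [map_zero, sub_zero, pow_one]
      exact hnode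
  set sq := seq hgen (ξ₀, η₀, (0 : W)) with hsq
  have happ := approx_seq hgen h₁
  have hsucc := seq_succ_sub hgen h₁
  obtain ⟨ξ, hξ⟩ := exists_limit I (f := fun n => (sq n).1)
    (fun n => Ideal.pow_le_pow_right (Nat.le_succ n) (hsucc n).1)
  obtain ⟨η, hη⟩ := exists_limit I (f := fun n => (sq n).2.1)
    (fun n => Ideal.pow_le_pow_right (Nat.le_succ n) (hsucc n).2.1)
  obtain ⟨c, hc⟩ := exists_limit J (f := fun n => (sq n).2.2)
    (fun n => Ideal.pow_le_pow_right (Nat.le_succ n) (hsucc n).2.2)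
  refine ⟨ξ, η, c, ?_, ?_, ?_, ?_⟩
  · have h1 : ξ - ξ₀ = (ξ - (sq 1).1) + ((sq 1).1 - ξ₀) := by ring
    rw [h1]
    refine Ideal.add_mem _ ?_ (happ 1).hξ
    have := hξ 1
    rwa [pow_one] at this
  · have h1 : η - η₀ = (η - (sq 1).2.1) + ((sq 1).2.1 - η₀) := by ring
    rw [h1]
    refine Ideal.add_mem _ ?_ (happ 1).hη
    have := hη 1
    rwa [pow_one] at this
  · have h1 : c = (c - (sq 1).2.2) + (sq 1).2.2 := by ring
    rw [h1]
    refine Ideal.add_mem _ ?_ (happ 1).hc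
    have := hc 1
    rwa [pow_one] at this
  · rw [← sub_eq_zero]
    apply eq_zero_of_forall_mem_pow I
    intro n
    have h1 : ξ * η - algebraMap W R c =
        (ξ - (sq n).1) * η + (sq n).1 * (η - (sq n).2.1) +
          ((sq n).1 * (sq n).2.1 - algebraMap W R (sq n).2.2) -
          algebraMap W R (c - (sq n).2.2) := by
      rw [map_sub]; ring
    rw [h1]
    refine Ideal.sub_mem _ (Ideal.add_mem _ (Ideal.add_mem _ ?_ ?_) ?_) ?_
    · exact Ideal.mul_mem_right _ _ (hξ n)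
    · exact Ideal.mul_mem_left _ _ (hη n)
    · exact Ideal.pow_le_pow_right (Nat.le_succ n) (happ n).herr
    · have h2 := hc n
      rw [hJ, Ideal.span_singleton_pow, Ideal.mem_span_singleton'] at h2
      obtain ⟨a, ha⟩ := h2
      rw [← ha, map_mul, map_pow, hI, Ideal.span_singleton_pow]
      exact Ideal.mul_mem_left _ _ (Ideal.subset_span rfl)

end Fermat.Agent.S34.NodeNormalForm
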