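import Mathlib
import Fermat.Agent.S34.NodeNormalForm

/-!
# PROJECT U (S34), (Z4b): the node ring `W[[X, Y]] / (X Y - c)` and its coefficient normal form

Mathlib-only commutative algebra.  `W` is a commutative ring, `I` an ideal of `W`, `c ∈ I` and
`W` is `I`-adically complete (in the application `W` is a complete discrete valuation ring with
uniformiser `π`, `I = (π)` and `c = π ^ e u`).

* `NodeRing W c = MvPowerSeries (Fin 2) W ⧸ (X 0 * X 1 - C c)`, with `xi c`, `eta c` the classes of
  the two variables, `xi c * eta c = c`;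
* `ofCoeffs c a b` = the class of `∑ a i X ^ i + ∑ b j Y ^ (j + 1)`;
* **`ofCoeffs_surjective`**, **`ofCoeffs_injective`**: every element of the node ring is
  `ofCoeffs c a b` for unique sequences `a b : ℕ → W`  (`α_d = ∑_t f_(d + t, t) c ^ t` etc.);
* the multiplication rules `xi_mul_ofCoeffs`, `eta_mul_ofCoeffs`, `algebraMap_mul_ofCoeffs`.
-/

set_option autoImplicit false

namespace Fermat.Agent.S34.NodeRing

open MvPowerSeries Fermat.Agent.S34.NodeNormalForm

/-! ### adic sums `∑ u t * c ^ t` -/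

section CSum

variable {W : Type*} [CommRing W] (I : Ideal W) (c : W)

/-- the partial sums of `∑ u t * c ^ t` -/
def cPartial (u : ℕ → W) (N : ℕ) : W := ∑ t ∈ Finset.range N, u t * c ^ t

/-- `s = ∑ u t * c ^ t` in the `I`-adic sense -/
def IsCSum (u : ℕ → W) (s : W) : Prop := ∀ N, s - cPartial c u N ∈ I ^ N

variable {I c}

theorem exists_isCSum [IsPrecomplete I W] (hc : c ∈ I) (u : ℕ → W) : ∃ s, IsCSum I c u s := by
  apply exists_limit I
  intro n
  unfold cPartial
  rw [Finset.sum_range_succ, add_sub_cancel_left]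
  exact Ideal.mul_mem_left _ _ (Ideal.pow_mem_pow hc n)

theorem IsCSum.unique [IsHausdorff I W] {u : ℕ → W} {s s' : W} (h : IsCSum I c u s)
    (h' : IsCSum I c u s') : s = s' := by
  rw [← sub_eq_zero]
  apply eq_zero_of_forall_mem_pow I
  intro N
  have h1 : s - s' = (s - cPartial c u N) - (s' - cPartial c u N) := by ring
  rw [h1]
  exact Ideal.sub_mem _ (h N) (h' N)

theorem IsCSum.shift (hc : c ∈ I) {u : ℕ → W} {s : W}
    (h : IsCSum I c (fun t => u (t + 1)) s) : IsCSum I c u (u 0 + c * s) := by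
  intro N
  cases N with
  | zero => rw [pow_zero, Ideal.one_eq_top]; exact Submodule.mem_top
  | succ N =>
    have h1 : cPartial c u (N + 1) = u 0 + c * cPartial c (fun t => u (t + 1)) N := by
      unfold cPartial
      rw [Finset.sum_range_succ', Finset.mul_sum, pow_zero, mul_one, add_comm]
      congr 1
      apply Finset.sum_congr rfl
      intro t _
      ring
    have h2 : u 0 + c * s - cPartial c u (N + 1) =
        c * (s - cPartial c (fun t => u (t + 1)) N) := by
      rw [h1]; ring
    rw [h2, pow_succ']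
    exact Ideal.mul_mem_mul hc (h N)

variable (I c)

/-- the `I`-adic sum `∑ u t * c ^ t` -/
noncomputable def cSum (u : ℕ → W) : W := Classical.epsilon (IsCSum I c u)

variable {I c}

theorem isCSum_cSum [IsPrecomplete I W] (hc : c ∈ I) (u : ℕ → W) :
    IsCSum I c u (cSum I c u) :=
  Classical.epsilon_spec (exists_isCSum hc u)

theorem cSum_shift [IsAdicComplete I W] (hc : c ∈ I) (u : ℕ → W) :
    cSum I c u = u 0 + c * cSum I c (fun t => u (t + 1)) :=
  (isCSum_cSum hc u).unique ((isCSum_cSum hc _).shift hc)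

end CSum

/-! ### indices and coefficients in two variables -/

section Coeff

variable {W : Type*} [CommRing W]

/-- the exponent `(i, j)` -/
noncomputable def ij (i j : ℕ) : Fin 2 →₀ ℕ := Finsupp.single 0 i + Finsupp.single 1 j

@[simp] theorem ij_zero (i j : ℕ) : ij i j 0 = i := by simp [ij]

@[simp] theorem ij_one (i j : ℕ) : ij i j 1 = j := by simp [ij]

theorem eq_ij (d : Fin 2 →₀ ℕ) : d = ij (d 0) (d 1) := by
  ext k
  fin_cases k
  · simp
  · simp

theorem ij_add (i j i' j' : ℕ) : ij i j + ij i' j' = ij (i + i') (j + j') := by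
  ext k
  fin_cases k
  · simp
  · simp

theorem single_zero_eq_ij (n : ℕ) : (Finsupp.single 0 n : Fin 2 →₀ ℕ) = ij n 0 := by
  simp [ij]

theorem single_one_eq_ij (n : ℕ) : (Finsupp.single 1 n : Fin 2 →₀ ℕ) = ij 0 n := by
  simp [ij]

/-- the coefficient of `X ^ i * Y ^ j` -/
noncomputable def co (f : MvPowerSeries (Fin 2) W) (i j : ℕ) : W := coeff (ij i j) f

theorem ext_co {f g : MvPowerSeries (Fin 2) W} (h : ∀ i j, co f i j = co g i j) : f = g := by
  ext d
  rw [eq_ij d]
  exact h _ _

/-- the power series with given coefficients -/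
def ofFun (F : ℕ → ℕ → W) : MvPowerSeries (Fin 2) W := fun d => F (d 0) (d 1)

@[simp] theorem co_ofFun (F : ℕ → ℕ → W) (i j : ℕ) : co (ofFun F) i j = F i j := by
  show F (ij i j 0) (ij i j 1) = F i j
  rw [ij_zero, ij_one]

@[simp] theorem co_add (f g : MvPowerSeries (Fin 2) W) (i j : ℕ) :
    co (f + g) i j = co f i j + co g i j := map_add _ _ _

@[simp] theorem co_sub (f g : MvPowerSeries (Fin 2) W) (i j : ℕ) :
    co (f - g) i j = co f i j - co g i j := map_sub _ _ _

@[simp] theorem co_zero (i j : ℕ) : co (0 : MvPowerSeries (Fin 2) W) i j = 0 := map_zero _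

@[simp] theorem co_C_mul (w : W) (f : MvPowerSeries (Fin 2) W) (i j : ℕ) :
    co (C w * f) i j = w * co f i j := coeff_C_mul _ _ _

@[simp] theorem co_X0_mul_succ (f : MvPowerSeries (Fin 2) W) (i j : ℕ) :
    co (X 0 * f) (i + 1) j = co f i j := by
  unfold co
  have h : ij (i + 1) j = Finsupp.single 0 1 + ij i j := by
    rw [single_zero_eq_ij, ij_add]; congr 1 <;> omega
  rw [h, X, coeff_add_monomial_mul, one_mul]

@[simp] theorem co_X0_mul_zero (f : MvPowerSeries (Fin 2) W) (j : ℕ) :
    co (X 0 * f) 0 j = 0 := by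
  unfold co
  rw [X, coeff_monomial_mul, if_neg]
  intro h
  have := h 0
  simp at this

@[simp] theorem co_X1_mul_succ (f : MvPowerSeries (Fin 2) W) (i j : ℕ) :
    co (X 1 * f) i (j + 1) = co f i j := by
  unfold co
  have h : ij i (j + 1) = Finsupp.single 1 1 + ij i j := by
    rw [single_one_eq_ij, ij_add]; congr 1 <;> omega
  rw [h, X, coeff_add_monomial_mul, one_mul]

@[simp] theorem co_X1_mul_zero (f : MvPowerSeries (Fin 2) W) (i : ℕ) :
    co (X 1 * f) i 0 = 0 := by
  unfold co
  rw [X, coeff_monomial_mul, if_neg]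
  intro h
  have := h 1
  simp at this

end Coeff

/-! ### the node ring -/

section Model

variable {W : Type*} [CommRing W]

/-- the relator `X Y - c` -/
noncomputable def relator (c : W) : MvPowerSeries (Fin 2) W := X 0 * X 1 - C c

/-- **the node ring** `W[[X, Y]] / (X Y - c)` -/
abbrev NodeRing (W : Type*) [CommRing W] (c : W) : Type _ :=
  MvPowerSeries (Fin 2) W ⧸ Ideal.span {relator c}

/-- the quotient map -/
noncomputable def mk (c : W) : MvPowerSeries (Fin 2) W →ₐ[W] NodeRing W c :=
  Ideal.Quotient.mkₐ W _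

theorem mk_surjective (c : W) : Function.Surjective (mk c) := Ideal.Quotient.mkₐ_surjective W _

theorem mk_eq_mk_iff (c : W) (f g : MvPowerSeries (Fin 2) W) :
    mk c f = mk c g ↔ ∃ h, f - g = relator c * h := by
  unfold mk
  rw [Ideal.Quotient.mkₐ_eq_mk, Ideal.Quotient.eq, Ideal.mem_span_singleton']
  constructor
  · rintro ⟨h, hh⟩; exact ⟨h, by rw [← hh, mul_comm]⟩
  · rintro ⟨h, hh⟩; exact ⟨h, by rw [hh, mul_comm]⟩

/-- the class of `X` -/
noncomputable def xi (c : W) : NodeRing W c := mk c (X 0)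

/-- the class of `Y` -/
noncomputable def eta (c : W) : NodeRing W c := mk c (X 1)

theorem xi_mul_eta (c : W) : xi c * eta c = algebraMap W (NodeRing W c) c := by
  unfold xi eta
  rw [← map_mul, ← (mk c).commutes c, mk_eq_mk_iff]
  refine ⟨1, ?_⟩
  rw [mul_one, relator]
  rfl

theorem co_relator_mul (c : W) (g : MvPowerSeries (Fin 2) W) (i j : ℕ) :
    co (relator c * g) i j = co (X 0 * (X 1 * g)) i j - c * co g i j := by
  rw [relator, sub_mul, co_sub, co_C_mul, mul_assoc]

/-- the power series `∑ a i X ^ i + ∑ b j Y ^ (j + 1)` -/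
def series (a b : ℕ → W) : MvPowerSeries (Fin 2) W :=
  ofFun fun i j => if j = 0 then a i else if i = 0 then b (j - 1) else 0

@[simp] theorem co_series_zero_right (a b : ℕ → W) (i : ℕ) : co (series a b) i 0 = a i := by
  simp [series]

@[simp] theorem co_series_zero_succ (a b : ℕ → W) (j : ℕ) : co (series a b) 0 (j + 1) = b j := by
  simp [series]

@[simp] theorem co_series_succ_succ (a b : ℕ → W) (i j : ℕ) :
    co (series a b) (i + 1) (j + 1) = 0 := by
  simp [series]

/-- the element `∑ a i ξ ^ i + ∑ b j η ^ (j + 1)` of the node ring -/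
noncomputable def ofCoeffs (c : W) (a b : ℕ → W) : NodeRing W c := mk c (series a b)

theorem series_add (a b a' b' : ℕ → W) :
    series (a + a') (b + b') = series a b + series a' b' := by
  apply ext_co
  intro i j
  rcases j with _ | j
  · simp
  · rcases i with _ | i
    · simp
    · simp

theorem series_sub (a b a' b' : ℕ → W) :
    series (a - a') (b - b') = series a b - series a' b' := by
  apply ext_co
  intro i j
  rcases j with _ | j
  · simp
  · rcases i with _ | i
    · simp
    · simp

theorem series_smul (w : W) (a b : ℕ → W) :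
    series (w • a) (w • b) = C w * series a b := by
  apply ext_co
  intro i j
  rcases j with _ | j
  · simp
  · rcases i with _ | i
    · simp
    · simp

theorem ofCoeffs_add (c : W) (a b a' b' : ℕ → W) :
    ofCoeffs c (a + a') (b + b') = ofCoeffs c a b + ofCoeffs c a' b' := by
  unfold ofCoeffs
  rw [series_add, map_add]

theorem ofCoeffs_sub (c : W) (a b a' b' : ℕ → W) :
    ofCoeffs c (a - a') (b - b') = ofCoeffs c a b - ofCoeffs c a' b' := by
  unfold ofCoeffs
  rw [series_sub, map_sub]

theorem algebraMap_mul_ofCoeffs (c : W) (w : W) (a b : ℕ → W) :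
    algebraMap W (NodeRing W c) w * ofCoeffs c a b = ofCoeffs c (w • a) (w • b) := by
  unfold ofCoeffs
  rw [series_smul, map_mul, ← (mk c).commutes w]
  rfl

/-! ### existence of the normal form -/

/-- the diagonal sums `∑_t f_(i + t, j + t) c ^ t` -/
noncomputable def diag (I : Ideal W) (c : W) (f : MvPowerSeries (Fin 2) W) (i j : ℕ) : W :=
  cSum I c fun t => co f (i + t) (j + t)

theorem diag_eq {I : Ideal W} [IsAdicComplete I W] {c : W} (hc : c ∈ I)
    (f : MvPowerSeries (Fin 2) W) (i j : ℕ) :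
    diag I c f i j = co f i j + c * diag I c f (i + 1) (j + 1) := by
  unfold diag
  rw [cSum_shift hc]
  have h : (fun t => co f (i + (t + 1)) (j + (t + 1))) = fun t => co f (i + 1 + t) (j + 1 + t) := by
    funext t
    congr 1 <;> omega
  rw [h, Nat.add_zero, Nat.add_zero]

theorem co_X0_X1_mul (g : MvPowerSeries (Fin 2) W) (i j : ℕ) :
    co (X 0 * (X 1 * g)) i j = if i = 0 ∨ j = 0 then 0 else co g (i - 1) (j - 1) := by
  rcases i with _ | i
  · simp
  · rcases j with _ | j
    · simp
    · simp

/-- **existence of the normal form** -/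
theorem exists_series_eq {I : Ideal W} [IsAdicComplete I W] {c : W} (hc : c ∈ I)
    (f : MvPowerSeries (Fin 2) W) :
    ∃ (a b : ℕ → W) (g : MvPowerSeries (Fin 2) W), f - series a b = relator c * g := by
  refine ⟨fun d => diag I c f d 0, fun d => diag I c f 0 (d + 1),
    ofFun fun i j => diag I c f (i + 1) (j + 1), ?_⟩
  apply ext_co
  intro i j
  rw [co_relator_mul, co_X0_X1_mul, co_sub]
  simp only [co_ofFun]
  rcases j with _ | j
  · rw [co_series_zero_right, if_pos (Or.inr rfl), diag_eq hc f i 0]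
    ring
  · rcases i with _ | i
    · rw [co_series_zero_succ, if_pos (Or.inl rfl), diag_eq hc f 0 (j + 1)]
      ring
    · rw [co_series_succ_succ, if_neg (by simp), Nat.add_sub_cancel,
        Nat.add_sub_cancel, diag_eq hc f (i + 1) (j + 1)]
      ring

theorem ofCoeffs_surjective {I : Ideal W} [IsAdicComplete I W] {c : W} (hc : c ∈ I)
    (x : NodeRing W c) : ∃ a b : ℕ → W, ofCoeffs c a b = x := by
  obtain ⟨f, rfl⟩ := mk_surjective c x
  obtain ⟨a, b, g, hg⟩ := exists_series_eq hc f
  refine ⟨a, b, ?_⟩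
  unfold ofCoeffs
  rw [eq_comm, mk_eq_mk_iff]
  exact ⟨g, hg⟩

/-! ### uniqueness of the normal form -/

theorem eq_zero_of_relator_mul_eq_series {I : Ideal W} [IsHausdorff I W] {c : W} (hc : c ∈ I)
    {a b : ℕ → W} {g : MvPowerSeries (Fin 2) W} (h : series a b = relator c * g) : g = 0 := by
  have h1 : ∀ i j, co g i j = c * co g (i + 1) (j + 1) := by
    intro i j
    have h2 := congrArg (fun F => co F (i + 1) (j + 1)) h
    simp only [co_series_succ_succ, co_relator_mul, co_X0_X1_mul] at h2
    rw [if_neg (by simp), Nat.add_sub_cancel, Nat.add_sub_cancel] at h2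
    exact (sub_eq_zero.mp h2.symm)
  have h3 : ∀ n i j, co g i j = c ^ n * co g (i + n) (j + n) := by
    intro n
    induction n with
    | zero => intro i j; simp
    | succ n ih =>
      intro i j
      rw [ih i j, h1 (i + n) (j + n), pow_succ]
      ring_nf
  apply ext_co
  intro i j
  rw [co_zero]
  apply eq_zero_of_forall_mem_pow I
  intro n
  rw [h3 n i j]
  exact Ideal.mul_mem_right _ _ (Ideal.pow_mem_pow hc n)

theorem eq_zero_of_ofCoeffs_eq_zero {I : Ideal W} [IsHausdorff I W] {c : W} (hc : c ∈ I)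
    {a b : ℕ → W} (h : ofCoeffs c a b = 0) : a = 0 ∧ b = 0 := by
  unfold ofCoeffs at h
  rw [← map_zero (mk c), mk_eq_mk_iff] at h
  obtain ⟨g, hg⟩ := h
  rw [sub_zero] at hg
  have hg0 := eq_zero_of_relator_mul_eq_series hc hg
  rw [hg0, mul_zero] at hg
  constructor
  · funext i
    have := congrArg (fun F => co F i 0) hg
    simpa using this
  · funext j
    have := congrArg (fun F => co F 0 (j + 1)) hg
    simpa using this

/-- **uniqueness of the normal form** -/
theorem ofCoeffs_injective {I : Ideal W} [IsHausdorff I W] {c : W} (hc : c ∈ I)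
    {a b a' b' : ℕ → W} (h : ofCoeffs c a b = ofCoeffs c a' b') : a = a' ∧ b = b' := by
  have h1 : ofCoeffs c (a - a') (b - b') = 0 := by rw [ofCoeffs_sub, h, sub_self]
  obtain ⟨h2, h3⟩ := eq_zero_of_ofCoeffs_eq_zero hc h1
  exact ⟨sub_eq_zero.mp h2, sub_eq_zero.mp h3⟩

/-! ### the multiplication rules -/

/-- the `ξ`-coefficients of `ξ * f` -/
def xiA (c : W) (a b : ℕ → W) : ℕ → W := fun i => if i = 0 then c * b 0 else a (i - 1)

/-- the `η`-coefficients of `ξ * f` -/
def xiB (c : W) (b : ℕ → W) : ℕ → W := fun j => c * b (j + 1)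

/-- the `ξ`-coefficients of `η * f` -/
def etaA (c : W) (a : ℕ → W) : ℕ → W := fun i => c * a (i + 1)

/-- the `η`-coefficients of `η * f` -/
def etaB (a b : ℕ → W) : ℕ → W := fun j => if j = 0 then a 0 else b (j - 1)

theorem co_series_succ_right (a b : ℕ → W) (i j : ℕ) :
    co (series a b) i (j + 1) = if i = 0 then b j else 0 := by
  rcases i with _ | i
  · simp
  · simp

theorem co_series_succ_left (a b : ℕ → W) (i j : ℕ) :
    co (series a b) (i + 1) j = if j = 0 then a (i + 1) else 0 := by
  rcases j with _ | j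
  · simp
  · simp

/-- **multiplication by `ξ`** -/
theorem xi_mul_ofCoeffs (c : W) (a b : ℕ → W) :
    xi c * ofCoeffs c a b = ofCoeffs c (xiA c a b) (xiB c b) := by
  unfold xi ofCoeffs
  rw [← map_mul, mk_eq_mk_iff]
  refine ⟨ofFun fun i j => if i = 0 then b j else 0, ?_⟩
  apply ext_co
  intro i j
  rw [co_relator_mul, co_X0_X1_mul, co_sub]
  simp only [co_ofFun]
  rcases i with _ | i
  · rcases j with _ | j
    · simp [xiA]
    · simp [xiB]
  · rcases j with _ | j
    · simp [xiA]
    · simp [co_series_succ_right]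

/-- **multiplication by `η`** -/
theorem eta_mul_ofCoeffs (c : W) (a b : ℕ → W) :
    eta c * ofCoeffs c a b = ofCoeffs c (etaA c a) (etaB a b) := by
  unfold eta ofCoeffs
  rw [← map_mul, mk_eq_mk_iff]
  refine ⟨ofFun fun i j => if j = 0 then a (i + 1) else 0, ?_⟩
  apply ext_co
  intro i j
  rw [co_relator_mul, co_X0_X1_mul, co_sub]
  simp only [co_ofFun]
  rcases j with _ | j
  · rcases i with _ | i
    · simp [etaA]
    · simp [etaA]
  · rcases i with _ | i
    · rcases j with _ | j
      · simp [etaB]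
      · simp [etaB]
    · simp [co_series_succ_left]

/-! ### constants, splitting and finite expansions -/

theorem ij_eq_zero_iff (i j : ℕ) : ij i j = 0 ↔ i = 0 ∧ j = 0 := by
  constructor
  · intro h
    have h0 := DFunLike.congr_fun h 0
    have h1 := DFunLike.congr_fun h 1
    simp at h0 h1
    exact ⟨h0, h1⟩
  · rintro ⟨rfl, rfl⟩
    ext k
    fin_cases k <;> simp

theorem series_single_zero (w : W) : series (Pi.single 0 w) 0 = C w := by
  classical
  apply ext_co
  intro i j
  unfold co
  rw [coeff_C]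
  rcases j with _ | j
  · rcases i with _ | i
    · rw [if_pos ((ij_eq_zero_iff 0 0).mpr ⟨rfl, rfl⟩)]
      show co (series (Pi.single 0 w) 0) 0 0 = w
      simp
    · rw [if_neg (fun h => by simpa using ((ij_eq_zero_iff _ _).mp h).1)]
      show co (series (Pi.single 0 w) 0) (i + 1) 0 = 0
      simp
  · rw [if_neg (fun h => by simpa using ((ij_eq_zero_iff _ _).mp h).2)]
    show co (series (Pi.single 0 w) 0) i (j + 1) = 0
    rw [co_series_succ_right]
    simp

theorem algebraMap_eq_ofCoeffs (c w : W) :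
    algebraMap W (NodeRing W c) w = ofCoeffs c (Pi.single 0 w) 0 := by
  unfold ofCoeffs
  rw [series_single_zero, ← (mk c).commutes w]
  rfl

theorem ofCoeffs_zero (c : W) : ofCoeffs c (0 : ℕ → W) 0 = 0 := by
  have h := algebraMap_eq_ofCoeffs c (0 : W)
  rw [map_zero] at h
  rw [h]
  congr 1
  funext i
  simp [Pi.single_apply]

theorem ofCoeffs_split (c : W) (a b : ℕ → W) :
    ofCoeffs c a b = ofCoeffs c a 0 + ofCoeffs c 0 b := by
  rw [← ofCoeffs_add, add_zero, zero_add]

theorem ofCoeffs_zero_right_eq (c : W) (a : ℕ → W) :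
    ofCoeffs c a 0 =
      algebraMap W (NodeRing W c) (a 0) + xi c * ofCoeffs c (fun i => a (i + 1)) 0 := by
  rw [xi_mul_ofCoeffs, algebraMap_eq_ofCoeffs, ← ofCoeffs_add]
  congr 1
  · funext i
    rcases i with _ | i
    · simp [xiA]
    · simp [xiA]
  · funext j
    simp [xiB]

theorem ofCoeffs_zero_left_eq (c : W) (b : ℕ → W) :
    ofCoeffs c 0 b = algebraMap W (NodeRing W c) (b 0) * eta c +
      eta c * ofCoeffs c 0 (fun j => b (j + 1)) := by
  have h1 : algebraMap W (NodeRing W c) (b 0) * eta c =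
      eta c * ofCoeffs c (Pi.single 0 (b 0)) 0 := by
    rw [algebraMap_eq_ofCoeffs, mul_comm]
  rw [h1, ← mul_add, ← ofCoeffs_add, eta_mul_ofCoeffs]
  congr 1
  · funext i
    simp [etaA]
  · funext j
    rcases j with _ | j
    · simp [etaB]
    · simp [etaB]

/-- the finite expansion of the `ξ`-part -/
theorem ofCoeffs_zero_right_expand (c : W) (a : ℕ → W) (N : ℕ) :
    ofCoeffs c a 0 = ∑ i ∈ Finset.range N, algebraMap W (NodeRing W c) (a i) * xi c ^ i +
      xi c ^ N * ofCoeffs c (fun i => a (i + N)) 0 := by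
  induction N with
  | zero => simp
  | succ N ih =>
    rw [Finset.sum_range_succ, ih, ofCoeffs_zero_right_eq c (fun i => a (i + N))]
    have h : (fun i => a (i + 1 + N)) = fun i => a (i + (N + 1)) := by
      funext i; congr 1; omega
    simp only [Nat.zero_add]
    rw [h]
    ring

/-- the finite expansion of the `η`-part -/
theorem ofCoeffs_zero_left_expand (c : W) (b : ℕ → W) (N : ℕ) :
    ofCoeffs c 0 b = ∑ j ∈ Finset.range N, algebraMap W (NodeRing W c) (b j) * eta c ^ (j + 1) +
      eta c ^ N * ofCoeffs c 0 (fun j => b (j + N)) := by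
  induction N with
  | zero => simp
  | succ N ih =>
    rw [Finset.sum_range_succ, ih, ofCoeffs_zero_left_eq c (fun j => b (j + N))]
    have h : (fun j => b (j + 1 + N)) = fun j => b (j + (N + 1)) := by
      funext j; congr 1; omega
    simp only [Nat.zero_add]
    rw [h]
    ring

/-- **the finite expansions**:
`f = ∑_(i < N) (a i ξ ^ i + b i η ^ (i + 1)) + ξ ^ N (…) + η ^ N (…)` -/
theorem ofCoeffs_expand (c : W) (a b : ℕ → W) (N : ℕ) :
    ofCoeffs c a b = ∑ i ∈ Finset.range N, (algebraMap W (NodeRing W c) (a i) * xi c ^ i +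
        algebraMap W (NodeRing W c) (b i) * eta c ^ (i + 1)) +
      xi c ^ N * ofCoeffs c (fun i => a (i + N)) 0 +
      eta c ^ N * ofCoeffs c 0 (fun j => b (j + N)) := by
  rw [ofCoeffs_split, ofCoeffs_zero_right_expand c a N, ofCoeffs_zero_left_expand c b N,
    Finset.sum_add_distrib]
  ring

/-! ### the coefficient bijection -/

/-- `(a, b) ↦ ∑ a i ξ ^ i + ∑ b j η ^ (j + 1)` as a linear map -/
noncomputable def coeffLinearMap (c : W) : ((ℕ → W) × (ℕ → W)) →ₗ[W] NodeRing W c where
  toFun p := ofCoeffs c p.1 p.2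
  map_add' p q := by rw [Prod.fst_add, Prod.snd_add, ofCoeffs_add]
  map_smul' w p := by
    rw [Prod.smul_fst, Prod.smul_snd, ← algebraMap_mul_ofCoeffs, RingHom.id_apply]
    exact (Algebra.smul_def _ _).symm

@[simp] theorem coeffLinearMap_apply (c : W) (p : (ℕ → W) × (ℕ → W)) :
    coeffLinearMap c p = ofCoeffs c p.1 p.2 := rfl

theorem coeffLinearMap_bijective {I : Ideal W} [IsAdicComplete I W] {c : W} (hc : c ∈ I) :
    Function.Bijective (coeffLinearMap c) := by
  constructor
  · intro p q h
    obtain ⟨h1, h2⟩ := ofCoeffs_injective hc h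
    exact Prod.ext h1 h2
  · intro x
    obtain ⟨a, b, h⟩ := ofCoeffs_surjective hc x
    exact ⟨(a, b), h⟩

/-- **the coefficient bijection** `(ℕ → W) × (ℕ → W) ≃ W[[X, Y]] / (X Y - c)` -/
noncomputable def coeffEquiv {I : Ideal W} [IsAdicComplete I W] {c : W} (hc : c ∈ I) :
    ((ℕ → W) × (ℕ → W)) ≃ₗ[W] NodeRing W c :=
  LinearEquiv.ofBijective (coeffLinearMap c) (coeffLinearMap_bijective hc)

@[simp] theorem coeffEquiv_apply {I : Ideal W} [IsAdicComplete I W] {c : W} (hc : c ∈ I)
    (p : (ℕ → W) × (ℕ → W)) : coeffEquiv hc p = ofCoeffs c p.1 p.2 := rfl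

theorem ofCoeffs_coeffEquiv_symm {I : Ideal W} [IsAdicComplete I W] {c : W} (hc : c ∈ I)
    (x : NodeRing W c) :
    ofCoeffs c ((coeffEquiv hc).symm x).1 ((coeffEquiv hc).symm x).2 = x :=
  (coeffEquiv hc).apply_symm_apply x

/-! ### divisibility by constants -/

theorem ofCoeffs_mem_span_algebraMap_iff {I : Ideal W} [IsAdicComplete I W] {c : W}
    (hc : c ∈ I) (w : W) (a b : ℕ → W) :
    ofCoeffs c a b ∈ Ideal.span {algebraMap W (NodeRing W c) w} ↔
      (∀ i, a i ∈ Ideal.span {w}) ∧ (∀ j, b j ∈ Ideal.span {w}) := by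
  constructor
  · intro h
    obtain ⟨y, hy⟩ := Ideal.mem_span_singleton'.mp h
    obtain ⟨a', b', rfl⟩ := ofCoeffs_surjective hc y
    rw [mul_comm, algebraMap_mul_ofCoeffs] at hy
    obtain ⟨h1, h2⟩ := ofCoeffs_injective hc hy
    constructor
    · intro i
      rw [← h1]
      exact Ideal.mem_span_singleton'.mpr ⟨a' i, by simp [mul_comm]⟩
    · intro j
      rw [← h2]
      exact Ideal.mem_span_singleton'.mpr ⟨b' j, by simp [mul_comm]⟩
  · rintro ⟨h1, h2⟩
    choose a' ha' using fun i => Ideal.mem_span_singleton'.mp (h1 i)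
    choose b' hb' using fun j => Ideal.mem_span_singleton'.mp (h2 j)
    have h3 : ofCoeffs c a b = ofCoeffs c a' b' * algebraMap W (NodeRing W c) w := by
      rw [mul_comm, algebraMap_mul_ofCoeffs]
      congr 1
      · funext i; rw [← ha' i]; simp [mul_comm]
      · funext j; rw [← hb' j]; simp [mul_comm]
    rw [h3]
    exact Ideal.mem_span_singleton'.mpr ⟨_, rfl⟩

/-- the node ring is `π`-adically separated -/
theorem eq_zero_of_forall_mem_span_pow {π : W} [IsAdicComplete (Ideal.span {π}) W] {c : W}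
    (hc : c ∈ Ideal.span {π}) {x : NodeRing W c}
    (h : ∀ n : ℕ, x ∈ Ideal.span {algebraMap W (NodeRing W c) (π ^ n)}) : x = 0 := by
  obtain ⟨a, b, rfl⟩ := ofCoeffs_surjective hc x
  have h1 : ∀ n, (∀ i, a i ∈ Ideal.span {π} ^ n) ∧ (∀ j, b j ∈ Ideal.span {π} ^ n) := by
    intro n
    have := (ofCoeffs_mem_span_algebraMap_iff hc (π ^ n) a b).mp (h n)
    rw [Ideal.span_singleton_pow]
    exact this
  have ha : a = 0 := by
    funext i
    exact eq_zero_of_forall_mem_pow (Ideal.span {π}) fun n => (h1 n).1 i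
  have hb : b = 0 := by
    funext j
    exact eq_zero_of_forall_mem_pow (Ideal.span {π}) fun n => (h1 n).2 j
  rw [ha, hb, ofCoeffs_zero]

end Model

end Fermat.Agent.S34.NodeRing
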