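/-
PROJECT U (S34): at level `M`, A POINT REDUCES TO A NON-CUSP IFF ITS `j`-VALUE IS `A`-INTEGRAL.

`H : S37.Deuring.Core.Hyp (gaussDatum M A hA hqM) gL gk`, `r := placeMap H`.

* `exists_value_of_nonneg` : `0 ≤ ord_{r PM} j̄ → ∃ c ∈ A, j(PM) = c` (and `j̄(r PM) = c̄`);
* `nonneg_of_value` : `j(PM) = c ∈ A → 0 ≤ ord_{r PM} j̄`;
* `integral_iff` : the equivalence (the `hint` of `Generic/NcBetaX0`).
-/
import Mathlib
import Fermat.Agent.S34.CuspRedX0
import Fermat.Agent.S34.Generic.Dich

set_option autoImplicit false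
set_option linter.unusedSectionVars false
set_option linter.style.haveILetI false

noncomputable section

namespace Fermat.Agent.S34.CuspRedX0Hint

open AlgebraicCurve IntermediateField ModularCurve IsLocalRing
open Fermat.Agent.S24.Ord Fermat.Agent.S18.CoreDefs Fermat.Agent.S18.Disc
open Fermat.Agent.S37.Deuring.Core Fermat.Agent.S37.Deuring.HypX0
  Fermat.Agent.S37.Gauss.Datum Fermat.Agent.S18.B.FkBasics Fermat.Agent.S24.DegreeAlg
open Fermat.Agent.S34.Generic.Dich Fermat.Agent.S34.CuspRedX0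

local notation "Kb" => AlgebraicClosure ℚ

variable {M : ℕ} [NeZero M] {q : ℕ} [hq : Fact q.Prime] {A : ValuationSubring Kb}
  (hA : A.LiesOverPrime q) (hqM : ¬ q ∣ M)
variable [HasPrincipalDivisors Kb ↥(modularFunctionFieldBar M)]
  [HasPrincipalDivisors (ResidueField ↥A) ↥(modularFunctionFieldFullC (ResidueField ↥A) M)]
  [Infinite (ResidueField ↥A)]
variable {gL gk : ℕ} (H : Hyp (gaussDatum M A hA hqM) gL gk)

/-- a point reducing to a non-cusp has an `A`-integral `j`-value, whose reduction is the value of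
`j̄` at the reduction of the point -/
theorem exists_value_of_nonneg (PM : Place Kb ↥(modularFunctionFieldBar M))
    (hPM : 0 ≤ (placeMap H PM).ord (jk (ResidueField ↥A) M)) :
    ∃ c : A, HasVal PM (jgen M) (c : Kb) ∧
      HasVal (placeMap H PM) (jk (ResidueField ↥A) M) (residue ↥A c) := by
  have hreg := regOn_jgen hA hqM H (placeMap H PM) hPM
  obtain ⟨c, hc1, hc2⟩ := exists_hasVal_of_regOn (redDatum H) H.riemannL.deg_one (jO hA hqM)
    (Q := placeMap H PM) (by rw [coe_jO]; exact hreg) (P := PM) rfl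
  refine ⟨c, ?_, ?_⟩
  · rw [coe_jO] at hc1
    exact hc1
  · have h : (redDatum H).red (jO hA hqM) = jk (ResidueField ↥A) M := red_jO hA hqM
    rw [h] at hc2
    exact hc2

/-- a point with `A`-integral `j`-value reduces to a non-cusp -/
theorem nonneg_of_value (PM : Place Kb ↥(modularFunctionFieldBar M)) (c : A)
    (hc : HasVal PM (jgen M) (c : Kb)) :
    0 ≤ (placeMap H PM).ord (jk (ResidueField ↥A) M) := by
  by_contra hneg
  have hneg' : (placeMap H PM).ord (jk (ResidueField ↥A) M) < 0 := not_le.mp hneg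
  have hreg := regOn_inv_jgen hA hqM H (placeMap H PM) hneg'.le
  have hmem := inv_jgen_mem_O hA hqM H
  have hred := red_inv_jgen hA hqM H hmem
  obtain ⟨a, ha1, ha2⟩ := exists_hasVal_of_regOn (redDatum H) H.riemannL.deg_one
    (⟨(jgen M)⁻¹, hmem⟩ : ↥(gaussDatum M A hA hqM).O)
    (Q := placeMap H PM) hreg (P := PM) rfl
  -- `π a = 0`: `1 / j̄` vanishes at the cusp
  have h0 : HasVal (placeMap H PM) ((jk (ResidueField ↥A) M)⁻¹) (0 : ResidueField ↥A) := by
    unfold HasVal
    rw [map_zero, sub_zero]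
    have hjk : jk (ResidueField ↥A) M ≠ 0 :=
      (Fermat.Agent.S18.B.FkBasics.isFF (ResidueField ↥A) M).ne_zero
    refine (ord_pos_iff _ (inv_ne_zero hjk)).mp ?_
    rw [Place.ord_inv]
    omega
  have hπa : residue ↥A a = 0 := by
    have h : (redDatum H).red (⟨(jgen M)⁻¹, hmem⟩ : ↥(gaussDatum M A hA hqM).O) =
        (jk (ResidueField ↥A) M)⁻¹ := hred
    rw [h] at ha2
    exact ha2.unique h0
  -- `c * a = 1`
  have hj : jgen M ≠ 0 := (Fermat.Agent.S18.A.Instances.isFF_jgen M).ne_zero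
  have hmul : HasVal PM (1 : ↥(modularFunctionFieldBar M)) ((c : Kb) * (a : Kb)) := by
    have := hc.mul ha1
    rwa [mul_inv_cancel₀ hj] at this
  have hca : (c : Kb) * (a : Kb) = 1 := hmul.unique (hasVal_one PM)
  have hca' : c * a = 1 := Subtype.ext hca
  have := congrArg (residue ↥A) hca'
  rw [map_mul, hπa, mul_zero, map_one] at this
  exact zero_ne_one this

/-- **a point reduces to a non-cusp iff its `j`-value is `A`-integral** -/
theorem integral_iff (PM : Place Kb ↥(modularFunctionFieldBar M)) :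
    0 ≤ (placeMap H PM).ord (jk (ResidueField ↥A) M) ↔
      ∃ c : A, PM.adicValuation (jgen M - algebraMap Kb ↥(modularFunctionFieldBar M) (c : Kb)) < 1 :=
  ⟨fun h => by
      obtain ⟨c, hc, -⟩ := exists_value_of_nonneg hA hqM H PM h
      exact ⟨c, hc⟩,
    fun ⟨c, hc⟩ => nonneg_of_value hA hqM H PM c hc⟩

end Fermat.Agent.S34.CuspRedX0Hint
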