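import Mathlib
import Fermat.Agent.S34.CuspRegular
import Fermat.Agent.S34.EulerX0
import Fermat.Agent.S34.Euler.ChartFullC

/-!
# PROJECT U (S34): the (CUSP) argument of `Euler/ChartFullC.genus_le_of_charts_fullC` at `X₀(M q)`

Adapter between `S34/CuspRegular` (`x = α j · j_q`, `jE M q = heckeAlphaBar Kb M q (jgen M)`) and
`S34/EulerX0` (`x = jgen (M q) · j_q`, pole divisor `EulerX0.D hqM`, reductions `EulerX0.PairRed`):

* `jE_eq`, `xE_eq` : the two forms of `j` and `x` agree;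
* `isPoleDiv_xE'` : `EulerX0.D hqM` is the pole divisor of `α j · j_q`;
* `PairRed.jE_mem₁ …`, `PairRed.red₁_jE …` : `EulerX0.PairRed` in the `α j` form;
* `cusp_fullC` / `cusp_fullC'` : **the hypothesis `CUSP` of `genus_le_of_charts_fullC`, literally**,
  at `x := EulerX0.xE M q` / `x := CuspRegular.xE M q`, `D := EulerX0.D hqM`, `N := M`
  (`r = q`, `m + 1 = q² - 1`);
* `cusp_charts` : **the hypothesis `CUSP` of `EulerChartsX0.exists_nodes_X0`, literally**.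
-/

set_option autoImplicit false
set_option linter.unusedSectionVars false
set_option linter.style.haveILetI false

noncomputable section

namespace Fermat.Agent.S34.CuspRegularX0

open ModularCurve AlgebraicCurve IsLocalRing
open Fermat.Agent.S24.DegreeAlg (jgen)
open Fermat.Agent.S18.B.FkBasics (jk)
open Fermat.Agent.S34.PowerBasisX0
open Fermat.Agent.S18.NonSpecial Fermat.Agent.S37.Deuring.Core Fermat.Agent.S34.Euler.RedPair
open Fermat.Agent.S34.EulerX0 (PairRed)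

local notation "Kb" => AlgebraicClosure ℚ

variable {q : ℕ} [hq : Fact q.Prime] [NeZero q] {M : ℕ} [NeZero M]

/-! ### the two forms of `j` and `x` -/

theorem jE_eq : CuspRegular.jE M q = jgen (M * q) := EulerX0.alpha_jgen

theorem xE_eq : CuspRegular.xE M q = EulerX0.xE M q := by
  rw [CuspRegular.xE, jE_eq, EulerX0.xE]

/-- `EulerX0.D hqM` is the pole divisor of `x = α j · j_q` -/
theorem isPoleDiv_xE' (hqM : ¬ q ∣ M) : IsPoleDiv (CuspRegular.xE M q) (EulerX0.D hqM) := by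
  rw [xE_eq]
  exact EulerX0.isPoleDiv_xE hqM

section Residue

set_option synthInstance.maxHeartbeats 400000

attribute [local instance 2000] EulerX0.algResFk

variable {A : ValuationSubring Kb}
variable {G₁ G₂ : GaussDatum A (residue ↥A) ↥(modularFunctionFieldBar (M * q))
  ↥(modularFunctionFieldFullC (ResidueField ↥A) M)}

/-! ### `PairRed` in the `α j` form -/

theorem PairRed.jE_mem₁ (hP : PairRed G₁ G₂) : CuspRegular.jE M q ∈ G₁.O := by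
  rw [jE_eq]
  exact hP.j_mem₁

theorem PairRed.jE_mem₂ (hP : PairRed G₁ G₂) : CuspRegular.jE M q ∈ G₂.O := by
  rw [jE_eq]
  exact hP.j_mem₂

theorem PairRed.red₁_jE (hP : PairRed G₁ G₂) (h : CuspRegular.jE M q ∈ G₁.O) :
    G₁.red ⟨CuspRegular.jE M q, h⟩ = jk (ResidueField ↥A) M := by
  have e : (⟨CuspRegular.jE M q, h⟩ : G₁.O) = ⟨jgen (M * q), hP.j_mem₁⟩ := Subtype.ext jE_eq
  rw [e, hP.red₁_j]

theorem PairRed.red₂_jE (hP : PairRed G₁ G₂) (h : CuspRegular.jE M q ∈ G₂.O) :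
    G₂.red ⟨CuspRegular.jE M q, h⟩ = jk (ResidueField ↥A) M ^ q := by
  have e : (⟨CuspRegular.jE M q, h⟩ : G₂.O) = ⟨jgen (M * q), hP.j_mem₂⟩ := Subtype.ext jE_eq
  rw [e, hP.red₂_j]

theorem PairRed.xE'_mem₁ (hP : PairRed G₁ G₂) : CuspRegular.xE M q ∈ G₁.O := by
  rw [xE_eq]
  exact hP.xE_mem₁

theorem PairRed.xE'_mem₂ (hP : PairRed G₁ G₂) : CuspRegular.xE M q ∈ G₂.O := by
  rw [xE_eq]
  exact hP.xE_mem₂

theorem PairRed.red₁_xE' (hP : PairRed G₁ G₂) (h : CuspRegular.xE M q ∈ G₁.O) :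
    G₁.red ⟨CuspRegular.xE M q, h⟩ = jk (ResidueField ↥A) M ^ (q + 1) := by
  have e : (⟨CuspRegular.xE M q, h⟩ : G₁.O) = ⟨EulerX0.xE M q, hP.xE_mem₁⟩ := Subtype.ext xE_eq
  rw [e, hP.red₁_xE]

theorem PairRed.red₂_xE' (hP : PairRed G₁ G₂) (h : CuspRegular.xE M q ∈ G₂.O) :
    G₂.red ⟨CuspRegular.xE M q, h⟩ = jk (ResidueField ↥A) M ^ (q + 1) := by
  have e : (⟨CuspRegular.xE M q, h⟩ : G₂.O) = ⟨EulerX0.xE M q, hP.xE_mem₂⟩ := Subtype.ext xE_eq
  rw [e, hP.red₂_xE]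

/-! ### (CUSP) -/

/-- **(CUSP) of `genus_le_of_charts_fullC`, literally**, at `x := CuspRegular.xE M q = α j · j_q`
(the `x` of `Euler/ChartLiftX0`), for any pole divisor `D` of it. -/
theorem cusp_fullC' (hP : PairRed G₁ G₂)
    {D : Divisor Kb ↥(modularFunctionFieldBar (M * q))} (hD : IsPoleDiv (CuspRegular.xE M q) D)
    (hxO₁ : CuspRegular.xE M q ∈ G₁.O) (hxO₂ : CuspRegular.xE M q ∈ G₂.O) :
    ∃ (r m : ℕ) (p : ↥(modularFunctionFieldFullC (ResidueField ↥A) M) ×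
        ↥(modularFunctionFieldFullC (ResidueField ↥A) M)),
      p ∈ redSpace₂ G₁ G₂ (r • D) ∧ p.1 = G₁.red ⟨CuspRegular.xE M q, hxO₁⟩ ^ r ∧
        p.2 * jk (ResidueField ↥A) M ^ (m + 1) = G₂.red ⟨CuspRegular.xE M q, hxO₂⟩ ^ r := by
  obtain ⟨p, hp, hp1, hp2⟩ := CuspRegular.exists_cusp_witness G₁ G₂
    (PairRed.jE_mem₁ hP) (PairRed.jE_mem₂ hP) hP.jl_mem₁ hP.jl_mem₂
    (PairRed.red₁_jE hP _) hP.red₁_jl (PairRed.red₂_jE hP _) hP.red₂_jl hD hxO₁ hxO₂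
  have hq2 : 2 ≤ q := hq.out.two_le
  have h4 : 4 ≤ q ^ 2 := by nlinarith
  refine ⟨q, q ^ 2 - 2, p, hp, hp1, ?_⟩
  have e : q ^ 2 - 2 + 1 = q ^ 2 - 1 := by omega
  rw [e]
  exact hp2

/-- **(CUSP) of `genus_le_of_charts_fullC`, literally**, at `x := EulerX0.xE M q`,
`D := EulerX0.D hqM`. -/
theorem cusp_fullC (hqM : ¬ q ∣ M) (hP : PairRed G₁ G₂) :
    ∃ (r m : ℕ) (p : ↥(modularFunctionFieldFullC (ResidueField ↥A) M) ×
        ↥(modularFunctionFieldFullC (ResidueField ↥A) M)),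
      p ∈ redSpace₂ G₁ G₂ (r • EulerX0.D hqM) ∧ p.1 = G₁.red ⟨EulerX0.xE M q, hP.xE_mem₁⟩ ^ r ∧
        p.2 * jk (ResidueField ↥A) M ^ (m + 1) = G₂.red ⟨EulerX0.xE M q, hP.xE_mem₂⟩ ^ r := by
  obtain ⟨r, m, p, hp, hp1, hp2⟩ := cusp_fullC' hP (isPoleDiv_xE' hqM)
    (PairRed.xE'_mem₁ hP) (PairRed.xE'_mem₂ hP)
  refine ⟨r, m, p, hp, ?_, ?_⟩
  · rw [hp1, PairRed.red₁_xE' hP, hP.red₁_xE]
  · rw [hp2, PairRed.red₂_xE' hP, hP.red₂_xE]

/-- **(CUSP) of `EulerChartsX0.exists_nodes_X0`, literally** (`x̄₁ = x̄₂ = j̄ ^ (q + 1)` already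
substituted). -/
theorem cusp_charts (hqM : ¬ q ∣ M) (hP : PairRed G₁ G₂) :
    ∃ (r m : ℕ) (p : ↥(modularFunctionFieldFullC (ResidueField ↥A) M) ×
        ↥(modularFunctionFieldFullC (ResidueField ↥A) M)),
      p ∈ redSpace₂ G₁ G₂ (r • EulerX0.D hqM) ∧ p.1 = (jk (ResidueField ↥A) M ^ (q + 1)) ^ r ∧
        p.2 * jk (ResidueField ↥A) M ^ (m + 1) = (jk (ResidueField ↥A) M ^ (q + 1)) ^ r := by
  obtain ⟨r, m, p, hp, hp1, hp2⟩ := cusp_fullC hqM hP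
  refine ⟨r, m, p, hp, ?_, ?_⟩
  · rw [hp1, hP.red₁_xE]
  · rw [hp2, hP.red₂_xE]

end Residue

end Fermat.Agent.S34.CuspRegularX0
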