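/-
PROJECT U (S34), helper11: **THE INPUTS OF `EulerNodesX0.exists_nodes_of_dict` THAT DO NOT DEPEND ON
THE REDUCTION DICTIONARY, DISCHARGED.**

* `hyp_of_riemannHyp_k` : Deuring's hypotheses `Hyp (gaussDatum M A hA hqM) gk gk` at level `M`
  from Riemann's theorem on `κ_M = k(X₀(M))` alone (the genus of `ℚ̄(X₀(M))` is `gk`:
  `NodalCoreX0.riemannHyp_bar_of_riemannHyp_k`);
* `restrα`, `restrβ` : the restriction data of the two degeneracy maps
  (`Generic.RestrAlong.restrAlong`, `FibAlphaX0.isIntegral_alpha`, `FibBetaX0.isIntegral_beta`);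
* `exists_nodes` : the node set, the genus inequality `g + 1 ≤ gk + gk + #S` and the chart-0 gluing
  from `d : ChartLift.PairDict`, ANY Riemann data `HL` on `E = ℚ̄(X₀(M q))`, `Hk` on `κ_M`, and the
  two radical-ideal statements `hJ₀`, `hJ₁`;
* `exists_genera` : Riemann data exist on both sides;
* `exists_nodes'` : the same with the two genera existentially quantified.
-/
import Mathlib
import Fermat.Agent.S34.EulerNodesX0
import Fermat.Agent.S34.NodalCoreX0
import Fermat.Agent.S34.Generic.RestrAlong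
import Fermat.Agent.S34.Generic.FibAlphaX0
import Fermat.Agent.S34.Generic.FibBetaX0

set_option autoImplicit false
set_option linter.unusedSectionVars false
set_option linter.style.haveILetI false

noncomputable section

namespace Fermat.Agent.S34.EulerInputsX0

open ModularCurve AlgebraicCurve IsLocalRing
open Fermat.Agent.S24.DegreeAlg (jgen)
open Fermat.Agent.S18.B.FkBasics (jk)
open Fermat.Agent.S18.NonSpecial Fermat.Agent.S37.Deuring.Core
open Fermat.Agent.S37.Gauss.Datum
open Fermat.Agent.S34.PowerBasisX0 Fermat.Agent.S34.EulerX0 Fermat.Agent.S34.EulerNodesX0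
open Fermat.Agent.S34.FrobK Fermat.Agent.S34.Euler.Places Fermat.Agent.S34.Euler.Value
  Fermat.Agent.S34.Euler.RedPair Fermat.Agent.S34.Euler.Chart Fermat.Agent.S34.Euler.FrobSide
  Fermat.Agent.S34.Euler.ChartFullC Fermat.Agent.S34.Euler.ChartLift
  Fermat.Agent.S34.Generic.Compat

local notation "Kb" => AlgebraicClosure ℚ

set_option synthInstance.maxHeartbeats 400000

attribute [local instance 2000] Fermat.Agent.S34.EulerX0.algResFk

variable {q : ℕ} [hq : Fact q.Prime] [NeZero q] {M : ℕ} [NeZero M] (hqM : ¬ q ∣ M)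
variable {A : ValuationSubring Kb} (hA : A.LiesOverPrime q)

/-- **Deuring's hypotheses at level `M`** from Riemann's theorem on `κ_M` alone. -/
theorem hyp_of_riemannHyp_k {gk : ℕ}
    (Hk : RiemannHyp (ResidueField ↥A) ↥(modularFunctionFieldFullC (ResidueField ↥A) M) gk) :
    Hyp (gaussDatum M A hA hqM) gk gk :=
  Fermat.Agent.S37.ReductionInputsX0.hyp_X0 M A hA hqM
    (Fermat.Agent.S34.NodalCoreX0.riemannHyp_bar_of_riemannHyp_k hA hqM Hk) Hk le_rfl

include hqM in
/-- the restriction data of `α` -/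
def restrα : Restr Kb (αR M q) :=
  Fermat.Agent.S34.Generic.RestrAlong.restrAlong (heckeAlphaBar Kb M q)
    (Fermat.Agent.S34.Generic.FibAlphaX0.isIntegral_alpha hqM)

/-- the restriction data of `β` -/
def restrβ (M q : ℕ) [NeZero M] [NeZero q] : Restr Kb (βR M q) :=
  Fermat.Agent.S34.Generic.RestrAlong.restrAlong (heckeBetaBar Kb M q)
    (Fermat.Agent.S34.Generic.FibBetaX0.isIntegral_beta M q)

/-- Riemann data exist on `E = ℚ̄(X₀(M q))` and on `κ_M = k(X₀(M))`. -/
theorem exists_genera (M q : ℕ) [NeZero M] [NeZero q] (A : ValuationSubring Kb) :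
    ∃ g gk : ℕ, RiemannHyp Kb ↥(modularFunctionFieldBar (M * q)) g ∧
      RiemannHyp (ResidueField ↥A) ↥(modularFunctionFieldFullC (ResidueField ↥A) M) gk := by
  obtain ⟨g, HL⟩ := Fermat.Agent.S18.A.RiemannFk.exists_riemannHyp_FL (M * q)
  obtain ⟨gk, Hk⟩ := Fermat.Agent.S37.Deuring.HypX0.exists_riemannHyp_k (N := M) (A := A)
  exact ⟨g, gk, HL, Hk⟩

variable [CharP (ResidueField ↥A) q] [PerfectField (ResidueField ↥A)]
variable [HasPrincipalDivisors (ResidueField ↥A) ↥(modularFunctionFieldFullC (ResidueField ↥A) M)]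
variable [IsAlgClosed (ResidueField ↥A)]
variable {G₁ G₂ : GaussDatum A (residue ↥A) ↥(modularFunctionFieldBar (M * q))
  ↥(modularFunctionFieldFullC (ResidueField ↥A) M)}
variable (d : PairDict (gaussDatum M A hA hqM) G₁ G₂ (αR M q) (βR M q)
  (fun g => phi (ResidueField ↥A) M q g))

include d in
/-- **The nodes of `X₀(M q)` mod `q`, the genus inequality and the chart-0 gluing**, from the
reduction dictionary, Riemann's theorem on both sides and the two radical-ideal statements. -/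
theorem exists_nodes {g gk : ℕ}
    (HL : RiemannHyp Kb ↥(modularFunctionFieldBar (M * q)) g)
    (Hk : RiemannHyp (ResidueField ↥A) ↥(modularFunctionFieldFullC (ResidueField ↥A) M) gk)
    (hJ₀ : HJ (ResidueField ↥A) M q (P0 (ResidueField ↥A) M) (Fr_mem_P0_iff (ResidueField ↥A) M q))
    (hJ₁ : HJ (ResidueField ↥A) M q (P1 (ResidueField ↥A) M)
      (Fr_mem_P1_iff (ResidueField ↥A) M q)) :
    ∃ S : Finset (Place (ResidueField ↥A) ↥(modularFunctionFieldFullC (ResidueField ↥A) M)),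
      (∀ b ∈ S, Fr (ResidueField ↥A) M q (Fr (ResidueField ↥A) M q b) = b ∧
        b ∉ P0 (ResidueField ↥A) M) ∧
      (g : ℤ) + 1 ≤ gk + gk + S.card ∧
      ∀ h₁ h₂ : ↥(modularFunctionFieldFullC (ResidueField ↥A) M),
        h₁ ∈ regOff (P0 (ResidueField ↥A) M) → h₂ ∈ regOff (P0 (ResidueField ↥A) M) →
        ((h₁, h₂) ∈ Rbar0 G₁ G₂ (isPoleDiv_xE hqM).nonneg ↔
          ∀ b ∈ S, ∃ c : ResidueField ↥A,
            HasValue (Fr (ResidueField ↥A) M q b) h₁ c ∧ HasValue b h₂ c) :=
  exists_nodes_of_dict hqM hA d (hyp_of_riemannHyp_k hqM hA Hk) (restrα hqM) (restrβ M q) HL hJ₀ hJ₁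

include d in
/-- the same with the genera existentially quantified -/
theorem exists_nodes'
    (hJ₀ : HJ (ResidueField ↥A) M q (P0 (ResidueField ↥A) M) (Fr_mem_P0_iff (ResidueField ↥A) M q))
    (hJ₁ : HJ (ResidueField ↥A) M q (P1 (ResidueField ↥A) M)
      (Fr_mem_P1_iff (ResidueField ↥A) M q)) :
    ∃ g gk : ℕ, RiemannHyp Kb ↥(modularFunctionFieldBar (M * q)) g ∧
      RiemannHyp (ResidueField ↥A) ↥(modularFunctionFieldFullC (ResidueField ↥A) M) gk ∧
      ∃ S : Finset (Place (ResidueField ↥A) ↥(modularFunctionFieldFullC (ResidueField ↥A) M)),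
      (∀ b ∈ S, Fr (ResidueField ↥A) M q (Fr (ResidueField ↥A) M q b) = b ∧
        b ∉ P0 (ResidueField ↥A) M) ∧
      (g : ℤ) + 1 ≤ gk + gk + S.card ∧
      ∀ h₁ h₂ : ↥(modularFunctionFieldFullC (ResidueField ↥A) M),
        h₁ ∈ regOff (P0 (ResidueField ↥A) M) → h₂ ∈ regOff (P0 (ResidueField ↥A) M) →
        ((h₁, h₂) ∈ Rbar0 G₁ G₂ (isPoleDiv_xE hqM).nonneg ↔
          ∀ b ∈ S, ∃ c : ResidueField ↥A,
            HasValue (Fr (ResidueField ↥A) M q b) h₁ c ∧ HasValue b h₂ c) := by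
  obtain ⟨g, gk, HL, Hk⟩ := exists_genera M q A
  exact ⟨g, gk, HL, Hk, exists_nodes hqM hA d HL Hk hJ₀ hJ₁⟩

end Fermat.Agent.S34.EulerInputsX0
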