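/-
PROJECT U (S34) / S35, `k`-side: **the residue degree `f₂ = q`**.

`κ = modularFunctionFieldFullC k N`, `k` perfect of characteristic `q`, `phi : κ → κ` the `k`-linear
Frobenius pull-back of `S34/FrobK` (`g(t) ↦ g(t^q)`).  The second Gauss extension `V₂` of
`ℚ̄(X₀(Mq))` over the Gauss ring of `ℚ̄(X₀(M))` has residue field `κ` seen as an extension of `κ`
THROUGH `phi` (`red₂ ∘ α = phi ∘ red_M`).  Its degree is `q`:

* abstract: `K / k(x)` separable algebraic, `k` perfect, `char K = q`, `x` not a `q`-th power
  `⟹ [K : K^q] = q` and `1, x, …, x^(q-1)` generate (`finrank_powSubfield`);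
* `finrank_phi` : `finrank` of `κ` over `κ` via `phi` is `q`
  (the hypothesis `hdim` of `OrthoTrace.red_trace'` / `OrthoNorm.red_norm'` at `X₀(Mq)`:
  `1 + q = [ℚ̄(X₀(Mq)) : ℚ̄(X₀(M))]`).
-/
import Mathlib
import Fermat.Agent.S34.FrobK
import Fermat.Agent.S18.B.SeparableFk

set_option autoImplicit false
set_option linter.unusedSectionVars false
set_option linter.style.haveILetI false

noncomputable section

namespace Fermat.Agent.S34.FrobDegree

open Polynomial IntermediateField

/-! ### abstract part -/

section Abstract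

variable {K : Type*} [Field K] (q : ℕ) [hq : Fact q.Prime] [CharP K q]

/-- the subfield `K^q` of `q`-th powers -/
def powSubfield : Subfield K := (frobenius K q).fieldRange

theorem mem_powSubfield_iff {y : K} : y ∈ powSubfield (K := K) q ↔ ∃ z : K, z ^ q = y := by
  unfold powSubfield
  rw [RingHom.mem_fieldRange]
  simp only [frobenius_def]

theorem pow_mem_powSubfield (z : K) : z ^ q ∈ powSubfield (K := K) q :=
  (mem_powSubfield_iff q).mpr ⟨z, rfl⟩

variable {k : Type*} [Field k] [PerfectField k] [Algebra k K]

include hq in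
/-- constants of a perfect subfield are `q`-th powers -/
theorem algebraMap_mem_powSubfield (c : k) : algebraMap k K c ∈ powSubfield (K := K) q := by
  haveI : CharP k q := (RingHom.charP_iff (algebraMap k K) (algebraMap k K).injective q).mpr inferInstance
  haveI : ExpChar k q := ExpChar.prime hq.out
  haveI : PerfectRing k q := PerfectField.toPerfectRing q
  obtain ⟨d, hd⟩ := surjective_frobenius k q c
  rw [frobenius_def] at hd
  rw [mem_powSubfield_iff]
  exact ⟨algebraMap k K d, by rw [← map_pow, hd]⟩

/-- **`K = K^q(x)`** when `K / k(x)` is separable and `k` is perfect -/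
theorem adjoin_powSubfield_eq_top (x : K) [Algebra.IsSeparable k⟮x⟯ K] :
    (powSubfield (K := K) q)⟮x⟯ = ⊤ := by
  set E : IntermediateField (powSubfield (K := K) q) K := (powSubfield (K := K) q)⟮x⟯ with hE
  have hK0 : ∀ y : K, y ∈ powSubfield (K := K) q → y ∈ E := fun y hy =>
    E.algebraMap_mem ⟨y, hy⟩
  have hincl : ∀ c : k⟮x⟯, algebraMap k⟮x⟯ K c ∈ E := by
    intro c
    have hle : (k⟮x⟯).toSubfield ≤ E.toSubfield := by
      rw [IntermediateField.adjoin_toSubfield, Subfield.closure_le]
      rintro y (⟨c, rfl⟩ | hy)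
      · exact hK0 _ (algebraMap_mem_powSubfield q c)
      · rw [Set.mem_singleton_iff] at hy
        rw [hy]
        exact mem_adjoin_simple_self _ x
    exact hle c.2
  let f : k⟮x⟯ →+* E := (algebraMap k⟮x⟯ K).codRestrict E hincl
  letI : Algebra k⟮x⟯ E := f.toAlgebra
  haveI : IsScalarTower k⟮x⟯ E K := IsScalarTower.of_algebraMap_eq (fun c => rfl)
  haveI : Algebra.IsSeparable E K := Algebra.isSeparable_tower_top_of_isSeparable k⟮x⟯ E K
  haveI : CharP E q := (RingHom.charP_iff (algebraMap E K) (algebraMap E K).injective q).mpr inferInstance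
  haveI : ExpChar E q := ExpChar.prime hq.out
  haveI : IsPurelyInseparable E K := by
    rw [isPurelyInseparable_iff_pow_mem E q]
    intro y
    refine ⟨1, ⟨⟨y ^ q, hK0 _ (pow_mem_powSubfield q y)⟩, ?_⟩⟩
    rw [pow_one]
    rfl
  have hsurj := IsPurelyInseparable.surjective_algebraMap_of_isSeparable E K
  rw [eq_top_iff]
  intro y _
  obtain ⟨e, rfl⟩ := hsurj y
  exact e.2

/-- **`[K : K^q] = q`** -/
theorem finrank_powSubfield (x : K) [Algebra.IsSeparable k⟮x⟯ K] (hx : ∀ y : K, y ^ q ≠ x) :
    Module.finrank (powSubfield (K := K) q) K = q := by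
  set a : powSubfield (K := K) q := ⟨x ^ q, pow_mem_powSubfield q x⟩ with ha
  have hirr : Irreducible (X ^ q - C a) := by
    refine X_pow_sub_C_irreducible_of_prime hq.out (fun b hb => ?_)
    obtain ⟨z, hz⟩ := (mem_powSubfield_iff q).mp b.2
    have h1 : ((b : K)) ^ q = x ^ q := by
      have := congrArg (fun t : powSubfield (K := K) q => (t : K)) hb
      simpa [ha] using this
    have h2 : (b : K) = x := by
      exact frobenius_inj K q (by simpa only [frobenius_def] using h1)
    exact hx z (by rw [hz, h2])
  have hmon : (X ^ q - C a).Monic := monic_X_pow_sub_C a hq.out.ne_zero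
  have haev : aeval x (X ^ q - C a) = 0 := by
    rw [map_sub, map_pow, aeval_X, aeval_C]
    show x ^ q - x ^ q = 0
    exact sub_self _
  have hint : IsIntegral (powSubfield (K := K) q) x := ⟨_, hmon, haev⟩
  have hmin : minpoly (powSubfield (K := K) q) x = X ^ q - C a :=
    (minpoly.eq_of_irreducible_of_monic hirr haev hmon).symm
  rw [← IntermediateField.finrank_top', ← adjoin_powSubfield_eq_top (k := k) q x,
    IntermediateField.adjoin.finrank hint, hmin, natDegree_X_pow_sub_C]

/-- an element outside `K^q` generates `K` over `K^q` when `[K : K^q] = q` -/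
theorem irreducible_X_pow_sub_C_of_not_mem {z : K} (hz : z ∉ powSubfield (K := K) q) :
    Irreducible (X ^ q - C (⟨z ^ q, pow_mem_powSubfield q z⟩ : powSubfield (K := K) q)) := by
  refine X_pow_sub_C_irreducible_of_prime hq.out (fun b hb => hz ?_)
  have h1 : ((b : K)) ^ q = z ^ q := by
    have := congrArg (fun t : powSubfield (K := K) q => (t : K)) hb
    simpa using this
  have h2 : (b : K) = z := frobenius_inj K q (by simpa only [frobenius_def] using h1)
  rw [← h2]
  exact b.2

theorem minpoly_of_not_mem {z : K} (hz : z ∉ powSubfield (K := K) q) :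
    minpoly (powSubfield (K := K) q) z
      = X ^ q - C (⟨z ^ q, pow_mem_powSubfield q z⟩ : powSubfield (K := K) q) := by
  refine (minpoly.eq_of_irreducible_of_monic (irreducible_X_pow_sub_C_of_not_mem q hz) ?_
    (monic_X_pow_sub_C _ hq.out.ne_zero)).symm
  rw [map_sub, map_pow, aeval_X, aeval_C]
  show z ^ q - z ^ q = 0
  exact sub_self _

theorem isIntegral_powSubfield (z : K) : IsIntegral (powSubfield (K := K) q) z := by
  refine ⟨X ^ q - C (⟨z ^ q, pow_mem_powSubfield q z⟩ : powSubfield (K := K) q),
    monic_X_pow_sub_C _ hq.out.ne_zero, ?_⟩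
  rw [← aeval_def, map_sub, map_pow, aeval_X, aeval_C]
  show z ^ q - z ^ q = 0
  exact sub_self _

/-- a power basis `1, z, …, z^(q-1)` of `K / K^q` for every `z ∉ K^q`, when `[K : K^q] = q` -/
theorem exists_powerBasis (hfin : Module.finrank (powSubfield (K := K) q) K = q) {z : K}
    (hz : z ∉ powSubfield (K := K) q) :
    ∃ pb : PowerBasis (powSubfield (K := K) q) K, pb.gen = z ∧ pb.dim = q := by
  haveI : FiniteDimensional (powSubfield (K := K) q) K :=
    Module.finite_of_finrank_pos (by rw [hfin]; exact hq.out.pos)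
  have hint := isIntegral_powSubfield q z
  have htop : (powSubfield (K := K) q)⟮z⟯ = ⊤ := by
    refine IntermediateField.eq_of_le_of_finrank_eq le_top ?_
    rw [IntermediateField.adjoin.finrank hint, minpoly_of_not_mem q hz, natDegree_X_pow_sub_C,
      IntermediateField.finrank_top', hfin]
  let e : (powSubfield (K := K) q)⟮z⟯ ≃ₐ[powSubfield (K := K) q] K :=
    (IntermediateField.equivOfEq htop).trans IntermediateField.topEquiv
  refine ⟨(IntermediateField.adjoin.powerBasis hint).map e, ?_, ?_⟩
  · rw [PowerBasis.map_gen, IntermediateField.adjoin.powerBasis_gen]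
    rfl
  · rw [PowerBasis.map_dim, IntermediateField.adjoin.powerBasis_dim, minpoly_of_not_mem q hz,
      natDegree_X_pow_sub_C]

/-- **the norm of `K / K^q` is the `q`-th power** -/
theorem norm_powSubfield (hfin : Module.finrank (powSubfield (K := K) q) K = q) (z : K) :
    ((Algebra.norm (powSubfield (K := K) q) z : powSubfield (K := K) q) : K) = z ^ q := by
  by_cases hz : z ∈ powSubfield (K := K) q
  · have h1 : z = algebraMap (powSubfield (K := K) q) K ⟨z, hz⟩ := rfl
    rw [h1, Algebra.norm_algebraMap, hfin]
    rfl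
  · obtain ⟨pb, hgen, hdim⟩ := exists_powerBasis q hfin hz
    have h := Algebra.PowerBasis.norm_gen_eq_coeff_zero_minpoly pb
    rw [hgen, hdim, minpoly_of_not_mem q hz] at h
    rw [h, coeff_sub, coeff_X_pow, coeff_C_zero, if_neg hq.out.ne_zero.symm, zero_sub]
    have h2 : ((-1 : powSubfield (K := K) q)) ^ q = -1 := by
      haveI : CharP (powSubfield (K := K) q) q :=
        (RingHom.charP_iff (algebraMap (powSubfield (K := K) q) K)
          (algebraMap (powSubfield (K := K) q) K).injective q).mpr inferInstance
      exact neg_one_pow_char _ q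
    rw [h2, neg_one_mul, neg_neg]

/-- **the trace of `K / K^q` vanishes** -/
theorem trace_powSubfield (hfin : Module.finrank (powSubfield (K := K) q) K = q) (z : K) :
    Algebra.trace (powSubfield (K := K) q) K z = 0 := by
  by_cases hz : z ∈ powSubfield (K := K) q
  · have h1 : z = algebraMap (powSubfield (K := K) q) K ⟨z, hz⟩ := rfl
    rw [h1, Algebra.trace_algebraMap, hfin]
    haveI : CharP (powSubfield (K := K) q) q :=
      (RingHom.charP_iff (algebraMap (powSubfield (K := K) q) K)
        (algebraMap (powSubfield (K := K) q) K).injective q).mpr inferInstance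
    rw [nsmul_eq_mul, CharP.cast_eq_zero, zero_mul]
  · obtain ⟨pb, hgen, hdim⟩ := exists_powerBasis q hfin hz
    have h := pb.trace_gen_eq_nextCoeff_minpoly
    rw [hgen, minpoly_of_not_mem q hz] at h
    rw [h, neg_eq_zero, nextCoeff_of_natDegree_pos (by rw [natDegree_X_pow_sub_C]; exact hq.out.pos),
      natDegree_X_pow_sub_C, coeff_sub, coeff_X_pow, coeff_C,
      if_neg (Nat.sub_one_lt hq.out.ne_zero).ne, if_neg (by have := hq.out.two_le; omega), sub_zero]

end Abstract

/-! ### the instance `κ = modularFunctionFieldFullC k N` -/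

section Kappa

open ModularCurve Fermat.Agent.S34.FrobK
open Fermat.Agent.S18.B.FkBasics (jk)

variable (k : Type*) [Field k] (N : ℕ) [NeZero N]
variable (q : ℕ) [hq : Fact q.Prime] [CharP k q] [PerfectField k]

/-- `κ` has characteristic `q` -/
theorem charP_kappa : CharP ↥(modularFunctionFieldFullC k N) q :=
  charP_of_injective_algebraMap (algebraMap k ↥(modularFunctionFieldFullC k N)).injective q

/-- `j` is not a `q`-th power in `κ` -/
theorem pow_ne_jk (y : ↥(modularFunctionFieldFullC k N)) : y ^ q ≠ jk k N := by
  intro h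
  have h1 := congrArg (fun t : ↥(modularFunctionFieldFullC k N) => (t : LaurentSeries k)) h
  simp only [Fermat.Agent.S18.B.FkBasics.coe_jk] at h1
  have h2 : ((y ^ q : ↥(modularFunctionFieldFullC k N)) : LaurentSeries k)
      = (y : LaurentSeries k) ^ q := rfl
  rw [h2] at h1
  have h3 := Fermat.Agent.S18.B.SeparableFk.thetaL_pow_char q (y : LaurentSeries k)
  rw [h1] at h3
  exact Fermat.Agent.S28.ThetaAdjoin.thetaL_jqModC_ne_zero k h3

/-- the range of `phi` is `κ^q` -/
theorem fieldRange_phi :
    haveI := charP_kappa k N q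
    (phi k N q : ↥(modularFunctionFieldFullC k N) →+* ↥(modularFunctionFieldFullC k N)).fieldRange
      = powSubfield (K := ↥(modularFunctionFieldFullC k N)) q := by
  haveI := charP_kappa k N q
  ext y
  rw [RingHom.mem_fieldRange, mem_powSubfield_iff]
  constructor
  · rintro ⟨g, rfl⟩
    exact ⟨psi k N q g, (phi_eq_pow k N q g).symm⟩
  · rintro ⟨z, rfl⟩
    refine ⟨(psi k N q).symm z, ?_⟩
    show phi k N q ((psi k N q).symm z) = z ^ q
    rw [phi_eq_pow, RingEquiv.apply_symm_apply]

/-- **`[κ : κ^q] = q`** -/
theorem finrank_powSubfield_kappa :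
    haveI := charP_kappa k N q
    Module.finrank (powSubfield (K := ↥(modularFunctionFieldFullC k N)) q)
      ↥(modularFunctionFieldFullC k N) = q := by
  haveI := charP_kappa k N q
  haveI := Fermat.Agent.S18.B.SeparableFk.isSeparable_jk k N
  exact finrank_powSubfield (k := k) q (jk k N) (pow_ne_jk k N q)

/-- `phi` as a ring isomorphism onto `κ^q` -/
def phiEquiv :
    haveI := charP_kappa k N q
    ↥(modularFunctionFieldFullC k N) ≃+*
      ↥(powSubfield (K := ↥(modularFunctionFieldFullC k N)) q) :=
  haveI := charP_kappa k N q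
  RingEquiv.ofBijective
    ((phi k N q : ↥(modularFunctionFieldFullC k N) →+* ↥(modularFunctionFieldFullC k N)).codRestrict
      (powSubfield (K := ↥(modularFunctionFieldFullC k N)) q)
      (fun g => by rw [← fieldRange_phi k N q]; exact ⟨g, rfl⟩))
    ⟨fun a b h => phi_injective k N q (congrArg Subtype.val h),
     fun y => by
      have hy : (y : ↥(modularFunctionFieldFullC k N)) ∈
          (phi k N q : ↥(modularFunctionFieldFullC k N) →+*
            ↥(modularFunctionFieldFullC k N)).fieldRange := by
        rw [fieldRange_phi k N q]; exact y.2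
      obtain ⟨g, hg⟩ := hy
      exact ⟨g, Subtype.ext hg⟩⟩

theorem coe_phiEquiv (g : ↥(modularFunctionFieldFullC k N)) :
    haveI := charP_kappa k N q
    ((phiEquiv k N q g : ↥(powSubfield (K := ↥(modularFunctionFieldFullC k N)) q)) :
      ↥(modularFunctionFieldFullC k N)) = phi k N q g := rfl

/-- **The residue degree `f₂ = q`**: `κ` has dimension `q` over `κ` acting through `phi`. -/
theorem finrank_phi :
    @Module.finrank ↥(modularFunctionFieldFullC k N) ↥(modularFunctionFieldFullC k N) _ _
      (RingHom.toAlgebra (phi k N q : ↥(modularFunctionFieldFullC k N) →+*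
        ↥(modularFunctionFieldFullC k N))).toModule = q := by
  haveI := charP_kappa k N q
  refine Eq.trans ?_ (finrank_powSubfield_kappa k N q)
  exact @Algebra.finrank_eq_of_equiv_equiv ↥(modularFunctionFieldFullC k N)
    ↥(modularFunctionFieldFullC k N) _ _
    (RingHom.toAlgebra (phi k N q : ↥(modularFunctionFieldFullC k N) →+*
        ↥(modularFunctionFieldFullC k N)))
    ↥(powSubfield (K := ↥(modularFunctionFieldFullC k N)) q) ↥(modularFunctionFieldFullC k N)
    _ _ _ (phiEquiv k N q) (RingEquiv.refl _) (RingHom.ext fun g => rfl)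

/-! ### `κ` as an extension of `κ` through `phi`: the residue field of the second Gauss extension -/

/-- `κ` as an algebra over `κ` THROUGH `phi` (type synonym) -/
def KappaPhi (k : Type*) [Field k] (N : ℕ) [NeZero N] (_q : ℕ) : Type _ :=
  ↥(modularFunctionFieldFullC k N)

instance instFieldKappaPhi : Field (KappaPhi k N q) :=
  inferInstanceAs (Field ↥(modularFunctionFieldFullC k N))

instance instAlgebraKappaPhi : Algebra ↥(modularFunctionFieldFullC k N) (KappaPhi k N q) :=
  RingHom.toAlgebra (phi k N q : ↥(modularFunctionFieldFullC k N) →+*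
    ↥(modularFunctionFieldFullC k N))

instance instAlgebraConstKappaPhi : Algebra k (KappaPhi k N q) :=
  inferInstanceAs (Algebra k ↥(modularFunctionFieldFullC k N))

/-- the identity `κ → KappaPhi` -/
def toKappaPhi : ↥(modularFunctionFieldFullC k N) ≃+* KappaPhi k N q := RingEquiv.refl _

theorem algebraMap_kappaPhi (g : ↥(modularFunctionFieldFullC k N)) :
    algebraMap ↥(modularFunctionFieldFullC k N) (KappaPhi k N q) g
      = toKappaPhi k N q (phi k N q g) := rfl

instance instIsScalarTowerKappaPhi :
    IsScalarTower k ↥(modularFunctionFieldFullC k N) (KappaPhi k N q) :=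
  IsScalarTower.of_algebraMap_eq (fun c => by
    show algebraMap k ↥(modularFunctionFieldFullC k N) c
      = phi k N q (algebraMap k ↥(modularFunctionFieldFullC k N) c)
    rw [phi_algebraMap])

/-- **`[KappaPhi : κ] = q`** -/
theorem finrank_kappaPhi :
    Module.finrank ↥(modularFunctionFieldFullC k N) (KappaPhi k N q) = q :=
  finrank_phi k N q

instance instFiniteDimensionalKappaPhi :
    FiniteDimensional ↥(modularFunctionFieldFullC k N) (KappaPhi k N q) :=
  Module.finite_of_finrank_pos (by rw [finrank_kappaPhi]; exact hq.out.pos)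

/-- the compatibility square of `phiEquiv` -/
theorem phiEquiv_comp :
    haveI := charP_kappa k N q
    (algebraMap ↥(powSubfield (K := ↥(modularFunctionFieldFullC k N)) q)
        ↥(modularFunctionFieldFullC k N)).comp (phiEquiv k N q : _ →+* _)
      = ((toKappaPhi k N q).symm : KappaPhi k N q →+* ↥(modularFunctionFieldFullC k N)).comp
          (algebraMap ↥(modularFunctionFieldFullC k N) (KappaPhi k N q)) :=
  RingHom.ext fun _ => rfl

/-- **the norm of `KappaPhi / κ`** is the inverse of `psi` (the coefficientwise `q`-th power):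
`phi (N z) = z^q`. -/
theorem norm_kappaPhi (z : KappaPhi k N q) :
    Algebra.norm ↥(modularFunctionFieldFullC k N) z
      = (psi k N q).symm ((toKappaPhi k N q).symm z) := by
  haveI := charP_kappa k N q
  rw [Algebra.norm_eq_of_equiv_equiv (phiEquiv k N q) (toKappaPhi k N q).symm
    (phiEquiv_comp k N q) z, RingEquiv.symm_apply_eq]
  apply Subtype.ext
  rw [norm_powSubfield q (finrank_powSubfield_kappa k N q), coe_phiEquiv, phi_eq_pow,
    RingEquiv.apply_symm_apply]

/-- `phi (N z) = z^q` -/
theorem phi_norm_kappaPhi (z : KappaPhi k N q) :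
    phi k N q (Algebra.norm ↥(modularFunctionFieldFullC k N) z)
      = ((toKappaPhi k N q).symm z) ^ q := by
  rw [norm_kappaPhi, phi_eq_pow, RingEquiv.apply_symm_apply]

/-- **the trace of `KappaPhi / κ` vanishes** (purely inseparable) -/
theorem trace_kappaPhi (z : KappaPhi k N q) :
    Algebra.trace ↥(modularFunctionFieldFullC k N) (KappaPhi k N q) z = 0 := by
  haveI := charP_kappa k N q
  rw [Algebra.trace_eq_of_equiv_equiv (phiEquiv k N q) (toKappaPhi k N q).symm
    (phiEquiv_comp k N q) z, trace_powSubfield q (finrank_powSubfield_kappa k N q), map_zero]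

end Kappa

end Fermat.Agent.S34.FrobDegree
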