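/-
PROJECT U / S35, slice U-GaussPairDecomp: **decomposition-group equivariance of the two Gauss data
`(V₁, red₁)`, `(V₂, red₂)` of `ℚ̄(X₀(M q))`** (`S34/GaussPairX0`).

For `g` in the decomposition group of `A` (a valuation subring of `ℚ̄` over `q ∤ M`), `σ_E` the
coefficientwise action of `g` on `E = ℚ̄(X₀(M q))` and `τ = resAut A g` the induced automorphism of
the residue field `k`:

* `smul_mem_V₁_iff_of_decomposition`, `smul_mem_V₂_iff_of_decomposition` : `σ_E x ∈ V_i ↔ x ∈ V_i`;
* `red₁_smul_decomposition : red₁ (σ_E x) = coeffAut k M τ • red₁ x`,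
  `red₂_smul_decomposition : red₂ (σ_E x) = coeffAut k M τ • red₂ x`
  (coefficientwise action of `τ` on `F_k(M) ⊆ k((t))`).

Proof: `V₁ = OwV A π (M q) (hasRepMul ..)`, so the first half is
`S37/Equivariance/GaussEquiv.redV_smul_decomposition` at level `M q`; the second half follows with
`WqGalois.smul_wq` (`w_q` commutes with the Galois action).
-/
import Mathlib
import Fermat.Agent.S34.GaussPairX0
import Fermat.Agent.S34.GaussPairBridge
import Fermat.Agent.S34.WqGalois
import Fermat.Agent.S37.Equivariance.GaussEquiv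

set_option autoImplicit false
set_option linter.unusedSectionVars false
set_option linter.style.haveILetI false

noncomputable section

namespace Fermat.Agent.S34.GaussPairDecomp

open Polynomial ModularCurve AlgebraicCurve IsLocalRing HahnSeries
open Fermat.Agent.S18.GaussFromH
open Fermat.Agent.S37.Gauss.Datum
open Fermat.Agent.S37.Equivariance.CoeffAut
open Fermat.Agent.S37.Equivariance.GaussEquiv
open Fermat.Agent.S34.TwoGaussX0
open Fermat.Agent.S34.GaussPairX0

local notation "Kb" => AlgebraicClosure ℚ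

variable {q : ℕ} [hq : Fact q.Prime] {M : ℕ} [NeZero M] {A : ValuationSubring Kb}
variable (hA : A.LiesOverPrime q) (hqM : ¬ q ∣ M) [NeZero q]

set_option synthInstance.maxHeartbeats 400000

variable (g : A.decompositionSubgroup ℚ)

/-- the decomposition group preserves `V₁` -/
theorem smul_mem_V₁_of_decomposition {x : ↥(modularFunctionFieldBar (M * q))}
    (hx : x ∈ V₁ hA hqM) :
    arithmeticGalois (modularFunctionFieldFull (M * q)) (g : Kb ≃ₐ[ℚ] Kb) • x ∈ V₁ hA hqM :=
  (redV_smul_decomposition A (M * q) (hasRepMul hA hqM) g ⟨x, hx⟩).1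

theorem smul_mem_V₁_iff_of_decomposition (x : ↥(modularFunctionFieldBar (M * q))) :
    arithmeticGalois (modularFunctionFieldFull (M * q)) (g : Kb ≃ₐ[ℚ] Kb) • x ∈ V₁ hA hqM ↔
      x ∈ V₁ hA hqM := by
  refine ⟨fun h => ?_, smul_mem_V₁_of_decomposition hA hqM g⟩
  have h1 : arithmeticGalois (modularFunctionFieldFull (M * q)) (g : Kb ≃ₐ[ℚ] Kb)⁻¹ •
      (arithmeticGalois (modularFunctionFieldFull (M * q)) (g : Kb ≃ₐ[ℚ] Kb) • x) ∈ V₁ hA hqM :=
    smul_mem_V₁_of_decomposition hA hqM g⁻¹ h
  have h2 : arithmeticGalois (modularFunctionFieldFull (M * q)) (g : Kb ≃ₐ[ℚ] Kb)⁻¹ •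
      (arithmeticGalois (modularFunctionFieldFull (M * q)) (g : Kb ≃ₐ[ℚ] Kb) • x) = x := by
    rw [map_inv, inv_smul_smul]
  rwa [h2] at h1

/-- `castK` commutes with the coefficientwise action -/
theorem castK_coeffAut (τ : RingAut (ResidueField ↥A))
    (y : ↥(modularFunctionFieldFullC (ResidueField ↥A) (M * q))) :
    castK hA (coeffAut (ResidueField ↥A) (M * q) τ • y) =
      coeffAut (ResidueField ↥A) M τ • castK hA y := by
  apply Subtype.ext
  have h1 : ((castK hA (coeffAut (ResidueField ↥A) (M * q) τ • y) :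
      ↥(modularFunctionFieldFullC (ResidueField ↥A) M)) : LaurentSeries (ResidueField ↥A)) =
      ((coeffAut (ResidueField ↥A) (M * q) τ • y :
        ↥(modularFunctionFieldFullC (ResidueField ↥A) (M * q))) :
          LaurentSeries (ResidueField ↥A)) := coe_castK hA _
  have h2 : ((coeffAut (ResidueField ↥A) (M * q) τ • y :
      ↥(modularFunctionFieldFullC (ResidueField ↥A) (M * q))) :
        LaurentSeries (ResidueField ↥A)) =
      coeffMap (τ : ResidueField ↥A →+* ResidueField ↥A) y.1 :=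
    coe_coeffAut_smul (ResidueField ↥A) (M * q) τ y
  have h3 : ((coeffAut (ResidueField ↥A) M τ • castK hA y :
      ↥(modularFunctionFieldFullC (ResidueField ↥A) M)) : LaurentSeries (ResidueField ↥A)) =
      coeffMap (τ : ResidueField ↥A →+* ResidueField ↥A) (castK hA y).1 :=
    coe_coeffAut_smul (ResidueField ↥A) M τ (castK hA y)
  have h4 : ((castK hA y : ↥(modularFunctionFieldFullC (ResidueField ↥A) M)) :
      LaurentSeries (ResidueField ↥A)) = y.1 := coe_castK hA y
  exact h1.trans (h2.trans ((congrArg (coeffMap (τ : ResidueField ↥A →+* ResidueField ↥A))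
    h4.symm).trans h3.symm))

/-- **`red₁ (σ_E x) = τ • red₁ x`** for the decomposition group -/
theorem red₁_smul_decomposition (x : ↥(V₁ hA hqM)) :
    red₁ hA hqM ⟨arithmeticGalois (modularFunctionFieldFull (M * q)) (g : Kb ≃ₐ[ℚ] Kb) • x.1,
      smul_mem_V₁_of_decomposition hA hqM g x.2⟩ =
      coeffAut (ResidueField ↥A) M (resAut A g) • red₁ hA hqM x := by
  obtain ⟨hf, h⟩ := redV_smul_decomposition A (M * q) (hasRepMul hA hqM) g x
  have h1 := congrArg (castK hA) h
  rw [castK_coeffAut] at h1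
  exact h1

/-! ### The second Gauss datum -/

/-- `w_q` (the choice of `GaussPairX0`) commutes with the Galois action -/
theorem smul_wq (σ : Kb ≃ₐ[ℚ] Kb) (x : ↥(modularFunctionFieldBar (M * q))) :
    arithmeticGalois (modularFunctionFieldFull (M * q)) σ • wq hqM x =
      wq hqM (arithmeticGalois (modularFunctionFieldFull (M * q)) σ • x) := by
  rw [Fermat.Agent.S34.GaussPairBridge.wq_eq hqM]
  exact Fermat.Agent.S34.WqGalois.smul_wq hq.out hqM σ x

theorem smul_mem_V₂_iff_of_decomposition (x : ↥(modularFunctionFieldBar (M * q))) :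
    arithmeticGalois (modularFunctionFieldFull (M * q)) (g : Kb ≃ₐ[ℚ] Kb) • x ∈ V₂ hA hqM ↔
      x ∈ V₂ hA hqM := by
  rw [mem_V₂_iff, mem_V₂_iff, ← smul_wq, smul_mem_V₁_iff_of_decomposition]

theorem smul_mem_V₂_of_decomposition {x : ↥(modularFunctionFieldBar (M * q))}
    (hx : x ∈ V₂ hA hqM) :
    arithmeticGalois (modularFunctionFieldFull (M * q)) (g : Kb ≃ₐ[ℚ] Kb) • x ∈ V₂ hA hqM :=
  (smul_mem_V₂_iff_of_decomposition hA hqM g x).mpr hx

/-- **`red₂ (σ_E x) = τ • red₂ x`** for the decomposition group -/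
theorem red₂_smul_decomposition (x : ↥(V₂ hA hqM)) :
    red₂ hA hqM ⟨arithmeticGalois (modularFunctionFieldFull (M * q)) (g : Kb ≃ₐ[ℚ] Kb) • x.1,
      smul_mem_V₂_of_decomposition hA hqM g x.2⟩ =
      coeffAut (ResidueField ↥A) M (resAut A g) • red₂ hA hqM x := by
  have h := red₁_smul_decomposition hA hqM g (wqV hA hqM x)
  have e : wqV hA hqM ⟨arithmeticGalois (modularFunctionFieldFull (M * q))
      (g : Kb ≃ₐ[ℚ] Kb) • x.1, smul_mem_V₂_of_decomposition hA hqM g x.2⟩ =
      ⟨arithmeticGalois (modularFunctionFieldFull (M * q)) (g : Kb ≃ₐ[ℚ] Kb) •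
        (wqV hA hqM x).1, smul_mem_V₁_of_decomposition hA hqM g (wqV hA hqM x).2⟩ :=
    Subtype.ext (smul_wq hqM _ x.1).symm
  show red₁ hA hqM (wqV hA hqM ⟨arithmeticGalois (modularFunctionFieldFull (M * q))
      (g : Kb ≃ₐ[ℚ] Kb) • x.1, smul_mem_V₂_of_decomposition hA hqM g x.2⟩) =
    coeffAut (ResidueField ↥A) M (resAut A g) • red₁ hA hqM (wqV hA hqM x)
  exact (congrArg (red₁ hA hqM) e).trans h

end Fermat.Agent.S34.GaussPairDecomp
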