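/-
PROJECT U (S34), ROUTE G (helper2): `GlueGNodal.glueG_of_inertia` in the vocabulary of
`S34/CoreZOfNodal.lean` (helper6): `g : SemilinearAut L FL` with the Prelude action on places and
divisors.

* `glueG_smul_sub` : `GlueG N (g • D - D)` for an inertia element `g` and a one-unit `u` of both
  Gauss rings with `div u = n D`, `deg D = 0`;
* `principal_of_inertia` : `g • D - D` is principal (= `CoreZOfNodal.principal_of_nodal` with its
  hypothesis `hglue` discharged): **(Core-Z) for the abstract nodal datum**.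
-/
import Mathlib
import Fermat.Agent.S34.GlueGNodal
import Fermat.Agent.S34.CoreZOfNodal

set_option autoImplicit false
set_option linter.unusedSectionVars false
set_option linter.unusedVariables false

namespace Fermat.Agent.S34.GlueGSemilinear

open AlgebraicCurve Fermat.Agent.S34.NodalDefs Fermat.Agent.S34.NodalCore
open Fermat.Agent.S18.CoreDefs (RiemannGe)
open Fermat.Agent.S34.KummerZ Fermat.Agent.S34.CoreZOfPrincipal Fermat.Agent.S34.CoreZOfNodal
open scoped Pointwise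

variable {L : Type*} [Field L] {k : Type*} [Field k]
variable {A : ValuationSubring L} {π : A →+* k}
variable {FL : Type*} [Field FL] [Algebra L FL]
variable {Fk : Type*} [Field Fk] [Algebra k Fk]

/-- an automorphism which preserves a branch and its reduction also reflects membership -/
theorem mem_of_smul_mem (R : Branch A π FL Fk) (g : SemilinearAut L FL)
    (hg : ∀ y : R.O, ∃ h : g • ((y : R.O) : FL) ∈ R.O, R.red ⟨_, h⟩ = R.red y)
    (y : FL) (hy : g • y ∈ R.O) : y ∈ R.O := by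
  by_contra hcon
  have hy0 : y ≠ 0 := fun h => hcon (h ▸ R.O.zero_mem)
  have hinv : y⁻¹ ∈ R.O := (R.O.mem_or_inv_mem y).resolve_left hcon
  -- `y⁻¹` is a non-unit of `O`
  have hnu : ¬ IsUnit (⟨y⁻¹, hinv⟩ : R.O) := by
    rintro ⟨v, hv⟩
    apply hcon
    have h1 : ((v : R.O) : FL) = y⁻¹ := by rw [hv]
    have h2 : ((v : R.O) : FL) * ((↑(v⁻¹) : R.O) : FL) = 1 := by
      have h0 : ((v : R.O) * (↑(v⁻¹) : R.O) : R.O) = 1 := Units.mul_inv v
      exact congrArg (fun z : R.O => (z : FL)) h0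
    rw [h1] at h2
    have h3 : ((↑(v⁻¹) : R.O) : FL) = y := by
      have := eq_inv_of_mul_eq_one_right h2
      rwa [inv_inv] at this
    rw [← h3]
    exact ((↑(v⁻¹) : R.O)).2
  obtain ⟨h', hred⟩ := hg ⟨y⁻¹, hinv⟩
  rw [(R.red_eq_zero_iff _).mpr hnu] at hred
  have hnu' : ¬ IsUnit (⟨g • y⁻¹, h'⟩ : R.O) := (R.red_eq_zero_iff _).mp hred
  apply hnu'
  have hgy0 : g • y ≠ 0 := by
    intro h0
    apply hy0
    have := congrArg (fun x => g⁻¹ • x) h0
    simpa using this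
  refine ⟨⟨⟨g • y⁻¹, h'⟩, ⟨g • y, hy⟩, ?_, ?_⟩, rfl⟩
  · apply Subtype.ext
    show g • y⁻¹ * g • y = 1
    rw [← smul_mul', inv_mul_cancel₀ hy0, smul_one]
  · apply Subtype.ext
    show g • y * g • y⁻¹ = 1
    rw [← smul_mul', mul_inv_cancel₀ hy0, smul_one]

variable {F1 : Type*} [Field F1] [Algebra k F1] {F2 : Type*} [Field F2] [Algebra k F2]
variable {ι : Type*}

/-- **GlueG for `g • D - D`**, `g` an inertia element. -/
theorem glueG_smul_sub [HasPrincipalDivisors L FL] [Fintype ι] [Nonempty ι]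
    (N : GNodalDatum A π FL F1 F2 ι) (hdegL : ∀ P : Place L FL, P.deg = 1)
    (hdeg1 : ∀ e, (N.e1 e).deg = 1) (hdeg2 : ∀ e, (N.e2 e).deg = 1)
    (hadmfin : ∀ S1 S2, N.Adm S1 S2 → S1.Finite ∧ S2.Finite)
    (hπ : Function.Surjective π) (n : ℕ) (hn : n ≠ 0)
    (x1 : N.R1.O)
    (hunram1 : {Q : Place k F1 | ¬ ∃ γ : k, Q.ord (N.R1.red x1 - algebraMap k F1 γ) = 1}.Finite)
    (x2 : N.R2.O)
    (hunram2 : {Q : Place k F2 | ¬ ∃ γ : k, Q.ord (N.R2.red x2 - algebraMap k F2 γ) = 1}.Finite)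
    {g1 m2 : ℕ} (hR : RiemannGe L FL (g1 + m2)) (hG : NodalRigid k F1 F2 N.e2 g1 m2)
    (g : SemilinearAut L FL)
    (hg1 : ∀ y : N.R1.O, ∃ h : g • ((y : N.R1.O) : FL) ∈ N.R1.O, N.R1.red ⟨_, h⟩ = N.R1.red y)
    (hg2 : ∀ y : N.R2.O, ∃ h : g • ((y : N.R2.O) : FL) ∈ N.R2.O, N.R2.red ⟨_, h⟩ = N.R2.red y)
    (hr1 : ∀ P : Place L FL, N.R1.r (g • P) = N.R1.r P)
    (hr2 : ∀ P : Place L FL, N.R2.r (g • P) = N.R2.r P)
    {u : FL} (hu1 : u ∈ N.R1.O) (hu2 : u ∈ N.R2.O)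
    (hred1 : N.R1.red ⟨u, hu1⟩ = 1) (hred2 : N.R2.red ⟨u, hu2⟩ = 1)
    (D : Divisor L FL) (hD0 : Divisor.degree D = 0) (hD : ∀ P : Place L FL, P.ord u = n * D P) :
    GlueG N (g • D - D) := by
  obtain ⟨f1, hf1⟩ := isUnit_of_red_eq_one N.R1.toBranch _ hred1
  obtain ⟨f2, hf2⟩ := isUnit_of_red_eq_one N.R2.toBranch _ hred2
  have e1 : ((f1 : N.R1.O) : FL) = u := by rw [hf1]
  have e2 : ((f2 : N.R2.O) : FL) = u := by rw [hf2]
  have hu0 : u ≠ 0 := by
    rintro rfl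
    have hz : (⟨0, hu1⟩ : N.R1.O) = 0 := rfl
    rw [hz, map_zero] at hred1
    exact zero_ne_one hred1
  have hgu : g • u ≠ 0 := by
    intro h0
    apply hu0
    have := congrArg (fun x => g⁻¹ • x) h0
    simpa using this
  refine Fermat.Agent.S34.GlueGNodal.glueG_of_inertia N hdegL hdeg1 hdeg2 hadmfin hπ n hn
    x1 hunram1 x2 hunram2 hR hG (SemilinearAut.toRingAut g) (fun P => g⁻¹ • P) ?_ ?_ ?_ ?_ ?_
    ?_ ?_ D hD0 f1 f2 (e1.trans e2.symm) (by rw [hf1]; exact hred1) (by rw [hf2]; exact hred2)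
    (fun P => by rw [e1]; exact hD P) (g • D - D) ?_
  · intro P y
    rw [SemilinearAut.smul_toValuationSubring,
      ValuationSubring.mem_pointwise_smul_iff_inv_smul_mem, inv_inv]
    rfl
  · intro y h
    exact hg1 ⟨y, h⟩
  · intro y h
    exact mem_of_smul_mem N.R1.toBranch g hg1 y h
  · intro y h
    exact hg2 ⟨y, h⟩
  · intro y h
    exact mem_of_smul_mem N.R2.toBranch g hg2 y h
  · intro P
    have := hr1 (g⁻¹ • P)
    rw [smul_inv_smul] at this
    exact this.symm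
  · intro P
    have := hr2 (g⁻¹ • P)
    rw [smul_inv_smul] at this
    exact this.symm
  · intro P
    rw [e1]
    show P.ord (g • u / u) = n * (g • D - D) P
    rw [ord_div' P hgu hu0, ord_smul_eq, hD, hD, Finsupp.sub_apply,
      SemilinearAut.divisor_smul_apply]
    ring

/-- **(Core-Z) for the abstract nodal datum**: for an inertia element `g` and a one-unit `u` of
both Gauss rings with `div u = n D`, `deg D = 0`, `n` invertible in `k`, the divisor `g • D - D`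
is principal. -/
theorem principal_of_inertia [HasPrincipalDivisors L FL] [HasPrincipalDivisors k F1]
    [HasPrincipalDivisors k F2] [Fintype ι] [Nonempty ι]
    (N : GNodalDatum A π FL F1 F2 ι) (hdegL : ∀ P : Place L FL, P.deg = 1)
    (hdeg1 : ∀ e, (N.e1 e).deg = 1) (hdeg2 : ∀ e, (N.e2 e).deg = 1)
    (hadmfin : ∀ S1 S2, N.Adm S1 S2 → S1.Finite ∧ S2.Finite)
    (hπ : Function.Surjective π) (n : ℕ) (hnk : (n : k) ≠ 0)
    (x1 : N.R1.O)
    (hunram1 : {Q : Place k F1 | ¬ ∃ γ : k, Q.ord (N.R1.red x1 - algebraMap k F1 γ) = 1}.Finite)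
    (x2 : N.R2.O)
    (hunram2 : {Q : Place k F2 | ¬ ∃ γ : k, Q.ord (N.R2.red x2 - algebraMap k F2 γ) = 1}.Finite)
    {g1 m2 : ℕ} (hR : RiemannGe L FL (g1 + m2)) (hG : NodalRigid k F1 F2 N.e2 g1 m2)
    (Pstar : Place L FL) (Qstar : Place k F1) (hQstar : Qstar ∈ N.R1.good)
    (hstar : N.R1.r Pstar = some Qstar)
    (g : SemilinearAut L FL)
    (hg1 : ∀ y : N.R1.O, ∃ h : g • ((y : N.R1.O) : FL) ∈ N.R1.O, N.R1.red ⟨_, h⟩ = N.R1.red y)
    (hg2 : ∀ y : N.R2.O, ∃ h : g • ((y : N.R2.O) : FL) ∈ N.R2.O, N.R2.red ⟨_, h⟩ = N.R2.red y)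
    (hr1 : ∀ P : Place L FL, N.R1.r (g • P) = N.R1.r P)
    (hr2 : ∀ P : Place L FL, N.R2.r (g • P) = N.R2.r P)
    {u : FL} (hu1 : u ∈ N.R1.O) (hu2 : u ∈ N.R2.O)
    (hred1 : N.R1.red ⟨u, hu1⟩ = 1) (hred2 : N.R2.red ⟨u, hu2⟩ = 1)
    (D : Divisor L FL) (hD0 : Divisor.degree D = 0) (hD : ∀ P : Place L FL, P.ord u = n * D P) :
    g • D - D ∈ Divisor.principal (K := L) (F := FL) := by
  have hn : n ≠ 0 := by
    rintro rfl
    exact hnk (by simp)
  exact principal_of_nodal N hdegL hπ n hnk x1 hunram1 x2 hunram2 hR hG Pstar Qstar hQstar hstar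
    g hg1 hg2 hu1 hu2 hred1 hred2 D hD
    (glueG_smul_sub N hdegL hdeg1 hdeg2 hadmfin hπ n hn x1 hunram1 x2 hunram2 hR hG g hg1 hg2
      hr1 hr2 hu1 hu2 hred1 hred2 D hD0 hD)

end Fermat.Agent.S34.GlueGSemilinear
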