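/-
PROJECT U (S34), Route G, `k`-side: **the radical-ideal hypotheses `hJ₀`, `hJ₁` of
`Euler.ChartFullC.genus_le_of_charts_fullC`** (and of `EulerChartsX0.exists_nodes_X0`), from
`S34/HoloIdeal.lean`.

For `P = P0 k N` (the poles of `j̄`, chart 0) and `P = P1 k N` (the zeros of `j̄`, chart 1):
`P` is finite, nonempty and `Fr`-stable, hence `HoloIdeal.inf_mv_le_span` applies and gives
`ChartFullC.HJ k N q P _` literally.  The only hypothesis is `RiemannHyp k F_k gk`.

* `hJ_of_finite` : `HJ k N q P hP` for any finite nonempty `Fr`-stable `P`;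
* `finite_P0`, `finite_P1`, `nonempty_P0`, `nonempty_P1`;
* `hJ_P0`, `hJ_P1`.
-/
import Mathlib
import Fermat.Agent.S34.HoloIdeal
import Fermat.Agent.S34.Euler.ChartFullC
import Fermat.Agent.S34.NodalGeneric

set_option autoImplicit false
set_option linter.unusedSectionVars false
set_option linter.style.haveILetI false

noncomputable section

namespace Fermat.Agent.S34.HoloCharts

open AlgebraicCurve ModularCurve IntermediateField WithZero
open Fermat.Agent.S18.B.FkBasics (jk)
open Fermat.Agent.S34.FrobK Fermat.Agent.S34.HoloIdeal Fermat.Agent.S18.NonSpecial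
open Fermat.Agent.S34.Euler.FrobSide Fermat.Agent.S34.Euler.ChartFullC

variable (k : Type*) [Field k] (N : ℕ) [NeZero N]
variable (q : ℕ) [hq : Fact q.Prime] [CharP k q] [PerfectField k]
variable [HasPrincipalDivisors k ↥(modularFunctionFieldFullC k N)] [IsAlgClosed k]
variable {gk : ℕ} (hR : RiemannHyp k ↥(modularFunctionFieldFullC k N) gk)

include hR in
/-- the radical-ideal hypothesis for any finite nonempty `Fr`-stable set `P` -/
theorem hJ_of_finite (P : Set (Place k ↥(modularFunctionFieldFullC k N)))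
    (hP : ∀ w, Fr k N q w ∈ P ↔ w ∈ P) (hfin : P.Finite) (hne : P.Nonempty) :
    HJ k N q P hP := by
  classical
  obtain ⟨Q0, hQ0⟩ := hne
  intro w hw
  refine inf_mv_le_span k N q hR hQ0 hP hfin ?_
  rw [Submodule.mem_finsetInf]
  intro m hm
  obtain ⟨v, hv, rfl⟩ := Finset.mem_image.mp hm
  have hv' := (mem_fixedOff k N q).mp hv
  change w ∈ mv k N P v
  rw [mem_mv_iff k N hv'.2]
  exact hw v ((mem_Zfix k N q).mpr hv')

theorem finite_P0 : (P0 k N).Finite :=
  (finite_ord_ne_zero k N (jk_ne_zero k N)).subset fun _ hv => ne_of_lt hv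

theorem finite_P1 : (P1 k N).Finite :=
  (finite_ord_ne_zero k N (jk_ne_zero k N)).subset fun _ hv => ne_of_gt hv

include hR in
/-- `j̄` has a pole -/
theorem nonempty_P0 : (P0 k N).Nonempty := by
  by_contra hne
  rw [Set.not_nonempty_iff_eq_empty] at hne
  have hmem : jk k N ∈ riemannRochSpace (0 : Divisor k ↥(modularFunctionFieldFullC k N)) := by
    rw [mem_riemannRochSpace_iff]
    intro v
    right
    have hv : v ∉ P0 k N := by rw [hne]; exact Set.notMem_empty v
    have : 0 ≤ v.ord (jk k N) := not_lt.mp hv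
    simpa using this
  obtain ⟨c, hc⟩ := Fermat.Agent.S34.NodalGeneric.exists_const_of_mem_zero hR.ell_zero hmem
  have htr := Fermat.Agent.S18.B.FkBasics.transcendental_jk k N
  rw [hc] at htr
  exact htr (isAlgebraic_algebraMap c)

include hR in
/-- `j̄` has a zero -/
theorem nonempty_P1 : (P1 k N).Nonempty := by
  by_contra hne
  rw [Set.not_nonempty_iff_eq_empty] at hne
  have hmem : (jk k N)⁻¹ ∈
      riemannRochSpace (0 : Divisor k ↥(modularFunctionFieldFullC k N)) := by
    rw [mem_riemannRochSpace_iff]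
    intro v
    right
    have hv : v ∉ P1 k N := by rw [hne]; exact Set.notMem_empty v
    have : v.ord (jk k N) ≤ 0 := not_lt.mp hv
    rw [Place.ord_inv]
    simpa using this
  obtain ⟨c, hc⟩ := Fermat.Agent.S34.NodalGeneric.exists_const_of_mem_zero hR.ell_zero hmem
  have htr := Fermat.Agent.S18.B.FkBasics.transcendental_jk k N
  have hj : jk k N = algebraMap k ↥(modularFunctionFieldFullC k N) c⁻¹ := by
    rw [map_inv₀, ← hc, inv_inv]
  rw [hj] at htr
  exact htr (isAlgebraic_algebraMap c⁻¹)

include hR in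
/-- **`hJ₀`**: the radical-ideal hypothesis of chart 0 (off the cusps) -/
theorem hJ_P0 : HJ k N q (P0 k N) (Fr_mem_P0_iff k N q) :=
  hJ_of_finite k N q hR (P0 k N) (Fr_mem_P0_iff k N q) (finite_P0 k N) (nonempty_P0 k N hR)

include hR in
/-- **`hJ₁`**: the radical-ideal hypothesis of chart 1 (off the zeros of `j̄`) -/
theorem hJ_P1 : HJ k N q (P1 k N) (Fr_mem_P1_iff k N q) :=
  hJ_of_finite k N q hR (P1 k N) (Fr_mem_P1_iff k N q) (finite_P1 k N) (nonempty_P1 k N hR)

end Fermat.Agent.S34.HoloCharts
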