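/-
PROJECT U (S34), helper10: EVERY FUNCTION IS A QUOTIENT OF TWO FUNCTIONS WITH POLES AT ONE PLACE.

Answer to helper27 #2082 (G4) `hquot`.  From Riemann's inequality (`S18/NonSpecial.RiemannHyp`):

* `exists_ne_zero_mem_sub` : for every divisor `D` and place `Q₀` there is `f ≠ 0` with
  `ord_v f ≥ D v` for every `v ≠ Q₀` (all poles of `f` pushed to `Q₀`);
* `exists_regular_quotient` : every `h ≠ 0` is `g₁ / g₂` with `g₁, g₂ ≠ 0` regular at every place
  `v ≠ Q₀`; moreover `g₂` may be asked to vanish to any prescribed order (`E v`) off `Q₀`.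
-/
import Mathlib
import Fermat.Agent.S18.NonSpecial

set_option autoImplicit false

noncomputable section

namespace Fermat.Agent.S34.RegularQuotient

open AlgebraicCurve Fermat.Agent.S18.NonSpecial

universe u v

variable {K : Type u} {F : Type v} [Field K] [Field F] [Algebra K F]

/-- all poles can be pushed to one place: for every divisor `D` and place `Q₀` there is a nonzero
`f` with `ord_v f ≥ D v` for all `v ≠ Q₀`. -/
theorem exists_ne_zero_mem_sub {g : ℕ} (h : RiemannHyp K F g) (D : Divisor K F)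
    (Q₀ : Place K F) :
    ∃ f : F, f ≠ 0 ∧ ∀ v : Place K F, v ≠ Q₀ → D v ≤ v.ord f := by
  classical
  set m : ℕ := (Divisor.degree D + g).toNat with hm
  set D' : Divisor K F := Finsupp.single Q₀ (m : ℤ) - D with hD'
  have hdeg : Divisor.degree D' = (m : ℤ) - Divisor.degree D := by
    rw [hD', map_sub, Divisor.degree_single, h.deg_one Q₀]
    simp
  have hpos : 0 < ell D' := by
    have h1 := riemann_ineq h D'
    have h2 := Int.self_le_toNat (Divisor.degree D + g)
    rw [hdeg] at h1
    omega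
  have := h.finite D'
  have hnt : Nontrivial (riemannRochSpace D') := Module.nontrivial_of_finrank_pos hpos
  obtain ⟨f, hf⟩ := exists_ne (0 : riemannRochSpace D')
  have hf0 : (f : F) ≠ 0 := fun h0 => hf (Subtype.ext h0)
  refine ⟨f, hf0, fun v hv => ?_⟩
  have h1 := ((mem_riemannRochSpace_iff.mp f.2) v).resolve_left hf0
  have h2 : D' v = -D v := by
    rw [hD', Finsupp.sub_apply, Finsupp.single_apply, if_neg (Ne.symm hv), zero_sub]
  rw [h2] at h1
  omega

/-- **every function is a quotient of two functions regular off one place.**  `E` prescribes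
extra vanishing of the denominator (take `E = 0` for plain regularity). -/
theorem exists_regular_quotient {g : ℕ} (h : RiemannHyp K F g) [HasPrincipalDivisors K F]
    (Q₀ : Place K F) (E : Divisor K F) (hE : 0 ≤ E) {x : F} (hx : x ≠ 0) :
    ∃ g₁ g₂ : F, g₁ ≠ 0 ∧ g₂ ≠ 0 ∧ g₁ = g₂ * x ∧
      (∀ v : Place K F, v ≠ Q₀ → 0 ≤ v.ord g₁) ∧
      (∀ v : Place K F, v ≠ Q₀ → E v ≤ v.ord g₂) ∧
      (∀ v : Place K F, v ≠ Q₀ → 0 ≤ v.ord g₂) := by
  classical
  obtain ⟨P, hP, -⟩ := HasPrincipalDivisors.exists_divisor (K := K) x hx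
  -- the pole divisor of `x`, as `P⁻ = (-P) ⊔ 0`
  obtain ⟨f, hf0, hf⟩ := exists_ne_zero_mem_sub h (E + ((-P) ⊔ 0)) Q₀
  have hEv : ∀ v, 0 ≤ E v := fun v => by
    have := Finsupp.le_def.mp hE v
    simpa using this
  refine ⟨f * x, f, mul_ne_zero hf0 hx, hf0, rfl, fun v hv => ?_, fun v hv => ?_, fun v hv => ?_⟩
  · rw [v.ord_mul hf0 hx, ← hP v]
    have h1 := hf v hv
    rw [Finsupp.add_apply, Finsupp.sup_apply] at h1
    have h2 : -P v ≤ (-P) v ⊔ (0 : Divisor K F) v := le_sup_left
    have := hEv v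
    omega
  · have h1 := hf v hv
    rw [Finsupp.add_apply, Finsupp.sup_apply] at h1
    have h2 : (0 : ℤ) ≤ (-P) v ⊔ (0 : Divisor K F) v := le_sup_right
    omega
  · have h1 := hf v hv
    rw [Finsupp.add_apply, Finsupp.sup_apply] at h1
    have h2 : (0 : ℤ) ≤ (-P) v ⊔ (0 : Divisor K F) v := le_sup_right
    have := hEv v
    omega

end Fermat.Agent.S34.RegularQuotient
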