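/-
PROJECT U (S34), ROUTE G, final assembly helper (helper5):
`CoreZOfInertia.principal_of_inertia` (helper6: `GlueGNodal.glueG_of_inertia` fed into the nodal
core) SPECIALISED at `E = ℚ̄(X₀(M q))`, `κ = k(X₀(M)) = modularFunctionFieldFullC k M`
(`k` the residue field of a valuation subring `A ∣ q` of `ℚ̄`, `q ∤ M`).

Every hypothesis which does not concern the nodal datum or the inertia element is discharged
from results on main; each discharge is also exported as a separate lemma: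

* `hdegL_X0`, `hdegk_X0` : places of `E` and of `κ` have degree one;
* `hpk_X0` : `(p ^ e : k) ≠ 0` for a prime `p ≠ q`;
* `hunram_of_red_eq_jk` : the hypothesis `hunram_i` for `x_i` with `red_i x_i = j̄`;
* `one_le_card_of_hNC`, `nonempty_of_hNC` : (NC) forces the node set to be nonempty;
* `riemannGe_of_hNC` : Riemann's inequality on `E` at `g_k + (g_k + #ι - 1)`;
* `nodalRigid_X0` : `NodalRigid` with `g1 = g_k`, `m2 = g_k + #ι - 1` from injectivity of `e2`.

`principalHyp_of_datum` / `principalHyp_of_datum_finset`: the body of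
`CoreZX0OfPrincipal.PrincipalHyp` for an abstract nodal datum `N`.
-/
import Mathlib
import Fermat.Agent.S34.CoreZOfInertia
import Fermat.Agent.S34.NodalCoreX0

set_option autoImplicit false
set_option linter.unusedSectionVars false
set_option linter.style.haveILetI false
set_option synthInstance.maxHeartbeats 400000

noncomputable section

namespace Fermat.Agent.S34.NodalCoreX0Inertia

open AlgebraicCurve ModularCurve IsLocalRing
open Fermat.Agent.S34.NodalDefs Fermat.Agent.S18.NonSpecial Fermat.Agent.S34.NodalCoreX0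
open Fermat.Agent.S18.CoreDefs (RiemannGe)

local notation "Kb" => AlgebraicClosure ℚ

variable {q : ℕ} [hq : Fact q.Prime] {M : ℕ} [NeZero M] {A : ValuationSubring Kb}

/-! ### the separate discharges -/

/-- places of `ℚ̄(X₀(N))` have degree one -/
theorem hdegL_X0 (N : ℕ) [NeZero N] (P : Place Kb ↥(modularFunctionFieldBar N)) : P.deg = 1 :=
  Fermat.Agent.S24.Ord.deg_eq_one (Fermat.Agent.S24.Degree.isFF N) P

/-- places of `κ = k(X₀(M))` have degree one -/
theorem hdegk_X0 (A : ValuationSubring Kb) (M : ℕ) [NeZero M]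
    (Q : Place (ResidueField ↥A) ↥(modularFunctionFieldFullC (ResidueField ↥A) M)) :
    Q.deg = 1 := by
  haveI : IsAlgClosed (ResidueField ↥A) :=
    Fermat.Agent.S18.ResidueBasics.isAlgClosed_residueField A
  obtain ⟨gk, Hk⟩ := Fermat.Agent.S18.A.RiemannFk.exists_riemannHyp_Fk' (ResidueField ↥A) M
    (Fermat.Agent.S18.B.SeparableFk.isSeparable_jk (ResidueField ↥A) M)
  exact Hk.deg_one Q

/-- `(p ^ e : k) ≠ 0` for a prime `p ≠ q` -/
theorem hpk_X0 (hA : A.LiesOverPrime q) {p : ℕ} (hp : p.Prime) (hpq : p ≠ q) (e : ℕ) :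
    ((p ^ e : ℕ) : ResidueField ↥A) ≠ 0 :=
  natCast_pow_ne_zero hA hp hpq e

/-- `(p : k) ≠ 0` for a prime `p ≠ q` -/
theorem hpk_X0' (hA : A.LiesOverPrime q) {p : ℕ} (hp : p.Prime) (hpq : p ≠ q) :
    (p : ResidueField ↥A) ≠ 0 := by
  have h := natCast_pow_ne_zero hA hp hpq 1
  rwa [pow_one] at h

/-- the hypothesis `hunram` of the nodal core for a function reducing to `j̄` -/
theorem hunram_of_red_eq_jk
    {x : ↥(modularFunctionFieldFullC (ResidueField ↥A) M)}
    (hx : x = Fermat.Agent.S18.B.FkBasics.jk (ResidueField ↥A) M) :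
    {Q : Place (ResidueField ↥A) ↥(modularFunctionFieldFullC (ResidueField ↥A) M) |
      ¬ ∃ γ : ResidueField ↥A,
        Q.ord (x - algebraMap (ResidueField ↥A)
          ↥(modularFunctionFieldFullC (ResidueField ↥A) M) γ) = 1}.Finite :=
  finite_not_simple_of_eq_jk hx

section NC

variable [NeZero q] (hA : A.LiesOverPrime q) (hqM : ¬ q ∣ M) {g0 gk : ℕ}
  (HL : RiemannHyp Kb ↥(modularFunctionFieldBar (M * q)) g0)
  (Hk : RiemannHyp (ResidueField ↥A) ↥(modularFunctionFieldFullC (ResidueField ↥A) M) gk)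
  {ι : Type*} [Fintype ι] (hNC : (g0 : ℤ) + 1 ≤ gk + gk + Fintype.card ι)

include hA hqM HL Hk hNC

/-- (NC) forces `1 ≤ #ι` -/
theorem one_le_card_of_hNC : 1 ≤ Fintype.card ι :=
  one_le_card_of_nc hA hqM HL Hk hNC

/-- (NC) forces the node set to be nonempty -/
theorem nonempty_of_hNC : Nonempty ι :=
  Fintype.card_pos_iff.mp (by have := one_le_card_of_nc hA hqM HL Hk hNC; omega)

/-- Riemann's inequality on `E` at the arithmetic genus `g_k + (g_k + #ι - 1)` -/
theorem riemannGe_of_hNC :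
    RiemannGe Kb ↥(modularFunctionFieldBar (M * q)) (gk + (gk + Fintype.card ι - 1)) := by
  have hcard := one_le_card_of_nc hA hqM HL Hk hNC
  exact Fermat.Agent.S18.NonSpecialAdapter.riemannGe_of_riemannHyp HL (by omega)

end NC

/-- `NodalRigid` at `κ = k(X₀(M))` on both components, from injectivity of `e2` -/
theorem nodalRigid_X0 {gk : ℕ}
    (Hk : RiemannHyp (ResidueField ↥A) ↥(modularFunctionFieldFullC (ResidueField ↥A) M) gk)
    {ι : Type*} [Fintype ι] [Nonempty ι]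
    (e2 : ι → Place (ResidueField ↥A) ↥(modularFunctionFieldFullC (ResidueField ↥A) M))
    (he2 : Function.Injective e2) :
    NodalRigid (ResidueField ↥A) ↥(modularFunctionFieldFullC (ResidueField ↥A) M)
      ↥(modularFunctionFieldFullC (ResidueField ↥A) M) e2 gk (gk + Fintype.card ι - 1) :=
  Fermat.Agent.S34.NodalRigidOfRiemann.nodalRigid Hk Hk e2 he2

/-! ### (Core-Z) at `X₀(M q)` for an abstract nodal datum -/

/-- **(Core-Z) at `E = ℚ̄(X₀(M q))` for an abstract nodal datum**: the body of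
`CoreZX0OfPrincipal.PrincipalHyp`, from the nodal datum `N`, injectivity of `N.e2`, finiteness of
admissible sets, (NC), the functions `x_i` with `red_i x_i = j̄`, a type-1 place and the inertia
hypotheses on `g`. -/
theorem principalHyp_of_datum [NeZero q] (hA : A.LiesOverPrime q) (hqM : ¬ q ∣ M)
    {ι : Type*} [Fintype ι]
    (N : GNodalDatum A (residue ↥A) ↥(modularFunctionFieldBar (M * q))
      ↥(modularFunctionFieldFullC (ResidueField ↥A) M)
      ↥(modularFunctionFieldFullC (ResidueField ↥A) M) ι)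
    (he2 : Function.Injective N.e2)
    (hadmfin : ∀ S1 S2, N.Adm S1 S2 → S1.Finite ∧ S2.Finite) {g0 gk : ℕ}
    (HL : RiemannHyp Kb ↥(modularFunctionFieldBar (M * q)) g0)
    (Hk : RiemannHyp (ResidueField ↥A) ↥(modularFunctionFieldFullC (ResidueField ↥A) M) gk)
    (hNC : (g0 : ℤ) + 1 ≤ gk + gk + Fintype.card ι)
    (x1 : N.R1.O) (hx1 : N.R1.red x1 = Fermat.Agent.S18.B.FkBasics.jk (ResidueField ↥A) M)
    (x2 : N.R2.O) (hx2 : N.R2.red x2 = Fermat.Agent.S18.B.FkBasics.jk (ResidueField ↥A) M)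
    (Pstar : Place Kb ↥(modularFunctionFieldBar (M * q)))
    (Qstar : Place (ResidueField ↥A) ↥(modularFunctionFieldFullC (ResidueField ↥A) M))
    (hQstar : Qstar ∈ N.R1.good) (hstar : N.R1.r Pstar = some Qstar)
    {p : ℕ} (hp : p.Prime) (hpq : p ≠ q)
    (g : SemilinearAut Kb ↥(modularFunctionFieldBar (M * q)))
    (hg1 : ∀ y : N.R1.O, ∃ h : g • ((y : N.R1.O) : ↥(modularFunctionFieldBar (M * q))) ∈ N.R1.O,
      N.R1.red ⟨_, h⟩ = N.R1.red y)
    (hg1' : ∀ y : ↥(modularFunctionFieldBar (M * q)), g • y ∈ N.R1.O → y ∈ N.R1.O)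
    (hg2 : ∀ y : N.R2.O, ∃ h : g • ((y : N.R2.O) : ↥(modularFunctionFieldBar (M * q))) ∈ N.R2.O,
      N.R2.red ⟨_, h⟩ = N.R2.red y)
    (hg2' : ∀ y : ↥(modularFunctionFieldBar (M * q)), g • y ∈ N.R2.O → y ∈ N.R2.O)
    (hr1 : ∀ P : Place Kb ↥(modularFunctionFieldBar (M * q)), N.R1.r (g • P) = N.R1.r P)
    (hr2 : ∀ P : Place Kb ↥(modularFunctionFieldBar (M * q)), N.R2.r (g • P) = N.R2.r P)
    {u : ↥(modularFunctionFieldBar (M * q))} (hu1 : u ∈ N.R1.O) (hu2 : u ∈ N.R2.O)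
    (hred1 : N.R1.red ⟨u, hu1⟩ = 1) (hred2 : N.R2.red ⟨u, hu2⟩ = 1) (e : ℕ)
    (D : Divisor Kb ↥(modularFunctionFieldBar (M * q))) (hD0 : Divisor.degree D = 0)
    (hD : ∀ P : Place Kb ↥(modularFunctionFieldBar (M * q)),
      P.ord u = ((p ^ e : ℕ) : ℤ) * D P) :
    g • D - D ∈ Divisor.principal (K := Kb) (F := ↥(modularFunctionFieldBar (M * q))) := by
  haveI := Fermat.Agent.S18.A.Instances.hasPrincipalDivisors_bar (M * q)
  haveI := Fermat.Agent.S37.ReductionInputs.hasPrincipalDivisors_Fk A M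
  haveI : Nonempty ι := nonempty_of_hNC hA hqM HL Hk hNC
  exact Fermat.Agent.S34.CoreZOfInertia.principal_of_inertia N (hdegL_X0 (M * q))
    (fun e => Hk.deg_one (N.e1 e)) (fun e => Hk.deg_one (N.e2 e)) hadmfin
    residue_surjective (p ^ e) (hpk_X0 hA hp hpq e)
    x1 (hunram_of_red_eq_jk hx1) x2 (hunram_of_red_eq_jk hx2)
    (riemannGe_of_hNC hA hqM HL Hk hNC) (nodalRigid_X0 Hk N.e2 he2)
    Pstar Qstar hQstar hstar g hg1 hg1' hg2 hg2' hr1 hr2 hu1 hu2 hred1 hred2 D hD0 hD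

/-- the same for a node set given as a `Finset` of places of `κ` (the shape produced by
`S34/Euler/Chart` and consumed by `S34/PcgOfSandwich`): (NC) reads `g + 1 ≤ 2 g_k + #S`. -/
theorem principalHyp_of_datum_finset [NeZero q] (hA : A.LiesOverPrime q) (hqM : ¬ q ∣ M)
    (S : Finset (Place (ResidueField ↥A) ↥(modularFunctionFieldFullC (ResidueField ↥A) M)))
    (N : GNodalDatum A (residue ↥A) ↥(modularFunctionFieldBar (M * q))
      ↥(modularFunctionFieldFullC (ResidueField ↥A) M)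
      ↥(modularFunctionFieldFullC (ResidueField ↥A) M) {b // b ∈ S})
    (he2 : Function.Injective N.e2)
    (hadmfin : ∀ S1 S2, N.Adm S1 S2 → S1.Finite ∧ S2.Finite) {g0 gk : ℕ}
    (HL : RiemannHyp Kb ↥(modularFunctionFieldBar (M * q)) g0)
    (Hk : RiemannHyp (ResidueField ↥A) ↥(modularFunctionFieldFullC (ResidueField ↥A) M) gk)
    (hNC : (g0 : ℤ) + 1 ≤ gk + gk + S.card)
    (x1 : N.R1.O) (hx1 : N.R1.red x1 = Fermat.Agent.S18.B.FkBasics.jk (ResidueField ↥A) M)
    (x2 : N.R2.O) (hx2 : N.R2.red x2 = Fermat.Agent.S18.B.FkBasics.jk (ResidueField ↥A) M)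
    (Pstar : Place Kb ↥(modularFunctionFieldBar (M * q)))
    (Qstar : Place (ResidueField ↥A) ↥(modularFunctionFieldFullC (ResidueField ↥A) M))
    (hQstar : Qstar ∈ N.R1.good) (hstar : N.R1.r Pstar = some Qstar)
    {p : ℕ} (hp : p.Prime) (hpq : p ≠ q)
    (g : SemilinearAut Kb ↥(modularFunctionFieldBar (M * q)))
    (hg1 : ∀ y : N.R1.O, ∃ h : g • ((y : N.R1.O) : ↥(modularFunctionFieldBar (M * q))) ∈ N.R1.O,
      N.R1.red ⟨_, h⟩ = N.R1.red y)
    (hg1' : ∀ y : ↥(modularFunctionFieldBar (M * q)), g • y ∈ N.R1.O → y ∈ N.R1.O)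
    (hg2 : ∀ y : N.R2.O, ∃ h : g • ((y : N.R2.O) : ↥(modularFunctionFieldBar (M * q))) ∈ N.R2.O,
      N.R2.red ⟨_, h⟩ = N.R2.red y)
    (hg2' : ∀ y : ↥(modularFunctionFieldBar (M * q)), g • y ∈ N.R2.O → y ∈ N.R2.O)
    (hr1 : ∀ P : Place Kb ↥(modularFunctionFieldBar (M * q)), N.R1.r (g • P) = N.R1.r P)
    (hr2 : ∀ P : Place Kb ↥(modularFunctionFieldBar (M * q)), N.R2.r (g • P) = N.R2.r P)
    {u : ↥(modularFunctionFieldBar (M * q))} (hu1 : u ∈ N.R1.O) (hu2 : u ∈ N.R2.O)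
    (hred1 : N.R1.red ⟨u, hu1⟩ = 1) (hred2 : N.R2.red ⟨u, hu2⟩ = 1) (e : ℕ)
    (D : Divisor Kb ↥(modularFunctionFieldBar (M * q))) (hD0 : Divisor.degree D = 0)
    (hD : ∀ P : Place Kb ↥(modularFunctionFieldBar (M * q)),
      P.ord u = ((p ^ e : ℕ) : ℤ) * D P) :
    g • D - D ∈ Divisor.principal (K := Kb) (F := ↥(modularFunctionFieldBar (M * q))) := by
  have hNC' : (g0 : ℤ) + 1 ≤ gk + gk + Fintype.card {b // b ∈ S} := by
    rw [Fintype.card_coe]
    exact hNC
  exact principalHyp_of_datum hA hqM N he2 hadmfin HL Hk hNC' x1 hx1 x2 hx2 Pstar Qstar hQstar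
    hstar hp hpq g hg1 hg1' hg2 hg2' hr1 hr2 hu1 hu2 hred1 hred2 e D hD0 hD

end Fermat.Agent.S34.NodalCoreX0Inertia
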