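import Mathlib
import Fermat.Agent.S34.NodalDefs
import Fermat.Agent.S34.NodalDisc
import Fermat.Agent.S34.NodalCore
import Fermat.Agent.S18.Core

/-!
# PROJECT U (S34): the count-free LOCAL GENERATOR at all nodes (Route G)

`exists_localGen`: in the setting of `NodalCore.effective_liftG` but WITHOUT any gluing hypothesis
on `D`: Riemann on `FL` at the arithmetic genus `g1 + m2`, the rigid generic divisors
`∑ Q1`, `∑ Q2` on the two components and pole control (`pcg`) give a function `y` which is a unit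
of BOTH Gauss rings, with `div y + D + ∑ P01 + ∑ P02 ≥ 0`, whose reduction on the first component
is a NONZERO CONSTANT `γ`, and whose reduction on the second component has `p`-th power of value
`γ ^ p` at every node: `y` is a local generator of `L(D + E)` at all nodes at once
(helper6 #2140 (1), adopted by helper2 #2151).
-/

set_option autoImplicit false
set_option linter.unusedSectionVars false
set_option linter.unusedVariables false

namespace Fermat.Agent.S34.NodalLocalGen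

open AlgebraicCurve Fermat.Agent.S24.Ord Fermat.Agent.S34.NodalDefs Fermat.Agent.S34.NodalDisc
  Fermat.Agent.S34.NodalCore
open Fermat.Agent.S18.CoreDefs (RiemannGe)
open Fermat.Agent.S18.CoreOrd hiding coe_unit_ne_zero red_unit_ne_zero unitOfRed coe_unitOfRed constO
  coe_constO red_constO isUnit_iff_red_ne_zero exists_div_unit ord_red_nonneg le_ord_red
  ord_red_eq_zero exists_unique_zero

variable {L : Type*} [Field L] {FL : Type*} [Field FL] [Algebra L FL]
variable {k : Type*} [Field k] {F1 : Type*} [Field F1] [Algebra k F1]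
  {F2 : Type*} [Field F2] [Algebra k F2]
variable {A : ValuationSubring L} {π : A →+* k} {ι : Type*}

/-- **The local generator**: Riemann on `FL`, rigidity on the two components and pole control,
without any gluing hypothesis. -/
theorem exists_localGen [HasPrincipalDivisors L FL] [Fintype ι] [Nonempty ι]
    (N : GNodalDatum A π FL F1 F2 ι) (hdegL : ∀ P : Place L FL, P.deg = 1)
    (p : ℕ) (hp : p ≠ 0) {g1 m2 : ℕ} (hR : RiemannGe L FL (g1 + m2))
    (Q1 : Fin g1 → Place k F1) (Q2 : Fin m2 → Place k F2)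
    (hQ1 : Function.Injective Q1) (hQ2 : Function.Injective Q2)
    (hQ1g : ∀ i, Q1 i ∈ N.R1.good) (hQ2g : ∀ j, Q2 j ∈ N.R2.good)
    (hrig1 : ∀ y : F1, y ∈ riemannRochSpace (∑ i, Finsupp.single (Q1 i) (1 : ℤ)) →
      ∃ c : k, y = algebraMap k F1 c)
    (hrig2 : ∀ y : F2, y ∈ riemannRochSpace (∑ i, Finsupp.single (Q2 i) (1 : ℤ)) →
      (∀ e, y = 0 ∨ 0 < (N.e2 e).ord y) → y = 0)
    (P01 : Fin g1 → Place L FL) (P02 : Fin m2 → Place L FL)
    (hP01 : ∀ i, N.R1.r (P01 i) = some (Q1 i)) (hP02 : ∀ j, N.R2.r (P02 j) = some (Q2 j))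
    (D : Divisor L FL) (hD0 : Divisor.degree D = 0)
    (f1 : N.R1.Oˣ) (f2 : N.R2.Oˣ) (hf12 : ((f1 : N.R1.O) : FL) = ((f2 : N.R2.O) : FL))
    (hred1 : N.R1.red (f1 : N.R1.O) = 1) (hred2 : N.R2.red (f2 : N.R2.O) = 1)
    (hfD : ∀ P : Place L FL, P.ord ((f1 : N.R1.O) : FL) = p * D P) :
    ∃ (u1 : N.R1.Oˣ) (u2 : N.R2.Oˣ) (γ : k), γ ≠ 0 ∧
      ((u1 : N.R1.O) : FL) = ((u2 : N.R2.O) : FL) ∧
      N.R1.red (u1 : N.R1.O) = algebraMap k F1 γ ∧
      (∀ P : Place L FL, 0 ≤ P.ord ((u1 : N.R1.O) : FL) + D P +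
        ((∑ i, Finsupp.single (P01 i) (1 : ℤ)) P + (∑ j, Finsupp.single (P02 j) (1 : ℤ)) P)) ∧
      N.R2.red (u2 : N.R2.O) ∈ riemannRochSpace (∑ j, Finsupp.single (Q2 j) (1 : ℤ)) ∧
      ∀ e, HasValue (N.e2 e) (N.R2.red (u2 : N.R2.O) ^ p) (γ ^ p) := by
  classical
  have hp0 : (p : ℤ) ≠ 0 := by exact_mod_cast hp
  have hppos : (0 : ℤ) < p := by exact_mod_cast Nat.pos_of_ne_zero hp
  set B : Divisor L FL := (∑ i, Finsupp.single (P01 i) (1 : ℤ)) +
    ∑ j, Finsupp.single (P02 j) (1 : ℤ) with hB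
  have hdegB : Divisor.degree B = ((g1 + m2 : ℕ) : ℤ) := by
    rw [hB, map_add, Fermat.Agent.S18.Core.degree_sum_single hdegL,
      Fermat.Agent.S18.Core.degree_sum_single hdegL]
    push_cast
    ring
  obtain ⟨y, hy, hyL⟩ := hR (D + B) (by rw [map_add, hD0, hdegB, zero_add])
  obtain ⟨Dy, hDy, hDydeg⟩ := HasPrincipalDivisors.exists_divisor (K := L) y hy
  set E : Divisor L FL := Dy + D + B with hE
  have hEnonneg : ∀ P : Place L FL, 0 ≤ E P := by
    intro P
    rcases (mem_riemannRochSpace_iff.mp hyL) P with h | h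
    · exact absurd h hy
    · rw [hE, Finsupp.add_apply, Finsupp.add_apply, hDy]
      rw [Finsupp.add_apply] at h
      omega
  have hdegE : Divisor.degree E = ((g1 + m2 : ℕ) : ℤ) := by
    rw [hE, map_add, map_add, hDydeg, hD0, hdegB]
    ring
  obtain ⟨a1, ha1, u1, hyu1⟩ := N.R1.exists_const_mul_unit y hy
  obtain ⟨a2, ha2, u2, hyu2⟩ := N.R2.exists_const_mul_unit y hy
  have hordu1 : ∀ P : Place L FL, P.ord ((u1 : N.R1.O) : FL) = Dy P := by
    intro P
    rw [hDy, hyu1, ord_const_mul P ha1]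
  have hordu2 : ∀ P : Place L FL, P.ord ((u2 : N.R2.O) : FL) = Dy P := by
    intro P
    rw [hDy, hyu2, ord_const_mul P ha2]
  have hDt1 : ∀ P : Place L FL,
      p * P.ord ((u1 : N.R1.O) : FL) + P.ord ((f1 : N.R1.O) : FL) = p * (E - B) P := by
    intro P
    rw [hordu1, hfD, hE, Finsupp.sub_apply, Finsupp.add_apply, Finsupp.add_apply]
    ring
  have hDt2 : ∀ P : Place L FL,
      p * P.ord ((u2 : N.R2.O) : FL) + P.ord ((f2 : N.R2.O) : FL) = p * (E - B) P := by
    intro P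
    rw [hordu2, ← hf12, hfD, hE, Finsupp.sub_apply, Finsupp.add_apply, Finsupp.add_apply]
    ring
  have hB1 : ∀ Q : Place k F1, Finsupp.mapDomain N.R1.r B (some Q) =
      (∑ i, Finsupp.single (Q1 i) (1 : ℤ)) Q :=
    fun Q => mapDomain_base1 N Q1 Q2 P01 P02 hP01 hP02 Q
  have hB2 : ∀ Q : Place k F2, Finsupp.mapDomain N.R2.r B (some Q) =
      (∑ j, Finsupp.single (Q2 j) (1 : ℤ)) Q :=
    fun Q => mapDomain_base2 N Q1 Q2 P01 P02 hP01 hP02 Q
  have hy1 : ∀ Q ∈ N.R1.good, Q.ord (N.R1.red (u1 : N.R1.O)) =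
      Finsupp.mapDomain N.R1.r E (some Q) - (∑ i, Finsupp.single (Q1 i) (1 : ℤ)) Q := by
    intro Q hQ
    rw [smooth_ord N.R1 p hp0 u1 f1 hred1 (E - B) hDt1 Q hQ, Finsupp.mapDomain_sub,
      Finsupp.sub_apply, hB1]
  have hy2 : ∀ Q ∈ N.R2.good, Q.ord (N.R2.red (u2 : N.R2.O)) =
      Finsupp.mapDomain N.R2.r E (some Q) - (∑ j, Finsupp.single (Q2 j) (1 : ℤ)) Q := by
    intro Q hQ
    rw [smooth_ord N.R2 p hp0 u2 f2 hred2 (E - B) hDt2 Q hQ, Finsupp.mapDomain_sub,
      Finsupp.sub_apply, hB2]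
  have hEr1 : ∀ Q : Place k F1, 0 ≤ Finsupp.mapDomain N.R1.r E (some Q) :=
    fun Q => mapDomain_nonneg _ E _ (fun P _ => hEnonneg P)
  have hEr2 : ∀ Q : Place k F2, 0 ≤ Finsupp.mapDomain N.R2.r E (some Q) :=
    fun Q => mapDomain_nonneg _ E _ (fun P _ => hEnonneg P)
  -- the admissible pair
  obtain ⟨S1, S2, hadm, hT1, hT2⟩ := N.exists_adm (Set.range Q1) (Set.range Q2)
    (Set.finite_range _) (Set.finite_range _) (by rintro _ ⟨i, rfl⟩; exact hQ1g i)
    (by rintro _ ⟨j, rfl⟩; exact hQ2g j)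
  obtain ⟨hS1g, hS2g⟩ := N.adm_subset_good S1 S2 hadm
  have hpole : ∀ P : Place L FL, (E - B) P < 0 →
      (∃ Q ∈ S1, N.R1.r P = some Q) ∨ (∃ Q ∈ S2, N.R2.r P = some Q) := by
    intro P hP
    have hBP : 0 < B P := by
      have := hEnonneg P
      rw [Finsupp.sub_apply] at hP
      omega
    rw [hB, Finsupp.add_apply] at hBP
    by_cases h1 : ∃ i, P01 i = P
    · obtain ⟨i, rfl⟩ := h1
      exact Or.inl ⟨Q1 i, hT1 ⟨i, rfl⟩, hP01 i⟩
    · by_cases h2 : ∃ j, P02 j = P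
      · obtain ⟨j, rfl⟩ := h2
        exact Or.inr ⟨Q2 j, hT2 ⟨j, rfl⟩, hP02 j⟩
      · push Not at h1 h2
        rw [sum_single_apply_of_notMem' P01 P h1, sum_single_apply_of_notMem' P02 P h2] at hBP
        omega
  have hu10 : ((u1 : N.R1.O) : FL) ≠ 0 := coe_unit_ne_zero N.R1.toBranch u1
  have hu20 : ((u2 : N.R2.O) : FL) ≠ 0 := coe_unit_ne_zero N.R2.toBranch u2
  have hf10 : ((f1 : N.R1.O) : FL) ≠ 0 := coe_unit_ne_zero N.R1.toBranch f1
  -- the orders of `u1 ^ p * f1`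
  have hordG : ∀ P : Place L FL,
      P.ord (((u1 : N.R1.O) : FL) ^ p * ((f1 : N.R1.O) : FL)) = p * (E - B) P := by
    intro P
    rw [P.ord_mul (pow_ne_zero _ hu10) hf10, ord_pow, hDt1 P]
  have hyy : algebraMap L FL a1 * ((u1 : N.R1.O) : FL) = algebraMap L FL a2 * ((u2 : N.R2.O) : FL) := by
    rw [← hyu1, ← hyu2]
  have hAa1 : algebraMap L FL a1 ≠ 0 := (map_ne_zero_iff _ (algebraMap L FL).injective).mpr ha1
  have hAa2 : algebraMap L FL a2 ≠ 0 := (map_ne_zero_iff _ (algebraMap L FL).injective).mpr ha2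
  have hpoleG : ∀ P : Place L FL,
      P.ord (((u1 : N.R1.O) : FL) ^ p * ((f1 : N.R1.O) : FL)) < 0 →
      (∃ Q ∈ S1, N.R1.r P = some Q) ∨ (∃ Q ∈ S2, N.R2.r P = some Q) := by
    intro P hP
    rw [hordG] at hP
    exact hpole P (by by_contra hcon; rw [not_lt] at hcon; nlinarith)
  -- the reductions
  have hu1red0 : N.R1.red (u1 : N.R1.O) ≠ 0 := red_unit_ne_zero N.R1.toBranch u1
  have hu2red0 : N.R2.red (u2 : N.R2.O) ≠ 0 := red_unit_ne_zero N.R2.toBranch u2
  have hordpow1 : ∀ Q : Place k F1, Q.ord (N.R1.red (u1 : N.R1.O) ^ p) =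
      p * Q.ord (N.R1.red (u1 : N.R1.O)) := fun Q => ord_pow Q _ p
  have hordpow2 : ∀ Q : Place k F2, Q.ord (N.R2.red (u2 : N.R2.O) ^ p) =
      p * Q.ord (N.R2.red (u2 : N.R2.O)) := fun Q => ord_pow Q _ p
  -- trichotomy
  rcases lt_trichotomy (A.valuation a2) (A.valuation a1) with hlt | heq | hgt
  · -- `v₂(y) > v₁(y)`: impossible
    exfalso
    have hτA : a2 / a1 ∈ A := div_mem_of_valuation_le ha1 hlt.le
    have hπτ := pi_div_eq_zero N.R2.toBranch ha1 hlt hτA
    set h1 : N.R1.O := ((u1 ^ p * f1 : N.R1.Oˣ) : N.R1.O) with hh1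
    set h2 : N.R2.O := constHom N.R2.toBranch ⟨a2 / a1, hτA⟩ ^ p *
      ((u2 ^ p * f2 : N.R2.Oˣ) : N.R2.O) with hh2
    have hh1coe : ((h1 : N.R1.O) : FL) = ((u1 : N.R1.O) : FL) ^ p * ((f1 : N.R1.O) : FL) := by
      rw [hh1, Units.val_mul, Units.val_pow_eq_pow_val, MulMemClass.coe_mul,
        SubmonoidClass.coe_pow]
    have hh12 : ((h1 : N.R1.O) : FL) = ((h2 : N.R2.O) : FL) := by
      rw [hh1coe, hh2, Units.val_mul, Units.val_pow_eq_pow_val, MulMemClass.coe_mul,
        MulMemClass.coe_mul, SubmonoidClass.coe_pow, SubmonoidClass.coe_pow, coe_constHom,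
        ← hf12]
      have : ((u1 : N.R1.O) : FL) = algebraMap L FL (a2 / a1) * ((u2 : N.R2.O) : FL) := by
        rw [map_div₀]
        field_simp
        linear_combination hyy
      rw [this, mul_pow]
      ring
    have hred2h : N.R2.red h2 = 0 := by
      rw [hh2, map_mul, map_pow, red_constHom, hπτ, map_zero, zero_pow hp, zero_mul]
    have hred1h : N.R1.red h1 = N.R1.red (u1 : N.R1.O) ^ p := by
      rw [hh1, Units.val_mul, Units.val_pow_eq_pow_val, map_mul, map_pow, hred1, mul_one]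
    obtain ⟨hreg1, -, hgl⟩ := N.pcg S1 S2 hadm h1 h2 hh12 (by rw [hh1coe]; exact hpoleG)
    have hmem : N.R1.red (u1 : N.R1.O) ∈
        riemannRochSpace (∑ i, Finsupp.single (Q1 i) (1 : ℤ)) := by
      refine mem_L_of_bounds Q1 N.R1.good _ (fun Q hQ => ?_) (fun Q hQ => ?_)
      · rw [hy1 Q hQ]
        have := hEr1 Q
        omega
      · have h := hreg1 Q (fun hQS => hQ (hS1g hQS))
        rw [hred1h, hordpow1] at h
        exact le_of_mul_le_mul_left (by simpa using h) hppos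
    obtain ⟨c, hc⟩ := hrig1 _ hmem
    obtain ⟨e⟩ := ‹Nonempty ι›
    obtain ⟨γ, hγ1, hγ2⟩ := hgl e
    rw [hred2h] at hγ2
    have hγ0 : γ = 0 := hasValue_zero _ hγ2
    rw [hγ0, hred1h, hc, ← map_pow] at hγ1
    have := hasValue_const _ hγ1
    have hc0 : c = 0 := by
      have h0 : c ^ p = 0 := this.symm
      exact pow_eq_zero_iff hp |>.mp h0
    apply hu1red0
    rw [hc, hc0, map_zero]
  · -- the main case `v₁(y) = v₂(y)`
    have hτA : a2 / a1 ∈ A := div_mem_of_valuation_le ha1 heq.le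
    have hπτ := pi_div_ne_zero N.R2.toBranch ha1 heq hτA
    -- the unit of `O₂` equal to `u1`
    set z : N.R2.O := constHom N.R2.toBranch ⟨a2 / a1, hτA⟩ * (u2 : N.R2.O) with hz
    have hzred : N.R2.red z = algebraMap k F2 (π ⟨a2 / a1, hτA⟩) * N.R2.red (u2 : N.R2.O) := by
      rw [hz, map_mul, red_constHom]
    have hzred0 : N.R2.red z ≠ 0 := by
      rw [hzred]
      exact mul_ne_zero ((map_ne_zero_iff _ (algebraMap k F2).injective).mpr hπτ) hu2red0
    set u2' : N.R2.Oˣ := unitOfRed N.R2.toBranch z hzred0 with hu2'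
    have hu2'val : ((u2' : N.R2.Oˣ) : N.R2.O) = z := coe_unitOfRed N.R2.toBranch z hzred0
    have hu12 : ((u1 : N.R1.O) : FL) = ((u2' : N.R2.O) : FL) := by
      rw [hu2'val, hz, MulMemClass.coe_mul, coe_constHom]
      show ((u1 : N.R1.O) : FL) = algebraMap L FL (a2 / a1) * ((u2 : N.R2.O) : FL)
      rw [map_div₀]
      field_simp
      linear_combination hyy
    have hordz : ∀ Q : Place k F2, Q.ord (N.R2.red z) = Q.ord (N.R2.red (u2 : N.R2.O)) := by
      intro Q
      rw [hzred, ord_const_mul Q hπτ]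
    -- pole control for `u1 ^ p * f1 = u2' ^ p * f2`
    set h1 : N.R1.O := ((u1 ^ p * f1 : N.R1.Oˣ) : N.R1.O) with hh1
    set h2 : N.R2.O := ((u2' ^ p * f2 : N.R2.Oˣ) : N.R2.O) with hh2
    have hh1coe : ((h1 : N.R1.O) : FL) = ((u1 : N.R1.O) : FL) ^ p * ((f1 : N.R1.O) : FL) := by
      rw [hh1, Units.val_mul, Units.val_pow_eq_pow_val, MulMemClass.coe_mul,
        SubmonoidClass.coe_pow]
    have hh12 : ((h1 : N.R1.O) : FL) = ((h2 : N.R2.O) : FL) := by
      rw [hh1coe, hh2, Units.val_mul, Units.val_pow_eq_pow_val, MulMemClass.coe_mul,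
        SubmonoidClass.coe_pow, ← hf12, ← hu12]
    have hred1h : N.R1.red h1 = N.R1.red (u1 : N.R1.O) ^ p := by
      rw [hh1, Units.val_mul, Units.val_pow_eq_pow_val, map_mul, map_pow, hred1, mul_one]
    have hred2h : N.R2.red h2 = N.R2.red z ^ p := by
      rw [hh2, Units.val_mul, Units.val_pow_eq_pow_val, map_mul, map_pow, hred2, mul_one,
        hu2'val]
    obtain ⟨hreg1, hreg2, hgl⟩ := N.pcg S1 S2 hadm h1 h2 hh12 (by rw [hh1coe]; exact hpoleG)
    have hmem1 : N.R1.red (u1 : N.R1.O) ∈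
        riemannRochSpace (∑ i, Finsupp.single (Q1 i) (1 : ℤ)) := by
      refine mem_L_of_bounds Q1 N.R1.good _ (fun Q hQ => ?_) (fun Q hQ => ?_)
      · rw [hy1 Q hQ]
        have := hEr1 Q
        omega
      · have h := hreg1 Q (fun hQS => hQ (hS1g hQS))
        rw [hred1h, hordpow1] at h
        exact le_of_mul_le_mul_left (by simpa using h) hppos
    obtain ⟨γ, hγ⟩ := hrig1 _ hmem1
    have hγ0 : γ ≠ 0 := by
      rintro rfl
      rw [map_zero] at hγ
      exact hu1red0 hγ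
    have hmem2 : N.R2.red z ∈ riemannRochSpace (∑ j, Finsupp.single (Q2 j) (1 : ℤ)) := by
      refine mem_L_of_bounds Q2 N.R2.good _ (fun Q hQ => ?_) (fun Q hQ => ?_)
      · rw [hordz, hy2 Q hQ]
        have := hEr2 Q
        omega
      · have h := hreg2 Q (fun hQS => hQ (hS2g hQS))
        rw [hred2h, ord_pow] at h
        exact le_of_mul_le_mul_left (by simpa using h) hppos
    refine ⟨u1, u2', γ, hγ0, hu12, hγ, fun P => ?_, by rw [hu2'val]; exact hmem2, fun e => ?_⟩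
    · have h := hEnonneg P
      rw [hE, hB, Finsupp.add_apply, Finsupp.add_apply, Finsupp.add_apply] at h
      rw [hordu1]
      exact h
    · obtain ⟨γ', h1', h2'⟩ := hgl e
      rw [hred1h, hγ, ← map_pow] at h1'
      rw [hasValue_const _ h1', hred2h] at h2'
      rw [hu2'val]
      exact h2'
  · -- `v₁(y) > v₂(y)`: impossible
    exfalso
    have hτA : a1 / a2 ∈ A := div_mem_of_valuation_le ha2 hgt.le
    have hπτ := pi_div_eq_zero N.R1.toBranch ha2 hgt hτA
    set h2 : N.R2.O := ((u2 ^ p * f2 : N.R2.Oˣ) : N.R2.O) with hh2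
    set h1 : N.R1.O := constHom N.R1.toBranch ⟨a1 / a2, hτA⟩ ^ p *
      ((u1 ^ p * f1 : N.R1.Oˣ) : N.R1.O) with hh1
    have hh2coe : ((h2 : N.R2.O) : FL) = ((u2 : N.R2.O) : FL) ^ p * ((f2 : N.R2.O) : FL) := by
      rw [hh2, Units.val_mul, Units.val_pow_eq_pow_val, MulMemClass.coe_mul,
        SubmonoidClass.coe_pow]
    have hu21 : ((u2 : N.R2.O) : FL) = algebraMap L FL (a1 / a2) * ((u1 : N.R1.O) : FL) := by
      rw [map_div₀]
      field_simp
      linear_combination -hyy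
    have hh12 : ((h1 : N.R1.O) : FL) = ((h2 : N.R2.O) : FL) := by
      rw [hh2coe, hh1, Units.val_mul, Units.val_pow_eq_pow_val, MulMemClass.coe_mul,
        MulMemClass.coe_mul, SubmonoidClass.coe_pow, SubmonoidClass.coe_pow, coe_constHom,
        ← hf12, hu21, mul_pow]
      ring
    have hred1h : N.R1.red h1 = 0 := by
      rw [hh1, map_mul, map_pow, red_constHom, hπτ, map_zero, zero_pow hp, zero_mul]
    have hred2h : N.R2.red h2 = N.R2.red (u2 : N.R2.O) ^ p := by
      rw [hh2, Units.val_mul, Units.val_pow_eq_pow_val, map_mul, map_pow, hred2, mul_one]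
    have hAτ : algebraMap L FL (a1 / a2) ≠ 0 :=
      (map_ne_zero_iff _ (algebraMap L FL).injective).mpr (div_ne_zero ha1 ha2)
    obtain ⟨-, hreg2, hgl⟩ := N.pcg S1 S2 hadm h1 h2 hh12 (fun P hP => by
      refine hpoleG P ?_
      rw [hh12, hh2coe, hu21, ← hf12, mul_pow, mul_assoc, ← map_pow,
        ord_const_mul P (pow_ne_zero _ (div_ne_zero ha1 ha2))] at hP
      exact hP)
    have hmem : N.R2.red (u2 : N.R2.O) ∈
        riemannRochSpace (∑ j, Finsupp.single (Q2 j) (1 : ℤ)) := by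
      refine mem_L_of_bounds Q2 N.R2.good _ (fun Q hQ => ?_) (fun Q hQ => ?_)
      · rw [hy2 Q hQ]
        have := hEr2 Q
        omega
      · have h := hreg2 Q (fun hQS => hQ (hS2g hQS))
        rw [hred2h, hordpow2] at h
        exact le_of_mul_le_mul_left (by simpa using h) hppos
    apply hu2red0
    refine hrig2 _ hmem (fun e => ?_)
    obtain ⟨γ, hγ1, hγ2⟩ := hgl e
    rw [hred1h] at hγ1
    have hγ0 : γ = 0 := hasValue_zero _ hγ1
    rw [hγ0, hred2h] at hγ2
    right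
    rcases hγ2 with h | h
    · rw [map_zero] at h
      exact absurd h (pow_ne_zero _ hu2red0)
    · rw [map_zero, sub_zero, hordpow2] at h
      exact (mul_pos_iff_of_pos_left hppos).mp h

end Fermat.Agent.S34.NodalLocalGen
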