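import Mathlib
import Fermat.Agent.S34.NodeRing

/-!
# PROJECT U (S34), (Z4b): evaluation of the node ring in a chart ring

Mathlib-only commutative algebra.  `W → R`, `π ∈ W`, `ϖ` its image, `ξ η ∈ R` with
`ξ η = c ∈ π W`, `R` complete for `m = (ξ, η, ϖ)`.

* `exists_eval` : the `W`-algebra map `ev : NodeRing W c → R`, `ξ ↦ ξ`, `η ↦ η`;
* `eval_surjective` : `ev` is onto when `W` is `π`-adically complete and `R = W + m`;
* `eval_injective` : `ev` is injective when `ϖ` is a nonzerodivisor and `ev` is injective mod `π`;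
* `mem_span_of_reductions` : injectivity mod `π` from two reductions `R → k[[x]]`, `R → k[[y]]`.
-/

set_option autoImplicit false

namespace Fermat.Agent.S34.NodeRingEval

open MvPowerSeries Fermat.Agent.S34.NodeNormalForm Fermat.Agent.S34.NodeRing

variable {W R : Type*} [CommRing W] [CommRing R] [Algebra W R]

/-! ### the evaluation map -/

/-- evaluation of power series in two variables at two elements of `m`, `R` being `m`-adically
complete -/
theorem exists_mvPowerSeries_eval (m : Ideal R) [IsAdicComplete m R] {ξ η : R} (hξ : ξ ∈ m)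
    (hη : η ∈ m) :
    ∃ ev : MvPowerSeries (Fin 2) W →ₐ[W] R, ev (X 0) = ξ ∧ ev (X 1) = η := by
  let _ : WithIdeal R := ⟨m⟩
  have hcomp : CompleteSpace R ∧ T2Space R :=
    (IsAdic.isAdicComplete_iff (I := m) rfl).mp inferInstance
  have := hcomp.1
  have := hcomp.2
  let _ : UniformSpace W := ⊥
  have : DiscreteTopology W := ⟨rfl⟩
  have : ContinuousSMul W R := by
    apply continuousSMul_of_algebraMap
    exact continuous_of_discreteTopology
  have ha : HasEval (![ξ, η] : Fin 2 → R) := by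
    constructor
    · intro i
      fin_cases i
      · exact WithIdeal.isTopologicallyNilpotent_of_mem hξ
      · exact WithIdeal.isTopologicallyNilpotent_of_mem hη
    · simp
  refine ⟨aeval ha, ?_, ?_⟩
  · rw [coe_aeval, eval₂_X]; rfl
  · rw [coe_aeval, eval₂_X]; rfl

/-- **the evaluation map** of the node ring -/
theorem exists_eval (m : Ideal R) [IsAdicComplete m R] {ξ η : R} (hξ : ξ ∈ m) (hη : η ∈ m)
    {c : W} (hnode : ξ * η = algebraMap W R c) :
    ∃ ev : NodeRing W c →ₐ[W] R, ev (xi c) = ξ ∧ ev (eta c) = η := by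
  obtain ⟨ev0, h0, h1⟩ := exists_mvPowerSeries_eval (W := W) m hξ hη
  have hker : ∀ a ∈ Ideal.span {relator c}, ev0 a = 0 := by
    intro a ha
    obtain ⟨b, rfl⟩ := Ideal.mem_span_singleton'.mp ha
    have h2 : ev0 (relator c) = 0 := by
      unfold relator
      rw [map_sub, map_mul, h0, h1, hnode, sub_eq_zero]
      exact (ev0.commutes c).symm
    rw [map_mul, h2, mul_zero]
  refine ⟨Ideal.Quotient.liftₐ (Ideal.span {relator c}) ev0 hker, ?_, ?_⟩
  · exact h0
  · exact h1

/-! ### `R = W + ξ R + η R` -/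

theorem exists_of_mem_span_triple {x y z r : R} (h : r ∈ Ideal.span {x, y, z}) :
    ∃ s t u, r = x * s + y * t + z * u := by
  obtain ⟨s, r1, h1, rfl⟩ := Ideal.mem_span_insert.mp h
  obtain ⟨t, r2, h2, rfl⟩ := Ideal.mem_span_insert.mp h1
  obtain ⟨u, rfl⟩ := Ideal.mem_span_singleton'.mp h2
  exact ⟨s, t, u, by ring⟩

theorem algebraMap_mem_pow_of_mem_span_pow {π : W} {J : Ideal R} (hJ : algebraMap W R π ∈ J)
    {x : W} {N : ℕ} (hx : x ∈ Ideal.span {π} ^ N) : algebraMap W R x ∈ J ^ N := by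
  rw [Ideal.span_singleton_pow] at hx
  obtain ⟨y, rfl⟩ := Ideal.mem_span_singleton'.mp hx
  rw [map_mul, map_pow]
  exact Ideal.mul_mem_left _ _ (Ideal.pow_mem_pow hJ N)

theorem map_cPartial (c : W) (u : ℕ → W) (N : ℕ) :
    algebraMap W R (cPartial c u N) =
      cPartial (algebraMap W R c) (fun n => algebraMap W R (u n)) N := by
  unfold cPartial
  rw [map_sum]
  apply Finset.sum_congr rfl
  intro t _
  rw [map_mul, map_pow]

/-- **`R = W + ξ R + η R`** (no `ϖ`-term) -/
theorem exists_eq_const_add {π : W} [IsAdicComplete (Ideal.span {π}) W] {ξ η : R}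
    [IsAdicComplete (Ideal.span {ξ, η, algebraMap W R π}) R]
    (hgen : ∀ r : R, ∃ w : W, r - algebraMap W R w ∈ Ideal.span {ξ, η, algebraMap W R π})
    (r : R) : ∃ (w : W) (s t : R), r = algebraMap W R w + ξ * s + η * t := by
  set ϖ := algebraMap W R π with hϖ
  set m : Ideal R := Ideal.span {ξ, η, ϖ} with hm
  have hϖm : ϖ ∈ m := Ideal.subset_span (by simp)
  have hξm : ξ ∈ m := Ideal.subset_span (by simp)
  have hηm : η ∈ m := Ideal.subset_span (by simp)
  have hπ : π ∈ Ideal.span {π} := Ideal.subset_span rfl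
  have hdec : ∀ r : R, ∃ q : W × R × R × R,
      r = algebraMap W R q.1 + ξ * q.2.1 + η * q.2.2.1 + ϖ * q.2.2.2 := by
    intro r
    obtain ⟨w, hw⟩ := hgen r
    obtain ⟨s, t, u, h⟩ := exists_of_mem_span_triple hw
    refine ⟨(w, s, t, u), ?_⟩
    have h' : r = algebraMap W R w + (ξ * s + η * t + ϖ * u) := by rw [← h]; ring
    rw [h']; ring
  choose D hD using hdec
  let rs : ℕ → R := fun n => Nat.rec r (fun _ x => (D x).2.2.2) n
  have hrs0 : rs 0 = r := rfl
  have hrsS : ∀ n, rs (n + 1) = (D (rs n)).2.2.2 := fun n => rfl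
  set uw : ℕ → W := fun n => (D (rs n)).1 with huw
  set us : ℕ → R := fun n => (D (rs n)).2.1 with hus
  set ut : ℕ → R := fun n => (D (rs n)).2.2.1 with hut
  have key : ∀ N, r = algebraMap W R (cPartial π uw N) + ξ * cPartial ϖ us N +
      η * cPartial ϖ ut N + ϖ ^ N * rs N := by
    intro N
    induction N with
    | zero => simp [cPartial, hrs0]
    | succ N ih =>
      have h1 := hD (rs N)
      rw [← hrsS N] at h1
      have h2 : cPartial π uw (N + 1) = cPartial π uw N + uw N * π ^ N := by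
        unfold cPartial; rw [Finset.sum_range_succ]
      have h3 : cPartial ϖ us (N + 1) = cPartial ϖ us N + us N * ϖ ^ N := by
        unfold cPartial; rw [Finset.sum_range_succ]
      have h4 : cPartial ϖ ut (N + 1) = cPartial ϖ ut N + ut N * ϖ ^ N := by
        unfold cPartial; rw [Finset.sum_range_succ]
      rw [h2, h3, h4, map_add, map_mul, map_pow]
      have h5 : rs N = algebraMap W R (uw N) + ξ * us N + η * ut N + ϖ * rs (N + 1) := h1
      calc r = algebraMap W R (cPartial π uw N) + ξ * cPartial ϖ us N +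
            η * cPartial ϖ ut N + ϖ ^ N * rs N := ih
        _ = algebraMap W R (cPartial π uw N) + ξ * cPartial ϖ us N +
            η * cPartial ϖ ut N + ϖ ^ N * (algebraMap W R (uw N) + ξ * us N + η * ut N +
              ϖ * rs (N + 1)) := by rw [← h5]
        _ = _ := by rw [← hϖ]; ring
  have hw := isCSum_cSum (I := Ideal.span {π}) hπ uw
  have hs := isCSum_cSum (I := m) hϖm us
  have ht := isCSum_cSum (I := m) hϖm ut
  refine ⟨cSum (Ideal.span {π}) π uw, cSum m ϖ us, cSum m ϖ ut, ?_⟩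
  rw [← sub_eq_zero]
  apply eq_zero_of_forall_mem_pow m
  intro N
  have h6 : r - (algebraMap W R (cSum (Ideal.span {π}) π uw) + ξ * cSum m ϖ us +
      η * cSum m ϖ ut) =
      ϖ ^ N * rs N - algebraMap W R (cSum (Ideal.span {π}) π uw - cPartial π uw N)
        - ξ * (cSum m ϖ us - cPartial ϖ us N) - η * (cSum m ϖ ut - cPartial ϖ ut N) := by
    conv_lhs => rw [key N]
    rw [map_sub]
    ring
  rw [h6]
  refine Ideal.sub_mem _ (Ideal.sub_mem _ (Ideal.sub_mem _ ?_ ?_) ?_) ?_
  · exact Ideal.mul_mem_right _ _ (Ideal.pow_mem_pow hϖm N)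
  · exact algebraMap_mem_pow_of_mem_span_pow hϖm (hw N)
  · exact Ideal.mul_mem_left _ _ (hs N)
  · exact Ideal.mul_mem_left _ _ (ht N)

/-! ### surjectivity -/

theorem isHausdorff_of_le {J m : Ideal R} (h : J ≤ m) [IsHausdorff m R] : IsHausdorff J R := by
  constructor
  intro x hx
  apply eq_zero_of_forall_mem_pow m
  intro n
  have h1 := hx n
  rw [smodEq_iff_sub_mem_pow, sub_zero] at h1
  exact Ideal.pow_right_mono h n h1

theorem mk_C (c w : W) : mk c (C w) = algebraMap W (NodeRing W c) w := by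
  rw [← (mk c).commutes w]
  rfl

/-- **surjectivity of the evaluation map** -/
theorem eval_surjective {π : W} [IsAdicComplete (Ideal.span {π}) W] {ξ η : R}
    [IsAdicComplete (Ideal.span {ξ, η, algebraMap W R π}) R]
    (hgen : ∀ r : R, ∃ w : W, r - algebraMap W R w ∈ Ideal.span {ξ, η, algebraMap W R π})
    {c : W} (ev : NodeRing W c →ₐ[W] R) (h1 : ev (xi c) = ξ) (h2 : ev (eta c) = η) :
    Function.Surjective ev := by
  let f : MvPowerSeries (Fin 2) W →+* R := (ev : NodeRing W c →+* R).comp (mk c)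
  have hfX0 : f (X 0) = ξ := h1
  have hfX1 : f (X 1) = η := h2
  have hfC : ∀ w, f (C w) = algebraMap W R w := by
    intro w
    show ev (mk c (C w)) = _
    rw [mk_C, ev.commutes]
  have hI : Ideal.map f (Ideal.span (Set.range X)) = Ideal.span {ξ, η} := by
    rw [Ideal.map_span, ← Set.range_comp]
    congr 1
    ext r
    simp only [Set.mem_range, Function.comp_apply, Set.mem_insert_iff, Set.mem_singleton_iff,
      Fin.exists_fin_two, hfX0, hfX1]
    tauto
  have hle : Ideal.span {ξ, η} ≤ Ideal.span {ξ, η, algebraMap W R π} := by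
    apply Ideal.span_mono
    intro x hx
    rcases hx with rfl | rfl
    · simp
    · simp
  have hH : IsHausdorff (Ideal.map f (Ideal.span (Set.range X))) R := by
    rw [hI]; exact isHausdorff_of_le hle
  have hf : Function.Surjective f := by
    apply surjective_of_mk_map_comp_surjective (I := Ideal.span (Set.range X)) f
    intro y
    obtain ⟨r, rfl⟩ := Ideal.Quotient.mk_surjective y
    obtain ⟨w, s, t, h⟩ := exists_eq_const_add hgen r
    refine ⟨C w, ?_⟩
    rw [RingHom.comp_apply, Ideal.Quotient.eq, hI, hfC, h]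
    have h3 : algebraMap W R w - (algebraMap W R w + ξ * s + η * t) = -(ξ * s + η * t) := by ring
    rw [h3]
    apply neg_mem
    exact Ideal.add_mem _ (Ideal.mul_mem_right _ _ (Ideal.subset_span (by simp)))
      (Ideal.mul_mem_right _ _ (Ideal.subset_span (by simp)))
  intro r
  obtain ⟨g, hg⟩ := hf r
  exact ⟨mk c g, hg⟩

/-! ### injectivity -/

/-- **injectivity of the evaluation map**: `ϖ` is a nonzerodivisor of `R` and `ev` is injective
modulo `π` -/
theorem eval_injective {π : W} [IsAdicComplete (Ideal.span {π}) W] {c : W}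
    (hc : c ∈ Ideal.span {π}) (ev : NodeRing W c →ₐ[W] R)
    (hnzd : ∀ r : R, algebraMap W R π * r = 0 → r = 0)
    (hmod : ∀ f : NodeRing W c, ev f ∈ Ideal.span {algebraMap W R π} →
      f ∈ Ideal.span {algebraMap W (NodeRing W c) π}) :
    Function.Injective ev := by
  rw [injective_iff_map_eq_zero]
  intro f hf
  have key : ∀ n : ℕ, ∃ g : NodeRing W c, f = algebraMap W (NodeRing W c) (π ^ n) * g ∧
      ev g = 0 := by
    intro n
    induction n with
    | zero => exact ⟨f, by simp, hf⟩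
    | succ n ih =>
      obtain ⟨g, hg, hg0⟩ := ih
      have h1 : g ∈ Ideal.span {algebraMap W (NodeRing W c) π} := by
        apply hmod
        rw [hg0]
        exact Ideal.zero_mem _
      obtain ⟨g', rfl⟩ := Ideal.mem_span_singleton'.mp h1
      refine ⟨g', ?_, ?_⟩
      · rw [hg, pow_succ, map_mul]; ring
      · apply hnzd
        rw [map_mul, ev.commutes] at hg0
        rw [mul_comm]; exact hg0
  apply eq_zero_of_forall_mem_span_pow hc
  intro n
  obtain ⟨g, hg, -⟩ := key n
  rw [hg]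
  exact Ideal.mem_span_singleton'.mpr ⟨g, mul_comm _ _⟩

/-! ### reductions to power series rings -/

section Reductions

variable {k : Type*} [CommRing k]

/-- the first end reduction reads off the `ξ`-coefficients -/
theorem coeff_reduction_one {c : W} (res : W →+* k) (φ : NodeRing W c →+* PowerSeries k)
    (hξ : φ (xi c) = PowerSeries.X) (hη : φ (eta c) = 0)
    (hW : ∀ w, φ (algebraMap W (NodeRing W c) w) = PowerSeries.C (res w)) (a b : ℕ → W) (i : ℕ) :
    PowerSeries.coeff i (φ (ofCoeffs c a b)) = res (a i) := by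
  classical
  have hφ : φ (ofCoeffs c a b) =
      ∑ n ∈ Finset.range (i + 1), PowerSeries.C (res (a n)) * PowerSeries.X ^ n +
        PowerSeries.X ^ (i + 1) * φ (ofCoeffs c (fun n => a (n + (i + 1))) 0) := by
    conv_lhs => rw [ofCoeffs_expand c a b (i + 1)]
    simp only [map_add, map_sum, map_mul, map_pow, hξ, hη, hW]
    rw [zero_pow (Nat.succ_ne_zero i), zero_mul, add_zero]
    congr 1
    apply Finset.sum_congr rfl
    intro n _
    rw [zero_pow (Nat.succ_ne_zero n), mul_zero, add_zero]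
  rw [hφ, map_add, map_sum, PowerSeries.coeff_X_pow_mul', if_neg (by omega), add_zero]
  simp only [PowerSeries.coeff_C_mul_X_pow]
  rw [Finset.sum_ite_eq (Finset.range (i + 1)) i]
  simp

/-- the second end reduction reads off the `η`-coefficients -/
theorem coeff_reduction_two {c : W} (res : W →+* k) (φ : NodeRing W c →+* PowerSeries k)
    (hξ : φ (xi c) = 0) (hη : φ (eta c) = PowerSeries.X)
    (hW : ∀ w, φ (algebraMap W (NodeRing W c) w) = PowerSeries.C (res w)) (a b : ℕ → W) (j : ℕ) :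
    PowerSeries.coeff (j + 1) (φ (ofCoeffs c a b)) = res (b j) := by
  classical
  have hφ : φ (ofCoeffs c a b) = PowerSeries.C (res (a 0)) +
      ∑ n ∈ Finset.range (j + 2), PowerSeries.C (res (b n)) * PowerSeries.X ^ (n + 1) +
        PowerSeries.X ^ (j + 2) * φ (ofCoeffs c 0 (fun n => b (n + (j + 2)))) := by
    conv_lhs => rw [ofCoeffs_expand c a b (j + 2)]
    simp only [map_add, map_sum, map_mul, map_pow, hξ, hη, hW]
    rw [zero_pow (by omega : j + 2 ≠ 0), zero_mul, add_zero, Finset.sum_add_distrib,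
      Finset.sum_range_succ' (fun n => PowerSeries.C (res (a n)) * (0 : PowerSeries k) ^ n)]
    have h0 : ∑ n ∈ Finset.range (j + 1),
        PowerSeries.C (res (a (n + 1))) * (0 : PowerSeries k) ^ (n + 1) = 0 := by
      apply Finset.sum_eq_zero
      intro n _
      rw [zero_pow (Nat.succ_ne_zero n), mul_zero]
    rw [h0, zero_add, pow_zero, mul_one]
  rw [hφ, map_add, map_add, map_sum, PowerSeries.coeff_X_pow_mul', if_neg (by omega), add_zero,
    PowerSeries.coeff_C, if_neg (Nat.succ_ne_zero j), zero_add]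
  simp only [PowerSeries.coeff_C_mul_X_pow, Nat.add_right_cancel_iff]
  rw [Finset.sum_ite_eq (Finset.range (j + 2)) j]
  simp

/-- **injectivity modulo `π` from the two end reductions** -/
theorem mem_span_of_reductions {π : W} [IsAdicComplete (Ideal.span {π}) W] {c : W}
    (hc : c ∈ Ideal.span {π}) (res : W →+* k) (hres : ∀ w, res w = 0 → w ∈ Ideal.span {π})
        (φ₁ φ₂ : NodeRing W c →+* PowerSeries k)
    (h1ξ : φ₁ (xi c) = PowerSeries.X) (h1η : φ₁ (eta c) = 0)
    (h1W : ∀ w, φ₁ (algebraMap W (NodeRing W c) w) = PowerSeries.C (res w))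
    (h2ξ : φ₂ (xi c) = 0) (h2η : φ₂ (eta c) = PowerSeries.X)
    (h2W : ∀ w, φ₂ (algebraMap W (NodeRing W c) w) = PowerSeries.C (res w))
    {f : NodeRing W c} (hf1 : φ₁ f = 0) (hf2 : φ₂ f = 0) :
    f ∈ Ideal.span {algebraMap W (NodeRing W c) π} := by
  obtain ⟨a, b, rfl⟩ := ofCoeffs_surjective hc f
  rw [ofCoeffs_mem_span_algebraMap_iff hc]
  constructor
  · intro i
    apply hres
    rw [← coeff_reduction_one res φ₁ h1ξ h1η h1W a b i, hf1, map_zero]
  · intro j
    apply hres
    rw [← coeff_reduction_two res φ₂ h2ξ h2η h2W a b j, hf2, map_zero]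

end Reductions

/-! ### completeness for a smaller principal ideal -/

section Smaller

variable {A : Type*} [CommRing A]

theorem cPartial_succ' (c : A) (u : ℕ → A) (N : ℕ) :
    cPartial c u (N + 1) = u 0 + c * cPartial c (fun t => u (t + 1)) N := by
  unfold cPartial
  rw [Finset.sum_range_succ', Finset.mul_sum, pow_zero, mul_one, add_comm]
  congr 1
  apply Finset.sum_congr rfl
  intro t _
  ring

theorem cSum_eq_cPartial_add {I : Ideal A} [IsAdicComplete I A] {c : A} (hc : c ∈ I)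
    (u : ℕ → A) (N : ℕ) :
    cSum I c u = cPartial c u N + c ^ N * cSum I c (fun t => u (t + N)) := by
  induction N generalizing u with
  | zero => simp [cPartial]
  | succ N ih =>
    rw [cSum_shift hc u, ih (fun t => u (t + 1)), cPartial_succ']
    have h : (fun t => u (t + N + 1)) = fun t => u (t + (N + 1)) := rfl
    rw [h]
    ring

/-- an `m`-adically complete ring is `(x)`-adically complete for every `x ∈ m` -/
theorem isAdicComplete_span_singleton_of_mem (m : Ideal A) [IsAdicComplete m A] {x : A}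
    (hx : x ∈ m) : IsAdicComplete (Ideal.span {x}) A := by
  have hH : IsHausdorff (Ideal.span {x}) A :=
    isHausdorff_of_le ((Ideal.span_singleton_le_iff_mem m).mpr hx)
  have hP : IsPrecomplete (Ideal.span {x}) A := by
    constructor
    intro f hf
    have hd : ∀ n, ∃ d, f (n + 1) - f n = d * x ^ n := by
      intro n
      have h1 := hf (Nat.le_succ n)
      rw [smodEq_iff_sub_mem_pow, Ideal.span_singleton_pow] at h1
      obtain ⟨y, hy⟩ := Ideal.mem_span_singleton'.mp h1
      refine ⟨-y, ?_⟩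
      rw [neg_mul, hy]; ring
    choose d hd using hd
    have tel : ∀ N, f N = f 0 + cPartial x d N := by
      intro N
      induction N with
      | zero => simp [cPartial]
      | succ N ih =>
        have h2 : cPartial x d (N + 1) = cPartial x d N + d N * x ^ N := by
          unfold cPartial; rw [Finset.sum_range_succ]
        rw [h2, ← hd N, ← add_assoc, ← ih]; ring
    refine ⟨f 0 + cSum m x d, fun N => ?_⟩
    rw [smodEq_iff_sub_mem_pow, Ideal.span_singleton_pow, tel N, cSum_eq_cPartial_add hx d N]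
    have h3 : f 0 + cPartial x d N - (f 0 + (cPartial x d N + x ^ N * cSum m x fun t => d (t + N))) =
        -(cSum m x fun t => d (t + N)) * x ^ N := by ring
    rw [h3]
    exact Ideal.mem_span_singleton'.mpr ⟨_, rfl⟩
  exact { toIsHausdorff := hH, toIsPrecomplete := hP }

end Smaller

/-! ### the chart of a node -/

/-- **(Z4) the chart of a node**: a complete local `W`-algebra `R` with residue field that of
`W`, maximal ideal `(ξ₀, η₀, ϖ)` and `ξ₀ η₀ ∈ ϖ R` is a quotient of a node ring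
`W[[X, Y]] / (X Y - c)`, `c ∈ π W`, with `X ↦ ξ ≡ ξ₀`, `Y ↦ η ≡ η₀ mod ϖ`. -/
theorem exists_nodeRing_surjection {π : W} [IsAdicComplete (Ideal.span {π}) W] {ξ₀ η₀ : R}
    [IsAdicComplete (Ideal.span {ξ₀, η₀, algebraMap W R π}) R]
    (hgen : ∀ r : R, ∃ w : W, r - algebraMap W R w ∈ Ideal.span {ξ₀, η₀, algebraMap W R π})
    (hnode : ξ₀ * η₀ ∈ Ideal.span {algebraMap W R π}) :
    ∃ (c : W) (ev : NodeRing W c →ₐ[W] R), c ∈ Ideal.span {π} ∧ Function.Surjective ev ∧
      ev (xi c) - ξ₀ ∈ Ideal.span {algebraMap W R π} ∧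
      ev (eta c) - η₀ ∈ Ideal.span {algebraMap W R π} := by
  set ϖ := algebraMap W R π with hϖ
  set m : Ideal R := Ideal.span {ξ₀, η₀, ϖ} with hm
  have hϖm : ϖ ∈ m := Ideal.subset_span (by simp)
  have hξ₀m : ξ₀ ∈ m := Ideal.subset_span (by simp)
  have hη₀m : η₀ ∈ m := Ideal.subset_span (by simp)
  have hle : Ideal.span {ϖ} ≤ m := (Ideal.span_singleton_le_iff_mem m).mpr hϖm
  have : IsAdicComplete (Ideal.span {ϖ}) R := isAdicComplete_span_singleton_of_mem m hϖm
  obtain ⟨ξ, η, c, hξ, hη, hc, hnode'⟩ := exists_node_coordinates hgen hnode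
  have hξm : ξ ∈ m := by
    have h1 : ξ = (ξ - ξ₀) + ξ₀ := by ring
    rw [h1]; exact Ideal.add_mem _ (hle hξ) hξ₀m
  have hηm : η ∈ m := by
    have h1 : η = (η - η₀) + η₀ := by ring
    rw [h1]; exact Ideal.add_mem _ (hle hη) hη₀m
  have hmm : Ideal.span {ξ, η, ϖ} = m := by
    apply le_antisymm
    · rw [Ideal.span_le]
      intro x hx
      rcases hx with rfl | rfl | rfl
      · exact hξm
      · exact hηm
      · exact hϖm
    · rw [hm, Ideal.span_le]
      intro x hx
      have hle' : Ideal.span {ϖ} ≤ Ideal.span {ξ, η, ϖ} :=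
        (Ideal.span_singleton_le_iff_mem _).mpr (Ideal.subset_span (by simp))
      rcases hx with rfl | rfl | rfl
      · have h1 : x = ξ - (ξ - x) := by ring
        rw [h1]
        exact Ideal.sub_mem _ (Ideal.subset_span (by simp)) (hle' hξ)
      · have h1 : x = η - (η - x) := by ring
        rw [h1]
        exact Ideal.sub_mem _ (Ideal.subset_span (by simp)) (hle' hη)
      · exact Ideal.subset_span (by simp)
  have hcomp : IsAdicComplete (Ideal.span {ξ, η, ϖ}) R := by rw [hmm]; infer_instance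
  have hgen' : ∀ r : R, ∃ w : W, r - algebraMap W R w ∈ Ideal.span {ξ, η, ϖ} := by
    intro r; rw [hmm]; exact hgen r
  obtain ⟨ev, h1, h2⟩ := exists_eval (W := W) m hξm hηm hnode'
  refine ⟨c, ev, hc, eval_surjective hgen' ev h1 h2, ?_, ?_⟩
  · rw [h1]; exact hξ
  · rw [h2]; exact hη

/-! ### injectivity modulo `π` from two abstract reductions -/

section AbstractReductions

variable {S : Type*} [CommRing S]

theorem map_ofCoeffs_zero_left_mem {c : W} (φ : NodeRing W c →+* S) (b : ℕ → W) :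
    φ (ofCoeffs c 0 b) ∈ Ideal.span {φ (eta c)} := by
  rw [ofCoeffs_zero_left_eq, map_add, map_mul, map_mul]
  refine Ideal.add_mem _ (Ideal.mul_mem_left _ _ (Ideal.subset_span rfl))
    (Ideal.mul_mem_right _ _ (Ideal.subset_span rfl))

theorem map_algebraMap_eq_zero_of_mem {c π : W} (φ : NodeRing W c →+* S)
    (hπ : φ (algebraMap W (NodeRing W c) π) = 0) {w : W} (hw : w ∈ Ideal.span {π}) :
    φ (algebraMap W (NodeRing W c) w) = 0 := by
  obtain ⟨z, rfl⟩ := Ideal.mem_span_singleton'.mp hw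
  rw [map_mul, map_mul, hπ, mul_zero]

/-- a reduction `ξ ↦ x` (a nonzerodivisor), `η ↦ 0`, `π ↦ 0` with `W / π ↪ S / x` detects
the `ξ`-coefficients modulo `π` -/
theorem coeffs_mem_of_reduction_one {c π : W} (φ : NodeRing W c →+* S) {x : S}
    (hx : ∀ s : S, x * s = 0 → s = 0) (hξ : φ (xi c) = x) (hη : φ (eta c) = 0)
    (hπ : φ (algebraMap W (NodeRing W c) π) = 0)
    (hker : ∀ w : W, φ (algebraMap W (NodeRing W c) w) ∈ Ideal.span {x} → w ∈ Ideal.span {π})
    (i : ℕ) : ∀ (a b : ℕ → W), φ (ofCoeffs c a b) = 0 → a i ∈ Ideal.span {π} := by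
  have hb0 : ∀ b : ℕ → W, φ (ofCoeffs c 0 b) = 0 := by
    intro b
    have h := map_ofCoeffs_zero_left_mem φ b
    rw [hη, Ideal.span_singleton_zero] at h
    exact Ideal.mem_bot.mp h
  have hstep : ∀ a : ℕ → W, φ (ofCoeffs c a 0) = 0 →
      a 0 ∈ Ideal.span {π} ∧ φ (ofCoeffs c (fun n => a (n + 1)) 0) = 0 := by
    intro a h
    rw [ofCoeffs_zero_right_eq, map_add, map_mul, hξ] at h
    have h0 : a 0 ∈ Ideal.span {π} := by
      apply hker
      rw [eq_neg_of_add_eq_zero_left h]
      exact Ideal.mem_span_singleton'.mpr ⟨-φ (ofCoeffs c (fun n => a (n + 1)) 0), by ring⟩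
    refine ⟨h0, ?_⟩
    rw [map_algebraMap_eq_zero_of_mem φ hπ h0, zero_add] at h
    exact hx _ h
  induction i with
  | zero =>
    intro a b h
    rw [ofCoeffs_split, map_add, hb0, add_zero] at h
    exact (hstep a h).1
  | succ i ih =>
    intro a b h
    rw [ofCoeffs_split, map_add, hb0, add_zero] at h
    exact ih (fun n => a (n + 1)) 0 (hstep a h).2

/-- a reduction `ξ ↦ 0`, `η ↦ y` (a nonzerodivisor), `π ↦ 0` with `W / π ↪ S / y` detects
the `η`-coefficients modulo `π` -/
theorem coeffs_mem_of_reduction_two {c π : W} (φ : NodeRing W c →+* S) {y : S}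
    (hy : ∀ s : S, y * s = 0 → s = 0) (hξ : φ (xi c) = 0) (hη : φ (eta c) = y)
    (hπ : φ (algebraMap W (NodeRing W c) π) = 0)
    (hker : ∀ w : W, φ (algebraMap W (NodeRing W c) w) ∈ Ideal.span {y} → w ∈ Ideal.span {π})
    (j : ℕ) : ∀ (a b : ℕ → W), φ (ofCoeffs c a b) = 0 → b j ∈ Ideal.span {π} := by
  have hmem : ∀ b : ℕ → W, φ (ofCoeffs c 0 b) ∈ Ideal.span {y} := by
    intro b
    have h := map_ofCoeffs_zero_left_mem φ b
    rwa [hη] at h
  -- the `ξ`-part reduces to its constant term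
  have ha : ∀ a : ℕ → W, φ (ofCoeffs c a 0) = φ (algebraMap W (NodeRing W c) (a 0)) := by
    intro a
    rw [ofCoeffs_zero_right_eq, map_add, map_mul, hξ, zero_mul, add_zero]
  have hstep : ∀ b : ℕ → W, φ (ofCoeffs c 0 b) = 0 →
      b 0 ∈ Ideal.span {π} ∧ φ (ofCoeffs c 0 (fun n => b (n + 1))) = 0 := by
    intro b h
    rw [ofCoeffs_zero_left_eq, map_add, map_mul, map_mul, hη, mul_comm _ y, ← mul_add] at h
    have h1 := hy _ h
    have h0 : b 0 ∈ Ideal.span {π} := by
      apply hker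
      rw [eq_neg_of_add_eq_zero_left h1]
      exact (Ideal.neg_mem_iff _).mpr (hmem _)
    refine ⟨h0, ?_⟩
    rw [map_algebraMap_eq_zero_of_mem φ hπ h0, zero_add] at h1
    exact h1
  have hfirst : ∀ a b : ℕ → W, φ (ofCoeffs c a b) = 0 → φ (ofCoeffs c 0 b) = 0 := by
    intro a b h
    rw [ofCoeffs_split, map_add, ha] at h
    have h0 : a 0 ∈ Ideal.span {π} := by
      apply hker
      rw [eq_neg_of_add_eq_zero_left h]
      exact (Ideal.neg_mem_iff _).mpr (hmem _)
    rw [map_algebraMap_eq_zero_of_mem φ hπ h0, zero_add] at h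
    exact h
  have key : ∀ (b : ℕ → W), φ (ofCoeffs c 0 b) = 0 → b j ∈ Ideal.span {π} := by
    induction j with
    | zero => intro b h; exact (hstep b h).1
    | succ j ih => intro b h; exact ih (fun n => b (n + 1)) (hstep b h).2
  intro a b h
  exact key b (hfirst a b h)

/-- **injectivity modulo `π` from two abstract reductions** -/
theorem mem_span_of_abstract_reductions {S₁ S₂ : Type*} [CommRing S₁] [CommRing S₂] {π : W}
    [IsAdicComplete (Ideal.span {π}) W] {c : W} (hc : c ∈ Ideal.span {π})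
    (φ₁ : NodeRing W c →+* S₁) (φ₂ : NodeRing W c →+* S₂) {x : S₁} {y : S₂}
    (hx : ∀ s : S₁, x * s = 0 → s = 0) (hy : ∀ s : S₂, y * s = 0 → s = 0)
    (h1ξ : φ₁ (xi c) = x) (h1η : φ₁ (eta c) = 0)
    (h1π : φ₁ (algebraMap W (NodeRing W c) π) = 0)
    (h1ker : ∀ w : W, φ₁ (algebraMap W (NodeRing W c) w) ∈ Ideal.span {x} → w ∈ Ideal.span {π})
    (h2ξ : φ₂ (xi c) = 0) (h2η : φ₂ (eta c) = y)
    (h2π : φ₂ (algebraMap W (NodeRing W c) π) = 0)
    (h2ker : ∀ w : W, φ₂ (algebraMap W (NodeRing W c) w) ∈ Ideal.span {y} → w ∈ Ideal.span {π})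
    {f : NodeRing W c} (hf1 : φ₁ f = 0) (hf2 : φ₂ f = 0) :
    f ∈ Ideal.span {algebraMap W (NodeRing W c) π} := by
  obtain ⟨a, b, rfl⟩ := ofCoeffs_surjective hc f
  rw [ofCoeffs_mem_span_algebraMap_iff hc]
  exact ⟨fun i => coeffs_mem_of_reduction_one φ₁ hx h1ξ h1η h1π h1ker i a b hf1,
    fun j => coeffs_mem_of_reduction_two φ₂ hy h2ξ h2η h2π h2ker j a b hf2⟩

end AbstractReductions

/-! ### the completed local ring of a node is a node ring -/

/-- **(Z4) the completed local ring of a node is a node ring.**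
`R` is complete for `m = (ξ₀, η₀, ϖ)`, `R = W + m`, `ξ₀ η₀ ∈ ϖ R`, `ϖ` is a nonzerodivisor of
`R`, and there are two reductions `ρ₁ : R → S₁` (`ξ₀ ↦ x`, `η₀ ↦ 0`, `ϖ ↦ 0`) and `ρ₂ : R → S₂`
(`ξ₀ ↦ 0`, `η₀ ↦ y`, `ϖ ↦ 0`) with `x`, `y` nonzerodivisors and `W / π ↪ S₁ / x`,
`W / π ↪ S₂ / y` (the two branches of the node).  Then `R ≃ W[[X, Y]] / (X Y - c)` for some
`c ∈ π W`, with `X ↦ ξ ≡ ξ₀`, `Y ↦ η ≡ η₀ mod ϖ`. -/
theorem exists_nodeRing_algEquiv {S₁ S₂ : Type*} [CommRing S₁] [CommRing S₂] {π : W}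
    [IsAdicComplete (Ideal.span {π}) W] {ξ₀ η₀ : R}
    [IsAdicComplete (Ideal.span {ξ₀, η₀, algebraMap W R π}) R]
    (hgen : ∀ r : R, ∃ w : W, r - algebraMap W R w ∈ Ideal.span {ξ₀, η₀, algebraMap W R π})
    (hnode : ξ₀ * η₀ ∈ Ideal.span {algebraMap W R π})
    (hnzd : ∀ r : R, algebraMap W R π * r = 0 → r = 0)
    (ρ₁ : R →+* S₁) (ρ₂ : R →+* S₂) {x : S₁} {y : S₂}
    (hx : ∀ s : S₁, x * s = 0 → s = 0) (hy : ∀ s : S₂, y * s = 0 → s = 0)
    (h1ξ : ρ₁ ξ₀ = x) (h1η : ρ₁ η₀ = 0) (h1π : ρ₁ (algebraMap W R π) = 0)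
    (h1ker : ∀ w : W, ρ₁ (algebraMap W R w) ∈ Ideal.span {x} → w ∈ Ideal.span {π})
    (h2ξ : ρ₂ ξ₀ = 0) (h2η : ρ₂ η₀ = y) (h2π : ρ₂ (algebraMap W R π) = 0)
    (h2ker : ∀ w : W, ρ₂ (algebraMap W R w) ∈ Ideal.span {y} → w ∈ Ideal.span {π}) :
    ∃ (c : W) (e : NodeRing W c ≃ₐ[W] R), c ∈ Ideal.span {π} ∧
      e (xi c) - ξ₀ ∈ Ideal.span {algebraMap W R π} ∧
      e (eta c) - η₀ ∈ Ideal.span {algebraMap W R π} := by
  obtain ⟨c, ev, hc, hsurj, hξ, hη⟩ := exists_nodeRing_surjection hgen hnode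
  have hρ₁ : ∀ r ∈ Ideal.span {algebraMap W R π}, ρ₁ r = 0 := by
    intro r hr
    obtain ⟨z, rfl⟩ := Ideal.mem_span_singleton'.mp hr
    rw [map_mul, h1π, mul_zero]
  have hρ₂ : ∀ r ∈ Ideal.span {algebraMap W R π}, ρ₂ r = 0 := by
    intro r hr
    obtain ⟨z, rfl⟩ := Ideal.mem_span_singleton'.mp hr
    rw [map_mul, h2π, mul_zero]
  have hsub₁ : ∀ {u v : R}, u - v ∈ Ideal.span {algebraMap W R π} → ρ₁ u = ρ₁ v := by
    intro u v huv
    have := hρ₁ _ huv
    rwa [map_sub, sub_eq_zero] at this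
  have hsub₂ : ∀ {u v : R}, u - v ∈ Ideal.span {algebraMap W R π} → ρ₂ u = ρ₂ v := by
    intro u v huv
    have := hρ₂ _ huv
    rwa [map_sub, sub_eq_zero] at this
  have hinj : Function.Injective ev := by
    apply eval_injective hc ev hnzd
    intro f hf
    refine mem_span_of_abstract_reductions hc (ρ₁.comp (ev : NodeRing W c →+* R))
      (ρ₂.comp (ev : NodeRing W c →+* R)) hx hy ?_ ?_ ?_ ?_ ?_ ?_ ?_ ?_ ?_ ?_
    · show ρ₁ (ev (xi c)) = x
      rw [hsub₁ hξ, h1ξ]
    · show ρ₁ (ev (eta c)) = 0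
      rw [hsub₁ hη, h1η]
    · show ρ₁ (ev (algebraMap W (NodeRing W c) π)) = 0
      rw [ev.commutes, h1π]
    · intro w hw
      apply h1ker
      have : ρ₁ (ev (algebraMap W (NodeRing W c) w)) ∈ Ideal.span {x} := hw
      rwa [ev.commutes] at this
    · show ρ₂ (ev (xi c)) = 0
      rw [hsub₂ hξ, h2ξ]
    · show ρ₂ (ev (eta c)) = y
      rw [hsub₂ hη, h2η]
    · show ρ₂ (ev (algebraMap W (NodeRing W c) π)) = 0
      rw [ev.commutes, h2π]
    · intro w hw
      apply h2ker
      have : ρ₂ (ev (algebraMap W (NodeRing W c) w)) ∈ Ideal.span {y} := hw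
      rwa [ev.commutes] at this
    · exact hρ₁ _ hf
    · exact hρ₂ _ hf
  exact ⟨c, AlgEquiv.ofBijective ev ⟨hinj, hsurj⟩, hc, hξ, hη⟩

/-! ### the two end reductions of the model -/

section ModelReductions

variable {k : Type*} [CommRing k]

theorem coeff_zero_reduction_two {c : W} (res : W →+* k) (φ : NodeRing W c →+* PowerSeries k)
    (hξ : φ (xi c) = 0) (hη : φ (eta c) = PowerSeries.X)
    (hW : ∀ w, φ (algebraMap W (NodeRing W c) w) = PowerSeries.C (res w)) (a b : ℕ → W) :
    PowerSeries.coeff 0 (φ (ofCoeffs c a b)) = res (a 0) := by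
  rw [ofCoeffs_split, ofCoeffs_zero_right_eq, ofCoeffs_zero_left_eq]
  simp only [map_add, map_mul, hξ, hη, hW, zero_mul, add_zero]
  rw [mul_comm (PowerSeries.C (res (b 0))), PowerSeries.coeff_zero_X_mul,
    PowerSeries.coeff_zero_X_mul, add_zero, add_zero, PowerSeries.coeff_zero_C]

variable [Algebra W k]

/-- the first end reduction `W[[X, Y]] / (X Y - c) → k[[x]]`, `ξ ↦ x`, `η ↦ 0` -/
theorem exists_reduction_one {c : W} (hc : algebraMap W k c = 0) :
    ∃ ρ : NodeRing W c →ₐ[W] PowerSeries k, ρ (xi c) = PowerSeries.X ∧ ρ (eta c) = 0 ∧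
      ∀ (a b : ℕ → W) (i : ℕ),
        PowerSeries.coeff i (ρ (ofCoeffs c a b)) = algebraMap W k (a i) := by
  have hX : (PowerSeries.X : PowerSeries k) ∈ Ideal.span {(PowerSeries.X : PowerSeries k)} :=
    Ideal.subset_span rfl
  have hnode : (PowerSeries.X : PowerSeries k) * 0 = algebraMap W (PowerSeries k) c := by
    rw [mul_zero, PowerSeries.algebraMap_apply, hc, map_zero]
  obtain ⟨ρ, h1, h2⟩ := exists_eval (W := W) (Ideal.span {(PowerSeries.X : PowerSeries k)}) hX
    (Ideal.zero_mem _) hnode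
  refine ⟨ρ, h1, h2, fun a b i => ?_⟩
  refine coeff_reduction_one (algebraMap W k) (ρ : NodeRing W c →+* PowerSeries k) h1 h2 ?_ a b i
  intro w
  show ρ (algebraMap W (NodeRing W c) w) = _
  rw [ρ.commutes, PowerSeries.algebraMap_apply]

/-- the second end reduction `W[[X, Y]] / (X Y - c) → k[[y]]`, `ξ ↦ 0`, `η ↦ y` -/
theorem exists_reduction_two {c : W} (hc : algebraMap W k c = 0) :
    ∃ ρ : NodeRing W c →ₐ[W] PowerSeries k, ρ (xi c) = 0 ∧ ρ (eta c) = PowerSeries.X ∧
      (∀ (a b : ℕ → W), PowerSeries.coeff 0 (ρ (ofCoeffs c a b)) = algebraMap W k (a 0)) ∧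
      ∀ (a b : ℕ → W) (j : ℕ),
        PowerSeries.coeff (j + 1) (ρ (ofCoeffs c a b)) = algebraMap W k (b j) := by
  have hX : (PowerSeries.X : PowerSeries k) ∈ Ideal.span {(PowerSeries.X : PowerSeries k)} :=
    Ideal.subset_span rfl
  have hnode : (0 : PowerSeries k) * PowerSeries.X = algebraMap W (PowerSeries k) c := by
    rw [zero_mul, PowerSeries.algebraMap_apply, hc, map_zero]
  obtain ⟨ρ, h1, h2⟩ := exists_eval (W := W) (Ideal.span {(PowerSeries.X : PowerSeries k)})
    (Ideal.zero_mem _) hX hnode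
  have hW : ∀ w, (ρ : NodeRing W c →+* PowerSeries k) (algebraMap W (NodeRing W c) w) =
      PowerSeries.C (algebraMap W k w) := by
    intro w
    show ρ (algebraMap W (NodeRing W c) w) = _
    rw [ρ.commutes, PowerSeries.algebraMap_apply]
  exact ⟨ρ, h1, h2,
    fun a b => coeff_zero_reduction_two (algebraMap W k) (ρ : NodeRing W c →+* PowerSeries k)
      h1 h2 hW a b,
    fun a b j => coeff_reduction_two (algebraMap W k) (ρ : NodeRing W c →+* PowerSeries k)
      h1 h2 hW a b j⟩

end ModelReductions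

/-! ### continuity of algebra maps out of the node ring, evaluation at points -/

/-- every `W`-algebra map out of the node ring is continuous: the image of
`∑ a i ξ ^ i + ∑ b j η ^ (j + 1)` is the `J`-adic sum of the images of the terms, for every ideal
`J` containing the images of `ξ` and `η` -/
theorem map_ofCoeffs_sub_mem_pow {c : W} (φ : NodeRing W c →ₐ[W] R) (J : Ideal R)
    (hξ : φ (xi c) ∈ J) (hη : φ (eta c) ∈ J) (a b : ℕ → W) (N : ℕ) :
    φ (ofCoeffs c a b) - ∑ i ∈ Finset.range N, (algebraMap W R (a i) * φ (xi c) ^ i +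
      algebraMap W R (b i) * φ (eta c) ^ (i + 1)) ∈ J ^ N := by
  rw [ofCoeffs_expand c a b N]
  simp only [map_add, map_sum, map_mul, map_pow, φ.commutes]
  rw [add_assoc, add_sub_cancel_left]
  exact Ideal.add_mem _ (Ideal.mul_mem_right _ _ (Ideal.pow_mem_pow hξ N))
    (Ideal.mul_mem_right _ _ (Ideal.pow_mem_pow hη N))

/-- **evaluation at a point of the annulus**: `ξ ↦ z`, `η ↦ z'` with `z z' = c` -/
theorem exists_eval_point (I : Ideal W) [IsAdicComplete I W] {z z' c : W} (hz : z ∈ I)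
    (hz' : z' ∈ I) (h : z * z' = c) :
    ∃ ev : NodeRing W c →ₐ[W] W, ev (xi c) = z ∧ ev (eta c) = z' ∧
      ∀ (a b : ℕ → W) (N : ℕ), ev (ofCoeffs c a b) -
        ∑ i ∈ Finset.range N, (a i * z ^ i + b i * z' ^ (i + 1)) ∈ I ^ N := by
  obtain ⟨ev, h1, h2⟩ := exists_eval (W := W) (R := W) I hz hz' (c := c) (by rw [h]; rfl)
  refine ⟨ev, h1, h2, fun a b N => ?_⟩
  have h3 := map_ofCoeffs_sub_mem_pow ev I (by rw [h1]; exact hz) (by rw [h2]; exact hz') a b N
  rw [h1, h2] at h3
  exact h3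

end Fermat.Agent.S34.NodeRingEval
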