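/-
PROJECT U (S34), ROUTE G, FINAL ASSEMBLY (helper17): RECORD 2 of helper6's `CoreZX0Build`
(`NodesC X`: node set, true cusps, `PcgCusp.Hyp`, genus of `E`, Euler characteristic inequality)
FILLED for every `X : CoreZX0Assembly.Inputs hA hqM H` (`H : Hyp (gaussDatum M A hA hqM) gk gk`)
whose two components are linked to the concrete Gauss data `EulerClosedX0.G1X0`, `G2X0`
(`hO1 hO2 hrd1 hrd2`; for `X.B₁ := Generic/BranchX0.B1X0 hA hqM` these are
`fun _ h => h`, `fun _ h => h`, `fun _ _ _ => rfl`, `fun _ _ _ => rfl`).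

* `S`, `hNC`, the chart-0 gluing : `EulerClosedX0.exists_nodes_closed` (one `obtain`);
* `hyp` : `PcgX0.hyp_X0` for `R₁ := R1 X`, `w := WqGalois.wq` (so `smoothRedComap R₁ w = R2 X`).
-/
import Fermat.Agent.S34.CoreZX0Build
import Fermat.Agent.S34.PcgX0
import Fermat.Agent.S34.EulerClosedX0

set_option autoImplicit false
set_option linter.unusedSectionVars false
set_option linter.style.haveILetI false
set_option synthInstance.maxHeartbeats 400000

noncomputable section

namespace Fermat.Agent.S34.NodesCX0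

open ModularCurve AlgebraicCurve IsLocalRing
open Fermat.Agent.S18.NonSpecial Fermat.Agent.S34.NodalDefs
open Fermat.Agent.S34.Z1X0 Fermat.Agent.S34.CoreZX0Datum Fermat.Agent.S34.CoreZX0Assembly
open Fermat.Agent.S34.CoreZX0Build
open Fermat.Agent.S37.Deuring.Core Fermat.Agent.S37.Gauss.Datum
open Fermat.Agent.S34.Generic.Compat Fermat.Agent.S34.Generic.RestrAlong
open Fermat.Agent.S34.Generic.SmoothRedOfGeneric Fermat.Agent.S34.Generic.SwapX0
open Fermat.Agent.S34.Generic.FibAlphaX0 Fermat.Agent.S34.Generic.FibBetaX0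
open Fermat.Agent.S34.WqGalois
open Fermat.Agent.S34.EulerClosedX0

local notation "Kb" => AlgebraicClosure ℚ

/-- shortcut instances (all propositions) -/
local instance instPDBar (N : ℕ) [NeZero N] :
    HasPrincipalDivisors Kb ↥(modularFunctionFieldBar N) :=
  Fermat.Agent.S18.A.Instances.hasPrincipalDivisors_bar N

local instance instPDFk (A : ValuationSubring Kb) (N : ℕ) [NeZero N] :
    HasPrincipalDivisors (ResidueField ↥A) ↥(modularFunctionFieldFullC (ResidueField ↥A) N) :=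
  Fermat.Agent.S37.ReductionInputs.hasPrincipalDivisors_Fk A N

local instance instACk (A : ValuationSubring Kb) : IsAlgClosed (ResidueField ↥A) :=
  Fermat.Agent.S18.ResidueBasics.isAlgClosed_residueField A

local instance instInfk (A : ValuationSubring Kb) : Infinite (ResidueField ↥A) :=
  Fermat.Agent.S37.ReductionInputs.infinite_residueField A

local instance instNeZeroMul (M q : ℕ) [NeZero M] [NeZero q] : NeZero (M * q) :=
  ⟨Nat.mul_ne_zero (NeZero.ne M) (NeZero.ne q)⟩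

attribute [local instance 2000] Fermat.Agent.S34.EulerX0.algResFk
attribute [local instance] Fermat.Agent.S34.TwoGaussX0.algFE

variable {q : ℕ} [hq : Fact q.Prime] {M : ℕ} [NeZero M] {A : ValuationSubring Kb} [NeZero q]
variable {hA : A.LiesOverPrime q} {hqM : ¬ q ∣ M}
variable {gk : ℕ} {H : Hyp (gaussDatum M A hA hqM) gk gk}
variable [CharP (ResidueField ↥A) q]

/-- the first component ring is the extension of type `G₁` -/
theorem isExt_R1 (X : Inputs hA hqM H) :
    (Fermat.Agent.S34.TwoGaussX0.setupX0 hA hqM).IsExt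
      (Fermat.Agent.S34.TwoGaussX0.setupX0 hA hqM).G₁ (R1 X).O := by
  rw [R1_O]
  exact Fermat.Agent.S34.Z1X0.isExt_V1X0 hA hqM

/-- the `w_q`-transform of the first component ring is the extension of type `G₂` -/
theorem isExt_R1_comap (X : Inputs hA hqM H) :
    (Fermat.Agent.S34.TwoGaussX0.setupX0 hA hqM).IsExt
      (Fermat.Agent.S34.TwoGaussX0.setupX0 hA hqM).G₂
      ((R1 X).O.comap ((wq M q hq.out hqM :
        ↥(modularFunctionFieldBar (M * q)) ≃ₐ[Kb] ↥(modularFunctionFieldBar (M * q))) :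
        ↥(modularFunctionFieldBar (M * q)) →+* ↥(modularFunctionFieldBar (M * q)))) := by
  rw [R1_O, X.comap_eq]
  exact Fermat.Agent.S34.Z1X0.isExt_V2X0 hA hqM

section Fill

variable (X : Inputs hA hqM H)
  (hO1 : ∀ f : ↥(modularFunctionFieldBar (M * q)), f ∈ (R1 X).O → f ∈ (G1X0 hA hqM).O)
  (hO2 : ∀ f : ↥(modularFunctionFieldBar (M * q)), f ∈ (R2 X).O → f ∈ (G2X0 hA hqM).O)
  (hrd1 : ∀ (f : ↥(modularFunctionFieldBar (M * q))) (h : f ∈ (R1 X).O)
    (h' : f ∈ (G1X0 hA hqM).O), (R1 X).red ⟨f, h⟩ = (G1X0 hA hqM).red ⟨f, h'⟩)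
  (hrd2 : ∀ (f : ↥(modularFunctionFieldBar (M * q))) (h : f ∈ (R2 X).O)
    (h' : f ∈ (G2X0 hA hqM).O), (R2 X).red ⟨f, h⟩ = (G2X0 hA hqM).red ⟨f, h'⟩)

include hO1 hO2 hrd1 hrd2

set_option maxHeartbeats 1600000 in
/-- **`PcgCusp.Hyp` for `(R1 X, R2 X)`** and any node set `S` with the properties output by
`EulerClosedX0.exists_nodes_closed`; `cuspL` = the places of `E` over the cusps of `X₀(M)`. -/
theorem hyp_of_inputs
    (S : Finset (Place (ResidueField ↥A) ↥(modularFunctionFieldFullC (ResidueField ↥A) M)))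
    (hS : ∀ b ∈ S, Fermat.Agent.S34.FrobK.Fr (ResidueField ↥A) M q
      (Fermat.Agent.S34.FrobK.Fr (ResidueField ↥A) M q b) = b ∧
        b ∉ Fermat.Agent.S34.Euler.FrobSide.P0 (ResidueField ↥A) M)
    (hbS : ∀ h₁ h₂ : ↥(modularFunctionFieldFullC (ResidueField ↥A) M),
      h₁ ∈ Fermat.Agent.S34.Euler.Places.regOff
        (Fermat.Agent.S34.Euler.FrobSide.P0 (ResidueField ↥A) M) →
      h₂ ∈ Fermat.Agent.S34.Euler.Places.regOff
        (Fermat.Agent.S34.Euler.FrobSide.P0 (ResidueField ↥A) M) →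
      ((h₁, h₂) ∈ Fermat.Agent.S34.Euler.Chart.Rbar0 (G1X0 hA hqM) (G2X0 hA hqM)
          (Fermat.Agent.S34.EulerX0.isPoleDiv_xE hqM).nonneg ↔
        ∀ b ∈ S, ∃ c : ResidueField ↥A,
          Fermat.Agent.S34.Euler.Value.HasValue
            (Fermat.Agent.S34.FrobK.Fr (ResidueField ↥A) M q b) h₁ c ∧
          Fermat.Agent.S34.Euler.Value.HasValue b h₂ c)) :
    Fermat.Agent.S34.PcgCusp.Hyp (R1 X) (R2 X)
      (Fermat.Agent.S34.FrobK.Fr (ResidueField ↥A) M q) (sp1 H) (sp2 H)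
      {P | Fermat.Agent.S34.CuspRedX0.cuspDiv M
        (resAlong (heckeAlphaBar Kb M q) (isIntegral_alpha hqM) P) ≠ 0} S :=
  Fermat.Agent.S34.PcgX0.hyp_X0 hqM hA H (isIntegral_alpha hqM) (isIntegral_beta M q)
    (wq M q hq.out hqM) (fun g => wq_alpha hq.out hqM g) (fun g => wq_beta hq.out hqM g)
    (fun x => wq_wq hq.out hqM x) X.good (R1 X) (R1_r X) X.Fr_Fr_ne (isExt_R1 X)
    (isExt_R1_comap X) X.α_mem X.red_α X.β_mem H.riemannL H.riemannK (G1X0 hA hqM) (G2X0 hA hqM)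
    hO1 hO2 hrd1 hrd2 S hS hbS

set_option maxHeartbeats 1600000 in
/-- **RECORD 2 filled**: the nodes of `X₀(M q)` mod `q`, with the Frobenius-square fixedness of
the nodes kept (used by the Frobenius twin, S35). -/
theorem exists_nodesC :
    ∃ Y : NodesC X, ∀ b ∈ Y.S, Fermat.Agent.S34.FrobK.Fr (ResidueField ↥A) M q
      (Fermat.Agent.S34.FrobK.Fr (ResidueField ↥A) M q b) = b := by
  obtain ⟨gE, HL⟩ := Fermat.Agent.S18.A.RiemannFk.exists_riemannHyp_FL (M * q)
  obtain ⟨S, hS, hNC, hbS⟩ := exists_nodes_closed hA hqM HL H.riemannK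
  have hyp := hyp_of_inputs X hO1 hO2 hrd1 hrd2 S hS hbS
  exact ⟨⟨S, _, hyp, gE, HL, hNC⟩, fun b hb => (hS b hb).1⟩

/-- **RECORD 2 filled.** -/
theorem nonempty_nodesC : Nonempty (NodesC X) := by
  obtain ⟨Y, -⟩ := exists_nodesC X hO1 hO2 hrd1 hrd2
  exact ⟨Y⟩

end Fill

end Fermat.Agent.S34.NodesCX0
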