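/-
PROJECT U (S34), Route G, instantiation glue (helper27): **the pair `(V₁, V₂)` of valuation rings of
`E = ℚ̄(X₀(M q))` over the Gauss ring `O` of `F = ℚ̄(X₀(M))` at a prime `q ∤ M`, with BOTH degeneracy
maps `α, β : F → E` and the four reduction formulas.**

`A` a valuation subring of `ℚ̄` over `q`, `k` its residue field, `κ = F_k(M)` the function field of
`X₀(M)` over `k`, `φ = Vk : κ → κ` the `k`-linear Frobenius `g(t) ↦ g(t^q)`.

* `V1` is the `t`-expansion Gauss ring of `E`: its carrier is `S18.GaussFromH.Ow A π (M q)` (fractions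
  of integral series; this is a subring at every level), and it is the type-1 extension of
  `TwoGaussX0.setupX0` (`isExt_V1`);  `red1 : V1 →+* κ` is the reduction of `t`-expansions.
* `red1 (α g) = ḡ`, `red1 (β g) = φ ḡ`, `V1.comap β = O`.
* the second extension `V2 = w⁻¹(V1)` (`w` the Atkin-Lehner involution), `red2 = red1 ∘ w`, with
  `red2 (α g) = φ ḡ`, `red2 (β g) = ḡ`, and the inertia action are in `S34/PairX0W.lean`.

WARNING for consumers: never let Lean compare objects of level `M q` with objects of level `M` by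
`rfl` (e.g. `Subtype.val` across `intRing A π (M * q)` and `intRing A π M`): the unifier unfolds both
levels completely.  Use the `coe_*` lemmas of this file.
-/
import Mathlib
import Fermat.Agent.S34.TwoGaussX0
import Fermat.Agent.S34.AtkinLehner

set_option autoImplicit false
set_option linter.unusedSectionVars false
set_option linter.style.haveILetI false

noncomputable section

namespace Fermat.Agent.S34.PairX0

open Polynomial ModularCurve AlgebraicCurve IsLocalRing HahnSeries
open Fermat.Agent.S24.DegreeAlg (jgen)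
open Fermat.Agent.S18.B.FkBasics (jk)
open Fermat.Agent.S18.GaussFromH
open Fermat.Agent.S37.Gauss.Datum
open Fermat.Agent.S37.ES.NormRed (Vk coe_Vk qExpand_mem_fullC)
open Fermat.Agent.S34.TwoGaussX0
open Fermat.Agent.S34.PowerBasisX0 (jl)

local notation "Kb" => AlgebraicClosure ℚ

/-! ### Raising the level of integral series -/

section Raise

variable {L : Type*} [Field L] [Algebra ℚ L] (A : ValuationSubring L)
variable {k : Type*} [Field k] (π : A →+* k) (M q : ℕ) [NeZero M] [NeZero q]

theorem mem_intRing_alpha (y : ↥(intRing A π M)) :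
    (intRing A π M).subtype y ∈ intRing A π (M * q) := by
  have h1 := (heckeAlphaBar L M q ⟨_, y.2.1⟩).2
  rw [coe_heckeAlphaBar] at h1
  exact ⟨h1, full_degeneracyC_le k (Dvd.intro q rfl) y.2.2⟩

theorem mem_intRing_beta (y : ↥(intRing A π M)) :
    ((qExpand ↥A q).comp (intRing A π M).subtype) y ∈ intRing A π (M * q) := by
  constructor
  · have h1 := (heckeBetaBar L M q ⟨_, y.2.1⟩).2
    rw [coe_heckeBetaBar] at h1
    show coeffMap A.subtype (qExpand ↥A q y.1) ∈
      laurentBaseChange L (modularFunctionFieldFull (M * q))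
    rw [Fermat.Agent.S28.PrimeCaseForm.coeffMap_qExpand]
    exact h1
  · show coeffMap π (qExpand ↥A q y.1) ∈ modularFunctionFieldFullC k (M * q)
    rw [Fermat.Agent.S28.PrimeCaseForm.coeffMap_qExpand]
    exact full_degeneracyC_map_le k M q ⟨_, y.2.2, rfl⟩

/-- an integral series of level `M` is an integral series of level `M q` -/
def alphaI : ↥(intRing A π M) →+* ↥(intRing A π (M * q)) :=
  (intRing A π M).subtype.codRestrict (intRing A π (M * q)) (mem_intRing_alpha A π M q)

theorem coe_alphaI (y : ↥(intRing A π M)) :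
    ((alphaI A π M q y : ↥(intRing A π (M * q))) : LaurentSeries ↥A) = y.1 :=
  RingHom.codRestrict_apply _ _ _ y

theorem toFL_alphaI (y : ↥(intRing A π M)) :
    toFL A π (M * q) (alphaI A π M q y) = heckeAlphaBar L M q (toFL A π M y) := by
  apply Subtype.ext
  rw [coe_heckeAlphaBar, coe_toFL, coe_toFL, coe_alphaI]

theorem coe_red_alphaI (y : ↥(intRing A π M)) :
    ((red A π (M * q) (alphaI A π M q y) : ↥(modularFunctionFieldFullC k (M * q))) :
      LaurentSeries k) = ((red A π M y : ↥(modularFunctionFieldFullC k M)) : LaurentSeries k) := by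
  rw [coe_red, coe_red, coe_alphaI]

/-- `y(t) ↦ y(t^q)` on integral series, raising the level from `M` to `M q` -/
def betaI : ↥(intRing A π M) →+* ↥(intRing A π (M * q)) :=
  ((qExpand ↥A q).comp (intRing A π M).subtype).codRestrict (intRing A π (M * q))
    (mem_intRing_beta A π M q)

theorem coe_betaI (y : ↥(intRing A π M)) :
    ((betaI A π M q y : ↥(intRing A π (M * q))) : LaurentSeries ↥A) = qExpand ↥A q y.1 :=
  RingHom.codRestrict_apply _ _ _ y

theorem toFL_betaI (y : ↥(intRing A π M)) :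
    toFL A π (M * q) (betaI A π M q y) = heckeBetaBar L M q (toFL A π M y) := by
  apply Subtype.ext
  rw [coe_heckeBetaBar, coe_toFL, coe_toFL, coe_betaI,
    Fermat.Agent.S28.PrimeCaseForm.coeffMap_qExpand]

theorem coe_red_betaI (y : ↥(intRing A π M)) :
    ((red A π (M * q) (betaI A π M q y) : ↥(modularFunctionFieldFullC k (M * q))) :
      LaurentSeries k) =
      qExpand k q ((red A π M y : ↥(modularFunctionFieldFullC k M)) : LaurentSeries k) := by
  rw [coe_red, coe_red, coe_betaI, Fermat.Agent.S28.PrimeCaseForm.coeffMap_qExpand]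

theorem red_alphaI_ne_zero {y : ↥(intRing A π M)} (h : red A π M y ≠ 0) :
    red A π (M * q) (alphaI A π M q y) ≠ 0 := by
  intro h0
  apply h
  apply Subtype.ext
  have h1 := congrArg Subtype.val h0
  rw [coe_red_alphaI, ZeroMemClass.coe_zero] at h1
  rw [h1, ZeroMemClass.coe_zero]

theorem red_betaI_ne_zero {y : ↥(intRing A π M)} (h : red A π M y ≠ 0) :
    red A π (M * q) (betaI A π M q y) ≠ 0 := by
  intro h0
  apply h
  apply Subtype.ext
  have h1 := congrArg Subtype.val h0
  rw [coe_red_betaI, ZeroMemClass.coe_zero] at h1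
  rw [ZeroMemClass.coe_zero]
  apply qExpand_injective (R := k) q
  rw [h1, map_zero]

/-- `α` maps the fraction ring `Ow` of level `M` into that of level `M q`, compatibly with the
reductions -/
theorem alpha_mem_Ow {f : ↥(laurentBaseChange L (modularFunctionFieldFull M))}
    (hf : f ∈ Ow A π M) :
    ∃ h : heckeAlphaBar L M q f ∈ Ow A π (M * q),
      ((redw A π (M * q) ⟨_, h⟩ : ↥(modularFunctionFieldFullC k (M * q))) : LaurentSeries k) =
        ((redw A π M ⟨f, hf⟩ : ↥(modularFunctionFieldFullC k M)) : LaurentSeries k) := by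
  obtain ⟨a, b, hb, hab⟩ := hf
  have hb' := red_alphaI_ne_zero A π M q hb
  have hab' : heckeAlphaBar L M q f * toFL A π (M * q) (alphaI A π M q b) =
      toFL A π (M * q) (alphaI A π M q a) := by
    rw [toFL_alphaI, toFL_alphaI, ← map_mul, hab]
  have hmem : heckeAlphaBar L M q f ∈ Ow A π (M * q) := ⟨_, _, hb', hab'⟩
  refine ⟨hmem, ?_⟩
  rw [redw_eq ⟨_, hmem⟩ hb' hab', redw_eq ⟨f, _⟩ hb hab, IntermediateField.coe_div,
    IntermediateField.coe_div, coe_red_alphaI, coe_red_alphaI]

/-- `β` maps the fraction ring `Ow` of level `M` into that of level `M q`; on reductions it is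
`g(t) ↦ g(t^q)` -/
theorem beta_mem_Ow {f : ↥(laurentBaseChange L (modularFunctionFieldFull M))}
    (hf : f ∈ Ow A π M) :
    ∃ h : heckeBetaBar L M q f ∈ Ow A π (M * q),
      ((redw A π (M * q) ⟨_, h⟩ : ↥(modularFunctionFieldFullC k (M * q))) : LaurentSeries k) =
        qExpand k q
          ((redw A π M ⟨f, hf⟩ : ↥(modularFunctionFieldFullC k M)) : LaurentSeries k) := by
  obtain ⟨a, b, hb, hab⟩ := hf
  have hb' := red_betaI_ne_zero A π M q hb
  have hab' : heckeBetaBar L M q f * toFL A π (M * q) (betaI A π M q b) =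
      toFL A π (M * q) (betaI A π M q a) := by
    rw [toFL_betaI, toFL_betaI, ← map_mul, hab]
  have hmem : heckeBetaBar L M q f ∈ Ow A π (M * q) := ⟨_, _, hb', hab'⟩
  refine ⟨hmem, ?_⟩
  rw [redw_eq ⟨_, hmem⟩ hb' hab', redw_eq ⟨f, _⟩ hb hab, IntermediateField.coe_div,
    IntermediateField.coe_div, coe_red_betaI, coe_red_betaI, map_div₀]

end Raise

/-! ### The `t`-expansion ring of `E` and its reduction to `F_k(M)` -/

section Pair

variable {q : ℕ} [hq : Fact q.Prime] {M : ℕ} [NeZero M] {A : ValuationSubring Kb}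
variable (hA : A.LiesOverPrime q) (hqM : ¬ q ∣ M) [NeZero q]

attribute [local instance] algFE

/-- the inclusion `F_k(M q) → F_k(M)` (an equality in characteristic `q`) -/
def toM (A : ValuationSubring Kb) (M q : ℕ) [NeZero M] [NeZero q] [Fact q.Prime]
    [CharP (ResidueField ↥A) q] :
    ↥(modularFunctionFieldFullC (ResidueField ↥A) (M * q)) →+*
      ↥(modularFunctionFieldFullC (ResidueField ↥A) M) :=
  (IntermediateField.inclusion
    (le_of_eq (Fermat.Agent.S34.AtkinLehner.fullC_mul_char (ResidueField ↥A) M q))).toRingHom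

theorem coe_toM [CharP (ResidueField ↥A) q]
    (x : ↥(modularFunctionFieldFullC (ResidueField ↥A) (M * q))) :
    ((toM A M q x : ↥(modularFunctionFieldFullC (ResidueField ↥A) M)) :
      LaurentSeries (ResidueField ↥A)) = (x : LaurentSeries (ResidueField ↥A)) :=
  IntermediateField.coe_inclusion _ x

/-- the `t`-expansion ring of `E = ℚ̄(X₀(M q))`: fractions of integral series -/
abbrev OwE (A : ValuationSubring Kb) (M q : ℕ) [NeZero M] [NeZero q] :
    Subring ↥(modularFunctionFieldBar (M * q)) := Ow A (residue ↥A) (M * q)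

/-- the reduction of `t`-expansions, with values in `F_k(M)` -/
def redE (A : ValuationSubring Kb) (M q : ℕ) [NeZero M] [NeZero q] [Fact q.Prime]
    [CharP (ResidueField ↥A) q] :
    ↥(OwE A M q) →+* ↥(modularFunctionFieldFullC (ResidueField ↥A) M) :=
  (toM A M q).comp (redw A (residue ↥A) (M * q))

theorem coe_redE [CharP (ResidueField ↥A) q] (x : ↥(OwE A M q)) :
    ((redE A M q x : ↥(modularFunctionFieldFullC (ResidueField ↥A) M)) :
      LaurentSeries (ResidueField ↥A)) =
      ((redw A (residue ↥A) (M * q) x : ↥(modularFunctionFieldFullC (ResidueField ↥A) (M * q))) :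
        LaurentSeries (ResidueField ↥A)) := by
  unfold redE
  rw [RingHom.comp_apply, coe_toM]

include hA hqM in
/-- `α` maps the Gauss ring of `F` into the `t`-expansion ring of `E`, compatibly with reductions -/
theorem alpha_mem [CharP (ResidueField ↥A) q] (c : ↥(gaussDatum M A hA hqM).O) :
    ∃ h : heckeAlphaBar Kb M q (c : ↥(modularFunctionFieldBar M)) ∈ OwE A M q,
      redE A M q ⟨_, h⟩ = (gaussDatum M A hA hqM).red c := by
  obtain ⟨h, hred⟩ := alpha_mem_Ow A (residue ↥A) M q
    (f := (c : ↥(modularFunctionFieldBar M))) c.2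
  refine ⟨h, Subtype.ext ?_⟩
  rw [coe_redE, hred]
  rfl

include hA hqM in
/-- `β` maps the Gauss ring of `F` into the `t`-expansion ring of `E`; on reductions it is the
Frobenius `g(t) ↦ g(t^q)` -/
theorem beta_mem [CharP (ResidueField ↥A) q] [PerfectField (ResidueField ↥A)]
    (c : ↥(gaussDatum M A hA hqM).O) :
    ∃ h : heckeBetaBar Kb M q (c : ↥(modularFunctionFieldBar M)) ∈ OwE A M q,
      redE A M q ⟨_, h⟩ = Vk M q (ResidueField ↥A) ((gaussDatum M A hA hqM).red c) := by
  obtain ⟨h, hred⟩ := beta_mem_Ow A (residue ↥A) M q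
    (f := (c : ↥(modularFunctionFieldBar M))) c.2
  refine ⟨h, Subtype.ext ?_⟩
  rw [coe_redE, hred, coe_Vk]
  rfl

/-! ### Evaluation of polynomials at `j_q` inside the `t`-expansion ring -/

include hA hqM in
theorem jl_mem [CharP (ResidueField ↥A) q] [PerfectField (ResidueField ↥A)] :
    ∃ h : jl M q ∈ OwE A M q,
      redE A M q ⟨_, h⟩ = jk (ResidueField ↥A) M ^ q := by
  obtain ⟨h, hred⟩ := beta_mem hA hqM (jO hA hqM)
  refine ⟨h, ?_⟩
  have e : redE A M q ⟨jl M q, h⟩ =
      Vk M q (ResidueField ↥A) ((gaussDatum M A hA hqM).red (jO hA hqM)) := hred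
  rw [e, red_jO]
  apply Subtype.ext
  rw [coe_Vk, SubmonoidClass.coe_pow, Fermat.Agent.S18.B.FkBasics.coe_jk]
  exact Fermat.Agent.S34.Kronecker.qExpand_jqModC_char q (ResidueField ↥A)

/-- `α` as a ring homomorphism from the Gauss ring of `F` to the `t`-expansion ring of `E` -/
def aO [CharP (ResidueField ↥A) q] : ↥(gaussDatum M A hA hqM).O →+* ↥(OwE A M q) :=
  ((heckeAlphaBar Kb M q).toRingHom.comp (gaussDatum M A hA hqM).O.subtype).codRestrict
    (OwE A M q) (fun c => (alpha_mem hA hqM c).1)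

theorem coe_aO [CharP (ResidueField ↥A) q] (c : ↥(gaussDatum M A hA hqM).O) :
    ((aO hA hqM c : ↥(OwE A M q)) : ↥(modularFunctionFieldBar (M * q))) =
      heckeAlphaBar Kb M q (c : ↥(modularFunctionFieldBar M)) :=
  RingHom.codRestrict_apply _ _ _ c

theorem redE_aO [CharP (ResidueField ↥A) q] (c : ↥(gaussDatum M A hA hqM).O) :
    redE A M q (aO hA hqM c) = (gaussDatum M A hA hqM).red c := by
  obtain ⟨h, hred⟩ := alpha_mem hA hqM c
  rw [← hred]
  congr 1

/-- evaluation at `j_q`, with values in the `t`-expansion ring -/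
def evE [CharP (ResidueField ↥A) q] [PerfectField (ResidueField ↥A)] :
    (↥(gaussDatum M A hA hqM).O)[X] →+* ↥(OwE A M q) :=
  eval₂RingHom (aO hA hqM) ⟨jl M q, (jl_mem hA hqM).1⟩

theorem coe_evE [CharP (ResidueField ↥A) q] [PerfectField (ResidueField ↥A)]
    (p : (↥(gaussDatum M A hA hqM).O)[X]) :
    ((evE hA hqM p : ↥(OwE A M q)) : ↥(modularFunctionFieldBar (M * q))) =
      (setupX0 hA hqM).ev p := by
  have h : (OwE A M q).subtype.comp (evE hA hqM) = (setupX0 hA hqM).ev := by
    refine Polynomial.ringHom_ext (fun c => ?_) ?_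
    · rw [RingHom.comp_apply, evE, coe_eval₂RingHom, eval₂_C, TwoExt.Setup.ev_C]
      exact coe_aO hA hqM c
    · rw [RingHom.comp_apply, evE, coe_eval₂RingHom, eval₂_X, TwoExt.Setup.ev_X, setupX0_t]
      rfl
  exact congrArg (fun f => f p) h

theorem redE_evE [CharP (ResidueField ↥A) q] [PerfectField (ResidueField ↥A)]
    (p : (↥(gaussDatum M A hA hqM).O)[X]) :
    redE A M q (evE hA hqM p) =
      (p.map (gaussDatum M A hA hqM).red).eval (jk (ResidueField ↥A) M ^ q) := by
  have h : (redE A M q).comp (evE hA hqM) =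
      (evalRingHom (jk (ResidueField ↥A) M ^ q)).comp
        (mapRingHom (gaussDatum M A hA hqM).red) := by
    refine Polynomial.ringHom_ext (fun c => ?_) ?_
    · rw [RingHom.comp_apply, evE, coe_eval₂RingHom, eval₂_C, redE_aO, RingHom.comp_apply,
        coe_mapRingHom, Polynomial.map_C, coe_evalRingHom, eval_C]
    · rw [RingHom.comp_apply, evE, coe_eval₂RingHom, eval₂_X, RingHom.comp_apply,
        coe_mapRingHom, Polynomial.map_X, coe_evalRingHom, eval_X]
      exact (jl_mem hA hqM).2
  exact congrArg (fun f => f p) h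

/-! ### The type-1 extension is the `t`-expansion ring -/

section TypeOne

variable [CharP (ResidueField ↥A) q] [PerfectField (ResidueField ↥A)]

/-- divisibility by the first factor mod `𝔪` is vanishing at `j̄^q` -/
theorem red_G₁_dvd_iff (s : (↥(gaussDatum M A hA hqM).O)[X]) :
    TwoExt.red (gaussDatum M A hA hqM).O (setupX0 hA hqM).G₁ ∣
        TwoExt.red (gaussDatum M A hA hqM).O s ↔
      redE A M q (evE hA hqM s) = 0 := by
  rw [setupX0_G₁, redE_evE, ← map_dvd_iff (Polynomial.mapEquiv (resEquiv hA hqM)),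
    mapEquiv_resEquiv_red, mapEquiv_resEquiv_red, map_red_G1O, dvd_iff_isRoot]
  rfl

variable {hA hqM} in
theorem exists_frac {V W : ValuationSubring ↥(modularFunctionFieldBar (M * q))}
    (hV : (setupX0 hA hqM).IsExt (setupX0 hA hqM).G₁ V)
    (hW : (setupX0 hA hqM).IsExt (setupX0 hA hqM).G₂ W)
    {x : ↥(modularFunctionFieldBar (M * q))} (hx : x ∈ V) :
    ∃ b s : (↥(gaussDatum M A hA hqM).O)[X], redE A M q (evE hA hqM s) ≠ 0 ∧
      V.valuation ((setupX0 hA hqM).ev s) = 1 ∧
      x * ((evE hA hqM s : ↥(OwE A M q)) : ↥(modularFunctionFieldBar (M * q))) =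
        ((evE hA hqM b : ↥(OwE A M q)) : ↥(modularFunctionFieldBar (M * q))) := by
  obtain ⟨b, s, hs, hxs⟩ := ((setupX0 hA hqM).mem_iff₁ hV hW x).mp hx
  refine ⟨b, s, fun h0 => hs ((red_G₁_dvd_iff hA hqM s).mpr h0),
    (setupX0 hA hqM).val_ev_eq_one_of_not_dvd hV (setupX0 hA hqM).irr₁ hs, ?_⟩
  rw [coe_evE, coe_evE]
  exact hxs

theorem coe_ne_zero_of_redE_ne_zero {y : ↥(OwE A M q)} (h : redE A M q y ≠ 0) :
    (y : ↥(modularFunctionFieldBar (M * q))) ≠ 0 := by
  intro h0
  apply h
  have : y = 0 := Subtype.ext h0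
  rw [this, map_zero]

theorem inv_mem_of_redE_ne_zero {y : ↥(OwE A M q)} (h : redE A M q y ≠ 0) :
    (y : ↥(modularFunctionFieldBar (M * q)))⁻¹ ∈ OwE A M q := by
  refine inv_mem_Ow_of_redw_ne_zero y fun h0 => h ?_
  unfold redE
  rw [RingHom.comp_apply, h0, map_zero]

variable {hA hqM} in
theorem mem_OwE_of_mem {V W : ValuationSubring ↥(modularFunctionFieldBar (M * q))}
    (hV : (setupX0 hA hqM).IsExt (setupX0 hA hqM).G₁ V)
    (hW : (setupX0 hA hqM).IsExt (setupX0 hA hqM).G₂ W)
    {x : ↥(modularFunctionFieldBar (M * q))} (hx : x ∈ V) : x ∈ OwE A M q := by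
  obtain ⟨b, s, hs, -, hxs⟩ := exists_frac hV hW hx
  have hs0 := coe_ne_zero_of_redE_ne_zero hs
  have : x = ((evE hA hqM b : ↥(OwE A M q)) : ↥(modularFunctionFieldBar (M * q))) *
      ((evE hA hqM s : ↥(OwE A M q)) : ↥(modularFunctionFieldBar (M * q)))⁻¹ := by
    rw [← hxs, mul_assoc, mul_inv_cancel₀ hs0, mul_one]
  rw [this]
  exact (OwE A M q).mul_mem (evE hA hqM b).2 (inv_mem_of_redE_ne_zero hs)

variable {hA hqM} in
theorem redE_eq_zero_of_lt {V W : ValuationSubring ↥(modularFunctionFieldBar (M * q))}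
    (hV : (setupX0 hA hqM).IsExt (setupX0 hA hqM).G₁ V)
    (hW : (setupX0 hA hqM).IsExt (setupX0 hA hqM).G₂ W)
    {x : ↥(modularFunctionFieldBar (M * q))} (hx : x ∈ OwE A M q) (hlt : V.valuation x < 1) :
    redE A M q ⟨x, hx⟩ = 0 := by
  have hxV : x ∈ V := (V.valuation_le_one_iff x).mp hlt.le
  obtain ⟨b, s, hs, hs1, hxs⟩ := exists_frac hV hW hxV
  have hb : V.valuation ((setupX0 hA hqM).ev b) < 1 := by
    rw [← coe_evE, ← hxs, map_mul, coe_evE, hs1, mul_one]
    exact hlt
  have hb0 : redE A M q (evE hA hqM b) = 0 :=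
    (red_G₁_dvd_iff hA hqM b).mp
      (((setupX0 hA hqM).val_lt_one_iff_dvd hV.comap (setupX0 hA hqM).irr₁ hV.lt b).mp hb)
  have hmul : (⟨x, hx⟩ : ↥(OwE A M q)) * evE hA hqM s = evE hA hqM b := Subtype.ext hxs
  have := congrArg (redE A M q) hmul
  rw [map_mul, hb0] at this
  exact (mul_eq_zero.mp this).resolve_right hs

variable {hA hqM} in
theorem mem_of_mem_OwE {V W : ValuationSubring ↥(modularFunctionFieldBar (M * q))}
    (hV : (setupX0 hA hqM).IsExt (setupX0 hA hqM).G₁ V)
    (hW : (setupX0 hA hqM).IsExt (setupX0 hA hqM).G₂ W)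
    {x : ↥(modularFunctionFieldBar (M * q))} (hx : x ∈ OwE A M q) : x ∈ V := by
  by_contra hxV
  have hgt : 1 < V.valuation x := not_le.mp fun h => hxV ((V.valuation_le_one_iff x).mp h)
  have hx0 : x ≠ 0 := by
    rintro rfl
    rw [map_zero] at hgt
    exact not_lt_zero hgt
  have hlt : V.valuation x⁻¹ < 1 := by
    rw [map_inv₀]
    exact inv_lt_one_of_one_lt₀ hgt
  have hinvV : x⁻¹ ∈ V := (V.valuation_le_one_iff _).mp hlt.le
  have hinv : x⁻¹ ∈ OwE A M q := mem_OwE_of_mem hV hW hinvV
  have h0 := redE_eq_zero_of_lt hV hW hinv hlt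
  have hmul : (⟨x, hx⟩ : ↥(OwE A M q)) * ⟨x⁻¹, hinv⟩ = 1 :=
    Subtype.ext (mul_inv_cancel₀ hx0)
  have := congrArg (redE A M q) hmul
  rw [map_mul, h0, mul_zero, map_one] at this
  exact zero_ne_one this

/-- **the `t`-expansion Gauss ring of `E = ℚ̄(X₀(M q))`** (`q ∤ M`), as a valuation subring: its
carrier is the ring `Ow` of fractions of integral series. -/
def V1 : ValuationSubring ↥(modularFunctionFieldBar (M * q)) :=
  { OwE A M q with
    mem_or_inv_mem' := fun x => by
      obtain ⟨V, hV⟩ := (setupX0 hA hqM).exists_isExt₁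
      obtain ⟨W, hW⟩ := (setupX0 hA hqM).exists_isExt₂
      rcases V.mem_or_inv_mem x with h | h
      · exact Or.inl (mem_OwE_of_mem hV hW h)
      · exact Or.inr (mem_OwE_of_mem hV hW h) }

theorem mem_V1_iff {x : ↥(modularFunctionFieldBar (M * q))} :
    x ∈ V1 hA hqM ↔ x ∈ OwE A M q := Iff.rfl

/-- the `t`-expansion ring is THE type-1 extension of the Gauss ring of `F` -/
theorem isExt_V1 : (setupX0 hA hqM).IsExt (setupX0 hA hqM).G₁ (V1 hA hqM) := by
  obtain ⟨V, hV⟩ := (setupX0 hA hqM).exists_isExt₁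
  obtain ⟨W, hW⟩ := (setupX0 hA hqM).exists_isExt₂
  have h : V1 hA hqM = V :=
    ValuationSubring.ext _ _ fun x => ⟨fun hx => mem_of_mem_OwE hV hW hx,
      fun hx => mem_OwE_of_mem hV hW hx⟩
  rw [h]
  exact hV

/-- the reduction of `t`-expansions on `V1`, with values in `F_k(M)` -/
def red1 : ↥(V1 hA hqM) →+* ↥(modularFunctionFieldFullC (ResidueField ↥A) M) :=
  redE A M q

theorem red1_eq_zero_iff (x : ↥(V1 hA hqM)) :
    red1 hA hqM x = 0 ↔ (V1 hA hqM).valuation (x : ↥(modularFunctionFieldBar (M * q))) < 1 := by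
  obtain ⟨W, hW⟩ := (setupX0 hA hqM).exists_isExt₂
  constructor
  · intro h0
    by_contra hlt
    have h1 : (V1 hA hqM).valuation (x : ↥(modularFunctionFieldBar (M * q))) = 1 :=
      le_antisymm ((V1 hA hqM).valuation_le_one x) (not_lt.mp hlt)
    have hx0 : (x : ↥(modularFunctionFieldBar (M * q))) ≠ 0 := by
      intro h
      rw [h, map_zero] at h1
      exact zero_ne_one h1
    have hinv : (x : ↥(modularFunctionFieldBar (M * q)))⁻¹ ∈ V1 hA hqM := by
      rw [← ValuationSubring.valuation_le_one_iff, map_inv₀, h1, inv_one]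
    have hmul : x * ⟨_, hinv⟩ = 1 := Subtype.ext (mul_inv_cancel₀ hx0)
    have := congrArg (red1 hA hqM) hmul
    rw [map_mul, h0, zero_mul, map_one] at this
    exact zero_ne_one this
  · intro hlt
    exact redE_eq_zero_of_lt (isExt_V1 hA hqM) hW x.2 hlt

/-! ### The two degeneracy maps on `V1` -/

theorem alpha_mem_V1 (c : ↥(gaussDatum M A hA hqM).O) :
    ∃ h : heckeAlphaBar Kb M q (c : ↥(modularFunctionFieldBar M)) ∈ V1 hA hqM,
      red1 hA hqM ⟨_, h⟩ = (gaussDatum M A hA hqM).red c :=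
  alpha_mem hA hqM c

theorem beta_mem_V1 (c : ↥(gaussDatum M A hA hqM).O) :
    ∃ h : heckeBetaBar Kb M q (c : ↥(modularFunctionFieldBar M)) ∈ V1 hA hqM,
      red1 hA hqM ⟨_, h⟩ = Vk M q (ResidueField ↥A) ((gaussDatum M A hA hqM).red c) :=
  beta_mem hA hqM c

theorem red1_surjective : Function.Surjective (red1 hA hqM) := fun y => by
  obtain ⟨c, rfl⟩ := red_surjective hA hqM y
  obtain ⟨h, hred⟩ := alpha_mem_V1 hA hqM c
  exact ⟨⟨_, h⟩, hred⟩

/-- **`V1 ∩ β(F)` is the Gauss ring of `F`**: `β` preserves the Gauss norm of `t`-expansions -/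
theorem comap_beta_V1 :
    (V1 hA hqM).comap (heckeBetaBar Kb M q).toRingHom = (gaussDatum M A hA hqM).O := by
  refine ValuationSubring.ext _ _ fun x => ?_
  rw [ValuationSubring.mem_comap]
  constructor
  · intro hx
    by_contra hxO
    have hinv : x⁻¹ ∈ (gaussDatum M A hA hqM).O :=
      ((gaussDatum M A hA hqM).O.mem_or_inv_mem x).resolve_left hxO
    have hx0 : x ≠ 0 := by
      rintro rfl
      exact hxO (gaussDatum M A hA hqM).O.zero_mem
    have hnu : ¬ IsUnit (⟨x⁻¹, hinv⟩ : ↥(gaussDatum M A hA hqM).O) := by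
      intro hu
      obtain ⟨v, hv⟩ := hu.exists_right_inv
      have h1 : x⁻¹ * (v : ↥(modularFunctionFieldBar M)) = 1 := congrArg Subtype.val hv
      have h2 : (v : ↥(modularFunctionFieldBar M)) = x := by
        field_simp at h1
        exact h1
      exact hxO (h2 ▸ v.2)
    have hred0 := ((gaussDatum M A hA hqM).red_eq_zero_iff _).mpr hnu
    obtain ⟨h, hred⟩ := beta_mem_V1 hA hqM ⟨x⁻¹, hinv⟩
    rw [hred0, map_zero] at hred
    have hlt := (red1_eq_zero_iff hA hqM _).mp hred
    have hle := (ValuationSubring.valuation_le_one_iff _ _).mpr hx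
    have h3 : (V1 hA hqM).valuation ((heckeBetaBar Kb M q).toRingHom x) *
        (V1 hA hqM).valuation (heckeBetaBar Kb M q (x⁻¹ : ↥(modularFunctionFieldBar M))) = 1 := by
      rw [← map_mul]
      show (V1 hA hqM).valuation (heckeBetaBar Kb M q x * heckeBetaBar Kb M q x⁻¹) = 1
      rw [← map_mul, mul_inv_cancel₀ hx0, map_one, map_one]
    have h4 : (V1 hA hqM).valuation ((heckeBetaBar Kb M q).toRingHom x) *
        (V1 hA hqM).valuation (heckeBetaBar Kb M q (x⁻¹ : ↥(modularFunctionFieldBar M))) < 1 :=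
      mul_lt_one_of_nonneg_of_lt_one_right hle zero_le hlt
    rw [h3] at h4
    exact lt_irrefl _ h4
  · intro hx
    exact (beta_mem_V1 hA hqM ⟨x, hx⟩).1

end TypeOne

end Pair

end Fermat.Agent.S34.PairX0
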