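/-
PROJECT U (S34), Route G, instantiation glue (helper27), second file: **the second extension `V2` of
the Gauss ring of `F = ℚ̄(X₀(M))` to `E = ℚ̄(X₀(M q))`, through the Atkin-Lehner involution, and the
inertia action on both.**

`V2 = w⁻¹(V1)` (`w` the Atkin-Lehner involution, `w α = β`, `w β = α`), `red2 = red1 ∘ w`:
* `isExt_V2` : `V2` is the type-2 extension of `TwoGaussX0.setupX0` (`G₂(j_q) = j_q^q - j ∈ 𝔪`);
* `red2 (α g) = φ ḡ`, `red2 (β g) = ḡ` (`φ = Vk`, the Frobenius `g(t) ↦ g(t^q)` of `F_k(M)`);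
  `V2.comap α = V2.comap β = O`; `red2` is onto with kernel the maximal ideal; `V1 ≠ V2`;
* `red1_smul_inertia`, `red2_smul_inertia` : an element of the inertia group of `A` preserves `V1`,
  `V2` and acts trivially on the reductions.
-/
import Mathlib
import Fermat.Agent.S34.PairX0

set_option autoImplicit false
set_option linter.unusedSectionVars false
set_option linter.style.haveILetI false

noncomputable section

namespace Fermat.Agent.S34.PairX0W

open Polynomial ModularCurve AlgebraicCurve IsLocalRing HahnSeries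
open Fermat.Agent.S24.DegreeAlg (jgen)
open Fermat.Agent.S18.B.FkBasics (jk)
open Fermat.Agent.S18.GaussFromH
open Fermat.Agent.S37.Gauss.Datum
open Fermat.Agent.S37.ES.NormRed (Vk coe_Vk)
open Fermat.Agent.S34.TwoGaussX0
open Fermat.Agent.S34.PowerBasisX0 (jl)
open Fermat.Agent.S34.PairX0

local notation "Kb" => AlgebraicClosure ℚ

variable {q : ℕ} [hq : Fact q.Prime] {M : ℕ} [NeZero M] {A : ValuationSubring Kb}
variable (hA : A.LiesOverPrime q) (hqM : ¬ q ∣ M) [NeZero q]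
variable [CharP (ResidueField ↥A) q] [PerfectField (ResidueField ↥A)]

attribute [local instance] algFE

/-! ### The second extension, through the Atkin-Lehner involution -/

/-- the Atkin-Lehner involution of `E = ℚ̄(X₀(M q))` (a choice from `AtkinLehner.exists_wq`) -/
def wq (M q : ℕ) [NeZero M] [NeZero q] [hq : Fact q.Prime] (hqM : ¬ q ∣ M) :
    ↥(modularFunctionFieldBar (M * q)) ≃ₐ[Kb] ↥(modularFunctionFieldBar (M * q)) :=
  Classical.choose (Fermat.Agent.S34.AtkinLehner.exists_wq hq.out hqM)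

theorem wq_alpha (g : ↥(modularFunctionFieldBar M)) :
    wq M q hqM (heckeAlphaBar Kb M q g) = heckeBetaBar Kb M q g :=
  (Classical.choose_spec (Fermat.Agent.S34.AtkinLehner.exists_wq hq.out hqM)).1 g

theorem wq_beta (g : ↥(modularFunctionFieldBar M)) :
    wq M q hqM (heckeBetaBar Kb M q g) = heckeAlphaBar Kb M q g :=
  (Classical.choose_spec (Fermat.Agent.S34.AtkinLehner.exists_wq hq.out hqM)).2.1 g

theorem wq_wq (x : ↥(modularFunctionFieldBar (M * q))) : wq M q hqM (wq M q hqM x) = x :=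
  (Classical.choose_spec (Fermat.Agent.S34.AtkinLehner.exists_wq hq.out hqM)).2.2.1 x

/-- **the second extension** `V2 = w⁻¹(V1)` -/
def V2 : ValuationSubring ↥(modularFunctionFieldBar (M * q)) :=
  (V1 hA hqM).comap ((wq M q hqM).toRingEquiv : ↥(modularFunctionFieldBar (M * q)) →+* _)

theorem mem_V2_iff {x : ↥(modularFunctionFieldBar (M * q))} :
    x ∈ V2 hA hqM ↔ wq M q hqM x ∈ V1 hA hqM := Iff.rfl

theorem val_V2_lt_one_iff (y : ↥(modularFunctionFieldBar (M * q))) :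
    (V2 hA hqM).valuation y < 1 ↔ (V1 hA hqM).valuation (wq M q hqM y) < 1 :=
  TwoExt.Setup.val_comap_lt_one_iff (wq M q hqM).toRingEquiv (V1 hA hqM) y

/-- `w` maps `V2` to `V1` -/
def wV (x : ↥(V2 hA hqM)) : ↥(V1 hA hqM) :=
  ⟨wq M q hqM (x : ↥(modularFunctionFieldBar (M * q))), (mem_V2_iff hA hqM).mp x.2⟩

theorem coe_wV (x : ↥(V2 hA hqM)) :
    ((wV hA hqM x : ↥(V1 hA hqM)) : ↥(modularFunctionFieldBar (M * q))) =
      wq M q hqM (x : ↥(modularFunctionFieldBar (M * q))) := rfl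

/-- the reduction on `V2`, with values in `F_k(M)` (the residue field of `V2` is identified with
`F_k(M)` through `β`) -/
def red2 : ↥(V2 hA hqM) →+* ↥(modularFunctionFieldFullC (ResidueField ↥A) M) where
  toFun x := red1 hA hqM (wV hA hqM x)
  map_one' := by
    have h : wV hA hqM 1 = 1 := Subtype.ext (map_one (wq M q hqM))
    rw [h, map_one]
  map_mul' x y := by
    have h : wV hA hqM (x * y) = wV hA hqM x * wV hA hqM y :=
      Subtype.ext (map_mul (wq M q hqM) _ _)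
    rw [h, map_mul]
  map_zero' := by
    have h : wV hA hqM 0 = 0 := Subtype.ext (map_zero (wq M q hqM))
    rw [h, map_zero]
  map_add' x y := by
    have h : wV hA hqM (x + y) = wV hA hqM x + wV hA hqM y :=
      Subtype.ext (map_add (wq M q hqM) _ _)
    rw [h, map_add]

theorem red2_apply (x : ↥(V2 hA hqM)) : red2 hA hqM x = red1 hA hqM (wV hA hqM x) := rfl

theorem red2_eq_zero_iff (x : ↥(V2 hA hqM)) :
    red2 hA hqM x = 0 ↔ (V2 hA hqM).valuation (x : ↥(modularFunctionFieldBar (M * q))) < 1 := by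
  rw [val_V2_lt_one_iff, ← coe_wV, ← red1_eq_zero_iff, red2_apply]

theorem alpha_mem_V2 (c : ↥(gaussDatum M A hA hqM).O) :
    ∃ h : heckeAlphaBar Kb M q (c : ↥(modularFunctionFieldBar M)) ∈ V2 hA hqM,
      red2 hA hqM ⟨_, h⟩ = Vk M q (ResidueField ↥A) ((gaussDatum M A hA hqM).red c) := by
  obtain ⟨h, hred⟩ := beta_mem_V1 hA hqM c
  have hmem : heckeAlphaBar Kb M q (c : ↥(modularFunctionFieldBar M)) ∈ V2 hA hqM := by
    rw [mem_V2_iff, wq_alpha]
    exact h
  refine ⟨hmem, ?_⟩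
  rw [← hred, red2_apply]
  congr 1
  exact Subtype.ext ((coe_wV hA hqM _).trans (wq_alpha hqM _))

theorem beta_mem_V2 (c : ↥(gaussDatum M A hA hqM).O) :
    ∃ h : heckeBetaBar Kb M q (c : ↥(modularFunctionFieldBar M)) ∈ V2 hA hqM,
      red2 hA hqM ⟨_, h⟩ = (gaussDatum M A hA hqM).red c := by
  obtain ⟨h, hred⟩ := alpha_mem_V1 hA hqM c
  have hmem : heckeBetaBar Kb M q (c : ↥(modularFunctionFieldBar M)) ∈ V2 hA hqM := by
    rw [mem_V2_iff, wq_beta]
    exact h
  refine ⟨hmem, ?_⟩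
  rw [← hred, red2_apply]
  congr 1
  exact Subtype.ext ((coe_wV hA hqM _).trans (wq_beta hqM _))

theorem red2_surjective : Function.Surjective (red2 hA hqM) := fun y => by
  obtain ⟨c, rfl⟩ := red_surjective hA hqM y
  obtain ⟨h, hred⟩ := beta_mem_V2 hA hqM c
  exact ⟨⟨_, h⟩, hred⟩

theorem comap_alpha_V2 :
    (V2 hA hqM).comap (algebraMap ↥(modularFunctionFieldBar M) ↥(modularFunctionFieldBar (M * q))) =
      (gaussDatum M A hA hqM).O := by
  rw [← comap_beta_V1 hA hqM]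
  refine ValuationSubring.ext _ _ fun x => ?_
  rw [ValuationSubring.mem_comap, ValuationSubring.mem_comap, mem_V2_iff, algebraMap_FE, wq_alpha]
  rfl

theorem comap_beta_V2 :
    (V2 hA hqM).comap (heckeBetaBar Kb M q).toRingHom = (gaussDatum M A hA hqM).O := by
  rw [← (isExt_V1 hA hqM).comap]
  refine ValuationSubring.ext _ _ fun x => ?_
  rw [ValuationSubring.mem_comap, ValuationSubring.mem_comap, mem_V2_iff, algebraMap_FE]
  show wq M q hqM (heckeBetaBar Kb M q x) ∈ V1 hA hqM ↔ _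
  rw [wq_beta]

/-- `V2` is THE type-2 extension of the Gauss ring of `F` -/
theorem isExt_V2 : (setupX0 hA hqM).IsExt (setupX0 hA hqM).G₂ (V2 hA hqM) := by
  refine ⟨comap_alpha_V2 hA hqM, ?_⟩
  rw [val_V2_lt_one_iff]
  have h1 := (isExt_V1 hA hqM).lt
  have e1 : (setupX0 hA hqM).ev (setupX0 hA hqM).G₁ =
      jl M q - heckeAlphaBar Kb M q (jgen M) ^ q := by
    rw [setupX0_G₁, G1O, TwoExt.Setup.ev_apply, eval₂_sub, eval₂_X, eval₂_C, setupX0_t,
      TwoExt.coeffHom_apply, algebraMap_FE]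
    simp
  have e2 : (setupX0 hA hqM).ev (setupX0 hA hqM).G₂ =
      jl M q ^ q - heckeAlphaBar Kb M q (jgen M) := by
    rw [setupX0_G₂, G2O, TwoExt.Setup.ev_apply, eval₂_sub, eval₂_pow, eval₂_X, eval₂_C, setupX0_t,
      TwoExt.coeffHom_apply, algebraMap_FE]
    rfl
  have e3 : wq M q hqM ((setupX0 hA hqM).ev (setupX0 hA hqM).G₂) =
      -((setupX0 hA hqM).ev (setupX0 hA hqM).G₁) := by
    rw [e1, e2, map_sub, map_pow, wq_alpha]
    show wq M q hqM (heckeBetaBar Kb M q (jgen M)) ^ q - _ = _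
    rw [wq_beta]
    show _ = -(heckeBetaBar Kb M q (jgen M) - _)
    ring
  rw [e3, Valuation.map_neg]
  exact h1

theorem V1_ne_V2 : V1 hA hqM ≠ V2 hA hqM := fun h =>
  (setupX0 hA hqM).not_isExt_both (isExt_V1 hA hqM) (h ▸ isExt_V2 hA hqM)


/-! ### Inertia -/

/-- **inertia preserves `V1` and acts trivially on its reduction** -/
theorem red1_smul_inertia {σ : Kb ≃ₐ[ℚ] Kb} (hσ : σ ∈ A.inertiaSubgroupIn ℚ)
    (x : ↥(V1 hA hqM)) :
    ∃ h : arithmeticGalois (modularFunctionFieldFull (M * q)) σ •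
        (x : ↥(modularFunctionFieldBar (M * q))) ∈ V1 hA hqM,
      red1 hA hqM ⟨_, h⟩ = red1 hA hqM x := by
  have hI := isInertial hA hqM hσ
  have hmem : SemilinearAut.toRingAut (arithmeticGalois (modularFunctionFieldFull (M * q)) σ)
      (x : ↥(modularFunctionFieldBar (M * q))) ∈ V1 hA hqM :=
    ((setupX0 hA hqM).sigma_mem_iff₁ hI (isExt_V1 hA hqM) _).mpr x.2
  have hlt := (setupX0 hA hqM).sub_lt_one_of_fix₁ hI (isExt_V1 hA hqM) x.2
  refine ⟨hmem, ?_⟩
  have h0 := (red1_eq_zero_iff hA hqM (⟨_, hmem⟩ - x)).mpr hlt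
  rw [map_sub, sub_eq_zero] at h0
  exact h0

/-- **inertia preserves `V2` and acts trivially on its reduction** -/
theorem red2_smul_inertia {σ : Kb ≃ₐ[ℚ] Kb} (hσ : σ ∈ A.inertiaSubgroupIn ℚ)
    (x : ↥(V2 hA hqM)) :
    ∃ h : arithmeticGalois (modularFunctionFieldFull (M * q)) σ •
        (x : ↥(modularFunctionFieldBar (M * q))) ∈ V2 hA hqM,
      red2 hA hqM ⟨_, h⟩ = red2 hA hqM x := by
  have hI := isInertial hA hqM hσ
  have hmem : SemilinearAut.toRingAut (arithmeticGalois (modularFunctionFieldFull (M * q)) σ)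
      (x : ↥(modularFunctionFieldBar (M * q))) ∈ V2 hA hqM :=
    ((setupX0 hA hqM).sigma_mem_iff₂ hI (isExt_V2 hA hqM) _).mpr x.2
  have hlt := (setupX0 hA hqM).sub_lt_one_of_fix₂ hI (isExt_V2 hA hqM) x.2
  refine ⟨hmem, ?_⟩
  have h0 := (red2_eq_zero_iff hA hqM (⟨_, hmem⟩ - x)).mpr hlt
  rw [map_sub, sub_eq_zero] at h0
  exact h0

/-! ### Summary -/

/-- **The pair `(V1, V2)` of `X₀(M q)` over the Gauss ring of `X₀(M)`, with the four reduction
formulas** (`φ = Vk`, the Frobenius `g(t) ↦ g(t^q)` of `F_k(M)`):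
`red1 α = red`, `red1 β = φ red`, `red2 α = φ red`, `red2 β = red`. -/
theorem pair_summary :
    (setupX0 hA hqM).IsExt (setupX0 hA hqM).G₁ (V1 hA hqM) ∧
    (setupX0 hA hqM).IsExt (setupX0 hA hqM).G₂ (V2 hA hqM) ∧
    (∀ c : ↥(gaussDatum M A hA hqM).O,
      (∃ h : heckeAlphaBar Kb M q (c : ↥(modularFunctionFieldBar M)) ∈ V1 hA hqM,
        red1 hA hqM ⟨_, h⟩ = (gaussDatum M A hA hqM).red c) ∧
      (∃ h : heckeBetaBar Kb M q (c : ↥(modularFunctionFieldBar M)) ∈ V1 hA hqM,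
        red1 hA hqM ⟨_, h⟩ = Vk M q (ResidueField ↥A) ((gaussDatum M A hA hqM).red c)) ∧
      (∃ h : heckeAlphaBar Kb M q (c : ↥(modularFunctionFieldBar M)) ∈ V2 hA hqM,
        red2 hA hqM ⟨_, h⟩ = Vk M q (ResidueField ↥A) ((gaussDatum M A hA hqM).red c)) ∧
      (∃ h : heckeBetaBar Kb M q (c : ↥(modularFunctionFieldBar M)) ∈ V2 hA hqM,
        red2 hA hqM ⟨_, h⟩ = (gaussDatum M A hA hqM).red c)) :=
  ⟨isExt_V1 hA hqM, isExt_V2 hA hqM, fun c =>
    ⟨alpha_mem_V1 hA hqM c, beta_mem_V1 hA hqM c, alpha_mem_V2 hA hqM c, beta_mem_V2 hA hqM c⟩⟩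

end Fermat.Agent.S34.PairX0W
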