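import Mathlib
import Fermat.Agent.S24.PlacePrime
import Fermat.Agent.S18.CoreOrd
import Fermat.Agent.S18.A.RiemannBasic
import Fermat.Agent.S34.Sandwich

/-!
# PROJECT U (S34), Route G: the sandwich on the `k`-side, in the language of places

`κ/k` a function field, `B ⊆ κ` a Dedekind domain with fraction field `κ` (in the application the
holomorphy ring of a chart: the integral closure of `k[x]` in `κ`), `φ : κ → κ` a `k`-linear ring
homomorphism preserving `B` (the Frobenius pull-back) and `Fr : Place k κ → Place k κ` with the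
rule `ord_v (φ g) = q · ord_{Fr v} g`, `q ≥ 2`.

* `mem_of_forall_exists_intValuation_le` : local-global principle for ideals of a Dedekind domain;
* `inf_le_span` : the intersection of the primes of `B` whose place is fixed by `Fr²` is contained
  in the ideal generated by the `g - φ (φ g)`, `g ∈ B`  [the hypothesis `hJ` of
  `Sandwich.exists_nodes`];
* `mem_asIdeal_sub_iff` : `h₂ - φ h₁ ∈ P` iff `h₁` and `h₂` take the same value at `Fr a` and `a`
  (`a` the place of `P`);
* **`exists_nodes`** : for every ring `R₀` with `ρ₁ ρ₂ : R₀ →+* B` whose image contains the two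
  graphs `(g, φ g)`, `(φ g, g)`, there is a finite set `N` of `Fr²`-fixed primes such that a pair
  `(h₁, h₂) ∈ B × B` is of the form `(ρ₁ h, ρ₂ h)` iff it is glued at `(Fr a, a)` for all `a ∈ N`;
  `exists_nodes_places` : the same with `N` a finite set of places.
-/

set_option autoImplicit false

noncomputable section

namespace Fermat.Agent.S34.SandwichK

open AlgebraicCurve IsDedekindDomain WithZero Fermat.Agent.S24.PlacePrime Fermat.Agent.S24.Ord

/-! ### a local-global principle in Dedekind domains -/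

/-- If for every nonzero prime `v` of a Dedekind domain `A` (not a field) the ideal `I` contains an
element `u` with `v(w) ≤ v(u)`, then `w ∈ I`. -/
theorem mem_of_forall_exists_intValuation_le {A : Type*} [CommRing A] [IsDedekindDomain A]
    (hA : ¬ IsField A) (I : Ideal A) (w : A)
    (h : ∀ v : HeightOneSpectrum A, ∃ u ∈ I, v.intValuation w ≤ v.intValuation u) : w ∈ I := by
  classical
  by_contra hw
  -- the conductor ideal `{s | s * w ∈ I}`
  let 𝔞 : Ideal A := Submodule.comap (LinearMap.mulRight A w) I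
  have hmem : ∀ s : A, s ∈ 𝔞 ↔ s * w ∈ I := fun s => by
    show (LinearMap.mulRight A w) s ∈ I ↔ _
    rw [LinearMap.mulRight_apply]
  have h𝔞 : 𝔞 ≠ ⊤ := by
    intro htop
    apply hw
    have h1 : (1 : A) ∈ 𝔞 := htop ▸ Submodule.mem_top
    rw [hmem, one_mul] at h1
    exact h1
  obtain ⟨m, hm, hle⟩ := Ideal.exists_le_maximal 𝔞 h𝔞
  have hm0 : m ≠ ⊥ := Ring.ne_bot_of_isMaximal_of_not_isField hm hA
  let v : HeightOneSpectrum A := ⟨m, hm.isPrime, hm0⟩
  obtain ⟨u, hu, hle'⟩ := h v
  by_cases hu0 : u = 0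
  · subst hu0
    rw [map_zero] at hle'
    have hw0 : w = 0 := by
      by_contra hne
      exact v.intValuation_ne_zero w hne (le_antisymm hle' zero_le)
    exact hw (hw0 ▸ I.zero_mem)
  · let K := FractionRing A
    have hu' : v.intValuation u ≠ 0 := v.intValuation_ne_zero u hu0
    have hval : v.valuation K (algebraMap A K w / algebraMap A K u) ≤ 1 := by
      rw [map_div₀, HeightOneSpectrum.valuation_of_algebraMap,
        HeightOneSpectrum.valuation_of_algebraMap]
      exact (div_le_one₀ (zero_lt_iff.mpr hu')).mpr hle'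
    obtain ⟨n, d, hnd⟩ := v.exists_primeCompl_mul_eq_of_integer _ hval
    have huK : algebraMap A K u ≠ 0 :=
      (map_ne_zero_iff _ (IsFractionRing.injective A K)).mpr hu0
    have heq : (d : A) * w = n * u := by
      apply IsFractionRing.injective A K
      rw [map_mul, map_mul]
      rw [div_mul_eq_mul_div, div_eq_iff huK] at hnd
      linear_combination hnd
    have hd : (d : A) ∈ 𝔞 := by
      rw [hmem, heq]
      exact I.mul_mem_left _ hu
    exact d.2 (hle hd)

/-! ### primes of `B` and places of `κ` -/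

section FF

variable {k κ : Type*} [Field k] [Field κ] [Algebra k κ]
variable {B : Type*} [CommRing B] [IsDedekindDomain B] [Algebra B κ] [IsFractionRing B κ]
  [Algebra k B] [IsScalarTower k B κ]

theorem adicValuation_placeOfPrime (P : HeightOneSpectrum B) (f : κ) :
    (placeOfPrime (K := k) P).adicValuation f = P.valuation κ f := by
  rcases eq_or_ne f 0 with rfl | hf
  · simp
  · rw [adicValuation_eq _ hf, valuation_eq_exp_neg_placeOfPrime_ord (K := k) P hf]

theorem intValuation_eq_exp_neg_ord (P : HeightOneSpectrum B) {b : B} (hb : b ≠ 0) :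
    P.intValuation b = exp (-(placeOfPrime (K := k) P).ord (algebraMap B κ b)) := by
  rw [← HeightOneSpectrum.valuation_of_algebraMap (K := κ),
    valuation_eq_exp_neg_placeOfPrime_ord (K := k) P
      ((map_ne_zero_iff _ (IsFractionRing.injective B κ)).mpr hb)]

/-- elements of `B` are regular at the places of the primes of `B` -/
theorem adicValuation_algebraMap_le_one (P : HeightOneSpectrum B) (b : B) :
    (placeOfPrime (K := k) P).adicValuation (algebraMap B κ b) ≤ 1 := by
  rw [adicValuation_placeOfPrime]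
  exact P.valuation_le_one b

theorem mem_asIdeal_iff (P : HeightOneSpectrum B) (b : B) :
    b ∈ P.asIdeal ↔ (placeOfPrime (K := k) P).adicValuation (algebraMap B κ b) < 1 := by
  rw [adicValuation_placeOfPrime, HeightOneSpectrum.valuation_lt_one_iff_mem]

/-- The Frobenius data on `(κ, B)`: `φ` is `k`-linear, preserves `B`, and multiplies orders by `q`
after moving the place by `Fr`; `Fr` preserves the places coming from primes of `B`. -/
structure FrobData (φ : κ →+* κ) (φB : B →+* B) (Fr : Place k κ → Place k κ) (q : ℕ) : Prop where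
  two_le : 2 ≤ q
  map_eq : ∀ b : B, algebraMap B κ (φB b) = φ (algebraMap B κ b)
  map_const : ∀ c : k, φ (algebraMap k κ c) = algebraMap k κ c
  ord_map : ∀ (v : Place k κ) (g : κ), v.ord (φ g) = q * (Fr v).ord g
  fr_prime : ∀ P : HeightOneSpectrum B, ∃ P' : HeightOneSpectrum B,
    Fr (placeOfPrime (K := k) P) = placeOfPrime P'

variable {φ : κ →+* κ} {φB : B →+* B} {Fr : Place k κ → Place k κ} {q : ℕ}

namespace FrobData

theorem phi_ne_zero (_D : FrobData φ φB Fr q) {g : κ} (hg : g ≠ 0) : φ g ≠ 0 :=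
  (map_ne_zero_iff φ φ.injective).mpr hg

theorem ord_phi_phi (D : FrobData φ φB Fr q) (v : Place k κ) (g : κ) :
    v.ord (φ (φ g)) = (q : ℤ) * q * (Fr (Fr v)).ord g := by
  rw [D.ord_map, D.ord_map]
  ring

/-- at a place fixed by `Fr²` a parameter `g` gives the parameter `g - φ (φ g)` -/
theorem ord_sub_phi_phi_of_fixed (D : FrobData φ φB Fr q) (v : Place k κ)
    (hv : Fr (Fr v) = v) {g : κ} (hg : v.ord g = 1) : v.ord (g - φ (φ g)) = 1 := by
  have hg0 : g ≠ 0 := by
    rintro rfl
    simp at hg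
  have h2 : v.ord (φ (φ g)) = (q : ℤ) * q := by
    rw [D.ord_phi_phi, hv, hg, mul_one]
  have hq2 : (2 : ℤ) ≤ q := by exact_mod_cast D.two_le
  have hlt : v.ord g < v.ord (-(φ (φ g))) := by
    rw [Fermat.Agent.S18.CoreOrd.ord_neg', h2, hg]
    nlinarith
  rw [sub_eq_add_neg, Fermat.Agent.S18.CoreOrd.ord_add_eq_of_lt v hg0
    (neg_ne_zero.mpr (D.phi_ne_zero (D.phi_ne_zero hg0))) hlt, hg]

/-- at a place not fixed by `Fr²`, a function which is a unit at `v` and vanishes at `Fr² v` gives
the unit `g - φ (φ g)` -/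
theorem ord_sub_phi_phi_of_ne (D : FrobData φ φB Fr q) (v : Place k κ) {g : κ} (hg0 : g ≠ 0)
    (hg : v.ord g = 0) (hg' : 0 < (Fr (Fr v)).ord g) : v.ord (g - φ (φ g)) = 0 := by
  have hq2 : (2 : ℤ) ≤ q := by exact_mod_cast D.two_le
  have h2 : 0 < v.ord (φ (φ g)) := by
    rw [D.ord_phi_phi]
    positivity
  have hlt : v.ord g < v.ord (-(φ (φ g))) := by
    rw [Fermat.Agent.S18.CoreOrd.ord_neg', hg]
    exact h2
  rw [sub_eq_add_neg, Fermat.Agent.S18.CoreOrd.ord_add_eq_of_lt v hg0
    (neg_ne_zero.mpr (D.phi_ne_zero (D.phi_ne_zero hg0))) hlt, hg]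

/-- **the hypothesis `hJ` of the sandwich**: the intersection of the primes of `B` whose place is
fixed by `Fr²` lies in the ideal generated by the `g - φ (φ g)`. -/
theorem inf_le_span (D : FrobData φ φB Fr q) (hB : ¬ IsField B) (Z : Finset (Ideal B))
    (hZ : ∀ P : HeightOneSpectrum B,
      Fr (Fr (placeOfPrime (K := k) P)) = placeOfPrime P → P.asIdeal ∈ Z) :
    Z.inf id ≤ Ideal.span (Set.range fun g : B => g - φB (φB g)) := by
  classical
  intro w hw
  apply mem_of_forall_exists_intValuation_le hB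
  intro P
  set a : Place k κ := placeOfPrime (K := k) P with ha
  have hspan : ∀ g : B, g - φB (φB g) ∈ Ideal.span (Set.range fun g : B => g - φB (φB g)) :=
    fun g => Ideal.subset_span ⟨g, rfl⟩
  have hcoe : ∀ g : B, algebraMap B κ (g - φB (φB g)) =
      algebraMap B κ g - φ (φ (algebraMap B κ g)) := fun g => by
    rw [map_sub, D.map_eq, D.map_eq]
  by_cases hfix : Fr (Fr a) = a
  · have hwP : w ∈ P.asIdeal := (Finset.inf_le (hZ P hfix) : Z.inf id ≤ id P.asIdeal) hw
    obtain ⟨ϖ, hϖ⟩ := P.intValuation_exists_uniformizer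
    have hϖ0 : ϖ ≠ 0 := by
      rintro rfl
      rw [map_zero] at hϖ
      exact absurd hϖ.symm (by simp)
    have hordϖ : a.ord (algebraMap B κ ϖ) = 1 := by
      have h1 := intValuation_eq_exp_neg_ord (k := k) (κ := κ) P hϖ0
      rw [hϖ, exp_inj] at h1
      rw [ha]
      omega
    have hordu : a.ord (algebraMap B κ (ϖ - φB (φB ϖ))) = 1 := by
      rw [hcoe]
      exact D.ord_sub_phi_phi_of_fixed a hfix hordϖ
    have hu0 : ϖ - φB (φB ϖ) ≠ 0 := by
      intro h0
      rw [h0, map_zero] at hordu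
      simp at hordu
    refine ⟨ϖ - φB (φB ϖ), hspan ϖ, ?_⟩
    rw [intValuation_eq_exp_neg_ord (k := k) (κ := κ) P hu0, ← ha, hordu]
    have := (P.intValuation_le_pow_iff_mem w 1).mpr (by rwa [pow_one])
    simpa using this
  · obtain ⟨P₁, hP₁⟩ := D.fr_prime P
    obtain ⟨P', hP'⟩ := D.fr_prime P₁
    have hFF : Fr (Fr a) = placeOfPrime P' := by rw [ha, hP₁, hP']
    have hne : P' ≠ P := by
      rintro rfl
      exact hfix hFF
    obtain ⟨g, hgP', hgP⟩ : ∃ g ∈ P'.asIdeal, g ∉ P.asIdeal := by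
      by_contra hcon
      push Not at hcon
      have hle : P'.asIdeal ≤ P.asIdeal := hcon
      have heq : P'.asIdeal = P.asIdeal := P'.isMaximal.eq_of_le P.isPrime.ne_top hle
      exact hne (HeightOneSpectrum.ext heq)
    have hg0 : g ≠ 0 := by
      rintro rfl
      exact hgP P.asIdeal.zero_mem
    have hgK : algebraMap B κ g ≠ 0 := (map_ne_zero_iff _ (IsFractionRing.injective B κ)).mpr hg0
    have hordg : a.ord (algebraMap B κ g) = 0 := by
      have h1 := intValuation_eq_exp_neg_ord (k := k) (κ := κ) P hg0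
      rw [HeightOneSpectrum.intValuation_eq_one_iff.mpr hgP, ← exp_zero, exp_inj] at h1
      rw [ha]
      omega
    have hordg' : 0 < (Fr (Fr a)).ord (algebraMap B κ g) := by
      rw [hFF, placeOfPrime_ord_pos_iff]
      exact ⟨hg0, hgP'⟩
    have hordu : a.ord (algebraMap B κ (g - φB (φB g))) = 0 := by
      rw [hcoe]
      exact D.ord_sub_phi_phi_of_ne a hgK hordg hordg'
    have hu0 : g - φB (φB g) ≠ 0 := by
      intro h0
      have h1 := hcoe g
      rw [h0, map_zero] at h1
      have h2 : a.ord (algebraMap B κ g) = a.ord (φ (φ (algebraMap B κ g))) := by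
        rw [← sub_eq_zero.mp h1.symm]
      rw [hordg, D.ord_phi_phi] at h2
      have hq2 : (2 : ℤ) ≤ q := by exact_mod_cast D.two_le
      have : 0 < (q : ℤ) * q * (Fr (Fr a)).ord (algebraMap B κ g) := by positivity
      omega
    refine ⟨g - φB (φB g), hspan g, ?_⟩
    rw [intValuation_eq_exp_neg_ord (k := k) (κ := κ) P hu0, ← ha, hordu, neg_zero, exp_zero]
    exact P.intValuation_le_one w

/-- the value rule: if `h` has the value `γ` at `Fr v` then `φ h` has the value `γ` at `v` -/
theorem adicValuation_phi_sub_lt_one (D : FrobData φ φB Fr q) (v : Place k κ) {h : κ} {γ : k}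
    (hγ : (Fr v).adicValuation (h - algebraMap k κ γ) < 1) :
    v.adicValuation (φ h - algebraMap k κ γ) < 1 := by
  have h1 : φ h - algebraMap k κ γ = φ (h - algebraMap k κ γ) := by
    rw [map_sub, D.map_const]
  rw [h1]
  rcases eq_or_ne (h - algebraMap k κ γ) 0 with h0 | h0
  · rw [h0, map_zero, map_zero]
    exact zero_lt_one
  · rw [← ord_pos_iff v (D.phi_ne_zero h0), D.ord_map]
    have h2 : 0 < (Fr v).ord (h - algebraMap k κ γ) := (ord_pos_iff (Fr v) h0).mpr hγ
    have hq : (0 : ℤ) < q := by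
      have := D.two_le
      exact_mod_cast (by omega : 0 < q)
    positivity

/-- **gluing in the language of places**: `h₂ - φ h₁ ∈ P` iff `h₁` and `h₂` take the same value at
`Fr a` resp. `a`, where `a` is the place of `P`. -/
theorem mem_asIdeal_sub_iff (D : FrobData φ φB Fr q) (hdeg : ∀ v : Place k κ, v.deg = 1)
    (P : HeightOneSpectrum B) (h₁ h₂ : B) :
    h₂ - φB h₁ ∈ P.asIdeal ↔ ∃ γ : k,
      (Fr (placeOfPrime (K := k) P)).adicValuation (algebraMap B κ h₁ - algebraMap k κ γ) < 1 ∧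
      (placeOfPrime (K := k) P).adicValuation (algebraMap B κ h₂ - algebraMap k κ γ) < 1 := by
  set a : Place k κ := placeOfPrime (K := k) P with ha
  obtain ⟨P₁, hP₁⟩ := D.fr_prime P
  have hreg : (Fr a).adicValuation (algebraMap B κ h₁) ≤ 1 := by
    rw [ha, hP₁]
    exact adicValuation_algebraMap_le_one P₁ h₁
  rw [mem_asIdeal_iff (k := k) (κ := κ), map_sub, D.map_eq, ← ha]
  constructor
  · intro hmem
    obtain ⟨γ, hγ⟩ := Fermat.Agent.S18.A.Riemann.exists_sub_const_lt_one (Fr a) (hdeg _) hreg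
    refine ⟨γ, hγ, ?_⟩
    have h1 := D.adicValuation_phi_sub_lt_one a hγ
    have h2 : algebraMap B κ h₂ - algebraMap k κ γ =
        (algebraMap B κ h₂ - φ (algebraMap B κ h₁)) + (φ (algebraMap B κ h₁) - algebraMap k κ γ) := by
      ring
    rw [h2]
    exact Valuation.map_add_lt _ hmem h1
  · rintro ⟨γ, hγ₁, hγ₂⟩
    have h1 := D.adicValuation_phi_sub_lt_one a hγ₁
    have h2 : algebraMap B κ h₂ - φ (algebraMap B κ h₁) =
        (algebraMap B κ h₂ - algebraMap k κ γ) - (φ (algebraMap B κ h₁) - algebraMap k κ γ) := by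
      ring
    rw [h2]
    exact Valuation.map_sub_lt _ hγ₂ h1

/-- **The nodes of a chart.**  Let `ρ₁ ρ₂ : R₀ →+* B` be two ring homomorphisms (the two
reductions of the ring `R₀` of integral functions with poles off the chart) whose joint image
contains the graphs `(g, φ g)` and `(φ g, g)`.  Then there is a finite set `N` of primes of `B`
whose places are fixed by `Fr²` such that a pair `(h₁, h₂) ∈ B × B` is of the form `(ρ₁ h, ρ₂ h)`
iff `h₁(Fr a) = h₂(a)` for every `a ∈ N`. -/
theorem exists_nodes (D : FrobData φ φB Fr q) (hB : ¬ IsField B)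
    (hdeg : ∀ v : Place k κ, v.deg = 1)
    (hfin : {P : HeightOneSpectrum B |
      Fr (Fr (placeOfPrime (K := k) P)) = placeOfPrime P}.Finite)
    {R₀ : Type*} [CommRing R₀] (ρ₁ ρ₂ : R₀ →+* B)
    (hα : ∀ g : B, ∃ h : R₀, ρ₁ h = g ∧ ρ₂ h = φB g)
    (hβ : ∀ g : B, ∃ h : R₀, ρ₁ h = φB g ∧ ρ₂ h = g) :
    ∃ N : Finset (HeightOneSpectrum B),
      (∀ P ∈ N, Fr (Fr (placeOfPrime (K := k) P)) = placeOfPrime P) ∧
      ∀ h₁ h₂ : B, (∃ h : R₀, ρ₁ h = h₁ ∧ ρ₂ h = h₂) ↔
        ∀ P ∈ N, ∃ γ : k,
          (Fr (placeOfPrime (K := k) P)).adicValuation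
            (algebraMap B κ h₁ - algebraMap k κ γ) < 1 ∧
          (placeOfPrime (K := k) P).adicValuation
            (algebraMap B κ h₂ - algebraMap k κ γ) < 1 := by
  classical
  set Bs : Subring (B × B) := (ρ₁.prod ρ₂).range with hBs
  have hmemBs : ∀ h₁ h₂ : B, (h₁, h₂) ∈ Bs ↔ ∃ h : R₀, ρ₁ h = h₁ ∧ ρ₂ h = h₂ := by
    intro h₁ h₂
    rw [hBs, RingHom.mem_range]
    constructor
    · rintro ⟨h, hh⟩
      rw [RingHom.prod_apply, Prod.mk.injEq] at hh
      exact ⟨h, hh.1, hh.2⟩
    · rintro ⟨h, e1, e2⟩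
      exact ⟨h, by rw [RingHom.prod_apply, e1, e2]⟩
  have hsand : Sandwich.IsSandwich φB φB Bs :=
    ⟨fun g => (hmemBs _ _).mpr (hα g), fun g => (hmemBs _ _).mpr (hβ g)⟩
  set Z : Finset (Ideal B) := hfin.toFinset.image (fun P => P.asIdeal) with hZ
  have hmax : ∀ m ∈ Z, m.IsMaximal := by
    intro m hm
    obtain ⟨P, -, rfl⟩ := Finset.mem_image.mp hm
    exact P.isMaximal
  have hJ : Z.inf id ≤ Ideal.span (Set.range fun g : B => g - φB (φB g)) :=
    D.inf_le_span hB Z fun P hP =>
      Finset.mem_image.mpr ⟨P, hfin.mem_toFinset.mpr hP, rfl⟩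
  obtain ⟨S, hSZ, -, hiff⟩ := Sandwich.exists_nodes hsand Z hmax hJ
  refine ⟨hfin.toFinset.filter (fun P => P.asIdeal ∈ S), fun P hP =>
    hfin.mem_toFinset.mp (Finset.mem_filter.mp hP).1, fun h₁ h₂ => ?_⟩
  rw [← hmemBs, hiff]
  constructor
  · intro hS P hP
    exact (D.mem_asIdeal_sub_iff hdeg P h₁ h₂).mp (hS _ (Finset.mem_filter.mp hP).2)
  · intro hN m hm
    obtain ⟨P, hPfix, rfl⟩ := Finset.mem_image.mp (hSZ hm)
    exact (D.mem_asIdeal_sub_iff hdeg P h₁ h₂).mpr
      (hN P (Finset.mem_filter.mpr ⟨hPfix, hm⟩))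

/-- the `Fr²`-fixed primes are finitely many as soon as the `Fr²`-fixed places are -/
theorem finite_fixed_primes (_D : FrobData φ φB Fr q)
    (h : {v : Place k κ | Fr (Fr v) = v}.Finite) :
    {P : HeightOneSpectrum B | Fr (Fr (placeOfPrime (K := k) P)) = placeOfPrime P}.Finite :=
  h.preimage (placeOfPrime_injective (K := k) (F := κ) (B := B)).injOn

/-- **The nodes of a chart, as places.**  Same as `exists_nodes`, with the node set a finite set of
places of `κ` which are fixed by `Fr²` and come from primes of `B`. -/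
theorem exists_nodes_places (D : FrobData φ φB Fr q) (hB : ¬ IsField B)
    (hdeg : ∀ v : Place k κ, v.deg = 1)
    (hfin : {v : Place k κ | Fr (Fr v) = v}.Finite)
    {R₀ : Type*} [CommRing R₀] (ρ₁ ρ₂ : R₀ →+* B)
    (hα : ∀ g : B, ∃ h : R₀, ρ₁ h = g ∧ ρ₂ h = φB g)
    (hβ : ∀ g : B, ∃ h : R₀, ρ₁ h = φB g ∧ ρ₂ h = g) :
    ∃ N : Finset (Place k κ),
      (∀ a ∈ N, Fr (Fr a) = a ∧ ∃ P : HeightOneSpectrum B, placeOfPrime P = a) ∧
      ∀ h₁ h₂ : B, (∃ h : R₀, ρ₁ h = h₁ ∧ ρ₂ h = h₂) ↔
        ∀ a ∈ N, ∃ γ : k,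
          (Fr a).adicValuation (algebraMap B κ h₁ - algebraMap k κ γ) < 1 ∧
          a.adicValuation (algebraMap B κ h₂ - algebraMap k κ γ) < 1 := by
  classical
  obtain ⟨N, hN, hiff⟩ := D.exists_nodes hB hdeg (D.finite_fixed_primes hfin) ρ₁ ρ₂ hα hβ
  refine ⟨N.image (placeOfPrime (K := k)), fun a ha => ?_, fun h₁ h₂ => ?_⟩
  · obtain ⟨P, hP, rfl⟩ := Finset.mem_image.mp ha
    exact ⟨hN P hP, P, rfl⟩
  · rw [hiff]
    constructor
    · intro h a ha
      obtain ⟨P, hP, rfl⟩ := Finset.mem_image.mp ha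
      exact h P hP
    · intro h P hP
      exact h _ (Finset.mem_image_of_mem _ hP)

end FrobData

end FF

end Fermat.Agent.S34.SandwichK
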