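/-
PROJECT U (S34), safe piece on top of `S34/TwoExt`: **`1, t, …, t^(n-1)` is an orthonormal basis of
`F'/F` for the norm `max(|·|_{V₁}, |·|_{V₂})`** (the two extensions of `O`).

For `P ∈ F[X]` of degree `< n = deg Φ` and `c ∈ F`:
`|P(t)|_{V₁} ≤ |c|` and `|P(t)|_{V₂} ≤ |c|`  ⟺  every coefficient `a_i` of `P` has `|a_i|_O ≤ |c|_O`.
-/
import Mathlib
import Fermat.Agent.S34.TwoExt

set_option autoImplicit false

noncomputable section

namespace Fermat.Agent.S34.TwoExtOB

open Polynomial IsLocalRing Fermat.Agent.S34.TwoExt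

variable {F : Type*} [Field F] {F' : Type*} [Field F'] [Algebra F F']
variable {O : ValuationSubring F} (S : Setup O F') {V₁ V₂ : ValuationSubring F'}

theorem val_alg_le_val_alg_iff {V : ValuationSubring F'} (hV : V.comap (algebraMap F F') = O)
    (a c : F) (hc : c ≠ 0) :
    V.valuation (algebraMap F F' a) ≤ V.valuation (algebraMap F F' c) ↔
      O.valuation a ≤ O.valuation c := by
  have hc' : algebraMap F F' c ≠ 0 := (_root_.map_ne_zero _).mpr hc
  have h1 : V.valuation (algebraMap F F' c) ≠ 0 := (Valuation.ne_zero_iff _).mpr hc'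
  have h2 : O.valuation c ≠ 0 := (Valuation.ne_zero_iff _).mpr hc
  have h3 := val_alg_le_one_iff hV (a / c)
  rw [map_div₀, map_div₀, map_div₀, div_le_one₀ (lt_of_le_of_ne zero_le h1.symm),
    div_le_one₀ (lt_of_le_of_ne zero_le h2.symm)] at h3
  exact h3

/-- Every value `P(t)` with coefficients in `O` is integral at any valuation subring over `O`. -/
theorem val_aeval_le_of_coeff {V : ValuationSubring F'} (hV : V.comap (algebraMap F F') = O)
    (P : F[X]) (c : F) (hc : c ≠ 0) (hP : ∀ i, O.valuation (P.coeff i) ≤ O.valuation c) :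
    V.valuation (aeval S.t P) ≤ V.valuation (algebraMap F F' c) := by
  rw [aeval_eq_sum_range]
  refine Valuation.map_sum_le _ fun i _ => ?_
  rw [Algebra.smul_def, map_mul, map_pow]
  have h1 : V.valuation (algebraMap F F' (P.coeff i)) ≤ V.valuation (algebraMap F F' c) :=
    (val_alg_le_val_alg_iff hV _ _ hc).mpr (hP i)
  have h2 : V.valuation S.t ^ i ≤ 1 :=
    pow_le_one' ((V.valuation_le_one_iff _).mpr (S.t_mem hV)) i
  exact (mul_le_of_le_one_right' h2).trans h1

/-- **Orthonormality of `1, t, …, t^(n-1)`** for the pair `(V₁, V₂)`. -/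
theorem coeff_le_iff (h₁ : S.IsExt S.G₁ V₁) (h₂ : S.IsExt S.G₂ V₂) (P : F[X])
    (hdeg : P.natDegree < S.Φ.natDegree) (c : F) (hc : c ≠ 0) :
    (∀ i, O.valuation (P.coeff i) ≤ O.valuation c) ↔
      V₁.valuation (aeval S.t P) ≤ V₁.valuation (algebraMap F F' c) ∧
        V₂.valuation (aeval S.t P) ≤ V₂.valuation (algebraMap F F' c) := by
  constructor
  · intro hP
    exact ⟨val_aeval_le_of_coeff S h₁.comap P c hc hP, val_aeval_le_of_coeff S h₂.comap P c hc hP⟩
  · rintro ⟨hv₁, hv₂⟩ i
    have hc' : algebraMap F F' c ≠ 0 := (_root_.map_ne_zero _).mpr hc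
    -- rescale by `c⁻¹`
    have hQdeg : (C c⁻¹ * P).natDegree < S.Φ.natDegree :=
      lt_of_le_of_lt (natDegree_C_mul_le _ _) hdeg
    have hQ : aeval S.t (C c⁻¹ * P) = (algebraMap F F' c)⁻¹ * aeval S.t P := by
      rw [map_mul, aeval_C, map_inv₀]
    have hmem : ∀ {V : ValuationSubring F'},
        V.valuation (aeval S.t P) ≤ V.valuation (algebraMap F F' c) →
        aeval S.t (C c⁻¹ * P) ∈ V := by
      intro V hv
      rw [← ValuationSubring.valuation_le_one_iff, hQ, map_mul, map_inv₀,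
        inv_mul_le_iff₀ (lt_of_le_of_ne zero_le ((Valuation.ne_zero_iff _).mpr hc').symm), mul_one]
      exact hv
    have := S.coeff_mem_of_mem h₁ h₂ (C c⁻¹ * P) hQdeg (hmem hv₁) (hmem hv₂) i
    rw [coeff_C_mul, ← ValuationSubring.valuation_le_one_iff, map_mul, map_inv₀,
      inv_mul_le_iff₀ (lt_of_le_of_ne zero_le ((Valuation.ne_zero_iff _).mpr hc).symm),
      mul_one] at this
    exact this

end Fermat.Agent.S34.TwoExtOB
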